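/-
The degree of the second degeneracy map `X₀(Nℓ) → X₀(N)` when `ℓ` divides `N`.
-/
import Fermat.Agent.HeckeJ.Degree
import Fermat.Agent.Mazur.ModuliJ
import Fermat.Agent.Curve.BasicModular

set_option autoImplicit false
set_option linter.style.haveILetI false

noncomputable section

open ModularCurve AlgebraicCurve Polynomial

namespace Fermat.Agent.Residual.Ord2

local notation "Qbar" => AlgebraicClosure ℚ

/-- An extension generated by a root of a polynomial which has another root in the base. -/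
theorem finrankAlong_lt_of_roots {L S : Type*} [Field L] [Field S] [Algebra L S]
    {F F' : IntermediateField L S} (φ : F →ₐ[L] F') (hfin : FiniteAlong L φ) (E : S →+* S)
    (hφ : ∀ y : F, (φ y : S) = E y) (P : Polynomial F) (hP : P.Monic) (z : F) (hz : P.IsRoot z)
    (x : F') (hx : P.eval₂ (E.comp F.val.toRingHom) (x : S) = 0) (hne : (x : S) ≠ E z)
    (hgen : ∀ v ∈ F', v ∈ IntermediateField.adjoin L (insert (x : S) (E '' (F : Set S)))) :
    finrankAlong L φ < P.natDegree := by
  letI := algebraAlong φ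
  haveI : FiniteDimensional F F' := hfin
  have hval : ∀ f : F, ((algebraMap F F' f : F') : S) = E (f : S) := hφ
  have hv : F'.val.toRingHom.comp (algebraMap F F') = E.comp F.val.toRingHom :=
    RingHom.ext hval
  obtain ⟨Q, hQ⟩ := Polynomial.dvd_iff_isRoot.2 hz
  have hQmon : Q.Monic := (Polynomial.monic_X_sub_C z).of_mul_monic_left (hQ ▸ hP)
  have hroot : Polynomial.aeval x Q = 0 := by
    have h : Polynomial.aeval x P = 0 := by
      apply F'.val.injective
      rw [map_zero, ← hx, Polynomial.aeval_def]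
      show F'.val.toRingHom _ = _
      rw [Polynomial.hom_eval₂, hv]
      rfl
    rw [hQ, map_mul, mul_eq_zero] at h
    refine h.resolve_left fun h0 => hne ?_
    rw [Polynomial.aeval_sub, Polynomial.aeval_X, Polynomial.aeval_C, sub_eq_zero] at h0
    rw [← hval z, ← h0]
  have hint : IsIntegral F x := ⟨Q, hQmon, hroot⟩
  have htop : IntermediateField.adjoin F ({x} : Set F') = ⊤ := by
    rw [eq_top_iff]
    intro w _
    have key : ∀ v ∈ IntermediateField.adjoin L (insert (x : S) (E '' (F : Set S))),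
        ∃ h : v ∈ F', (⟨v, h⟩ : F') ∈ IntermediateField.adjoin F ({x} : Set F') := by
      intro v hv'
      induction hv' using IntermediateField.adjoin_induction with
      | mem y hy =>
        rcases hy with rfl | ⟨f, hf, rfl⟩
        · exact ⟨x.2, IntermediateField.mem_adjoin_simple_self F x⟩
        · refine ⟨(hφ ⟨f, hf⟩) ▸ (φ ⟨f, hf⟩).2, ?_⟩
          convert (IntermediateField.adjoin F ({x} : Set F')).algebraMap_mem ⟨f, hf⟩ using 1
          exact Subtype.ext (hval ⟨f, hf⟩).symm
      | algebraMap c =>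
        refine ⟨F'.algebraMap_mem c, ?_⟩
        convert (IntermediateField.adjoin F ({x} : Set F')).algebraMap_mem (algebraMap L F c) using 1
        exact Subtype.ext (congrArg Subtype.val (φ.commutes c).symm)
      | add a b _ _ ha hb =>
        exact ⟨add_mem ha.1 hb.1, (IntermediateField.adjoin F ({x} : Set F')).add_mem ha.2 hb.2⟩
      | inv a _ ha =>
        exact ⟨inv_mem ha.1, (IntermediateField.adjoin F ({x} : Set F')).inv_mem ha.2⟩
      | mul a b _ _ ha hb =>
        exact ⟨mul_mem ha.1 hb.1, (IntermediateField.adjoin F ({x} : Set F')).mul_mem ha.2 hb.2⟩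
    obtain ⟨h, h'⟩ := key w (hgen w w.2)
    exact h'
  show Module.finrank F F' < _
  have h1 : Module.finrank F F' = (minpoly F x).natDegree := by
    rw [← IntermediateField.adjoin.finrank hint, htop, IntermediateField.finrank_top']
  have h2 : (minpoly F x).natDegree ≤ Q.natDegree :=
    Polynomial.natDegree_le_of_dvd (minpoly.dvd F x hroot) hQmon.ne_zero
  rw [h1, hQ, (Polynomial.monic_X_sub_C z).natDegree_mul hQmon, Polynomial.natDegree_X_sub_C]
  omega

theorem eval_Φ_swap (K : Type*) [Field K] {ℓ : ℕ} [Fact ℓ.Prime] (d : ModularPolynomialData ℓ) :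
    d.Φ.eval₂ (Polynomial.eval₂RingHom (Int.castRingHom (LaurentSeries K)) (jqNModC K ℓ))
      (jqModC K) = 0 := by
  have h := congrArg (coeffMap (Int.castRingHom K)) (Mazur.eval_Φ_int_swap d)
  rwa [Mazur.eval₂_coeffMap, map_zero, coeffMap_jqModC, coeffMap_jqNModC] at h

theorem eval_Φ_self (K : Type*) [Field K] {ℓ : ℕ} [NeZero ℓ] (d : ModularPolynomialData ℓ) :
    d.Φ.eval₂ (Polynomial.eval₂RingHom (Int.castRingHom (LaurentSeries K)) (jqModC K))
      (jqNModC K ℓ) = 0 := by
  have h := congrArg (coeffMap (Int.castRingHom K)) (Mazur.eval_Φ_int d)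
  rwa [Mazur.eval₂_coeffMap, map_zero, coeffMap_jqModC, coeffMap_jqNModC] at h

theorem eval₂_map_cast {S S' : Type*} [CommRing S] [CommRing S'] (f : S →+* S') (a b : S)
    (Φ : Polynomial (Polynomial ℤ)) :
    f (Φ.eval₂ (Polynomial.eval₂RingHom (Int.castRingHom S) a) b) =
      Φ.eval₂ (Polynomial.eval₂RingHom (Int.castRingHom S') (f a)) (f b) := by
  rw [Polynomial.hom_eval₂]
  congr 1
  exact Polynomial.ringHom_ext (fun n => by simp) (by simp)

/-- The degree of `β` is at most `ℓ` when `ℓ` divides the level. -/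
theorem finrankAlong_heckeBetaBar_le {N ℓ : ℕ} [NeZero N] [NeZero ℓ] (hℓ : ℓ.Prime)
    (hN : ℓ ∣ N) : finrankAlong Qbar (heckeBetaBar Qbar N ℓ) ≤ ℓ := by
  haveI : Fact ℓ.Prime := ⟨hℓ⟩
  let d := ModFun.modularPolynomialData ℓ
  have hj : jqModC Qbar ∈ laurentBaseChange Qbar (modularFunctionFieldFull N) := by
    rw [Curve.laurentBaseChange_full_eq_fullC]; exact jqModC_mem_full Qbar N
  have hjl : jqNModC Qbar ℓ ∈ laurentBaseChange Qbar (modularFunctionFieldFull N) := by
    rw [Curve.laurentBaseChange_full_eq_fullC]; exact jqModCd_mem_full Qbar N hN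
  have hjN : jqNModC Qbar N ∈ laurentBaseChange Qbar (modularFunctionFieldFull N) := by
    rw [Curve.laurentBaseChange_full_eq_fullC]; exact jqModCd_mem_full Qbar N dvd_rfl
  have hj' : jqModC Qbar ∈ laurentBaseChange Qbar (modularFunctionFieldFull (N * ℓ)) := by
    rw [Curve.laurentBaseChange_full_eq_fullC]; exact jqModC_mem_full Qbar (N * ℓ)
  set F := laurentBaseChange Qbar (modularFunctionFieldFull N) with hF
  let x : F := ⟨_, hj⟩
  have hP : (d.Φ.map (Polynomial.eval₂RingHom (Int.castRingHom F) x)).Monic := d.monic.map _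
  have hdeg : (d.Φ.map (Polynomial.eval₂RingHom (Int.castRingHom F) x)).natDegree = ℓ + 1 := by
    rw [d.monic.natDegree_map, d.natDegree_eq]
    have h := HeckeJ.dedekindPsi_mul_prime (N := 1) hℓ
    rwa [one_mul, dedekindPsi_one, one_mul, HeckeJ.levelIndex, if_neg hℓ.not_dvd_one] at h
  have hz : (d.Φ.map (Polynomial.eval₂RingHom (Int.castRingHom F) x)).IsRoot
      (⟨_, hjl⟩ : F) := by
    apply F.val.toRingHom.injective
    rw [Polynomial.eval_map, eval₂_map_cast, map_zero]
    exact eval_Φ_self Qbar d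
  have hx : (d.Φ.map (Polynomial.eval₂RingHom (Int.castRingHom F) x)).eval₂
      ((qExpand Qbar ℓ).comp F.val.toRingHom) (jqModC Qbar) = 0 := by
    rw [Polynomial.eval₂_map]
    refine Eq.trans ?_ (eval_Φ_swap Qbar d)
    congr 1
    refine Polynomial.ringHom_ext (fun n => by simp) ?_
    simp only [RingHom.coe_comp, Function.comp_apply, Polynomial.coe_eval₂RingHom,
      Polynomial.eval₂_X]
    rfl
  have hne : jqModC Qbar ≠ qExpand Qbar ℓ (jqNModC Qbar ℓ) := by
    intro h
    have h1 := congrArg (fun w : LaurentSeries Qbar => w.coeff (-1)) h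
    simp only [jqNModC, qExpand_qExpand, coeff_jqModC_neg_one] at h1
    rw [qExpand_coeff_of_not_dvd] at h1
    · exact one_ne_zero h1
    · rw [dvd_neg]
      intro hdvd
      have h2 : ℓ * ℓ ∣ 1 := by exact_mod_cast hdvd
      exact hℓ.ne_one (Nat.dvd_one.1 (dvd_of_mul_left_dvd h2))
  have hgen : ∀ v ∈ laurentBaseChange Qbar (modularFunctionFieldFull (N * ℓ)),
      v ∈ IntermediateField.adjoin Qbar
        (insert (jqModC Qbar) (qExpand Qbar ℓ '' (F : Set (LaurentSeries Qbar)))) := by
    intro v hv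
    rw [ModFun.laurentBaseChange_full_eq, modularFunctionFieldC] at hv
    refine IntermediateField.adjoin.mono Qbar _ _ ?_ hv
    rintro y (rfl | rfl)
    · exact Set.mem_insert _ _
    · refine Set.mem_insert_of_mem _ ⟨_, hjN, ?_⟩
      rw [jqNModC, jqNModC, qExpand_qExpand]
      exact qExpand_congr (mul_comm ℓ N) _
  have h := finrankAlong_lt_of_roots (heckeBetaBar Qbar N ℓ)
    (Curve.finiteAlong (heckeBetaBar Qbar N ℓ)) (qExpand Qbar ℓ)
    (fun y => coe_heckeBetaBar N ℓ y) _ hP ⟨_, hjl⟩ hz ⟨_, hj'⟩ hx hne hgen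
  rw [hdeg] at h
  exact Nat.lt_succ_iff.1 h

end Fermat.Agent.Residual.Ord2
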