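/-
Composition of a modular function of level `N` with an integer matrix normalising `Γ₀(N)`, and
the endomorphism of `ℂ(j, j_N)` it induces.
-/
import Fermat.Agent.ModFun.Field
import Fermat.Agent.Newform.AtkinMatrix
import Fermat.Agent.Places.Analytic

set_option autoImplicit false

noncomputable section

open Filter UpperHalfPlane CongruenceSubgroup ModularCurve Fermat.Agent.ModFun
open scoped Topology MatrixGroups

namespace Fermat.Agent.Residual

open Fermat.Agent

/-- Equality off a discrete set is preserved by composition with a Möbius transformation. -/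
theorem eqPunct_comp_gl {f₁ f₂ : ℍ → ℂ} (h : EqPunct f₁ f₂) {g : GL (Fin 2) ℝ}
    (hg : 0 < g.val.det) : EqPunct (fun z => f₁ (g • z)) (fun z => f₂ (g • z)) := by
  intro z
  have hA : ∀ u : ℍ → ℂ, (fun w => u (g • w)) ∘ ofComplex =
      (u ∘ ofComplex) ∘ fun w : ℂ => ((g • ofComplex w : ℍ) : ℂ) := fun u => by
    funext w; simp [ofComplex_apply]
  rw [hA f₁, hA f₂]
  refine (h (g • z)).comp_tendsto (tendsto_nhdsWithin_iff.mpr ⟨?_, ?_⟩)
  · have hc := (UpperHalfPlane.analyticAt_smul hg z).continuousAt.tendsto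
    rw [ofComplex_apply] at hc
    exact hc.mono_left nhdsWithin_le_nhds
  · filter_upwards [self_mem_nhdsWithin,
      mem_nhdsWithin_of_mem_nhds (isOpen_upperHalfPlaneSet.mem_nhds z.im_pos)] with w hw hw'
    intro he
    rw [Set.mem_singleton_iff, UpperHalfPlane.coe_inj, smul_left_cancel_iff] at he
    apply hw
    rw [Set.mem_singleton_iff, ← he, ofComplex_apply_of_im_pos hw']

/-- Meromorphy is preserved by composition with a Möbius transformation. -/
theorem meroH_comp_gl {f : ℍ → ℂ} (hf : MeroH f) {g : GL (Fin 2) ℝ} (hg : 0 < g.val.det) :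
    MeroH fun z => f (g • z) := by
  intro z hz
  have hA : (fun w => f (g • w)) ∘ ofComplex =
      (f ∘ ofComplex) ∘ fun w : ℂ => ((g • ofComplex w : ℍ) : ℂ) := by
    funext w; simp [ofComplex_apply]
  rw [hA]
  refine MeromorphicAt.comp_analyticAt ?_ (UpperHalfPlane.analyticAt_smul hg ⟨z, hz⟩)
  exact hf _ (g • ofComplex z).im_pos

/-- An integer matrix of positive determinant is a unimodular matrix times an upper triangular
one with positive diagonal and non-negative corner. -/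
theorem exists_SL_mul_upper {X : Matrix (Fin 2) (Fin 2) ℤ} (hX : 0 < X.det) :
    ∃ (η : SL(2, ℤ)) (a b e : ℕ), 0 < a ∧ 0 < e ∧
      X = (η : Matrix (Fin 2) (Fin 2) ℤ) * !![(a : ℤ), (b : ℤ); 0, (e : ℤ)] := by
  rw [Matrix.det_fin_two] at hX
  have hne : X 0 0 ≠ 0 ∨ X 1 0 ≠ 0 := by
    by_contra h
    push Not at h
    simp [h.1, h.2] at hX
  have hg0 : 0 < Int.gcd (X 0 0) (X 1 0) := Int.gcd_pos_iff.2 hne
  obtain ⟨p, hp⟩ := Int.gcd_dvd_left (X 0 0) (X 1 0)
  obtain ⟨r, hr⟩ := Int.gcd_dvd_right (X 0 0) (X 1 0)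
  have hb := Int.gcd_eq_gcd_ab (X 0 0) (X 1 0)
  generalize Int.gcd (X 0 0) (X 1 0) = g at hg0 hp hr hb
  generalize Int.gcdA (X 0 0) (X 1 0) = u at hb
  generalize Int.gcdB (X 0 0) (X 1 0) = v at hb
  have hgz : (0 : ℤ) < g := by exact_mod_cast hg0
  have h1 : p * u + r * v = 1 := by
    apply mul_left_cancel₀ hgz.ne'
    rw [hp, hr] at hb
    linear_combination -hb
  set y : ℤ := u * X 0 1 + v * X 1 1 with hy
  set e' : ℤ := -r * X 0 1 + p * X 1 1 with he'
  have hdet : (g : ℤ) * e' = X 0 0 * X 1 1 - X 0 1 * X 1 0 := by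
    rw [he', hp, hr]; ring
  have he0 : 0 < e' := by
    by_contra hc
    push Not at hc
    nlinarith
  set k : ℤ := |y|
  have hb0 : 0 ≤ y + k * e' := by
    have h2 : k * 1 ≤ k * e' := mul_le_mul_of_nonneg_left he0 (abs_nonneg y)
    have h3 := neg_abs_le y
    omega
  refine ⟨⟨!![p, -v - k * p; r, u - k * r], ?_⟩, g, (y + k * e').toNat, e'.toNat, hg0,
    by omega, ?_⟩
  · rw [Matrix.det_fin_two_of]
    linear_combination h1
  rw [Int.toNat_of_nonneg he0.le, Int.toNat_of_nonneg hb0]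
  ext i j
  fin_cases i <;> fin_cases j <;> simp [Matrix.mul_apply, Fin.sum_univ_two]
  · linear_combination hp
  · rw [hy, he']
    linear_combination -X 0 1 * h1
  · linear_combination hr
  · rw [hy, he']
    linear_combination -X 1 1 * h1

/-- `W` normalises `Γ₀(N)` on one side. -/
def Normalises (N : ℕ) (W : Matrix (Fin 2) (Fin 2) ℤ) : Prop :=
  0 < W.det ∧ ∀ γ ∈ Gamma0 N, ∃ γ' ∈ Gamma0 N,
    W * (γ : Matrix (Fin 2) (Fin 2) ℤ) = (γ' : Matrix (Fin 2) (Fin 2) ℤ) * W

variable {N : ℕ} [NeZero N] {W : Matrix (Fin 2) (Fin 2) ℤ}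

omit [NeZero N] in
theorem Normalises.det_pos (hW : Normalises N W) : 0 < (Newform.atkinGL W).val.det :=
  Newform.atkinGL_det_pos hW.1

theorem atkinGL_smul_SL_eq {X Y : Matrix (Fin 2) (Fin 2) ℤ} (hY : Y.det ≠ 0) {η : SL(2, ℤ)}
    (h : X = (η : Matrix (Fin 2) (Fin 2) ℤ) * Y) (τ : ℍ) :
    Newform.atkinGL X • τ = η • Newform.atkinGL Y • τ := by
  subst h
  rw [Newform.atkinGL_mul (by simp) hY, mul_smul, Newform.atkinGL_coe_SL]
  rfl

theorem atkinGL_smul_smul {X : Matrix (Fin 2) (Fin 2) ℤ} (hX : X.det ≠ 0) (γ : SL(2, ℤ))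
    (τ : ℍ) : Newform.atkinGL X • γ • τ =
      Newform.atkinGL (X * (γ : Matrix (Fin 2) (Fin 2) ℤ)) • τ := by
  rw [Newform.atkinGL_mul hX (by simp), mul_smul, Newform.atkinGL_coe_SL]
  rfl

theorem coe_atkinGL_smul {X : Matrix (Fin 2) (Fin 2) ℤ} (hX : 0 < X.det) (τ : ℍ) :
    ((Newform.atkinGL X • τ : ℍ) : ℂ) =
      ((X 0 0 : ℂ) * τ + X 0 1) / ((X 1 0 : ℂ) * τ + X 1 1) := by
  rw [coe_smul_of_det_pos (Newform.atkinGL_det_pos hX)]
  simp [UpperHalfPlane.num, UpperHalfPlane.denom, Newform.val_atkinGL hX.ne']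

omit [NeZero N] in
theorem Normalises.smul_eq (hW : Normalises N W) {f : ℍ → ℂ}
    (hf : ∀ γ ∈ Gamma0 N, ∀ τ, f (γ • τ) = f τ) {γ : SL(2, ℤ)} (hγ : γ ∈ Gamma0 N) (τ : ℍ) :
    f (Newform.atkinGL W • γ • τ) = f (Newform.atkinGL W • τ) := by
  obtain ⟨γ', hγ', e⟩ := hW.2 γ hγ
  rw [atkinGL_smul_smul hW.1.ne', atkinGL_smul_SL_eq hW.1.ne' e, hf γ' hγ']

omit [NeZero N] in
theorem conj_T_pow_mem_Gamma0 (γ : SL(2, ℤ)) :
    γ * ModularGroup.T ^ (N : ℤ) * γ⁻¹ ∈ Gamma0 N := by
  rw [Gamma0_mem, ZMod.intCast_zmod_eq_zero_iff_dvd]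
  refine ⟨-(γ.1 1 0 * γ.1 1 0), ?_⟩
  rw [Matrix.SpecialLinearGroup.coe_mul, Matrix.SpecialLinearGroup.coe_mul,
    ModularGroup.coe_T_zpow, Matrix.SpecialLinearGroup.coe_inv]
  simp [Matrix.adjugate_fin_two, Matrix.mul_apply, Fin.sum_univ_two]
  ring

/-- Composition with a normalising matrix preserves modular functions. -/
theorem isModularFun_comp_normalises (hW : Normalises N W) {f : ℍ → ℂ}
    (hf : IsModularFun N f) : IsModularFun N fun τ => f (Newform.atkinGL W • τ) where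
  mero := meroH_comp_gl hf.mero hW.det_pos
  smul_eq := fun γ hγ τ => hW.smul_eq hf.smul_eq hγ τ
  cusps := fun γ => by
    have hX : 0 < (W * (γ : Matrix (Fin 2) (Fin 2) ℤ)).det := by simpa using hW.1
    obtain ⟨η, a, b, e, ha, he, hXe⟩ := exists_SL_mul_upper hX
    haveI : NeZero a := ⟨ha.ne'⟩
    haveI : NeZero e := ⟨he.ne'⟩
    obtain ⟨x, hx⟩ := hf.cusps η
    have h2 : HasQExp (1 * N) (fun τ => f (η • triPoint N 0 1 τ)) (qExpand ℂ N x) := by
      rw [one_mul]; exact hx.comp_mul N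
    have h3 := (h2.of_expand_period N).comp_triPoint a b (N * e)
    have hU : 0 < Matrix.det !![(a : ℤ), (b : ℤ); 0, (e : ℤ)] := by
      simp only [Matrix.det_fin_two_of, mul_zero, sub_zero]; positivity
    have hpt : ∀ τ : ℍ,
        Newform.atkinGL W • γ • τ = η • triPoint N 0 1 (triPoint a b (N * e) τ) := by
      intro τ
      rw [atkinGL_smul_smul hW.1.ne', atkinGL_smul_SL_eq hU.ne' hXe]
      congr 1
      apply UpperHalfPlane.ext
      rw [coe_atkinGL_smul hU, coe_triPoint, coe_triPoint]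
      have hN : (N : ℂ) ≠ 0 := Nat.cast_ne_zero.2 (NeZero.ne N)
      simp
      field_simp
    have h4 : HasQExp (N * e) (fun τ => f (Newform.atkinGL W • γ • τ)) _ :=
      h3.congr (Eventually.of_forall fun τ => (congrArg f (hpt τ)).symm)
    obtain ⟨y, -, hy⟩ := h4.exists_of_periodic e (Eventually.of_forall fun τ => by
      have hT : ((N : ℕ) : ℝ) +ᵥ τ = ModularGroup.T ^ (N : ℤ) • τ := by
        rw [modular_T_zpow_smul, Int.cast_natCast]
      rw [hT]
      have := hW.smul_eq hf.smul_eq (conj_T_pow_mem_Gamma0 (N := N) γ) (γ • τ)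
      rw [smul_smul (γ * _ * γ⁻¹) γ τ, inv_mul_cancel_right, mul_smul γ] at this
      exact this)
    exact ⟨y, hy⟩

/-- The element of `ℂ(j, j_N)` with the given function. -/
def ofFun {f : ℍ → ℂ} (hf : IsModularFun N f) : modularFunctionFieldC ℂ N :=
  ⟨hf.exists_hasQExp.choose,
    mem_modularFunctionFieldC_of_hasQExp hf hf.exists_hasQExp.choose_spec⟩

theorem toFun_ofFun {f : ℍ → ℂ} (hf : IsModularFun N f) : EqPunct (toFun (ofFun hf)) f :=
  toFun_eqPunct _ hf hf.exists_hasQExp.choose_spec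

theorem toFun_injective {x y : modularFunctionFieldC ℂ N} (h : EqPunct (toFun x) (toFun y)) :
    x = y :=
  Subtype.ext (Places.qexp_eq_of_eqPunct (hasQExp_toFun x) (hasQExp_toFun y) h)

/-- Composition with a normalising matrix, as an endomorphism of `ℂ(j, j_N)`. -/
def mobiusHom (hW : Normalises N W) :
    modularFunctionFieldC ℂ N →ₐ[ℂ] modularFunctionFieldC ℂ N where
  toFun x := ofFun (isModularFun_comp_normalises hW (isModularFun_toFun x))
  map_one' := toFun_injective <| (toFun_ofFun _).trans <| by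
    have h := toFun_algebraMap (N := N) 1
    rw [map_one] at h
    exact (eqPunct_comp_gl h hW.det_pos).trans h.symm
  map_mul' x y := toFun_injective <| (toFun_ofFun _).trans <|
    (eqPunct_comp_gl (toFun_mul x y) hW.det_pos).trans <| EqPunct.symm <|
      (toFun_mul _ _).trans (Places.eqPunct_mul (toFun_ofFun _) (toFun_ofFun _))
  map_zero' := toFun_injective <| (toFun_ofFun _).trans <| by
    have h := toFun_algebraMap (N := N) 0
    rw [map_zero] at h
    exact (eqPunct_comp_gl h hW.det_pos).trans h.symm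
  map_add' x y := toFun_injective <| (toFun_ofFun _).trans <|
    (eqPunct_comp_gl (toFun_add x y) hW.det_pos).trans <| EqPunct.symm <|
      (toFun_add _ _).trans (Places.eqPunct_add (toFun_ofFun _) (toFun_ofFun _))
  commutes' c := toFun_injective <| (toFun_ofFun _).trans <|
    (eqPunct_comp_gl (toFun_algebraMap c) hW.det_pos).trans (toFun_algebraMap c).symm

theorem toFun_mobiusHom (hW : Normalises N W) (x : modularFunctionFieldC ℂ N) :
    EqPunct (toFun (mobiusHom hW x)) fun τ => toFun x (Newform.atkinGL W • τ) :=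
  toFun_ofFun (isModularFun_comp_normalises hW (isModularFun_toFun x))

/-- Endomorphisms of `ℂ(j, j_N)` agree when they agree on the generators. -/
theorem algHom_ext_gens {L : Type*} [Field L] [Algebra ℂ L]
    {φ ψ : modularFunctionFieldC ℂ N →ₐ[ℂ] L}
    (h1 : φ ⟨jqModC ℂ, jqModC_mem ℂ N⟩ = ψ ⟨jqModC ℂ, jqModC_mem ℂ N⟩)
    (h2 : φ ⟨jqNModC ℂ N, jqNModC_mem ℂ N⟩ = ψ ⟨jqNModC ℂ N, jqNModC_mem ℂ N⟩) : φ = ψ := by
  refine AlgHom.ext fun x => ?_
  obtain ⟨x, hx⟩ := x
  induction hx using IntermediateField.adjoin_induction with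
  | mem y hy =>
    rcases hy with rfl | rfl
    exacts [h1, h2]
  | algebraMap c => exact (φ.commutes c).trans (ψ.commutes c).symm
  | add a b ha hb iha ihb =>
    rw [show (⟨a + b, add_mem ha hb⟩ : modularFunctionFieldC ℂ N) = ⟨a, ha⟩ + ⟨b, hb⟩ from rfl,
      map_add, map_add, iha, ihb]
  | inv a ha iha =>
    rw [show (⟨a⁻¹, inv_mem ha⟩ : modularFunctionFieldC ℂ N) = (⟨a, ha⟩)⁻¹ from rfl,
      map_inv₀, map_inv₀, iha]
  | mul a b ha hb iha ihb =>
    rw [show (⟨a * b, mul_mem ha hb⟩ : modularFunctionFieldC ℂ N) = ⟨a, ha⟩ * ⟨b, hb⟩ from rfl,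
      map_mul, map_mul, iha, ihb]

end Fermat.Agent.Residual

end
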