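/-
A torsion class fixed by an automorphism of the constants has a representative whose function is
fixed: normalise the leading coefficients at `∞` and apply Hilbert 90 on a finite period.
-/
import Fermat.Agent.BadReduction.X0Components
import Fermat.Agent.Bad.GluingNormal
import Mathlib.LinearAlgebra.LinearIndependent.Lemmas

set_option autoImplicit false
set_option linter.style.haveILetI false

noncomputable section

open ModularCurve AlgebraicCurve
open Fermat.Agent.Curve Fermat.Agent.Bad Fermat.Agent.BadReduction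

namespace Fermat.Agent.Residual.Lower

local notation "ℚbar" => AlgebraicClosure ℚ

variable {N : ℕ}

/-- The coefficientwise action, as an endomorphism. -/
def galEnd (σ : ℚbar ≃ₐ[ℚ] ℚbar) : modularFunctionFieldBar N →+* modularFunctionFieldBar N :=
  (arithmeticRingAut (L := ℚbar) (modularFunctionFieldFull N) σ).toRingHom

theorem galEnd_apply (σ : ℚbar ≃ₐ[ℚ] ℚbar) (x : modularFunctionFieldBar N) :
    galEnd σ x = arithmeticGalois (modularFunctionFieldFull N) σ • x := rfl

theorem galEnd_injective (σ : ℚbar ≃ₐ[ℚ] ℚbar) : Function.Injective (galEnd (N := N) σ) :=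
  (arithmeticRingAut (L := ℚbar) (modularFunctionFieldFull N) σ).injective

theorem galEnd_algebraMap (σ : ℚbar ≃ₐ[ℚ] ℚbar) (a : ℚbar) :
    galEnd (N := N) σ (algebraMap ℚbar _ a) = algebraMap ℚbar _ (σ a) :=
  arithmeticRingAut_algebraMap _ σ a

theorem galEnd_iterate (σ : ℚbar ≃ₐ[ℚ] ℚbar) (i : ℕ) (x : modularFunctionFieldBar N) :
    (galEnd σ)^[i] x = arithmeticGalois (modularFunctionFieldFull N) (σ ^ i) • x := by
  induction i with
  | zero => rw [pow_zero, map_one, one_smul, Function.iterate_zero, id]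
  | succ i ih =>
    rw [Function.iterate_succ_apply', ih, galEnd_apply, pow_succ', map_mul, mul_smul]

/-- The orbits of a Galois automorphism on constants are finite. -/
theorem exists_period_const (σ : ℚbar ≃ₐ[ℚ] ℚbar) (a : ℚbar) :
    ∃ m : ℕ, 0 < m ∧ (σ ^ m) a = a := by
  set f := minpoly ℚ a
  have hf : f ≠ 0 := minpoly.ne_zero (Algebra.IsIntegral.isIntegral a)
  have hmem : ∀ i : ℕ, (σ ^ i) a ∈ f.rootSet ℚbar := fun i => by
    refine (Polynomial.mem_rootSet_of_ne hf).2 ?_
    rw [Polynomial.aeval_algHom_apply, minpoly.aeval, map_zero]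
  have := (f.rootSet_finite ℚbar).to_subtype
  obtain ⟨i, j, hij, he⟩ := Finite.exists_ne_map_eq_of_infinite
    (fun i : ℕ => (⟨_, hmem i⟩ : f.rootSet ℚbar))
  have he' : (σ ^ i) a = (σ ^ j) a := congrArg Subtype.val he
  rcases lt_or_gt_of_ne hij with h | h
  · refine ⟨j - i, by omega, (σ ^ i).injective ?_⟩
    rw [← AlgEquiv.mul_apply, ← pow_add, Nat.add_sub_cancel' h.le, he']
  · refine ⟨i - j, by omega, (σ ^ j).injective ?_⟩
    rw [← AlgEquiv.mul_apply, ← pow_add, Nat.add_sub_cancel' h.le, he']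

/-- The orbits of a Galois automorphism on functions are finite. -/
theorem exists_period_fun [NeZero N] (σ : ℚbar ≃ₐ[ℚ] ℚbar) (x : modularFunctionFieldBar N) :
    ∃ m : ℕ, 0 < m ∧ (galEnd σ)^[m] x = x := by
  have key : ∀ {a b : modularFunctionFieldBar N},
      (∃ n : ℕ, 0 < n ∧ (galEnd σ)^[n] a = a) → (∃ n : ℕ, 0 < n ∧ (galEnd σ)^[n] b = b) →
      ∃ n : ℕ, 0 < n ∧ (galEnd σ)^[n] a = a ∧ (galEnd σ)^[n] b = b := by
    rintro a b ⟨n, hn, ha⟩ ⟨m, hm, hb⟩
    exact ⟨n * m, Nat.mul_pos hn hm,
      (Function.IsPeriodicPt.mul_const (show Function.IsPeriodicPt (galEnd σ) n a from ha) m),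
      (Function.IsPeriodicPt.const_mul (show Function.IsPeriodicPt (galEnd σ) m b from hb) n)⟩
  have hf : ∀ y, ∀ hy : y ∈ IntermediateField.adjoin ℚbar (Set.range (jdBar (N := N))),
      ∀ hy' : y ∈ modularFunctionFieldBar N, ∃ n : ℕ, 0 < n ∧
        (galEnd σ)^[n] (⟨y, hy'⟩ : modularFunctionFieldBar N) = ⟨y, hy'⟩ := by
    intro y hy
    induction hy using IntermediateField.adjoin_induction with
    | mem z hz =>
      obtain ⟨d, rfl⟩ := hz
      intro hy'
      exact ⟨1, one_pos, galois_smul_jdBar σ d⟩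
    | algebraMap a =>
      intro hy'
      obtain ⟨n, hn, ha⟩ := exists_period_const σ a
      refine ⟨n, hn, ?_⟩
      rw [galEnd_iterate,
        show (⟨_, hy'⟩ : modularFunctionFieldBar N) = algebraMap ℚbar _ a from rfl,
        ← galEnd_apply, galEnd_algebraMap, ha]
    | add a b ha' hb' ha hb =>
      intro _
      have haF : a ∈ modularFunctionFieldBar N := by
        rw [modularFunctionFieldBar_eq_adjoin]; exact ha'
      have hbF : b ∈ modularFunctionFieldBar N := by
        rw [modularFunctionFieldBar_eq_adjoin]; exact hb'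
      obtain ⟨n, hn, h1, h2⟩ := key (ha haF) (hb hbF)
      refine ⟨n, hn, ?_⟩
      rw [show (⟨a + b, _⟩ : modularFunctionFieldBar N) = ⟨a, haF⟩ + ⟨b, hbF⟩ from rfl,
        iterate_map_add, h1, h2]
    | inv a ha' ha =>
      intro _
      have haF : a ∈ modularFunctionFieldBar N := by
        rw [modularFunctionFieldBar_eq_adjoin]; exact ha'
      obtain ⟨n, hn, h1⟩ := ha haF
      refine ⟨n, hn, ?_⟩
      rw [show (⟨a⁻¹, _⟩ : modularFunctionFieldBar N) = (⟨a, haF⟩)⁻¹ from rfl, galEnd_iterate,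
        smul_inv'', ← galEnd_iterate, h1]
    | mul a b ha' hb' ha hb =>
      intro _
      have haF : a ∈ modularFunctionFieldBar N := by
        rw [modularFunctionFieldBar_eq_adjoin]; exact ha'
      have hbF : b ∈ modularFunctionFieldBar N := by
        rw [modularFunctionFieldBar_eq_adjoin]; exact hb'
      obtain ⟨n, hn, h1, h2⟩ := key (ha haF) (hb hbF)
      refine ⟨n, hn, ?_⟩
      rw [show (⟨a * b, _⟩ : modularFunctionFieldBar N) = ⟨a, haF⟩ * ⟨b, hbF⟩ from rfl,
        iterate_map_mul, h1, h2]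
  exact hf x (by rw [← modularFunctionFieldBar_eq_adjoin]; exact x.2) x.2

/-- The leading coefficient at `∞`. -/
def leadInf (x : modularFunctionFieldBar N) : ℚbar := (x : LaurentSeries ℚbar).leadingCoeff

theorem leadInf_mul (x y : modularFunctionFieldBar N) :
    leadInf (x * y) = leadInf x * leadInf y := by
  rcases eq_or_ne x 0 with rfl | hx
  · simp [leadInf]
  rcases eq_or_ne y 0 with rfl | hy
  · simp [leadInf]
  have h1 : (x : LaurentSeries ℚbar) ≠ 0 := fun h => hx (Subtype.ext h)
  have h2 : (y : LaurentSeries ℚbar) ≠ 0 := fun h => hy (Subtype.ext h)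
  exact HahnSeries.leadingCoeff_mul_of_ne_zero
    (mul_ne_zero (HahnSeries.leadingCoeff_ne_zero.2 h1) (HahnSeries.leadingCoeff_ne_zero.2 h2))

theorem leadInf_one : leadInf (1 : modularFunctionFieldBar N) = 1 := HahnSeries.leadingCoeff_one

theorem leadInf_pow (x : modularFunctionFieldBar N) (n : ℕ) : leadInf (x ^ n) = leadInf x ^ n := by
  induction n with
  | zero => rw [pow_zero, pow_zero, leadInf_one]
  | succ n ih => rw [pow_succ, pow_succ, leadInf_mul, ih]

theorem leadInf_algebraMap (a : ℚbar) :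
    leadInf (algebraMap ℚbar (modularFunctionFieldBar N) a) = a := by
  show (algebraMap ℚbar (LaurentSeries ℚbar) a).leadingCoeff = a
  rw [algebraMap_laurentSeries_eq_single]
  exact HahnSeries.leadingCoeff_of_single

theorem leadInf_galEnd (σ : ℚbar ≃ₐ[ℚ] ℚbar) (x : modularFunctionFieldBar N) :
    leadInf (galEnd σ x) = σ (leadInf x) := by
  rcases eq_or_ne (x : LaurentSeries ℚbar) 0 with hx | hx
  · simp [leadInf, galEnd_apply, coe_galois_smul, hx]
  have hcoe : ((galEnd σ x : modularFunctionFieldBar N) : LaurentSeries ℚbar) =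
      coeffMap (σ : ℚbar →+* ℚbar) (x : LaurentSeries ℚbar) := rfl
  have hne : coeffMap (σ : ℚbar →+* ℚbar) (x : LaurentSeries ℚbar) ≠ 0 := fun h => by
    refine hx (HahnSeries.ext (funext fun i => σ.injective ?_))
    have := congrArg (fun z : LaurentSeries ℚbar => z.coeff i) h
    simpa using this
  have hord : (coeffMap (σ : ℚbar →+* ℚbar) (x : LaurentSeries ℚbar)).order =
      (x : LaurentSeries ℚbar).order := by
    refine le_antisymm (HahnSeries.order_le_of_coeff_ne_zero ?_)
      (HahnSeries.order_le_of_coeff_ne_zero ?_)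
    · rw [coeffMap_coeff, RingHom.coe_coe, ne_eq, map_eq_zero_iff σ σ.injective]
      exact HahnSeries.coeff_order_eq_zero.not.2 hx
    · intro h0
      refine HahnSeries.coeff_order_eq_zero.not.2 hne ?_
      rw [coeffMap_coeff, RingHom.coe_coe, h0, map_zero]
  rw [leadInf, leadInf, HahnSeries.leadingCoeff_eq, HahnSeries.leadingCoeff_eq, hcoe, hord,
    coeffMap_coeff]
  rfl

/-- A monic function without zeros and poles is `1`. -/
theorem eq_one_of_ord_eq_zero [NeZero N] {u : modularFunctionFieldBar N} (hu : u ≠ 0)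
    (h : ∀ v : Place ℚbar (modularFunctionFieldBar N), v.ord u = 0) (h1 : leadInf u = 1) :
    u = 1 := by
  obtain ⟨c, -, rfl⟩ := exists_algebraMap_of_ord_eq_zero hu h
  rw [leadInf_algebraMap] at h1
  rw [h1, map_one]

/-- Every non-zero function is a constant times a monic one. -/
theorem exists_monic {f : modularFunctionFieldBar N} (hf : f ≠ 0) :
    ∃ g : modularFunctionFieldBar N, g ≠ 0 ∧ leadInf g = 1 ∧
      ∀ v : Place ℚbar (modularFunctionFieldBar N), v.ord g = v.ord f := by
  have h0 : leadInf f ≠ 0 := HahnSeries.leadingCoeff_ne_zero.2 fun h => hf (Subtype.ext h)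
  have hc : algebraMap ℚbar (modularFunctionFieldBar N) (leadInf f)⁻¹ ≠ 0 := by
    rw [Ne, map_eq_zero]; exact inv_ne_zero h0
  refine ⟨_, mul_ne_zero hc hf, ?_, fun v => ?_⟩
  · rw [leadInf_mul, leadInf_algebraMap, inv_mul_cancel₀ h0]
  · rw [v.ord_mul hc hf, ord_algebraMap, zero_add]

/-- **Descent**: if `f = σ f * h ^ n` with monic `f` and `h`, a multiplier `k` makes `f * k ^ n`
fixed. -/
theorem exists_fixed_twist [NeZero N] (σ : ℚbar ≃ₐ[ℚ] ℚbar) {n : ℕ} (hn : 0 < n)
    {f h : modularFunctionFieldBar N} (hf : f ≠ 0) (hh : h ≠ 0) (h1 : leadInf h = 1)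
    (e : f = galEnd σ f * h ^ n) :
    ∃ k : modularFunctionFieldBar N, k ≠ 0 ∧ galEnd σ (f * k ^ n) = f * k ^ n := by
  classical
  set G : modularFunctionFieldBar N →+* modularFunctionFieldBar N := galEnd σ with hG
  have hex : ∃ r, 0 < r ∧ G^[r] f = f ∧ G^[r] h = h := by
    obtain ⟨a, ha, e1⟩ := exists_period_fun σ f
    obtain ⟨b, hb, e2⟩ := exists_period_fun σ h
    exact ⟨a * b, Nat.mul_pos ha hb,
      Function.IsPeriodicPt.mul_const (show Function.IsPeriodicPt G a f from e1) b,
      Function.IsPeriodicPt.const_mul (show Function.IsPeriodicPt G b h from e2) a⟩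
  set r := Nat.find hex with hr
  obtain ⟨hr0, hrf, hrh⟩ := Nat.find_spec hex
  -- the cocycle
  let P : ℕ → modularFunctionFieldBar N := fun i => Nat.rec 1 (fun _ p => h * G p) i
  have hP0 : P 0 = 1 := rfl
  have hPs : ∀ i, P (i + 1) = h * G (P i) := fun i => rfl
  have hPne : ∀ i, P i ≠ 0 := by
    intro i
    induction i with
    | zero => rw [hP0]; exact one_ne_zero
    | succ i ih => rw [hPs]; exact mul_ne_zero hh ((map_ne_zero_iff _ (galEnd_injective σ)).2 ih)
  have hPlead : ∀ i, leadInf (P i) = 1 := by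
    intro i
    induction i with
    | zero => rw [hP0, leadInf_one]
    | succ i ih => rw [hPs, leadInf_mul, h1, hG, leadInf_galEnd, ih, map_one, mul_one]
  have hPf : ∀ i, f = G^[i] f * P i ^ n := by
    intro i
    induction i with
    | zero => rw [hP0, one_pow, mul_one, Function.iterate_zero, id]
    | succ i ih =>
      conv_lhs => rw [e, ih]
      rw [map_mul, map_pow, hPs, mul_pow, Function.iterate_succ_apply']
      ring
  have hPr : P r = 1 := by
    have hpow : P r ^ n = 1 := by
      have h := hPf r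
      rw [hrf] at h
      exact (mul_eq_left₀ hf).1 h.symm
    refine eq_one_of_ord_eq_zero (hPne r) (fun v => ?_) (hPlead r)
    have h := congrArg v.ord hpow
    rw [ord_pow, ← map_one (algebraMap ℚbar (modularFunctionFieldBar N)), ord_algebraMap,
      mul_eq_zero] at h
    exact h.resolve_left (by exact_mod_cast hn.ne')
  -- a resolvent, on the functions fixed by the period
  let S : Submonoid (modularFunctionFieldBar N) :=
    MonoidHom.eqLocusM
      ((arithmeticRingAut (L := ℚbar) (modularFunctionFieldFull N) (σ ^ r)).toRingHom :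
        modularFunctionFieldBar N →+* modularFunctionFieldBar N).toMonoidHom (MonoidHom.id _)
  have hSmem : ∀ x, x ∈ S ↔ G^[r] x = x := fun x => by
    rw [hG, galEnd_iterate]; exact Iff.rfl
  let χ : Fin r → (S →* modularFunctionFieldBar N) := fun i =>
    ((arithmeticRingAut (L := ℚbar) (modularFunctionFieldFull N) (σ ^ (i : ℕ))).toRingHom :
      modularFunctionFieldBar N →+* modularFunctionFieldBar N).toMonoidHom.comp S.subtype
  have hχ : ∀ (i : Fin r) (x : S), χ i x = G^[i] (x : modularFunctionFieldBar N) := fun i x => by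
    rw [hG, galEnd_iterate]; rfl
  have hχinj : Function.Injective χ := by
    intro i j hij
    by_contra hne
    have hlt : ∀ a b : Fin r, a < b → χ a ≠ χ b := by
      intro a b hab heq
      have hd : 0 < (b : ℕ) - a := Nat.sub_pos_of_lt hab
      have hfix : ∀ x, G^[r] x = x → G^[(b : ℕ) - a] x = x := fun x hx => by
        refine ((galEnd_injective σ).iterate (a : ℕ)) ?_
        rw [← Function.iterate_add_apply, Nat.add_sub_cancel' (le_of_lt hab)]
        exact ((hχ a ⟨x, (hSmem x).2 hx⟩).symm.trans ((DFunLike.congr_fun heq _).trans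
          (hχ b ⟨x, (hSmem x).2 hx⟩))).symm
      have hmin := Nat.find_min' hex ⟨hd, hfix f hrf, hfix h hrh⟩
      have := b.2
      omega
    rcases lt_or_gt_of_ne hne with hlt' | hlt'
    · exact hlt i j hlt' hij
    · exact hlt j i hlt' hij.symm
  have hli := (linearIndependent_monoidHom S (modularFunctionFieldBar N)).comp χ hχinj
  obtain ⟨θ, hθ⟩ : ∃ θ : S, ∑ i : Fin r, (P i)⁻¹ * G^[i] (θ : modularFunctionFieldBar N) ≠ 0 := by
    by_contra hall
    push Not at hall
    have h0 := Fintype.linearIndependent_iff.1 hli (fun i => (P i)⁻¹) (funext fun θ => by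
      rw [Finset.sum_apply, Pi.zero_apply]
      simpa [hχ] using hall θ) ⟨0, hr0⟩
    exact inv_ne_zero (hPne 0) h0
  set T : ℕ → modularFunctionFieldBar N := fun i =>
    (P i)⁻¹ * G^[i] (θ : modularFunctionFieldBar N) with hT
  set k := ∑ i ∈ Finset.range r, T i with hk
  have hk0 : k ≠ 0 := by
    rw [hk, ← Fin.sum_univ_eq_sum_range]
    exact hθ
  have hGT : ∀ i, G (T i) = h * T (i + 1) := fun i => by
    simp only [hT]
    rw [map_mul, map_inv₀, hPs, Function.iterate_succ_apply', mul_inv, ← mul_assoc, ← mul_assoc,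
      mul_inv_cancel₀ hh, one_mul]
  have hTr : T r = T 0 := by
    simp only [hT, hPr, hP0, (hSmem _).1 θ.2, Function.iterate_zero, id]
  have hGk : G k = h * k := by
    rw [hk, map_sum, Finset.sum_congr rfl fun i _ => hGT i, ← Finset.mul_sum]
    congr 1
    have h1 := Finset.sum_range_succ T r
    rw [Finset.sum_range_succ' T r, hTr] at h1
    exact add_right_cancel h1
  refine ⟨k, hk0, ?_⟩
  rw [map_mul, map_pow]
  calc galEnd σ f * (G k) ^ n = (galEnd σ f * h ^ n) * k ^ n := by rw [hGk, mul_pow]; ring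
    _ = f * k ^ n := by rw [← e]

/-- A torsion class fixed by `σ` has a representative whose function is fixed by `σ`. -/
theorem exists_fixed_fun_aux [NeZero N] (σ : ℚbar ≃ₐ[ℚ] ℚbar) {n : ℕ} (hn : 0 < n)
    {x : JZero N} (hx : n • x = 0) (hσ : σ • x = x) :
    ∃ (D : Divisor.degZero (K := ℚbar) (F := modularFunctionFieldBar N))
      (f : modularFunctionFieldBar N), Pic0.mk D = x ∧ f ≠ 0 ∧
      arithmeticGalois (modularFunctionFieldFull N) σ • f = f ∧
      ∀ v : Place ℚbar (modularFunctionFieldBar N),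
        (n : ℤ) * (D : Divisor ℚbar (modularFunctionFieldBar N)) v = v.ord f := by
  classical
  set g := arithmeticGalois (modularFunctionFieldFull N) σ with hg
  obtain ⟨D, rfl⟩ := Pic0.mk_surjective x
  -- the function of `D`
  have hnD : ((n • D : Divisor.degZero (K := ℚbar) (F := modularFunctionFieldBar N)) :
      Divisor ℚbar (modularFunctionFieldBar N)) ∈ Divisor.principal := by
    have h1 : Pic0.mk (n • D) = 0 :=
      (map_nsmul (QuotientAddGroup.mk' _) n D).trans hx
    exact AddSubgroup.mem_addSubgroupOf.1 ((QuotientAddGroup.eq_zero_iff _).1 h1)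
  obtain ⟨f₀, hf₀, hf₀D⟩ := hnD
  obtain ⟨f, hf, hf1, hford⟩ := exists_monic hf₀
  have hfD : ∀ v : Place ℚbar (modularFunctionFieldBar N),
      (n : ℤ) * (D : Divisor ℚbar (modularFunctionFieldBar N)) v = v.ord f := fun v => by
    rw [hford v, ← hf₀D v, AddSubgroup.coe_nsmul, Finsupp.smul_apply, nsmul_eq_mul]
  -- the function of `D - σ D`
  have hDg : (D : Divisor ℚbar (modularFunctionFieldBar N)) - g • (D : Divisor ℚbar _) ∈
      Divisor.principal := by
    rw [galois_smul_pic0_def, ← hg, SemilinearAut.pic0_smul_mk] at hσ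
    have h1 := AddSubgroup.mem_addSubgroupOf.1 (QuotientAddGroup.eq.1 hσ)
    rwa [AddSubgroup.coe_add, AddSubgroup.coe_neg, SemilinearAut.coe_degZeroSMulHom,
      neg_add_eq_sub] at h1
  obtain ⟨h₀, hh₀, hh₀D⟩ := hDg
  obtain ⟨h, hh, hh1, hhord⟩ := exists_monic hh₀
  have hgf : galEnd σ f ≠ 0 := (map_ne_zero_iff _ (galEnd_injective σ)).2 hf
  have e : f = galEnd σ f * h ^ n := by
    have hu : f * (galEnd σ f * h ^ n)⁻¹ = 1 := by
      refine eq_one_of_ord_eq_zero (mul_ne_zero hf (inv_ne_zero (mul_ne_zero hgf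
        (pow_ne_zero _ hh)))) (fun v => ?_) ?_
      · have h1 := hh₀D v
        rw [Finsupp.sub_apply, SemilinearAut.divisor_smul_apply] at h1
        have h2 := SemilinearAut.ord_smul g (g⁻¹ • v) f
        rw [smul_inv_smul, ← hfD] at h2
        rw [v.ord_mul hf (inv_ne_zero (mul_ne_zero hgf (pow_ne_zero _ hh))), v.ord_inv,
          v.ord_mul hgf (pow_ne_zero _ hh), ord_pow, hhord v, ← h1, galEnd_apply, ← hg, h2,
          ← hfD v]
        ring
      · have hl : leadInf (galEnd σ f * h ^ n) = 1 := by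
          rw [leadInf_mul, leadInf_galEnd, hf1, map_one, leadInf_pow, hh1, one_pow, mul_one]
        have h1 := leadInf_mul (galEnd σ f * h ^ n) (galEnd σ f * h ^ n)⁻¹
        rw [mul_inv_cancel₀ (mul_ne_zero hgf (pow_ne_zero _ hh)), leadInf_one, hl, one_mul] at h1
        rw [leadInf_mul, hf1, one_mul, ← h1]
    exact (mul_inv_eq_one₀ (mul_ne_zero hgf (pow_ne_zero _ hh))).1 hu
  obtain ⟨k, hk, hfix⟩ := exists_fixed_twist σ hn hf hh hh1 e
  obtain ⟨Dk, hDk, hDk0⟩ := HasPrincipalDivisors.exists_divisor (K := ℚbar) k hk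
  refine ⟨D + ⟨Dk, Divisor.mem_degZero.2 hDk0⟩, f * k ^ n, ?_,
    mul_ne_zero hf (pow_ne_zero _ hk), hfix, fun v => ?_⟩
  · rw [Pic0.mk_add, add_eq_left]
    exact (QuotientAddGroup.eq_zero_iff _).2
      (AddSubgroup.mem_addSubgroupOf.2 ⟨k, hk, hDk⟩)
  · rw [AddSubgroup.coe_add, Finsupp.add_apply, mul_add, hfD, v.ord_mul hf (pow_ne_zero _ hk),
      ord_pow, hDk v]

end Fermat.Agent.Residual.Lower

end
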