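/-
Tame inertia moves some `n`-th root of `q` by a primitive root of unity.
-/
import Fermat.Agent.Mult.RootMoved
import Fermat.Agent.Datum.Roots
import Mathlib.RingTheory.RootsOfUnity.AlgebraicallyClosed

set_option autoImplicit false

noncomputable section

namespace Fermat.Agent.Residual.Lower

local notation "ℚbar" => AlgebraicClosure ℚ

/-- Tame inertia moves `n`-th roots of `q` by primitive roots of unity. -/
theorem exists_inertia_root_aux {q : ℕ} [Fact q.Prime] {A : ValuationSubring ℚbar}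
    (hA : A.LiesOverPrime q) {n : ℕ} (hn : 0 < n) (hqn : ¬ q ∣ n) :
    ∃ σ ∈ A.inertiaSubgroupIn ℚ, ∃ β ζ : ℚbar, β ^ n = (q : ℚbar) ∧ IsPrimitiveRoot ζ n ∧
      σ β = ζ * β := by
  classical
  have hq : q.Prime := Fact.out
  have : NeZero n := ⟨hn.ne'⟩
  obtain ⟨β, hβ⟩ := IsAlgClosed.exists_pow_nat_eq (q : ℚbar) hn
  have hq0 : (q : ℚbar) ≠ 0 := Nat.cast_ne_zero.2 hq.ne_zero
  have hβ0 : β ≠ 0 := by
    rintro rfl
    rw [zero_pow hn.ne'] at hβ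
    exact hq0 hβ.symm
  have hroot : ∀ σ : ℚbar ≃ₐ[ℚ] ℚbar, (σ β * β⁻¹) ^ n = 1 := fun σ => by
    rw [mul_pow, inv_pow, ← map_pow, hβ, map_natCast, mul_inv_cancel₀ hq0]
  have hfix : ∀ σ ∈ A.inertiaSubgroupIn ℚ, ∀ μ : ℚbar, μ ^ n = 1 → σ μ = μ := fun σ hσ μ hμ =>
    Datum.inertia_apply_root hA hσ (hq.coprime_iff_not_dvd.2 hqn) hn.ne' hμ
  let u : (ℚbar ≃ₐ[ℚ] ℚbar) → rootsOfUnity n ℚbar := fun σ =>
    rootsOfUnity.mkOfPowEq (σ β * β⁻¹) (hroot σ)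
  let φ : A.inertiaSubgroupIn ℚ →* rootsOfUnity n ℚbar :=
    { toFun := fun σ => u σ
      map_one' := Subtype.ext (Units.ext (by
        show ((1 : ℚbar ≃ₐ[ℚ] ℚbar) β) * β⁻¹ = 1
        rw [AlgEquiv.one_apply, mul_inv_cancel₀ hβ0]))
      map_mul' := fun σ τ => Subtype.ext (Units.ext (by
        show ((σ : ℚbar ≃ₐ[ℚ] ℚbar) * τ) β * β⁻¹ =
          ((σ : ℚbar ≃ₐ[ℚ] ℚbar) β * β⁻¹) * ((τ : ℚbar ≃ₐ[ℚ] ℚbar) β * β⁻¹)
        have h1 := hfix _ σ.2 _ (hroot (τ : ℚbar ≃ₐ[ℚ] ℚbar))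
        rw [map_mul, map_inv₀] at h1
        rw [AlgEquiv.mul_apply, ← h1]
        have h2 : (σ : ℚbar ≃ₐ[ℚ] ℚbar) β ≠ 0 := by simpa using hβ0
        field_simp)) }
  obtain ⟨g, hg⟩ := IsCyclic.exists_generator (α := φ.range)
  obtain ⟨σ, hσ⟩ := g.2
  have hgσ : ∀ τ : A.inertiaSubgroupIn ℚ, ∃ j : ℤ, φ τ = φ σ ^ j := fun τ => by
    obtain ⟨j, hj⟩ := Subgroup.mem_zpowers_iff.1 (hg ⟨φ τ, τ, rfl⟩)
    exact ⟨j, by rw [hσ]; exact (congrArg Subtype.val hj).symm⟩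
  refine ⟨σ, σ.2, β, (σ : ℚbar ≃ₐ[ℚ] ℚbar) β * β⁻¹, hβ, ?_, by rw [inv_mul_cancel_right₀ hβ0]⟩
  set ζ := (σ : ℚbar ≃ₐ[ℚ] ℚbar) β * β⁻¹ with hζ
  rw [IsPrimitiveRoot.iff_orderOf]
  refine (orderOf_eq_iff hn).2 ⟨hroot _, fun m hm hm0 hζm => ?_⟩
  set d := Nat.gcd m n with hd
  have hζd : ζ ^ d = 1 := by rw [hd, pow_gcd_eq_one]; exact ⟨hζm, hroot _⟩
  have hdn : d < n := lt_of_le_of_lt (Nat.gcd_le_left n hm0) hm
  obtain ⟨r, hr, hrd⟩ := Nat.exists_prime_and_dvd (n := n / d) (fun h1 => by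
    have := Nat.eq_of_dvd_of_div_eq_one (Nat.gcd_dvd_right m n) h1
    omega)
  have hdr : d * r ∣ n := by
    have h2 := Nat.mul_dvd_mul_left d hrd
    rwa [Nat.mul_div_cancel' (Nat.gcd_dvd_right m n)] at h2
  obtain ⟨e, he⟩ := hdr
  obtain ⟨τ, hτ, hτne⟩ := Mult.exists_inertia_apply_ne (A := A) hq hA hr.ne_zero
    (t := β ^ (d * e)) (r := (q : ℚ)) (Nat.cast_ne_zero.2 hq.ne_zero)
    (by rw [← pow_mul, show d * e * r = n by rw [he]; ring, hβ]; simp) (by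
      rw [padicValRat.self hq.one_lt, Int.natCast_dvd, Int.natAbs_one, Nat.dvd_one]
      exact hr.ne_one)
  obtain ⟨j, hj⟩ := hgσ ⟨τ, hτ⟩
  have hj' : τ β * β⁻¹ = ζ ^ j := by
    have h1 := congrArg (fun z : rootsOfUnity n ℚbar => ((z : ℚbarˣ) : ℚbar)) hj
    simpa [φ, u, hζ] using h1
  refine hτne ?_
  rw [map_pow, ← inv_mul_cancel_right₀ hβ0 (τ β), hj', mul_pow, ← zpow_natCast (ζ ^ j),
    ← zpow_mul, mul_comm j, zpow_mul, zpow_natCast, pow_mul, hζd, one_pow, one_zpow, one_mul]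

end Fermat.Agent.Residual.Lower

end
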