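/-
Mazur's principle modulo powers of two, abstract slope lemma.

For an inertial `g` and a function `f` fixed by `g`, the residues of `b i / g (b i)`, `b i ^ n`
scaling `f` on the component `i`, form the ratio of `f`. If all orders of `f` and of an auxiliary
function `U` are divisible by `n = 2 ^ m`, the ratio of `f` is constant and that of `U` has order
at least `2 ^ (m - 2)`, then all residual orders of `f` are divisible by `2 ^ (m - 4)`.
-/
import Fermat.Agent.Ribet.SecondMPDim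
import Mathlib.Data.Int.GCD

set_option autoImplicit false

noncomputable section

namespace Fermat.Agent.Residual.Lower

open AlgebraicCurve Fermat.Agent.Bad Fermat.Agent.Bad.MultiReduction Fermat.Agent.Curve
  Fermat.Agent.Ribet.Slot

universe uK uF uι uk uFb

variable {K : Type uK} [Field K] {A : ValuationSubring K}
  {F : Type uF} [Field F] [Algebra K F] {ι : Type uι} [Fintype ι]
  {k : Type uk} [Field k] {Fb : ι → Type uFb} [∀ i, Field (Fb i)] [∀ i, Algebra k (Fb i)]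
  (R : MultiReduction A F k Fb)

/-- Two primitive scalings of a function differ by a constant. -/
theorem exists_eq_const_mul_of_scale (i : ι) {f : F} {c c' : K}
    (h : c • f ∈ R.V i) (h' : c' • f ∈ R.V i) (hn : R.φ i ⟨c • f, h⟩ ≠ 0)
    (hn' : R.φ i ⟨c' • f, h'⟩ ≠ 0) :
    ∃ a : k, a ≠ 0 ∧ R.φ i ⟨c' • f, h'⟩ = algebraMap k (Fb i) a * R.φ i ⟨c • f, h⟩ := by
  have hc0 : ∀ {e : K} (he : e • f ∈ R.V i), R.φ i ⟨e • f, he⟩ ≠ 0 → e ≠ 0 := by
    rintro e he hne rfl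
    exact hne ((congrArg (R.φ i) (Subtype.ext (zero_smul K f) :
      (⟨(0 : K) • f, he⟩ : R.V i) = 0)).trans (map_zero _))
  have key : ∀ {e e' : K} (he : e • f ∈ R.V i) (he' : e' • f ∈ R.V i) (hd : e' / e ∈ A),
      e ≠ 0 → R.φ i ⟨e' • f, he'⟩ =
        algebraMap k (Fb i) (R.π ⟨e' / e, hd⟩) * R.φ i ⟨e • f, he⟩ := by
    intro e e' he he' hd h0
    rw [← R.φ_algebraMap i, ← map_mul]
    refine congrArg _ (Subtype.ext ?_)
    show e' • f = algebraMap K F (e' / e) * (e • f)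
    rw [Algebra.smul_def, Algebra.smul_def, ← mul_assoc, ← map_mul, div_mul_cancel₀ _ h0]
  rcases A.mem_or_inv_mem (c' / c) with hd | hd
  · refine ⟨_, fun h0 => hn' ?_, key h h' hd (hc0 h hn)⟩
    rw [key h h' hd (hc0 h hn), h0, map_zero, zero_mul]
  · rw [inv_div] at hd
    have h2 := key h' h hd (hc0 h' hn')
    have h0 : R.π ⟨c / c', hd⟩ ≠ 0 := fun h0 => hn (by rw [h2, h0, map_zero, zero_mul])
    refine ⟨(R.π ⟨c / c', hd⟩)⁻¹, inv_ne_zero h0, ?_⟩
    rw [h2, ← mul_assoc, ← map_mul, inv_mul_cancel₀ h0, map_one, one_mul]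

open Classical in
/-- The order at `v` of the scaled residue of `f` on the component `i`. -/
def resOrd (i : ι) (v : Place k (Fb i)) (f : F) : ℤ :=
  if hf : f = 0 then 0 else v.ord (R.φ i ⟨_, (R.exists_scale i f hf).choose_spec.choose⟩)

variable {R}

theorem resOrd_eq {i : ι} (v : Place k (Fb i)) {f : F} {c : K} (h : c • f ∈ R.V i)
    (hne : R.φ i ⟨c • f, h⟩ ≠ 0) : resOrd R i v f = v.ord (R.φ i ⟨c • f, h⟩) := by
  have hf : f ≠ 0 := fun h0 => hne (by
    rw [show (⟨c • f, h⟩ : R.V i) = 0 from Subtype.ext (by simp [h0]), map_zero])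
  rw [resOrd, dif_neg hf]
  obtain ⟨a, ha, hae⟩ := exists_eq_const_mul_of_scale R i
    (R.exists_scale i f hf).choose_spec.choose h
    (R.exists_scale i f hf).choose_spec.choose_spec hne
  rw [hae, v.ord_mul (by simpa using ha) (R.exists_scale i f hf).choose_spec.choose_spec,
    ord_algebraMap, zero_add]

theorem resOrd_mul {i : ι} (v : Place k (Fb i)) {f f' : F} (hf : f ≠ 0) (hf' : f' ≠ 0) :
    resOrd R i v (f * f') = resOrd R i v f + resOrd R i v f' := by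
  obtain ⟨c, h, hne⟩ := R.exists_scale i f hf
  obtain ⟨c', h', hne'⟩ := R.exists_scale i f' hf'
  have e : (c * c') • (f * f') = c • f * c' • f' := (smul_mul_smul_comm _ _ _ _).symm
  have hm : (c * c') • (f * f') ∈ R.V i := e ▸ mul_mem h h'
  have e' : R.φ i ⟨_, hm⟩ = R.φ i ⟨_, h⟩ * R.φ i ⟨_, h'⟩ := by
    rw [← map_mul]; exact congrArg _ (Subtype.ext e)
  rw [resOrd_eq v hm (by rw [e']; exact mul_ne_zero hne hne'), e', v.ord_mul hne hne',
    resOrd_eq v h hne, resOrd_eq v h' hne']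

theorem resOrd_algebraMap {i : ι} (v : Place k (Fb i)) {a : K} (ha : a ≠ 0) :
    resOrd R i v (algebraMap K F a) = 0 := by
  have e : a⁻¹ • algebraMap K F a = 1 := by
    rw [Algebra.smul_def, ← map_mul, inv_mul_cancel₀ ha, map_one]
  have h : a⁻¹ • algebraMap K F a ∈ R.V i := e.symm ▸ one_mem _
  have e' : R.φ i ⟨_, h⟩ = 1 := by rw [← map_one (R.φ i)]; exact congrArg _ (Subtype.ext e)
  rw [resOrd_eq v h (e' ▸ one_ne_zero), e', ← map_one (algebraMap k (Fb i)), ord_algebraMap]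

theorem resOrd_pow {i : ι} (v : Place k (Fb i)) {f : F} (hf : f ≠ 0) (e : ℕ) :
    resOrd R i v (f ^ e) = e * resOrd R i v f := by
  induction e with
  | zero => rw [pow_zero, ← map_one (algebraMap K F), resOrd_algebraMap v one_ne_zero]; simp
  | succ e ih => rw [pow_succ, resOrd_mul v (pow_ne_zero _ hf) hf, ih]; push_cast; ring

variable (R) in
/-- `ω` is a ratio of `f` for `g` at level `n`. -/
def IsRatio (g : SemilinearAut K F) (n : ℕ) (f : F) (ω : ι → k) : Prop :=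
  ∃ (b : ι → K) (h : ∀ i, Fb i) (z : ι → A), (∀ i, b i ≠ 0) ∧ (∀ i, h i ≠ 0) ∧
    IsSlot R ((b ^ n)⁻¹) f h ∧ (∀ i, ((z i : A) : K) * SemilinearAut.baseAut g (b i) = b i) ∧
    (∀ i, R.π (z i) = ω i) ∧ ∀ i, R.π (z i) ≠ 0

variable {g : SemilinearAut K F}

theorem IsRatio.mul {n : ℕ} {f f' : F} {ω ω' : ι → k} (h : IsRatio R g n f ω)
    (h' : IsRatio R g n f' ω') : IsRatio R g n (f * f') (ω * ω') := by
  obtain ⟨b, hh, z, hb, hh0, hs, hz, hω, hz0⟩ := h
  obtain ⟨b', hh', z', hb', hh0', hs', hz', hω', hz0'⟩ := h'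
  refine ⟨b * b', hh * hh', z * z', fun i => mul_ne_zero (hb i) (hb' i),
    fun i => mul_ne_zero (hh0 i) (hh0' i), ?_, fun i => ?_, fun i => ?_, fun i => ?_⟩
  · have := hs.mul hs'
    rwa [← mul_inv, ← mul_pow] at this
  · simp only [Pi.mul_apply, map_mul]
    push_cast
    rw [mul_mul_mul_comm, hz i, hz' i]
  · simp only [Pi.mul_apply, map_mul, hω i, hω' i]
  · simp only [Pi.mul_apply, map_mul]
    exact mul_ne_zero (hz0 i) (hz0' i)

theorem isRatio_one (n : ℕ) : IsRatio R g n 1 1 := by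
  refine ⟨1, 1, 1, fun i => one_ne_zero, fun i => one_ne_zero, fun i => ?_, fun i => by simp,
    fun i => by simp, fun i => by simp⟩
  refine ⟨by simp, ?_⟩
  rw [Pi.one_apply, ← map_one (R.φ i)]
  exact congrArg _ (Subtype.ext (by simp))

theorem IsRatio.pow {n : ℕ} {f : F} {ω : ι → k} (h : IsRatio R g n f ω) :
    ∀ e : ℕ, IsRatio R g n (f ^ e) (ω ^ e)
  | 0 => by simpa using isRatio_one (R := R) (g := g) n
  | e + 1 => by rw [pow_succ, pow_succ]; exact (h.pow e).mul h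

/-- A ratio at level `p * d` gives one at level `p`. -/
theorem IsRatio.level {p d : ℕ} {f : F} {ω : ι → k} (h : IsRatio R g (p * d) f ω) :
    IsRatio R g p f (ω ^ d) := by
  obtain ⟨b, hh, z, hb, hh0, hs, hz, hω, hz0⟩ := h
  refine ⟨b ^ d, hh, z ^ d, fun i => pow_ne_zero _ (hb i), hh0, ?_, fun i => ?_, fun i => ?_,
    fun i => ?_⟩
  · rwa [← pow_mul, mul_comm d]
  · simp only [Pi.pow_apply, map_pow]
    push_cast
    rw [← mul_pow, hz i]
  · simp only [Pi.pow_apply, map_pow, hω i]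
  · simp only [Pi.pow_apply, map_pow]
    exact pow_ne_zero _ (hz0 i)

variable [IsAlgClosed K] [IsFunctionFieldOne K F] [∀ i, IsFunctionFieldOne k (Fb i)]
  (G : Gluing R)

/-- **Separation**: with separated ratios the residual orders are divisible by `p` exactly away
from the branches. -/
theorem dvd_resOrd_of_separated (hA : RankLeOne A) (hG : G.IsSeminormal)
    (hpart : ∀ b : ↥G.B, ∃ b' : ↥G.B, G.pt b = G.pt b' ∧
      (b : Σ i, Place k (Fb i)).1 ≠ (b' : Σ i, Place k (Fb i)).1)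
    (hB : G.B.card ≤ 2 * Nat.card G.Pt) (hg : IsInertial R g) {p : ℕ} (hp : 0 < p) {f : F}
    (hf : f ≠ 0) (hgf : g • f = f) (hdiv : ∀ v : Place K F, (p : ℤ) ∣ v.ord f) {ω : ι → k}
    (hω : IsRatio R g p f ω) (hsep : ∀ i j, i ≠ j → ω i ≠ ω j) (i : ι) (v : Place k (Fb i)) :
    ((⟨i, v⟩ : Σ i, Place k (Fb i)) ∉ G.B → (p : ℤ) ∣ resOrd R i v f) ∧
      ((⟨i, v⟩ : Σ i, Place k (Fb i)) ∈ G.B → ¬ (p : ℤ) ∣ resOrd R i v f) := by
  classical
  have := R.isAlgClosed_residue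
  obtain ⟨b, h, z, hb, hh, hs, hz, hzω, hz0⟩ := hω
  have hcount := card_le_of_isInertial hA hG hpart hB hp hf hg hgf hb hh hs z hz hz0
    (fun i j hij => by rw [hzω, hzω]; exact hsep i j hij)
  have hR : ({v | ¬ (p : ℤ) ∣ v.ord f} : Set (Place K F)).ncard = 0 := by
    rw [show ({v | ¬ (p : ℤ) ∣ v.ord f} : Set (Place K F)) = ∅ from Set.eq_empty_iff_forall_notMem.2 fun v hv => absurd (hdiv v) hv, Set.ncard_empty]
  rw [hR, Nat.le_zero, add_eq_zero, Finset.sum_eq_zero_iff, Finset.card_eq_zero] at hcount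
  obtain ⟨h1, h2⟩ := hcount
  obtain ⟨hm, he⟩ := hs i
  have hv : resOrd R i v f = v.ord (h i) := by
    rw [resOrd_eq v hm (by rw [he]; exact hh i), he]
  rw [hv]
  constructor
  · intro hvB
    by_contra hnd
    have h1i := h1 i (Finset.mem_univ _)
    have hfin : ({v | (⟨i, v⟩ : Σ i, Place k (Fb i)) ∉ G.B ∧ ¬ (p : ℤ) ∣ v.ord (h i)} :
        Set (Place k (Fb i))).Finite := by
      refine (divisorOf k (h i)).support.finite_toSet.subset fun w hw => ?_
      rw [SetLike.mem_coe, Finsupp.mem_support_iff, divisorOf_apply]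
      exact fun h0 => hw.2 (h0 ▸ dvd_zero _)
    rw [Set.ncard_eq_zero hfin] at h1i
    exact Set.notMem_empty v (h1i ▸ (⟨hvB, hnd⟩ :
      v ∈ {v | (⟨i, v⟩ : Σ i, Place k (Fb i)) ∉ G.B ∧ ¬ (p : ℤ) ∣ v.ord (h i)}))
  · intro hvB hd
    exact Finset.eq_empty_iff_forall_notMem.1 h2 ⟨i, v⟩ (Finset.mem_filter.2 ⟨hvB, hd⟩)

/-- A solution of `k * u + s ≡ 0 (mod 2 ^ m)` when `4 ∣ s` and `8 ∤ u`. -/
theorem exists_nat_dvd_add_mul {m : ℕ} {s u : ℤ} (hs : (4 : ℤ) ∣ s) (hu : ¬ (8 : ℤ) ∣ u) :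
    ∃ k : ℕ, ((2 ^ m : ℕ) : ℤ) ∣ s + k * u := by
  obtain ⟨e, he2, u', hu', rfl⟩ : ∃ e : ℕ, e ≤ 2 ∧ ∃ u' : ℤ, Odd u' ∧ u = 2 ^ e * u' := by
    rcases Int.even_or_odd u with ⟨a, rfl⟩ | h
    · rcases Int.even_or_odd a with ⟨c, rfl⟩ | h
      · rcases Int.even_or_odd c with ⟨d, rfl⟩ | h
        · exact absurd ⟨d, by ring⟩ hu
        · exact ⟨2, le_rfl, c, h, by ring⟩
      · exact ⟨1, by norm_num, a, h, by ring⟩
    · exact ⟨0, by norm_num, u, h, by ring⟩
  obtain ⟨s', rfl⟩ : (2 : ℤ) ^ e ∣ s := (pow_dvd_pow 2 he2).trans (by simpa using hs)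
  have hcop : IsCoprime u' ((2 : ℤ) ^ m) := IsCoprime.pow_right (by
    rw [Int.isCoprime_iff_gcd_eq_one]
    obtain ⟨c, rfl⟩ := hu'
    simp [Int.gcd_comm _ (2 : ℤ)])
  obtain ⟨x, y, hxy⟩ := hcop
  refine ⟨((-(s' * x)) % ((2 : ℤ) ^ m)).toNat, ?_⟩
  rw [Int.toNat_of_nonneg (Int.emod_nonneg _ (by positivity))]
  set t := (-(s' * x)) % ((2 : ℤ) ^ m)
  have ht : ((2 : ℤ) ^ m) ∣ (t + s' * x) := by
    have := Int.emod_add_mul_ediv (-(s' * x)) ((2 : ℤ) ^ m)
    exact ⟨-((-(s' * x)) / (2 : ℤ) ^ m), by linarith⟩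
  obtain ⟨c, hc⟩ := ht
  exact ⟨2 ^ e * (u' * c + s' * y), by
    push_cast
    linear_combination 2 ^ e * u' * hc - 2 ^ e * s' * hxy⟩

/-- **The slope lemma.** -/
theorem dvd_resOrd (hA : RankLeOne A) (hG : G.IsSeminormal)
    (hpart : ∀ b : ↥G.B, ∃ b' : ↥G.B, G.pt b = G.pt b' ∧
      (b : Σ i, Place k (Fb i)).1 ≠ (b' : Σ i, Place k (Fb i)).1)
    (hB : G.B.card ≤ 2 * Nat.card G.Pt) (hg : IsInertial R g) {m : ℕ}
    {U : F} (hU0 : U ≠ 0) (hgU : g • U = U)
    (hUdiv : ∀ v : Place K F, ((2 ^ m : ℕ) : ℤ) ∣ v.ord U) {ωU : ι → k}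
    (hωU : IsRatio R g (2 ^ m) U ωU)
    (hord : ∀ i j, i ≠ j → ∀ e : ℕ, ωU i ^ e = ωU j ^ e → 2 ^ (m - 2) ∣ e)
    {f : F} (hf : f ≠ 0) (hgf : g • f = f)
    (hdiv : ∀ v : Place K F, ((2 ^ m : ℕ) : ℤ) ∣ v.ord f) {ω : ι → k}
    (hω : IsRatio R g (2 ^ m) f ω) (hωc : ∀ i j, ω i = ω j) (i : ι) (v : Place k (Fb i)) :
    ((2 ^ (m - 4) : ℕ) : ℤ) ∣ resOrd R i v f := by
  classical
  by_cases hm : m ≤ 4
  · simp [Nat.sub_eq_zero_of_le hm]
  have hm5 : 5 ≤ m := by omega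
  have hωne : ∀ i, ω i ≠ 0 := fun i => by
    obtain ⟨_, _, z, _, _, _, _, hzω, hz0⟩ := hω
    exact hzω i ▸ hz0 i
  -- `f ^ a * U ^ e` for `e` with `2 ^ (m - 2) ∤ e`
  have key : ∀ (a e : ℕ), ¬ 2 ^ (m - 2) ∣ e →
      ((⟨i, v⟩ : Σ i, Place k (Fb i)) ∉ G.B →
          ((2 ^ m : ℕ) : ℤ) ∣ a * resOrd R i v f + e * resOrd R i v U) ∧
        ((⟨i, v⟩ : Σ i, Place k (Fb i)) ∈ G.B →
          ¬ ((2 ^ m : ℕ) : ℤ) ∣ a * resOrd R i v f + e * resOrd R i v U) := by
    intro a e he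
    have h := dvd_resOrd_of_separated G hA hG hpart hB hg (p := 2 ^ m) (by positivity)
      (f := f ^ a * U ^ e) (mul_ne_zero (pow_ne_zero _ hf) (pow_ne_zero _ hU0))
      (by rw [smul_mul', smul_pow', smul_pow', hgf, hgU])
      (fun w => by
        rw [w.ord_mul (pow_ne_zero _ hf) (pow_ne_zero _ hU0), ord_pow, ord_pow]
        exact dvd_add ((hdiv w).mul_left _) ((hUdiv w).mul_left _))
      ((hω.pow a).mul (hωU.pow e))
      (fun i j hij hh => he (hord i j hij e (by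
        simp only [Pi.mul_apply, Pi.pow_apply, hωc i j] at hh
        exact mul_left_cancel₀ (pow_ne_zero _ (hωne j)) hh))) i v
    rwa [resOrd_mul v (pow_ne_zero _ hf) (pow_ne_zero _ hU0), resOrd_pow v hf,
      resOrd_pow v hU0] at h
  have h1 : ¬ 2 ^ (m - 2) ∣ 1 := by
    intro h
    have := Nat.le_of_dvd one_pos h
    have : 2 ^ 1 ≤ 2 ^ (m - 2) := Nat.pow_le_pow_right (by norm_num) (by omega)
    omega
  by_cases hvB : (⟨i, v⟩ : Σ i, Place k (Fb i)) ∈ G.B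
  · -- the slope of `U` is not divisible by `8`
    have hu8 : ¬ (8 : ℤ) ∣ resOrd R i v U := by
      have hlev : IsRatio R g (2 ^ 3) U (ωU ^ (2 ^ (m - 3))) := IsRatio.level (by
        rw [← pow_add, show 3 + (m - 3) = m by omega]; exact hωU)
      have h := (dvd_resOrd_of_separated G hA hG hpart hB hg (p := 2 ^ 3) (by norm_num) hU0 hgU
        (fun w => (show ((2 ^ 3 : ℕ) : ℤ) ∣ ((2 ^ m : ℕ) : ℤ) from
          Int.natCast_dvd_natCast.2 (pow_dvd_pow 2 (by omega))).trans (hUdiv w)) hlev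
        (fun i j hij hh => by
          have := Nat.le_of_dvd (by positivity)
            (hord i j hij (2 ^ (m - 3)) (by simpa using hh))
          have : 2 ^ (m - 3) < 2 ^ (m - 2) := Nat.pow_lt_pow_right (by norm_num) (by omega)
          omega) i v).2 hvB
      simpa using h
    obtain ⟨e, he⟩ := exists_nat_dvd_add_mul (m := m) (dvd_mul_right 4 (resOrd R i v f)) hu8
    have he' : 2 ^ (m - 2) ∣ e := by
      by_contra hne
      exact (key 4 e hne).2 hvB (by exact_mod_cast he)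
    have h4 : ((2 ^ (m - 2) : ℕ) : ℤ) ∣ 4 * resOrd R i v f := by
      have := ((Int.natCast_dvd_natCast.2 (pow_dvd_pow 2 (show m - 2 ≤ m by omega))).trans he).sub
        ((Int.natCast_dvd_natCast.2 he').mul_right (resOrd R i v U))
      simpa using this
    rw [show (2 ^ (m - 2) : ℕ) = 4 * 2 ^ (m - 4) by
      rw [show m - 2 = 2 + (m - 4) by omega, pow_add]; rfl] at h4
    push_cast at h4 ⊢
    exact Int.dvd_of_mul_dvd_mul_left (by norm_num) h4
  · refine (Int.natCast_dvd_natCast.2 (pow_dvd_pow 2 (show m - 4 ≤ m by omega))).trans ?_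
    have hu := (key 0 1 h1).1 hvB
    have hfu := (key 1 1 h1).1 hvB
    simpa using hfu.sub hu

end Fermat.Agent.Residual.Lower

end
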