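/-
Ratios of functions fixed by an inertial automorphism.
-/
import Fermat.Agent.Residual.LowerSlope

set_option autoImplicit false

noncomputable section

namespace Fermat.Agent.Residual.Lower

open AlgebraicCurve Fermat.Agent.Bad Fermat.Agent.Bad.MultiReduction Fermat.Agent.Curve
  Fermat.Agent.Ribet.Slot

universe uK uF uι uk uFb

variable {K : Type uK} [Field K] {A : ValuationSubring K}
  {F : Type uF} [Field F] [Algebra K F] {ι : Type uι} [Fintype ι]
  {k : Type uk} [Field k] {Fb : ι → Type uFb} [∀ i, Field (Fb i)] [∀ i, Algebra k (Fb i)]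
  {R : MultiReduction A F k Fb} {g : SemilinearAut K F}
  [IsAlgClosed K] [IsFunctionFieldOne K F] [∀ i, IsFunctionFieldOne k (Fb i)]

theorem π_eq_zero_iff (x : A) : R.π x = 0 ↔ ¬ IsUnit x := by
  have hker : RingHom.ker R.π = IsLocalRing.maximalIdeal A :=
    IsLocalRing.eq_maximalIdeal (RingHom.ker_isMaximal_of_surjective _ R.π_surjective)
  rw [← RingHom.mem_ker, hker, IsLocalRing.mem_maximalIdeal, mem_nonunits_iff]

/-- The quotient `b / g b` of a non-zero constant is a unit of `A`. -/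
theorem exists_div_baseAut (hg : IsInertial R g) {b : K} (hb : b ≠ 0) :
    ∃ z : A, ((z : A) : K) * SemilinearAut.baseAut g b = b ∧ R.π z ≠ 0 := by
  have hgb : SemilinearAut.baseAut g b ≠ 0 := by simpa using hb
  have hv : A.valuation (b / SemilinearAut.baseAut g b) = 1 := by
    rw [map_div₀, hg.valuation_eq, div_self]
    exact (Valuation.ne_zero_iff _).2 hb
  refine ⟨⟨_, (A.valuation_le_one_iff _).1 hv.le⟩, div_mul_cancel₀ _ hgb, ?_⟩
  rw [Ne, π_eq_zero_iff, not_not, A.valuation_eq_one_iff]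
  exact hv

/-- If `g` multiplies `h` by `μ` and `e • h` is primitive on a component, then `g e * μ / e` has
residue one. -/
theorem exists_residue_one (hg : IsInertial R g) (i : ι) {h : F} {e μ : K} (he : e ≠ 0)
    (hmem : e • h ∈ R.V i) (hne : R.φ i ⟨_, hmem⟩ ≠ 0)
    (hgh : g • h = μ • h) :
    ∃ z : A, ((z : A) : K) * e = SemilinearAut.baseAut g e * μ ∧ R.π z = 1 := by
  obtain ⟨hg1, hg2⟩ := hg.φ_eq i ⟨_, hmem⟩
  have hact : g • (e • h) = (SemilinearAut.baseAut g e * μ / e) • (e • h) := by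
    rw [Algebra.smul_def e h, smul_mul', SemilinearAut.smul_algebraMap, hgh, Algebra.smul_def μ,
      ← mul_assoc, ← map_mul, Algebra.smul_def, ← mul_assoc, ← map_mul, div_mul_cancel₀ _ he]
  set c := SemilinearAut.baseAut g e * μ / e with hc
  have hcA : c ∈ A := by
    rcases A.mem_or_inv_mem c with h1 | h1
    · exact h1
    · by_contra hcn
      have hc0 : c ≠ 0 := fun h0 => hcn (by rw [h0]; exact zero_mem _)
      have hnu : R.π ⟨c⁻¹, h1⟩ = 0 := by
        rw [π_eq_zero_iff]
        intro hu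
        obtain ⟨w, hw⟩ := isUnit_iff_exists_inv.1 hu
        have e1 := congrArg Subtype.val hw
        push_cast at e1
        rw [inv_mul_eq_one₀ hc0] at e1
        exact hcn (e1 ▸ w.2)
      refine hne ?_
      have e2 : (⟨_, hmem⟩ : R.V i) =
          ⟨algebraMap K F c⁻¹, (R.mem_V_iff i _).2 h1⟩ * ⟨_, hg1⟩ := Subtype.ext (by
        show e • h = algebraMap K F c⁻¹ * g • (e • h)
        rw [hact, Algebra.smul_def c, ← mul_assoc, ← map_mul, inv_mul_cancel₀ hc0, map_one,
          one_mul])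
      rw [e2, map_mul, R.φ_algebraMap i ⟨c⁻¹, h1⟩, hnu, map_zero, zero_mul]
  refine ⟨⟨c, hcA⟩, div_mul_cancel₀ _ he, ?_⟩
  have e2 : (⟨_, hg1⟩ : R.V i) = ⟨algebraMap K F c, (R.mem_V_iff i _).2 hcA⟩ * ⟨_, hmem⟩ :=
    Subtype.ext (by
      show g • (e • h) = algebraMap K F c * (e • h)
      rw [hact, Algebra.smul_def c])
  rw [e2, map_mul, R.φ_algebraMap i ⟨c, hcA⟩] at hg2
  have h2 := mul_right_cancel₀ hne (hg2.trans (one_mul _).symm)
  rw [← map_one (algebraMap k (Fb i))] at h2
  exact FaithfulSMul.algebraMap_injective k (Fb i) h2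

/-- Ratios exist, and are `n`-th roots of unity. -/
theorem exists_isRatio_aux (hg : IsInertial R g) {n : ℕ} (hn : 0 < n) {f : F} (hf : f ≠ 0)
    (hgf : g • f = f) : ∃ ω, IsRatio R g n f ω ∧ ∀ i, ω i ^ n = 1 := by
  choose c hc hne using fun i => R.exists_scale i f hf
  have hc0 : ∀ i, c i ≠ 0 := fun i h0 => hne i (by
    rw [show (⟨c i • f, hc i⟩ : R.V i) = 0 from Subtype.ext (by simp [h0]), map_zero])
  choose b hb using fun i => IsAlgClosed.exists_pow_nat_eq (c i)⁻¹ hn
  have hb0 : ∀ i, b i ≠ 0 := fun i h0 => by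
    have := hb i
    rw [h0, zero_pow hn.ne'] at this
    exact inv_ne_zero (hc0 i) this.symm
  choose z hz hz0 using fun i => exists_div_baseAut hg (hb0 i)
  have hbc : ∀ i, ((b ^ n)⁻¹) i = c i := fun i => by
    rw [Pi.inv_apply, Pi.pow_apply, hb i, inv_inv]
  refine ⟨fun i => R.π (z i), ⟨b, fun i => R.φ i ⟨_, hc i⟩, z, hb0, hne, fun i => ?_, hz,
    fun i => rfl, hz0⟩, fun i => ?_⟩
  · refine ⟨by rw [hbc]; exact hc i, congrArg _ (Subtype.ext ?_)⟩
    show _ • f = c i • f
    rw [hbc]
  · obtain ⟨w, hw, hw1⟩ := exists_residue_one hg i (μ := 1) (hc0 i) (hc i) (hne i)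
      (by rw [hgf, one_smul])
    have e : z i ^ n = w := Subtype.ext (by
      refine mul_right_cancel₀ (hc0 i) ?_
      rw [hw, mul_one, SubmonoidClass.coe_pow, ← mul_left_inj'
        (pow_ne_zero n (show SemilinearAut.baseAut g (b i) ≠ 0 by simpa using hb0 i)),
        mul_right_comm, ← mul_pow, hz i, ← map_pow, hb i, map_inv₀, inv_mul_cancel₀ (hc0 i),
        mul_inv_cancel₀ (by simpa using hc0 i)])
    rw [← map_pow, e, hw1]

/-- A fixed constant times an `n`-th power has a constant ratio. -/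
theorem IsRatio.const_of_pow_aux (hg : IsInertial R g) {n : ℕ} (hn : 0 < n) {f h : F} {a : K}
    (hh : h ≠ 0) (hfa : f = algebraMap K F a * h ^ n) (hgf : g • f = f) {ω : ι → k}
    (hω : IsRatio R g n f ω) (i j : ι) : ω i = ω j := by
  obtain ⟨b, r, z, hb, hr, hs, hz, hzω, hz0⟩ := hω
  have ha : a ≠ 0 := by
    rintro rfl
    obtain ⟨hm, he⟩ := hs i
    refine hr i (he.symm.trans ?_)
    rw [show (⟨_, hm⟩ : R.V i) = 0 from Subtype.ext (by simp [hfa]), map_zero]
  -- `g` multiplies `h` by a constant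
  obtain ⟨α, hα⟩ := IsAlgClosed.exists_pow_nat_eq a hn
  have hα0 : α ≠ 0 := by
    rintro rfl
    rw [zero_pow hn.ne'] at hα
    exact ha hα.symm
  obtain ⟨μ, hμ⟩ : ∃ μ : K, g • h = μ • h := by
    have hga : SemilinearAut.baseAut g α ≠ 0 := by simpa using hα0
    set w := g • h * algebraMap K F (SemilinearAut.baseAut g α) / (algebraMap K F α * h) with hw
    have hwn : w ^ n = 1 := by
      rw [hw, div_pow, mul_pow, mul_pow, ← smul_pow', ← map_pow, ← map_pow (SemilinearAut.baseAut g),
        ← map_pow (algebraMap K F) α, hα, ← SemilinearAut.smul_algebraMap, ← smul_mul',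
        mul_comm (h ^ n), ← hfa, hgf]
      exact div_self (by
        rw [hfa]; exact mul_ne_zero (by simpa using ha) (pow_ne_zero _ hh))
    obtain ⟨c, hc⟩ := mem_range_algebraMap_of_isIntegral (k := K) (y := w)
      (IsIntegral.of_pow hn (by rw [hwn]; exact isIntegral_one))
    refine ⟨c * α / SemilinearAut.baseAut g α, ?_⟩
    rw [Algebra.smul_def, map_div₀, map_mul, hc, hw]
    have h1 : algebraMap K F (SemilinearAut.baseAut g α) ≠ 0 := by simpa using hga
    have h2 : algebraMap K F α ≠ 0 := by simpa using hα0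
    field_simp
  -- compare the scalings
  have key : ∀ l, ∃ m : A,
      ((m : A) : K) * α = μ * SemilinearAut.baseAut g α ∧ R.π m * ω l = 1 := by
    intro l
    obtain ⟨e, he, hne⟩ := R.exists_scale l h hh
    have he0 : e ≠ 0 := fun h0 => hne (by
      rw [show (⟨e • h, he⟩ : R.V l) = 0 from Subtype.ext (by simp [h0]), map_zero])
    obtain ⟨z', hz', hz'1⟩ := exists_residue_one hg l he0 he hne hμ
    obtain ⟨hm, hme⟩ := hs l
    have hen : (a⁻¹ * e ^ n) • f = (e • h) ^ n := by
      rw [hfa, Algebra.smul_def, Algebra.smul_def, mul_pow, ← map_pow, ← mul_assoc, ← map_mul,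
        mul_right_comm, inv_mul_cancel₀ ha, one_mul]
    have hVn : (a⁻¹ * e ^ n) • f ∈ R.V l := by rw [hen]; exact pow_mem he n
    have hφn : R.φ l ⟨_, hVn⟩ ≠ 0 := by
      rw [show (⟨_, hVn⟩ : R.V l) = ⟨_, he⟩ ^ n from Subtype.ext (by simpa using hen), map_pow]
      exact pow_ne_zero _ hne
    set t := b l * e / α with ht
    have ht0 : t ≠ 0 := div_ne_zero (mul_ne_zero (hb l) he0) hα0
    -- `t ^ n` is the quotient of two primitive scalings of `f`
    have htu : A.valuation t = 1 := by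
      have hcmp : ∀ {x y : K} (hx : x • f ∈ R.V l) (hy : y • f ∈ R.V l), x ≠ 0 →
          R.φ l ⟨_, hy⟩ ≠ 0 → A.valuation (y / x) ≥ 1 := by
        intro x y hx hy hx0 hyne
        by_contra hlt
        rw [not_le] at hlt
        have hmemA : y / x ∈ A := (A.valuation_le_one_iff _).1 hlt.le
        have h0 : R.π ⟨y / x, hmemA⟩ = 0 := by
          rw [π_eq_zero_iff, A.valuation_eq_one_iff]
          exact hlt.ne
        refine hyne ?_
        rw [show (⟨_, hy⟩ : R.V l) =
          ⟨algebraMap K F (y / x), (R.mem_V_iff l _).2 hmemA⟩ * ⟨_, hx⟩ from Subtype.ext (by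
            show y • f = algebraMap K F (y / x) * (x • f)
            rw [Algebra.smul_def, Algebra.smul_def, ← mul_assoc, ← map_mul, div_mul_cancel₀ _ hx0]),
          map_mul, R.φ_algebraMap l ⟨y / x, hmemA⟩, h0, map_zero, zero_mul]
      have hx0 : ((b ^ n)⁻¹) l ≠ 0 := by
        rw [Pi.inv_apply, Pi.pow_apply]; exact inv_ne_zero (pow_ne_zero _ (hb l))
      have hy0 : a⁻¹ * e ^ n ≠ 0 := mul_ne_zero (inv_ne_zero ha) (pow_ne_zero _ he0)
      have h1 := hcmp hm hVn hx0 hφn
      have h2 := hcmp hVn hm hy0 (by rw [hme]; exact hr l)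
      have e1 : a⁻¹ * e ^ n / ((b ^ n)⁻¹) l = t ^ n := by
        rw [Pi.inv_apply, Pi.pow_apply, ht, div_pow, mul_pow, hα]
        field_simp
      rw [← inv_div, map_inv₀, ge_iff_le, one_le_inv₀ (zero_lt_iff.2
        ((Valuation.ne_zero_iff _).2 (div_ne_zero hy0 hx0))), e1, map_pow] at h2
      rw [e1, map_pow] at h1
      have h3 : A.valuation t ^ n = 1 := le_antisymm h2 h1
      rcases lt_trichotomy (A.valuation t) 1 with hl | hl | hl
      · exact absurd h3 (pow_lt_one₀ zero_le hl hn.ne').ne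
      · exact hl
      · exact absurd h3 (one_lt_pow₀ hl hn.ne').ne'
    obtain ⟨hgt, hπt⟩ := hg.π_eq ⟨t, (A.valuation_le_one_iff _).1 htu.le⟩
    set tA : A := ⟨t, (A.valuation_le_one_iff _).1 htu.le⟩
    have htne : R.π tA ≠ 0 := by
      rw [Ne, π_eq_zero_iff, not_not, A.valuation_eq_one_iff]; exact htu
    obtain ⟨w, hw⟩ := isUnit_iff_exists_inv.1 (by
      by_contra hu
      exact mul_ne_zero (hz0 l) (hπt.trans_ne htne)
        ((map_mul R.π (z l) ⟨_, hgt⟩).symm.trans ((π_eq_zero_iff _).2 hu)) :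
      IsUnit (z l * (⟨_, hgt⟩ : A)))
    refine ⟨tA * z' * w, ?_, ?_⟩
    · -- the identity of constants
      have hgα : SemilinearAut.baseAut g α ≠ 0 := by simpa using hα0
      have hw' := congrArg Subtype.val hw
      push_cast at hw' ⊢
      have e3 : SemilinearAut.baseAut g t =
          SemilinearAut.baseAut g (b l) * SemilinearAut.baseAut g e /
            SemilinearAut.baseAut g α := by rw [ht, map_div₀, map_mul]
      show t * (z' : K) * (w : K) * α = μ * SemilinearAut.baseAut g α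
      have h4 : (z' : K) * t * α = SemilinearAut.baseAut g t * SemilinearAut.baseAut g α *
          μ * (z l : K) := by
        rw [e3, div_mul_cancel₀ _ hgα, ht, mul_assoc, div_mul_cancel₀ _ hα0]
        linear_combination b l * hz' - SemilinearAut.baseAut g e * μ * hz l
      linear_combination (w : K) * h4 + μ * SemilinearAut.baseAut g α * hw'
    · have hw' := congrArg R.π hw
      rw [map_mul, map_mul, map_one, hπt] at hw'
      rw [map_mul, map_mul, hz'1, mul_one, ← hzω]
      linear_combination hw'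
  obtain ⟨mi, hmi, hωi⟩ := key i
  obtain ⟨mj, hmj, hωj⟩ := key j
  have e : mi = mj := Subtype.ext (mul_right_cancel₀ hα0 (hmi.trans hmj.symm))
  subst e
  exact mul_left_cancel₀ (left_ne_zero_of_mul_eq_one hωi) (hωi.trans hωj.symm)

end Fermat.Agent.Residual.Lower

end
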