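/-
Mazur's principle modulo powers of two: rational representatives of classes fixed by one Galois
automorphism, and inertia at `q`.
-/
import Fermat.Agent.BadReduction.X0FrobeniusAction
import Fermat.Agent.Residual.LowerSlope
import Fermat.Agent.Residual.LowerRepFixed
import Fermat.Agent.Residual.LowerRepInertia
import Fermat.Agent.Residual.LowerRepRatio
import Fermat.Agent.Mazur.LocalToric

set_option autoImplicit false
set_option linter.style.haveILetI false

noncomputable section

open ModularCurve IsLocalRing AlgebraicCurve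
open Fermat.Agent.Curve Fermat.Agent.Bad Fermat.Agent.BadReduction

namespace Fermat.Agent.Residual.Lower

local notation "ℚbar" => AlgebraicClosure ℚ

/-- A torsion class fixed by `σ` has a representative whose function is fixed by `σ`. -/
theorem exists_fixed_fun {N : ℕ} [NeZero N] (σ : ℚbar ≃ₐ[ℚ] ℚbar) {n : ℕ} (hn : 0 < n)
    {x : JZero N} (hx : n • x = 0) (hσ : σ • x = x) :
    ∃ (D : Divisor.degZero (K := ℚbar) (F := modularFunctionFieldBar N))
      (f : modularFunctionFieldBar N), Pic0.mk D = x ∧ f ≠ 0 ∧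
      arithmeticGalois (modularFunctionFieldFull N) σ • f = f ∧
      ∀ v : Place ℚbar (modularFunctionFieldBar N),
        (n : ℤ) * (D : Divisor ℚbar (modularFunctionFieldBar N)) v = v.ord f := by
  exact exists_fixed_fun_aux σ hn hx hσ

/-- Tame inertia moves `n`-th roots of `q` by primitive roots of unity. -/
theorem exists_inertia_root {q : ℕ} [Fact q.Prime] {A : ValuationSubring ℚbar}
    (hA : A.LiesOverPrime q) {n : ℕ} (hn : 0 < n) (hqn : ¬ q ∣ n) :
    ∃ σ ∈ A.inertiaSubgroupIn ℚ, ∃ β ζ : ℚbar, β ^ n = (q : ℚbar) ∧ IsPrimitiveRoot ζ n ∧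
      σ β = ζ * β := by
  exact exists_inertia_root_aux hA hn hqn

section Reduction

variable {M q : ℕ} [NeZero M] [hq : Fact q.Prime]

local instance neZero_primeRep : NeZero q := ⟨hq.out.ne_zero⟩

theorem isInertial_galois (hqM : ¬ q ∣ M) (A : ValuationSubring ℚbar) (hA : A.LiesOverPrime q)
    [IsAlgClosed (ResidueField A)] {σ : ℚbar ≃ₐ[ℚ] ℚbar} (hσ : σ ∈ A.inertiaSubgroupIn ℚ) :
    IsInertial (x0Reduction hqM A hA) (arithmeticGalois (modularFunctionFieldFull (M * q)) σ) := by
  exact Mazur.isInertial_galois hqM A hA hσ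

end Reduction

section Ratio

universe uK uF uι uk uFb

variable {K : Type uK} [Field K] {A : ValuationSubring K}
  {F : Type uF} [Field F] [Algebra K F] {ι : Type uι} [Fintype ι]
  {k : Type uk} [Field k] {Fb : ι → Type uFb} [∀ i, Field (Fb i)] [∀ i, Algebra k (Fb i)]
  {R : MultiReduction A F k Fb} [IsAlgClosed K] [IsFunctionFieldOne K F]
  [∀ i, IsFunctionFieldOne k (Fb i)] {g : SemilinearAut K F}

/-- Ratios exist, and are `n`-th roots of unity. -/
theorem exists_isRatio (hg : IsInertial R g) {n : ℕ} (hn : 0 < n) {f : F} (hf : f ≠ 0)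
    (hgf : g • f = f) : ∃ ω, IsRatio R g n f ω ∧ ∀ i, ω i ^ n = 1 := by
  exact exists_isRatio_aux hg hn hf hgf

/-- A fixed constant times an `n`-th power has a constant ratio, and ratios are unique up to
constant tuples. -/
theorem IsRatio.const_of_pow (hg : IsInertial R g) {n : ℕ} (hn : 0 < n) {f h : F} {a : K}
    (hh : h ≠ 0) (hfa : f = algebraMap K F a * h ^ n) (hgf : g • f = f) {ω : ι → k}
    (hω : IsRatio R g n f ω) (i j : ι) : ω i = ω j := by
  exact IsRatio.const_of_pow_aux hg hn hh hfa hgf hω i j

end Ratio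

end Fermat.Agent.Residual.Lower

end
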