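/-
Ordinary double points: a conductor whose glued branches lie on different components gives a
gluing with every branch glued to another component and at most one branch of each component at
a point.
-/
import Fermat.Agent.Bad.Gluing
import Fermat.Agent.Bad.BGlueConn

set_option autoImplicit false
set_option linter.style.haveILetI false

noncomputable section

namespace Fermat.Agent.Residual.Lower

open AlgebraicCurve Fermat.Agent.Curve Fermat.Agent.Bad Fermat.Agent.Bad.MultiReduction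

universe uK uF uι uk uFb

variable {K : Type uK} [Field K] {A : ValuationSubring K}
  {F : Type uF} [Field F] [Algebra K F] {ι : Type uι} [Fintype ι]
  {k : Type uk} [Field k] {Fb : ι → Type uFb} [∀ i, Field (Fb i)] [∀ i, Algebra k (Fb i)]
  [IsAlgClosed K] [IsFunctionFieldOne K F] [∀ i, IsFunctionFieldOne k (Fb i)]
  (R : MultiReduction A F k Fb)

/-- Functions in the special fibre separate the regular places of every component. -/
def Separates : Prop :=
  ∀ (i : ι) (v v' : Place k (Fb i)), 0 ≤ v.ord (R.xb i) → 0 ≤ v'.ord (R.xb i) → v ≠ v' →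
    ∃ N : ℕ, ∃ h ∈ R.spFibre (R.polarSp N), bval ⟨i, v⟩ h ≠ bval ⟨i, v'⟩ h

theorem exists_gluing_of_separates [Nontrivial ι] (hA : RankLeOne A) (hsep : Separates R)
    (B₀ : Finset (Σ i, Place k (Fb i))) (hreg : ∀ b ∈ B₀, 0 ≤ b.2.ord (R.xb b.1))
    (hmeets : ∀ i, ∃ b ∈ B₀, b.1 = i)
    (hZ : ∃ N₁, ∀ N, N₁ ≤ N → ∀ h ∈ R.polarFibre N,
      (∀ b ∈ B₀, VanishesAt b 1 h) → h ∈ R.spFibre (R.polarSp N))
    (hι : Fintype.card ι = 2) :
    ∃ G : Gluing R, G.IsSeminormal ∧
      (∀ b : ↥G.B, ∃ b' : ↥G.B, G.pt b = G.pt b' ∧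
        (b : Σ i, Place k (Fb i)).1 ≠ (b' : Σ i, Place k (Fb i)).1) ∧
      G.B.card ≤ 2 * Nat.card G.Pt := by
  classical
  haveI := R.isAlgClosed_residue
  let G₀ := Gluing.ofVanishing R B₀ hreg hmeets hZ
  have hG₀ := Gluing.ofVanishing_isSeminormal R B₀ hreg hmeets hZ
  -- branches of one component are never glued
  have hone : ∀ b b' : Σ i, Place k (Fb i), b ∈ B₀ → b' ∈ B₀ → b.1 = b'.1 →
      (∀ (N : ℕ), ∀ h ∈ R.spFibre (R.polarSp N), bval b h = bval b' h) → b = b' := by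
    rintro ⟨i, v⟩ ⟨i', v'⟩ hb hb' (rfl : i = i') heq
    by_contra hne
    obtain ⟨N, h, hh, hval⟩ := hsep i v v' (hreg ⟨i, v⟩ hb) (hreg ⟨i, v'⟩ hb')
      fun e => hne (by rw [e])
    exact hval (heq N h hh)
  let B : Finset (Σ i, Place k (Fb i)) := B₀.filter fun b => ∃ b' ∈ B₀, b.1 ≠ b'.1 ∧
    ∀ (N : ℕ), ∀ h ∈ R.spFibre (R.polarSp N), bval b h = bval b' h
  have hBmem : ∀ {b b' : Σ i, Place k (Fb i)}, b ∈ B₀ → b' ∈ B₀ → b ≠ b' →
      (∀ (N : ℕ), ∀ h ∈ R.spFibre (R.polarSp N), bval b h = bval b' h) → b ∈ B := by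
    intro b b' hb hb' hne heq
    exact Finset.mem_filter.2 ⟨hb, b', hb', fun h => hne (hone b b' hb hb' h heq), heq⟩
  obtain ⟨N₀, hN₀, -⟩ := exists_seminormal_bound R B₀ (gluePt R B₀) hG₀.pt_surjective hreg
    (fun N h hh b b' hbb' => (gluePt_eq_iff B₀).1 hbb' N h hh) hG₀.count
  have hZB : ∃ N₁, ∀ N, N₁ ≤ N → ∀ h ∈ R.polarFibre N,
      (∀ b ∈ B, VanishesAt b 1 h) → h ∈ R.spFibre (R.polarSp N) := by
    refine ⟨N₀, fun N hN h hh hv => hN₀ N hN h hh fun b b' hbb' => ?_⟩
    rcases eq_or_ne b b' with rfl | hne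
    · rfl
    have heq := (gluePt_eq_iff B₀).1 hbb'
    have hne' : (b : Σ i, Place k (Fb i)) ≠ b' := fun e => hne (Subtype.ext e)
    rw [bval_eq_zero_of_vanishesAt le_rfl (hv _ (hBmem b.2 b'.2 hne' heq)),
      bval_eq_zero_of_vanishesAt le_rfl
        (hv _ (hBmem b'.2 b.2 hne'.symm fun N h hh => (heq N h hh).symm))]
  have hregB : ∀ b ∈ B, 0 ≤ b.2.ord (R.xb b.1) := fun b hb => hreg b (Finset.mem_filter.1 hb).1
  have hpartner : ∀ b ∈ B, ∃ b' ∈ B, b.1 ≠ b'.1 ∧
      ∀ (N : ℕ), ∀ h ∈ R.spFibre (R.polarSp N), bval b h = bval b' h := by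
    intro b hb
    obtain ⟨hb₀, b', hb', hne, heq⟩ := Finset.mem_filter.1 hb
    exact ⟨b', hBmem hb' hb₀ (fun e => hne (by rw [e])) fun N h hh => (heq N h hh).symm, hne, heq⟩
  have hother : ∀ i j l : ι, i ≠ j → l = i ∨ l = j := by
    intro i j l hij
    have h : ({i, j} : Finset ι) = Finset.univ :=
      Finset.eq_univ_of_card _ (by rw [Finset.card_pair hij, hι])
    simpa using (h ▸ Finset.mem_univ l : l ∈ ({i, j} : Finset ι))
  -- the special fibre is connected, so some branches are glued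
  have hne : B.Nonempty := by
    by_contra hempty
    rw [Finset.not_nonempty_iff_eq_empty] at hempty
    obtain ⟨i, j, hij⟩ := exists_pair_ne ι
    have hmatch : ∀ b b' : ↥B₀, gluePt R B₀ b = gluePt R B₀ b' → b = b' := by
      intro b b' hbb'
      by_contra hne
      have := hBmem b.2 b'.2 (fun e => hne (Subtype.ext e)) ((gluePt_eq_iff B₀).1 hbb')
      rw [hempty] at this
      exact absurd this (Finset.notMem_empty _)
    have hc := hN₀ N₀ le_rfl (BGlue.constTuple (Pi.single i (1 : k)))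
      (BGlue.constTuple_mem_polarFibre R _ N₀)
      fun b b' hbb' => by rw [hmatch b b' hbb']
    have := BGlue.constTuple_eq_const hA G₀ hc i j
    rw [Pi.single_eq_same, Pi.single_eq_of_ne hij.symm] at this
    exact one_ne_zero this
  have hmeetsB : ∀ i, ∃ b ∈ B, b.1 = i := by
    intro i
    obtain ⟨b, hb⟩ := hne
    obtain ⟨b', hb', hij, -⟩ := hpartner b hb
    rcases hother b.1 b'.1 i hij with rfl | rfl
    · exact ⟨b, hb, rfl⟩
    · exact ⟨b', hb', rfl⟩
  refine ⟨Gluing.ofVanishing R B hregB hmeetsB hZB,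
    Gluing.ofVanishing_isSeminormal R B hregB hmeetsB hZB, ?_, ?_⟩
  · rintro ⟨b, hb⟩
    obtain ⟨b', hb', hij, heq⟩ := hpartner b hb
    exact ⟨⟨b', hb'⟩, (gluePt_eq_iff B).2 heq, hij⟩
  · let P := Fin (Fintype.card (Quotient (glueSetoid R B)))
    show B.card ≤ 2 * Nat.card P
    let φ : ↥B → P × ι := fun b => (gluePt R B b, (b : Σ i, Place k (Fb i)).1)
    have hφ : Function.Injective φ := by
      intro b b' h
      simp only [φ, Prod.mk.injEq] at h
      exact Subtype.ext (hone _ _ (Finset.mem_filter.1 b.2).1 (Finset.mem_filter.1 b'.2).1 h.2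
        ((gluePt_eq_iff B).1 h.1))
    have := Fintype.card_le_of_injective φ hφ
    rw [Fintype.card_coe, Fintype.card_prod, hι, mul_comm] at this
    rwa [Nat.card_eq_fintype_card]

end Fermat.Agent.Residual.Lower

end
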