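/-
Functions of level `M`, pulled back by the two degeneracy maps, separate the regular places of
each component of the special fibre of `X₀(M q)` at `q`.
-/
import Fermat.Agent.BadReduction.X0Compat
import Fermat.Agent.Bad.GluingCount
import Fermat.Agent.Residual.LowerGluing

set_option autoImplicit false
set_option linter.style.haveILetI false
set_option synthInstance.maxHeartbeats 400000

noncomputable section

open ModularCurve IntermediateField IsLocalRing AlgebraicCurve Polynomial
open Fermat.Agent.Curve Fermat.Agent.Curve.RedAux Fermat.Agent.Bad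
open Fermat.Agent.Bad.MultiReduction Fermat.Agent.BadReduction

namespace Fermat.Agent.Residual.Lower

local notation "ℚbar" => AlgebraicClosure ℚ

section General

variable {k E : Type*} [Field k] [IsAlgClosed k] [Field E] [Algebra k E] [IsFunctionFieldOne k E]

/-- Riemann–Roch spaces of large multiples of a pole divisor separate regular places. -/
theorem exists_separating {t : E} (ht : Transcendental k t) :
    ∃ N₀ : ℕ, ∀ N, N₀ ≤ N → ∀ v v' : Place k E, 0 ≤ v.ord t → 0 ≤ v'.ord t → v ≠ v' →
      ∃ g ∈ riemannRochSpace (N • poleDivisor k t), placeValue v g ≠ placeValue v' g := by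
  classical
  obtain ⟨c, hc⟩ := exists_exact_pole (k := k) (E := E)
  refine ⟨c.toNat + 1, fun N hN v v' hv hv' hne => ?_⟩
  haveI := finite_adjoin_of_transcendental ht
  have hd : 1 ≤ (Module.finrank k⟮t⟯ E : ℤ) := by exact_mod_cast Module.finrank_pos
  set P := poleDivisor k t with hP
  obtain ⟨g, hg, hg0, hgv⟩ := hc (N • P - Finsupp.single v' 1) v (by
    rw [map_sub, map_nsmul, Divisor.degree_single, deg_one, nsmul_eq_mul, hP,
      degree_poleDivisor ht]
    have h1 : (N : ℤ) ≤ (N : ℤ) * (Module.finrank k⟮t⟯ E : ℤ) :=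
      le_mul_of_one_le_right (Int.natCast_nonneg N) hd
    push_cast
    omega)
  have hPv : ∀ w : Place k E, 0 ≤ w.ord t → P w = 0 := fun w hw => by
    rw [hP, poleDivisor_apply]; omega
  have h0 := (mem_L_iff hg0).1 hg v'
  rw [Finsupp.sub_apply, Finsupp.smul_apply, hPv v' hv', smul_zero,
    Finsupp.single_eq_same] at h0
  rw [Finsupp.sub_apply, Finsupp.smul_apply, hPv v hv, smul_zero,
    Finsupp.single_eq_of_ne hne] at hgv
  refine ⟨g, L_mono (sub_le_self _ (by simp)) hg, ?_⟩
  rw [(placeValue_eq_zero_iff v' (mem_of_zero_or_le v' (Or.inr (by omega)))).2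
    (Or.inr (by omega))]
  exact (placeValue_ne_zero_iff v (mem_of_zero_or_le v (Or.inr (by omega)))).2 ⟨hg0, by omega⟩

end General

variable {M q : ℕ} [NeZero M] [hq : Fact q.Prime]

local instance neZero_primeSeparate : NeZero q := ⟨hq.out.ne_zero⟩

variable (hqM : ¬ q ∣ M) (A : ValuationSubring ℚbar) (hA : A.LiesOverPrime q)

omit [NeZero M] in
theorem x0FunBar_eq_pow :
    x0FunBar M A (q := q) = ((aeval (jRes M A) (cubic q))⁻¹) ^ (q + 1) := by
  rw [x0FunBar, inv_pow]

theorem transcendental_cubicJM : Transcendental ℚbar (cubicJM M q) := by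
  rw [cubicJM, aeval_int_eq, ← aeval_map_int (k := ℚbar)]
  exact transcendental_aeval (transcendental_jBar M)
    (by rw [cubic_monic.natDegree_map, cubic_natDegree]; norm_num)

set_option maxHeartbeats 1000000 in
include hqM hA in
/-- The function `1 / P (j)` of level `M` has good reduction with no loss of poles. -/
theorem exists_cubicJM_inv_reduction :
    ∃ h : (cubicJM M q)⁻¹ ∈ (Igusa.x0GoodReduction hqM hA).V,
      (Igusa.x0GoodReduction hqM hA).φ ⟨_, h⟩ = (aeval (jRes M A) (cubic q))⁻¹ ∧
      Transcendental (ResidueField A) (aeval (jRes M A) (cubic q))⁻¹ ∧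
      (Igusa.x0GoodReduction hqM hA).divMap (poleDivisor ℚbar (cubicJM M q)⁻¹) =
        poleDivisor (ResidueField A) (aeval (jRes M A) (cubic q))⁻¹ := by
  set G := Igusa.x0GoodReduction hqM hA with hG
  haveI := G.isAlgClosed_residue
  haveI := charP_residueField A hq.out hA
  have hj : coeffMap A.subtype (jqModC A) = (Igusa.jBar M : LaurentSeries ℚbar) := by
    rw [coeffMap_jqModC, Igusa.coe_jBar']
  obtain ⟨hJ, hJφ⟩ := Igusa.x0GoodReduction_φ_coeffMap hqM hA (jqModC A)
    (hj ▸ (Igusa.jBar M).2)
  rw [show (⟨coeffMap A.subtype (jqModC A), hj ▸ (Igusa.jBar M).2⟩ :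
    modularFunctionFieldBar M) = Igusa.jBar M from Subtype.ext hj] at hJ
  have hφJ : G.φ ⟨Igusa.jBar M, hJ⟩ = jRes M A := by
    refine Subtype.ext (Eq.trans ?_ (coeffMap_jqModC (residue A)))
    rw [← hJφ]
    congr 2
    exact Subtype.ext (Subtype.ext hj.symm)
  set z : G.V := aeval (⟨Igusa.jBar M, hJ⟩ : G.V) (cubic q) with hz
  have hzval : (z : modularFunctionFieldBar M) = cubicJM M q :=
    map_aeval_int G.V.subtype _ _
  have hzφ : G.φ z = aeval (jRes M A) (cubic q) := by
    rw [hz, map_aeval_int, hφJ]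
  have hd : ((cubic q).map (Int.castRingHom (ResidueField A))).natDegree ≠ 0 := by
    rw [cubic_monic.natDegree_map, cubic_natDegree]; norm_num
  have he : aeval (jRes M A) (cubic q) =
      aeval (jRes M A) ((cubic q).map (Int.castRingHom (ResidueField A))) := by
    rw [aeval_map_int, aeval_int_eq]
  have ht : Transcendental (ResidueField A) (aeval (jRes M A) (cubic q)) :=
    he ▸ transcendental_aeval (transcendental_jRes A) hd
  have hne : G.φ z ≠ 0 := fun h => ht (by rw [← hzφ, h]; exact isAlgebraic_zero)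
  have hinv := G.inv_mem_of_φ_ne_zero hne
  have hφinv : G.φ ⟨(z : modularFunctionFieldBar M)⁻¹, hinv⟩ =
      (aeval (jRes M A) (cubic q))⁻¹ := by
    rw [G.φ_inv hne, hzφ]
  obtain ⟨h, hφ⟩ : ∃ h : (cubicJM M q)⁻¹ ∈ G.V,
      G.φ ⟨_, h⟩ = (aeval (jRes M A) (cubic q))⁻¹ := by
    refine ⟨hzval ▸ hinv, Eq.trans ?_ hφinv⟩
    congr 2
    rw [hzval]
  refine ⟨h, hφ, transcendental_inv ht, (RedAux.eq_of_le_of_degree_le ?_ ?_).symm⟩
  · rw [← hφ, poleDivisor_le_iff
      (by
        have := G.divMap_mono (poleDivisor_nonneg (K := ℚbar) (cubicJM M q)⁻¹)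
        rwa [map_zero] at this)]
    exact G.φ_mem_riemannRochSpace ⟨_, h⟩ (mem_L_poleDivisor _)
  · have hd' : ((cubic q).map (Int.castRingHom ℚbar)).natDegree = 3 := by
      rw [cubic_monic.natDegree_map, cubic_natDegree]
    rw [G.degree_divMap, degree_poleDivisor (transcendental_inv transcendental_cubicJM),
      degree_poleDivisor (transcendental_inv ht), finrank_adjoin_inv, finrank_adjoin_inv, he,
      cubicJM, aeval_int_eq, ← aeval_map_int (k := ℚbar),
      finrank_adjoin_aeval (transcendental_jBar M) (by rw [hd']; norm_num), hd',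
      finrank_adjoin_aeval (transcendental_jRes A) hd, cubic_monic.natDegree_map, cubic_natDegree]
    exact_mod_cast Nat.mul_le_mul_left 3
      ((finrank_jBar_le M).trans (psi_le_finrank_jResidual A hq.out hqM hA))

set_option maxHeartbeats 1000000 in
include hqM in
/-- Level `M` functions separate the regular places on each component. -/
theorem separates_x0Reduction [IsAlgClosed (ResidueField A)] :
    Separates (x0Reduction hqM A hA) := by
  intro i v v' hv hv' hne
  haveI := charP_residueField A hq.out hA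
  set G := Igusa.x0GoodReduction hqM hA with hG
  obtain ⟨hy, hφy, ht, hpole⟩ := exists_cubicJM_inv_reduction hqM A hA
  set t := (aeval (jRes M A) (cubic q))⁻¹ with htdef
  have hxb : (x0Reduction hqM A hA).xb i = t ^ (q + 1) :=
    (compPhi_x0Fun hqM A hA i).trans (x0FunBar_eq_pow A)
  have hreg : ∀ w : Place (ResidueField A) (X0Res M A),
      0 ≤ w.ord ((x0Reduction hqM A hA).xb i) → 0 ≤ w.ord t := fun w hw => by
    rw [hxb, ord_pow] at hw
    exact nonneg_of_mul_nonneg_right hw (by positivity)
  obtain ⟨N₀, hN₀⟩ := exists_separating ht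
  obtain ⟨c, hc⟩ := G.exists_bound_reduceSubspace_eq
  have hyt : Transcendental ℚbar (cubicJM M q)⁻¹ := transcendental_inv transcendental_cubicJM
  have hd : 1 ≤ (Module.finrank ℚbar⟮(cubicJM M q)⁻¹⟯ (modularFunctionFieldBar M) : ℤ) := by
    haveI := finite_adjoin_of_transcendental hyt
    exact_mod_cast Module.finrank_pos
  set N := N₀ + c.toNat with hN
  have hdeg : c ≤ Divisor.degree (N • poleDivisor ℚbar (cubicJM M q)⁻¹) := by
    rw [map_nsmul, degree_poleDivisor hyt, nsmul_eq_mul]
    have := le_mul_of_one_le_right (Int.natCast_nonneg N) hd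
    omega
  obtain ⟨g, hg, hval⟩ := hN₀ N (by omega) v v' (hreg v hv) (hreg v' hv') hne
  rw [← hpole, ← map_nsmul, ← hc _ hdeg, G.mem_reduceSubspace] at hg
  obtain ⟨T, hT, rfl⟩ := hg
  have h1 : (1 : modularFunctionFieldBar M) ∈
      riemannRochSpace (N • poleDivisor ℚbar (cubicJM M q)⁻¹) :=
    one_mem_L (nsmul_nonneg (poleDivisor_nonneg _) N)
  obtain ⟨a0, ea0⟩ := compPhi_zero_alpha hqM A hA T
  obtain ⟨a1, -⟩ := compPhi_one_alpha hqM A hA T
  obtain ⟨b0, -⟩ := compPhi_zero_beta hqM A hA T
  obtain ⟨b1, eb1⟩ := compPhi_one_beta hqM A hA T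
  match i, v, v', hval with
  | 0, v, v', hval =>
    have hint : heckeAlphaBar ℚbar M q (T : modularFunctionFieldBar M) ∈
        (x0Reduction hqM A hA).integers :=
      (x0Reduction hqM A hA).mem_integers.2 fun j => by fin_cases j <;> assumption
    refine ⟨N, _, ⟨⟨_, hint⟩, ?_, rfl⟩, ?_⟩
    · have := mul_mem_polarSp hqM A hA hT h1
      rwa [map_one, mul_one] at this
    · show placeValue v ((x0Reduction hqM A hA).red ⟨_, hint⟩ 0) ≠ placeValue v' _
      rw [show (x0Reduction hqM A hA).red ⟨_, hint⟩ 0 = G.φ T from ea0]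
      exact hval
  | 1, v, v', hval =>
    have hint : heckeBetaBar ℚbar M q (T : modularFunctionFieldBar M) ∈
        (x0Reduction hqM A hA).integers :=
      (x0Reduction hqM A hA).mem_integers.2 fun j => by fin_cases j <;> assumption
    refine ⟨N, _, ⟨⟨_, hint⟩, ?_, rfl⟩, ?_⟩
    · have := mul_mem_polarSp hqM A hA h1 hT
      rwa [map_one, one_mul] at this
    · show placeValue v ((x0Reduction hqM A hA).red ⟨_, hint⟩ 1) ≠ placeValue v' _
      rw [show (x0Reduction hqM A hA).red ⟨_, hint⟩ 1 = G.φ T from eb1]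
      exact hval

end Fermat.Agent.Residual.Lower

end
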