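/-
Mazur's principle modulo powers of two: helper lemmas on the operator `f ↦ Norm_α (β f)`, its
reduction along the Gauss valuation of expansions, and its commutation with `w_q`.
-/
import Fermat.Agent.BadReduction.X0Model
import Fermat.Agent.HeckeJ.Norm
import Fermat.Agent.HeckeJ.Inputs
import Fermat.Agent.ES.IdentityNorm

set_option autoImplicit false
set_option linter.style.haveILetI false

noncomputable section

open ModularCurve IsLocalRing AlgebraicCurve
open Fermat.Agent.BadReduction Fermat.Agent.Carayol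
open Fermat.Agent.HeckeJ (heckeFun normA)

namespace Fermat.Agent.Residual.Lower

local notation "ℚbar" => AlgebraicClosure ℚ

/-! ### Gauss reductions of substituted series -/

section GaussMaps

variable {K : Type*} [Field K] {A : ValuationSubring K}

theorem gaussRed_qExpand (d : ℕ) [NeZero d] (f : gaussSubring A (residue A)) :
    ∃ h : qExpand K d (f : LaurentSeries K) ∈ gaussSubring A (residue A),
      gaussRed A (residue A) ⟨_, h⟩ = qExpand (ResidueField A) d (gaussRed A (residue A) f) := by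
  obtain ⟨y₁, y₂, h, e⟩ := f.2
  have h' : coeffMap (residue A) (qExpand A d y₂) ≠ 0 := by
    rw [coeffMap_qExpand]
    exact fun h0 => h (qExpand_injective d (h0.trans (map_zero _).symm))
  have e' : qExpand K d (f : LaurentSeries K) * coeffMap A.subtype (qExpand A d y₂) =
      coeffMap A.subtype (qExpand A d y₁) := by
    rw [coeffMap_qExpand, coeffMap_qExpand, ← map_mul, e]
  refine ⟨⟨_, _, h', e'⟩, ?_⟩
  show gaussRedFun A (residue A) _ = qExpand (ResidueField A) d (gaussRedFun A (residue A) f)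
  rw [gaussRedFun_eq ⟨_, _⟩ h' e', gaussRedFun_eq f h e, coeffMap_qExpand, coeffMap_qExpand,
    map_div₀]

theorem gaussRed_twist (u : Aˣ) (f : gaussSubring A (residue A)) :
    ∃ h : EichlerShimura.twist (Units.map (A.subtype : A →* K) u) (f : LaurentSeries K) ∈
        gaussSubring A (residue A),
      gaussRed A (residue A) ⟨_, h⟩ =
        EichlerShimura.twist (Units.map (residue A : A →* ResidueField A) u)
          (gaussRed A (residue A) f) := by
  obtain ⟨y₁, y₂, h, e⟩ := f.2
  have h' : coeffMap (residue A) (EichlerShimura.twist u y₂) ≠ 0 := by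
    rw [EichlerShimura.coeffMap_twist]
    exact (map_ne_zero (EichlerShimura.twist (R := ResidueField A) _)).2 h
  have e' : EichlerShimura.twist (Units.map (A.subtype : A →* K) u) (f : LaurentSeries K) *
      coeffMap A.subtype (EichlerShimura.twist u y₂) =
      coeffMap A.subtype (EichlerShimura.twist u y₁) := by
    rw [EichlerShimura.coeffMap_twist, EichlerShimura.coeffMap_twist, ← map_mul, e]
  refine ⟨⟨_, _, h', e'⟩, ?_⟩
  show gaussRedFun A (residue A) _ =
    EichlerShimura.twist _ (gaussRedFun A (residue A) f)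
  rw [gaussRedFun_eq ⟨_, _⟩ h' e', gaussRedFun_eq f h e, EichlerShimura.coeffMap_twist,
    EichlerShimura.coeffMap_twist, map_div₀]

variable {E : IntermediateField K (LaurentSeries K)} {hE : E ≤ finFrac K}

/-- An element of `E` whose substituted expansion has a non-zero reduction is Gauss integral. -/
theorem gaussVal_of_qExpand (d : ℕ) [NeZero d] (x : E) {r : LaurentSeries (ResidueField A)}
    (hx : ∃ h : qExpand K d (x : LaurentSeries K) ∈ gaussSubring A (residue A),
      gaussRed A (residue A) ⟨_, h⟩ = r) (hr : r ≠ 0) :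
    ∃ h : x ∈ gaussVal E hE A,
      qExpand (ResidueField A) d (gaussValRed E hE A ⟨x, h⟩) = r := by
  obtain ⟨hm, hm'⟩ := hx
  have hx0 : (x : LaurentSeries K) ≠ 0 := fun h0 => hr (by
    rw [← hm', show (⟨_, hm⟩ : gaussSubring A (residue A)) = 0 from
      Subtype.ext (by simp [h0]), map_zero])
  by_cases h : (x : LaurentSeries K) ∈ gaussSubring A (residue A)
  · refine ⟨h, ?_⟩
    obtain ⟨h2, e2⟩ := gaussRed_qExpand d (⟨(x : LaurentSeries K), h⟩ : gaussSubring A (residue A))
    exact e2.symm.trans hm'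
  · exfalso
    have hi : (x : LaurentSeries K)⁻¹ ∈ gaussSubring A (residue A) :=
      (mem_or_inv_mem_gaussSubring (hE x.2)).resolve_left h
    have h0 : gaussRed A (residue A) ⟨_, hi⟩ = 0 :=
      gaussRed_eq_zero_of (by rwa [inv_inv])
    obtain ⟨h2, e2⟩ := gaussRed_qExpand d (⟨_, hi⟩ : gaussSubring A (residue A))
    have h1 : (⟨_, h2⟩ : gaussSubring A (residue A)) * ⟨_, hm⟩ = 1 := Subtype.ext (by
      show qExpand K d (x : LaurentSeries K)⁻¹ * qExpand K d (x : LaurentSeries K) = 1
      rw [← map_mul, inv_mul_cancel₀ hx0, map_one])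
    have h3 := congrArg (gaussRed A (residue A)) h1
    rw [map_mul, e2, h0, map_zero, zero_mul, map_one] at h3
    exact zero_ne_one h3

end GaussMaps

/-! ### Algebraic properties -/

section Algebraic

variable {N l : ℕ} [NeZero N] [NeZero l]

theorem heckeFun_mul_aux (f f' : modularFunctionFieldBar N) :
    heckeFun ℚbar N l (f * f') = heckeFun ℚbar N l f * heckeFun ℚbar N l f' := by
  simp only [heckeFun, normA, map_mul]

theorem heckeFun_algebraMap_aux (hl : l.Prime) (hlN : ¬ l ∣ N) (c : ℚbar) :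
    heckeFun ℚbar N l (algebraMap ℚbar (modularFunctionFieldBar N) c) =
      algebraMap ℚbar (modularFunctionFieldBar N) (c ^ (l + 1)) := by
  letI := algebraAlong (heckeAlphaBar ℚbar N l)
  show Algebra.norm (modularFunctionFieldBar N)
    (heckeBetaBar ℚbar N l (algebraMap ℚbar _ c)) = _
  have h : heckeBetaBar ℚbar N l (algebraMap ℚbar (modularFunctionFieldBar N) c) =
      algebraMap (modularFunctionFieldBar N) (modularFunctionFieldBar (N * l))
        (algebraMap ℚbar (modularFunctionFieldBar N) c) :=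
    ((heckeBetaBar ℚbar N l).commutes c).trans ((heckeAlphaBar ℚbar N l).commutes c).symm
  rw [h, Algebra.norm_algebraMap, map_pow]
  congr 1
  exact HeckeJ.finrankAlong_heckeAlphaBar_of_not_dvd ℚbar N hl hlN

/-- The operator commutes with an automorphism lifting along both degeneracy maps. -/
theorem heckeFun_comm_of_lift (w : modularFunctionFieldBar N ≃+* modularFunctionFieldBar N)
    (w' : modularFunctionFieldBar (N * l) ≃+* modularFunctionFieldBar (N * l))
    (hα : ∀ x, w' (heckeAlphaBar ℚbar N l x) = heckeAlphaBar ℚbar N l (w x))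
    (hβ : ∀ x, w' (heckeBetaBar ℚbar N l x) = heckeBetaBar ℚbar N l (w x))
    (f : modularFunctionFieldBar N) :
    heckeFun ℚbar N l (w f) = w (heckeFun ℚbar N l f) := by
  letI := algebraAlong (heckeAlphaBar ℚbar N l)
  show Algebra.norm _ (heckeBetaBar ℚbar N l (w f)) =
    w (Algebra.norm _ (heckeBetaBar ℚbar N l f))
  have he : (algebraMap (modularFunctionFieldBar N) (modularFunctionFieldBar (N * l))).comp
      (w : modularFunctionFieldBar N →+* modularFunctionFieldBar N) =
        (w' : modularFunctionFieldBar (N * l) →+* modularFunctionFieldBar (N * l)).comp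
          (algebraMap (modularFunctionFieldBar N) (modularFunctionFieldBar (N * l))) :=
    RingHom.ext fun x => (hα x).symm
  rw [Algebra.norm_eq_of_equiv_equiv w w' he (heckeBetaBar ℚbar N l f), hβ]
  exact (w.apply_symm_apply _).symm

theorem heckeFun_galois_aux (σ : ℚbar ≃ₐ[ℚ] ℚbar) (f : modularFunctionFieldBar N) :
    heckeFun ℚbar N l (arithmeticGalois (modularFunctionFieldFull N) σ • f) =
      arithmeticGalois (modularFunctionFieldFull N) σ • heckeFun ℚbar N l f := by
  refine heckeFun_comm_of_lift (arithmeticRingAut (L := ℚbar) (modularFunctionFieldFull N) σ)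
    (arithmeticRingAut (L := ℚbar) (modularFunctionFieldFull (N * l)) σ) (fun x => ?_) (fun x => ?_)
    f
  · show arithmeticGalois (modularFunctionFieldFull (N * l)) σ • heckeAlphaBar ℚbar N l x =
      heckeAlphaBar ℚbar N l (arithmeticGalois (modularFunctionFieldFull N) σ • x)
    refine Subtype.ext ?_
    rw [coe_galois_smul, coe_heckeAlphaBar, coe_heckeAlphaBar, coe_galois_smul]
  · show arithmeticGalois (modularFunctionFieldFull (N * l)) σ • heckeBetaBar ℚbar N l x =
      heckeBetaBar ℚbar N l (arithmeticGalois (modularFunctionFieldFull N) σ • x)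
    refine Subtype.ext ?_
    rw [coe_galois_smul, coe_heckeBetaBar, coe_heckeBetaBar, coe_galois_smul, coeffMap_qExpand]

end Algebraic

/-! ### The reduction of `Norm_α (β f)` -/

section Reduction

variable (A : ValuationSubring ℚbar) (l : ℕ) [NeZero l]

/-- The reduction in `q ^ (1 / l)` of `Norm_α (β f)`, given that of `f`. -/
def redFormula (u : (ResidueField A)ˣ) (x : LaurentSeries (ResidueField A)) :
    LaurentSeries (ResidueField A) :=
  qExpand (ResidueField A) (l * l) x *
    ∏ a ∈ Finset.range l, EichlerShimura.twist (u ^ a) x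

variable {A l}

theorem redFormula_ne_zero (u : (ResidueField A)ˣ) {x : LaurentSeries (ResidueField A)}
    (hx : x ≠ 0) : redFormula A l u x ≠ 0 :=
  mul_ne_zero (fun h => hx (qExpand_injective _ (h.trans (map_zero _).symm)))
    (Finset.prod_ne_zero_iff.2 fun _ _ =>
      (map_ne_zero (EichlerShimura.twist (R := ResidueField A) _)).2 hx)

variable (A) in
/-- A primitive `l`-th root of unity, as a unit of `A`. -/
theorem exists_primitiveRoot_unit (hl : l.Prime) :
    ∃ u : Aˣ, IsPrimitiveRoot ((u : A) : ℚbar) l := by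
  obtain ⟨ζ, hζ⟩ := HasEnoughRootsOfUnity.exists_primitiveRoot (M := ℚbar) (n := l)
  have h1 : ζ ^ l = 1 := hζ.pow_eq_one
  have hA : ζ ∈ A := by
    rcases A.mem_or_inv_mem ζ with h | h
    · exact h
    · have : ζ = ζ⁻¹ ^ (l - 1) := by
        rw [inv_pow]
        refine eq_inv_of_mul_eq_one_left ?_
        rw [← pow_succ', Nat.sub_add_cancel hl.one_le, h1]
      rw [this]
      exact pow_mem h _
  refine ⟨Units.ofPowEqOne ⟨ζ, hA⟩ l (Subtype.ext (by simpa using h1)) hl.ne_zero, ?_⟩
  simpa using hζ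

/-- The reduction of `Norm_α (β f)` in `q ^ (1 / l)`. -/
theorem exists_red_heckeFun {N : ℕ} [NeZero N] (hl : l.Prime) (hlN : ¬ l ∣ N) {u : Aˣ}
    (hu : IsPrimitiveRoot ((u : A) : ℚbar) l) (hE : modularFunctionFieldBar N ≤ finFrac ℚbar)
    {f : modularFunctionFieldBar N} (hf : f ∈ gaussVal _ hE A)
    (hne : gaussValRed _ hE A ⟨f, hf⟩ ≠ 0) :
    ∃ h : heckeFun ℚbar N l f ∈ gaussVal _ hE A,
      gaussValRed _ hE A ⟨_, h⟩ ≠ 0 ∧
      qExpand (ResidueField A) l (gaussValRed _ hE A ⟨_, h⟩) =
        redFormula A l (Units.map (residue A : A →* ResidueField A) u)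
          (gaussValRed _ hE A ⟨f, hf⟩) := by
  classical
  set fg : gaussSubring A (residue A) := ⟨(f : LaurentSeries ℚbar), hf⟩
  obtain ⟨h0, e0⟩ := gaussRed_qExpand (l * l) fg
  choose h1 e1 using fun a : ℕ => gaussRed_twist (u ^ a) fg
  set P : gaussSubring A (residue A) := ⟨_, h0⟩ * ∏ a ∈ Finset.range l, ⟨_, h1 a⟩
  have hP : gaussRed A (residue A) P =
      redFormula A l (Units.map (residue A : A →* ResidueField A) u)
        (gaussValRed _ hE A ⟨f, hf⟩) := by
    rw [map_mul, map_prod, e0]
    refine congrArg₂ (· * ·) rfl (Finset.prod_congr rfl fun a _ => ?_)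
    rw [e1, map_pow]
    rfl
  have hN : (P : LaurentSeries ℚbar) =
      qExpand ℚbar l (heckeFun ℚbar N l f : LaurentSeries ℚbar) := by
    refine (Eq.trans ?_ (EichlerShimura.qExpand_normAlpha_heckeBeta hl hlN
      (HeckeJ.finiteAlong_heckeAlphaBar ℚbar N l)
      (HeckeJ.finrankAlong_heckeAlphaBar_of_not_dvd ℚbar N hl hlN).le
      (Units.map (A.subtype : A →* ℚbar) u) hu f).symm)
    rw [Subring.coe_mul, SubmonoidClass.coe_finsetProd]
    simp only [map_pow]
    rfl
  have hmem : qExpand ℚbar l (heckeFun ℚbar N l f : LaurentSeries ℚbar) ∈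
      gaussSubring A (residue A) := hN ▸ P.2
  obtain ⟨h, e⟩ := gaussVal_of_qExpand (hE := hE) l (heckeFun ℚbar N l f)
    ⟨hmem, (congrArg (gaussRed A (residue A)) (Subtype.ext hN.symm)).trans hP⟩
    (redFormula_ne_zero _ hne)
  refine ⟨h, fun h0' => redFormula_ne_zero (A := A) (l := l) (Units.map (residue A : A →* ResidueField A) u) hne ?_, e⟩
  rw [← e, h0']
  exact map_zero (qExpand (ResidueField A) l)

end Reduction

/-! ### `Norm_α (β f)` commutes with `w_q` -/

section AtkinLehner

variable {M q : ℕ} [NeZero M] [hq : Fact q.Prime]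

local instance neZero_primeAux : NeZero q := ⟨hq.out.ne_zero⟩

theorem exists_swap_aut (hqM : ¬ q ∣ M) {L : ℕ} [NeZero L] (hL : L = M * q) :
    ∃ w : modularFunctionFieldBar L ≃ₐ[ℚbar] modularFunctionFieldBar L,
      ∀ d : {d : ℕ // d ∈ L.divisors}, ∃ h : swapDiv M q d.1 ∈ L.divisors,
        (w ⟨jdBar d, jdBar_mem d⟩ : LaurentSeries ℚbar) =
          jdBar (⟨_, h⟩ : {d : ℕ // d ∈ L.divisors}) := by
  subst hL
  refine ⟨atkinLehner hqM, fun d => ⟨(swapIdx hqM d).2, ?_⟩⟩
  rw [atkinLehner_apply, atkinHom_jdBar]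
  rfl

theorem jdBar_congr {L L' : ℕ} {d : {d : ℕ // d ∈ L.divisors}} {d' : {d : ℕ // d ∈ L'.divisors}}
    (h : d.1 = d'.1) : jdBar d = jdBar d' := by
  obtain ⟨d, hd⟩ := d
  obtain ⟨d', hd'⟩ := d'
  subst h
  rfl

theorem jdBar_scale {N l : ℕ} [NeZero l] (d : {d : ℕ // d ∈ N.divisors})
    (h : l * d.1 ∈ (N * l).divisors) :
    qExpand ℚbar l (jdBar d) = jdBar (⟨l * d.1, h⟩ : {d : ℕ // d ∈ (N * l).divisors}) := by
  haveI : NeZero d.1 := ⟨(Nat.pos_of_mem_divisors d.2).ne'⟩
  rw [jdBar, jdBar, coeffEmb, coeffMap_qExpand, coeffMap_qExpand, qExpand_qExpand]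

variable {l : ℕ} [NeZero l]

theorem heckeFun_atkinLehner (hqM : ¬ q ∣ M) (hl : l.Prime) (hlN : ¬ l ∣ M * q) (f : X0F M q) :
    heckeFun ℚbar (M * q) l (atkinLehner hqM f) =
      atkinLehner hqM (heckeFun ℚbar (M * q) l f) := by
  have hql : ¬ q ∣ l := fun h =>
    hlN (((Nat.prime_dvd_prime_iff_eq hq.out hl).1 h).symm.dvd.trans (dvd_mul_left q M))
  have hqMl : ¬ q ∣ M * l := fun h => (hq.out.dvd_mul.1 h).elim hqM hql
  obtain ⟨w', hw'⟩ := exists_swap_aut (M := M * l) hqMl (L := M * q * l) (mul_right_comm M q l)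
  have hsub : M * q ∣ M * q * l := dvd_mul_right _ _
  refine heckeFun_comm_of_lift (atkinLehner hqM).toRingEquiv w'.toRingEquiv (fun x => ?_)
    (fun x => ?_) f
  · have h : w'.toAlgHom.comp (heckeAlphaBar ℚbar (M * q) l) =
        (heckeAlphaBar ℚbar (M * q) l).comp (atkinLehner hqM).toAlgHom :=
      algHom_ext_jdBar fun d => by
        have hd : d.1 ∈ (M * q * l).divisors :=
          Nat.mem_divisors.2 ⟨(Nat.dvd_of_mem_divisors d.2).trans hsub, NeZero.ne _⟩
        have h1 : heckeAlphaBar ℚbar (M * q) l ⟨jdBar d, jdBar_mem d⟩ =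
            ⟨jdBar ⟨d.1, hd⟩, jdBar_mem _⟩ :=
          Subtype.ext ((coe_heckeAlphaBar _ _ _).trans (jdBar_congr rfl))
        obtain ⟨hs, hs'⟩ := hw' ⟨d.1, hd⟩
        refine Subtype.ext ?_
        show (w' (heckeAlphaBar ℚbar (M * q) l ⟨jdBar d, jdBar_mem d⟩) : LaurentSeries ℚbar) =
          (heckeAlphaBar ℚbar (M * q) l (atkinLehner hqM ⟨jdBar d, jdBar_mem d⟩) :
            LaurentSeries ℚbar)
        rw [h1, hs', coe_heckeAlphaBar, atkinLehner_apply, atkinHom_jdBar]
        exact jdBar_congr rfl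
    exact AlgHom.congr_fun h x
  · have h : w'.toAlgHom.comp (heckeBetaBar ℚbar (M * q) l) =
        (heckeBetaBar ℚbar (M * q) l).comp (atkinLehner hqM).toAlgHom :=
      algHom_ext_jdBar fun d => by
        have hd : l * d.1 ∈ (M * q * l).divisors := by
          rw [Nat.mem_divisors, mul_comm l]
          exact ⟨mul_dvd_mul_right (Nat.dvd_of_mem_divisors d.2) l, NeZero.ne _⟩
        have h1 : heckeBetaBar ℚbar (M * q) l ⟨jdBar d, jdBar_mem d⟩ =
            ⟨jdBar ⟨l * d.1, hd⟩, jdBar_mem _⟩ :=
          Subtype.ext ((coe_heckeBetaBar _ _ _).trans (jdBar_scale d hd))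
        obtain ⟨hs, hs'⟩ := hw' ⟨l * d.1, hd⟩
        refine Subtype.ext ?_
        show (w' (heckeBetaBar ℚbar (M * q) l ⟨jdBar d, jdBar_mem d⟩) : LaurentSeries ℚbar) =
          (heckeBetaBar ℚbar (M * q) l (atkinLehner hqM ⟨jdBar d, jdBar_mem d⟩) :
            LaurentSeries ℚbar)
        have hd' : l * (swapIdx hqM d).1 ∈ (M * q * l).divisors := by
          rw [Nat.mem_divisors, mul_comm l]
          exact ⟨mul_dvd_mul_right (Nat.dvd_of_mem_divisors (swapIdx hqM d).2) l, NeZero.ne _⟩
        rw [h1, hs', coe_heckeBetaBar, atkinLehner_apply, atkinHom_jdBar, jdBar_scale _ hd']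
        refine jdBar_congr ?_
        show swapDiv (M * l) q (l * d.1) = l * swapDiv M q d.1
        unfold swapDiv
        by_cases hd2 : q ∣ d.1
        · rw [if_pos (hd2.mul_left l), if_pos hd2, Nat.mul_div_assoc _ hd2]
        · rw [if_neg (fun h => (hq.out.dvd_mul.1 h).elim hql hd2), if_neg hd2, mul_assoc]
    exact AlgHom.congr_fun h x

end AtkinLehner

end Fermat.Agent.Residual.Lower

end
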