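/-
Mazur's principle modulo powers of two: the Hecke operator `f ↦ Norm_α (β f)` on the two
components of `X₀(M q)` at `q`.
-/
import Fermat.Agent.BadReduction.X0Reduction
import Fermat.Agent.HeckeJ.Norm
import Fermat.Agent.Igusa.JacobianGood
import Fermat.Agent.Residual.LowerHeckeAux

set_option autoImplicit false
set_option linter.style.haveILetI false

noncomputable section

open ModularCurve IsLocalRing AlgebraicCurve
open Fermat.Agent.Curve Fermat.Agent.BadReduction Fermat.Agent.HeckeJ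

namespace Fermat.Agent.Residual.Lower

local notation "ℚbar" => AlgebraicClosure ℚ

section Basic

variable {N l : ℕ} [NeZero N] [NeZero l]

theorem heckeFun_mul (f f' : modularFunctionFieldBar N) :
    heckeFun ℚbar N l (f * f') = heckeFun ℚbar N l f * heckeFun ℚbar N l f' := by
  exact heckeFun_mul_aux f f'

theorem heckeFun_algebraMap (hl : l.Prime) (hlN : ¬ l ∣ N) (c : ℚbar) :
    heckeFun ℚbar N l (algebraMap ℚbar (modularFunctionFieldBar N) c) =
      algebraMap ℚbar (modularFunctionFieldBar N) (c ^ (l + 1)) := by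
  exact heckeFun_algebraMap_aux hl hlN c

theorem heckeFun_galois (σ : ℚbar ≃ₐ[ℚ] ℚbar) (f : modularFunctionFieldBar N) :
    heckeFun ℚbar N l (arithmeticGalois (modularFunctionFieldFull N) σ • f) =
      arithmeticGalois (modularFunctionFieldFull N) σ • heckeFun ℚbar N l f := by
  exact heckeFun_galois_aux σ f

end Basic

variable {M q l : ℕ} [NeZero M] [hq : Fact q.Prime] [NeZero l]

local instance neZero_primeHecke : NeZero q := ⟨hq.out.ne_zero⟩

variable (hqM : ¬ q ∣ M) (A : ValuationSubring ℚbar) (hA : A.LiesOverPrime q)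

include hA in
/-- The reduction on a component in `q ^ (1 / l)` after applying the operator. -/
theorem exists_compPhi_heckeFun (hl : l.Prime) (hlN : ¬ l ∣ M * q) {u : Aˣ}
    (hu : IsPrimitiveRoot ((u : A) : ℚbar) l) (i : Fin 2)
    {f : X0F M q} (hf : f ∈ compV hqM A i) (hne : compPhi hqM A hA i ⟨f, hf⟩ ≠ 0) :
    ∃ h : heckeFun ℚbar (M * q) l f ∈ compV hqM A i,
      compPhi hqM A hA i ⟨_, h⟩ ≠ 0 ∧
      qExpand (ResidueField A) l
          (compPhi hqM A hA i ⟨_, h⟩ : LaurentSeries (ResidueField A)) =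
        redFormula A l (Units.map (residue A : A →* ResidueField A) u)
          (compPhi hqM A hA i ⟨f, hf⟩ : LaurentSeries (ResidueField A)) := by
  fin_cases i
  · obtain ⟨h, h0, e⟩ := exists_red_heckeFun hl hlN hu (modularFunctionFieldBar_le_finFrac (M * q))
      (f := f) hf (fun h => hne (Subtype.ext h))
    exact ⟨h, fun h' => h0 (congrArg Subtype.val h'), e⟩
  · obtain ⟨h, h0, e⟩ := exists_red_heckeFun hl hlN hu (modularFunctionFieldBar_le_finFrac (M * q))
      (f := atkinLehner hqM f) hf (fun h => hne (Subtype.ext h))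
    have hc := heckeFun_atkinLehner hqM hl hlN f
    have h' : atkinLehner hqM (heckeFun ℚbar (M * q) l f) ∈ infV M q A := hc ▸ h
    have heq : infRed M q A ⟨_, h'⟩ = infRed M q A ⟨_, h⟩ :=
      congrArg (infRed M q A) (Subtype.ext hc.symm)
    refine ⟨h', fun hz => h0 (heq.symm.trans (congrArg Subtype.val hz)), ?_⟩
    exact (congrArg (qExpand (ResidueField A) l) heq).trans e

/-- The good reduction of `X₀(M)` is the Gauss reduction of expansions. -/
theorem coe_x0GoodReduction_φ {W : modularFunctionFieldBar M}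
    (hW : W ∈ (Igusa.x0GoodReduction hqM hA).V) :
    ∃ h : W ∈ gaussVal _ (modularFunctionFieldBar_le_finFrac M) A,
      gaussValRed _ (modularFunctionFieldBar_le_finFrac M) A ⟨W, h⟩ =
        ((Igusa.x0GoodReduction hqM hA).φ ⟨W, hW⟩ : LaurentSeries (ResidueField A)) := by
  obtain ⟨u, v, hv, huv, hu', hv'⟩ :=
    Igusa.x0GoodReduction_exists_quotient hqM hA ⟨W, hW⟩
  obtain ⟨hvV, hvφ⟩ := Igusa.x0GoodReduction_φ_coeffMap hqM hA v hv'
  obtain ⟨huV, huφ⟩ := Igusa.x0GoodReduction_φ_coeffMap hqM hA u hu'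
  have hg : W ∈ gaussVal (modularFunctionFieldBar M) (modularFunctionFieldBar_le_finFrac M) A :=
    ⟨u, v, hv, huv⟩
  refine ⟨hg, ?_⟩
  have hprod : (⟨W, hW⟩ : (Igusa.x0GoodReduction hqM hA).V) * ⟨_, hvV⟩ = ⟨_, huV⟩ :=
    Subtype.ext (Subtype.ext huv)
  have h := congrArg (Igusa.x0GoodReduction hqM hA).φ hprod
  rw [map_mul] at h
  have h2 := congrArg Subtype.val h
  rw [IntermediateField.coe_mul, hvφ, huφ] at h2
  rw [gaussValRed_eq (modularFunctionFieldBar M) (modularFunctionFieldBar_le_finFrac M) A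
    ⟨W, hg⟩ hv huv, div_eq_iff hv]
  exact h2.symm

/-- A function with non-zero Gauss reduction is integral for the good reduction. -/
theorem mem_x0GoodReduction_V {W : modularFunctionFieldBar M}
    (hW : W ∈ gaussVal _ (modularFunctionFieldBar_le_finFrac M) A)
    (hne : gaussValRed _ (modularFunctionFieldBar_le_finFrac M) A ⟨W, hW⟩ ≠ 0) :
    ∃ h : W ∈ (Igusa.x0GoodReduction hqM hA).V,
      ((Igusa.x0GoodReduction hqM hA).φ ⟨W, h⟩ : LaurentSeries (ResidueField A)) =
        gaussValRed _ (modularFunctionFieldBar_le_finFrac M) A ⟨W, hW⟩ := by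
  set G := Igusa.x0GoodReduction hqM hA with hG
  set hE := modularFunctionFieldBar_le_finFrac M
  suffices hV : W ∈ G.V by
    obtain ⟨h, e⟩ := coe_x0GoodReduction_φ hqM A hA hV
    exact ⟨hV, e.symm⟩
  have hW0 : W ≠ 0 := fun h0 => hne (by
    rw [show (⟨W, hW⟩ : gaussVal _ hE A) = 0 from Subtype.ext h0, map_zero])
  obtain ⟨c, hc, hcne⟩ := G.exists_scale W hW0
  obtain ⟨hcg, hce⟩ := coe_x0GoodReduction_φ hqM A hA hc
  have hcg0 : gaussValRed _ hE A ⟨c • W, hcg⟩ ≠ 0 := by
    rw [hce]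
    exact fun h => hcne (Subtype.ext h)
  have hc0 : c ≠ 0 := fun h0 => hcg0 (by
    rw [show (⟨c • W, hcg⟩ : gaussVal _ hE A) = 0 from Subtype.ext (by simp [h0]), map_zero])
  have hcinv : c⁻¹ ∈ A := by
    by_contra hn
    have hcA : c ∈ A := (A.mem_or_inv_mem c).resolve_right hn
    have hres : residue A ⟨c, hcA⟩ = 0 := by
      rw [IsLocalRing.residue_eq_zero_iff, mem_maximalIdeal, mem_nonunits_iff]
      intro hu
      obtain ⟨b, hb⟩ := hu.exists_right_inv
      refine hn ?_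
      rw [show c⁻¹ = (b : ℚbar) from inv_eq_of_mul_eq_one_right (congrArg Subtype.val hb)]
      exact b.2
    refine hcg0 ?_
    rw [show (⟨c • W, hcg⟩ : gaussVal _ hE A) =
      ⟨algebraMap ℚbar _ c, (algebraMap_mem_gaussVal_iff _ hE A).2 hcA⟩ * ⟨W, hW⟩ from
        Subtype.ext (Algebra.smul_def c W), map_mul, gaussValRed_algebraMap _ hE A ⟨c, hcA⟩, hres,
      map_zero, zero_mul]
  have hmem := mul_mem ((G.mem_V_iff c⁻¹).2 hcinv) hc
  rwa [Algebra.smul_def, ← mul_assoc, ← map_mul, inv_mul_cancel₀ hc0, map_one, one_mul] at hmem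

/-- Functions with non-zero reduction are mapped to functions with non-zero reduction. -/
theorem compPhi_heckeFun_ne_zero (hl : l.Prime) (hlN : ¬ l ∣ M * q) (i : Fin 2)
    {f : X0F M q} (hf : f ∈ compV hqM A i) (hne : compPhi hqM A hA i ⟨f, hf⟩ ≠ 0) :
    ∃ h : heckeFun ℚbar (M * q) l f ∈ compV hqM A i,
      compPhi hqM A hA i ⟨_, h⟩ ≠ 0 := by
  obtain ⟨u, hu⟩ := exists_primitiveRoot_unit A hl
  obtain ⟨h, h0, -⟩ := exists_compPhi_heckeFun hqM A hA hl hlN hu i hf hne
  exact ⟨h, h0⟩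

/-- Equal reductions at the levels `M q` and `M` stay equal. -/
theorem compPhi_heckeFun_eq (hl : l.Prime) (hlN : ¬ l ∣ M * q) (i : Fin 2)
    {f : X0F M q} (hf : f ∈ compV hqM A i) {W : modularFunctionFieldBar M}
    (hW : W ∈ (Igusa.x0GoodReduction hqM hA).V)
    (hne : compPhi hqM A hA i ⟨f, hf⟩ ≠ 0)
    (heq : compPhi hqM A hA i ⟨f, hf⟩ = (Igusa.x0GoodReduction hqM hA).φ ⟨W, hW⟩) :
    ∃ (h : heckeFun ℚbar (M * q) l f ∈ compV hqM A i)
      (h' : heckeFun ℚbar M l W ∈ (Igusa.x0GoodReduction hqM hA).V),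
      compPhi hqM A hA i ⟨_, h⟩ = (Igusa.x0GoodReduction hqM hA).φ ⟨_, h'⟩ := by
  obtain ⟨u, hu⟩ := exists_primitiveRoot_unit A hl
  obtain ⟨h, -, e⟩ := exists_compPhi_heckeFun hqM A hA hl hlN hu i hf hne
  obtain ⟨hWg, hWe⟩ := coe_x0GoodReduction_φ hqM A hA hW
  have hne' : gaussValRed _ (modularFunctionFieldBar_le_finFrac M) A ⟨W, hWg⟩ ≠ 0 := by
    rw [hWe, ← heq]
    exact fun h => hne (Subtype.ext h)
  obtain ⟨hg, hg0, eg⟩ := exists_red_heckeFun hl (fun h => hlN (h.trans (dvd_mul_right M q))) hu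
    (modularFunctionFieldBar_le_finFrac M) hWg hne'
  obtain ⟨h', e'⟩ := mem_x0GoodReduction_V hqM A hA hg hg0
  refine ⟨h, h', Subtype.ext ?_⟩
  rw [e']
  refine qExpand_injective l ?_
  rw [e, eg, hWe, ← heq]

end Fermat.Agent.Residual.Lower

end
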