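/-
Component reduction, general lemmas: Hecke relations between functions of torsion classes, and
residues of scaled products.
-/
import Fermat.Agent.Residual.LowerSlope
import Fermat.Agent.Residual.LowerHecke
import Fermat.Agent.Bad.GluingNormal
import Fermat.Agent.Curve.ReductionLattice

set_option autoImplicit false
set_option linter.style.haveILetI false

noncomputable section

namespace Fermat.Agent.Residual.Lower

open AlgebraicCurve ModularCurve Fermat.Agent.Curve Fermat.Agent.Bad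
open Fermat.Agent.HeckeJ

section Classes

variable {K F : Type*} [Field K] [Field F] [Algebra K F]

theorem pic0_mk_nsmul (n : ℕ) (D : Divisor.degZero (K := K) (F := F)) :
    Pic0.mk (n • D) = n • Pic0.mk D :=
  map_nsmul (QuotientAddGroup.mk' _) n D

theorem pic0_mk_sub (D E : Divisor.degZero (K := K) (F := F)) :
    Pic0.mk (D - E) = Pic0.mk D - Pic0.mk E :=
  map_sub (QuotientAddGroup.mk' _) D E

theorem pic0_mk_eq_zero_iff (D : Divisor.degZero (K := K) (F := F)) :
    Pic0.mk D = 0 ↔ Divisor.IsPrincipal (D : Divisor K F) := by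
  rw [Pic0.mk, QuotientAddGroup.eq_zero_iff, AddSubgroup.mem_addSubgroupOf,
    Divisor.mem_principal]

/-- An integer multiple of a torsion element is a natural multiple. -/
theorem zsmul_eq_emod_nsmul {G : Type*} [AddCommGroup G] {n : ℕ} (hn : 0 < n) {x : G}
    (hx : n • x = 0) (a : ℤ) : a • x = (a % (n : ℤ)).toNat • x := by
  conv_lhs => rw [← Int.emod_add_mul_ediv a n]
  rw [add_zsmul, mul_comm, mul_zsmul, natCast_zsmul, hx, zsmul_zero, add_zero,
    ← natCast_zsmul, Int.toNat_of_nonneg (Int.emod_nonneg a (by exact_mod_cast hn.ne'))]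

variable [IsAlgClosed K] [IsFunctionFieldOne K F]

/-- Functions with the same orders differ by a constant. -/
theorem exists_const_mul_of_ord_eq {f g : F} (hf : f ≠ 0) (hg : g ≠ 0)
    (h : ∀ v : Place K F, v.ord f = v.ord g) :
    ∃ c : K, c ≠ 0 ∧ f = algebraMap K F c * g := by
  obtain ⟨c, hc, he⟩ := exists_algebraMap_of_ord_eq_zero (K := K) (div_ne_zero hf hg) fun v => by
    rw [div_eq_mul_inv, v.ord_mul hf (inv_ne_zero hg), v.ord_inv, h v, add_neg_cancel]
  exact ⟨c, hc, by rw [he, div_mul_cancel₀ _ hg]⟩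

end Classes

section Good

variable {K : Type*} [Field K] {A : ValuationSubring K} {F : Type*} [Field F] [Algebra K F]
  {k : Type*} [Field k] {Fb : Type*} [Field Fb] [Algebra k Fb] (G : GoodReduction A F k Fb)

/-- Proportional functions with non-zero reductions have proportional reductions. -/
theorem exists_φ_eq_const_mul {f g : G.V} {b : K} (hb : (f : F) = algebraMap K F b * g)
    (hf : G.φ f ≠ 0) (hg : G.φ g ≠ 0) :
    ∃ a : k, a ≠ 0 ∧ G.φ f = algebraMap k Fb a * G.φ g := by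
  rcases A.mem_or_inv_mem b with h | h
  · have e : G.φ f = algebraMap k Fb (G.π ⟨b, h⟩) * G.φ g := by
      rw [← G.φ_algebraMap, ← map_mul]; exact congrArg _ (Subtype.ext hb)
    exact ⟨_, fun h0 => hf (by rw [e, h0, map_zero, zero_mul]), e⟩
  · have hb0 : b ≠ 0 := fun h0 => hf (by
      rw [show f = 0 from Subtype.ext (by simp [hb, h0]), map_zero])
    have e : G.φ g = algebraMap k Fb (G.π ⟨b⁻¹, h⟩) * G.φ f := by
      rw [← G.φ_algebraMap, ← map_mul]
      refine congrArg _ (Subtype.ext ?_)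
      show (g : F) = algebraMap K F b⁻¹ * (f : F)
      rw [hb, ← mul_assoc, ← map_mul, inv_mul_cancel₀ hb0, map_one, one_mul]
    have h0 : G.π ⟨b⁻¹, h⟩ ≠ 0 := fun h0 => hg (by rw [e, h0, map_zero, zero_mul])
    exact ⟨(G.π ⟨b⁻¹, h⟩)⁻¹, inv_ne_zero h0, by
      rw [e, ← mul_assoc, ← map_mul, inv_mul_cancel₀ h0, map_one, one_mul]⟩

end Good

section Scaling

variable {K : Type*} [Field K] {A : ValuationSubring K} {F : Type*} [Field F] [Algebra K F]
  {ι : Type*} [Fintype ι] {k : Type*} [Field k] {Fb : ι → Type*} [∀ i, Field (Fb i)]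
  [∀ i, Algebra k (Fb i)] (R : MultiReduction A F k Fb)

/-- The residue of a scaling of `c * f ^ a * h ^ n`. -/
theorem exists_φ_eq_of_eq (i : ι) {f g h : F} {c : K} {a n : ℕ} (hc : c ≠ 0) (hh : h ≠ 0)
    (heq : g = algebraMap K F c * f ^ a * h ^ n)
    {cf cg : K} (hf : cf • f ∈ R.V i) (hfn : R.φ i ⟨_, hf⟩ ≠ 0)
    (hg : cg • g ∈ R.V i) (hgn : R.φ i ⟨_, hg⟩ ≠ 0) :
    ∃ (b : k) (v : Fb i), b ≠ 0 ∧ v ≠ 0 ∧
      R.φ i ⟨_, hg⟩ = algebraMap k (Fb i) b * R.φ i ⟨_, hf⟩ ^ a * v ^ n := by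
  obtain ⟨e, he, hen⟩ := R.exists_scale i h hh
  have e1 : (c⁻¹ * cf ^ a * e ^ n) • g = (cf • f) ^ a * (e • h) ^ n := by
    rw [heq, Algebra.smul_def, Algebra.smul_def cf, Algebra.smul_def e, mul_pow, mul_pow,
      map_mul, map_mul, map_pow, map_pow, map_inv₀]
    have : algebraMap K F c ≠ 0 := (map_ne_zero _).2 hc
    field_simp
  have hm : (c⁻¹ * cf ^ a * e ^ n) • g ∈ R.V i := by
    rw [e1]; exact mul_mem (pow_mem hf a) (pow_mem he n)
  have e2 : R.φ i ⟨_, hm⟩ = R.φ i ⟨_, hf⟩ ^ a * R.φ i ⟨_, he⟩ ^ n := by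
    rw [← map_pow, ← map_pow, ← map_mul]; exact congrArg _ (Subtype.ext e1)
  obtain ⟨b, hb, hbe⟩ := exists_eq_const_mul_of_scale R i hm hg
    (by rw [e2]; exact mul_ne_zero (pow_ne_zero _ hfn) (pow_ne_zero _ hen)) hgn
  exact ⟨b, _, hb, hen, by rw [hbe, e2, mul_assoc]⟩

end Scaling

section Hecke

local notation "ℚbar" => AlgebraicClosure ℚ

variable {N l : ℕ} [NeZero N] [NeZero l]

theorem heckeFun_smul (hl : l.Prime) (hlN : ¬ l ∣ N) (c : ℚbar) (f : modularFunctionFieldBar N) :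
    heckeFun ℚbar N l (c • f) = (c ^ (l + 1)) • heckeFun ℚbar N l f := by
  rw [Algebra.smul_def, Algebra.smul_def, heckeFun_mul, heckeFun_algebraMap hl hlN]

/-- The function of `T_l x = a • x`. -/
theorem exists_hecke_rel (L : Nat.Primes) (hL : (L : ℕ) = l) {n a : ℕ}
    (D : Divisor.degZero (K := ℚbar) (F := modularFunctionFieldBar N))
    {f : modularFunctionFieldBar N} (hf : f ≠ 0)
    (hD : ∀ v : Place ℚbar (modularFunctionFieldBar N),
      (n : ℤ) * (D : Divisor ℚbar (modularFunctionFieldBar N)) v = v.ord f)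
    (hT : heckeOperatorBar N L (Pic0.mk D) = a • Pic0.mk D) :
    ∃ (c : ℚbar) (h : modularFunctionFieldBar N), c ≠ 0 ∧ h ≠ 0 ∧
      heckeFun ℚbar N l f =
        algebraMap ℚbar (modularFunctionFieldBar N) c * f ^ a * h ^ n := by
  subst hL
  rw [HeckeJ.heckeOperatorBar_mk, ← pic0_mk_nsmul, ← sub_eq_zero, ← pic0_mk_sub,
    pic0_mk_eq_zero_iff] at hT
  obtain ⟨h, hh, hord⟩ := hT
  have hH := heckeFun_ne_zero ℚbar N (L : ℕ) hf
  obtain ⟨c, hc, he⟩ := exists_const_mul_of_ord_eq (K := ℚbar) hH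
    (mul_ne_zero (pow_ne_zero a hf) (pow_ne_zero n hh)) fun v => by
      have h1 : (heckeDiv ℚbar N (L : ℕ) (D : Divisor ℚbar (modularFunctionFieldBar N))) v -
          a * (D : Divisor ℚbar (modularFunctionFieldBar N)) v = v.ord h := by
        rw [← hord v]; simp
      rw [v.ord_mul (pow_ne_zero a hf) (pow_ne_zero n hh), ord_pow, ord_pow,
        ← mul_heckeDiv_apply ℚbar N (L : ℕ) hf (n : ℤ) hD v, ← hD v, ← h1]
      ring
  exact ⟨c, h, hc, hh, by rw [mul_assoc]; exact he⟩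

end Hecke

end Fermat.Agent.Residual.Lower

end
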