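/-
Mazur's principle modulo powers of two: torsion classes of a curve with good reduction from
functions on the special fibre with divisor divisible by `n`.
-/
import Fermat.Agent.Curve.Divisible
import Fermat.Agent.Curve.ConnectedTorsion

set_option autoImplicit false

noncomputable section

namespace Fermat.Agent.Residual.Lower

open AlgebraicCurve Fermat.Agent.Curve

universe uK uF uk uFb

variable {K : Type uK} [Field K] {A : ValuationSubring K} {F : Type uF} [Field F] [Algebra K F]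
  {k : Type uk} [Field k] {Fb : Type uFb} [Field Fb] [Algebra k Fb]
  (G : GoodReduction A F k Fb) [IsAlgClosed K] [CharZero K]

/-- A residual function with divisor divisible by `n` is, up to constants and `n`-th powers, the
reduction of the function of an `n`-torsion class. -/
theorem exists_lift {n : ℕ} (hn : (n : k) ≠ 0) (hfin : Finite (Pic0.torsion k Fb n)) {u : Fb} (hu : u ≠ 0)
    (hdiv : ∀ v : Place k Fb, (n : ℤ) ∣ v.ord u) :
    ∃ (D : Divisor.degZero (K := K) (F := F)) (W : F) (hW : W ∈ G.V) (a : k) (w : Fb),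
      n • Pic0.mk D = 0 ∧ (∀ v : Place K F, (n : ℤ) * (D : Divisor K F) v = v.ord W) ∧
      G.φ ⟨W, hW⟩ ≠ 0 ∧ a ≠ 0 ∧ w ≠ 0 ∧ u = algebraMap k Fb a * G.φ ⟨W, hW⟩ * w ^ n := by
  have : IsAlgClosed k := G.isAlgClosed_residue
  have : IsFunctionFieldOne K F := G.isFunctionFieldOne
  have : IsFunctionFieldOne k Fb := G.isFunctionFieldOne_special
  have hn0 : n ≠ 0 := fun h => hn (by rw [h, Nat.cast_zero])
  obtain ⟨Eu, hEu, hEudeg⟩ := HasPrincipalDivisors.exists_divisor (K := k) u hu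
  let Db : Divisor k Fb := Eu.mapRange (fun z => z / (n : ℤ)) (Int.zero_ediv _)
  have hDb : n • Db = Eu := by
    ext P
    rw [Finsupp.smul_apply, Finsupp.mapRange_apply, nsmul_eq_mul, hEu P,
      Int.mul_ediv_cancel' (hdiv P)]
  have hDb0 : Divisor.degree Db = 0 := by
    have := congrArg Divisor.degree hDb
    rw [map_nsmul, hEudeg, nsmul_eq_mul] at this
    exact (mul_eq_zero.1 this).resolve_left (by exact_mod_cast hn0)
  have hy : Pic0.mk (⟨Db, hDb0⟩ : Divisor.degZero (K := k) (F := Fb)) ∈ Pic0.torsion k Fb n := by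
    rw [Pic0.mem_torsion, natCast_zsmul, Pic0.mk, ← QuotientAddGroup.mk_nsmul,
      QuotientAddGroup.eq_zero_iff, AddSubgroup.mem_addSubgroupOf]
    exact ⟨u, hu, fun P => by rw [← hEu P, ← hDb]; rfl⟩
  obtain ⟨z, hz, hzy⟩ := (G.reductionPic0_bijOn_torsion hn hfin).surjOn hy
  rw [SetLike.mem_coe, Pic0.mem_torsion, natCast_zsmul] at hz
  obtain ⟨D, rfl⟩ := Pic0.mk_surjective z
  have hnD := hz
  rw [Pic0.mk, ← QuotientAddGroup.mk_nsmul, QuotientAddGroup.eq_zero_iff,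
    AddSubgroup.mem_addSubgroupOf] at hnD
  obtain ⟨W₀, hW₀, hW₀D⟩ := hnD
  obtain ⟨c, hcV, hcφ⟩ := G.exists_scale W₀ hW₀
  have hc0 : c ≠ 0 := fun h => hcφ (by
    rw [show (⟨c • W₀, hcV⟩ : G.V) = 0 from Subtype.ext (by simp [h]), map_zero])
  have hW : ∀ v : Place K F, (n : ℤ) * (D : Divisor K F) v = v.ord (c • W₀) := fun v => by
    rw [RedAux.ord_const_smul v hc0 W₀, ← hW₀D v]
    simp
  rw [Curve.GoodReduction.reductionPic0_mk, ← sub_eq_zero, Pic0.mk, Pic0.mk,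
    ← QuotientAddGroup.mk_sub, QuotientAddGroup.eq_zero_iff, AddSubgroup.mem_addSubgroupOf] at hzy
  obtain ⟨g, hg0, hg⟩ := hzy
  have hr : ∀ Q, G.divMap (D : Divisor K F) Q - Db Q = Q.ord g := fun Q => by
    rw [← hg Q]; rfl
  have hφ : ∀ Q : Place k Fb, (n : ℤ) * G.divMap (D : Divisor K F) Q =
      Q.ord (G.φ ⟨c • W₀, hcV⟩) := fun Q => by
    rw [← G.divMap_apply_eq_ord ⟨c • W₀, hcV⟩ hcφ (D := n • (D : Divisor K F))
      (fun P => by rw [Finsupp.smul_apply, nsmul_eq_mul]; exact hW P) Q, map_nsmul,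
      Finsupp.smul_apply, nsmul_eq_mul]
  have hne : G.φ ⟨c • W₀, hcV⟩ * g⁻¹ ^ n ≠ 0 := mul_ne_zero hcφ (pow_ne_zero _ (inv_ne_zero hg0))
  obtain ⟨a, ha⟩ := Connected.exists_eq_algebraMap (K := k)
    (f := u / (G.φ ⟨c • W₀, hcV⟩ * g⁻¹ ^ n)) fun Q =>
    Q.adicValuation_le_one_iff.2 (Or.inr (by
      rw [ord_div Q hu hne, Q.ord_mul hcφ (pow_ne_zero _ (inv_ne_zero hg0)), ord_pow, Q.ord_inv,
        ← hφ Q, ← hr Q, ← hEu Q, ← hDb, Finsupp.smul_apply, nsmul_eq_mul]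
      linarith))
  have ha0 : a ≠ 0 := fun h => by
    rw [h, map_zero, div_eq_zero_iff] at ha
    exact ha.elim hu hne
  refine ⟨D, c • W₀, hcV, a, g⁻¹, hz, hW, hcφ, ha0, inv_ne_zero hg0, ?_⟩
  rw [mul_assoc, ← ha, div_mul_cancel₀ _ hne]

/-- A torsion class whose function reduces to a constant times an `n`-th power is zero. -/
theorem mk_eq_zero_of_pow {n : ℕ} (hn : (n : k) ≠ 0) {D : Divisor.degZero (K := K) (F := F)}
    {W : F} (hW0 : W ≠ 0) (hD : ∀ v : Place K F, (n : ℤ) * (D : Divisor K F) v = v.ord W)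
    (hW : W ∈ G.V) {a : k} {w : Fb} (ha : a ≠ 0) (hw : w ≠ 0)
    (h : G.φ ⟨W, hW⟩ = algebraMap k Fb a * w ^ n) : Pic0.mk D = 0 := by
  have : IsAlgClosed k := G.isAlgClosed_residue
  have : IsFunctionFieldOne K F := G.isFunctionFieldOne
  have : IsFunctionFieldOne k Fb := G.isFunctionFieldOne_special
  have hn0 : n ≠ 0 := fun h => hn (by rw [h, Nat.cast_zero])
  obtain ⟨b, hb⟩ := IsAlgClosed.exists_pow_nat_eq a (Nat.pos_of_ne_zero hn0)
  have hb0 : b ≠ 0 := fun hb' => ha (by rw [← hb, hb', zero_pow hn0])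
  obtain ⟨U, rfl⟩ := G.exists_eq_pow_of_φ_eq_pow hn hW0 (fun P => ⟨_, (hD P).symm⟩) hW
    ⟨algebraMap k Fb b * w, mul_ne_zero ((map_ne_zero _).mpr hb0) hw,
      by rw [h, mul_pow, ← map_pow, hb]⟩
  rw [Pic0.mk, QuotientAddGroup.eq_zero_iff, AddSubgroup.mem_addSubgroupOf]
  refine ⟨U, fun hU => hW0 (by rw [hU, zero_pow hn0]), fun P => ?_⟩
  exact mul_left_cancel₀ (show (n : ℤ) ≠ 0 by exact_mod_cast hn0) ((hD P).trans (ord_pow P U n))

end Fermat.Agent.Residual.Lower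

end
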