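/-
Component reduction: torsion classes of level `M` attached to the two components, and their
Hecke eigenvalues.
-/
import Fermat.Agent.Residual.LowerCompBasic
import Fermat.Agent.Residual.LowerLift
import Fermat.Agent.BadReduction.X0Reduction
import Fermat.Agent.Igusa.JacobianGood
import Fermat.Agent.Mazur.LocalRank
import Fermat.Agent.MW.WeakReduction

set_option autoImplicit false
set_option linter.style.haveILetI false
set_option linter.unusedSectionVars false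
set_option synthInstance.maxHeartbeats 400000
set_option maxHeartbeats 1600000

noncomputable section

open ModularCurve IsLocalRing AlgebraicCurve
open Fermat.Agent.Curve Fermat.Agent.Bad Fermat.Agent.BadReduction Fermat.Agent.HeckeJ

namespace Fermat.Agent.Residual.Lower

local notation "ℚbar" => AlgebraicClosure ℚ

variable {M q : ℕ} [NeZero M] [hq : Fact q.Prime]

local instance neZero_primeCompDescent : NeZero q := ⟨hq.out.ne_zero⟩

variable (hqM : ¬ q ∣ M) (A : ValuationSubring ℚbar) (hA : A.LiesOverPrime q)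

/-- A residue with orders divisible by `n` is the reduction of the function of an `n`-torsion
class of level `M`. -/
theorem exists_descent {n : ℕ} (hn : (n : ResidueField A) ≠ 0) (i : Fin 2) {g : X0F M q}
    (hg : g ∈ compV hqM A i) (hne : compPhi hqM A hA i ⟨g, hg⟩ ≠ 0)
    (hdiv : ∀ v : Place (ResidueField A) (X0Res M A),
      (n : ℤ) ∣ v.ord (compPhi hqM A hA i ⟨g, hg⟩)) :
    ∃ (D : Divisor.degZero (K := ℚbar) (F := modularFunctionFieldBar M))
      (W : modularFunctionFieldBar M) (hW : W ∈ (Igusa.x0GoodReduction hqM hA).V),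
      n • Pic0.mk D = 0 ∧
      (∀ v : Place ℚbar (modularFunctionFieldBar M),
        (n : ℤ) * (D : Divisor ℚbar (modularFunctionFieldBar M)) v = v.ord W) ∧
      W ≠ 0 ∧ compPhi hqM A hA i ⟨g, hg⟩ = (Igusa.x0GoodReduction hqM hA).φ ⟨W, hW⟩ := by
  set G := Igusa.x0GoodReduction hqM hA with hG
  haveI := charP_residueField A hq.out hA
  haveI : IsAlgClosed (ResidueField A) := G.isAlgClosed_residue
  have hfin : Finite (Pic0.torsion (ResidueField A) (X0Res M A) n) :=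
    Curve.finite_torsion_of_algClosure_finite q (MW.exists_pow_pow_eq hA) n hn
  obtain ⟨D, W, hW, a, w, hD0, hDW, hφW, ha, hw, he⟩ := exists_lift G hn hfin hne hdiv
  obtain ⟨a₁, rfl⟩ := G.π_surjective a
  obtain ⟨w₁, rfl⟩ := G.φ_surjective w
  have hwne : (w₁ : modularFunctionFieldBar M) ≠ 0 := G.coe_ne_zero_of_φ_ne_zero hw
  have haK : ((a₁ : A) : ℚbar) ≠ 0 := fun h => ha (by
    rw [show a₁ = 0 from Subtype.ext h, map_zero])
  obtain ⟨E, hE, hEdeg⟩ := HasPrincipalDivisors.exists_divisor (K := ℚbar)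
    (w₁ : modularFunctionFieldBar M) hwne
  have hW0 : W ≠ 0 := fun h => hφW (by rw [show (⟨W, hW⟩ : G.V) = 0 from Subtype.ext h, map_zero])
  set W' : G.V := ⟨_, G.algebraMap_mem a₁⟩ * ⟨W, hW⟩ * w₁ ^ n
  have hEp : Pic0.mk (⟨E, hEdeg⟩ : Divisor.degZero (K := ℚbar) (F := modularFunctionFieldBar M))
      = 0 := (pic0_mk_eq_zero_iff _).2 ⟨_, hwne, hE⟩
  refine ⟨D + ⟨E, hEdeg⟩, (W' : modularFunctionFieldBar M), W'.2, ?_, fun v => ?_, ?_, ?_⟩
  · rw [Pic0.mk_add, hEp, add_zero, hD0]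
  · show _ = v.ord (algebraMap ℚbar (modularFunctionFieldBar M) (a₁ : ℚbar) * W *
      (w₁ : modularFunctionFieldBar M) ^ n)
    rw [v.ord_mul (mul_ne_zero ((map_ne_zero _).2 haK) hW0) (pow_ne_zero _ hwne),
      v.ord_mul ((map_ne_zero _).2 haK) hW0, ord_algebraMap, ord_pow, ← hDW v, ← hE v]
    show (n : ℤ) * ((D : Divisor ℚbar (modularFunctionFieldBar M)) v + E v) = _
    ring
  · show algebraMap ℚbar (modularFunctionFieldBar M) (a₁ : ℚbar) * W *
      (w₁ : modularFunctionFieldBar M) ^ n ≠ 0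
    exact mul_ne_zero (mul_ne_zero ((map_ne_zero _).2 haK) hW0) (pow_ne_zero _ hwne)
  · rw [he]
    show _ = G.φ W'
    rw [map_mul, map_mul, map_pow, G.φ_algebraMap]

/-- The classes of level `M` have the same eigenvalues. -/
theorem hecke_descent (L : Nat.Primes) (hlN : ¬ (L : ℕ) ∣ M * q) {n e a : ℕ}
    (hn : (n : ResidueField A) ≠ 0) (i : Fin 2)
    {f : X0F M q} {c C : ℚbar} {h : X0F M q} (hC : C ≠ 0) (hh : h ≠ 0)
    (hH : (haveI : NeZero (L : ℕ) := ⟨L.2.ne_zero⟩; heckeFun ℚbar (M * q) (L : ℕ) f) =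
      algebraMap ℚbar (X0F M q) C * f ^ a * h ^ (e * n))
    (hf : c • f ∈ compV hqM A i) (hne : compPhi hqM A hA i ⟨_, hf⟩ ≠ 0)
    (D : Divisor.degZero (K := ℚbar) (F := modularFunctionFieldBar M))
    {W : modularFunctionFieldBar M} (hW : W ∈ (Igusa.x0GoodReduction hqM hA).V)
    (hD : ∀ v : Place ℚbar (modularFunctionFieldBar M),
      (n : ℤ) * (D : Divisor ℚbar (modularFunctionFieldBar M)) v = v.ord W)
    (heq : compPhi hqM A hA i ⟨_, hf⟩ = (Igusa.x0GoodReduction hqM hA).φ ⟨W, hW⟩) :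
    heckeOperatorBar M L (Pic0.mk D) = a • Pic0.mk D := by
  haveI : NeZero (L : ℕ) := ⟨L.2.ne_zero⟩
  set G := Igusa.x0GoodReduction hqM hA with hG
  obtain ⟨h₁, h₂, he⟩ := compPhi_heckeFun_eq hqM A hA L.2 hlN i hf hW hne heq
  obtain ⟨h₁', hne'⟩ := compPhi_heckeFun_ne_zero hqM A hA L.2 hlN i hf hne
  have hsm := heckeFun_smul (N := M * q) L.2 hlN c f
  have hmem : c ^ ((L : ℕ) + 1) • heckeFun ℚbar (M * q) (L : ℕ) f ∈ compV hqM A i := hsm ▸ h₁
  have hval : compPhi hqM A hA i ⟨_, hmem⟩ = G.φ ⟨_, h₂⟩ :=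
    (congrArg _ (Subtype.ext hsm.symm)).trans he
  obtain ⟨b, v, hb, hv, hbv⟩ := exists_φ_eq_of_eq (x0Reduction hqM A hA) i hC hh hH hf hne hmem
    (fun h0 => hne' ((congrArg _ (Subtype.ext hsm)).trans h0))
  change compPhi hqM A hA i ⟨_, hmem⟩ = _ * compPhi hqM A hA i ⟨_, hf⟩ ^ a * _ at hbv
  rw [hval, heq] at hbv
  change G.φ _ = _ * G.φ ⟨W, hW⟩ ^ a * _ at hbv
  have hWne : G.φ ⟨W, hW⟩ ≠ 0 := heq ▸ hne
  have hWa : G.φ (⟨W, hW⟩ ^ a) ≠ 0 := by rw [map_pow]; exact pow_ne_zero _ hWne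
  set Q : G.V := ⟨_, h₂⟩ * ⟨_, G.inv_mem_of_φ_ne_zero hWa⟩
  have hQ : G.φ Q = algebraMap (ResidueField A) (X0Res M A) b * (v ^ e) ^ n := by
    rw [map_mul, G.φ_inv hWa, map_pow, hbv, ← pow_mul, mul_comm _ (G.φ ⟨W, hW⟩ ^ a)⁻¹,
      mul_comm (algebraMap _ _ b) (G.φ ⟨W, hW⟩ ^ a), mul_assoc (G.φ ⟨W, hW⟩ ^ a),
      inv_mul_cancel_left₀ (pow_ne_zero _ hWne)]
  have hW0 : W ≠ 0 := G.coe_ne_zero_of_φ_ne_zero hWne
  have hQ0 : (Q : modularFunctionFieldBar M) ≠ 0 := G.coe_ne_zero_of_φ_ne_zero (f := Q) (by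
    rw [hQ]; exact mul_ne_zero ((map_ne_zero _).2 hb) (pow_ne_zero _ (pow_ne_zero _ hv)))
  rw [HeckeJ.heckeOperatorBar_mk, ← pic0_mk_nsmul, ← sub_eq_zero, ← pic0_mk_sub]
  refine mk_eq_zero_of_pow G hn hQ0 (fun w => ?_) Q.2 hb (pow_ne_zero e hv) hQ
  show (n : ℤ) * (heckeDiv ℚbar M (L : ℕ) (D : Divisor ℚbar (modularFunctionFieldBar M)) -
      a • (D : Divisor ℚbar (modularFunctionFieldBar M))) w =
    w.ord (heckeFun ℚbar M (L : ℕ) W * (W ^ a)⁻¹)
  rw [w.ord_mul (heckeFun_ne_zero ℚbar M (L : ℕ) hW0) (inv_ne_zero (pow_ne_zero _ hW0)),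
    w.ord_inv, ord_pow, ← mul_heckeDiv_apply ℚbar M (L : ℕ) hW0 (n : ℤ) hD w, ← hD w,
    Finsupp.sub_apply, Finsupp.smul_apply, nsmul_eq_mul]
  ring

/-- If the class of level `M` is killed by `s`, the `s`-th power of the residue is a constant
times an `n`-th power. -/
theorem exists_pow_of_killed {n s : ℕ}
    (D : Divisor.degZero (K := ℚbar) (F := modularFunctionFieldBar M))
    {W : modularFunctionFieldBar M} (hW : W ∈ (Igusa.x0GoodReduction hqM hA).V)
    (hWne : (Igusa.x0GoodReduction hqM hA).φ ⟨W, hW⟩ ≠ 0)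
    (hD : ∀ v : Place ℚbar (modularFunctionFieldBar M),
      (n : ℤ) * (D : Divisor ℚbar (modularFunctionFieldBar M)) v = v.ord W)
    (hs : s • Pic0.mk D = 0) :
    ∃ (a : ResidueField A) (g : X0Res M A), a ≠ 0 ∧ g ≠ 0 ∧
      (Igusa.x0GoodReduction hqM hA).φ ⟨W, hW⟩ ^ s =
        algebraMap (ResidueField A) (X0Res M A) a * g ^ n := by
  set G := Igusa.x0GoodReduction hqM hA with hG
  have hW0 : W ≠ 0 := G.coe_ne_zero_of_φ_ne_zero hWne
  rw [← pic0_mk_nsmul, pic0_mk_eq_zero_iff] at hs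
  obtain ⟨r, hr, hord⟩ := hs
  obtain ⟨e, he, hen⟩ := G.exists_scale r hr
  have he0 : e ≠ 0 := fun h0 => hen (by
    rw [show (⟨e • r, he⟩ : G.V) = 0 from Subtype.ext (by simp [h0]), map_zero])
  have her : e • r ≠ 0 := smul_ne_zero he0 hr
  obtain ⟨b, -, hb⟩ := exists_const_mul_of_ord_eq (K := ℚbar) (f := W ^ s) (g := (e • r) ^ n)
    (pow_ne_zero _ hW0) (pow_ne_zero _ her) fun v => by
      rw [ord_pow, ord_pow, ← hD v, Algebra.smul_def, v.ord_mul ((map_ne_zero _).2 he0) hr,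
        ord_algebraMap, zero_add, ← hord v]
      simp
      ring
  obtain ⟨a, ha, hae⟩ := exists_φ_eq_const_mul G (f := ⟨W, hW⟩ ^ s) (g := ⟨e • r, he⟩ ^ n)
    (b := b) (by simpa using hb) (by rw [map_pow]; exact pow_ne_zero _ hWne)
    (by rw [map_pow]; exact pow_ne_zero _ hen)
  exact ⟨a, _, ha, hen, by rw [← map_pow, hae, map_pow]⟩

end Fermat.Agent.Residual.Lower

end
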