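/-
Mazur's principle modulo powers of two: the orders of `U = Δ(q τ) / Δ(τ)` are divisible by
`q - 1`. On `X₀(q)` the poles of `j` are the two cusps, where the orders are `± (q - 1)`; the
general case follows by pulling back.
-/
import Fermat.Agent.MazurPrinciple.NodesUnit
import Fermat.Agent.MW.BMarked
import Fermat.Agent.Mazur.PointModular
import Fermat.Agent.Igusa.GaussX0
import Fermat.Agent.Curve.RiemannRochSpace
import Fermat.Agent.Curve.RiemannRochFunctions

set_option autoImplicit false
set_option linter.style.haveILetI false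
set_option linter.unusedSectionVars false

noncomputable section

open ModularCurve AlgebraicCurve IntermediateField
open Fermat.Agent.Curve Fermat.Agent.BadReduction Fermat.Agent.MazurPrinciple

namespace Fermat.Agent.Residual.Lower

local notation "ℚbar" => AlgebraicClosure ℚ

variable {M q : ℕ} [NeZero M] [hq : Fact q.Prime]

local instance neZero_primeUnitOrd : NeZero q := ⟨hq.out.ne_zero⟩

theorem order_coe_jBar (N : ℕ) [NeZero N] :
    ((Igusa.jBar N : modularFunctionFieldBar N) : LaurentSeries ℚbar).order = -1 := by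
  rw [Igusa.coe_jBar]
  exact MW.order_coeffEmb_jq

variable (M q) in
/-- The cusp `∞`. -/
def unitInf : Place ℚbar (X0F M q) := MW.BMarked.placeInf (order_coe_jBar (M * q))

theorem ord_unitInf (f : X0F M q) :
    (unitInf M q).ord f = (f : LaurentSeries ℚbar).order :=
  (MW.BMarked.order_eq_ord (order_coe_jBar (M * q)) f).symm

theorem order_coe_modUnit :
    ((modUnit M q : X0F M q) : LaurentSeries ℚbar).order = (q : ℤ) - 1 := by
  have h : IsMonicOfOrder (deltaSeriesN q / deltaSeries) ((q : ℤ) - 1) := by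
    refine IsMonicOfOrder.of_mul_right ?_ isMonicOfOrder_deltaSeries
    rw [div_mul_cancel₀ _ deltaSeries_ne_zero]
    exact isMonicOfOrder_deltaSeriesN q
  rw [coe_modUnit]
  have h1 : (coeffEmb ℚbar (deltaSeriesN q / deltaSeries)).coeff ((q : ℤ) - 1) ≠ 0 := by
    rw [coeffEmb, coeffMap_coeff, h.coeff_self, map_one]
    exact one_ne_zero
  refine le_antisymm (HahnSeries.order_le_of_coeff_ne_zero h1) ?_
  by_contra hlt
  have hne : coeffEmb ℚbar (deltaSeriesN q / deltaSeries) ≠ 0 :=
    HahnSeries.ne_zero_of_coeff_ne_zero h1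
  refine hne (HahnSeries.coeff_order_eq_zero.1 ?_)
  rw [coeffEmb, coeffMap_coeff]
  exact (congrArg _ (h.coeff_of_lt (not_le.1 hlt))).trans (map_zero _)

theorem ord_atkinLehner_jBar (hqM : ¬ q ∣ M) :
    (unitInf M q).ord (atkinLehner hqM (Igusa.jBar (M * q))) = -(q : ℤ) := by
  have hα : heckeAlphaBar ℚbar M q (Igusa.jBar M) = Igusa.jBar (M * q) :=
    Subtype.ext (((coe_heckeAlphaBar M q (Igusa.jBar M)).trans (Igusa.coe_jBar' M)).trans
      (Igusa.coe_jBar' (M * q)).symm)
  rw [← hα, atkinLehner_alpha, ord_unitInf, coe_heckeBetaBar, Igusa.coe_jBar',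
    Mazur.order_qExpand_eq q (Mazur.jqModC_ne ℚbar), Igusa.Fibre.order_jqModC]
  ring

/-- On `X₀(q)` the orders of `U` are divisible by `q - 1`, given the functional equation. -/
theorem dvd_ord_modUnit_one (hq1 : ¬ q ∣ 1) {c : ℚbar}
    (hU : modUnit 1 q * atkinLehner hq1 (modUnit 1 q) = algebraMap ℚbar (X0F 1 q) c)
    (v : Place ℚbar (X0F 1 q)) : (q : ℤ) - 1 ∣ v.ord (modUnit 1 q) := by
  classical
  rcases le_or_gt 0 (v.ord (Igusa.jBar (1 * q))) with h | h
  · rw [ord_modUnit_eq_zero 1 q v h]
    exact dvd_zero _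
  haveI := IsFunctionFieldOne.isCurveOver (K := ℚbar) (F := X0F 1 q)
  have hwint := isIntegral_toRingHom (atkinLehner hq1).toAlgHom
  set Z := (unitInf 1 q).restrictAlong (atkinLehner hq1).toAlgHom hwint with hZdef
  set e := Place.ramificationIndexAlong (atkinLehner hq1).toAlgHom (unitInf 1 q) with he
  have hw : ∀ f, (unitInf 1 q).ord (atkinLehner hq1 f) = (e : ℤ) * Z.ord f := fun f =>
    Place.ord_restrictAlong _ hwint _ f
  have hUinf : (unitInf 1 q).ord (modUnit 1 q) = (q : ℤ) - 1 := by
    rw [ord_unitInf, order_coe_modUnit]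
  have hwU : (unitInf 1 q).ord (atkinLehner hq1 (modUnit 1 q)) = 1 - (q : ℤ) := by
    have h1 := congrArg (unitInf 1 q).ord hU
    rw [Place.ord_mul _ (modUnit_ne_zero 1 q) ((map_ne_zero _).2 (modUnit_ne_zero 1 q)),
      ord_algebraMap, hUinf] at h1
    omega
  have hwj := ord_atkinLehner_jBar (M := 1) hq1
  rw [hw] at hwU hwj
  have he1 : (e : ℤ) = 1 := by
    have h1 : (e : ℤ) * -(Z.ord (modUnit 1 q) + -Z.ord (Igusa.jBar (1 * q))) = -1 := by
      rw [neg_add, neg_neg, mul_add, mul_neg, hwU, hwj]; ring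
    rcases Int.eq_one_or_neg_one_of_mul_eq_neg_one' h1 with h2 | h2
    · exact h2.1
    · have := h2.1; omega
  rw [he1, one_mul] at hwU hwj
  have hjinf : (unitInf 1 q).ord (Igusa.jBar (1 * q)) = -1 := by
    rw [ord_unitInf, order_coe_jBar]
  have hq2 := hq.out.two_le
  have hne : unitInf 1 q ≠ Z := fun hh => by
    rw [hh, hwj] at hjinf
    omega
  -- the pole divisor of `j`
  have hjtr : Transcendental ℚbar (Igusa.jBar (1 * q)) :=
    transcendental_of_ord_ne_zero (unitInf 1 q) (by rw [hjinf]; omega)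
  have hdeg : Divisor.degree (poleDivisor ℚbar (Igusa.jBar (1 * q))) = (q : ℤ) + 1 := by
    rw [degree_poleDivisor hjtr]
    have h1 := Igusa.GaussX0.finrank_jField (M := 1 * q)
    rw [Igusa.JField] at h1
    rw [h1, one_mul, show dedekindPsi q = q + 1 by
      simpa using Gamma0.dedekindPsi_prime_pow hq.out 0]
    push_cast
    ring
  have hv : v = unitInf 1 q ∨ v = Z := by
    by_contra hcon
    push Not at hcon
    have hle : Finsupp.single (unitInf 1 q) (1 : ℤ) + Finsupp.single Z (q : ℤ) +
        Finsupp.single v 1 ≤ poleDivisor ℚbar (Igusa.jBar (1 * q)) := by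
      intro P
      simp only [Finsupp.add_apply, Finsupp.single_apply, poleDivisor_apply]
      by_cases h1 : unitInf 1 q = P
      · subst h1
        rw [if_pos rfl, if_neg hne.symm, if_neg hcon.1, hjinf]
        simp
      by_cases h2 : Z = P
      · subst h2
        rw [if_neg hne, if_pos rfl, if_neg hcon.2, hwj]
        simp
      by_cases h3 : v = P
      · subst h3
        rw [if_neg h1, if_neg h2, if_pos rfl]
        omega
      · rw [if_neg h1, if_neg h2, if_neg h3]
        simp
    have h4 := degree_mono hle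
    rw [map_add, map_add, Divisor.degree_single, Divisor.degree_single, Divisor.degree_single,
      IsCurveOver.deg_eq_one_of_isAlgClosed, IsCurveOver.deg_eq_one_of_isAlgClosed,
      IsCurveOver.deg_eq_one_of_isAlgClosed, hdeg] at h4
    omega
  rcases hv with rfl | rfl
  · rw [hUinf]
  · rw [hwU]
    exact ⟨-1, by ring⟩

theorem mem_bar_of_dvd {a b : ℕ} [NeZero a] [NeZero b] (h : a ∣ b) :
    modularFunctionFieldBar a ≤ modularFunctionFieldBar b := by
  refine IntermediateField.adjoin_le_iff.2 ?_
  rintro _ ⟨z, hz, rfl⟩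
  exact coeffEmb_mem_laurentBaseChange _ (full_degeneracy_le h hz)

/-- The orders of `U` are divisible by `q - 1`. -/
theorem dvd_ord_modUnit (hq1 : ¬ q ∣ 1) {c : ℚbar}
    (hU : modUnit 1 q * atkinLehner hq1 (modUnit 1 q) = algebraMap ℚbar (X0F 1 q) c)
    (v : Place ℚbar (X0F M q)) : (q : ℤ) - 1 ∣ v.ord (modUnit M q) := by
  have hle := mem_bar_of_dvd (a := 1 * q) (b := M * q) (by rw [one_mul]; exact dvd_mul_left q M)
  let i : X0F 1 q →ₐ[ℚbar] X0F M q := IntermediateField.inclusion hle
  have hi := isIntegral_toRingHom i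
  have e : i (modUnit 1 q) = modUnit M q := Subtype.ext rfl
  rw [← e, Place.ord_restrictAlong i hi v]
  exact (dvd_ord_modUnit_one hq1 hU _).mul_left _

end Fermat.Agent.Residual.Lower

end
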