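/-
Mazur's principle modulo powers of two: the modular unit `U = Δ(q τ) / Δ(τ)` on `X₀(M q)`.
-/
import Fermat.Agent.BadReduction.X0Model
import Fermat.Agent.MazurPrinciple.NodesUnitReduction
import Fermat.Agent.Residual.LowerUnitOrd

set_option autoImplicit false
set_option linter.style.haveILetI false

noncomputable section

open ModularCurve IsLocalRing AlgebraicCurve
open Fermat.Agent.Curve Fermat.Agent.BadReduction

namespace Fermat.Agent.Residual.Lower

local notation "ℚbar" => AlgebraicClosure ℚ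

variable {M q : ℕ} [NeZero M] [hq : Fact q.Prime]

local instance neZero_primeUnit : NeZero q := ⟨hq.out.ne_zero⟩

variable (M q) in
/-- The series of `Δ(q τ) / Δ(τ)` is that of a rational function on `X₀(M q)`. -/
theorem exists_unit (hqM : ¬ q ∣ M) (A : ValuationSubring ℚbar) (hA : A.LiesOverPrime q) :
    ∃ U : X0F M q, U ≠ 0 ∧
      (∀ σ : ℚbar ≃ₐ[ℚ] ℚbar, arithmeticGalois (modularFunctionFieldFull (M * q)) σ • U = U) ∧
      (∀ v : Place ℚbar (X0F M q), (q : ℤ) - 1 ∣ v.ord U) ∧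
      (∃ h : U ∈ compV hqM A 0, compPhi hqM A hA 0 ⟨U, h⟩ ≠ 0) ∧
      ∃ h : ((q : ℚbar) ^ 12) • U ∈ compV hqM A 1, compPhi hqM A hA 1 ⟨_, h⟩ ≠ 0 := by
  have hq1 : ¬ q ∣ 1 := hq.out.not_dvd_one
  refine ⟨MazurPrinciple.modUnit M q, MazurPrinciple.modUnit_ne_zero M q,
    MazurPrinciple.galois_smul_modUnit M q,
    fun v => dvd_ord_modUnit hq1 (MazurPrinciple.modUnit_mul_atkinLehner hq1) v,
    ⟨_, MazurPrinciple.compPhi_zero_modUnit_ne_zero hqM A hA⟩,
    ⟨MazurPrinciple.scaled_modUnit_mem_compV_one hqM A, ?_⟩⟩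
  rw [MazurPrinciple.compPhi_one_scaled_modUnit hqM A hA]
  exact inv_ne_zero (MazurPrinciple.compPhi_zero_modUnit_ne_zero hqM A hA)

end Fermat.Agent.Residual.Lower

end
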