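/-
Component reduction: the ratios of the modular unit and of the function of an eigenclass.
-/
import Fermat.Agent.Residual.LowerCompBasic
import Fermat.Agent.Residual.LowerRep
import Fermat.Agent.Residual.LowerUnit
import Fermat.Agent.DeligneSerre.GroupBasic

set_option autoImplicit false
set_option linter.style.haveILetI false
set_option synthInstance.maxHeartbeats 400000
set_option maxHeartbeats 1600000
set_option linter.unusedSectionVars false

noncomputable section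

open ModularCurve IsLocalRing AlgebraicCurve
open Fermat.Agent.Curve Fermat.Agent.Bad Fermat.Agent.BadReduction Fermat.Agent.HeckeJ
open Fermat.Agent.Ribet.Slot

namespace Fermat.Agent.Residual.Lower

local notation "ℚbar" => AlgebraicClosure ℚ

variable {M q : ℕ} [NeZero M] [hq : Fact q.Prime]

local instance neZero_primeCompRatio : NeZero q := ⟨hq.out.ne_zero⟩

variable (hqM : ¬ q ∣ M) (A : ValuationSubring ℚbar) (hA : A.LiesOverPrime q)
  [IsAlgClosed (ResidueField A)]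

theorem mem_of_pow_eq_one {n : ℕ} (hn : 0 < n) {ζ : ℚbar} (h : ζ ^ n = 1) : ζ ∈ A := by
  rcases A.mem_or_inv_mem ζ with h1 | h1
  · exact h1
  · have h0 : ζ ≠ 0 := fun h0 => by simp [h0, zero_pow hn.ne'] at h
    have : ζ = ζ⁻¹ ^ (n - 1) := by
      rw [inv_pow]
      refine eq_inv_of_mul_eq_one_left ?_
      rw [← pow_succ', Nat.sub_add_cancel hn, h]
    rw [this]
    exact pow_mem h1 _

/-- The unit has a ratio separating the components. -/
theorem exists_isRatio_unit {m : ℕ} (hqm : ¬ q ∣ 2 ^ m) {σ : ℚbar ≃ₐ[ℚ] ℚbar} {β ζ : ℚbar}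
    (hβ : β ^ 2 ^ m = (q : ℚbar)) (hζ : IsPrimitiveRoot ζ (2 ^ m)) (hσβ : σ β = ζ * β)
    {U : X0F M q} (hU0 : ∃ h : U ∈ compV hqM A 0, compPhi hqM A hA 0 ⟨U, h⟩ ≠ 0)
    (hU1 : ∃ h : ((q : ℚbar) ^ 12) • U ∈ compV hqM A 1, compPhi hqM A hA 1 ⟨_, h⟩ ≠ 0) :
    ∃ ω : Fin 2 → ResidueField A,
      IsRatio (x0Reduction hqM A hA) (arithmeticGalois (modularFunctionFieldFull (M * q)) σ)
        (2 ^ m) U ω ∧
      ∀ i j, i ≠ j → ∀ e : ℕ, ω i ^ e = ω j ^ e → 2 ^ (m - 2) ∣ e := by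
  obtain ⟨h0, hn0⟩ := hU0
  obtain ⟨h1, hn1⟩ := hU1
  have hβ0 : β ≠ 0 := by
    rintro rfl
    rw [zero_pow (by positivity)] at hβ
    exact hq.out.ne_zero (Nat.cast_eq_zero.1 hβ.symm)
  have hζA : ζ ∈ A := mem_of_pow_eq_one A (by positivity) hζ.pow_eq_one
  have hz12 : IsUnit ((⟨ζ, hζA⟩ : A) ^ 12) := by
    refine (IsUnit.of_pow_eq_one (n := 2 ^ m) ?_ (by positivity)).pow 12
    exact Subtype.ext hζ.pow_eq_one
  have hR : (x0Reduction hqM A hA).π = residue A := rfl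
  refine ⟨![1, residue A ((⟨ζ, hζA⟩ : A) ^ 12)], ⟨![1, (β ^ 12)⁻¹],
    Fin.cons (compPhi hqM A hA 0 ⟨U, h0⟩) (Fin.cons (compPhi hqM A hA 1 ⟨_, h1⟩) finZeroElim),
    ![1, (⟨ζ, hζA⟩ : A) ^ 12], ?_, ?_, ?_, ?_, ?_, ?_⟩, ?_⟩
  · intro i; fin_cases i <;> simp [hβ0]
  · intro i; fin_cases i <;> simp [hn0, hn1]
  · intro i
    have e0 : ((![1, (β ^ 12)⁻¹] : Fin 2 → ℚbar) ^ 2 ^ m)⁻¹ 0 = 1 := by simp
    have e1 : ((![1, (β ^ 12)⁻¹] : Fin 2 → ℚbar) ^ 2 ^ m)⁻¹ 1 = (q : ℚbar) ^ 12 := by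
      simp [← pow_mul, mul_comm 12, pow_mul β, hβ]
    match i with
    | 0 =>
      refine ⟨by rw [e0, one_smul]; exact h0, congrArg _ (Subtype.ext ?_)⟩
      show _ • U = U
      rw [e0, one_smul]
    | 1 =>
      refine ⟨by rw [e1]; exact h1, congrArg _ (Subtype.ext ?_)⟩
      show _ • U = _ • U
      rw [e1]
  · intro i
    fin_cases i
    · show ((1 : A) : ℚbar) * σ 1 = 1
      simp
    · show ((((⟨ζ, hζA⟩ : A) ^ 12 : A)) : ℚbar) * σ (β ^ 12)⁻¹ = (β ^ 12)⁻¹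
      have hζ0 : ζ ≠ 0 := hζ.ne_zero (by positivity)
      rw [map_inv₀, map_pow, hσβ, SubmonoidClass.coe_pow, mul_pow, mul_inv, ← mul_assoc,
        mul_inv_cancel₀ (pow_ne_zero _ hζ0), one_mul]
  · intro i; fin_cases i <;> simp [hR]
  · intro i
    fin_cases i
    · simp [hR]
    · exact (hz12.map (residue A)).ne_zero
  · intro i j hij e he
    have key : residue A (((⟨ζ, hζA⟩ : A) ^ 12) ^ e) = 1 := by
      rw [map_pow]
      fin_cases i <;> fin_cases j <;> first | exact absurd rfl hij | simpa using he.symm | simpa using he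
    have hk : ((2 ^ m : ℕ) : ResidueField A) ≠ 0 := fun h => by
      haveI := charP_residueField A hq.out hA
      exact hqm ((CharP.cast_eq_zero_iff _ q _).1 h)
    have hpow : (⟨ζ, hζA⟩ : A) ^ (12 * e) = 1 := by
      refine DeligneSerre.eq_of_map_eq_of_pow_eq_one (residue A) hk ?_ (one_pow _) ?_
      · rw [← pow_mul, mul_comm, pow_mul,
          show (⟨ζ, hζA⟩ : A) ^ 2 ^ m = 1 from Subtype.ext hζ.pow_eq_one, one_pow]
      · rw [pow_mul, key, map_one]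
    have hd : 2 ^ m ∣ 12 * e := hζ.dvd_of_pow_eq_one _ (by
      simpa using congrArg Subtype.val hpow)
    rcases Nat.lt_or_ge m 2 with hm2 | hm2
    · simp [Nat.sub_eq_zero_of_le hm2.le]
    rw [show (2 : ℕ) ^ m = 4 * 2 ^ (m - 2) by
      rw [show 4 = 2 ^ 2 from rfl, ← pow_add, Nat.add_sub_cancel' hm2],
      show 12 * e = 4 * (3 * e) by ring] at hd
    exact (Nat.Coprime.dvd_mul_left (Nat.Coprime.pow_left _ (by norm_num))).1
      (Nat.dvd_of_mul_dvd_mul_left (by norm_num) hd)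

/-- The norm operator raises ratios to the power `l + 1`. -/
theorem isRatio_heckeFun {l : ℕ} [NeZero l] (hl : l.Prime) (hlN : ¬ l ∣ M * q)
    {σ : ℚbar ≃ₐ[ℚ] ℚbar} {n : ℕ} {f : X0F M q} {ω : Fin 2 → ResidueField A}
    (h : IsRatio (x0Reduction hqM A hA) (arithmeticGalois (modularFunctionFieldFull (M * q)) σ)
      n f ω) :
    IsRatio (x0Reduction hqM A hA) (arithmeticGalois (modularFunctionFieldFull (M * q)) σ)
      n (heckeFun ℚbar (M * q) l f) (ω ^ (l + 1)) := by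
  obtain ⟨b, r, z, hb, hr, hs, hz, hω, hz0⟩ := h
  choose hm he using hs
  have hHV : ∀ i, ((b ^ (l + 1)) ^ n)⁻¹ i • heckeFun ℚbar (M * q) l f =
      heckeFun ℚbar (M * q) l ((b ^ n)⁻¹ i • f) := fun i => by
    rw [heckeFun_smul hl hlN]
    congr 1
    simp only [Pi.inv_apply, Pi.pow_apply, inv_pow]
    rw [← pow_mul, ← pow_mul, mul_comm]
  choose hH hH0 using fun i => compPhi_heckeFun_ne_zero hqM A hA hl hlN i (hm i)
    (show compPhi hqM A hA i ⟨_, hm i⟩ ≠ 0 from fun h0 => hr i ((he i).symm.trans h0))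
  refine ⟨b ^ (l + 1), fun i => compPhi hqM A hA i ⟨_, hH i⟩, z ^ (l + 1),
    fun i => pow_ne_zero _ (hb i), hH0, fun i => ?_, fun i => ?_, fun i => ?_, fun i => ?_⟩
  · refine ⟨(hHV i).symm ▸ hH i, ?_⟩
    show compPhi hqM A hA i _ = _
    exact congrArg _ (Subtype.ext (hHV i))
  · simp only [Pi.pow_apply, map_pow]
    push_cast
    rw [← mul_pow, hz i]
  · simp only [Pi.pow_apply, map_pow, hω i]
  · simp only [Pi.pow_apply, map_pow]
    exact pow_ne_zero _ (hz0 i)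

/-- The ratio of the function of an eigenclass is constant. -/
theorem ratio_const {σ : ℚbar ≃ₐ[ℚ] ℚbar} (hσ : σ ∈ A.inertiaSubgroupIn ℚ) {m : ℕ} (hm : 0 < m)
    (L : Nat.Primes) (hlN : ¬ (L : ℕ) ∣ M * q) {a : ℤ}
    (ha : Odd (a - (L : ℕ) - 1))
    (D : Divisor.degZero (K := ℚbar) (F := X0F M q)) {f : X0F M q} (hf : f ≠ 0)
    (hgf : arithmeticGalois (modularFunctionFieldFull (M * q)) σ • f = f)
    (hD : ∀ v : Place ℚbar (X0F M q),
      ((2 ^ m : ℕ) : ℤ) * (D : Divisor ℚbar (X0F M q)) v = v.ord f)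
    (hx : (2 ^ m : ℕ) • Pic0.mk D = 0)
    (hT : heckeOperatorBar (M * q) L (Pic0.mk D) = a • Pic0.mk D)
    {ω : Fin 2 → ResidueField A} (hωn : ∀ i, ω i ^ 2 ^ m = 1)
    (hω : IsRatio (x0Reduction hqM A hA) (arithmeticGalois (modularFunctionFieldFull (M * q)) σ)
      (2 ^ m) f ω) (i j : Fin 2) : ω i = ω j := by
  haveI : NeZero (L : ℕ) := ⟨L.2.ne_zero⟩
  obtain ⟨a', ha'⟩ : ∃ a' : ℕ, (a % ((2 ^ m : ℕ) : ℤ)).toNat = a' := ⟨_, rfl⟩
  have hn : 0 < 2 ^ m := by positivity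
  rw [zsmul_eq_emod_nsmul hn hx, ha'] at hT
  have hg := isInertial_galois hqM A hA hσ
  obtain ⟨c, h, hc, hh, hH⟩ := exists_hecke_rel L rfl D hf hD hT
  have h0 := Int.emod_nonneg a (show ((2 ^ m : ℕ) : ℤ) ≠ 0 by exact_mod_cast hn.ne')
  have han : a' < 2 ^ m := by
    have := Int.emod_lt_of_pos a (show (0 : ℤ) < ((2 ^ m : ℕ) : ℤ) by exact_mod_cast hn)
    omega
  have hgH : arithmeticGalois (modularFunctionFieldFull (M * q)) σ •
      heckeFun ℚbar (M * q) (L : ℕ) f = heckeFun ℚbar (M * q) (L : ℕ) f := by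
    rw [← heckeFun_galois, hgf]
  have hrat := (isRatio_heckeFun hqM A hA L.2 hlN hω).mul (hω.pow (2 ^ m - a'))
  have hconst := IsRatio.const_of_pow hg hn (h := f * h) (a := c)
    (mul_ne_zero hf hh) (by
      rw [hH, mul_pow, mul_assoc, mul_assoc, mul_comm (h ^ _), ← mul_assoc (f ^ a'), ← pow_add,
        Nat.add_sub_cancel' han.le])
    (by rw [smul_mul', smul_pow', hgH, hgf]) hrat i j
  set e := (L : ℕ) + 1 + (2 ^ m - a') with he
  have hodd : Odd e := by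
    obtain ⟨s, hs⟩ := ha
    obtain ⟨k, rfl⟩ : ∃ k, m = k + 1 := ⟨m - 1, by omega⟩
    have h2 : a = (a' : ℤ) + 2 * ((2 : ℤ) ^ k * (a / ((2 ^ (k + 1) : ℕ) : ℤ))) := by
      rw [← ha', Int.toNat_of_nonneg h0]
      conv_lhs => rw [← Int.emod_add_mul_ediv a ((2 ^ (k + 1) : ℕ) : ℤ)]
      push_cast
      ring
    have h3 : (2 : ℕ) ^ (k + 1) = 2 * 2 ^ k := by ring
    rw [Nat.odd_iff]
    omega
  have hje : ω i ^ e = ω j ^ e := by
    simpa [he, Pi.mul_apply, Pi.pow_apply, ← pow_add] using hconst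
  have hj0 : ω j ≠ 0 := fun h0 => by simpa [h0, zero_pow hn.ne'] using hωn j
  have h1 : (ω i * (ω j)⁻¹) ^ e = 1 := by
    rw [mul_pow, inv_pow, hje, mul_inv_cancel₀ (pow_ne_zero _ hj0)]
  have h2 : (ω i * (ω j)⁻¹) ^ 2 ^ m = 1 := by
    rw [mul_pow, inv_pow, hωn i, hωn j, inv_one, mul_one]
  have h3 := pow_gcd_eq_one.2 ⟨h1, h2⟩
  rw [(Nat.Coprime.pow_right m (Nat.coprime_two_right.2 hodd) : Nat.Coprime e (2 ^ m)), pow_one,
    mul_inv_eq_one₀ hj0] at h3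
  exact h3

end Fermat.Agent.Residual.Lower

end
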