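/-
Specialisation of a finite group of integral points of a short Weierstrass curve: additivity holds
as soon as no non-zero point of the group specialises to a point with `y = 0` or to infinity.
-/
import Fermat.Agent.Switch.Specialise

set_option autoImplicit false

namespace Fermat.Agent.Residual

open WeierstrassCurve WeierstrassCurve.Affine Fermat.Agent.Switch

variable {R : Type*} [CommRing R] [IsDomain R] {K : Type*} [Field K] [Algebra R K]
  [IsFractionRing R K] [DecidableEq K] [CharZero K]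
  {k : Type*} [Field k] [DecidableEq k] [CharZero k] (e : R →+* k)
  (E : WeierstrassCurve.Affine K) [E.IsShortNF] (Ek : WeierstrassCurve.Affine k) [Ek.IsShortNF]

/-- Every non-zero affine point of `T` has coordinates in `R`, specialises to an affine point with
non-zero `y`. -/
def IsGoodGroup (T : Submodule ℤ E.Point) : Prop :=
  ∀ (X Y : K) (h : E.Nonsingular X Y), Point.some X Y h ∈ T →
    ∃ x y : R, ∃ _ : Ek.Nonsingular (e x) (e y),
      algebraMap R K x = X ∧ algebraMap R K y = Y ∧ e y ≠ 0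

variable {e E Ek} {T : Submodule ℤ E.Point} {A : R}

theorem spec_add_of_isGoodGroup (hT : IsGoodGroup e E Ek T) (h4 : E.a₄ = algebraMap R K A)
    (k4' : Ek.a₄ = e A) {P Q : E.Point} (hP : P ∈ T) (hQ : Q ∈ T) :
    spec e E Ek (P + Q) = spec e E Ek P + spec e E Ek Q := by
  rcases P with _ | ⟨X₁, Y₁, h₁⟩
  · simp only [← Point.zero_def, zero_add]
    change _ = (0 : Ek.Point) + _
    rw [zero_add]
  rcases Q with _ | ⟨X₂, Y₂, h₂⟩
  · simp only [← Point.zero_def, add_zero]
    change _ = _ + (0 : Ek.Point)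
    rw [add_zero]
  obtain ⟨x₁, y₁, hk₁, rfl, rfl, hy₁⟩ := hT _ _ h₁ hP
  obtain ⟨x₂, y₂, hk₂, rfl, rfl, hy₂⟩ := hT _ _ h₂ hQ
  rw [spec_some e E Ek h₁ hk₁, spec_some e E Ek h₂ hk₂]
  have hinj := IsFractionRing.injective R K
  have hsum := T.add_mem hP hQ
  have hdiff := T.add_mem hP (T.neg_mem hQ)
  by_cases hxy : algebraMap R K x₁ = algebraMap R K x₂ ∧
      algebraMap R K y₁ = E.negY (algebraMap R K x₂) (algebraMap R K y₂)
  · rw [Point.add_of_Y_eq hxy.1 hxy.2]
    rw [negY_short, ← map_neg] at hxy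
    rw [Point.add_of_Y_eq (congrArg e (hinj hxy.1))
      (by rw [negY_short, ← map_neg, hinj hxy.2])]
    rfl
  rw [Point.add_some hxy] at hsum ⊢
  obtain ⟨x₃, y₃, hk₃, hx₃, hy₃, -⟩ := hT _ _ _ hsum
  simp only [← hx₃, ← hy₃]
  rw [spec_some e E Ek _ hk₃]
  by_cases hx : x₁ = x₂
  · -- the tangent case
    subst hx
    have hyy : y₁ = y₂ := by
      refine hinj (Y_eq_of_Y_ne h₁.1 h₂.1 rfl fun h => hxy ⟨rfl, h⟩)
    subst hyy
    rw [Point.add_self_of_Y_ne (ne_negY hy₁)]
    have hy₁K : algebraMap R K y₁ ≠ 0 := fun h =>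
      hy₁ (by rw [show y₁ = 0 from hinj (by rw [h, map_zero]), map_zero])
    have hy1' : (2 : K) * algebraMap R K y₁ ≠ 0 := mul_ne_zero two_ne_zero hy₁K
    have hy1'' : (2 : k) * e y₁ ≠ 0 := mul_ne_zero two_ne_zero hy₁
    simp only [addX, addY, negAddY, negY_short, slope_of_Y_ne rfl (ne_negY (W := E) hy₁K),
      E.a₁_of_isShortNF, E.a₂_of_isShortNF, E.a₃_of_isShortNF, h4, mul_zero, zero_mul, sub_zero,
      add_zero, sub_neg_eq_add, ← two_mul] at hx₃ hy₃
    simp only [addX, addY, negAddY, negY_short, slope_of_Y_ne rfl (ne_negY (W := Ek) hy₁),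
      Ek.a₁_of_isShortNF, Ek.a₂_of_isShortNF, Ek.a₃_of_isShortNF, k4', mul_zero, zero_mul,
      sub_zero, add_zero, sub_neg_eq_add, ← two_mul, Point.some.injEq]
    have e3 : (x₃ + 2 * x₁) * (2 * y₁) ^ 2 = (3 * x₁ ^ 2 + A) ^ 2 := by
      apply hinj
      simp only [map_mul, map_add, map_pow, map_ofNat]
      rw [hx₃]
      field_simp
      ring
    have e4 : (y₃ + y₁) * (2 * y₁) = -((3 * x₁ ^ 2 + A) * (x₃ - x₁)) := by
      apply hinj
      simp only [map_mul, map_add, map_neg, map_sub, map_pow, map_ofNat]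
      rw [hy₃, hx₃]
      field_simp
      ring
    have e3' := congrArg e e3
    have e4' := congrArg e e4
    simp only [map_mul, map_add, map_neg, map_sub, map_pow, map_ofNat] at e3' e4'
    have hX : e x₃ = ((3 * e x₁ ^ 2 + e A) / (2 * e y₁)) ^ 2 - e x₁ - e x₁ := by
      field_simp
      linear_combination e3'
    refine ⟨hX, ?_⟩
    rw [← hX]
    field_simp
    linear_combination e4'
  · -- the chord case
    have hxK : algebraMap R K x₁ ≠ algebraMap R K x₂ := fun h => hx (hinj h)
    simp only [addX, addY, negAddY, negY_short, slope_of_X_ne hxK,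
      E.a₁_of_isShortNF, E.a₂_of_isShortNF, zero_mul, sub_zero, add_zero] at hx₃ hy₃
    have hsub : algebraMap R K x₁ - algebraMap R K x₂ ≠ 0 := sub_ne_zero.2 hxK
    have e3 : (x₃ + x₁ + x₂) * (x₁ - x₂) ^ 2 = (y₁ - y₂) ^ 2 := by
      apply hinj
      simp only [map_mul, map_add, map_sub, map_pow]
      rw [hx₃]
      field_simp
      ring
    have e4 : (y₃ + y₁) * (x₁ - x₂) = -((y₁ - y₂) * (x₃ - x₁)) := by
      apply hinj
      simp only [map_mul, map_add, map_neg, map_sub]
      rw [hy₃, hx₃]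
      field_simp
      ring
    have hex : e x₁ ≠ e x₂ := by
      intro he
      have hd : ∃ x₄ : R, (x₄ + x₁ + x₂) * (x₁ - x₂) ^ 2 = (y₁ + y₂) ^ 2 := by
        rw [Point.neg_some, Point.add_of_X_ne hxK] at hdiff
        obtain ⟨x₄, y₄, -, hx₄, -, -⟩ := hT _ _ _ hdiff
        refine ⟨x₄, hinj ?_⟩
        simp only [map_mul, map_add, map_sub, map_pow]
        simp only [addX, negY_short, slope_of_X_ne hxK, E.a₁_of_isShortNF, E.a₂_of_isShortNF,
          zero_mul, sub_zero, add_zero] at hx₄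
        rw [hx₄]
        field_simp
        ring
      obtain ⟨x₄, hd⟩ := hd
      have f3 := congrArg e e3
      have f4 := congrArg e hd
      simp only [map_mul, map_add, map_sub, map_pow, he, sub_self, ne_eq, OfNat.ofNat_ne_zero,
        not_false_eq_true, zero_pow, mul_zero] at f3 f4
      have g3 := pow_eq_zero_iff two_ne_zero |>.1 f3.symm
      have g4 := pow_eq_zero_iff two_ne_zero |>.1 f4.symm
      exact hy₁ (mul_left_cancel₀ (two_ne_zero : (2 : k) ≠ 0) (by linear_combination g3 + g4))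
    have hsub' : e x₁ - e x₂ ≠ 0 := sub_ne_zero.2 hex
    rw [Point.add_of_X_ne hex]
    simp only [addX, addY, negAddY, negY_short, slope_of_X_ne hex, Ek.a₁_of_isShortNF,
      Ek.a₂_of_isShortNF, zero_mul, sub_zero, add_zero, Point.some.injEq]
    have e3' := congrArg e e3
    have e4' := congrArg e e4
    simp only [map_mul, map_add, map_neg, map_sub, map_pow] at e3' e4'
    have hX : e x₃ = ((e y₁ - e y₂) / (e x₁ - e x₂)) ^ 2 - e x₁ - e x₂ := by
      field_simp
      linear_combination e3'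
    refine ⟨hX, ?_⟩
    rw [← hX]
    field_simp
    linear_combination e4'

/-- Specialisation on a good group, as a homomorphism. -/
noncomputable def specHomOfGood (hT : IsGoodGroup e E Ek T) (h4 : E.a₄ = algebraMap R K A)
    (k4' : Ek.a₄ = e A) : T →+ Ek.Point where
  toFun P := spec e E Ek P
  map_zero' := rfl
  map_add' P Q := spec_add_of_isGoodGroup hT h4 k4' P.2 Q.2

theorem specHomOfGood_injective (hT : IsGoodGroup e E Ek T) (h4 : E.a₄ = algebraMap R K A)
    (k4' : Ek.a₄ = e A) : Function.Injective (specHomOfGood hT h4 k4') := by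
  rw [injective_iff_map_eq_zero]
  rintro ⟨_ | ⟨X, Y, h⟩, hP⟩ h0
  · rfl
  obtain ⟨x, y, hk, rfl, rfl, -⟩ := hT _ _ h hP
  exact absurd ((spec_some e E Ek h hk) ▸ h0) (Point.some_ne_zero hk)

end Fermat.Agent.Residual
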