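/-
Fisher's Hesse pencil of curves with the same 3-torsion as the curve with invariants `c₄ = A`,
`c₆ = B`: the forms, the discriminant identity and the absence of common zeros.
-/
import Mathlib.Tactic.Ring
import Mathlib.Tactic.LinearCombination
import Mathlib.Algebra.Field.Basic
import Mathlib.Algebra.Ring.Hom.Defs

set_option autoImplicit false

namespace Fermat.Agent.Residual

variable {R : Type*} [CommRing R]

/-- The `c₄` invariant along the pencil. -/
def hesseC4 (A B l m : R) : R :=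
  A * l ^ 4 + 4 * B * l ^ 3 * m + 6 * A ^ 2 * l ^ 2 * m ^ 2 + 4 * A * B * l * m ^ 3
    + (4 * B ^ 2 - 3 * A ^ 3) * m ^ 4

/-- The `c₆` invariant along the pencil. -/
def hesseC6 (A B l m : R) : R :=
  B * l ^ 6 + 6 * A ^ 2 * l ^ 5 * m + 15 * A * B * l ^ 4 * m ^ 2 + 20 * B ^ 2 * l ^ 3 * m ^ 3
    + 15 * A ^ 2 * B * l ^ 2 * m ^ 4 + 6 * (3 * A ^ 4 - 2 * A * B ^ 2) * l * m ^ 5
    + (9 * A ^ 3 * B - 8 * B ^ 3) * m ^ 6

/-- The quartic whose cube scales the discriminant along the pencil. -/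
def hesseD (A B l m : R) : R :=
  l ^ 4 - 6 * A * l ^ 2 * m ^ 2 - 8 * B * l * m ^ 3 - 3 * A ^ 2 * m ^ 4

/-- The auxiliary cubic with `hesseC4 = A * hesseD + 4 * m * hesseH`. -/
def hesseH (A B l m : R) : R :=
  B * l ^ 3 + 3 * A ^ 2 * l ^ 2 * m + 3 * A * B * l * m ^ 2 + B ^ 2 * m ^ 3

theorem hesse_disc (A B l m : R) :
    hesseC4 A B l m ^ 3 - hesseC6 A B l m ^ 2 = (A ^ 3 - B ^ 2) * hesseD A B l m ^ 3 := by
  unfold hesseC4 hesseC6 hesseD; ring

theorem hesseC4_eq (A B l m : R) :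
    hesseC4 A B l m = A * hesseD A B l m + 4 * m * hesseH A B l m := by
  unfold hesseC4 hesseD hesseH; ring

theorem hesse_bezout (A B l : R) :
    9 * (A ^ 3 - B ^ 2) ^ 2 =
      (4 * A * B ^ 2 - 3 * A ^ 4 + 2 * A ^ 2 * B * l + B ^ 2 * l ^ 2) * hesseD A B l 1 +
      (9 * B ^ 2 - 6 * A ^ 3 + 5 * A * B * l + A ^ 2 * l ^ 2 - B * l ^ 3) * hesseH A B l 1 := by
  unfold hesseD hesseH; ring

theorem hesseC4_smul (A B t l m : R) :
    hesseC4 A B (t * l) (t * m) = t ^ 4 * hesseC4 A B l m := by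
  unfold hesseC4; ring

theorem hesseC6_smul (A B t l m : R) :
    hesseC6 A B (t * l) (t * m) = t ^ 6 * hesseC6 A B l m := by
  unfold hesseC6; ring

theorem hesseD_smul (A B t l m : R) :
    hesseD A B (t * l) (t * m) = t ^ 4 * hesseD A B l m := by
  unfold hesseD; ring

theorem hesseH_smul (A B t l m : R) :
    hesseH A B (t * l) (t * m) = t ^ 3 * hesseH A B l m := by
  unfold hesseH; ring

theorem hesse_one_zero (A B : R) :
    hesseC4 A B 1 0 = A ∧ hesseC6 A B 1 0 = B ∧ hesseD A B 1 0 = 1 := by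
  refine ⟨?_, ?_, ?_⟩ <;> simp [hesseC4, hesseC6, hesseD]

section map

variable {S : Type*} [CommRing S] (f : R →+* S)

theorem map_hesseC4 (A B l m : R) : f (hesseC4 A B l m) = hesseC4 (f A) (f B) (f l) (f m) := by
  simp [hesseC4, map_ofNat]

theorem map_hesseC6 (A B l m : R) : f (hesseC6 A B l m) = hesseC6 (f A) (f B) (f l) (f m) := by
  simp [hesseC6, map_ofNat]

theorem map_hesseD (A B l m : R) : f (hesseD A B l m) = hesseD (f A) (f B) (f l) (f m) := by
  simp [hesseD, map_ofNat]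

end map

/-- The forms have no common zero away from `6 Δ`. -/
theorem hesse_no_common_zero {K : Type*} [Field K] (h2 : (2 : K) ≠ 0) (h3 : (3 : K) ≠ 0)
    {A B l m : K} (hAB : A ^ 3 - B ^ 2 ≠ 0) (hD : hesseD A B l m = 0)
    (hC : hesseC4 A B l m = 0) : l = 0 ∧ m = 0 := by
  have h4 : (4 : K) ≠ 0 := by
    rw [show (4 : K) = 2 * 2 by ring]; exact mul_ne_zero h2 h2
  have h9 : (9 : K) ≠ 0 := by
    rw [show (9 : K) = 3 * 3 by ring]; exact mul_ne_zero h3 h3
  by_cases hm : m = 0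
  · subst hm
    refine ⟨?_, rfl⟩
    simp [hesseD] at hD
    exact hD
  · exfalso
    rw [hesseC4_eq, hD, mul_zero, zero_add] at hC
    have hH : hesseH A B l m = 0 :=
      (mul_eq_zero.1 hC).resolve_left (mul_ne_zero h4 hm)
    have hl : m * (l / m) = l := mul_div_cancel₀ l hm
    have hD1 : hesseD A B (l / m) 1 = 0 := by
      have h := hesseD_smul A B m (l / m) 1
      rw [hl, mul_one, hD] at h
      exact (mul_eq_zero.1 h.symm).resolve_left (pow_ne_zero 4 hm)
    have hH1 : hesseH A B (l / m) 1 = 0 := by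
      have h := hesseH_smul A B m (l / m) 1
      rw [hl, mul_one, hH] at h
      exact (mul_eq_zero.1 h.symm).resolve_left (pow_ne_zero 3 hm)
    have hb := hesse_bezout A B (l / m)
    rw [hD1, hH1, mul_zero, mul_zero, add_zero] at hb
    exact mul_ne_zero h9 (pow_ne_zero 2 hAB) hb

end Fermat.Agent.Residual
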