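/-
Galois-equivariant identification of the 3-torsion along Fisher's Hesse pencil.

A root `w` of `hesseD A B w 1` is a third of the `x`-coordinate of a point of order 3 of
`y² = x³ - 27 A x - 54 B`; the corresponding point of the member with parameters `(l : m)` is
`(3 hesseX, y₀ hesseY)`.
-/
import Fermat.Agent.Residual.FamilySpec
import Fermat.Agent.Residual.LocalForms
import Fermat.Agent.Switch.Section
import Fermat.Agent.EC.Torsion

set_option autoImplicit false

namespace Fermat.Agent.Residual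

open WeierstrassCurve WeierstrassCurve.Affine Fermat.Agent.Switch

/-- A third of the `x`-coordinate of the transported point. -/
def hesseX {R : Type*} [CommRing R] (w A B l m : R) : R :=
  w * l ^ 2 + (w ^ 2 - 3 * A) * (l * m) + (w ^ 3 - 6 * A * w - 6 * B) * m ^ 2

/-- The `y`-coordinate of the transported point, divided by the original one. -/
def hesseY {R : Type*} [CommRing R] (w A B l m : R) : R :=
  l ^ 3 + w * (l ^ 2 * m) + (w ^ 2 - 6 * A) * (l * m ^ 2)
    + (w ^ 3 - 6 * A * w - 8 * B) * m ^ 3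

section identities

variable {R : Type*} [CommRing R] {w A B : R}

theorem hesseD_hesseX (hw : hesseD A B w 1 = 0) (l m : R) :
    hesseD (hesseC4 A B l m) (hesseC6 A B l m) (hesseX w A B l m) 1 = 0 := by
  unfold hesseD at hw
  unfold hesseD hesseC4 hesseC6 hesseX
  linear_combination (l^8 + (-16) * B * l^5 * m^3 + (64) * B^2 * l^2 * m^6 + (-18) * A * l^6 * m^2 + (192) * A * B *
    l^3 * m^5 + (-384) * A * B^2 * m^8 + (111) * A^2 * l^4 * m^4 + (-600) * A^2 * B * l * m^7 +
    (-234) * A^3 * l^2 * m^6 + (9) * A^4 * m^8 + (4) * w * l^7 * m + (-40) * w * B * l^4 * m^4 +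
    (64) * w * B^2 * l * m^7 + (-60) * w * A * l^5 * m^3 + (336) * w * A * B * l^2 * m^6 + (300) *
    w * A^2 * l^3 * m^5 + (-600) * w * A^2 * B * m^8 + (-504) * w * A^3 * l * m^7 + (10) * w^2 *
    l^6 * m^2 + (-64) * w^2 * B * l^3 * m^5 + (64) * w^2 * B^2 * m^8 + (-120) * w^2 * A * l^4 *
    m^4 + (336) * w^2 * A * B * l * m^7 + (408) * w^2 * A^2 * l^2 * m^6 + (-234) * w^2 * A^3 * m^8
    + (16) * w^3 * l^5 * m^3 + (-64) * w^3 * B * l^2 * m^6 + (-144) * w^3 * A * l^3 * m^5 + (192)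
    * w^3 * A * B * m^8 + (300) * w^3 * A^2 * l * m^7 + (19) * w^4 * l^4 * m^4 + (-40) * w^4 * B *
    l * m^7 + (-120) * w^4 * A * l^2 * m^6 + (111) * w^4 * A^2 * m^8 + (16) * w^5 * l^3 * m^5 +
    (-16) * w^5 * B * m^8 + (-60) * w^5 * A * l * m^7 + (10) * w^6 * l^2 * m^6 + (-18) * w^6 * A *
    m^8 + (4) * w^7 * l * m^7 + w^8 * m^8) * hw

theorem hesseY_sq (hw : hesseD A B w 1 = 0) (l m : R) :
    (w ^ 3 - 3 * A * w - 2 * B) * hesseY w A B l m ^ 2 =
      hesseX w A B l m ^ 3 - 3 * hesseC4 A B l m * hesseX w A B l m - 2 * hesseC6 A B l m := by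
  unfold hesseD at hw
  unfold hesseC4 hesseC6 hesseX hesseY
  linear_combination ((-1) * l^5 * m + (8) * B * l^2 * m^4 + (9) * A * l^3 * m^3 + (-24) * A * B * m^6 + (-21) * A^2
    * l * m^5 + (-3) * w * l^4 * m^2 + (8) * w * B * l * m^5 + (21) * w * A * l^2 * m^4 + (-18) *
    w * A^2 * m^6 + (-3) * w^2 * l^3 * m^3 + (9) * w^2 * A * l * m^5 + (-3) * w^3 * l^2 * m^4 +
    (3) * w^3 * A * m^6 + (-1) * w^4 * l * m^5) * hw

theorem map_hesseX {S : Type*} [CommRing S] (f : R →+* S) (w A B l m : R) :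
    f (hesseX w A B l m) = hesseX (f w) (f A) (f B) (f l) (f m) := by
  simp [hesseX, map_ofNat]

theorem map_hesseY {S : Type*} [CommRing S] (f : R →+* S) (w A B l m : R) :
    f (hesseY w A B l m) = hesseY (f w) (f A) (f B) (f l) (f m) := by
  simp [hesseY, map_ofNat]

end identities

/-- The polynomial whose roots are the `x`-coordinates of the points of order 3. -/
def triplePoly {R : Type*} [CommRing R] (A B x : R) : R :=
  3 * x ^ 4 + 6 * A * x ^ 2 + 12 * B * x - A ^ 2

theorem triplePoly_eq {R : Type*} [CommRing R] (A B x : R) :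
    triplePoly A B x = x * dupDen A B x - dupNum A B x := by
  unfold triplePoly dupDen dupNum; ring

theorem triplePoly_short {R : Type*} [CommRing R] (A B w : R) :
    triplePoly (-27 * A) (-54 * B) (3 * w) = 243 * hesseD A B w 1 := by
  unfold triplePoly hesseD; ring

section field

variable {K : Type*} [Field K] [DecidableEq K] [CharZero K] {W : WeierstrassCurve.Affine K}
  [W.IsShortNF]

theorem three_nsmul_some_eq_zero_iff {x y : K} (h : W.Nonsingular x y) :
    3 • Point.some x y h = 0 ↔ triplePoly W.a₄ W.a₆ x = 0 := by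
  rw [triplePoly_eq, sub_eq_zero]
  set P := Point.some x y h with hP
  constructor
  · intro h3
    have hy : y ≠ 0 := by
      rintro rfl
      have h2 : P + P = 0 := Point.add_self_of_Y_eq (by rw [negY_short, neg_zero])
      apply Point.some_ne_zero h
      calc P = 3 • P - (P + P) := by abel
        _ = 0 := by rw [h3, h2, sub_zero]
    obtain ⟨x', y', h', hadd, he⟩ := add_self_x h hy
    have e : Point.some x' y' h' = -P := by
      rw [← hadd, ← hP]
      calc P + P = 3 • P - P := by abel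
        _ = -P := by rw [h3, zero_sub]
    obtain rfl : x' = x := (Point.X_eq_iff).2 (Or.inr e)
    exact he
  · intro he
    have hy : y ≠ 0 := y_ne_zero_of_dup h he
    obtain ⟨x', y', h', hadd, he'⟩ := add_self_x h hy
    have hd : dupDen W.a₄ W.a₆ x ≠ 0 := by
      rw [dupDen, ← sq_eq_of_nonsingular W h]
      exact mul_ne_zero (by norm_num) (pow_ne_zero _ hy)
    obtain rfl : x' = x := mul_right_cancel₀ hd (he'.trans he.symm)
    rcases (Point.X_eq_iff (h₁ := h') (h₂ := h)).1 rfl with e | e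
    · exfalso
      rw [← hadd, ← hP, add_eq_left] at e
      exact Point.some_ne_zero h e
    · rw [← hadd, ← hP] at e
      calc 3 • P = P + P + P := by abel
        _ = 0 := by rw [e, neg_add_cancel]

end field

section pencil

open Polynomial

local notation "Qbar" => AlgebraicClosure ℚ

/-- `y² = x³ - 27 c₄ x - 54 c₆` for the member `(l : m)` of the Hesse pencil through `(A, B)`. -/
def hesseShort (A B l m : ℚ) : WeierstrassCurve.Affine ℚ :=
  short (-27 * hesseC4 A B l m) (-54 * hesseC6 A B l m)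

instance (A B l m : ℚ) : (hesseShort A B l m).IsShortNF := ⟨rfl, rfl, rfl⟩

theorem hesseShort_Δ (A B l m : ℚ) :
    (hesseShort A B l m).Δ = 1259712 * ((A ^ 3 - B ^ 2) * hesseD A B l m ^ 3) := by
  rw [Δ_of_isShortNF, ← hesse_disc]
  simp only [hesseShort, short]
  ring

variable (A B : ℚ)

/-- `-27 c₄` along the pencil, as a polynomial in the parameter. -/
noncomputable def hesseA4 : ℚ[X] := -27 * hesseC4 (C A) (C B) 1 X

/-- `-54 c₆` along the pencil, as a polynomial in the parameter. -/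
noncomputable def hesseA6 : ℚ[X] := -54 * hesseC6 (C A) (C B) 1 X

theorem eval_hesseA4 (t : ℚ) : (hesseA4 A B).eval t = -27 * hesseC4 A B 1 t := by
  rw [hesseA4, ← coe_evalRingHom, map_mul, map_hesseC4]; simp

theorem eval_hesseA6 (t : ℚ) : (hesseA6 A B).eval t = -54 * hesseC6 A B 1 t := by
  rw [hesseA6, ← coe_evalRingHom, map_mul, map_hesseC6]; simp

variable {A B}

theorem map_hesseA4 :
    (hesseA4 A B).map (algebraMap ℚ Qbar) =
      -27 * hesseC4 (C (algebraMap ℚ Qbar A)) (C (algebraMap ℚ Qbar B)) 1 X := by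
  rw [hesseA4, ← coe_mapRingHom, map_mul, map_hesseC4]
  simp

theorem map_hesseA6 :
    (hesseA6 A B).map (algebraMap ℚ Qbar) =
      -54 * hesseC6 (C (algebraMap ℚ Qbar A)) (C (algebraMap ℚ Qbar B)) 1 X := by
  rw [hesseA6, ← coe_mapRingHom, map_mul, map_hesseC6]
  simp

theorem hesseShort_coeff (t : ℚ) :
    (hesseShort A B 1 t).a₄ = (hesseA4 A B).eval t ∧
      (hesseShort A B 1 t).a₆ = (hesseA6 A B).eval t := by
  rw [eval_hesseA4, eval_hesseA6]; exact ⟨rfl, rfl⟩

variable [DecidableEq (FractionRing Qbar[X])]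

/-- The generic member of the Hesse pencil. -/
noncomputable abbrev genericHesse (A B : ℚ) : WeierstrassCurve.Affine (FractionRing Qbar[X]) :=
  Switch.genericCurve (hesseA4 A B) (hesseA6 A B)

theorem isGoodGroup_genericHesse {t : ℚ} (ht : (hesseShort A B 1 t).Δ ≠ 0) :
    IsGoodGroup (evalAt t) (genericHesse A B) ((hesseShort A B 1 t)⁄Qbar)
      (Submodule.torsionBy ℤ (genericHesse A B).Point (3 : ℕ)) := by
  intro X₀ Y₀ h hP
  rw [Submodule.mem_torsionBy_iff, natCast_zsmul, three_nsmul_some_eq_zero_iff] at hP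
  set ι := algebraMap Qbar[X] (FractionRing Qbar[X]) with hι
  set a : Qbar[X] := (hesseA4 A B).map (algebraMap ℚ Qbar)
  set b : Qbar[X] := (hesseA6 A B).map (algebraMap ℚ Qbar)
  change triplePoly (ι a) (ι b) X₀ = 0 at hP
  obtain ⟨x, hx⟩ : X₀ ∈ Set.range ι := by
    refine IsIntegrallyClosed.algebraMap_eq_of_integral
      ⟨Polynomial.X ^ 4 + C (C (1 / 3 : Qbar) * (6 * a)) * Polynomial.X ^ 2 +
        C (C (1 / 3 : Qbar) * (12 * b)) * Polynomial.X - C (C (1 / 3 : Qbar) * a ^ 2),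
        by monicity!, ?_⟩
    have h3 : ι (C (1 / 3 : Qbar)) * 3 = 1 := by
      rw [← map_ofNat ι 3, ← map_mul, ← C_ofNat, ← C_mul]; norm_num
    simp only [eval₂_add, eval₂_sub, eval₂_mul, eval₂_pow, eval₂_X, eval₂_C, eval₂_ofNat, map_mul,
      map_pow, map_ofNat, ← hι]
    unfold triplePoly at hP
    linear_combination ι (C (1 / 3 : Qbar)) * hP - X₀ ^ 4 * h3
  obtain ⟨y, hy⟩ : Y₀ ∈ Set.range ι := by
    refine IsIntegrallyClosed.algebraMap_eq_of_integral (IsIntegral.of_pow (n := 2) two_pos ?_)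
    rw [sq_eq_of_nonsingular (genericHesse A B) h, ← hx]
    change IsIntegral Qbar[X] (ι x ^ 3 + ι a * ι x + ι b)
    rw [← map_pow, ← map_mul, ← map_add, ← map_add]
    exact isIntegral_algebraMap
  obtain ⟨e4, e6⟩ := hesseShort_coeff (A := A) (B := B) t
  have k4' : ((hesseShort A B 1 t)⁄Qbar).a₄ = evalAt t a := by rw [evalAt_map, ← e4]; rfl
  have k6' : ((hesseShort A B 1 t)⁄Qbar).a₆ = evalAt t b := by rw [evalAt_map, ← e6]; rfl
  have hinj := IsFractionRing.injective Qbar[X] (FractionRing Qbar[X])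
  have hc : y ^ 2 = x ^ 3 + a * x + b := hinj (by
    rw [map_add, map_add, map_mul, map_pow, map_pow, hy, hx]
    exact sq_eq_of_nonsingular (genericHesse A B) h)
  have hc3 : triplePoly a b x = 0 := hinj (by
    rw [map_zero, ← hP, ← hx]; simp only [triplePoly, map_add, map_sub, map_mul, map_pow, map_ofNat]; rfl)
  have hk : ((hesseShort A B 1 t)⁄Qbar).Nonsingular (evalAt t x) (evalAt t y) :=
    nonsingular_of_sq_eq _ (baseChange_Δ_ne_zero ht) (by
      rw [k4', k6', ← map_pow, hc, map_add, map_add, map_mul, map_pow])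
  refine ⟨x, y, hk, hx, hy, y_ne_zero_of_dup (x' := evalAt t x) hk ?_⟩
  rw [k4', k6', ← sub_eq_zero, ← triplePoly_eq]
  have := congrArg (evalAt t) hc3
  simpa [triplePoly, map_ofNat] using this

/-- Specialisation of the generic 3-torsion at `t`. -/
noncomputable def specThree {t : ℚ} (ht : (hesseShort A B 1 t).Δ ≠ 0) :
    Submodule.torsionBy ℤ (genericHesse A B).Point (3 : ℕ) →+
      Submodule.torsionBy ℤ ((hesseShort A B 1 t)⁄Qbar).Point (3 : ℕ) :=
  let f := specHomOfGood (isGoodGroup_genericHesse ht) rfl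
    (by rw [evalAt_map, ← (hesseShort_coeff t).1]; rfl)
  { toFun := fun P => ⟨f P, by
      rw [Submodule.mem_torsionBy_iff, natCast_zsmul, ← map_nsmul,
        show (3 : ℕ) • P = 0 from Subtype.ext (by
          have h := (Submodule.mem_torsionBy_iff _ _).1 P.2
          rwa [natCast_zsmul] at h), map_zero]⟩
    map_zero' := Subtype.ext (map_zero f)
    map_add' := fun P Q => Subtype.ext (map_add f P Q) }

theorem specThree_injective {t : ℚ} (ht : (hesseShort A B 1 t).Δ ≠ 0) :
    Function.Injective (specThree ht) := fun _ _ h =>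
  specHomOfGood_injective (isGoodGroup_genericHesse ht) rfl
    (by rw [evalAt_map, ← (hesseShort_coeff t).1]; rfl) (congrArg Subtype.val h)

/-- A point of order 3 at the origin of the pencil spreads out, by a formula. -/
theorem exists_three_section (h0 : (hesseShort A B 1 0).Δ ≠ 0) {x y : Qbar}
    (h : ((hesseShort A B 1 0)⁄Qbar).Nonsingular x y)
    (hP : 3 • Point.some x y h = 0) :
    ∃ P : Submodule.torsionBy ℤ (genericHesse A B).Point (3 : ℕ),
      ∀ (t : ℚ) (ht : (hesseShort A B 1 t).Δ ≠ 0), ∃ h',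
        (specThree ht P : ((hesseShort A B 1 t)⁄Qbar).Point) =
          Point.some
            (3 * hesseX (x / 3) (algebraMap ℚ Qbar A) (algebraMap ℚ Qbar B) 1 (algebraMap ℚ Qbar t))
            (y * hesseY (x / 3) (algebraMap ℚ Qbar A) (algebraMap ℚ Qbar B) 1 (algebraMap ℚ Qbar t))
            h' := by
  set a0 := algebraMap ℚ Qbar A
  set b0 := algebraMap ℚ Qbar B
  have e4 : ((hesseShort A B 1 0)⁄Qbar).a₄ = -27 * a0 := by
    change algebraMap ℚ Qbar (-27 * hesseC4 A B 1 0) = _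
    rw [(hesse_one_zero A B).1, map_mul, map_neg, map_ofNat]
  have e6 : ((hesseShort A B 1 0)⁄Qbar).a₆ = -54 * b0 := by
    change algebraMap ℚ Qbar (-54 * hesseC6 A B 1 0) = _
    rw [(hesse_one_zero A B).2.1, map_mul, map_neg, map_ofNat]
  set w := x / 3 with hw
  have hxw : x = 3 * w := by rw [hw]; ring
  have hD : hesseD a0 b0 w 1 = 0 := by
    have h3 := (three_nsmul_some_eq_zero_iff h).1 hP
    rw [e4, e6, hxw, triplePoly_short] at h3
    exact (mul_eq_zero.1 h3).resolve_left (by norm_num)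
  have hy : y ^ 2 = 27 * (w ^ 3 - 3 * a0 * w - 2 * b0) := by
    rw [sq_eq_of_nonsingular _ h, e4, e6, hxw]; ring
  set sx : Qbar[X] := 3 * hesseX (C w) (C a0) (C b0) 1 Polynomial.X with hsx
  set sy : Qbar[X] := C y * hesseY (C w) (C a0) (C b0) 1 Polynomial.X with hsy
  have hDp : hesseD (C a0) (C b0) (C w) (1 : Qbar[X]) = 0 := by
    rw [← C_1, ← map_hesseD, hD, map_zero]
  have hcp : sy ^ 2 = sx ^ 3 + (hesseA4 A B).map (algebraMap ℚ Qbar) * sx +
      (hesseA6 A B).map (algebraMap ℚ Qbar) := by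
    rw [map_hesseA4, map_hesseA6, hsx, hsy, mul_pow, ← C_pow, hy]
    simp only [map_sub, map_mul, map_pow, map_ofNat]
    linear_combination 27 * hesseY_sq hDp (1 : Qbar[X]) Polynomial.X
  have htp : triplePoly ((hesseA4 A B).map (algebraMap ℚ Qbar))
      ((hesseA6 A B).map (algebraMap ℚ Qbar)) sx = 0 := by
    rw [map_hesseA4, map_hesseA6, hsx, triplePoly_short,
      hesseD_hesseX hDp (1 : Qbar[X]) Polynomial.X, mul_zero]
  set ι := algebraMap Qbar[X] (FractionRing Qbar[X])
  have hG : (genericHesse A B).Δ ≠ 0 :=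
    Switch.genericCurve_Δ_ne_zero (hesseShort_coeff 0).1 (hesseShort_coeff 0).2 h0
  have hns : (genericHesse A B).Nonsingular (ι sx) (ι sy) := by
    refine nonsingular_of_sq_eq _ hG ?_
    change ι sy ^ 2 = ι sx ^ 3 + ι _ * ι sx + ι _
    rw [← map_pow, hcp, map_add, map_add, map_mul, map_pow]
  have h3' : 3 • Point.some _ _ hns = 0 := by
    rw [three_nsmul_some_eq_zero_iff]
    have := congrArg ι htp
    simpa [triplePoly, map_ofNat, short] using this
  refine ⟨⟨Point.some _ _ hns, by rw [Submodule.mem_torsionBy_iff, natCast_zsmul]; exact h3'⟩,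
    fun t ht => ?_⟩
  obtain ⟨u, v, hk, hu, hv, -⟩ := isGoodGroup_genericHesse ht _ _ hns
    (by rw [Submodule.mem_torsionBy_iff, natCast_zsmul]; exact h3')
  obtain rfl : u = sx := IsFractionRing.injective _ _ hu
  obtain rfl : v = sy := IsFractionRing.injective _ _ hv
  have ex : evalAt t sx = 3 * hesseX w a0 b0 1 (algebraMap ℚ Qbar t) := by
    rw [hsx, map_mul, map_hesseX]; simp
  have ey : evalAt t sy = y * hesseY w a0 b0 1 (algebraMap ℚ Qbar t) := by
    rw [hsy, map_mul, map_hesseY]; simp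
  refine ⟨ex ▸ ey ▸ hk, ?_⟩
  change spec (evalAt t) (genericHesse A B) ((hesseShort A B 1 t)⁄Qbar) (Point.some _ _ hns) = _
  rw [spec_some (evalAt t) _ _ hns hk]
  simp only [Point.some.injEq]
  exact ⟨ex, ey⟩

/-- The 3-torsion of every smooth member of a Hesse pencil is Galois-equivariantly the same. -/
theorem exists_hesse_torsion_equiv {t : ℚ} (h0 : (hesseShort A B 1 0).Δ ≠ 0)
    (ht : (hesseShort A B 1 t).Δ ≠ 0) :
    ∃ f : Submodule.torsionBy ℤ ((hesseShort A B 1 0)⁄Qbar).Point (3 : ℕ) ≃+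
        Submodule.torsionBy ℤ ((hesseShort A B 1 t)⁄Qbar).Point (3 : ℕ),
      ∀ (σ : Qbar ≃ₐ[ℚ] Qbar) P, f (σ • P) = σ • f P := by
  classical
  have hb₀ : Function.Bijective (specThree h0) := by
    refine ⟨specThree_injective h0, ?_⟩
    rintro ⟨_ | ⟨x, y, h⟩, hz⟩
    · exact ⟨0, map_zero _⟩
    have hz' := hz
    rw [Submodule.mem_torsionBy_iff, natCast_zsmul] at hz'
    obtain ⟨P, hP⟩ := exists_three_section h0 h hz'
    obtain ⟨h', he⟩ := hP 0 h0
    refine ⟨P, Subtype.ext (he.trans ?_)⟩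
    simp only [Point.some.injEq, map_zero, hesseX, hesseY]
    constructor <;> ring
  haveI : ((hesseShort A B 1 0)⁄Qbar).IsElliptic :=
    ⟨isUnit_iff_ne_zero.2 (baseChange_Δ_ne_zero h0)⟩
  haveI : ((hesseShort A B 1 t)⁄Qbar).IsElliptic :=
    ⟨isUnit_iff_ne_zero.2 (baseChange_Δ_ne_zero ht)⟩
  have hc0 : Nat.card (Submodule.torsionBy ℤ ((hesseShort A B 1 0)⁄Qbar).Point (3 : ℕ)) = 3 ^ 2 :=
    EC.card_torsionBy_Qbar (by norm_num)
  have hct : Nat.card (Submodule.torsionBy ℤ ((hesseShort A B 1 t)⁄Qbar).Point (3 : ℕ)) = 3 ^ 2 :=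
    EC.card_torsionBy_Qbar (by norm_num)
  haveI : Finite (Submodule.torsionBy ℤ ((hesseShort A B 1 t)⁄Qbar).Point (3 : ℕ)) :=
    EC.finite_torsionBy_Qbar (by norm_num)
  haveI : Finite (Submodule.torsionBy ℤ (genericHesse A B).Point (3 : ℕ)) :=
    Finite.of_injective _ (specThree_injective ht)
  have hb₁ : Function.Bijective (specThree ht) :=
    Nat.bijective_iff_injective_and_card _ |>.2
      ⟨specThree_injective ht, by rw [Nat.card_eq_of_bijective _ hb₀, hc0, hct]⟩
  set f := (AddEquiv.ofBijective _ hb₀).symm.trans (AddEquiv.ofBijective _ hb₁) with hf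
  have key : ∀ (x y : Qbar) (h : ((hesseShort A B 1 0)⁄Qbar).Nonsingular x y) (hz), ∃ h',
      (f ⟨Point.some x y h, hz⟩ : ((hesseShort A B 1 t)⁄Qbar).Point) =
        Point.some
          (3 * hesseX (x / 3) (algebraMap ℚ Qbar A) (algebraMap ℚ Qbar B) 1 (algebraMap ℚ Qbar t))
          (y * hesseY (x / 3) (algebraMap ℚ Qbar A) (algebraMap ℚ Qbar B) 1 (algebraMap ℚ Qbar t))
          h' := by
    intro x y h hz
    have hz' := hz
    rw [Submodule.mem_torsionBy_iff, natCast_zsmul] at hz'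
    obtain ⟨P, hP⟩ := exists_three_section h0 h hz'
    obtain ⟨h₀, he₀⟩ := hP 0 h0
    obtain ⟨h₁, he₁⟩ := hP t ht
    have e : specThree h0 P = ⟨Point.some x y h, hz⟩ := by
      refine Subtype.ext (he₀.trans ?_)
      simp only [Point.some.injEq, map_zero, hesseX, hesseY]
      constructor <;> ring
    refine ⟨h₁, ?_⟩
    rw [← e, ← he₁]
    exact congrArg (fun Q => ((AddEquiv.ofBijective _ hb₁ Q :
      Submodule.torsionBy ℤ ((hesseShort A B 1 t)⁄Qbar).Point (3 : ℕ)) :
        ((hesseShort A B 1 t)⁄Qbar).Point))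
      ((AddEquiv.ofBijective _ hb₀).symm_apply_apply P)
  refine ⟨f, ?_⟩
  rintro σ ⟨_ | ⟨x, y, h⟩, hz⟩
  · have : (⟨Point.zero, hz⟩ : Submodule.torsionBy ℤ ((hesseShort A B 1 0)⁄Qbar).Point (3 : ℕ)) = 0 :=
      rfl
    rw [this, smul_zero, map_zero, smul_zero]
  obtain ⟨h₁, e₁⟩ := key x y h hz
  obtain ⟨hs, hzs, es⟩ : ∃ (hs : ((hesseShort A B 1 0)⁄Qbar).Nonsingular (σ x) (σ y))
      (hzs : Point.some _ _ hs ∈
        Submodule.torsionBy ℤ ((hesseShort A B 1 0)⁄Qbar).Point (3 : ℕ)),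
      σ • (⟨Point.some x y h, hz⟩ :
        Submodule.torsionBy ℤ ((hesseShort A B 1 0)⁄Qbar).Point (3 : ℕ)) =
        ⟨Point.some _ _ hs, hzs⟩ :=
    ⟨_, (σ • (⟨Point.some x y h, hz⟩ :
      Submodule.torsionBy ℤ ((hesseShort A B 1 0)⁄Qbar).Point (3 : ℕ))).2, rfl⟩
  obtain ⟨h₂, e₂⟩ := key _ _ hs hzs
  rw [es]
  refine Subtype.ext (e₂.trans ?_)
  change _ = σ • (f ⟨Point.some x y h, hz⟩ : ((hesseShort A B 1 t)⁄Qbar).Point)
  rw [e₁, Point.algEquiv_smul_def, Point.map_some]
  simp only [Point.some.injEq, hesseX, hesseY]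
  constructor <;> simp [map_ofNat]

end pencil

end Fermat.Agent.Residual
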