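/-
Curves with invariants in the Hesse pencil of `W` have the same mod 3 representation as `W`.
-/
import Fermat.Agent.Residual.FamilyTorsion
import Fermat.Agent.Switch.Congruence
import Fermat.Agent.ECRed.Frobenius
import Fermat.Prelude.Def_FLTPrelim_ModularRep

set_option autoImplicit false

noncomputable section

namespace Fermat.Agent.Residual

open WeierstrassCurve WeierstrassCurve.Affine Fermat.Agent.Switch

local notation "Qbar" => AlgebraicClosure ℚ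

variable (W W' : WeierstrassCurve ℤ) (hΔ : W.Δ ≠ 0) (hΔ' : W'.Δ ≠ 0) {a b u : ℤ} (ha : a ≠ 0)
  (hu : u ≠ 0) (h4 : W'.c₄ * u ^ 4 = hesseC4 W.c₄ W.c₆ a b)
  (h6 : W'.c₆ * u ^ 6 = hesseC6 W.c₄ W.c₆ a b)

include hΔ hΔ' ha hu h4 h6

/-- A member of the Hesse pencil has the same Galois module of 3-torsion. -/
theorem exists_three_torsion_equiv :
    ∃ e : Submodule.torsionBy ℤ (ECRed.QbarPoint W) ((3 : ℕ) : ℤ) ≃+
        Submodule.torsionBy ℤ (ECRed.QbarPoint W') ((3 : ℕ) : ℤ),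
      ∀ (σ : Qbar ≃ₐ[ℚ] Qbar) x, e (σ • x) = σ • e x := by
  classical
  set E : WeierstrassCurve.Affine ℚ := W.map (Int.castRingHom ℚ) with hE
  set E' : WeierstrassCurve.Affine ℚ := W'.map (Int.castRingHom ℚ) with hE'
  have hc4 : E.c₄ = (W.c₄ : ℚ) := WeierstrassCurve.map_c₄ ..
  have hc6 : E.c₆ = (W.c₆ : ℚ) := WeierstrassCurve.map_c₆ ..
  have hc4' : E'.c₄ = (W'.c₄ : ℚ) := WeierstrassCurve.map_c₄ ..
  have hc6' : E'.c₆ = (W'.c₆ : ℚ) := WeierstrassCurve.map_c₆ ..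
  have hEΔ : E.Δ ≠ 0 := by
    rw [show E.Δ = ((W.Δ : ℤ) : ℚ) from WeierstrassCurve.map_Δ ..]; exact_mod_cast hΔ
  have hEΔ' : E'.Δ ≠ 0 := by
    rw [show E'.Δ = ((W'.Δ : ℤ) : ℚ) from WeierstrassCurve.map_Δ ..]; exact_mod_cast hΔ'
  set A : ℚ := (W.c₄ : ℚ)
  set B : ℚ := (W.c₆ : ℚ)
  have haq : (a : ℚ) ≠ 0 := Int.cast_ne_zero.2 ha
  have huq : (u : ℚ) ≠ 0 := Int.cast_ne_zero.2 hu
  set t : ℚ := (b : ℚ) / a with ht
  have h4q : (W'.c₄ : ℚ) * (u : ℚ) ^ 4 = (a : ℚ) ^ 4 * hesseC4 A B 1 t := by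
    rw [← hesseC4_smul, mul_one, ht, mul_div_cancel₀ _ haq]
    have := congrArg (Int.castRingHom ℚ) h4
    rw [map_mul, map_pow, map_hesseC4] at this; exact this
  have h6q : (W'.c₆ : ℚ) * (u : ℚ) ^ 6 = (a : ℚ) ^ 6 * hesseC6 A B 1 t := by
    rw [← hesseC6_smul, mul_one, ht, mul_div_cancel₀ _ haq]
    have := congrArg (Int.castRingHom ℚ) h6
    rw [map_mul, map_pow, map_hesseC6] at this; exact this
  have hm : IsModel E (hesseShort A B 1 0) 1 := by
    refine ⟨rfl, rfl, rfl, ?_, ?_⟩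
    · change -27 * hesseC4 A B 1 0 = _
      rw [(hesse_one_zero A B).1, hc4]; ring
    · change -54 * hesseC6 A B 1 0 = _
      rw [(hesse_one_zero A B).2.1, hc6]; ring
  have hm' : IsModel E' (hesseShort A B 1 t) ((u : ℚ) / a) := by
    refine ⟨rfl, rfl, rfl, ?_, ?_⟩
    · change -27 * hesseC4 A B 1 t = _
      rw [hc4']; field_simp; linear_combination h4q
    · change -54 * hesseC6 A B 1 t = _
      rw [hc6']; field_simp; linear_combination h6q
  have hμ : ((u : ℚ) / a) ≠ 0 := div_ne_zero huq haq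
  have hS : (hesseShort A B 1 0).Δ ≠ 0 := by
    rw [hm.Δ_eq, one_pow, mul_one]; exact mul_ne_zero (by norm_num) hEΔ
  have hS' : (hesseShort A B 1 t).Δ ≠ 0 := by
    rw [hm'.Δ_eq]; exact mul_ne_zero (mul_ne_zero (by norm_num) (pow_ne_zero _ hμ)) hEΔ'
  have hq1 : algebraMap ℚ Qbar 1 ≠ 0 := by simp
  have hqμ : algebraMap ℚ Qbar ((u : ℚ) / a) ≠ 0 := (_root_.map_ne_zero _).2 hμ
  obtain ⟨f, hf⟩ := exists_torsion_equiv (m := 3)
    (hm.baseChange.pointEquiv hq1 (baseChange_Δ_ne_zero hEΔ))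
    (fun σ P => hm.pointEquiv_smul hq1 (baseChange_Δ_ne_zero hEΔ) σ P)
  obtain ⟨f', hf'⟩ := exists_torsion_equiv (m := 3)
    (hm'.baseChange.pointEquiv hqμ (baseChange_Δ_ne_zero hEΔ'))
    (fun σ P => hm'.pointEquiv_smul hqμ (baseChange_Δ_ne_zero hEΔ') σ P)
  obtain ⟨g, hg⟩ := exists_hesse_torsion_equiv hS hS'
  refine ⟨f.trans (g.trans f'.symm), fun σ x => ?_⟩
  apply f'.injective
  refine (f'.apply_symm_apply (g (f (σ • x)))).trans ?_
  rw [hf, hg]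
  refine Eq.trans ?_ (hf' σ _).symm
  exact congrArg (σ • ·) (f'.apply_symm_apply _).symm

/-- A member of the Hesse pencil has congruent traces mod 3 at common good primes. -/
theorem dvd_apOfModel_sub_of_hesse {ℓ : ℕ} (hℓ : ℓ.Prime) (hg : W.IsGoodPrimeFor ℓ)
    (hg' : W'.IsGoodPrimeFor ℓ) (hne : ℓ ≠ 3) :
    (3 : ℤ) ∣ W'.apOfModel ℓ - W.apOfModel ℓ := by
  obtain ⟨e, he⟩ := exists_three_torsion_equiv W W' hΔ hΔ' ha hu h4 h6
  exact ECRed.dvd_apOfModel_sub_of_equivariant (p := 3) Nat.prime_three e he hℓ hne.symm hg hg'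

/-- A member of the Hesse pencil is mod 3 irreducible as soon as `W` is. -/
theorem modRepIsIrreducible_three_of_hesse (h3 : W.ModRepIsIrreducible 3) :
    W'.ModRepIsIrreducible 3 := by
  obtain ⟨e, he⟩ := exists_three_torsion_equiv W W' hΔ hΔ' ha hu h4 h6
  exact galoisRepIsIrreducible_of_equiv (E := W.map (Int.castRingHom ℚ))
    (E' := W'.map (Int.castRingHom ℚ)) e he h3

end Fermat.Agent.Residual
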