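/-
Integral Weierstrass models with prescribed `c₄` and `c₆`: models modulo powers of `2` and `3`
glue to a global one.
-/
import Mathlib.AlgebraicGeometry.EllipticCurve.Weierstrass
import Mathlib.RingTheory.Coprime.Basic
import Mathlib.RingTheory.Int.Basic
import Mathlib.Data.ZMod.Basic
import Mathlib.Tactic

set_option autoImplicit false

open WeierstrassCurve

namespace Fermat.Agent.Residual

/-- Congruent coefficients give congruent `c₄` and `c₆`. -/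
theorem c_congr_of_coeff_congr (n : ℕ) (W W' : WeierstrassCurve ℤ) (h1 : (n : ℤ) ∣ W.a₁ - W'.a₁)
    (h2 : (n : ℤ) ∣ W.a₂ - W'.a₂) (h3 : (n : ℤ) ∣ W.a₃ - W'.a₃) (h4 : (n : ℤ) ∣ W.a₄ - W'.a₄)
    (h6 : (n : ℤ) ∣ W.a₆ - W'.a₆) :
    (n : ℤ) ∣ W.c₄ - W'.c₄ ∧ (n : ℤ) ∣ W.c₆ - W'.c₆ := by
  simp only [← ZMod.intCast_zmod_eq_zero_iff_dvd, Int.cast_sub, sub_eq_zero] at h1 h2 h3 h4 h6 ⊢
  have he : W.map (Int.castRingHom (ZMod n)) = W'.map (Int.castRingHom (ZMod n)) := by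
    ext <;> simpa
  exact ⟨by simpa using congrArg WeierstrassCurve.c₄ he,
    by simpa using congrArg WeierstrassCurve.c₆ he⟩

theorem c₄_shift (W : WeierstrassCurve ℤ) (s : ℤ) :
    (⟨W.a₁, W.a₂, W.a₃, W.a₄ + s, W.a₆⟩ : WeierstrassCurve ℤ).c₄ = W.c₄ - 48 * s := by
  simp only [c₄, b₂, b₄]; ring

theorem c₆_shift (W : WeierstrassCurve ℤ) (s : ℤ) :
    (⟨W.a₁, W.a₂, W.a₃, W.a₄ + s, W.a₆⟩ : WeierstrassCurve ℤ).c₆ = W.c₆ + 72 * W.b₂ * s := by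
  simp only [c₆, b₂, b₄, b₆]; ring

theorem exists_crt (x y : ℤ) : ∃ z : ℤ, (4096 : ℤ) ∣ z - x ∧ (729 : ℤ) ∣ z - y := by
  obtain ⟨u, v, huv⟩ : IsCoprime (4096 : ℤ) 729 := Int.isCoprime_iff_gcd_eq_one.2 (by norm_num)
  exact ⟨x * (v * 729) + y * (u * 4096), ⟨u * (y - x), by linear_combination x * huv⟩,
    ⟨v * (x - y), by linear_combination y * huv⟩⟩

/-- Integers congruent to the invariants of some model modulo `2¹²` and of some model modulo `3⁶`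
are the invariants of an integral model. -/
theorem exists_model_of_local {c4 c6 : ℤ} (W₂ W₃ : WeierstrassCurve ℤ)
    (h24 : (4096 : ℤ) ∣ c4 - W₂.c₄) (h26 : (4096 : ℤ) ∣ c6 - W₂.c₆)
    (h34 : (729 : ℤ) ∣ c4 - W₃.c₄) (h36 : (729 : ℤ) ∣ c6 - W₃.c₆) :
    ∃ W : WeierstrassCurve ℤ, W.c₄ = c4 ∧ W.c₆ = c6 := by
  obtain ⟨x1, p1, q1⟩ := exists_crt W₂.a₁ W₃.a₁
  obtain ⟨x2, p2, q2⟩ := exists_crt W₂.a₂ W₃.a₂
  obtain ⟨x3, p3, q3⟩ := exists_crt W₂.a₃ W₃.a₃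
  obtain ⟨x4, p4, q4⟩ := exists_crt W₂.a₄ W₃.a₄
  obtain ⟨x6, p6, q6⟩ := exists_crt W₂.a₆ W₃.a₆
  let V : WeierstrassCurve ℤ := ⟨x1, x2, x3, x4, x6⟩
  obtain ⟨g24, g26⟩ := c_congr_of_coeff_congr 4096 V W₂ p1 p2 p3 p4 p6
  obtain ⟨g34, g36⟩ := c_congr_of_coeff_congr 729 V W₃ q1 q2 q3 q4 q6
  push_cast at g24 g26 g34 g36
  have hcop : IsCoprime (4096 : ℤ) 729 := Int.isCoprime_iff_gcd_eq_one.2 (by norm_num)
  have h4 : (4096 * 729 : ℤ) ∣ V.c₄ - c4 :=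
    hcop.mul_dvd (by have h := dvd_sub g24 h24; rwa [sub_sub_sub_cancel_right] at h)
      (by have h := dvd_sub g34 h34; rwa [sub_sub_sub_cancel_right] at h)
  have h6 : (4096 * 729 : ℤ) ∣ c6 - V.c₆ :=
    hcop.mul_dvd (by have h := dvd_sub h26 g26; rwa [sub_sub_sub_cancel_right] at h)
      (by have h := dvd_sub h36 g36; rwa [sub_sub_sub_cancel_right] at h)
  obtain ⟨s, hs⟩ := h4
  obtain ⟨t, ht⟩ := h6
  refine ⟨⟨V.a₁, V.a₂, V.a₃, V.a₄ + 62208 * s,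
    V.a₆ + (72 * V.b₂ * (72 * s) - 3456 * t)⟩, ?_, ?_⟩
  · have e : (⟨V.a₁, V.a₂, V.a₃, V.a₄ + 62208 * s,
        V.a₆ + (72 * V.b₂ * (72 * s) - 3456 * t)⟩ : WeierstrassCurve ℤ).c₄
          = V.c₄ - 48 * (62208 * s) := by
      simp only [c₄, b₂, b₄]; ring
    rw [e]; linear_combination hs
  · have e : (⟨V.a₁, V.a₂, V.a₃, V.a₄ + 62208 * s,
        V.a₆ + (72 * V.b₂ * (72 * s) - 3456 * t)⟩ : WeierstrassCurve ℤ).c₆
          = V.c₆ + 72 * V.b₂ * (62208 * s) - 864 * (72 * V.b₂ * (72 * s) - 3456 * t) := by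
      simp only [c₆, b₂, b₄, b₆]; ring
    rw [e]; linear_combination -ht

/-- Scaling the coefficients scales the invariants. -/
theorem exists_scaled (W : WeierstrassCurve ℤ) (u : ℤ) :
    ∃ W' : WeierstrassCurve ℤ, W'.c₄ = u ^ 4 * W.c₄ ∧ W'.c₆ = u ^ 6 * W.c₆ :=
  ⟨⟨u * W.a₁, u ^ 2 * W.a₂, u ^ 3 * W.a₃, u ^ 4 * W.a₄, u ^ 6 * W.a₆⟩,
    by simp only [c₄, b₂, b₄]; ring, by simp only [c₆, b₂, b₄, b₆]; ring⟩

theorem exists_of_gcd_dvd {a b n : ℤ} (h : (Int.gcd a b : ℤ) ∣ n) :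
    ∃ x y : ℤ, n = a * x + b * y := by
  obtain ⟨k, rfl⟩ := h
  exact ⟨Int.gcdA a b * k, Int.gcdB a b * k, by rw [Int.gcd_eq_gcd_ab]; ring⟩

/-- Local models: the common argument. -/
theorem exists_local_model_aux {Q c4 c6 a2 : ℤ} (hb : Q ∣ (1 + 4 * a2) * c4 + c6)
    (hcop : IsCoprime c4 Q) (h48 : (Int.gcd 48 Q : ℤ) ∣ c4 ^ 3 - c6 ^ 2) (d : ℤ)
    (hdQ : d * (Int.gcd 864 Q : ℤ) ∣ Q) (hde : d * (Int.gcd 864 Q : ℤ) ∣ c4 ^ 3 - c6 ^ 2)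
    (hd : ∀ x : ℤ, d * (Int.gcd 864 Q : ℤ) ∣ 2 * x → (Int.gcd 864 Q : ℤ) ∣ x) :
    ∃ W : WeierstrassCurve ℤ, Q ∣ c4 - W.c₄ ∧ Q ∣ c6 - W.c₆ := by
  obtain ⟨k, hk⟩ := hb
  have hr4 : (Int.gcd 48 Q : ℤ) ∣ (1 + 4 * a2) ^ 2 - c4 := by
    have h : (Int.gcd 48 Q : ℤ) ∣ c4 ^ 2 * ((1 + 4 * a2) ^ 2 - c4) := by
      obtain ⟨m, hm⟩ := h48
      obtain ⟨j, hj⟩ := Int.gcd_dvd_right 48 Q
      exact ⟨-m + j * k * ((1 + 4 * a2) * c4 - c6), by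
        linear_combination ((1 + 4 * a2) * c4 - c6) * hk - hm
          + k * ((1 + 4 * a2) * c4 - c6) * hj⟩
    exact ((hcop.of_isCoprime_of_dvd_right (Int.gcd_dvd_right 48 Q)).symm.pow_right).dvd_of_dvd_mul_left h
  obtain ⟨a4, y, hy⟩ := exists_of_gcd_dvd hr4
  have hr6 : (Int.gcd 864 Q : ℤ) ∣ -(1 + 4 * a2) ^ 3 + 72 * (1 + 4 * a2) * a4 - c6 := by
    refine hd _ ?_
    have h : d * (Int.gcd 864 Q : ℤ) ∣
        c4 ^ 3 * (2 * (-(1 + 4 * a2) ^ 3 + 72 * (1 + 4 * a2) * a4 - c6)) := by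
      obtain ⟨j, hj⟩ := hdQ
      obtain ⟨m, hm⟩ := hde
      refine ⟨c6 * m + j * (k * (((1 + 4 * a2) * c4) ^ 2 - (1 + 4 * a2) * c4 * c6 + c6 ^ 2)
        - 3 * c4 ^ 3 * k - 3 * (1 + 4 * a2) * c4 ^ 3 * y), ?_⟩
      linear_combination c6 * hm + (k * (((1 + 4 * a2) * c4) ^ 2 - (1 + 4 * a2) * c4 * c6 + c6 ^ 2)
        - 3 * c4 ^ 3 * k - 3 * (1 + 4 * a2) * c4 ^ 3 * y) * hj
        + (((1 + 4 * a2) * c4) ^ 2 - (1 + 4 * a2) * c4 * c6 + c6 ^ 2 - 3 * c4 ^ 3) * hk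
        - 3 * (1 + 4 * a2) * c4 ^ 3 * hy
    exact ((hcop.of_isCoprime_of_dvd_right hdQ).symm.pow_right).dvd_of_dvd_mul_left h
  obtain ⟨a6, z, hz⟩ := exists_of_gcd_dvd hr6
  refine ⟨⟨1, a2, 0, a4, a6⟩, ⟨-y, ?_⟩, ⟨-z, ?_⟩⟩
  · simp only [c₄, b₂, b₄]; linear_combination -hy
  · simp only [c₆, b₂, b₄, b₆]; linear_combination -hz

/-- A local model at `2` for odd `c₄` and `c₆ ≡ 3 (mod 4)`. -/
theorem exists_local_model_two {c4 c6 : ℤ} (h4 : Odd c4) (h6 : c6 % 4 = 3)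
    (he : (2 : ℤ) ^ 6 ∣ c4 ^ 3 - c6 ^ 2) :
    ∃ W : WeierstrassCurve ℤ, (4096 : ℤ) ∣ c4 - W.c₄ ∧ (4096 : ℤ) ∣ c6 - W.c₆ := by
  have hcop : IsCoprime c4 (4096 : ℤ) := by
    obtain ⟨m, rfl⟩ := h4
    have : IsCoprime (2 * m + 1) ((2 : ℤ) ^ 12) := IsCoprime.pow_right ⟨1, -m, by ring⟩
    norm_num at this
    exact this
  obtain ⟨i, j, hij⟩ := id hcop
  have hc4 : c4 % 4 = 1 := by
    obtain ⟨m, hm⟩ := he
    have hsq : c6 ^ 2 % 4 = 1 := by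
      rw [pow_two, Int.mul_emod, h6]; rfl
    have h3 : c4 ^ 3 % 4 = 1 := by omega
    rcases (by have := Int.odd_iff.1 h4; omega : c4 % 4 = 1 ∨ c4 % 4 = 3) with h | h
    · exact h
    · rw [pow_succ, pow_two, Int.mul_emod, Int.mul_emod c4, h] at h3
      norm_num at h3
  have hi : i % 4 = 1 := by
    have h : i * c4 % 4 = 1 := by omega
    rw [Int.mul_emod, hc4] at h
    omega
  have hci : c6 * i % 4 = 3 := by rw [Int.mul_emod, h6, hi]; rfl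
  obtain ⟨a2, y, hy⟩ :=
    exists_of_gcd_dvd (show (Int.gcd 4 (4096 : ℤ) : ℤ) ∣ -(c6 * i) - 1 by
      norm_num [Int.gcd_def]; omega)
  refine exists_local_model_aux (a2 := a2) ⟨j * c6 - c4 * y, ?_⟩ hcop ?_ 2 ?_ ?_ ?_
  · linear_combination -c4 * hy - c6 * hij
  · norm_num [Int.gcd_def]; omega
  · norm_num [Int.gcd_def]
  · norm_num [Int.gcd_def]; omega
  · intro x; norm_num [Int.gcd_def]; omega

/-- A local model at `3` for `c₄` prime to `3`. -/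
theorem exists_local_model_three {c4 c6 : ℤ} (h4 : ¬ (3 : ℤ) ∣ c4)
    (he : (3 : ℤ) ^ 3 ∣ c4 ^ 3 - c6 ^ 2) :
    ∃ W : WeierstrassCurve ℤ, (729 : ℤ) ∣ c4 - W.c₄ ∧ (729 : ℤ) ∣ c6 - W.c₆ := by
  have hcop : IsCoprime c4 (729 : ℤ) := by
    have : IsCoprime c4 ((3 : ℤ) ^ 6) :=
      (((Int.prime_three).coprime_iff_not_dvd).2 h4).symm.pow_right
    norm_num at this
    exact this
  obtain ⟨i, j, hij⟩ := id hcop
  obtain ⟨a2, y, hy⟩ :=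
    exists_of_gcd_dvd (show (Int.gcd 4 (729 : ℤ) : ℤ) ∣ -(c6 * i) - 1 by norm_num [Int.gcd_def])
  refine exists_local_model_aux (a2 := a2) ⟨j * c6 - c4 * y, ?_⟩ hcop ?_ 1 ?_ ?_ ?_
  · linear_combination -c4 * hy - c6 * hij
  · norm_num [Int.gcd_def]; omega
  · norm_num [Int.gcd_def]
  · norm_num [Int.gcd_def]; omega
  · intro x; norm_num [Int.gcd_def]; omega

end Fermat.Agent.Residual
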