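/-
Integral semistable models in the mod 3 Hesse pencil with odd discriminant valuation at every bad
prime.

For a semistable model `W` with multiplicative reduction at `2`, an admissible parameter `(a, b)`
of the pencil through `W` keeps the local behaviour of `W` at the primes of `6 Δ` of odd valuation,
is close to the rational cusp at the primes of even valuation, and gives a squarefree value of the
quartic away from `6 Δ`.
-/
import Fermat.Agent.Residual.LocalCusp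
import Fermat.Agent.Residual.LocalGlue
import Fermat.Prelude.Def_FLTPrelim_Modularity
import Mathlib.NumberTheory.Padics.PadicVal.Basic
import Mathlib.Algebra.Field.ZMod

set_option autoImplicit false

open WeierstrassCurve

namespace Fermat.Agent.Residual

/-- The scaling of the model: `4` if the valuation at `2` has to be changed, else `1`. -/
def hesseScale (W : WeierstrassCurve ℤ) : ℤ :=
  if Even (padicValInt 2 W.Δ) then 4 else 1

/-- The offset from the cusp. -/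
def cuspStep (q : ℕ) : ℤ := if q = 2 then 8 else q

/-- Parameters giving a semistable curve with odd valuations. -/
structure Admissible (W : WeierstrassCurve ℤ) (a b : ℤ) : Prop where
  coprime : Int.gcd a b = 1
  squarefree : ∀ q : ℕ, q.Prime → ¬ (q : ℤ) ∣ 6 * W.Δ →
    ¬ (q : ℤ) ^ 2 ∣ hesseD W.c₄ W.c₆ a b
  keep : ∀ q : ℕ, q.Prime → (q : ℤ) ∣ 6 * W.Δ →
    ¬ ((q : ℤ) ∣ W.Δ ∧ Even (padicValInt q W.Δ)) →
    (q : ℤ) ^ 24 ∣ a - hesseScale W ∧ (q : ℤ) ^ 24 ∣ b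
  cusp : ∀ q : ℕ, q.Prime → (q : ℤ) ∣ W.Δ → Even (padicValInt q W.Δ) →
    (q : ℤ) ^ 24 ∣ a - (3 * W.c₆ + cuspStep q) ∧ (q : ℤ) ^ 24 ∣ b - W.c₄

theorem c₄_cube_sub_c₆_sq (W : WeierstrassCurve ℤ) : W.c₄ ^ 3 - W.c₆ ^ 2 = 1728 * W.Δ := by
  simp only [c₄, c₆, Δ, b₂, b₄, b₆, b₈]; ring

theorem not_dvd_c₆ {W : WeierstrassCurve ℤ} {q : ℕ} (hq : q.Prime) (hΔ : (q : ℤ) ∣ W.Δ)
    (h4 : ¬ (q : ℤ) ∣ W.c₄) : ¬ (q : ℤ) ∣ W.c₆ := by
  intro h
  refine h4 ((Nat.prime_iff_prime_int.1 hq).dvd_of_dvd_pow (n := 3) ?_)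
  rw [show W.c₄ ^ 3 = 1728 * W.Δ + W.c₆ ^ 2 by linear_combination c₄_cube_sub_c₆_sq W]
  exact dvd_add (dvd_mul_of_dvd_right hΔ _) (dvd_pow h two_ne_zero)

theorem c₆_emod_four {W : WeierstrassCurve ℤ} (h4 : ¬ (2 : ℤ) ∣ W.c₄) : W.c₆ % 4 = 3 := by
  have h1 : W.a₁ % 2 = 1 := by
    by_contra hne
    obtain ⟨k, hk⟩ : (2 : ℤ) ∣ W.a₁ := by omega
    refine h4 ⟨2 * (2 * (k ^ 2 + W.a₂) ^ 2 ) * 2 - 12 * W.b₄ * 1, ?_⟩
    simp only [c₄, b₂, hk]; ring
  obtain ⟨k, hk⟩ : ∃ k, W.a₁ = 2 * k + 1 := ⟨W.a₁ / 2, by omega⟩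
  obtain ⟨m, hm⟩ : ∃ m, W.c₆ = -1 + 4 * m := by
    refine ⟨-3 * (k ^ 2 + k + W.a₂) - 12 * (k ^ 2 + k + W.a₂) ^ 2
      - 16 * (k ^ 2 + k + W.a₂) ^ 3 + 9 * W.b₂ * W.b₄ - 54 * W.b₆, ?_⟩
    simp only [c₆, b₂, hk]; ring
  omega

theorem hesseScale_eq_one_or_four (W : WeierstrassCurve ℤ) :
    hesseScale W = 1 ∨ hesseScale W = 4 := by
  unfold hesseScale; split <;> simp

theorem not_dvd_hesseScale {W : WeierstrassCurve ℤ} {q : ℕ} (hq : q.Prime)
    (h : q ≠ 2 ∨ Odd (padicValInt 2 W.Δ)) : ¬ (q : ℤ) ∣ hesseScale W := by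
  rcases hesseScale_eq_one_or_four W with h1 | h1
  · rw [h1]; exact (Nat.prime_iff_prime_int.1 hq).not_dvd_one
  · intro hd
    have hev : Even (padicValInt 2 W.Δ) := by
      by_contra hne
      rw [hesseScale, if_neg hne] at h1
      norm_num at h1
    rw [h1] at hd
    rcases h with h | h
    · have h2 : (q : ℤ) ∣ 2 :=
        (Nat.prime_iff_prime_int.1 hq).dvd_of_dvd_pow (n := 2) (by norm_num; exact hd)
      exact h ((Nat.prime_dvd_prime_iff_eq hq Nat.prime_two).1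
        (Int.natCast_dvd_natCast.1 (by simpa using h2)))
    · exact (Nat.not_even_iff_odd.2 h) hev

theorem padicValInt_eq_of_dvd {q : ℕ} [Fact q.Prime] {x : ℤ} {k : ℕ} (h1 : (q : ℤ) ^ k ∣ x)
    (h2 : ¬ (q : ℤ) ^ (k + 1) ∣ x) : padicValInt q x = k := by
  have hx : x ≠ 0 := fun h => h2 (h ▸ dvd_zero _)
  rw [padicValInt_dvd_iff] at h1 h2
  rcases h1 with h | h
  · exact absurd h hx
  · push Not at h2
    omega

theorem padicValInt_pow {q : ℕ} [Fact q.Prime] (x : ℤ) (n : ℕ) :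
    padicValInt q (x ^ n) = n * padicValInt q x := by
  simp [padicValInt, Int.natAbs_pow, padicValNat.pow]

theorem padicValInt_two_pow_scale (n : ℕ) : padicValInt 2 ((4 : ℤ) ^ n) = 2 * n := by
  have : Fact (Nat.Prime 2) := ⟨Nat.prime_two⟩
  rw [show (4 : ℤ) ^ n = ((2 : ℕ) : ℤ) ^ (2 * n) by rw [pow_mul]; norm_num, padicValInt_pow,
    padicValInt.self Nat.prime_two.one_lt, mul_one]

section

variable {W : WeierstrassCurve ℤ} {a b : ℤ}

theorem Admissible.keep_congr (h : Admissible W a b) {q : ℕ} (hq : q.Prime)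
    (h6 : (q : ℤ) ∣ 6 * W.Δ) (hk : ¬ ((q : ℤ) ∣ W.Δ ∧ Even (padicValInt q W.Δ))) :
    (q : ℤ) ^ 24 ∣ hesseC4 W.c₄ W.c₆ a b - hesseScale W ^ 4 * W.c₄ ∧
      (q : ℤ) ^ 24 ∣ hesseC6 W.c₄ W.c₆ a b - hesseScale W ^ 6 * W.c₆ ∧
      (q : ℤ) ^ 24 ∣ hesseD W.c₄ W.c₆ a b - hesseScale W ^ 4 := by
  obtain ⟨ha, hb⟩ := h.keep q hq h6 hk
  have hb' : ((q ^ 24 : ℕ) : ℤ) ∣ b - 0 := by push_cast; simpa using hb
  have ha' : ((q ^ 24 : ℕ) : ℤ) ∣ a - hesseScale W := by push_cast; exact ha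
  obtain ⟨e4, e6, eD⟩ := hesse_one_zero W.c₄ W.c₆
  have hC := hesseC4_smul W.c₄ W.c₆ (hesseScale W) 1 0
  have hC6 := hesseC6_smul W.c₄ W.c₆ (hesseScale W) 1 0
  have hD := hesseD_smul W.c₄ W.c₆ (hesseScale W) 1 0
  rw [mul_one, mul_zero] at hC hC6 hD
  rw [e4] at hC
  rw [e6] at hC6
  rw [eD, mul_one] at hD
  refine ⟨?_, ?_, ?_⟩
  · have := hesseC4_congr (A := W.c₄) (B := W.c₆) ha' hb'
    rw [hC] at this; push_cast at this; exact this
  · have := hesseC6_congr (A := W.c₄) (B := W.c₆) ha' hb'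
    rw [hC6] at this; push_cast at this; exact this
  · have := hesseD_congr (A := W.c₄) (B := W.c₆) ha' hb'
    rw [hD] at this; push_cast at this; exact this

theorem Admissible.cusp_odd_facts (h : Admissible W a b) (hs : W.IsSemistableModel)
    (hΔ0 : W.Δ ≠ 0) {q : ℕ} (hq : q.Prime) (hq2 : q ≠ 2) (hd : (q : ℤ) ∣ W.Δ)
    (hev : Even (padicValInt q W.Δ)) :
    (q : ℤ) ∣ hesseD W.c₄ W.c₆ a b ∧ ¬ (q : ℤ) ^ 2 ∣ hesseD W.c₄ W.c₆ a b ∧
      ¬ (q : ℤ) ∣ hesseC4 W.c₄ W.c₆ a b := by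
  have := Fact.mk hq
  obtain ⟨ha, hb⟩ := h.cusp q hq hd hev
  rw [cuspStep, if_neg hq2] at ha
  have he : (q : ℤ) ^ 2 ∣ W.c₄ ^ 3 - W.c₆ ^ 2 := by
    rw [c₄_cube_sub_c₆_sq]
    refine dvd_mul_of_dvd_right ?_ _
    have h1 : 1 ≤ padicValInt q W.Δ := by
      rcases (padicValInt_dvd_iff 1 W.Δ).1 (by rwa [pow_one]) with h | h
      · exact absurd h hΔ0
      · exact h
    obtain ⟨k, hk⟩ := hev
    exact (padicValInt_dvd_iff 2 W.Δ).2 (Or.inr (by omega))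
  obtain ⟨h1, h2, h3, -⟩ := cusp_odd hq hq2 he (hs q hq hd)
    (not_dvd_c₆ hq hd (hs q hq hd)) (N := 24) (by norm_num) ha hb
  exact ⟨h1, h2, h3⟩

theorem Admissible.cusp_two_facts (h : Admissible W a b) (hs : W.IsSemistableModel)
    (hΔ0 : W.Δ ≠ 0) (h2 : (2 : ℤ) ∣ W.Δ) (hev : Even (padicValInt 2 W.Δ)) :
    ((2 : ℤ) ^ 9 ∣ hesseD W.c₄ W.c₆ a b ∧ ¬ (2 : ℤ) ^ 10 ∣ hesseD W.c₄ W.c₆ a b) ∧
      (∃ k, hesseC4 W.c₄ W.c₆ a b = 2 ^ 8 * k ∧ Odd k) ∧
      ∃ k, hesseC6 W.c₄ W.c₆ a b = 2 ^ 12 * k ∧ k % 4 = 3 := by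
  have := Fact.mk Nat.prime_two
  have h4 : ¬ (2 : ℤ) ∣ W.c₄ := hs 2 Nat.prime_two h2
  obtain ⟨ha, hb⟩ := h.cusp 2 Nat.prime_two h2 hev
  rw [cuspStep, if_pos rfl] at ha
  have he : (2 : ℤ) ^ 8 ∣ W.c₄ ^ 3 - W.c₆ ^ 2 := by
    rw [c₄_cube_sub_c₆_sq]
    have h1 : 1 ≤ padicValInt 2 W.Δ := by
      rcases (padicValInt_dvd_iff (p := 2) 1 W.Δ).1 (by simpa using h2) with h | h
      · exact absurd h hΔ0
      · exact h
    obtain ⟨k, hk⟩ := hev
    obtain ⟨m, hm⟩ := (padicValInt_dvd_iff (p := 2) 2 W.Δ).2 (Or.inr (by omega))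
    push_cast at hm
    exact ⟨27 * m, by rw [hm]; ring⟩
  exact cusp_two he (Int.odd_iff.2 (by omega)) (c₆_emod_four h4) (N := 24) (by norm_num)
    (by exact_mod_cast ha) (by exact_mod_cast hb)

theorem Admissible.hesseD_ne_zero (h : Admissible W a b) (hs : W.IsSemistableModel)
    (hΔ0 : W.Δ ≠ 0) (h2 : (2 : ℤ) ∣ W.Δ) : hesseD W.c₄ W.c₆ a b ≠ 0 := by
  intro hD
  by_cases hev : Even (padicValInt 2 W.Δ)
  · exact (h.cusp_two_facts hs hΔ0 h2 hev).1.2 (hD ▸ dvd_zero _)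
  · have h3 := (h.keep_congr Nat.prime_two (dvd_mul_of_dvd_right h2 _) (fun h => hev h.2)).2.2
    rw [hD, hesseScale, if_neg hev] at h3
    norm_num at h3

theorem Admissible.scale_dvd (h : Admissible W a b) (hs : W.IsSemistableModel)
    (hΔ0 : W.Δ ≠ 0) (h2 : (2 : ℤ) ∣ W.Δ) :
    hesseScale W ^ 4 ∣ hesseC4 W.c₄ W.c₆ a b ∧ hesseScale W ^ 6 ∣ hesseC6 W.c₄ W.c₆ a b := by
  by_cases hev : Even (padicValInt 2 W.Δ)
  · obtain ⟨-, ⟨k, hk, -⟩, k', hk', -⟩ := h.cusp_two_facts hs hΔ0 h2 hev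
    rw [hesseScale, if_pos hev, hk, hk']
    exact ⟨⟨k, by norm_num⟩, ⟨k', by norm_num⟩⟩
  · simp [hesseScale, if_neg hev]

/-- Away from `6 Δ`, a prime dividing the quartic does not divide `c₄` of the pencil. -/
theorem Admissible.not_dvd_hesseC4 (h : Admissible W a b) {q : ℕ} (hq : q.Prime)
    (h6 : ¬ (q : ℤ) ∣ 6 * W.Δ) (hD : (q : ℤ) ∣ hesseD W.c₄ W.c₆ a b) :
    ¬ (q : ℤ) ∣ hesseC4 W.c₄ W.c₆ a b := by
  intro hC
  have := Fact.mk hq
  have hp : Prime (q : ℤ) := Nat.prime_iff_prime_int.1 hq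
  have hne : ∀ x : ℤ, ¬ (q : ℤ) ∣ x → (x : ZMod q) ≠ 0 := fun x hx h0 =>
    hx ((ZMod.intCast_zmod_eq_zero_iff_dvd x q).1 h0)
  have h23 : ¬ (q : ℤ) ∣ 2 ∧ ¬ (q : ℤ) ∣ 3 :=
    ⟨fun h => h6 (dvd_mul_of_dvd_left (h.trans (by norm_num)) _),
      fun h => h6 (dvd_mul_of_dvd_left (h.trans (by norm_num)) _)⟩
  have hAB : ¬ (q : ℤ) ∣ W.c₄ ^ 3 - W.c₆ ^ 2 := by
    rw [c₄_cube_sub_c₆_sq]
    intro hd
    rcases hp.dvd_or_dvd hd with hd | hd
    · rw [show (1728 : ℤ) = 2 ^ 6 * 3 ^ 3 by norm_num] at hd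
      exact (hp.dvd_or_dvd hd).elim (fun h => h23.1 (hp.dvd_of_dvd_pow h))
        (fun h => h23.2 (hp.dvd_of_dvd_pow h))
    · exact h6 (dvd_mul_of_dvd_right hd _)
  have hz := hesse_no_common_zero (K := ZMod q) (A := (W.c₄ : ZMod q)) (B := (W.c₆ : ZMod q))
    (l := (a : ZMod q)) (m := (b : ZMod q))
    (by exact_mod_cast hne 2 h23.1) (by exact_mod_cast hne 3 h23.2)
    (by exact_mod_cast hne _ hAB)
    (by
      rw [← eq_intCast (Int.castRingHom (ZMod q)) a, ← eq_intCast (Int.castRingHom (ZMod q)) b,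
        ← eq_intCast (Int.castRingHom (ZMod q)) W.c₄, ← eq_intCast (Int.castRingHom (ZMod q)) W.c₆,
        ← map_hesseD, eq_intCast]
      exact (ZMod.intCast_zmod_eq_zero_iff_dvd _ q).2 hD)
    (by
      rw [← eq_intCast (Int.castRingHom (ZMod q)) a, ← eq_intCast (Int.castRingHom (ZMod q)) b,
        ← eq_intCast (Int.castRingHom (ZMod q)) W.c₄, ← eq_intCast (Int.castRingHom (ZMod q)) W.c₆,
        ← map_hesseC4, eq_intCast]
      exact (ZMod.intCast_zmod_eq_zero_iff_dvd _ q).2 hC)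
  have hab : (q : ℤ) ∣ (Int.gcd a b : ℤ) :=
    Int.dvd_coe_gcd ((ZMod.intCast_zmod_eq_zero_iff_dvd a q).1 hz.1)
      ((ZMod.intCast_zmod_eq_zero_iff_dvd b q).1 hz.2)
  rw [h.coprime] at hab
  exact hp.not_dvd_one (by simpa using hab)

/-- The integral model of the member of the pencil at an admissible parameter. -/
theorem Admissible.exists_model (h : Admissible W a b) (hs : W.IsSemistableModel)
    (hΔ0 : W.Δ ≠ 0) (h2 : (2 : ℤ) ∣ W.Δ) :
    ∃ W' : WeierstrassCurve ℤ, W'.Δ ≠ 0 ∧ W'.IsSemistableModel ∧ (2 : ℤ) ∣ W'.Δ ∧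
      (∀ q : ℕ, q.Prime → (q : ℤ) ∣ W'.Δ → Odd (padicValInt q W'.Δ)) ∧
      hesseScale W ^ 4 * W'.c₄ = hesseC4 W.c₄ W.c₆ a b ∧
      hesseScale W ^ 6 * W'.c₆ = hesseC6 W.c₄ W.c₆ a b ∧
      hesseScale W ^ 12 * W'.Δ = W.Δ * hesseD W.c₄ W.c₆ a b ^ 3 := by
  have hu0 : hesseScale W ≠ 0 := by
    rcases hesseScale_eq_one_or_four W with h | h <;> simp [h]
  obtain ⟨⟨c4, hc4⟩, ⟨c6, hc6⟩⟩ := h.scale_dvd hs hΔ0 h2
  -- local models at 2 and 3
  have hrel : hesseScale W ^ 12 * (c4 ^ 3 - c6 ^ 2) =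
      1728 * (W.Δ * hesseD W.c₄ W.c₆ a b ^ 3) := by
    have hdisc := hesse_disc W.c₄ W.c₆ a b
    rw [hc4, hc6, c₄_cube_sub_c₆_sq] at hdisc
    linear_combination hdisc
  obtain ⟨W₂, h24, h26⟩ : ∃ V : WeierstrassCurve ℤ,
      (4096 : ℤ) ∣ c4 - V.c₄ ∧ (4096 : ℤ) ∣ c6 - V.c₆ := by
    by_cases hev : Even (padicValInt 2 W.Δ)
    · obtain ⟨⟨⟨r, hr⟩, -⟩, ⟨k, hk, hko⟩, k', hk', hk4⟩ := h.cusp_two_facts hs hΔ0 h2 hev
      have hu : hesseScale W = 4 := by rw [hesseScale, if_pos hev]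
      rw [hu] at hc4 hc6 hrel
      obtain rfl : c4 = k := by rw [hk] at hc4; norm_num at hc4; omega
      obtain rfl : c6 = k' := by rw [hk'] at hc6; norm_num at hc6; omega
      refine exists_local_model_two hko hk4 ⟨216 * W.Δ * r ^ 3, ?_⟩
      rw [hr] at hrel
      norm_num at hrel ⊢
      refine mul_left_cancel₀ (show (16777216 : ℤ) ≠ 0 by norm_num) ?_
      linear_combination hrel
    · obtain ⟨e4, e6, -⟩ :=
        h.keep_congr Nat.prime_two (dvd_mul_of_dvd_right h2 _) (fun h => hev h.2)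
      have hu : hesseScale W = 1 := by rw [hesseScale, if_neg hev]
      rw [hc4, hu] at e4
      rw [hc6, hu] at e6
      norm_num at e4 e6
      exact ⟨W, dvd_trans (by norm_num) e4, dvd_trans (by norm_num) e6⟩
  have h3p : Prime (3 : ℤ) := Int.prime_three
  have hu3 : ¬ (3 : ℤ) ∣ hesseScale W := by
    simpa using not_dvd_hesseScale (W := W) Nat.prime_three (Or.inl (by norm_num))
  obtain ⟨W₃, h34, h36⟩ : ∃ V : WeierstrassCurve ℤ,
      (729 : ℤ) ∣ c4 - V.c₄ ∧ (729 : ℤ) ∣ c6 - V.c₆ := by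
    by_cases hev : (3 : ℤ) ∣ W.Δ ∧ Even (padicValInt 3 W.Δ)
    · obtain ⟨-, -, h4⟩ := h.cusp_odd_facts hs hΔ0 Nat.prime_three (by norm_num) hev.1 hev.2
      refine exists_local_model_three (fun hd => h4 (by rw [hc4]; exact dvd_mul_of_dvd_right hd _))
        ?_
      refine ((h3p.coprime_iff_not_dvd.2 hu3).pow (m := 3) (n := 12)).dvd_of_dvd_mul_left ?_
      rw [hrel]
      exact dvd_mul_of_dvd_left (by norm_num) _
    · obtain ⟨e4, e6, -⟩ :=
        h.keep_congr Nat.prime_three (dvd_mul_of_dvd_left (by norm_num) _) hev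
      push_cast at e4 e6
      rw [hc4, ← mul_sub] at e4
      rw [hc6, ← mul_sub] at e6
      have k4 := ((h3p.coprime_iff_not_dvd.2 hu3).pow (m := 24) (n := 4)).dvd_of_dvd_mul_left e4
      have k6 := ((h3p.coprime_iff_not_dvd.2 hu3).pow (m := 24) (n := 6)).dvd_of_dvd_mul_left e6
      exact ⟨W, dvd_trans (by norm_num) k4, dvd_trans (by norm_num) k6⟩
  obtain ⟨W', hW4, hW6⟩ := exists_model_of_local W₂ W₃ h24 h26 h34 h36
  have hΔ' : hesseScale W ^ 12 * W'.Δ = W.Δ * hesseD W.c₄ W.c₆ a b ^ 3 := by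
    have h' := c₄_cube_sub_c₆_sq W'
    rw [hW4, hW6] at h'
    rw [h'] at hrel
    have : (1728 : ℤ) * (hesseScale W ^ 12 * W'.Δ) =
        1728 * (W.Δ * hesseD W.c₄ W.c₆ a b ^ 3) := by linear_combination hrel
    exact mul_left_cancel₀ (by norm_num) this
  have hD0 := h.hesseD_ne_zero hs hΔ0 h2
  have hW'0 : W'.Δ ≠ 0 := fun h0 => by
    rw [h0, mul_zero] at hΔ'
    exact mul_ne_zero hΔ0 (pow_ne_zero _ hD0) hΔ'.symm
  -- valuations
  have hval : ∀ (q : ℕ) [Fact q.Prime],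
      12 * padicValInt q (hesseScale W) + padicValInt q W'.Δ =
        padicValInt q W.Δ + 3 * padicValInt q (hesseD W.c₄ W.c₆ a b) := by
    intro q _
    have := congrArg (padicValInt q) hΔ'
    rwa [padicValInt.mul (pow_ne_zero _ hu0) hW'0, padicValInt.mul hΔ0 (pow_ne_zero _ hD0),
      padicValInt_pow, padicValInt_pow] at this
  have key : ∀ q : ℕ, q.Prime → (q : ℤ) ∣ W'.Δ →
      Odd (padicValInt q W'.Δ) ∧ ¬ (q : ℤ) ∣ W'.c₄ := by
    intro q hq hd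
    have := Fact.mk hq
    have hp : Prime (q : ℤ) := Nat.prime_iff_prime_int.1 hq
    have hv := hval q
    have hpos : 1 ≤ padicValInt q W'.Δ := by
      rcases (padicValInt_dvd_iff 1 W'.Δ).1 (by rwa [pow_one]) with h | h
      · exact absurd h hW'0
      · exact h
    by_cases h6 : (q : ℤ) ∣ 6 * W.Δ
    · by_cases hcusp : (q : ℤ) ∣ W.Δ ∧ Even (padicValInt q W.Δ)
      · obtain ⟨k, hk⟩ := hcusp.2
        by_cases hq2 : q = 2
        · subst hq2
          obtain ⟨⟨d1, d2⟩, ⟨k4, hk4, hk4o⟩, -⟩ := h.cusp_two_facts hs hΔ0 h2 hcusp.2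
          have hu : hesseScale W = 4 := by rw [hesseScale, if_pos hcusp.2]
          rw [hu, padicValInt_eq_of_dvd (q := 2) (x := hesseD W.c₄ W.c₆ a b) (k := 9) (by exact_mod_cast d1)
            (by exact_mod_cast d2),
            show padicValInt 2 (4 : ℤ) = 2 by simpa using padicValInt_two_pow_scale 1] at hv
          refine ⟨⟨k + 1, by omega⟩, ?_⟩
          rw [hW4]
          rw [hk4, hu] at hc4
          norm_num at hc4
          obtain rfl : k4 = c4 := by omega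
          simpa [← even_iff_two_dvd] using hk4o
        · obtain ⟨d1, d2, d4⟩ := h.cusp_odd_facts hs hΔ0 hq hq2 hcusp.1 hcusp.2
          rw [padicValInt_eq_of_dvd (x := hesseD W.c₄ W.c₆ a b) (k := 1) (by rwa [pow_one]) d2,
            padicValInt.eq_zero_of_not_dvd (not_dvd_hesseScale (W := W) hq (Or.inl hq2))] at hv
          refine ⟨⟨k + 1, by omega⟩, fun hd4 => d4 ?_⟩
          rw [hc4, ← hW4]
          exact dvd_mul_of_dvd_right hd4 _
      · obtain ⟨e4, -, eD⟩ := h.keep_congr hq h6 hcusp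
        have hqu : ¬ (q : ℤ) ∣ hesseScale W := by
          by_cases hq2 : q = 2
          · subst hq2
            exact not_dvd_hesseScale hq (Or.inr (Nat.not_even_iff_odd.1 fun he => hcusp ⟨h2, he⟩))
          · exact not_dvd_hesseScale hq (Or.inl hq2)
        have hq24 : (q : ℤ) ∣ (q : ℤ) ^ 24 := dvd_pow_self _ (by norm_num)
        have hDu : ¬ (q : ℤ) ∣ hesseD W.c₄ W.c₆ a b := fun hh => hqu (hp.dvd_of_dvd_pow (n := 4)
          (by simpa using dvd_sub hh (hq24.trans eD)))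
        rw [padicValInt.eq_zero_of_not_dvd hDu, padicValInt.eq_zero_of_not_dvd hqu] at hv
        have hqΔ : (q : ℤ) ∣ W.Δ := by
          have := (padicValInt_dvd_iff (p := q) 1 W.Δ).2 (Or.inr (by omega))
          rwa [pow_one] at this
        refine ⟨?_, fun hd4 => hs q hq hqΔ ?_⟩
        · rw [show padicValInt q W'.Δ = padicValInt q W.Δ by omega]
          exact Nat.not_even_iff_odd.1 fun he => hcusp ⟨hqΔ, he⟩
        · have hx : (q : ℤ) ∣ hesseScale W ^ 4 * W.c₄ := by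
            rw [show hesseScale W ^ 4 * W.c₄ = hesseC4 W.c₄ W.c₆ a b -
              (hesseC4 W.c₄ W.c₆ a b - hesseScale W ^ 4 * W.c₄) by ring]
            exact dvd_sub (by rw [hc4, ← hW4]; exact dvd_mul_of_dvd_right hd4 _) (hq24.trans e4)
          exact (hp.dvd_or_dvd hx).resolve_left fun hh => hqu (hp.dvd_of_dvd_pow hh)
    · have hq2 : q ≠ 2 := fun h => h6 (by subst h; exact dvd_mul_of_dvd_left (by norm_num) _)
      have hqu := not_dvd_hesseScale (W := W) hq (Or.inl hq2)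
      have hqΔ : ¬ (q : ℤ) ∣ W.Δ := fun hh => h6 (dvd_mul_of_dvd_right hh _)
      have hDd : (q : ℤ) ∣ hesseD W.c₄ W.c₆ a b := by
        by_contra hh
        rw [padicValInt.eq_zero_of_not_dvd hh, padicValInt.eq_zero_of_not_dvd hqu,
          padicValInt.eq_zero_of_not_dvd hqΔ] at hv
        omega
      rw [padicValInt_eq_of_dvd (x := hesseD W.c₄ W.c₆ a b) (k := 1) (by rwa [pow_one]) (h.squarefree q hq h6),
        padicValInt.eq_zero_of_not_dvd hqu, padicValInt.eq_zero_of_not_dvd hqΔ] at hv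
      refine ⟨⟨1, by omega⟩, fun hd4 => h.not_dvd_hesseC4 hq h6 hDd ?_⟩
      rw [hc4, ← hW4]
      exact dvd_mul_of_dvd_right hd4 _
  have h2' : (2 : ℤ) ∣ W'.Δ := by
    have := Fact.mk Nat.prime_two
    have h1 : 1 ≤ padicValInt 2 W.Δ := by
      rcases (padicValInt_dvd_iff (p := 2) 1 W.Δ).1 (by simpa using h2) with h | h
      · exact absurd h hΔ0
      · exact h
    have hv := hval 2
    have hpos : 1 ≤ padicValInt 2 W'.Δ := by
      by_cases hev : Even (padicValInt 2 W.Δ)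
      · obtain ⟨⟨d1, d2⟩, -⟩ := h.cusp_two_facts hs hΔ0 h2 hev
        have hu : hesseScale W = 4 := by rw [hesseScale, if_pos hev]
        rw [hu, padicValInt_eq_of_dvd (q := 2) (x := hesseD W.c₄ W.c₆ a b) (k := 9) (by exact_mod_cast d1)
          (by exact_mod_cast d2),
          show padicValInt 2 (4 : ℤ) = 2 by simpa using padicValInt_two_pow_scale 1] at hv
        omega
      · rw [show hesseScale W = 1 by rw [hesseScale, if_neg hev], padicValInt.one] at hv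
        omega
    simpa using (padicValInt_dvd_iff (p := 2) 1 W'.Δ).2 (Or.inr hpos)
  exact ⟨W', hW'0, fun q hq hd => (key q hq hd).2, h2', fun q hq hd => (key q hq hd).1,
    by rw [hW4, hc4], by rw [hW6, hc6], hΔ'⟩

end

end Fermat.Agent.Residual
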