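/-
Existence of admissible parameters in the mod 3 Hesse pencil, given a squarefree-values statement
for binary quartics.
-/
import Fermat.Agent.Residual.Local
import Mathlib.Algebra.Polynomial.BigOperators
import Mathlib.Data.Real.Basic
import Mathlib.FieldTheory.Separable
import Mathlib.Topology.Algebra.Polynomial
import Mathlib.Topology.MetricSpace.Pseudo.Defs
import Mathlib.Tactic

set_option autoImplicit false

open WeierstrassCurve

namespace Fermat.Agent.Residual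

/-- The coefficients of the quartic of the pencil. -/
def hesseCoeff (A B : ℤ) : Fin 5 → ℤ := ![-3 * A ^ 2, -8 * B, -6 * A, 0, 1]

theorem sum_hesseCoeff (A B a b : ℤ) :
    ∑ i : Fin 5, hesseCoeff A B i * a ^ (i : ℕ) * b ^ (4 - (i : ℕ)) = hesseD A B a b := by
  simp [Fin.sum_univ_five, hesseCoeff, hesseD]
  ring

open Polynomial in
theorem separable_hesseCoeff {A B : ℤ} (h : A ^ 3 - B ^ 2 ≠ 0) :
    (∑ i : Fin 5, monomial (i : ℕ) (hesseCoeff A B i : ℚ)).Separable := by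
  have he : (∑ i : Fin 5, monomial (i : ℕ) (hesseCoeff A B i : ℚ)) =
      hesseD (C (A : ℚ)) (C (B : ℚ)) X 1 := by
    simp [Fin.sum_univ_five, hesseCoeff, hesseD, ← C_mul_X_pow_eq_monomial]
    ring
  have hd : derivative (hesseD (C (A : ℚ)) (C (B : ℚ)) X 1) =
      4 * (X ^ 3 - 3 * C (A : ℚ) * X - 2 * C (B : ℚ)) := by
    simp [hesseD, derivative_pow]
    simp [map_ofNat]
    ring
  rw [he, Polynomial.separable_def, hd]
  have hk : (12 * ((A : ℚ) ^ 3 - (B : ℚ) ^ 2)) ≠ 0 :=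
    mul_ne_zero (by norm_num) (by exact_mod_cast h)
  set c : ℚ[X] := C (12 * ((A : ℚ) ^ 3 - (B : ℚ) ^ 2))⁻¹ with hc
  have hcmul : c * (12 * (C (A : ℚ) ^ 3 - C (B : ℚ) ^ 2)) = 1 := by
    rw [hc, show (12 : ℚ[X]) * (C (A : ℚ) ^ 3 - C (B : ℚ) ^ 2) =
      C (12 * ((A : ℚ) ^ 3 - (B : ℚ) ^ 2)) by simp [map_ofNat],
      ← C_mul, inv_mul_cancel₀ hk, C_1]
  have h4 : C (4 : ℚ)⁻¹ * (4 : ℚ[X]) = 1 := by
    rw [show (4 : ℚ[X]) = C (4 : ℚ) by simp [map_ofNat], ← C_mul]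
    norm_num
  refine ⟨c * (X ^ 2 - 4 * C (A : ℚ)),
    c * C (4 : ℚ)⁻¹ * (6 * C (B : ℚ) + 7 * C (A : ℚ) * X - X ^ 3), ?_⟩
  unfold hesseD
  linear_combination hcmul +
    c * ((6 * C (B : ℚ) + 7 * C (A : ℚ) * X - X ^ 3) *
      (X ^ 3 - 3 * C (A : ℚ) * X - 2 * C (B : ℚ))) * h4

/-- The squarefree-values statement used to find admissible parameters. -/
def SquarefreeValues (c : Fin 5 → ℤ) : Prop :=
  ∃ S0 : Finset ℕ, ∀ (m : ℕ) (a0 b0 : ℤ), 0 < m → Nat.gcd (Int.gcd a0 b0) m = 1 →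
    ∀ x y : ℝ, x < y → ∀ B0 : ℤ,
      ∃ a b : ℤ, B0 ≤ b ∧ 0 < b ∧ Int.gcd a b = 1 ∧ (m : ℤ) ∣ a - a0 ∧ (m : ℤ) ∣ b - b0 ∧
        x < (a : ℝ) / b ∧ (a : ℝ) / b < y ∧
        (∑ i : Fin 5, c i * a ^ (i : ℕ) * b ^ (4 - (i : ℕ))) ≠ 0 ∧
        ∀ q : ℕ, q.Prime → q ∉ S0 → ¬ q ∣ m →
          ¬ ((q : ℤ) ^ 2 ∣ ∑ i : Fin 5, c i * a ^ (i : ℕ) * b ^ (4 - (i : ℕ)))

theorem exists_crt_finset (S : Finset ℕ) (hS : ∀ q ∈ S, q.Prime) (k : ℕ) (f : ℕ → ℤ) :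
    ∃ z : ℤ, ∀ q ∈ S, (q : ℤ) ^ k ∣ z - f q := by
  induction S using Finset.induction_on with
  | empty => exact ⟨0, by simp⟩
  | @insert p S hp ih =>
    obtain ⟨z, hz⟩ := ih fun q hq => hS q (Finset.mem_insert_of_mem hq)
    have hcop : IsCoprime ((p : ℤ) ^ k) (∏ q ∈ S, (q : ℤ) ^ k) := by
      refine IsCoprime.prod_right fun q hq => IsCoprime.pow ?_
      exact Int.isCoprime_iff_gcd_eq_one.2 ((Nat.coprime_primes (hS p (Finset.mem_insert_self p S))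
        (hS q (Finset.mem_insert_of_mem hq))).2 fun h => hp (h ▸ hq))
    obtain ⟨u, v, huv⟩ := hcop
    refine ⟨f p * (v * ∏ q ∈ S, (q : ℤ) ^ k) + z * (u * (p : ℤ) ^ k), fun q hq => ?_⟩
    rcases Finset.mem_insert.1 hq with rfl | hq
    · exact ⟨(z - f q) * u, by linear_combination f q * huv⟩
    · obtain ⟨w, hw⟩ := hz q hq
      obtain ⟨r, hr⟩ : (q : ℤ) ^ k ∣ ∏ q ∈ S, (q : ℤ) ^ k := Finset.dvd_prod_of_mem _ hq
      exact ⟨(f p - z) * v * r + w, by linear_combination z * huv + hw + (f p - z) * v * hr⟩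

/-- A real interval on which the quartic has the sign opposite to that of `s`. -/
theorem exists_interval (A B : ℤ) (hA : A ≠ 0) (s : ℤ) (hs : s ≠ 0) :
    ∃ x y δ : ℝ, x < y ∧ 0 < δ ∧ ∀ t : ℝ, x < t → t < y →
      (s : ℝ) * hesseD (A : ℝ) (B : ℝ) t 1 < -δ := by
  have hcont : Continuous fun t : ℝ => (s : ℝ) * hesseD (A : ℝ) (B : ℝ) t 1 := by
    unfold hesseD; fun_prop
  obtain ⟨t₀, ht₀⟩ : ∃ t₀ : ℝ, (s : ℝ) * hesseD (A : ℝ) (B : ℝ) t₀ 1 < 0 := by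
    rcases lt_or_gt_of_ne hs with hneg | hpos
    · refine ⟨6 * |(A : ℝ)| + 8 * |(B : ℝ)| + 3 * (A : ℝ) ^ 2 + 1, ?_⟩
      refine mul_neg_of_neg_of_pos (by exact_mod_cast hneg) ?_
      set T : ℝ := 6 * |(A : ℝ)| + 8 * |(B : ℝ)| + 3 * (A : ℝ) ^ 2 + 1 with hT
      have hT1 : 1 ≤ T := by
        have := abs_nonneg (A : ℝ); have := abs_nonneg (B : ℝ); have := sq_nonneg (A : ℝ); linarith
      have e1 : (A : ℝ) * T ^ 2 ≤ |(A : ℝ)| * T ^ 2 :=
        mul_le_mul_of_nonneg_right (le_abs_self _) (sq_nonneg _)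
      have e2 : (B : ℝ) * T ≤ |(B : ℝ)| * T ^ 2 := by
        refine (mul_le_mul_of_nonneg_right (le_abs_self _) (by linarith)).trans ?_
        exact mul_le_mul_of_nonneg_left (by nlinarith) (abs_nonneg _)
      have e3 : 3 * (A : ℝ) ^ 2 ≤ 3 * (A : ℝ) ^ 2 * T ^ 2 :=
        le_mul_of_one_le_right (by positivity) (one_le_pow₀ hT1)
      have e4 : T * T ^ 2 ≤ T ^ 2 * T ^ 2 :=
        mul_le_mul_of_nonneg_right (by nlinarith) (sq_nonneg _)
      have e5 : 0 < T ^ 2 := by positivity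
      unfold hesseD
      nlinarith
    · refine ⟨0, mul_neg_of_pos_of_neg (by exact_mod_cast hpos) ?_⟩
      have : (0 : ℝ) < (A : ℝ) ^ 2 := by positivity
      simp [hesseD]
      linarith
  obtain ⟨δ, hδ, hδ'⟩ : ∃ δ : ℝ, 0 < δ ∧ (s : ℝ) * hesseD (A : ℝ) (B : ℝ) t₀ 1 < -δ :=
    ⟨-((s : ℝ) * hesseD (A : ℝ) (B : ℝ) t₀ 1) / 2, by linarith, by linarith⟩
  have hev := (hcont.tendsto t₀).eventually (gt_mem_nhds hδ')
  obtain ⟨ε, hε, hball⟩ := Metric.eventually_nhds_iff.1 hev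
  refine ⟨t₀ - ε, t₀ + ε, δ, by linarith, hδ, fun t h1 h2 => hball ?_⟩
  rw [Real.dist_eq, abs_lt]
  constructor <;> linarith

/-- Admissible parameters with discriminant below any bound, prescribed modulo the squares of
finitely many auxiliary primes. -/
theorem exists_admissible_large {W : WeierstrassCurve ℤ} (hΔ : W.Δ ≠ 0) (hs : W.IsSemistableModel)
    (h2 : (2 : ℤ) ∣ W.Δ) (hsq : SquarefreeValues (hesseCoeff W.c₄ W.c₆))
    (T : Finset ℕ) (hT : ∀ q ∈ T, q.Prime ∧ ¬ (q : ℤ) ∣ 6 * W.Δ) (f g : ℕ → ℤ)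
    (hfg : ∀ q ∈ T, ¬ (q : ℤ) ^ 2 ∣ hesseD W.c₄ W.c₆ (f q) (g q)) (C : ℤ) :
    ∃ a b : ℤ, Admissible W a b ∧ 0 < b ∧ W.Δ * hesseD W.c₄ W.c₆ a b < -C ∧
      ∀ q ∈ T, (q : ℤ) ^ 2 ∣ a - f q ∧ (q : ℤ) ^ 2 ∣ b - g q := by
  classical
  obtain ⟨S0, hS0⟩ := hsq
  let P : Finset ℕ := (6 * W.Δ).natAbs.primeFactors
  let U : Finset ℕ := P ∪ T ∪ S0.filter Nat.Prime
  have hU : ∀ q ∈ U, q.Prime := fun q hq => by
    simp only [U, P, Finset.mem_union, Finset.mem_filter] at hq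
    rcases hq with (hq | hq) | hq
    · exact Nat.prime_of_mem_primeFactors hq
    · exact (hT q hq).1
    · exact hq.2
  have h6 : ∀ q : ℕ, q.Prime → ((q : ℤ) ∣ 6 * W.Δ ↔ q ∈ P) := fun q hq => by
    simp only [P, Nat.mem_primeFactors, Int.natCast_dvd, hq, true_and]
    exact ⟨fun h => ⟨h, Int.natAbs_ne_zero.2 (mul_ne_zero (by norm_num) hΔ)⟩, fun h => h.1⟩
  let fa : ℕ → ℤ := fun q =>
    if q ∈ T then f q
    else if (q : ℤ) ∣ W.Δ ∧ Even (padicValInt q W.Δ) then 3 * W.c₆ + cuspStep q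
    else if q ∈ P then hesseScale W else 1
  let fb : ℕ → ℤ := fun q =>
    if q ∈ T then g q
    else if (q : ℤ) ∣ W.Δ ∧ Even (padicValInt q W.Δ) then W.c₄ else 0
  obtain ⟨a0, ha0⟩ := exists_crt_finset U hU 24 fa
  obtain ⟨b0, hb0⟩ := exists_crt_finset U hU 24 fb
  let m : ℕ := ∏ q ∈ U, q ^ 24
  have hm : 0 < m := Finset.prod_pos fun q hq => pow_pos (hU q hq).pos _
  have hmdvd : ∀ q ∈ U, (q : ℤ) ^ 24 ∣ (m : ℤ) := fun q hq => by
    exact_mod_cast Finset.dvd_prod_of_mem (fun q => q ^ 24) hq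
  have hgcd : Nat.gcd (Int.gcd a0 b0) m = 1 := by
    refine Nat.eq_one_iff_not_exists_prime_dvd.2 fun q hq hd => ?_
    obtain ⟨hqab, hqm⟩ := Nat.dvd_gcd_iff.1 hd
    obtain ⟨r, hr, hqr⟩ := (Nat.prime_iff.1 hq).exists_mem_finset_dvd hqm
    obtain rfl := (Nat.prime_dvd_prime_iff_eq hq (hU r hr)).1 (hq.dvd_of_dvd_pow hqr)
    have hp : Prime (q : ℤ) := Nat.prime_iff_prime_int.1 hq
    have h24 : (q : ℤ) ∣ (q : ℤ) ^ 24 := dvd_pow_self _ (by norm_num)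
    have hga : (q : ℤ) ∣ fa q := by
      have := dvd_sub ((Int.natCast_dvd_natCast.2 hqab).trans (Int.gcd_dvd_left a0 b0))
        (h24.trans (ha0 q hr))
      simpa using this
    have hgb : (q : ℤ) ∣ fb q := by
      have := dvd_sub ((Int.natCast_dvd_natCast.2 hqab).trans (Int.gcd_dvd_right a0 b0))
        (h24.trans (hb0 q hr))
      simpa using this
    simp only [fa, fb] at hga hgb
    by_cases hqT : q ∈ T
    · rw [if_pos hqT] at hga hgb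
      refine hfg q hqT ?_
      obtain ⟨x, hx⟩ := hga
      obtain ⟨y, hy⟩ := hgb
      rw [hx, hy, hesseD_smul]
      exact dvd_mul_of_dvd_left (pow_dvd_pow _ (by norm_num)) _
    · rw [if_neg hqT] at hga hgb
      by_cases hc : (q : ℤ) ∣ W.Δ ∧ Even (padicValInt q W.Δ)
      · rw [if_pos hc] at hgb
        exact hs q hq hc.1 hgb
      · rw [if_neg hc] at hga
        by_cases hqP : q ∈ P
        · rw [if_pos hqP] at hga
          refine not_dvd_hesseScale hq ?_ hga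
          by_cases hq2 : q = 2
          · subst hq2
            exact Or.inr (Nat.not_even_iff_odd.1 fun he => hc ⟨h2, he⟩)
          · exact Or.inl hq2
        · rw [if_neg hqP] at hga
          exact hp.not_dvd_one hga
  have hA : W.c₄ ≠ 0 := fun h => hs 2 Nat.prime_two h2 (by rw [h]; exact dvd_zero _)
  obtain ⟨x, y, δ, hxy, hδ, hneg⟩ := exists_interval W.c₄ W.c₆ hA W.Δ hΔ
  obtain ⟨B0, hB0⟩ := exists_nat_gt ((|(C : ℝ)| + 1) / δ)
  obtain ⟨a, b, hbB, hb, hab, hma, hmb, hxa, hay, -, hsqf⟩ := hS0 m a0 b0 hm hgcd x y hxy B0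
  have hclass : ∀ q ∈ U, (q : ℤ) ^ 24 ∣ a - fa q ∧ (q : ℤ) ^ 24 ∣ b - fb q := fun q hq =>
    ⟨by simpa using dvd_add ((hmdvd q hq).trans hma) (ha0 q hq),
      by simpa using dvd_add ((hmdvd q hq).trans hmb) (hb0 q hq)⟩
  refine ⟨a, b, ⟨hab, fun q hq hq6 => ?_, fun q hq hq6 hnc => ?_, fun q hq hd hev => ?_⟩, hb,
    ?_, fun q hq => ?_⟩
  · by_cases hqU : q ∈ U
    · have hp : Prime (q : ℤ) := Nat.prime_iff_prime_int.1 hq
      have hqP : q ∉ P := fun h => hq6 ((h6 q hq).2 h)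
      have hnd : ¬ (q : ℤ) ∣ W.Δ := fun h => hq6 (dvd_mul_of_dvd_right h _)
      obtain ⟨ha, hb'⟩ := hclass q hqU
      simp only [fa, fb] at ha hb'
      intro hD
      have hq1 : (q : ℤ) ∣ hesseD W.c₄ W.c₆ a b := (dvd_pow_self _ two_ne_zero).trans hD
      have h24 : (q : ℤ) ∣ (q : ℤ) ^ 24 := dvd_pow_self _ (by norm_num)
      by_cases hqT : q ∈ T
      · rw [if_pos hqT] at ha hb'
        refine hfg q hqT ?_
        have h224 : ((q ^ 2 : ℕ) : ℤ) ∣ (q : ℤ) ^ 24 := by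
          push_cast; exact pow_dvd_pow _ (by norm_num)
        have := hesseD_congr (A := W.c₄) (B := W.c₆) (h224.trans ha) (h224.trans hb')
        push_cast at this
        simpa using dvd_sub hD this
      · rw [if_neg hqT, if_neg (fun h => hnd h.1)] at ha hb'
        rw [if_neg hqP] at ha
        have := dvd_sub hq1 (hesseD_congr (A := W.c₄) (B := W.c₆) (n := q) (h24.trans ha)
          (h24.trans hb'))
        rw [sub_sub_cancel, (hesse_one_zero W.c₄ W.c₆).2.2] at this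
        exact hp.not_dvd_one this
    · refine fun hd => hsqf q hq (fun h => hqU ?_) (fun h => hqU ?_) (by rwa [sum_hesseCoeff])
      · simp [U, h, hq]
      · obtain ⟨r, hr, hqr⟩ := (Nat.prime_iff.1 hq).exists_mem_finset_dvd h
        obtain rfl := (Nat.prime_dvd_prime_iff_eq hq (hU r hr)).1 (hq.dvd_of_dvd_pow hqr)
        exact hr
  · have hqP := (h6 q hq).1 hq6
    have hqT : q ∉ T := fun h => (hT q h).2 hq6
    obtain ⟨ha, hb'⟩ := hclass q (by simp [U, hqP])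
    simp only [fa, fb, if_neg hqT, if_neg hnc, if_pos hqP, sub_zero] at ha hb'
    exact ⟨ha, hb'⟩
  · have hqP := (h6 q hq).1 (dvd_mul_of_dvd_right hd _)
    have hqT : q ∉ T := fun h => (hT q h).2 (dvd_mul_of_dvd_right hd _)
    obtain ⟨ha, hb'⟩ := hclass q (by simp [U, hqP])
    simp only [fa, fb, if_neg hqT, if_pos (And.intro hd hev)] at ha hb'
    exact ⟨ha, hb'⟩
  · have hbR : (0 : ℝ) < b := by exact_mod_cast hb
    have hn := hneg _ hxa hay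
    have hD : hesseD (W.c₄ : ℝ) (W.c₆ : ℝ) ((a : ℝ) / b) 1 * (b : ℝ) ^ 4 =
        ((hesseD W.c₄ W.c₆ a b : ℤ) : ℝ) := by
      simp [hesseD]; field_simp
    have : ((W.Δ * hesseD W.c₄ W.c₆ a b : ℤ) : ℝ) < -(C : ℝ) := by
      push_cast
      rw [← hD, ← mul_assoc]
      have hbB' : (B0 : ℝ) ≤ b := by exact_mod_cast hbB
      have hb1 : (1 : ℝ) ≤ b := by exact_mod_cast hb
      have h4 : (b : ℝ) ≤ (b : ℝ) ^ 4 := le_self_pow₀ hb1 (by norm_num)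
      rw [div_lt_iff₀ hδ] at hB0
      nlinarith [le_abs_self (C : ℝ), mul_le_mul_of_nonneg_left (hbB'.trans h4) hδ.le,
        mul_lt_mul_of_pos_right hn (pow_pos hbR 4)]
    exact_mod_cast this
  · obtain ⟨ha, hb'⟩ := hclass q (by simp [U, hq])
    simp only [fa, fb, if_pos hq] at ha hb'
    exact ⟨(pow_dvd_pow _ (by norm_num)).trans ha, (pow_dvd_pow _ (by norm_num)).trans hb'⟩

/-- Admissible parameters with negative new discriminant, prescribed modulo finitely many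
auxiliary primes. -/
theorem exists_admissible {W : WeierstrassCurve ℤ} (hΔ : W.Δ ≠ 0) (hs : W.IsSemistableModel)
    (h2 : (2 : ℤ) ∣ W.Δ) (hsq : SquarefreeValues (hesseCoeff W.c₄ W.c₆))
    (T : Finset ℕ) (hT : ∀ q ∈ T, q.Prime ∧ ¬ (q : ℤ) ∣ 6 * W.Δ) (f g : ℕ → ℤ)
    (hfg : ∀ q ∈ T, ¬ (q : ℤ) ∣ hesseD W.c₄ W.c₆ (f q) (g q)) :
    ∃ a b : ℤ, Admissible W a b ∧ 0 < b ∧ W.Δ * hesseD W.c₄ W.c₆ a b < 0 ∧
      ∀ q ∈ T, (q : ℤ) ∣ a - f q ∧ (q : ℤ) ∣ b - g q := by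
  obtain ⟨a, b, had, hb, hlt, hT'⟩ := exists_admissible_large hΔ hs h2 hsq T hT f g
    (fun q hq h => hfg q hq ((dvd_pow_self _ two_ne_zero).trans h)) 0
  exact ⟨a, b, had, hb, by simpa using hlt, fun q hq =>
    ⟨(dvd_pow_self _ two_ne_zero).trans (hT' q hq).1,
      (dvd_pow_self _ two_ne_zero).trans (hT' q hq).2⟩⟩

end Fermat.Agent.Residual

namespace Fermat.Agent.Residual

/-- An integral model in the pencil: semistable, multiplicative at `2`, odd valuation at every bad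
prime, negative discriminant. -/
theorem exists_hesse_model {W : WeierstrassCurve ℤ} (hΔ : W.Δ ≠ 0) (hs : W.IsSemistableModel)
    (h2 : (2 : ℤ) ∣ W.Δ) (hsq : SquarefreeValues (hesseCoeff W.c₄ W.c₆))
    (T : Finset ℕ) (hT : ∀ q ∈ T, q.Prime ∧ ¬ (q : ℤ) ∣ 6 * W.Δ) (f g : ℕ → ℤ)
    (hfg : ∀ q ∈ T, ¬ (q : ℤ) ∣ hesseD W.c₄ W.c₆ (f q) (g q)) :
    ∃ (a b : ℤ) (W' : WeierstrassCurve ℤ), Admissible W a b ∧ 0 < b ∧
      W'.IsSemistableModel ∧ (2 : ℤ) ∣ W'.Δ ∧ W'.Δ < 0 ∧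
      (∀ q : ℕ, q.Prime → (q : ℤ) ∣ W'.Δ → Odd (padicValInt q W'.Δ)) ∧
      hesseScale W ^ 4 * W'.c₄ = hesseC4 W.c₄ W.c₆ a b ∧
      hesseScale W ^ 6 * W'.c₆ = hesseC6 W.c₄ W.c₆ a b ∧
      hesseScale W ^ 12 * W'.Δ = W.Δ * hesseD W.c₄ W.c₆ a b ^ 3 ∧
      ∀ q ∈ T, (q : ℤ) ∣ a - f q ∧ (q : ℤ) ∣ b - g q := by
  obtain ⟨a, b, had, hb, hneg, hT'⟩ := exists_admissible hΔ hs h2 hsq T hT f g hfg
  obtain ⟨W', -, hss, h2', hodd, e4, e6, eΔ⟩ := had.exists_model hs hΔ h2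
  refine ⟨a, b, W', had, hb, hss, h2', ?_, hodd, e4, e6, eΔ, hT'⟩
  have hu : (0 : ℤ) < hesseScale W ^ 12 := by
    rcases hesseScale_eq_one_or_four W with h | h <;> rw [h] <;> norm_num
  have hD0 := had.hesseD_ne_zero hs hΔ h2
  have : W.Δ * hesseD W.c₄ W.c₆ a b ^ 3 < 0 := by
    have h' : W.Δ * hesseD W.c₄ W.c₆ a b ^ 3 =
        W.Δ * hesseD W.c₄ W.c₆ a b * hesseD W.c₄ W.c₆ a b ^ 2 := by ring
    rw [h']
    exact mul_neg_of_neg_of_pos hneg (by positivity)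
  rw [← eΔ] at this
  exact neg_of_mul_neg_right this hu.le

end Fermat.Agent.Residual
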