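import Mathlib

/-!
Elementary counting lemmas for the squarefree sieve on binary quartic forms.
-/

set_option autoImplicit false

noncomputable section

namespace Fermat.Agent.Residual

open Finset Filter Real

/-- The number of `s < M` in a fixed residue class modulo `n`. -/
lemma card_filter_dvd_le (M n : ℕ) (hn : 0 < n) (u r : ℤ) (hu : IsCoprime u (n : ℤ)) :
    ((range M).filter (fun s : ℕ => (n : ℤ) ∣ u * (s : ℤ) + r)).card ≤ M / n + 1 := by
  classical
  calc _ ≤ (range (M / n + 1)).card := by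
        refine Finset.card_le_card_of_injOn (fun s => s / n) (fun s hs => ?_) (fun s hs t ht hst => ?_)
        · rw [Finset.mem_coe, mem_filter, mem_range] at hs
          rw [Finset.mem_coe, mem_range]
          exact Nat.lt_succ_of_le (Nat.div_le_div_right hs.1.le)
        · rw [Finset.mem_coe, mem_filter] at hs ht
          have h1 : (n : ℤ) ∣ u * ((s : ℤ) - t) := by
            have := Int.dvd_sub hs.2 ht.2
            rwa [show u * (s : ℤ) + r - (u * t + r) = u * ((s : ℤ) - t) by ring] at this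
          have h2 : (n : ℤ) ∣ (s : ℤ) - t := hu.symm.dvd_of_dvd_mul_left h1
          have h3 : s % n = t % n := by
            have := (Int.modEq_iff_dvd.mpr h2).symm
            exact_mod_cast this
          have e1 := Nat.div_add_mod s n
          have e2 := Nat.div_add_mod t n
          rw [show s / n = t / n from hst] at e1
          omega
    _ = _ := card_range _

/-- Primes have density zero. -/
lemma eventually_primeCounting_le_mul {ε : ℝ} (hε : 0 < ε) :
    ∀ᶠ n : ℕ in atTop, (Nat.primeCounting n : ℝ) ≤ ε * n := by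
  have h1 : ∀ᶠ n : ℕ in atTop, (Nat.primeCounting ⌊(n : ℝ)⌋₊ : ℝ) ≤
      (log 4 + 1) * n / log n :=
    tendsto_natCast_atTop_atTop.eventually (Chebyshev.eventually_primeCounting_le one_pos)
  have h2 : ∀ᶠ n : ℕ in atTop, (log 4 + 1) / ε ≤ log (n : ℝ) :=
    (Real.tendsto_log_atTop.comp tendsto_natCast_atTop_atTop).eventually_ge_atTop _
  filter_upwards [h1, h2] with n hn hn'
  rw [Nat.floor_natCast] at hn
  refine hn.trans ?_
  have hpos : (0 : ℝ) < log 4 + 1 := by positivity
  have hl : 0 < log (n : ℝ) := lt_of_lt_of_le (by positivity) hn'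
  rw [div_le_iff₀ hl]
  rw [div_le_iff₀ hε] at hn'
  nlinarith [mul_le_mul_of_nonneg_left hn' (Nat.cast_nonneg (α := ℝ) n)]

/-- A telescoping bound on the tail of the sum of inverse squares. -/
lemma sum_inv_sq_le (z : ℕ) (hz : 0 < z) (T : Finset ℕ) (hT : ∀ q ∈ T, z < q) :
    (∑ q ∈ T, (1 : ℝ) / ((q : ℝ) ^ 2)) ≤ (1 : ℝ) / z := by
  classical
  obtain ⟨X, hzX, hX⟩ : ∃ X, z + 1 ≤ X ∧ ∀ q ∈ T, q < X :=
    ⟨max (z + 1) (T.sup id + 1), le_max_left _ _, fun q hq =>
      lt_max_of_lt_right (Nat.lt_succ_of_le (Finset.le_sup (f := id) hq))⟩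
  refine (Finset.sum_le_sum_of_subset_of_nonneg (t := Ico (z + 1) X) (fun q hq =>
    mem_Ico.mpr ⟨hT q hq, hX q hq⟩) (fun _ _ _ => by positivity)).trans ?_
  have key : ∀ X, z + 1 ≤ X →
      (∑ q ∈ Ico (z + 1) X, (1 : ℝ) / ((q : ℝ) ^ 2)) ≤ (1 : ℝ) / z - 1 / ((X : ℝ) - 1) := by
    intro X hX
    induction X, hX using Nat.le_induction with
    | base => simp
    | succ X hX ih =>
      rw [Finset.sum_Ico_succ_top hX]
      have hX1 : (1 : ℝ) < X := by
        have : 1 < X := by omega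
        exact_mod_cast this
      have : 1 / ((X : ℝ) ^ 2) ≤ 1 / ((X : ℝ) - 1) - 1 / ((X : ℝ) + 1 - 1) := by
        rw [add_sub_cancel_right, div_sub_div _ _ (by linarith) (by linarith),
          div_le_div_iff₀ (by positivity) (by nlinarith)]
        nlinarith
      push_cast
      linarith
  refine (key X hzX).trans (sub_le_self _ ?_)
  have : (1 : ℝ) ≤ X := by
    have : 1 ≤ X := by omega
    exact_mod_cast this
  exact div_nonneg zero_le_one (by linarith)

/-- A residue class with coordinates having no common factor with the modulus has a coprime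
representative. -/
lemma exists_coprime_lift (m : ℕ) (hm : 0 < m) (a0 b0 : ℤ)
    (h : Nat.gcd (Int.gcd a0 b0) m = 1) :
    ∃ a b : ℤ, Int.gcd a b = 1 ∧ (m : ℤ) ∣ a - a0 ∧ (m : ℤ) ∣ b - b0 := by
  classical
  obtain ⟨b, hb0, hb⟩ : ∃ b : ℤ, b ≠ 0 ∧ (m : ℤ) ∣ b - b0 := by
    by_cases hb : b0 = 0
    · exact ⟨m, by exact_mod_cast hm.ne', by simp [hb]⟩
    · exact ⟨b0, hb, by simp⟩
  let t : ℕ := ∏ p ∈ b.natAbs.primeFactors.filter (fun p : ℕ => ¬ (p : ℤ) ∣ a0), p
  refine ⟨a0 + t * m, b, ?_, by simp, hb⟩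
  by_contra hne
  obtain ⟨p, hp, hpd⟩ := Nat.exists_prime_and_dvd hne
  have hpa : (p : ℤ) ∣ a0 + t * m :=
    (Int.natCast_dvd_natCast.mpr hpd).trans (Int.gcd_dvd_left _ _)
  have hpb : (p : ℤ) ∣ b := (Int.natCast_dvd_natCast.mpr hpd).trans (Int.gcd_dvd_right _ _)
  have hpmem : p ∈ b.natAbs.primeFactors :=
    Nat.mem_primeFactors.mpr ⟨hp, Int.natCast_dvd.mp hpb, Int.natAbs_ne_zero.mpr hb0⟩
  by_cases hp0 : (p : ℤ) ∣ a0
  · have htm : (p : ℤ) ∣ ((t * m : ℕ) : ℤ) := by
      push_cast; simpa using Int.dvd_sub hpa hp0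
    rcases hp.dvd_mul.mp (Int.natCast_dvd_natCast.mp htm) with ht | hm'
    · obtain ⟨q, hq, hpq⟩ := (hp.prime.dvd_finsetProd_iff _).mp ht
      rw [mem_filter, Nat.mem_primeFactors] at hq
      obtain rfl := (Nat.prime_dvd_prime_iff_eq hp hq.1.1).mp hpq
      exact hq.2 hp0
    · have hpb0 : (p : ℤ) ∣ b0 := by
        have := Int.dvd_sub hpb ((Int.natCast_dvd_natCast.mpr hm').trans hb)
        simpa using this
      have : p ∣ Nat.gcd (Int.gcd a0 b0) m :=
        Nat.dvd_gcd (Int.natCast_dvd_natCast.mp (Int.dvd_coe_gcd hp0 hpb0)) hm'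
      rw [h] at this
      exact hp.not_dvd_one this
  · have ht : p ∣ t := Finset.dvd_prod_of_mem _ (mem_filter.mpr ⟨hpmem, hp0⟩)
    exact hp0 (by
      have := Int.dvd_sub hpa (Dvd.dvd.mul_right (Int.natCast_dvd_natCast.mpr ht) (m : ℤ))
      simpa using this)

end Fermat.Agent.Residual
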