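import Mathlib
import Fermat.Agent.Residual.SieveCount

/-!
Squarefree values (away from a finite set of primes) of a separable binary quartic form in a
congruence class and a real cone.
-/

set_option autoImplicit false

noncomputable section

namespace Fermat.Agent.Residual

open Finset Filter Polynomial

/-- The binary quartic form with coefficients `c`. -/
def bform (c : Fin 5 → ℤ) (a b : ℤ) : ℤ := ∑ i : Fin 5, c i * a ^ (i : ℕ) * b ^ (4 - (i : ℕ))

/-- The dehomogenised polynomial of a binary quartic form. -/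
def qpoly (c : Fin 5 → ℤ) : ℤ[X] := ∑ i : Fin 5, monomial (i : ℕ) (c i)

lemma bform_eq (c : Fin 5 → ℤ) (a b : ℤ) :
    bform c a b = c 0 * b ^ 4 + c 1 * a * b ^ 3 + c 2 * a ^ 2 * b ^ 2 + c 3 * a ^ 3 * b + c 4 * a ^ 4 := by
  simp [bform, Fin.sum_univ_five]

lemma natDegree_qpoly_le (c : Fin 5 → ℤ) : (qpoly c).natDegree ≤ 4 :=
  natDegree_sum_le_of_forall_le _ _ fun i _ =>
    (natDegree_monomial_le _).trans (Nat.le_of_lt_succ i.2)

lemma exists_certificate (f : ℤ[X]) (h : (f.map (algebraMap ℤ ℚ)).Separable) :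
    ∃ (u v : ℤ[X]) (B : ℤ), B ≠ 0 ∧ u * f + v * derivative f = C B := by
  obtain ⟨a, b, hab⟩ := h
  rw [derivative_map] at hab
  obtain ⟨⟨r, hr⟩, hra⟩ := IsLocalization.integerNormalization_map_to_map (nonZeroDivisors ℤ) a
  obtain ⟨⟨s, hs⟩, hsb⟩ := IsLocalization.integerNormalization_map_to_map (nonZeroDivisors ℤ) b
  simp only [Algebra.smul_def, Polynomial.algebraMap_eq] at hra hsb
  refine ⟨C s * IsLocalization.integerNormalization (nonZeroDivisors ℤ) a,
    C r * IsLocalization.integerNormalization (nonZeroDivisors ℤ) b, r * s,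
    mul_ne_zero (nonZeroDivisors.ne_zero hr) (nonZeroDivisors.ne_zero hs),
    Polynomial.map_injective (algebraMap ℤ ℚ) (RingHom.injective_int _) ?_⟩
  simp only [Polynomial.map_add, Polynomial.map_mul, map_C, map_mul, hra, hsb,
    Polynomial.algebraMap_apply]
  linear_combination (C (algebraMap ℤ ℚ r) * C (algebraMap ℤ ℚ s)) * hab

/-- The constant attached to a form, outside of whose prime divisors roots are simple. -/
lemma exists_classes (c : Fin 5 → ℤ) (u v : ℤ[X]) (B : ℤ)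
    (hcert : u * qpoly c + v * derivative (qpoly c) = C B) (q : ℕ) (hq : q.Prime)
    (hB : ¬ (q : ℤ) ∣ B)
    (htop : (c 4 ≠ 0 ∧ ¬ (q : ℤ) ∣ c 4) ∨ (c 4 = 0 ∧ ¬ (q : ℤ) ∣ c 3)) :
    ∃ Θ : Finset ℤ, Θ.card ≤ 4 ∧ ∀ a b : ℤ, ¬ ((q : ℤ) ∣ a ∧ (q : ℤ) ∣ b) →
      (q : ℤ) ^ 2 ∣ bform c a b → (q : ℤ) ^ 2 ∣ b ∨ ∃ θ ∈ Θ, (q : ℤ) ^ 2 ∣ a - θ * b := by
  classical
  haveI : Fact q.Prime := ⟨hq⟩
  haveI : NeZero (q ^ 2) := ⟨pow_ne_zero 2 hq.ne_zero⟩
  have hqp : Prime (q : ℤ) := Nat.prime_iff_prime_int.mp hq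
  have hunit : ∀ x : ℤ, ¬ (q : ℤ) ∣ x → IsUnit ((x : ZMod (q ^ 2))) := by
    intro x hx
    obtain ⟨s, t, hst⟩ := ((hqp.coprime_iff_not_dvd.mpr hx).symm.pow_right (n := 2))
    refine IsUnit.of_mul_eq_one (s : ZMod (q ^ 2)) ?_
    have := congrArg (Int.cast : ℤ → ZMod (q ^ 2)) hst
    push_cast at this
    have h0 : ((q : ZMod (q ^ 2))) ^ 2 = 0 := by
      have h1 := ZMod.natCast_self (q ^ 2)
      push_cast at h1
      exact h1
    linear_combination this - (t : ZMod (q ^ 2)) * h0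
  set f : (ZMod (q ^ 2))[X] := (qpoly c).map (Int.castRingHom _) with hf
  let π : ZMod (q ^ 2) →+* ZMod q := ZMod.castHom (dvd_pow_self q two_ne_zero) (ZMod q)
  set fq : (ZMod q)[X] := (qpoly c).map (Int.castRingHom _) with hfq
  have hfq0 : fq ≠ 0 := by
    intro h0
    have h1 := congrArg (Polynomial.map (Int.castRingHom (ZMod q))) hcert
    simp only [Polynomial.map_add, Polynomial.map_mul, map_C, ← derivative_map, ← hfq, h0,
      derivative_zero, mul_zero, add_zero] at h1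
    rw [eq_comm, C_eq_zero, eq_intCast, ZMod.intCast_zmod_eq_zero_iff_dvd] at h1
    exact hB h1
  let Z : Finset (ZMod (q ^ 2)) := univ.filter (fun x => f.eval x = 0)
  have hZ : Z.card ≤ 4 := by
    refine (Finset.card_le_card_of_injOn (t := fq.roots.toFinset) π (fun x hx => ?_) ?_).trans
      ((Multiset.toFinset_card_le _).trans ((card_roots' fq).trans
        ((natDegree_map_le).trans (natDegree_qpoly_le c))))
    · rw [mem_coe, mem_filter] at hx
      rw [mem_coe, Multiset.mem_toFinset, mem_roots hfq0, IsRoot]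
      have h1 : fq = f.map π := by
        rw [hf, Polynomial.map_map, hfq]
        congr 1
        exact RingHom.ext_int _ _
      rw [h1, eval_map, eval₂_hom, hx.2, map_zero]
    · intro x hx y hy hxy
      rw [mem_coe, mem_filter] at hx hy
      obtain ⟨k, hk⟩ : ∃ k : ZMod (q ^ 2), y - x = (q : ZMod (q ^ 2)) * k := by
        have h1 : π (y - x) = 0 := by rw [map_sub, hxy, sub_self]
        rw [← ZMod.natCast_zmod_val (y - x), map_natCast, ZMod.natCast_eq_zero_iff] at h1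
        obtain ⟨k, hk⟩ := h1
        exact ⟨k, by rw [← ZMod.natCast_zmod_val (y - x), hk, Nat.cast_mul]⟩
      have hsq : (y - x) ^ 2 = 0 := by
        have h1 := ZMod.natCast_self (q ^ 2)
        push_cast at h1
        rw [hk, mul_pow, h1, zero_mul]
      obtain ⟨w, hw⟩ := binomExpansion f x (y - x)
      rw [add_sub_cancel, hy.2, hx.2, hsq, mul_zero, add_zero, zero_add] at hw
      have hder : IsUnit ((derivative f).eval x) := by
        have h1 := congrArg (fun p => (Polynomial.map (Int.castRingHom (ZMod (q ^ 2))) p).eval x) hcert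
        simp only [Polynomial.map_add, Polynomial.map_mul, map_C, ← derivative_map, ← hf, eval_add,
          eval_mul, eval_C, hx.2, mul_zero, zero_add, eq_intCast, Polynomial.map_intCast,
          eval_intCast] at h1
        exact isUnit_of_mul_isUnit_right (h1 ▸ hunit B hB)
      exact (sub_eq_zero.mp (hder.mul_right_eq_zero.mp hw.symm)).symm
  refine ⟨Z.image (fun x => (x.val : ℤ)), Finset.card_image_le.trans hZ, fun a b hab hF => ?_⟩
  by_cases hb : (q : ℤ) ∣ b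
  · left
    have ha : ¬ (q : ℤ) ∣ a := fun h => hab ⟨h, hb⟩
    have hqF : (q : ℤ) ∣ bform c a b := (dvd_pow_self _ two_ne_zero).trans hF
    rw [bform_eq] at hF hqF
    have hq4 : (q : ℤ) ∣ c 4 := by
      have h1 : (q : ℤ) ∣ c 4 * a ^ 4 := by
        obtain ⟨k, rfl⟩ := hb
        have h2 : (q : ℤ) ∣ (q : ℤ) *
            (c 0 * q ^ 3 * k ^ 4 + c 1 * a * q ^ 2 * k ^ 3 + c 2 * a ^ 2 * q * k ^ 2 + c 3 * a ^ 3 * k) :=
          dvd_mul_right _ _
        have := dvd_sub hqF h2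
        ring_nf at this ⊢
        exact this
      exact (hqp.dvd_mul.mp h1).resolve_right (fun h => ha (hqp.dvd_of_dvd_pow h))
    obtain ⟨h4, h3⟩ := htop.resolve_left (fun h => h.2 hq4)
    rw [h4, zero_mul, add_zero] at hF
    have hcop : IsCoprime ((q : ℤ) ^ 2)
        (c 0 * b ^ 3 + c 1 * a * b ^ 2 + c 2 * a ^ 2 * b + c 3 * a ^ 3) := by
      refine (hqp.coprime_iff_not_dvd.mpr fun hG => ?_).pow_left
      have h1 : (q : ℤ) ∣ c 3 * a ^ 3 := by
        have h2 : (q : ℤ) ∣ b * (c 0 * b ^ 2 + c 1 * a * b + c 2 * a ^ 2) := hb.mul_right _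
        have := dvd_sub hG h2
        ring_nf at this ⊢
        exact this
      rcases hqp.dvd_mul.mp h1 with h | h
      · exact h3 h
      · exact ha (hqp.dvd_of_dvd_pow h)
    exact hcop.dvd_of_dvd_mul_left (by ring_nf at hF ⊢; exact hF)
  · right
    obtain ⟨w, hw⟩ := hunit b hb
    set x : ZMod (q ^ 2) := (a : ZMod (q ^ 2)) * ((w⁻¹ : (ZMod (q ^ 2))ˣ) : ZMod (q ^ 2)) with hx
    have hax : (a : ZMod (q ^ 2)) = x * (b : ZMod (q ^ 2)) := by
      rw [hx, ← hw, mul_assoc, Units.inv_mul, mul_one]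
    have h0 : f.eval x = 0 := by
      have h1 : ((bform c a b : ℤ) : ZMod (q ^ 2)) = 0 := by
        rw [ZMod.intCast_zmod_eq_zero_iff_dvd]
        exact_mod_cast hF
      have h2 : ((bform c a b : ℤ) : ZMod (q ^ 2)) = (b : ZMod (q ^ 2)) ^ 4 * f.eval x := by
        rw [hf, qpoly, Polynomial.map_sum, eval_finsetSum, bform_eq]
        simp only [Fin.sum_univ_five, map_monomial, eval_monomial, eq_intCast]
        push_cast
        rw [hax]
        simp
        ring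
      rw [h1, eq_comm] at h2
      exact (((hunit b hb).pow 4).mul_right_eq_zero).mp h2
    refine ⟨x.val, Finset.mem_image.mpr ⟨x, by simp [Z, h0], rfl⟩, ?_⟩
    have : ((a - (x.val : ℤ) * b : ℤ) : ZMod (q ^ 2)) = 0 := by
      push_cast
      rw [ZMod.natCast_zmod_val, hax, sub_self]
    rw [ZMod.intCast_zmod_eq_zero_iff_dvd] at this
    exact_mod_cast this

lemma ratio_between (x y k j P a b : ℝ) (hP : 0 < P) (hk : 0 < k) (hj1 : k * x + |x| < j)
    (hj2 : j + 1 < k * y - |y|) (ha1 : j * P ≤ a) (ha2 : a ≤ (j + 1) * P) (hb1 : k * P ≤ b)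
    (hb2 : b ≤ (k + 1) * P) (hb : 0 < b) : x < a / b ∧ a / b < y := by
  have h1 := mul_lt_mul_of_pos_right hj1 hP
  have h2 := mul_lt_mul_of_pos_right hj2 hP
  have hx0 : 0 ≤ |x| * P := by positivity
  have hy0 : 0 ≤ |y| * P := by positivity
  rw [add_mul] at h1 h2 ha2 hb2
  rw [sub_mul] at h2
  constructor
  · rw [lt_div_iff₀ hb]
    rcases le_total 0 x with hx | hx
    · rw [abs_of_nonneg hx] at h1
      linarith [mul_le_mul_of_nonneg_left hb2 hx]
    · linarith [mul_le_mul_of_nonpos_left hb1 hx]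
  · rw [div_lt_iff₀ hb]
    rcases le_total 0 y with hy | hy
    · linarith [mul_le_mul_of_nonneg_left hb1 hy]
    · rw [abs_of_nonpos hy, neg_mul, sub_neg_eq_add] at h2
      linarith [mul_le_mul_of_nonpos_left hb2 hy]

lemma total_lt (M D C S1 P1 P2 : ℝ) (hM : 0 < M) (hD : 0 < D) (hC : 0 < C)
    (h1 : S1 ≤ 6 * M ^ 2 * (1 / 20)) (h2 : P1 ≤ 1 / (10 * (8 * D + 8 * C)) * (D * M))
    (h3 : P2 ≤ 1 / (10 * (8 * D + 8 * C)) * (C * M ^ 2)) :
    S1 + P1 * (8 * M) + P2 * 8 < M * M := by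
  set ε := 1 / (10 * (8 * D + 8 * C)) with hε
  have key : ε * (8 * D + 8 * C) = 1 / 10 := by rw [hε]; field_simp
  have e1 := mul_le_mul_of_nonneg_right h2 (by positivity : (0 : ℝ) ≤ 8 * M)
  have e3 : ε * (D * M) * (8 * M) + ε * (C * M ^ 2) * 8 = M ^ 2 / 10 := by
    calc _ = ε * (8 * D + 8 * C) * M ^ 2 := by ring
      _ = _ := by rw [key]; ring
  nlinarith [mul_pos hM hM]

/-- The sieve, for a class given by coprime integers and a modulus divisible by all small primes. -/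
theorem exists_good_in_class (c : Fin 5 → ℤ) (u v : ℤ[X]) (B : ℤ)
    (hcert : u * qpoly c + v * derivative (qpoly c) = C B) (z : ℕ) (hz : 20 ≤ z)
    (hzB : ∀ q : ℕ, q.Prime → z < q → ¬ (q : ℤ) ∣ B)
    (hztop : ∀ q : ℕ, q.Prime → z < q →
      (c 4 ≠ 0 ∧ ¬ (q : ℤ) ∣ c 4) ∨ (c 4 = 0 ∧ ¬ (q : ℤ) ∣ c 3))
    (m : ℕ) (hm : 0 < m) (hmz : ∀ q : ℕ, q.Prime → q ≤ z → q ∣ m)
    (a1 b1 : ℤ) (hab : Int.gcd a1 b1 = 1) (x y : ℝ) (hxy : x < y) (B0 : ℤ) :
    ∃ a b : ℤ, B0 ≤ b ∧ 0 < b ∧ Int.gcd a b = 1 ∧ (m : ℤ) ∣ a - a1 ∧ (m : ℤ) ∣ b - b1 ∧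
      x < (a : ℝ) / b ∧ (a : ℝ) / b < y ∧ bform c a b ≠ 0 ∧
      ∀ q : ℕ, q.Prime → ¬ q ∣ m → ¬ ((q : ℤ) ^ 2 ∣ bform c a b) := by
  classical
  -- the box
  obtain ⟨k, hk0, hk⟩ : ∃ k : ℕ, 0 < k ∧ 3 + |x| + |y| < (k : ℝ) * (y - x) := by
    obtain ⟨k, hk⟩ := exists_nat_gt ((3 + |x| + |y|) / (y - x))
    rw [div_lt_iff₀ (sub_pos.mpr hxy)] at hk
    refine ⟨k, Nat.pos_of_ne_zero fun h => ?_, hk⟩
    rw [h, Nat.cast_zero, zero_mul] at hk
    linarith [abs_nonneg x, abs_nonneg y]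
  set j : ℤ := ⌊(k : ℝ) * x + |x|⌋ + 1 with hj
  have hj1 : (k : ℝ) * x + |x| < j := by
    rw [hj]; push_cast; exact Int.lt_floor_add_one _
  have hj2 : (j : ℝ) + 1 < (k : ℝ) * y - |y| := by
    have := Int.floor_le ((k : ℝ) * x + |x|)
    rw [hj]; push_cast
    nlinarith
  obtain ⟨K, hK⟩ : ∃ K : ℕ, K = j.natAbs + k + 2 := ⟨_, rfl⟩
  obtain ⟨Dn, hDn⟩ : ∃ Dn : ℕ, Dn = 2 * K * m + 1 := ⟨_, rfl⟩
  set S : ℕ := ∑ i, (c i).natAbs with hS
  obtain ⟨Cn, hCn⟩ : ∃ Cn : ℕ, Cn = 2 * (S + 2) * (K * m + 1) ^ 2 := ⟨_, rfl⟩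
  have hDpos : 0 < Dn := by omega
  have hCpos : 0 < Cn := by rw [hCn]; positivity
  -- choose the scale
  obtain ⟨N0, hN0⟩ := eventually_atTop.mp (eventually_primeCounting_le_mul
    (ε := 1 / (10 * (8 * Dn + 8 * Cn) : ℝ)) (by positivity))
  obtain ⟨M, hMdef⟩ : ∃ M : ℕ, M = N0 + m + B0.natAbs + 1 := ⟨_, rfl⟩
  have hM0 : 0 < M := by omega
  set A : ℕ → ℤ := fun s => a1 % m + m * (j * M + s) with hA
  set Bb : ℕ → ℤ := fun t => b1 % m + m * (k * M + t) with hBb
  set box := range M ×ˢ range M with hbox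
  have hm' : (0 : ℤ) < m := by exact_mod_cast hm
  have hA1 : ∀ s < M, j * (m * M : ℤ) ≤ A s ∧ A s < (j + 1) * (m * M : ℤ) := by
    intro s hs
    have h1 := Int.emod_nonneg a1 hm'.ne'
    have h2 := Int.emod_lt_of_pos a1 hm'
    have h3 : (m : ℤ) * (s + 1) ≤ m * M :=
      mul_le_mul_of_nonneg_left (by exact_mod_cast hs) hm'.le
    constructor <;> simp only [hA] <;> nlinarith
  have hB1 : ∀ t < M, (k : ℤ) * (m * M) ≤ Bb t ∧ Bb t < (k + 1) * (m * M : ℤ) := by
    intro t ht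
    have h1 := Int.emod_nonneg b1 hm'.ne'
    have h2 := Int.emod_lt_of_pos b1 hm'
    have h3 : (m : ℤ) * (t + 1) ≤ m * M :=
      mul_le_mul_of_nonneg_left (by exact_mod_cast ht) hm'.le
    constructor <;> simp only [hBb] <;> nlinarith
  have hMB : ∀ t < M, (M : ℤ) ≤ Bb t := by
    intro t ht
    refine le_trans ?_ (hB1 t ht).1
    have h1 : (1 : ℤ) ≤ k := by exact_mod_cast hk0
    have h2 : (1 : ℤ) ≤ m := by exact_mod_cast hm
    nlinarith [mul_le_mul h1 h2 zero_le_one (by positivity : (0 : ℤ) ≤ k), (by positivity : (0 : ℤ) ≤ M)]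
  obtain ⟨L, hL⟩ : ∃ L : ℤ, L = (((K * m * M : ℕ)) : ℤ) := ⟨_, rfl⟩
  have habs : ∀ s < M, ∀ t < M, |A s| ≤ L ∧ |Bb t| ≤ L := by
    intro s hs t ht
    have hKj : (j.natAbs : ℤ) + k + 2 = K := by rw [hK]; push_cast; ring
    have hjle : j ≤ j.natAbs ∧ -j ≤ j.natAbs := ⟨Int.le_natAbs, by omega⟩
    have hk1 : (0 : ℤ) ≤ k := by positivity
    have hmM : (0 : ℤ) ≤ m * M := by positivity
    obtain ⟨a1', a2'⟩ := hA1 s hs
    obtain ⟨b1', b2'⟩ := hB1 t ht
    rw [hL, abs_le, abs_le]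
    push_cast
    rw [← hKj]
    refine ⟨⟨?_, ?_⟩, ?_, ?_⟩ <;> nlinarith
  obtain ⟨X, hX⟩ : ∃ X : ℕ, X = Cn * M ^ 2 := ⟨_, rfl⟩
  set P : Finset ℕ := (range (X + 1)).filter (fun q => q.Prime ∧ ¬ q ∣ m) with hP
  have hPz : ∀ q ∈ P, z < q := by
    intro q hq
    rw [hP, mem_filter] at hq
    by_contra hc
    exact hq.2.2 (hmz q hq.2.1 (not_lt.mp hc))
  let badG : ℕ → Finset (ℕ × ℕ) := fun q =>
    box.filter (fun p => (q : ℤ) ∣ A p.1 ∧ (q : ℤ) ∣ Bb p.2)
  let badF : ℕ → Finset (ℕ × ℕ) := fun q =>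
    box.filter (fun p => Int.gcd (A p.1) (Bb p.2) = 1 ∧ (q : ℤ) ^ 2 ∣ bform c (A p.1) (Bb p.2))
  -- count of residue classes
  have hres : ∀ n : ℕ, 0 < n → IsCoprime (m : ℤ) (n : ℤ) → ∀ r : ℤ,
      ((range M).filter (fun s : ℕ => (n : ℤ) ∣ A s + r)).card ≤ M / n + 1 := by
    intro n hn hmn r
    have := card_filter_dvd_le M n hn (m : ℤ) (a1 % m + m * (j * M) + r) hmn
    refine le_trans (le_of_eq (congrArg card (filter_congr fun s _ => ?_))) this
    simp only [hA]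
    rw [show a1 % (m : ℤ) + m * (j * M + s) + r = m * s + (a1 % m + m * (j * M) + r) by ring]
  have hresB : ∀ n : ℕ, 0 < n → IsCoprime (m : ℤ) (n : ℤ) →
      ((range M).filter (fun t : ℕ => (n : ℤ) ∣ Bb t)).card ≤ M / n + 1 := by
    intro n hn hmn
    have := card_filter_dvd_le M n hn (m : ℤ) (b1 % m + m * (k * M)) hmn
    refine le_trans (le_of_eq (congrArg card (filter_congr fun t _ => ?_))) this
    simp only [hBb]
    rw [show b1 % (m : ℤ) + m * ((k : ℤ) * M + t) = m * t + (b1 % m + m * (k * M)) by ring]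
  have hcopm : ∀ q ∈ P, IsCoprime (m : ℤ) (q : ℤ) := by
    intro q hq
    rw [hP, mem_filter] at hq
    rw [Int.isCoprime_iff_nat_coprime, Int.natAbs_natCast, Int.natAbs_natCast]
    exact (Nat.Prime.coprime_iff_not_dvd hq.2.1).mpr hq.2.2 |>.symm
  have hG : ∀ q ∈ P, ((badG q).card : ℝ) ≤ ((M : ℝ) / q + 1) ^ 2 := by
    intro q hq
    have hq0 : 0 < q := lt_of_le_of_lt (Nat.zero_le z) (hPz q hq)
    have hsub : badG q ⊆ ((range M).filter fun s => (q : ℤ) ∣ A s + 0) ×ˢ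
        ((range M).filter fun t => (q : ℤ) ∣ Bb t) := by
      intro p hp
      simp only [badG, hbox, mem_filter, mem_product] at hp
      simp only [mem_product, mem_filter, add_zero]
      exact ⟨⟨hp.1.1, hp.2.1⟩, hp.1.2, hp.2.2⟩
    have h1 := (card_le_card hsub).trans_eq (card_product _ _)
    have h2 := Nat.mul_le_mul (hres q hq0 (hcopm q hq) 0) (hresB q hq0 (hcopm q hq))
    calc ((badG q).card : ℝ) ≤ (((M / q + 1) * (M / q + 1) : ℕ) : ℝ) := by
          exact_mod_cast h1.trans h2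
      _ ≤ _ := by
          push_cast
          have := Nat.cast_div_le (α := ℝ) (m := M) (n := q)
          have h0 : (0 : ℝ) ≤ ((M / q : ℕ) : ℝ) := by positivity
          nlinarith
  have hclasses : ∀ q ∈ P, ∃ T : Finset (Option ℤ), T.card ≤ 5 ∧ ∀ p ∈ badF q, ∃ o ∈ T,
      Option.elim o ((q : ℤ) ^ 2 ∣ Bb p.2) (fun θ => (q : ℤ) ^ 2 ∣ A p.1 - θ * Bb p.2) := by
    intro q hq
    have hq' := (mem_filter.mp (hP ▸ hq)).2.1
    obtain ⟨Θ, hΘ, hΘ'⟩ := exists_classes c u v B hcert q hq' (hzB q hq' (hPz q hq))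
      (hztop q hq' (hPz q hq))
    refine ⟨insert none (Θ.image some), (card_insert_le _ _).trans
      (Nat.succ_le_succ (card_image_le.trans hΘ)), fun p hp => ?_⟩
    simp only [badF, mem_filter] at hp
    have hnd : ¬ ((q : ℤ) ∣ A p.1 ∧ (q : ℤ) ∣ Bb p.2) := fun ⟨h1, h2⟩ => by
      have h3 := Int.natCast_dvd_natCast.mp (Int.dvd_coe_gcd h1 h2)
      rw [hp.2.1] at h3
      exact hq'.not_dvd_one h3
    rcases hΘ' _ _ hnd hp.2.2 with h | ⟨θ, hθ, h⟩
    · exact ⟨none, mem_insert_self _ _, h⟩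
    · exact ⟨some θ, mem_insert_of_mem (mem_image_of_mem _ hθ), h⟩
  -- small primes
  have hFsmall : ∀ q ∈ P, ((badF q).card : ℝ) ≤ 5 * ((M : ℝ) ^ 2 / (q : ℝ) ^ 2 + M) := by
    intro q hq
    have hq0 : 0 < q := lt_of_le_of_lt (Nat.zero_le z) (hPz q hq)
    have hcop2 : IsCoprime (m : ℤ) ((q ^ 2 : ℕ) : ℤ) := by
      push_cast; exact (hcopm q hq).pow_right
    obtain ⟨T, hT, hT'⟩ := hclasses q hq
    let cls : Option ℤ → Finset (ℕ × ℕ) := fun o => box.filter (fun p =>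
      Option.elim o ((q : ℤ) ^ 2 ∣ Bb p.2) (fun θ => (q : ℤ) ^ 2 ∣ A p.1 - θ * Bb p.2))
    have hsub : badF q ⊆ T.biUnion cls := fun p hp => by
      obtain ⟨o, ho, h⟩ := hT' p hp
      exact mem_biUnion.mpr ⟨o, ho, mem_filter.mpr ⟨(mem_filter.mp hp).1, h⟩⟩
    have hcls : ∀ o, (cls o).card ≤ (M / q ^ 2 + 1) * M := by
      intro o
      cases o with
      | none =>
        refine le_trans (card_le_card (t := range M ×ˢ ((range M).filter fun t =>
          ((q ^ 2 : ℕ) : ℤ) ∣ Bb t)) fun p hp => ?_) ?_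
        · simp only [cls, hbox, mem_filter, mem_product, Option.elim_none] at hp
          simp only [mem_product, mem_filter, Nat.cast_pow]
          exact ⟨hp.1.1, hp.1.2, hp.2⟩
        · rw [card_product, card_range, mul_comm]
          exact Nat.mul_le_mul_right M (hresB _ (by positivity) hcop2)
      | some θ =>
        refine le_trans (Finset.card_le_mul_card_image (f := Prod.snd) _ (M / q ^ 2 + 1)
          fun t _ => ?_) (Nat.mul_le_mul_left _ ?_)
        · refine le_trans (Finset.card_le_card_of_injOn Prod.fst ?_ ?_)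
            (hres (q ^ 2) (by positivity) hcop2 (-(θ * Bb t)))
          · intro p hp
            simp only [cls, hbox, mem_coe, mem_filter, mem_product, Option.elim_some] at hp
            rw [mem_coe, mem_filter, Nat.cast_pow, ← sub_eq_add_neg, ← hp.2]
            exact ⟨mem_range.mpr (mem_range.mp hp.1.1.1), hp.1.2⟩
          · intro p hp p' hp' h
            simp only [mem_coe, mem_filter] at hp hp'
            exact Prod.ext h (hp.2.trans hp'.2.symm)
        · refine (card_le_card (image_subset_iff.mpr fun p hp => ?_)).trans (card_range M).le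
          simp only [cls, hbox, mem_filter, mem_product] at hp
          exact hp.1.2
    have h1 : (badF q).card ≤ 5 * ((M / q ^ 2 + 1) * M) :=
      (card_le_card hsub).trans ((card_biUnion_le_card_mul _ _ _ fun o _ => hcls o).trans
        (Nat.mul_le_mul_right _ hT))
    calc ((badF q).card : ℝ) ≤ ((5 * ((M / q ^ 2 + 1) * M) : ℕ) : ℝ) := by exact_mod_cast h1
      _ ≤ _ := by
        push_cast
        have := Nat.cast_div_le (α := ℝ) (m := M) (n := q ^ 2)
        push_cast at this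
        have h2 := mul_le_mul_of_nonneg_right this (Nat.cast_nonneg (α := ℝ) M)
        have e : (M : ℝ) / (q : ℝ) ^ 2 * M = (M : ℝ) ^ 2 / (q : ℝ) ^ 2 := by ring
        nlinarith
  -- large primes
  have hFlarge : ∀ q ∈ P, Dn * M < q → (badF q).card ≤ 5 := by
    intro q hq hbig
    obtain ⟨T, hT, hT'⟩ := hclasses q hq
    choose! o ho ho' using hT'
    refine le_trans (Finset.card_le_card_of_injOn o ho ?_) hT
    intro p hp p' hp' heq
    have h := ho' p hp
    have h' := ho' p' hp'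
    rw [← heq] at h'
    simp only [badF, hbox, mem_coe, mem_filter, mem_product, mem_range] at hp hp'
    have hdet : (q : ℤ) ^ 2 ∣ A p.1 * Bb p'.2 - A p'.1 * Bb p.2 := by
      cases ho : o p with
      | none =>
        rw [ho] at h h'
        exact dvd_sub (h'.mul_left _) (h.mul_left _)
      | some θ =>
        rw [ho] at h h'
        simp only [Option.elim_some] at h h'
        have := dvd_sub (h.mul_right (Bb p'.2)) (h'.mul_right (Bb p.2))
        ring_nf at this ⊢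
        exact this
    have hlt : |A p.1 * Bb p'.2 - A p'.1 * Bb p.2| < (q : ℤ) ^ 2 := by
      obtain ⟨e1, e2⟩ := habs p.1 hp.1.1 p.2 hp.1.2
      obtain ⟨e1', e2'⟩ := habs p'.1 hp'.1.1 p'.2 hp'.1.2
      have hLq : 2 * L < q := by
        have : (Dn * M : ℕ) < (q : ℤ) := by exact_mod_cast hbig
        rw [hL]; push_cast [hDn] at this ⊢; nlinarith
      have hL0 : 0 ≤ L := (abs_nonneg _).trans e1
      calc |A p.1 * Bb p'.2 - A p'.1 * Bb p.2|
          ≤ |A p.1 * Bb p'.2| + |A p'.1 * Bb p.2| := abs_sub _ _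
        _ ≤ L * L + L * L := by
          rw [abs_mul, abs_mul]
          exact add_le_add (mul_le_mul e1 e2' (abs_nonneg _) hL0)
            (mul_le_mul e1' e2 (abs_nonneg _) hL0)
        _ < (q : ℤ) ^ 2 := by nlinarith
    have h0 := Int.eq_zero_of_abs_lt_dvd hdet hlt
    have hBpos : ∀ t < M, 0 < Bb t := fun t ht =>
      lt_of_lt_of_le (by exact_mod_cast hM0) (hMB t ht)
    have hBB : Bb p.2 = Bb p'.2 := by
      refine Int.dvd_antisymm (hBpos _ hp.1.2).le (hBpos _ hp'.1.2).le ?_ ?_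
      · have h1 : Bb p.2 ∣ A p.1 * Bb p'.2 := ⟨A p'.1, by linear_combination h0⟩
        exact ((Int.isCoprime_iff_gcd_eq_one.mpr hp.2.1).symm).dvd_of_dvd_mul_left h1
      · have h1 : Bb p'.2 ∣ A p'.1 * Bb p.2 := ⟨A p.1, by linear_combination -h0⟩
        exact ((Int.isCoprime_iff_gcd_eq_one.mpr hp'.2.1).symm).dvd_of_dvd_mul_left h1
    have hAA : A p.1 = A p'.1 := by
      rw [hBB] at h0
      exact mul_right_cancel₀ (hBpos _ hp'.1.2).ne' (sub_eq_zero.mp h0)
    simp only [hA, hBb, add_right_inj, mul_eq_mul_left_iff, Nat.cast_inj, hm'.ne', or_false] at hAA hBB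
    exact Prod.ext hAA hBB
  -- total count
  have htotal : (((P.biUnion fun q => badG q ∪ badF q)).card : ℝ) < (box.card : ℝ) := by
    have hper : ∀ q ∈ P, (((badG q ∪ badF q).card : ℕ) : ℝ) ≤
        6 * (M : ℝ) ^ 2 / (q : ℝ) ^ 2 + (if q ≤ Dn * M then 8 * (M : ℝ) else 0) + 8 := by
      intro q hq
      have hq0 : (1 : ℝ) ≤ q := by exact_mod_cast (Nat.one_le_of_lt (hPz q hq))
      have h1 : (((badG q ∪ badF q).card : ℕ) : ℝ) ≤ (badG q).card + (badF q).card := by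
        exact_mod_cast card_union_le (badG q) (badF q)
      have h2 := hG q hq
      have e : ((M : ℝ) / q + 1) ^ 2 = (M : ℝ) ^ 2 / (q : ℝ) ^ 2 + 2 * ((M : ℝ) / q) + 1 := by ring
      have e' : 6 * (M : ℝ) ^ 2 / (q : ℝ) ^ 2 = 6 * ((M : ℝ) ^ 2 / (q : ℝ) ^ 2) := by ring
      have hnn : 0 ≤ (M : ℝ) ^ 2 / (q : ℝ) ^ 2 := by positivity
      split_ifs with hs
      · have h3 := hFsmall q hq
        have h4 : (M : ℝ) / q ≤ M := div_le_self (by positivity) hq0
        nlinarith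
      · have h3 : ((badF q).card : ℝ) ≤ 5 := by exact_mod_cast hFlarge q hq (not_le.mp hs)
        have h4 : (M : ℝ) / q ≤ 1 := by
          rw [div_le_one (by linarith)]
          have : M ≤ Dn * M := Nat.le_mul_of_pos_left _ hDpos
          exact_mod_cast this.trans (not_le.mp hs).le
        nlinarith
    have h1 : (((P.biUnion fun q => badG q ∪ badF q)).card : ℝ) ≤
        ∑ q ∈ P, (((badG q ∪ badF q).card : ℕ) : ℝ) := by
      exact_mod_cast card_biUnion_le
    refine lt_of_le_of_lt (h1.trans (sum_le_sum hper)) ?_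
    rw [sum_add_distrib, sum_add_distrib, ← sum_filter, sum_const, sum_const, nsmul_eq_mul,
      nsmul_eq_mul, hbox, card_product, card_range]
    have s1 : ∑ q ∈ P, 6 * (M : ℝ) ^ 2 / (q : ℝ) ^ 2 ≤ 6 * (M : ℝ) ^ 2 * (1 / 20) := by
      have := sum_inv_sq_le z (by omega) P hPz
      have h20 : (1 : ℝ) / z ≤ 1 / 20 :=
        one_div_le_one_div_of_le (by norm_num) (by exact_mod_cast hz)
      have e : ∑ q ∈ P, 6 * (M : ℝ) ^ 2 / (q : ℝ) ^ 2 =
          6 * (M : ℝ) ^ 2 * ∑ q ∈ P, (1 : ℝ) / (q : ℝ) ^ 2 := by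
        rw [mul_sum]; exact sum_congr rfl fun q _ => by ring
      rw [e]
      exact mul_le_mul_of_nonneg_left (this.trans h20) (by positivity)
    have c1 : ((P.filter fun q => q ≤ Dn * M).card) ≤ Nat.primeCounting (Dn * M) := by
      rw [← Nat.primesLE_card_eq_primeCounting]
      refine card_le_card fun q hq => ?_
      simp only [hP, mem_filter] at hq
      exact Nat.mem_primesLE.mpr ⟨hq.2, hq.1.2.1⟩
    have c2 : P.card ≤ Nat.primeCounting X := by
      rw [← Nat.primesLE_card_eq_primeCounting]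
      refine card_le_card fun q hq => ?_
      simp only [hP, mem_filter, mem_range] at hq
      exact Nat.mem_primesLE.mpr ⟨Nat.lt_succ_iff.mp hq.1, hq.2.1⟩
    have hNM : N0 ≤ Dn * M := le_trans (by omega) (Nat.le_mul_of_pos_left M hDpos)
    have hNX : N0 ≤ X := le_trans (le_trans (by omega) (Nat.le_self_pow two_ne_zero M))
      ((Nat.le_mul_of_pos_left (M ^ 2) hCpos).trans_eq hX.symm)
    have d1 := le_trans (Nat.cast_le.mpr c1) (hN0 _ hNM)
    have d2 := le_trans (Nat.cast_le.mpr c2) (hN0 _ hNX)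
    rw [Nat.cast_mul] at d1
    rw [hX, Nat.cast_mul, Nat.cast_pow] at d2
    rw [Nat.cast_mul]
    exact total_lt (M : ℝ) Dn Cn _ _ _ (by exact_mod_cast hM0) (by exact_mod_cast hDpos)
      (by exact_mod_cast hCpos) s1 d1 d2
  obtain ⟨p, hpbox, hpbad⟩ := exists_mem_notMem_of_card_lt_card (Nat.cast_lt.mp htotal)
  rw [hbox, mem_product, mem_range, mem_range] at hpbox
  obtain ⟨hs, ht⟩ := hpbox
  have hpb : p ∈ box := by rw [hbox, mem_product, mem_range, mem_range]; exact ⟨hs, ht⟩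
  have hBpos : 0 < Bb p.2 := lt_of_lt_of_le (by exact_mod_cast hM0) (hMB _ ht)
  have hdA : (m : ℤ) ∣ A p.1 - a1 := ⟨j * M + p.1 - a1 / m, by
    simp only [hA]; linear_combination Int.mul_ediv_add_emod a1 m⟩
  have hdB : (m : ℤ) ∣ Bb p.2 - b1 := ⟨k * M + p.2 - b1 / m, by
    simp only [hBb]; linear_combination Int.mul_ediv_add_emod b1 m⟩
  obtain ⟨eA, eB⟩ := habs p.1 hs p.2 ht
  have hLX : L ≤ (X : ℤ) ∧ 2 * (Dn * M : ℕ) ≤ X := by
    have hM2 : M ≤ M ^ 2 := Nat.le_self_pow two_ne_zero M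
    have hKC : 4 * (K * m + 1) ≤ Cn := by
      rw [hCn]
      have hs : K * m + 1 ≤ (K * m + 1) ^ 2 := Nat.le_self_pow two_ne_zero _
      nlinarith
    constructor
    · rw [hL, hX]
      exact_mod_cast Nat.mul_le_mul (show K * m ≤ Cn by omega) hM2
    · rw [hX, ← mul_assoc]
      refine Nat.mul_le_mul ?_ hM2
      have : 2 * K * m = 2 * (K * m) := mul_assoc 2 K m
      omega
  have hgcd : Int.gcd (A p.1) (Bb p.2) = 1 := by
    by_contra hne
    obtain ⟨q, hq, hqd⟩ := Nat.exists_prime_and_dvd hne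
    have hqa : (q : ℤ) ∣ A p.1 := (Int.natCast_dvd_natCast.mpr hqd).trans (Int.gcd_dvd_left _ _)
    have hqb : (q : ℤ) ∣ Bb p.2 := (Int.natCast_dvd_natCast.mpr hqd).trans (Int.gcd_dvd_right _ _)
    have hqm : ¬ q ∣ m := fun h => by
      have h' : (q : ℤ) ∣ m := Int.natCast_dvd_natCast.mpr h
      have ha : (q : ℤ) ∣ a1 := by
        simpa using dvd_sub hqa (h'.trans hdA)
      have hb : (q : ℤ) ∣ b1 := by
        simpa using dvd_sub hqb (h'.trans hdB)
      have h3 := Int.natCast_dvd_natCast.mp (Int.dvd_coe_gcd ha hb)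
      rw [hab] at h3
      exact hq.not_dvd_one h3
    have hqX : q ≤ X := by
      have h4 := Int.le_of_dvd hBpos hqb
      have h5 : (q : ℤ) ≤ X := h4.trans ((le_abs_self _).trans (eB.trans hLX.1))
      exact_mod_cast h5
    exact hpbad (mem_biUnion.mpr ⟨q, mem_filter.mpr ⟨mem_range.mpr (Nat.lt_succ_of_le hqX), hq, hqm⟩,
      mem_union_left _ (mem_filter.mpr ⟨hpb, hqa, hqb⟩)⟩)
  have hnot : ∀ q : ℕ, q.Prime → ¬ q ∣ m → q ≤ X → ¬ (q : ℤ) ^ 2 ∣ bform c (A p.1) (Bb p.2) :=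
    fun q hq hqm hqX hd => hpbad (mem_biUnion.mpr
      ⟨q, mem_filter.mpr ⟨mem_range.mpr (Nat.lt_succ_of_le hqX), hq, hqm⟩,
        mem_union_right _ (mem_filter.mpr ⟨hpb, hgcd, hd⟩)⟩)
  have hF0 : bform c (A p.1) (Bb p.2) ≠ 0 := by
    intro h0
    obtain ⟨q, hq, hq1, hq2⟩ := Nat.exists_prime_lt_and_le_two_mul (Dn * M) (by positivity)
    have hqm : ¬ q ∣ m := fun h => by
      have h1 := Nat.le_of_dvd hm h
      have h2 : M ≤ Dn * M := Nat.le_mul_of_pos_left _ hDpos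
      omega
    exact hnot q hq hqm (hq2.trans hLX.2) (h0 ▸ dvd_zero _)
  have hbound : |bform c (A p.1) (Bb p.2)| ≤ (S : ℤ) * L ^ 4 := by
    rw [bform, hS]
    push_cast
    rw [sum_mul]
    refine (abs_sum_le_sum_abs _ _).trans (sum_le_sum fun i _ => ?_)
    rw [abs_mul, abs_mul, abs_pow, abs_pow, mul_assoc]
    refine mul_le_mul_of_nonneg_left ?_ (abs_nonneg _)
    have hL0 : 0 ≤ L := (abs_nonneg _).trans eA
    calc |A p.1| ^ (i : ℕ) * |Bb p.2| ^ (4 - (i : ℕ)) ≤ L ^ (i : ℕ) * L ^ (4 - (i : ℕ)) :=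
          mul_le_mul (pow_le_pow_left₀ (abs_nonneg _) eA _) (pow_le_pow_left₀ (abs_nonneg _) eB _)
            (by positivity) (by positivity)
      _ = L ^ 4 := by rw [← pow_add]; congr 1; omega
  have hB0 : B0 ≤ Bb p.2 := le_trans (le_trans Int.le_natAbs (by
    rw [hMdef]; push_cast; omega)) (hMB _ ht)
  have hpR : (0 : ℝ) < m * M := by positivity
  have hLB : ((k : ℝ)) * (m * M) ≤ (Bb p.2 : ℝ) ∧ (Bb p.2 : ℝ) ≤ (k + 1) * (m * M) := by
    constructor
    · exact_mod_cast (hB1 _ ht).1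
    · exact_mod_cast (hB1 _ ht).2.le
  have hLA : ((j : ℝ)) * (m * M) ≤ (A p.1 : ℝ) ∧ (A p.1 : ℝ) ≤ (j + 1) * (m * M) := by
    constructor
    · exact_mod_cast (hA1 _ hs).1
    · exact_mod_cast (hA1 _ hs).2.le
  have hBR : (0 : ℝ) < (Bb p.2 : ℝ) := by exact_mod_cast hBpos
  refine ⟨A p.1, Bb p.2, hB0, hBpos, hgcd, hdA, hdB, ?_, ?_, hF0, ?_⟩
  · exact (ratio_between x y (k : ℝ) (j : ℝ) _ _ _ hpR (by exact_mod_cast hk0) hj1 hj2
      hLA.1 hLA.2 hLB.1 hLB.2 hBR).1
  · exact (ratio_between x y (k : ℝ) (j : ℝ) _ _ _ hpR (by exact_mod_cast hk0) hj1 hj2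
      hLA.1 hLA.2 hLB.1 hLB.2 hBR).2
  · intro q hq hqm hd
    refine hnot q hq hqm ?_ hd
    by_contra hc
    push Not at hc
    have h1 := Int.le_of_dvd (abs_pos.mpr hF0) ((dvd_abs _ _).mpr hd)
    have h2 : (q : ℤ) ^ 2 ≤ S * L ^ 4 := h1.trans hbound
    have h3 : ((X : ℕ) : ℤ) ^ 2 < (q : ℤ) ^ 2 :=
      pow_lt_pow_left₀ (by exact_mod_cast hc) (by positivity) two_ne_zero
    have h4 : (S : ℤ) * L ^ 4 ≤ ((X : ℕ) : ℤ) ^ 2 := by
      rw [hL, hX, hCn]
      push_cast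
      set w : ℤ := (K : ℤ) * m with hw
      set s' : ℤ := (S : ℤ) with hs'
      have hw0 : 0 ≤ w := by positivity
      have e1 : s' ≤ (2 * (s' + 2)) ^ 2 := by nlinarith [(by positivity : 0 ≤ s')]
      have e2 : w ^ 4 ≤ (w + 1) ^ 4 := pow_le_pow_left₀ hw0 (by linarith) 4
      have e3 := mul_le_mul e1 e2 (by positivity) (by positivity)
      calc s' * (w * M) ^ 4 = s' * w ^ 4 * (M : ℤ) ^ 4 := by ring
        _ ≤ (2 * (s' + 2)) ^ 2 * (w + 1) ^ 4 * (M : ℤ) ^ 4 :=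
            mul_le_mul_of_nonneg_right e3 (by positivity)
        _ = _ := by ring
    exact absurd (lt_of_lt_of_le h3 (h2.trans h4)) (lt_irrefl _)

/-- Squarefree values, away from a finite set of primes depending only on the form, of a separable
binary quartic form in a congruence class and a real cone. -/
theorem exists_squarefree_value (c : Fin 5 → ℤ)
    (hsep : (∑ i : Fin 5, Polynomial.monomial (i : ℕ) (c i : ℚ)).Separable)
    (hdeg : c 4 ≠ 0 ∨ c 3 ≠ 0) :
    ∃ S0 : Finset ℕ, ∀ (m : ℕ) (a0 b0 : ℤ), 0 < m → Nat.gcd (Int.gcd a0 b0) m = 1 →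
      ∀ x y : ℝ, x < y → ∀ B0 : ℤ, ∃ a b : ℤ, B0 ≤ b ∧ 0 < b ∧ Int.gcd a b = 1 ∧
        (m : ℤ) ∣ a - a0 ∧ (m : ℤ) ∣ b - b0 ∧ x < (a : ℝ) / b ∧ (a : ℝ) / b < y ∧
        bform c a b ≠ 0 ∧
        ∀ q : ℕ, q.Prime → q ∉ S0 → ¬ q ∣ m → ¬ ((q : ℤ) ^ 2 ∣ bform c a b) := by
  obtain ⟨u, v, B, hB, hcert⟩ := exists_certificate (qpoly c) (by
    rw [qpoly, Polynomial.map_sum]
    simpa [map_monomial] using hsep)
  let top : ℤ := if c 4 = 0 then c 3 else c 4
  have htop0 : top ≠ 0 := by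
    simp only [top]; split_ifs with h
    · exact hdeg.resolve_left (not_not.mpr h)
    · exact h
  set z : ℕ := 20 + B.natAbs + top.natAbs with hz
  refine ⟨(range (z + 1)).filter Nat.Prime, fun m a0 b0 hm hgcd x y hxy B0 => ?_⟩
  obtain ⟨a1, b1, hab, ha1, hb1⟩ := exists_coprime_lift m hm a0 b0 hgcd
  obtain ⟨a, b, h1, h2, h3, h4, h5, h6, h7, h8, h9⟩ := exists_good_in_class c u v B hcert z
    (by omega) (fun q _ hzq hd => by
      have := Nat.le_of_dvd (Int.natAbs_pos.mpr hB) (Int.natCast_dvd.mp hd)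
      omega)
    (fun q _ hzq => by
      have key : ¬ (q : ℤ) ∣ top := fun hd => by
        have := Nat.le_of_dvd (Int.natAbs_pos.mpr htop0) (Int.natCast_dvd.mp hd)
        omega
      by_cases h : c 4 = 0
      · right; exact ⟨h, by simpa [top, h] using key⟩
      · left; exact ⟨h, by simpa [top, h] using key⟩)
    (m * z.factorial) (by positivity)
    (fun q hq hqz => Dvd.dvd.mul_left (Nat.dvd_factorial hq.pos hqz) m) a1 b1 hab x y hxy B0
  have hmd : (m : ℤ) ∣ ((m * z.factorial : ℕ) : ℤ) := by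
    push_cast; exact dvd_mul_right _ _
  refine ⟨a, b, h1, h2, h3, ?_, ?_, h6, h7, h8, fun q hq hS hqm => h9 q hq fun hd => ?_⟩
  · simpa using dvd_add (hmd.trans h4) ha1
  · simpa using dvd_add (hmd.trans h5) hb1
  · rcases hq.dvd_mul.mp hd with h | h
    · exact hqm h
    · exact hS (mem_filter.mpr ⟨mem_range.mpr (Nat.lt_succ_of_le ((Nat.Prime.dvd_factorial hq).mp h)), hq⟩)

end Fermat.Agent.Residual
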