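/-
The auxiliary curve in the mod 3 pencil, with the squarefree sieve supplied.
-/
import Fermat.Agent.Residual.LocalExists
import Fermat.Agent.Residual.Sieve

set_option autoImplicit false

open WeierstrassCurve

namespace Fermat.Agent.Residual

theorem squarefreeValues_hesseCoeff {A B : ℤ} (h : A ^ 3 - B ^ 2 ≠ 0) :
    SquarefreeValues (hesseCoeff A B) :=
  exists_squarefree_value _ (separable_hesseCoeff h) (Or.inl (by simp [hesseCoeff]))

/-- For a semistable model with multiplicative reduction at `2`: a parameter of the mod 3 pencil,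
prescribed modulo auxiliary primes, whose curve has a semistable integral model, multiplicative at
`2`, with negative discriminant and odd valuation at every bad prime. -/
theorem exists_switched_model {W : WeierstrassCurve ℤ} (hΔ : W.Δ ≠ 0) (hs : W.IsSemistableModel)
    (h2 : (2 : ℤ) ∣ W.Δ)
    (T : Finset ℕ) (hT : ∀ q ∈ T, q.Prime ∧ ¬ (q : ℤ) ∣ 6 * W.Δ) (f g : ℕ → ℤ)
    (hfg : ∀ q ∈ T, ¬ (q : ℤ) ∣ hesseD W.c₄ W.c₆ (f q) (g q)) :
    ∃ (a b : ℤ) (W' : WeierstrassCurve ℤ), Admissible W a b ∧ 0 < b ∧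
      W'.IsSemistableModel ∧ (2 : ℤ) ∣ W'.Δ ∧ W'.Δ < 0 ∧
      (∀ q : ℕ, q.Prime → (q : ℤ) ∣ W'.Δ → Odd (padicValInt q W'.Δ)) ∧
      hesseScale W ^ 4 * W'.c₄ = hesseC4 W.c₄ W.c₆ a b ∧
      hesseScale W ^ 6 * W'.c₆ = hesseC6 W.c₄ W.c₆ a b ∧
      hesseScale W ^ 12 * W'.Δ = W.Δ * hesseD W.c₄ W.c₆ a b ^ 3 ∧
      ∀ q ∈ T, (q : ℤ) ∣ a - f q ∧ (q : ℤ) ∣ b - g q := by
  refine exists_hesse_model hΔ hs h2 (squarefreeValues_hesseCoeff ?_) T hT f g hfg
  rw [c₄_cube_sub_c₆_sq]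
  exact mul_ne_zero (by norm_num) hΔ

end Fermat.Agent.Residual
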