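/-
The auxiliary curve: semistable, same 3-torsion, negative discriminant of odd valuation at every bad
prime, multiplicative at `2` and at some odd prime, without rational point of order 2.
-/
import Fermat.Agent.Residual.FamilyCongruence
import Fermat.Agent.Residual.LocalModel
import Mathlib.RingTheory.Int.Basic
import Mathlib.RingTheory.Polynomial.RationalRoot

set_option autoImplicit false

open WeierstrassCurve

namespace Fermat.Agent.Residual

/-- A semistable model with negative discriminant, multiplicative at `2` and of odd valuation at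
every bad prime has no rational point of order two. -/
theorem no_rational_two_torsion {W : WeierstrassCurve ℤ} (hs : W.IsSemistableModel)
    (hneg : W.Δ < 0) (h2 : (2 : ℤ) ∣ W.Δ)
    (hodd : ∀ q : ℕ, q.Prime → (q : ℤ) ∣ W.Δ → Odd (padicValInt q W.Δ)) (x : ℚ) :
    4 * x ^ 3 + (W.b₂ : ℚ) * x ^ 2 + 2 * (W.b₄ : ℚ) * x + (W.b₆ : ℚ) ≠ 0 := by
  intro hx
  obtain ⟨s, hs'⟩ : ∃ s : ℤ, (s : ℚ) = 4 * x := by
    have hint : _root_.IsIntegral ℤ (4 * x : ℚ) := by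
      refine ⟨Polynomial.X ^ 3 + Polynomial.C W.b₂ * Polynomial.X ^ 2 +
        Polynomial.C (8 * W.b₄) * Polynomial.X + Polynomial.C (16 * W.b₆), by monicity!, ?_⟩
      simp only [Polynomial.eval₂_add, Polynomial.eval₂_mul, Polynomial.eval₂_pow,
        Polynomial.eval₂_X, Polynomial.eval₂_C]
      simp only [eq_intCast]
      push_cast
      linear_combination 16 * hx
    obtain ⟨s, hs'⟩ := IsIntegrallyClosed.isIntegral_iff.mp hint
    exact ⟨s, by rw [← hs', eq_intCast]⟩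
  have hroot : s ^ 3 + W.b₂ * s ^ 2 + 8 * W.b₄ * s + 16 * W.b₆ = 0 := by
    have h : ((s ^ 3 + W.b₂ * s ^ 2 + 8 * W.b₄ * s + 16 * W.b₆ : ℤ) : ℚ) = 0 := by
      push_cast; rw [hs']; linear_combination 16 * hx
    exact_mod_cast h
  -- the quadratic cofactor `w² + A w + B`, with `A² - 3 B = c₄` and discriminant `256 Δ`
  obtain ⟨A, hA⟩ : ∃ A, A = 3 * s + W.b₂ := ⟨_, rfl⟩
  obtain ⟨B, hB⟩ : ∃ B, B = 3 * s ^ 2 + 2 * W.b₂ * s + 8 * W.b₄ := ⟨_, rfl⟩
  have hc4 : A ^ 2 - 3 * B = W.c₄ := by simp only [hA, hB, c₄]; ring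
  have hdisc : B ^ 2 * (A ^ 2 - 4 * B) = 256 * W.Δ := by
    simp only [hA, hB, WeierstrassCurve.Δ]
    have hb8 := W.b_relation
    have h6 : 16 * W.b₆ = -(s ^ 3 + W.b₂ * s ^ 2 + 8 * W.b₄ * s) := by linear_combination hroot
    linear_combination (64 * W.b₂ ^ 2) * hb8 +
      (27 * (16 * W.b₆) - 27 * (s ^ 3 + W.b₂ * s ^ 2 + 8 * W.b₄ * s) + 4 * W.b₂ ^ 3
        - 144 * W.b₂ * W.b₄) * h6
  have hB0 : B ≠ 0 := fun h => by
    rw [h] at hdisc
    have h' : (0 : ℤ) = 256 * W.Δ := by linear_combination hdisc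
    omega
  have hBpos : 0 < B := by
    by_contra hle
    have h1 : 0 ≤ A ^ 2 - 4 * B := by nlinarith
    nlinarith [mul_nonneg (sq_nonneg B) h1]
  -- no odd prime divides `B`
  have hBtwo : ∀ q : ℕ, q.Prime → (q : ℤ) ∣ B → q = 2 := by
    intro q hq hqB
    by_contra hq2
    haveI := Fact.mk hq
    have hp : Prime (q : ℤ) := Nat.prime_iff_prime_int.1 hq
    have hq256 : ¬ (q : ℤ) ∣ 256 := by
      intro h
      have h' : q ∣ 2 ^ 8 := by exact_mod_cast (show (q : ℤ) ∣ ((2 ^ 8 : ℕ) : ℤ) by simpa using h)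
      exact hq2 ((Nat.prime_dvd_prime_iff_eq hq Nat.prime_two).1 (hq.dvd_of_dvd_pow h'))
    have hqΔ : (q : ℤ) ∣ W.Δ := by
      refine (hp.dvd_or_dvd ?_).resolve_left hq256
      rw [← hdisc]
      exact dvd_mul_of_dvd_left (dvd_pow hqB two_ne_zero) _
    have hqA : ¬ (q : ℤ) ∣ A ^ 2 - 4 * B := fun h => by
      refine hs q hq hqΔ ?_
      rw [← hc4, show A ^ 2 - 3 * B = (A ^ 2 - 4 * B) + B by ring]
      exact dvd_add h hqB
    have hne : A ^ 2 - 4 * B ≠ 0 := fun h => hqA (h ▸ dvd_zero _)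
    have hv : padicValInt q (256 * W.Δ) = padicValInt q W.Δ := by
      rw [padicValInt.mul (by norm_num) hneg.ne, padicValInt.eq_zero_of_not_dvd hq256, zero_add]
    rw [← hdisc, padicValInt.mul (pow_ne_zero _ hB0) hne, padicValInt.eq_zero_of_not_dvd hqA,
      add_zero, padicValInt_pow] at hv
    obtain ⟨k, hk⟩ := hodd q hq hqΔ
    omega
  have h2c : ¬ (2 : ℤ) ∣ A ^ 2 - 3 * B := fun h => hs 2 Nat.prime_two h2 (by rwa [← hc4])
  by_cases h2B : (2 : ℤ) ∣ B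
  · -- `B` even: the valuation at `2` is even
    haveI := Fact.mk Nat.prime_two
    have hA2 : ¬ (2 : ℤ) ∣ A ^ 2 - 4 * B := fun h => h2c (by
      rw [show A ^ 2 - 3 * B = (A ^ 2 - 4 * B) + B by ring]; exact dvd_add h h2B)
    have hne : A ^ 2 - 4 * B ≠ 0 := fun h => hA2 (h ▸ dvd_zero _)
    have h256 : padicValInt 2 (256 : ℤ) = 8 := by
      rw [show (256 : ℤ) = (((2 : ℕ) : ℤ)) ^ 8 by norm_num, padicValInt_pow,
        padicValInt.self Nat.prime_two.one_lt]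
    have hv : padicValInt 2 (B ^ 2 * (A ^ 2 - 4 * B)) = padicValInt 2 (256 * W.Δ) := by rw [hdisc]
    have hA20 : padicValInt 2 (A ^ 2 - 4 * B) = 0 :=
      padicValInt.eq_zero_of_not_dvd (by exact_mod_cast hA2)
    rw [padicValInt.mul (pow_ne_zero _ hB0) hne, hA20, add_zero, padicValInt_pow,
      padicValInt.mul (by norm_num) hneg.ne, h256] at hv
    obtain ⟨k, hk⟩ := hodd 2 Nat.prime_two (by exact_mod_cast h2)
    omega
  · -- `B` odd: then `B = 1`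
    have hB1 : B = 1 := by
      by_contra hne
      have hn : B.natAbs ≠ 1 := by omega
      have hdvd : (B.natAbs.minFac : ℤ) ∣ B := Int.natCast_dvd.2 (Nat.minFac_dvd _)
      have := hBtwo _ (Nat.minFac_prime hn) hdvd
      rw [this] at hdvd
      exact h2B (by exact_mod_cast hdvd)
    subst hB1
    have hA0 : A = 0 := by
      have hlt : A ^ 2 < 4 := by nlinarith
      have h1 : -2 < A := by nlinarith
      have h2' : A < 2 := by nlinarith
      interval_cases A <;> first | rfl | exact absurd (by norm_num) h2c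
    rw [hA0] at hdisc
    norm_num at hdisc
    omega

/-- The curve attached to admissible parameters with very negative discriminant. -/
theorem exists_auxiliary_curve_of_admissible {W : WeierstrassCurve ℤ} (hΔ : W.Δ ≠ 0)
    (hs : W.IsSemistableModel) (h2 : (2 : ℤ) ∣ W.Δ) (h3 : W.ModRepIsIrreducible 3) {a b : ℤ}
    (had : Admissible W a b) (hb : 0 < b)
    (hlt : W.Δ * hesseD W.c₄ W.c₆ a b < -(|W.Δ| * 2 ^ 40)) :
    ∃ W' : WeierstrassCurve ℤ, hesseScale W ^ 12 * W'.Δ = W.Δ * hesseD W.c₄ W.c₆ a b ^ 3 ∧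
      W'.Δ < 0 ∧ W'.IsSemistableModel ∧ (2 : ℤ) ∣ W'.Δ ∧
      (∀ q : ℕ, q.Prime → (q : ℤ) ∣ W'.Δ → Odd (padicValInt q W'.Δ)) ∧
      (∃ q : ℕ, q.Prime ∧ q ≠ 2 ∧ (q : ℤ) ∣ W'.Δ) ∧
      (∀ x : ℚ, 4 * x ^ 3 + (W'.b₂ : ℚ) * x ^ 2 + 2 * (W'.b₄ : ℚ) * x + (W'.b₆ : ℚ) ≠ 0) ∧
      W'.ModRepIsIrreducible 3 ∧
      (∃ e : Submodule.torsionBy ℤ (ECRed.QbarPoint W) ((3 : ℕ) : ℤ) ≃+
          Submodule.torsionBy ℤ (ECRed.QbarPoint W') ((3 : ℕ) : ℤ),
        ∀ (σ : AlgebraicClosure ℚ ≃ₐ[ℚ] AlgebraicClosure ℚ) x, e (σ • x) = σ • e x) ∧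
      ∀ ℓ : ℕ, ℓ.Prime → W.IsGoodPrimeFor ℓ → W'.IsGoodPrimeFor ℓ → ℓ ≠ 3 →
        (3 : ℤ) ∣ W'.apOfModel ℓ - W.apOfModel ℓ := by
  obtain ⟨W', hΔ', hs', h2', hodd, e4, e6, eΔ⟩ := had.exists_model hs hΔ h2
  set D := hesseD W.c₄ W.c₆ a b with hD
  set u := hesseScale W with hu
  have hu' : u = 1 ∨ u = 4 := hesseScale_eq_one_or_four W
  have hu0 : u ≠ 0 := by rcases hu' with h | h <;> simp [h]
  have hneg : W'.Δ < 0 := by
    have hupos : (0 : ℤ) < u ^ 12 := by rcases hu' with h | h <;> rw [h] <;> norm_num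
    have h' : W.Δ * D ^ 3 < 0 := by
      rw [show W.Δ * D ^ 3 = W.Δ * D * D ^ 2 by ring]
      refine mul_neg_of_neg_of_pos (lt_of_lt_of_le hlt ?_) ?_
      · exact neg_nonpos.2 (by positivity)
      · have := had.hesseD_ne_zero hs hΔ h2
        positivity
    rw [← eΔ] at h'
    exact neg_of_mul_neg_right h' hupos.le
  have ha : a ≠ 0 := by
    rintro rfl
    have hb1 : b = 1 := by
      have := had.coprime
      rw [Int.gcd_zero_left] at this
      omega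
    subst hb1
    have hDv : D = -3 * W.c₄ ^ 2 := by rw [hD]; simp [hesseD]
    by_cases hev : Even (padicValInt 2 W.Δ)
    · have h9 := (had.cusp_two_facts hs hΔ h2 hev).1.1
      rw [← hD, hDv] at h9
      have h4 : ¬ (2 : ℤ) ∣ W.c₄ := hs 2 Nat.prime_two h2
      refine h4 (Int.prime_two.dvd_of_dvd_pow (n := 2) ?_)
      exact (Int.prime_two.dvd_or_dvd ((dvd_pow_self (2 : ℤ) (by norm_num : 9 ≠ 0)).trans h9)).resolve_left
        (by norm_num)
    · have hk := (had.keep 2 Nat.prime_two (dvd_mul_of_dvd_right h2 _) (fun h => hev h.2)).2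
      norm_num at hk
  refine ⟨W', eΔ, hneg, hs', h2', hodd, ?_, fun x => no_rational_two_torsion hs' hneg h2' hodd x,
    modRepIsIrreducible_three_of_hesse W W' hΔ hΔ' ha hu0 (by rw [mul_comm]; exact e4)
      (by rw [mul_comm]; exact e6) h3,
    exists_three_torsion_equiv W W' hΔ hΔ' ha hu0 (by rw [mul_comm]; exact e4)
      (by rw [mul_comm]; exact e6),
    fun ℓ hℓ hg hg' hne3 => dvd_apOfModel_sub_of_hesse W W' hΔ hΔ' ha hu0
      (by rw [mul_comm]; exact e4) (by rw [mul_comm]; exact e6) hℓ hg hg' hne3⟩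
  -- an odd bad prime
  by_contra! hno
  have hdvd : ∀ q : ℕ, q.Prime → q ≠ 2 → ¬ (q : ℤ) ∣ W.Δ * D := by
    intro q hq hq2 hd
    refine hno q hq hq2 ?_
    have hp : Prime (q : ℤ) := Nat.prime_iff_prime_int.1 hq
    have h' : (q : ℤ) ∣ u ^ 12 * W'.Δ := by
      rw [eΔ]
      exact hd.trans ⟨D ^ 2, by ring⟩
    refine (hp.dvd_or_dvd h').resolve_left fun h => ?_
    exact not_dvd_hesseScale hq (Or.inl hq2) (hp.dvd_of_dvd_pow h)
  have hbound : ¬ (2 : ℤ) ^ 10 ∣ D := by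
    by_cases hev : Even (padicValInt 2 W.Δ)
    · exact (had.cusp_two_facts hs hΔ h2 hev).1.2
    · intro h
      have h3' := (had.keep_congr Nat.prime_two (dvd_mul_of_dvd_right h2 _) (fun h => hev h.2)).2.2
      rw [← hD, hesseScale, if_neg hev] at h3'
      have h2D : (2 : ℤ) ∣ D := (dvd_pow_self (2 : ℤ) (by norm_num : 10 ≠ 0)).trans h
      have h21 : (2 : ℤ) ∣ D - 1 := by
        have := (dvd_pow_self (((2 : ℕ) : ℤ)) (by norm_num : 24 ≠ 0)).trans h3'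
        simpa using this
      have := dvd_sub h2D h21
      norm_num at this
  have hDne : D ≠ 0 := had.hesseD_ne_zero hs hΔ h2
  obtain ⟨k, hk⟩ : ∃ k, D.natAbs = 2 ^ k := by
    refine ⟨_, Nat.eq_prime_pow_of_unique_prime_dvd (Int.natAbs_ne_zero.2 hDne) fun hq hqd => ?_⟩
    rename_i q
    by_contra hq2
    exact hdvd q hq hq2 (dvd_mul_of_dvd_right (Int.natCast_dvd.2 hqd) _)
  have hk10 : k < 10 := by
    by_contra hge
    apply hbound
    have : ((2 ^ 10 : ℕ) : ℤ) ∣ D := Int.natCast_dvd.2 (hk ▸ pow_dvd_pow 2 (by omega))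
    simpa using this
  have hk' : |D| ≤ 2 ^ 10 := by
    rw [Int.abs_eq_natAbs, hk]
    exact_mod_cast Nat.pow_le_pow_right (by norm_num) hk10.le
  have h1 : |W.Δ * D| ≤ |W.Δ| * 2 ^ 10 := by
    rw [abs_mul]; exact mul_le_mul_of_nonneg_left hk' (abs_nonneg _)
  have h2'' : |W.Δ| * 2 ^ 10 ≤ |W.Δ| * 2 ^ 40 :=
    mul_le_mul_of_nonneg_left (by norm_num) (abs_nonneg _)
  have := neg_abs_le (W.Δ * D)
  omega

/-- The auxiliary curve of the residual modularity argument at `3`. -/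
theorem exists_auxiliary_curve (W : WeierstrassCurve ℤ) (hΔ : W.Δ ≠ 0) (hs : W.IsSemistableModel)
    (h2 : (2 : ℤ) ∣ W.Δ) (h3 : W.ModRepIsIrreducible 3) :
    ∃ W' : WeierstrassCurve ℤ, W'.Δ < 0 ∧ W'.IsSemistableModel ∧ (2 : ℤ) ∣ W'.Δ ∧
      (∀ q : ℕ, q.Prime → (q : ℤ) ∣ W'.Δ → Odd (padicValInt q W'.Δ)) ∧
      (∃ q : ℕ, q.Prime ∧ q ≠ 2 ∧ (q : ℤ) ∣ W'.Δ) ∧
      (∀ x : ℚ, 4 * x ^ 3 + (W'.b₂ : ℚ) * x ^ 2 + 2 * (W'.b₄ : ℚ) * x + (W'.b₆ : ℚ) ≠ 0) ∧
      W'.ModRepIsIrreducible 3 ∧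
      (∃ e : Submodule.torsionBy ℤ (ECRed.QbarPoint W) ((3 : ℕ) : ℤ) ≃+
          Submodule.torsionBy ℤ (ECRed.QbarPoint W') ((3 : ℕ) : ℤ),
        ∀ (σ : AlgebraicClosure ℚ ≃ₐ[ℚ] AlgebraicClosure ℚ) x, e (σ • x) = σ • e x) ∧
      ∀ ℓ : ℕ, ℓ.Prime → W.IsGoodPrimeFor ℓ → W'.IsGoodPrimeFor ℓ → ℓ ≠ 3 →
        (3 : ℤ) ∣ W'.apOfModel ℓ - W.apOfModel ℓ := by
  have hne : W.c₄ ^ 3 - W.c₆ ^ 2 ≠ 0 := by
    rw [c₄_cube_sub_c₆_sq]; exact mul_ne_zero (by norm_num) hΔ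
  obtain ⟨a, b, had, hb, hlt, -⟩ :=
    exists_admissible_large hΔ hs h2 (squarefreeValues_hesseCoeff hne) ∅ (by simp) (fun _ => 0)
      (fun _ => 0) (by simp) (|W.Δ| * 2 ^ 40)
  obtain ⟨W', -, h⟩ := exists_auxiliary_curve_of_admissible hΔ hs h2 h3 had hb hlt
  exact ⟨W', h⟩

end Fermat.Agent.Residual
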