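/-
The auxiliary curve is good at three when the given curve is.
-/
import Fermat.Agent.Residual.FamilyAux

set_option autoImplicit false

open WeierstrassCurve

namespace Fermat.Agent.Residual

/-- Admissible parameters give a curve which is good at `3` if the given one is. -/
theorem Admissible.not_three_dvd {W W' : WeierstrassCurve ℤ} {a b : ℤ} (had : Admissible W a b)
    (eΔ : hesseScale W ^ 12 * W'.Δ = W.Δ * hesseD W.c₄ W.c₆ a b ^ 3)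
    (h : ¬ (3 : ℤ) ∣ W.Δ) : ¬ (3 : ℤ) ∣ W'.Δ := by
  intro h'
  have hp : Prime (((3 : ℕ) : ℤ)) := Nat.prime_iff_prime_int.1 Nat.prime_three
  have hk := had.keep 3 Nat.prime_three (dvd_mul_of_dvd_left (by norm_num) _)
    (fun hh => h (by simpa using hh.1))
  have ha : ((3 : ℕ) : ℤ) ∣ a - hesseScale W := (dvd_pow_self _ (by norm_num)).trans hk.1
  have hb : ((3 : ℕ) : ℤ) ∣ b - 0 := by
    rw [sub_zero]; exact (dvd_pow_self _ (by norm_num)).trans hk.2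
  have hd : ((3 : ℕ) : ℤ) ∣ W.Δ * hesseD W.c₄ W.c₆ a b ^ 3 := by
    rw [← eΔ]; exact dvd_mul_of_dvd_right (by simpa using h') _
  rcases hp.dvd_or_dvd hd with hd | hd
  · exact h (by simpa using hd)
  · have h0 := dvd_sub (hp.dvd_of_dvd_pow hd)
      (hesseD_congr (A := W.c₄) (B := W.c₆) (n := 3) ha hb)
    have e : hesseD W.c₄ W.c₆ (hesseScale W) 0 = hesseScale W ^ 4 := by simp [hesseD]
    rw [e, sub_sub_cancel] at h0
    exact not_dvd_hesseScale Nat.prime_three (Or.inl (by norm_num)) (hp.dvd_of_dvd_pow h0)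

/-- The auxiliary curve of the residual modularity argument at `3`, good at `3` if the given curve
is. -/
theorem exists_auxiliary_curve_good_three (W : WeierstrassCurve ℤ) (hΔ : W.Δ ≠ 0)
    (hs : W.IsSemistableModel) (h2 : (2 : ℤ) ∣ W.Δ) (h3 : W.ModRepIsIrreducible 3) :
    ∃ W' : WeierstrassCurve ℤ, (¬ (3 : ℤ) ∣ W.Δ → ¬ (3 : ℤ) ∣ W'.Δ) ∧
      W'.Δ < 0 ∧ W'.IsSemistableModel ∧ (2 : ℤ) ∣ W'.Δ ∧
      (∀ q : ℕ, q.Prime → (q : ℤ) ∣ W'.Δ → Odd (padicValInt q W'.Δ)) ∧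
      (∃ q : ℕ, q.Prime ∧ q ≠ 2 ∧ (q : ℤ) ∣ W'.Δ) ∧
      (∀ x : ℚ, 4 * x ^ 3 + (W'.b₂ : ℚ) * x ^ 2 + 2 * (W'.b₄ : ℚ) * x + (W'.b₆ : ℚ) ≠ 0) ∧
      W'.ModRepIsIrreducible 3 ∧
      (∃ e : Submodule.torsionBy ℤ (ECRed.QbarPoint W) ((3 : ℕ) : ℤ) ≃+
          Submodule.torsionBy ℤ (ECRed.QbarPoint W') ((3 : ℕ) : ℤ),
        ∀ (σ : AlgebraicClosure ℚ ≃ₐ[ℚ] AlgebraicClosure ℚ) x, e (σ • x) = σ • e x) ∧
      ∀ ℓ : ℕ, ℓ.Prime → W.IsGoodPrimeFor ℓ → W'.IsGoodPrimeFor ℓ → ℓ ≠ 3 →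
        (3 : ℤ) ∣ W'.apOfModel ℓ - W.apOfModel ℓ := by
  have hne : W.c₄ ^ 3 - W.c₆ ^ 2 ≠ 0 := by
    rw [c₄_cube_sub_c₆_sq]; exact mul_ne_zero (by norm_num) hΔ
  obtain ⟨a, b, had, hb, hlt, -⟩ :=
    exists_admissible_large hΔ hs h2 (squarefreeValues_hesseCoeff hne) ∅ (by simp) (fun _ => 0)
      (fun _ => 0) (by simp) (|W.Δ| * 2 ^ 40)
  obtain ⟨W', eΔ, h⟩ := exists_auxiliary_curve_of_admissible hΔ hs h2 h3 had hb hlt
  exact ⟨W', had.not_three_dvd eΔ, h⟩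

end Fermat.Agent.Residual
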