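/-
Residual modularity at three: shared definitions.
-/
import Fermat.Agent.Galois.QbarInstances
import Fermat.Prelude.Def_FLTPrelim_ModularRep
import Fermat.Prelude.Def_FLTPrelim_Ramification
import Fermat.Prelude.Def_EllipticCurve_FrobeniusTrace
import Fermat.Prelude.Def_CuspForm_Newforms
import Fermat.Prelude.Def_ModularCurve_HeckeModule
import Fermat.Prelude.Def_WeierstrassCurve_ConductorLevel
import Mathlib.NumberTheory.NumberField.ClassNumber
import Mathlib.NumberTheory.Padics.PadicIntegers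
import Mathlib.FieldTheory.IsAlgClosed.AlgebraicClosure
import Mathlib.FieldTheory.AlgebraicClosure
import Mathlib.RingTheory.IntegralClosure.IntegrallyClosed
import Mathlib.LinearAlgebra.Matrix.GeneralLinearGroup.Defs

/-!
# Residual modularity at three: definitions

The auxiliary curve has a dihedral representation on its two-torsion, described by a `Datum`:
the set `B` of bad primes, the residual representation, and the field `ℚ(√-N)` with `N` the
product of `B`.  Lifts with prescribed Atkin-Lehner signs, the Selmer condition, the newforms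
with a given sign pattern and their two-adic Hecke algebra are defined here.
-/

set_option autoImplicit false

noncomputable section

open Matrix

namespace Fermat.Agent.Residual

local notation "Qbar" => AlgebraicClosure ℚ
local notation "Γℚ" => (AlgebraicClosure ℚ ≃ₐ[ℚ] AlgebraicClosure ℚ)

/-- The curves to which the dihedral argument applies. -/
structure IsDihedralCurve (W : WeierstrassCurve ℤ) : Prop where
  Δ_neg : W.Δ < 0
  semistable : W.IsSemistableModel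
  two_dvd : (2 : ℤ) ∣ W.Δ
  odd_bad : ∃ q : ℕ, q.Prime ∧ q ≠ 2 ∧ (q : ℤ) ∣ W.Δ
  odd_val : ∀ q : ℕ, q.Prime → (q : ℤ) ∣ W.Δ → Odd (padicValInt q W.Δ)
  irred : W.ModRepIsIrreducible 2

theorem IsDihedralCurve.Δ_ne_zero {W : WeierstrassCurve ℤ} (h : IsDihedralCurve W) : W.Δ ≠ 0 :=
  h.Δ_neg.ne

/-- A residual dihedral representation with values in `GL₂(𝔽₂)`, of squarefree level `∏ B`. -/
structure Datum where
  ρbar : Γℚ →* GL (Fin 2) (ZMod 2)
  B : Finset ℕ
  cont : ∃ L : IntermediateField ℚ Qbar, FiniteDimensional ℚ L ∧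
    ∀ σ ∈ L.fixingSubgroup, ρbar σ = 1
  surj : Function.Surjective ρbar
  prime_mem : ∀ p ∈ B, p.Prime
  two_mem : 2 ∈ B
  one_lt_card : 1 < B.card
  unram : ∀ p : ℕ, p.Prime → p ∉ B → ∀ A : ValuationSubring Qbar, A.LiesOverPrime p →
    ∀ σ ∈ A.inertiaSubgroupIn ℚ, ρbar σ = 1
  transp : ∀ b ∈ B, ∀ A : ValuationSubring Qbar, A.LiesOverPrime b →
    ∃ σ₀ ∈ A.inertiaSubgroupIn ℚ, ρbar σ₀ ≠ 1 ∧
      ∀ σ ∈ A.decompositionSubgroup ℚ, ρbar σ = 1 ∨ ρbar σ = ρbar σ₀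
  sqrt : ∀ r : Qbar, r ^ 2 = -((∏ b ∈ B, b : ℕ) : Qbar) →
    ∀ σ : Γℚ, σ r = r ↔ ρbar σ ^ 3 = 1

namespace Datum

/-- The level `N` of a datum. -/
def level (D : Datum) : ℕ := ∏ b ∈ D.B, b

/-- The level `N · ∏ Q` after adding auxiliary primes. -/
def auxLevel (D : Datum) (Q : Finset ℕ) : ℕ := D.level * ∏ q ∈ Q, q

theorem level_pos (D : Datum) : 0 < D.level :=
  Finset.prod_pos fun p hp => (D.prime_mem p hp).pos

theorem auxLevel_empty (D : Datum) : D.auxLevel ∅ = D.level := by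
  simp [auxLevel]

/-- A square root of `-N`. -/
def sqrtNeg (D : Datum) : Qbar :=
  (IsAlgClosed.exists_pow_nat_eq (-(D.level : Qbar)) (n := 2) two_pos).choose

theorem sqrtNeg_sq (D : Datum) : D.sqrtNeg ^ 2 = -(D.level : Qbar) :=
  (IsAlgClosed.exists_pow_nat_eq (-(D.level : Qbar)) (n := 2) two_pos).choose_spec

/-- The imaginary quadratic field `ℚ(√-N)`. -/
def field (D : Datum) : IntermediateField ℚ Qbar := IntermediateField.adjoin ℚ {D.sqrtNeg}

instance (D : Datum) : FiniteDimensional ℚ D.field :=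
  IntermediateField.adjoin.finiteDimensional (Algebra.IsIntegral.isIntegral _)

instance (D : Datum) : NumberField D.field where

/-- The order of the two-part of the class group modulo the classes of the ramified primes. -/
def cprime (D : Datum) : ℕ :=
  2 ^ (padicValNat 2 (NumberField.classNumber D.field) + 1 - D.B.card)

end Datum

/-- The datum is that of the two-torsion of `W`. -/
structure IsDatumOf (W : WeierstrassCurve ℤ) (D : Datum) : Prop where
  primes : D.B = W.Δ.natAbs.primeFactors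
  trace : ∀ ℓ : ℕ, ℓ.Prime → ℓ ≠ 2 → W.IsGoodPrimeFor ℓ →
    ∀ A : ValuationSubring Qbar, A.LiesOverPrime ℓ → ∀ τ : Γℚ, A.IsFrobeniusAt τ ℓ →
      ((D.ρbar τ : Matrix (Fin 2) (Fin 2) (ZMod 2))).trace = (W.apOfModel ℓ : ZMod 2)

/-- A choice of signs. -/
def IsPattern (ε : ℕ → ℤ) : Prop := ∀ p, ε p = 1 ∨ ε p = -1

/-- Auxiliary primes: unramified, with Frobenius a transposition. -/
def IsAuxSet (D : Datum) (Q : Finset ℕ) : Prop :=
  ∀ q ∈ Q, q.Prime ∧ q ∉ D.B ∧ ∀ A : ValuationSubring Qbar, A.LiesOverPrime q →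
    ∀ τ : Γℚ, A.IsFrobeniusAt τ q → D.ρbar τ ≠ 1 ∧ D.ρbar τ ^ 2 = 1

/-- A lift of the residual representation to `A` with cyclotomic determinant, unramified outside
`B ∪ Q`, and with unramified quotient of sign `ε p` on Frobenius at the primes `p` of `B ∪ Q`. -/
structure IsLift (D : Datum) (Q : Finset ℕ) (ε : ℕ → ℤ) {A : Type*} [CommRing A]
    (ρ : Γℚ →* GL (Fin 2) A) : Prop where
  cont : ∃ L : IntermediateField ℚ Qbar, FiniteDimensional ℚ L ∧
    ∀ σ ∈ L.fixingSubgroup, ρ σ = 1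
  det_eq : ∀ n : ℕ, (2 : A) ^ n = 0 → ∀ (σ : Γℚ) (ζ : Qbar), IsPrimitiveRoot ζ (2 ^ n) →
    ∀ a : ℕ, σ ζ = ζ ^ a → ((ρ σ : Matrix (Fin 2) (Fin 2) A)).det = (a : A)
  residual : ∀ (f : A →+* ZMod 2) (σ : Γℚ), Matrix.GeneralLinearGroup.map f (ρ σ) = D.ρbar σ
  unram : ∀ p : ℕ, p.Prime → p ∉ D.B ∪ Q → ∀ P : ValuationSubring Qbar, P.LiesOverPrime p →
    ∀ σ ∈ P.inertiaSubgroupIn ℚ, ρ σ = 1
  local_ : ∀ p ∈ D.B ∪ Q, ∀ P : ValuationSubring Qbar, P.LiesOverPrime p →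
    ∃ g : GL (Fin 2) A, ∀ σ ∈ P.decompositionSubgroup ℚ,
      ((g * ρ σ * g⁻¹ : GL (Fin 2) A) : Matrix (Fin 2) (Fin 2) A) 1 0 = 0 ∧
      (((g * ρ σ * g⁻¹ : GL (Fin 2) A) : Matrix (Fin 2) (Fin 2) A) 1 1 = 1 ∨
        ((g * ρ σ * g⁻¹ : GL (Fin 2) A) : Matrix (Fin 2) (Fin 2) A) 1 1 = -1) ∧
      (σ ∈ P.inertiaSubgroupIn ℚ →
        ((g * ρ σ * g⁻¹ : GL (Fin 2) A) : Matrix (Fin 2) (Fin 2) A) 1 1 = 1) ∧
      (P.IsFrobeniusAt σ p →
        ((g * ρ σ * g⁻¹ : GL (Fin 2) A) : Matrix (Fin 2) (Fin 2) A) 1 1 = (ε p : A))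

/-- A Selmer cocycle: unramified outside `B ∪ Q`, and at `B ∪ Q` cohomologous to a cocycle with
values in the line fixed by the decomposition group. -/
structure IsSelmer (D : Datum) (Q : Finset ℕ) (x : Γℚ → Fin 2 → ZMod 2) : Prop where
  cocycle : ∀ σ τ : Γℚ, x (σ * τ) = x σ + (D.ρbar σ : Matrix (Fin 2) (Fin 2) (ZMod 2)) *ᵥ x τ
  cont : ∃ L : IntermediateField ℚ Qbar, FiniteDimensional ℚ L ∧ ∀ σ ∈ L.fixingSubgroup, x σ = 0
  unram : ∀ p : ℕ, p.Prime → p ∉ D.B ∪ Q → ∀ P : ValuationSubring Qbar, P.LiesOverPrime p →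
    ∀ σ ∈ P.inertiaSubgroupIn ℚ, x σ = 0
  local_ : ∀ p ∈ D.B ∪ Q, ∀ P : ValuationSubring Qbar, P.LiesOverPrime p →
    ∃ v : Fin 2 → ZMod 2, ∀ σ ∈ P.decompositionSubgroup ℚ, ∀ τ ∈ P.decompositionSubgroup ℚ,
      (D.ρbar τ : Matrix (Fin 2) (Fin 2) (ZMod 2)) *ᵥ
          (x σ - ((D.ρbar σ : Matrix (Fin 2) (Fin 2) (ZMod 2)) *ᵥ v - v)) =
        x σ - ((D.ρbar σ : Matrix (Fin 2) (Fin 2) (ZMod 2)) *ᵥ v - v)

/-- A coboundary. -/
def IsCob (D : Datum) (x : Γℚ → Fin 2 → ZMod 2) : Prop :=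
  ∃ v : Fin 2 → ZMod 2, ∀ σ : Γℚ,
    x σ = (D.ρbar σ : Matrix (Fin 2) (Fin 2) (ZMod 2)) *ᵥ v - v

/-- The Selmer group of `Q` is zero. -/
def SelVanishes (D : Datum) (Q : Finset ℕ) : Prop :=
  ∀ x : Γℚ → Fin 2 → ZMod 2, IsSelmer D Q x → IsCob D x

/-- An algebraic closure of `ℚ₂`. -/
abbrev Q2bar : Type := AlgebraicClosure ℚ_[2]

/-- Its ring of integers. -/
abbrev Q2int : Subalgebra ℤ_[2] Q2bar := integralClosure ℤ_[2] Q2bar

theorem exists_twoAdicEmb :
    ∃ ι : integralClosure ℤ ℂ →+* Q2int, Function.Injective ι := by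
  have : Algebra.IsAlgebraic ℚ (algebraicClosure ℚ ℂ) := algebraicClosure.isAlgebraic ℚ ℂ
  let j : (algebraicClosure ℚ ℂ) →ₐ[ℚ] Q2bar := IsAlgClosed.lift
  have hmem : ∀ x : integralClosure ℤ ℂ, (x : ℂ) ∈ algebraicClosure ℚ ℂ := fun x => by
    rw [mem_algebraicClosure_iff, ← isAlgebraic_iff_isIntegral.symm]
    exact x.2.tower_top
  let i : integralClosure ℤ ℂ →+* algebraicClosure ℚ ℂ :=
    { toFun := fun x => ⟨x, hmem x⟩
      map_one' := rfl
      map_mul' := fun _ _ => rfl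
      map_zero' := rfl
      map_add' := fun _ _ => rfl }
  have hint : ∀ x, j.toRingHom.comp i x ∈ Q2int := fun x => by
    have h : IsIntegral ℤ x := IsIntegralClosure.isIntegral ℤ ℂ x
    exact (h.map (j.toRingHom.comp i).toIntAlgHom).tower_top
  refine ⟨(j.toRingHom.comp i).codRestrict Q2int hint, fun a b h => ?_⟩
  have h1 : j.toRingHom.comp i a = j.toRingHom.comp i b := congrArg Subtype.val h
  have h2 : i a = i b := j.injective h1
  exact Subtype.ext (congrArg Subtype.val h2 :)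

/-- The chosen two-adic embedding of the algebraic integers. -/
def twoEmb : integralClosure ℤ ℂ →+* Q2int := exists_twoAdicEmb.choose

theorem twoEmb_injective : Function.Injective twoEmb := exists_twoAdicEmb.choose_spec

/-- The maximal ideal of the two-adic integers `Q2int`. -/
def twoMax : Ideal Q2int := (Ideal.span {(2 : Q2int)}).radical

/-- A Fourier coefficient as an algebraic integer. -/
def coeffInt {M : ℕ} (f : CuspForm (CongruenceSubgroup.Gamma0 M) 2) (n : ℕ) :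
    integralClosure ℤ ℂ := by
  classical
  exact if h : IsIntegral ℤ (ModularFormClass.qCoeff f n) then
    ⟨ModularFormClass.qCoeff f n, h⟩ else 0

/-- A newform congruent to the residual representation at the chosen prime over two. -/
def InClass (D : Datum) {M : ℕ} (f : CuspForm (CongruenceSubgroup.Gamma0 M) 2) : Prop :=
  f.IsNewform ∧ ∀ ℓ : ℕ, ℓ.Prime → ¬ ℓ ∣ 2 * M →
    IsIntegral ℤ (ModularFormClass.qCoeff f ℓ) ∧
    ∀ A : ValuationSubring Qbar, A.LiesOverPrime ℓ → ∀ τ : Γℚ, A.IsFrobeniusAt τ ℓ →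
      twoEmb (coeffInt f ℓ) -
        ((((D.ρbar τ : Matrix (Fin 2) (Fin 2) (ZMod 2))).trace).val : Q2int) ∈ twoMax

/-- The newforms of level `N · ∏ Q` congruent to the residual representation, with signs `ε`. -/
def patternForms (D : Datum) (Q : Finset ℕ) (ε : ℕ → ℤ) :
    Set (CuspForm (CongruenceSubgroup.Gamma0 (D.auxLevel Q)) 2) :=
  {f | InClass D f ∧ ∀ p ∈ D.B ∪ Q, ModularFormClass.qCoeff f p = (ε p : ℂ)}

/-- The system of the `ℓ`-th coefficients of the pattern forms. -/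
def patternGen (D : Datum) (Q : Finset ℕ) (ε : ℕ → ℤ) (ℓ : ℕ) :
    patternForms D Q ε → Q2int :=
  fun f => twoEmb (coeffInt (f : CuspForm (CongruenceSubgroup.Gamma0 (D.auxLevel Q)) 2) ℓ)

/-- The two-adic Hecke algebra of a pattern. -/
def patternAlgebra (D : Datum) (Q : Finset ℕ) (ε : ℕ → ℤ) :
    Subalgebra ℤ_[2] (patternForms D Q ε → Q2int) :=
  Algebra.adjoin ℤ_[2] (patternGen D Q ε '' {ℓ | ℓ.Prime ∧ ¬ ℓ ∣ D.auxLevel Q})

instance (D : Datum) (Q : Finset ℕ) (ε : ℕ → ℤ) : CommRing (patternAlgebra D Q ε) :=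
  Subalgebra.toCommRing _

/-- The Hecke algebra of a pattern modulo `2 ^ k`. -/
def PatternQuot (D : Datum) (Q : Finset ℕ) (ε : ℕ → ℤ) (k : ℕ) : Type :=
  patternAlgebra D Q ε ⧸ Ideal.span {(2 : patternAlgebra D Q ε) ^ k}

instance (D : Datum) (Q : Finset ℕ) (ε : ℕ → ℤ) (k : ℕ) : CommRing (PatternQuot D Q ε k) :=
  Ideal.Quotient.commRing _

/-- Reduction of the Hecke algebra of a pattern modulo `2 ^ k`. -/
def patternMk (D : Datum) (Q : Finset ℕ) (ε : ℕ → ℤ) (k : ℕ) :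
    patternAlgebra D Q ε →+* PatternQuot D Q ε k :=
  Ideal.Quotient.mk (Ideal.span {(2 : patternAlgebra D Q ε) ^ k})

theorem patternMk_surjective (D : Datum) (Q : Finset ℕ) (ε : ℕ → ℤ) (k : ℕ) :
    Function.Surjective (patternMk D Q ε k) :=
  Ideal.Quotient.mk_surjective

theorem patternMk_eq_zero_iff {D : Datum} {Q : Finset ℕ} {ε : ℕ → ℤ} {k : ℕ}
    {x : patternAlgebra D Q ε} :
    patternMk D Q ε k x = 0 ↔ (2 : patternAlgebra D Q ε) ^ k ∣ x :=
  Ideal.Quotient.eq_zero_iff_dvd _ _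

/-- The generator of `patternAlgebra` at a prime away from the level. -/
def patternT (D : Datum) (Q : Finset ℕ) (ε : ℕ → ℤ) {ℓ : ℕ} (hℓ : ℓ.Prime)
    (h : ¬ ℓ ∣ D.auxLevel Q) : patternAlgebra D Q ε :=
  ⟨patternGen D Q ε ℓ, Algebra.subset_adjoin ⟨ℓ, ⟨hℓ, h⟩, rfl⟩⟩

/-- The image of `patternT` modulo `2 ^ k`. -/
def patternTQuot (D : Datum) (Q : Finset ℕ) (ε : ℕ → ℤ) (k : ℕ) {ℓ : ℕ} (hℓ : ℓ.Prime)
    (h : ¬ ℓ ∣ D.auxLevel Q) : PatternQuot D Q ε k :=
  patternMk D Q ε k (patternT D Q ε hℓ h)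

/-- A point of exact order `2 ^ m` on `J₀(L)` on which the Hecke operators at the primes in `S`
not dividing `2 L` act through `a`. -/
def HasEigenTorsion (L m : ℕ) (S : ℕ → Prop) (a : ℕ → ℤ) : Prop :=
  ∃ _ : NeZero L, ∃ x : ModularCurve.JZero L,
    (2 ^ m : ℕ) • x = 0 ∧ (2 ^ (m - 1) : ℕ) • x ≠ 0 ∧
    ∀ ℓ : Nat.Primes, ¬ (ℓ : ℕ) ∣ 2 * L → S ℓ →
      ModularCurve.heckeOperatorBar L ℓ x = a ℓ • x

/-- A point of exact order `2 ^ m` on `J₀(L)` with the Hecke system of `W`. -/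
def HasSystem (W : WeierstrassCurve ℤ) (L m : ℕ) : Prop :=
  HasEigenTorsion L m W.IsGoodPrimeFor W.apOfModel

end Fermat.Agent.Residual

end
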