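/-
A curve without rational point of order two has irreducible 2-torsion.
-/
import Fermat.Prelude.Def_FLTPrelim_ModularRep
import Fermat.Agent.EC.Torsion
import Mathlib.FieldTheory.Galois.Infinite
import Mathlib.GroupTheory.Index

set_option autoImplicit false
set_option linter.style.haveILetI false

namespace Fermat.Agent.Residual

open WeierstrassCurve WeierstrassCurve.Affine

local notation "Qbar" => AlgebraicClosure ℚ

/-- If the 2-division cubic has no rational root, the 2-torsion is irreducible. -/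
theorem modRepIsIrreducible_two (W : WeierstrassCurve ℤ) (hΔ : W.Δ ≠ 0)
    (h : ∀ x : ℚ, 4 * x ^ 3 + (W.b₂ : ℚ) * x ^ 2 + 2 * (W.b₄ : ℚ) * x + (W.b₆ : ℚ) ≠ 0) :
    W.ModRepIsIrreducible 2 := by
  haveI : ((W.map (Int.castRingHom ℚ))⁄Qbar).IsElliptic :=
    ⟨isUnit_iff_ne_zero.2 (by
      change ((W.map (Int.castRingHom ℚ)).map (algebraMap ℚ Qbar)).Δ ≠ 0
      rw [WeierstrassCurve.map_Δ, WeierstrassCurve.map_Δ]
      simpa using hΔ)⟩
  have hcard : Nat.card (Submodule.torsionBy ℤ ((W.map (Int.castRingHom ℚ))⁄Qbar).Point (2 : ℕ)) =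
      2 ^ 2 := EC.card_torsionBy_Qbar (by norm_num)
  haveI : Finite (Submodule.torsionBy ℤ ((W.map (Int.castRingHom ℚ))⁄Qbar).Point (2 : ℕ)) :=
    EC.finite_torsionBy_Qbar (by norm_num)
  refine ⟨Finite.one_lt_card_iff_nontrivial.1 (by rw [hcard]; norm_num), fun N hN => ?_⟩
  by_contra! hne
  obtain ⟨P, hPN, hP0⟩ := N.ne_bot_iff.mp hne.1
  -- the line consists of `0` and `P`
  have hle : Nat.card N ≤ 2 := by
    have hdvd := N.toAddSubgroup.card_addSubgroup_dvd_card
    rw [hcard] at hdvd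
    obtain ⟨k, hk, he⟩ := (Nat.dvd_prime_pow Nat.prime_two).1 hdvd
    rcases Nat.lt_or_ge k 2 with hk2 | hk2
    · calc Nat.card N = 2 ^ k := he
        _ ≤ 2 ^ 1 := Nat.pow_le_pow_right (by norm_num) (by omega)
        _ = 2 := by norm_num
    · exfalso
      refine hne.2 (Submodule.toAddSubgroup_injective (AddSubgroup.eq_top_of_card_eq _ ?_))
      rw [he, hcard, show k = 2 by omega]
  have huniq : ∀ Q ∈ N, Q ≠ 0 → Q = P := by
    intro Q hQ hQ0
    by_contra hQP
    have hinj : Function.Injective ![(0 : N), ⟨P, hPN⟩, ⟨Q, hQ⟩] := by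
      intro i j
      fin_cases i <;> fin_cases j <;> simp [Subtype.ext_iff, hP0, hQ0, Ne.symm hP0, Ne.symm hQ0,
        hQP, Ne.symm hQP]
    have := Nat.card_le_card_of_injective _ hinj
    simp only [Nat.card_fin] at this
    exact absurd (this.trans hle) (by norm_num)
  obtain ⟨_ | ⟨x, y, hns⟩, hmem⟩ := P
  · exact hP0 rfl
  have hfix : ∀ σ : Qbar ≃ₐ[ℚ] Qbar, σ x = x := fun σ => by
    have hne0 : σ • (⟨Point.some x y hns, hmem⟩ :
        Submodule.torsionBy ℤ ((W.map (Int.castRingHom ℚ))⁄Qbar).Point (2 : ℕ)) ≠ 0 :=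
      fun e => Point.some_ne_zero _ (congrArg Subtype.val e)
    have := congrArg Subtype.val (huniq _ (hN σ _ hPN) hne0)
    exact (Point.some.inj this).1
  haveI : IsAlgClosure ℚ Qbar := AlgebraicClosure.instIsAlgClosure ℚ
  obtain ⟨q, rfl⟩ := (InfiniteGalois.mem_range_algebraMap_iff_fixed x).mpr hfix
  have h2 : Point.some _ y hns + Point.some _ y hns = 0 := by
    have := (Submodule.mem_torsionBy_iff _ _).1 hmem
    rwa [natCast_zsmul, two_nsmul] at this
  have hy : y = ((W.map (Int.castRingHom ℚ))⁄Qbar).negY (algebraMap ℚ Qbar q) y := by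
    rw [add_eq_zero_iff_eq_neg, Point.neg_some] at h2
    exact (Point.some.inj h2).2
  refine h q ((algebraMap ℚ Qbar).injective ?_)
  have he := (equation_iff _ _).1 hns.left
  rw [negY] at hy
  simp only [map_a₁, map_a₂, map_a₃, map_a₄, map_a₆, WeierstrassCurve.baseChange,
    Affine.baseChange, eq_intCast, map_intCast] at he hy
  simp only [WeierstrassCurve.b₂, WeierstrassCurve.b₄, WeierstrassCurve.b₆, Int.cast_add,
    Int.cast_mul, Int.cast_pow, Int.cast_ofNat, map_add, map_mul, map_pow, map_ofNat, map_intCast,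
    map_zero]
  linear_combination (-4 : Qbar) * he +
    (2 * y + (W.a₁ : Qbar) * algebraMap ℚ Qbar q + (W.a₃ : Qbar)) * hy

end Fermat.Agent.Residual
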