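/-
Residual modularity at three: the auxiliary curve with the same three-torsion.
-/
import Fermat.Agent.Residual.Defs
import Fermat.Agent.Residual.FamilyAux
import Fermat.Agent.Residual.FamilyIrredTwo

set_option autoImplicit false

noncomputable section

namespace Fermat.Agent.Residual

/-- A semistable curve, multiplicative at two, with irreducible three-torsion has the same
three-torsion as a curve to which the dihedral argument applies. -/
theorem exists_auxCurve (W : WeierstrassCurve ℤ) (hΔ : W.Δ ≠ 0) (hW : W.IsSemistableModel)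
    (h2 : (2 : ℤ) ∣ W.Δ) (h3 : W.ModRepIsIrreducible 3) :
    ∃ W' : WeierstrassCurve ℤ, IsDihedralCurve W' ∧
      ∀ ℓ : ℕ, ℓ.Prime → W.IsGoodPrimeFor ℓ → W'.IsGoodPrimeFor ℓ → ℓ ≠ 3 →
        (3 : ℤ) ∣ (W'.apOfModel ℓ - W.apOfModel ℓ) := by
  obtain ⟨W', hneg, hs, h2', hodd, hq, hno, -, -, hcong⟩ := exists_auxiliary_curve W hΔ hW h2 h3
  exact ⟨W', ⟨hneg, hs, h2', hq, hodd, modRepIsIrreducible_two W' hneg.ne hno⟩, hcong⟩

end Fermat.Agent.Residual

end
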