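import Fermat.Agent.Residual.SelCocycle
import Mathlib.LinearAlgebra.Matrix.GeneralLinearGroup.Defs
import Mathlib.RingTheory.Nilpotent.Basic

/-!
# Cocycles do not vanish at all elements acting as `[[1, 1], [0, 1]]`

`ρ : Γℚ → GL₂(ℤ/2^M)` is surjective and `π` is its reduction modulo 2. A cocycle which is not a
coboundary takes the value `1`, at the root fixed by `π σ`, at some `σ` with
`ρ σ = [[1, 1], [0, 1]]`: either it is non-zero on the kernel of `ρ`, or it is inflated from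
`GL₂(ℤ/2^M)`, where the only non-zero class has value `1` there.
-/

set_option autoImplicit false

namespace Fermat.Agent.Residual.Sel

local notation "ℚbar" => AlgebraicClosure ℚ
local notation "Γℚ" => AlgebraicClosure ℚ ≃ₐ[ℚ] AlgebraicClosure ℚ

/-- A matrix over `ℤ/2^M` which is the identity modulo `2`. -/
def IsOneModTwo {M : ℕ} (A : Matrix (Fin 2) (Fin 2) (ZMod (2 ^ M))) : Prop :=
  ∀ i j, (2 : ZMod (2 ^ M)) ∣ A i j - (1 : Matrix (Fin 2) (Fin 2) (ZMod (2 ^ M))) i j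

section Ring

variable {M : ℕ}

theorem not_two_dvd_one (hM : M ≠ 0) : ¬ (2 : ZMod (2 ^ M)) ∣ 1 := fun h => by
  have h2 := map_dvd (ZMod.castHom (dvd_pow_self 2 hM) (ZMod 2)) h
  rw [map_ofNat, map_one, show (2 : ZMod 2) = 0 from rfl, zero_dvd_iff] at h2
  exact one_ne_zero h2

theorem isUnit_of_two_dvd_sub_one {a : ZMod (2 ^ M)} (h : (2 : ZMod (2 ^ M)) ∣ a - 1) :
    IsUnit a := by
  obtain ⟨t, ht⟩ := h
  have hn : IsNilpotent ((2 : ZMod (2 ^ M)) * t) := ⟨M, by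
    rw [mul_pow, show ((2 : ZMod (2 ^ M)) ^ M) = ((2 ^ M : ℕ) : ZMod (2 ^ M)) by push_cast; rfl,
      ZMod.natCast_self, zero_mul]⟩
  have := hn.isUnit_one_add
  rwa [← ht, add_sub_cancel] at this

end Ring

variable {M : ℕ} {π : Γℚ →* Equiv.Perm (Fin 3)} {x : Γℚ → RootVec}
  {ρ : Γℚ →* GL (Fin 2) (ZMod (2 ^ M))}

theorem exists_lift (hρ : Function.Surjective ρ) (a b c d : ZMod (2 ^ M))
    (h : IsUnit (a * d - b * c)) :
    ∃ g, (ρ g : Matrix (Fin 2) (Fin 2) (ZMod (2 ^ M))) = !![a, b; c, d] := by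
  have hdet : IsUnit (!![a, b; c, d] : Matrix (Fin 2) (Fin 2) (ZMod (2 ^ M))) :=
    (Matrix.isUnit_iff_isUnit_det _).2 (by rwa [Matrix.det_fin_two_of])
  obtain ⟨g, hg⟩ := hρ hdet.unit
  exact ⟨g, by rw [hg]; exact hdet.unit_spec⟩

theorem isOneModTwo_of {a b c d : ZMod (2 ^ M)} (ha : (2 : ZMod (2 ^ M)) ∣ a - 1)
    (hb : (2 : ZMod (2 ^ M)) ∣ b) (hc : (2 : ZMod (2 ^ M)) ∣ c)
    (hd : (2 : ZMod (2 ^ M)) ∣ d - 1) : IsOneModTwo !![a, b; c, d] := by
  intro i j
  fin_cases i <;> fin_cases j <;> simpa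

theorem rep_pow_upper {g : Γℚ}
    (hg : (ρ g : Matrix (Fin 2) (Fin 2) (ZMod (2 ^ M))) = !![1, 1; 0, 1]) (n : ℕ) :
    (ρ (g ^ n) : Matrix (Fin 2) (Fin 2) (ZMod (2 ^ M))) = !![1, (n : ZMod (2 ^ M)); 0, 1] := by
  induction n with
  | zero => simp [Matrix.one_fin_two]
  | succ n ih =>
    rw [pow_succ, map_mul, Units.val_mul, ih, hg, Matrix.mul_fin_two]
    simp [add_comm]

theorem rep_pow_lower {g : Γℚ}
    (hg : (ρ g : Matrix (Fin 2) (Fin 2) (ZMod (2 ^ M))) = !![1, 0; 1, 1]) (n : ℕ) :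
    (ρ (g ^ n) : Matrix (Fin 2) (Fin 2) (ZMod (2 ^ M))) = !![1, 0; (n : ZMod (2 ^ M)), 1] := by
  induction n with
  | zero => simp [Matrix.one_fin_two]
  | succ n ih =>
    rw [pow_succ, map_mul, Units.val_mul, ih, hg, Matrix.mul_fin_two]
    simp

/-- A cocycle which is not a coboundary has value `1` at the fixed root of some element acting
as `[[1, 1], [0, 1]]`. -/
theorem exists_good_element (hM : M ≠ 0) (hπ : Function.Surjective π)
    (hρ : Function.Surjective ρ)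
    (hker : ∀ g, π g = 1 ↔ IsOneModTwo (ρ g : Matrix (Fin 2) (Fin 2) (ZMod (2 ^ M))))
    (hx : IsCocycle π x) (hnt : ¬ IsCoboundary π x) :
    ∃ σ i, (ρ σ : Matrix (Fin 2) (Fin 2) (ZMod (2 ^ M))) = !![1, 1; 0, 1] ∧ π σ ≠ 1 ∧
      π σ i = i ∧ x σ i = 1 := by
  classical
  have two_dvd_sub : ∀ {a b : ZMod (2 ^ M)}, (2 : ZMod (2 ^ M)) ∣ a - 1 →
      (2 : ZMod (2 ^ M)) ∣ b - 1 → (2 : ZMod (2 ^ M)) ∣ b - a := fun ha hb => by
    have := dvd_sub hb ha
    rwa [sub_sub_sub_cancel_right] at this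
  obtain ⟨σ, hσ⟩ := exists_lift hρ 1 1 0 1 (by simp)
  obtain ⟨u, hu⟩ := exists_lift hρ 1 1 0 1 (by simp)
  obtain ⟨l, hl⟩ := exists_lift hρ 1 0 1 1 (by simp)
  have hu1 : π u ≠ 1 := fun h => not_two_dvd_one hM (by simpa [hu] using (hker u).1 h 0 1)
  have hl1 : π l ≠ 1 := fun h => not_two_dvd_one hM (by simpa [hl] using (hker l).1 h 1 0)
  have hσ1 : π σ ≠ 1 := fun h => not_two_dvd_one hM (by simpa [hσ] using (hker σ).1 h 0 1)
  have hU : π (u ^ 2) = 1 := by
    rw [hker, rep_pow_upper hu]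
    exact isOneModTwo_of (by simp) (by simp) (by simp) (by simp)
  have hL : π (l ^ 2) = 1 := by
    rw [hker, rep_pow_lower hl]
    exact isOneModTwo_of (by simp) (by simp) (by simp) (by simp)
  have hσσ : π (σ * σ) = 1 := by
    rw [← sq, hker, rep_pow_upper hσ]
    exact isOneModTwo_of (by simp) (by simp) (by simp) (by simp)
  have hul : π u ≠ π l := fun h => by
    have h' : π (u * l) = 1 := by rw [map_mul, h, ← map_mul, ← sq, hL]
    refine not_two_dvd_one hM ?_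
    have := (hker (u * l)).1 h' 0 1
    simpa [hu, hl, Matrix.mul_fin_two] using this
  obtain ⟨i, hi, -⟩ := exists_fixed_of_involution (π σ) (by rw [← map_mul, hσσ]) hσ1
  by_cases hH : ∃ h₀, ρ h₀ = 1 ∧ x h₀ ≠ 0
  · -- adjust `σ` by an element of the kernel of `ρ`
    obtain ⟨h₀, hρh, hxh⟩ := hH
    have hπh : π h₀ = 1 := by
      rw [hker, hρh, Units.val_one]
      intro i j
      simp
    obtain ⟨j, hj⟩ := Function.ne_iff.1 hxh
    have hj1 : x h₀ j = 1 := by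
      have : ∀ a : ZMod 2, a ≠ 0 → a = 1 := by decide
      exact this _ hj
    obtain ⟨g, hg⟩ := hπ (Equiv.swap j i)
    have hh : x (g * h₀ * g⁻¹) i = 1 := by
      rw [hx.map_conj hπh, hg]
      show x h₀ ((Equiv.swap j i)⁻¹ i) = 1
      rw [Equiv.swap_inv, Equiv.swap_apply_right, hj1]
    rcases (show x σ i = 1 ∨ x σ i = 0 by
      have : ∀ a : ZMod 2, a = 1 ∨ a = 0 := by decide
      exact this _) with h1 | h0
    · exact ⟨σ, i, hσ, hσ1, hi, h1⟩
    · refine ⟨σ * (g * h₀ * g⁻¹), i, ?_, ?_, ?_, ?_⟩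
      · rw [map_mul, map_mul, map_mul, hρh, mul_one, ← map_mul, mul_inv_cancel, map_one, mul_one,
          hσ]
      · rw [map_mul, map_mul, map_mul, hπh, mul_one, ← map_mul, mul_inv_cancel, map_one, mul_one]
        exact hσ1
      · rw [map_mul, map_mul, map_mul, hπh, mul_one, ← map_mul, mul_inv_cancel, map_one, mul_one]
        exact hi
      · rw [hx.apply_mul_of_fixed hi, h0, hh, zero_add]
  -- `x` is inflated from `GL₂(ℤ/2^M)`
  push Not at hH
  by_contra hcon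
  push Not at hcon
  have hxσ : x σ i = 0 := by
    have : ∀ a : ZMod 2, a ≠ 1 → a = 0 := by decide
    exact this _ (hcon σ i hσ hσ1 hi)
  have heq : ∀ g h, (ρ g : Matrix (Fin 2) (Fin 2) (ZMod (2 ^ M))) = ρ h → x g = x h := fun g h e =>
    hx.eq_of_inv_mul (hH _ (by rw [map_mul, map_inv, Units.ext e, inv_mul_cancel]))
  have hzero_pow : ∀ {k : Γℚ}, π k = 1 → x k = 0 → ∀ n : ℕ, x (k ^ n) = 0 := by
    intro k hk hxk n
    induction n with
    | zero => rw [pow_zero, hx.map_one]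
    | succ n ih => rw [pow_succ', hx.map_mul_of_ker hk, hxk, ih, add_zero]
  have hsq : x (σ * σ) = 0 := by
    rw [hx.map_mul, permVec_eq_self_of_fixed (π σ) (x σ) i (hx.sum_eq σ) hi hxσ, vec_add_self]
  -- the upper unipotent generator of the congruence subgroup
  have hxU : x (u ^ 2) = 0 := by
    rw [heq (u ^ 2) (σ * σ) (by rw [← sq, rep_pow_upper hu, rep_pow_upper hσ]), hsq]
  -- the lower one is conjugate to it
  have hxL : x (l ^ 2) = 0 := by
    obtain ⟨w, hw⟩ := exists_lift hρ 0 1 1 0 (by simp)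
    have e : (ρ (w * u ^ 2 * w⁻¹) : Matrix (Fin 2) (Fin 2) (ZMod (2 ^ M))) = ρ (l ^ 2) := by
      have h' : ρ (w * u ^ 2) = ρ (l ^ 2 * w) := by
        apply Units.ext
        rw [map_mul, map_mul, Units.val_mul, Units.val_mul, rep_pow_upper hu, rep_pow_lower hl,
          hw, Matrix.mul_fin_two, Matrix.mul_fin_two]
        simp
      rw [map_mul, h', ← map_mul, mul_inv_cancel_right]
    rw [← heq _ _ e, hx.map_conj hU, hxU, permVec_zero]
  -- unipotent elements of the congruence subgroup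
  have hupper : ∀ t : ZMod (2 ^ M), ∃ k, π k = 1 ∧ x k = 0 ∧
      (ρ k : Matrix (Fin 2) (Fin 2) (ZMod (2 ^ M))) = !![1, 2 * t; 0, 1] := fun t =>
    ⟨(u ^ 2) ^ t.val, by rw [map_pow, hU, one_pow], hzero_pow hU hxU _, by
      rw [← pow_mul, rep_pow_upper hu]; simp⟩
  have hlower : ∀ t : ZMod (2 ^ M), ∃ k, π k = 1 ∧ x k = 0 ∧
      (ρ k : Matrix (Fin 2) (Fin 2) (ZMod (2 ^ M))) = !![1, 0; 2 * t, 1] := fun t =>
    ⟨(l ^ 2) ^ t.val, by rw [map_pow, hL, one_pow], hzero_pow hL hxL _, by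
      rw [← pow_mul, rep_pow_lower hl]; simp⟩
  -- diagonal elements of the congruence subgroup
  have hdiag : ∀ k a d, π k = 1 →
      (ρ k : Matrix (Fin 2) (Fin 2) (ZMod (2 ^ M))) = !![a, 0; 0, d] → x k = 0 := by
    intro k a d hk hkm
    have had : (2 : ZMod (2 ^ M)) ∣ a - 1 ∧ (2 : ZMod (2 ^ M)) ∣ d - 1 :=
      ⟨by simpa [hkm] using (hker k).1 hk 0 0, by simpa [hkm] using (hker k).1 hk 1 1⟩
    obtain ⟨a', ha'⟩ := isUnit_of_two_dvd_sub_one had.1
    obtain ⟨d', hd'⟩ := isUnit_of_two_dvd_sub_one had.2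
    have fixu : permVec (π u) (x k) = x k := by
      obtain ⟨t, ht⟩ := two_dvd_sub had.1 had.2
      obtain ⟨v, hv1, hv0, hvm⟩ := hupper (t * ↑a'⁻¹)
      have e : ρ (u * k * u⁻¹) = ρ (k * v) := by
        have h' : ρ (u * k) = ρ (k * v * u) := by
          apply Units.ext
          simp only [map_mul, Units.val_mul, hu, hkm, hvm, Matrix.mul_fin_two]
          have key : a * (2 * (t * ↑a'⁻¹)) + a = d := by
            rw [← ha'] at ht ⊢
            linear_combination 2 * t * a'.mul_inv - ht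
          rw [← key]
          ext i j
          fin_cases i <;> fin_cases j <;> simp <;> ring
        rw [map_mul, h', ← map_mul, mul_inv_cancel_right]
      rw [← hx.map_conj hk, heq _ _ (congrArg Units.val e), hx.map_mul_of_ker hk, hv0, add_zero]
    have fixl : permVec (π l) (x k) = x k := by
      obtain ⟨t, ht⟩ := two_dvd_sub had.2 had.1
      obtain ⟨v, hv1, hv0, hvm⟩ := hlower (t * ↑d'⁻¹)
      have e : ρ (l * k * l⁻¹) = ρ (k * v) := by
        have h' : ρ (l * k) = ρ (k * v * l) := by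
          apply Units.ext
          simp only [map_mul, Units.val_mul, hl, hkm, hvm, Matrix.mul_fin_two]
          have key : d * (2 * (t * ↑d'⁻¹)) + d = a := by
            rw [← hd'] at ht ⊢
            linear_combination 2 * t * d'.mul_inv - ht
          rw [← key]
          ext i j
          fin_cases i <;> fin_cases j <;> simp
        rw [map_mul, h', ← map_mul, mul_inv_cancel_right]
      rw [← hx.map_conj hk, heq _ _ (congrArg Units.val e), hx.map_mul_of_ker hk, hv0, add_zero]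
    exact eq_zero_of_two_fixed (π u) (π l) (x k) (hx.sum_eq k) (by rw [← map_mul, ← sq, hU])
      (by rw [← map_mul, ← sq, hL]) hu1 hl1 hul fixu fixl
  -- hence the cocycle vanishes on the congruence subgroup
  refine hnt (hx.isCoboundary_of_ker hπ fun k hk => ?_)
  obtain ⟨a, b, c, d, hkm⟩ : ∃ a b c d,
      (ρ k : Matrix (Fin 2) (Fin 2) (ZMod (2 ^ M))) = !![a, b; c, d] :=
    ⟨_, _, _, _, Matrix.eta_fin_two _⟩
  have hdiv := (hker k).1 hk
  have ha : (2 : ZMod (2 ^ M)) ∣ a - 1 := by simpa [hkm] using hdiv 0 0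
  obtain ⟨b', rfl⟩ : (2 : ZMod (2 ^ M)) ∣ b := by simpa [hkm] using hdiv 0 1
  obtain ⟨c', rfl⟩ : (2 : ZMod (2 ^ M)) ∣ c := by simpa [hkm] using hdiv 1 0
  have hd : (2 : ZMod (2 ^ M)) ∣ d - 1 := by simpa [hkm] using hdiv 1 1
  obtain ⟨a', rfl⟩ := isUnit_of_two_dvd_sub_one ha
  obtain ⟨v, hv1, hv0, hvm⟩ := hupper (b' * ↑a'⁻¹)
  obtain ⟨w, hw1, hw0, hwm⟩ := hlower (c' * ↑a'⁻¹)
  have he : (2 : ZMod (2 ^ M)) ∣ d - 2 * c' * (2 * b') * ↑a'⁻¹ - 1 := by
    rw [sub_right_comm]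
    exact dvd_sub hd ⟨c' * (2 * b') * ↑a'⁻¹, by ring⟩
  obtain ⟨δ, hδ⟩ := exists_lift hρ (a' : ZMod (2 ^ M)) 0 0 (d - 2 * c' * (2 * b') * ↑a'⁻¹)
    (by simpa using a'.isUnit.mul (isUnit_of_two_dvd_sub_one he))
  have hδ1 : π δ = 1 := by
    rw [hker, hδ]
    exact isOneModTwo_of ha (by simp) (by simp) he
  have e : (ρ k : Matrix (Fin 2) (Fin 2) (ZMod (2 ^ M))) = ρ (w * δ * v) := by
    rw [hkm, map_mul, map_mul, Units.val_mul, Units.val_mul, hwm, hδ, hvm, Matrix.mul_fin_two,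
      Matrix.mul_fin_two]
    ext i j
    fin_cases i <;> fin_cases j <;> simp
    · linear_combination (-2 * b') * a'.mul_inv
    · linear_combination (-2 * c') * a'.mul_inv
    · linear_combination (-4 * c' * b' * (↑a'⁻¹ : ZMod (2 ^ M))) * a'.mul_inv
  rw [heq _ _ e, mul_assoc, hx.map_mul_of_ker hw1, hw0, hx.map_mul_of_ker hδ1, hv0,
    hdiag δ _ _ hδ1 hδ]
  simp

end Fermat.Agent.Residual.Sel
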