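import Fermat.Agent.Galois.TameInertia
import Fermat.Agent.MW.WeakInertia
import Mathlib.RingTheory.IntegralDomain
import Mathlib.Tactic

/-!
# Tame inertia has one quadratic character

At an odd prime, two homomorphisms of finite level from an inertia group to `ℤ/2` which are both
non-zero are equal.
-/

set_option autoImplicit false

namespace Fermat.Agent.Residual.Sel

open Fermat.Agent.Galois

section Dedekind

variable {O : Type*} [CommRing O] [IsDedekindDomain O] {G : Type*} [Group G]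
  [MulSemiringAction G O] (P : Ideal O) [P.IsMaximal]

theorem mem_of_mul_mem_sq {π : O} (hπ : π ∈ P) (hπ2 : π ∉ P ^ 2) {u : O} (h : u * π ∈ P ^ 2) :
    u ∈ P := by
  by_contra hu
  obtain ⟨v, p, hp, hvp⟩ := (inferInstance : P.IsMaximal).exists_inv hu
  refine hπ2 ?_
  have e : π = v * (u * π) + p * π := by linear_combination (-π) * hvp
  rw [e]
  refine add_mem (Ideal.mul_mem_left _ _ h) ?_
  rw [pow_two]
  exact Ideal.mul_mem_mul hp hπ

/-- The inertia group is cyclic modulo its elements of `p`-power order. -/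
theorem exists_inertia_generator [Finite G] [FaithfulSMul G O] [Finite (O ⧸ P)] (hP : P ≠ ⊥)
    {p : ℕ} (hp : p.Prime) (hpP : (p : O) ∈ P) :
    ∃ g₀ ∈ P.inertia G, ∀ σ ∈ P.inertia G, ∃ n m : ℕ, ((g₀ ^ n)⁻¹ * σ) ^ p ^ m = 1 := by
  obtain ⟨π, hπ, hπ2⟩ : ∃ π ∈ P, π ∉ P ^ 2 := by
    have h := Ideal.pow_succ_lt_pow hP 1
    rw [pow_one] at h
    exact SetLike.exists_of_lt h
  have ha : ∀ σ : P.inertia G, ∃ a, (σ : G) • π - a * π ∈ P ^ 2 := fun σ =>
    exists_sub_mul_mem_sq P hP hπ hπ2 (smul_mem_of_mem_inertia P σ.2 hπ)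
  choose a ha using ha
  let θ₀ : P.inertia G →* O ⧸ P :=
    { toFun := fun σ => Ideal.Quotient.mk P (a σ)
      map_one' := by
        rw [← map_one (Ideal.Quotient.mk P), Ideal.Quotient.eq]
        refine mem_of_mul_mem_sq P hπ hπ2 ?_
        have := ha 1
        rw [Subgroup.coe_one, one_smul] at this
        have h2 := neg_mem this
        rwa [neg_sub, show a 1 * π - π = (a 1 - 1) * π by ring] at h2
      map_mul' := fun σ τ => by
        rw [← map_mul, Ideal.Quotient.eq]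
        refine mem_of_mul_mem_sq P hπ hπ2 ?_
        have h1 := ha (σ * τ)
        have h2 := smul_mem_pow_of_mem_inertia P σ.2 2 (ha τ)
        rw [smul_sub, smul_mul', smul_smul, ← Subgroup.coe_mul] at h2
        have h3 : ((σ : G) • a τ - a τ) * (σ : G) • π ∈ P ^ 2 := by
          rw [pow_two]
          exact Ideal.mul_mem_mul (σ.2 (a τ)) (smul_mem_of_mem_inertia P σ.2 hπ)
        have h4 := Ideal.mul_mem_left _ (a τ) (ha σ)
        have e : (a (σ * τ) - a σ * a τ) * π =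
            -(((σ * τ : P.inertia G) : G) • π - a (σ * τ) * π) +
            (((σ * τ : P.inertia G) : G) • π - (σ : G) • a τ * (σ : G) • π) +
            ((σ : G) • a τ - a τ) * (σ : G) • π + a τ * ((σ : G) • π - a σ * π) := by ring
        rw [e]
        exact add_mem (add_mem (add_mem (neg_mem h1) h2) h3) h4 }
  obtain ⟨g₀, hg₀⟩ := IsCyclic.exists_generator (α := θ₀.toHomUnits.range)
  obtain ⟨_, γ₀, rfl⟩ := g₀
  refine ⟨γ₀, γ₀.2, fun σ hσ => ?_⟩
  obtain ⟨n, hn⟩ := (mem_powers_iff_mem_zpowers.2 (hg₀ ⟨_, ⟨σ, hσ⟩, rfl⟩))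
  have hn' : θ₀.toHomUnits (γ₀ ^ n) = θ₀.toHomUnits ⟨σ, hσ⟩ := by
    simpa [Subtype.ext_iff, map_pow] using hn
  set γ : P.inertia G := (γ₀ ^ n)⁻¹ * ⟨σ, hσ⟩ with hγ
  have h1 : θ₀.toHomUnits γ = 1 := by rw [hγ, map_mul, map_inv, hn', inv_mul_cancel]
  replace h1 : a γ - 1 ∈ P := by
    rw [← Ideal.Quotient.eq, map_one]
    exact congrArg Units.val h1
  have hγπ : (γ : G) • π - π ∈ P ^ 2 := by
    have h := add_mem (ha γ) (pow_two P ▸ Ideal.mul_mem_mul h1 hπ)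
    rwa [show (γ : G) • π - a γ * π + (a γ - 1) * π = (γ : G) • π - π by ring] at h
  have hγP : ∀ {x : O}, x ∈ P → (γ : G) • x - x ∈ P ^ 2 := by
    intro x hx
    obtain ⟨c, hc⟩ := exists_sub_mul_mem_sq P hP hπ hπ2 hx
    have h2 : ((γ : G) • c - c) * (γ : G) • π ∈ P ^ 2 :=
      pow_two P ▸ Ideal.mul_mem_mul (γ.2 c) (smul_mem_of_mem_inertia P γ.2 hπ)
    have e : (γ : G) • x - x = ((γ : G) • (x - c * π) - (x - c * π)) +
        ((γ : G) • c - c) * (γ : G) • π + c * ((γ : G) • π - π) := by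
      rw [smul_sub, smul_mul']; ring
    rw [e]
    exact add_mem (add_mem (sub_mem (smul_mem_pow_of_mem_inertia P γ.2 2 hc) hc) h2)
      (Ideal.mul_mem_left _ _ hγπ)
  obtain ⟨m, hm⟩ : ∃ m, (γ : G) ^ p ^ m = 1 := by
    refine exists_pow_eq_one_of_sq P hp hpP fun x => ?_
    have := Fact.mk hp
    have : CharP (O ⧸ P) p := (CharP.charP_iff_prime_eq_zero hp).mpr (by
      rw [← map_natCast (Ideal.Quotient.mk P), Ideal.Quotient.eq_zero_iff_mem]; exact hpP)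
    obtain ⟨y, hy⟩ := (Finite.injective_iff_surjective.mp (frobenius_inj (O ⧸ P) p))
      (Ideal.Quotient.mk P x)
    obtain ⟨y, rfl⟩ := Ideal.Quotient.mk_surjective y
    rw [frobenius_def, ← map_pow, Ideal.Quotient.eq] at hy
    obtain ⟨r, hr⟩ := exists_add_pow_prime_eq hp y ((γ : G) • y - y)
    rw [add_sub_cancel] at hr
    have h2 : (γ : G) • (y ^ p) - y ^ p ∈ P ^ 2 := by
      rw [smul_pow', hr, add_assoc, add_sub_cancel_left]
      refine add_mem (Ideal.pow_le_pow_right hp.two_le (Ideal.pow_mem_pow (γ.2 y) p)) ?_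
      have hm : (p : O) * ((γ : G) • y - y) ∈ P ^ 2 := by
        rw [pow_two]; exact Ideal.mul_mem_mul hpP (γ.2 y)
      rw [show (p : O) * y * ((γ : G) • y - y) * r = (p : O) * ((γ : G) • y - y) * (y * r) by ring]
      exact Ideal.mul_mem_right _ _ hm
    have e : (γ : G) • x - x = ((γ : G) • (y ^ p) - y ^ p) -
        ((γ : G) • (y ^ p - x) - (y ^ p - x)) := by
      rw [smul_sub]; ring
    rw [e]
    exact sub_mem h2 (hγP hy)
  exact ⟨n, m, by simpa [hγ] using hm⟩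

end Dedekind

local notation "Γℚ" => AlgebraicClosure ℚ ≃ₐ[ℚ] AlgebraicClosure ℚ

/-- Two non-zero homomorphisms of finite level from the inertia group at an odd place to `ℤ/2` are
equal. -/
theorem inertia_char_unique {q : ℕ} (hq : q.Prime) (hq2 : q ≠ 2)
    {A : ValuationSubring (AlgebraicClosure ℚ)} (hA : A.LiesOverPrime q)
    {χ χ' : Γℚ → ZMod 2}
    (hlev : ∃ L : IntermediateField ℚ (AlgebraicClosure ℚ), FiniteDimensional ℚ L ∧
      ∀ g, ∀ s ∈ L.fixingSubgroup, χ (g * s) = χ g ∧ χ' (g * s) = χ' g)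
    (hadd : ∀ σ ∈ A.inertiaSubgroupIn ℚ, ∀ τ ∈ A.inertiaSubgroupIn ℚ,
      χ (σ * τ) = χ σ + χ τ ∧ χ' (σ * τ) = χ' σ + χ' τ)
    (hne : ∃ σ ∈ A.inertiaSubgroupIn ℚ, χ σ ≠ 0) (hne' : ∃ σ ∈ A.inertiaSubgroupIn ℚ, χ' σ ≠ 0) :
    ∀ σ ∈ A.inertiaSubgroupIn ℚ, χ σ = χ' σ := by
  obtain ⟨L₀, hL₀, hlev⟩ := hlev
  let L := IntermediateField.normalClosure ℚ L₀ (AlgebraicClosure ℚ)
  have hLfin : FiniteDimensional ℚ L := normalClosure.is_finiteDimensional ℚ _ _
  have hLgal : IsGalois ℚ L := IsGalois.normalClosure ℚ _ _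
  have : NumberField L := ⟨⟩
  let O := NumberField.RingOfIntegers L
  let ι : O →+* A :=
    { toFun := fun x => ⟨((x : L) : AlgebraicClosure ℚ),
        mem_valuationSubring_of_isIntegral A ((x.isIntegral_coe).map (L.val.restrictScalars ℤ))⟩
      map_one' := rfl
      map_mul' := fun _ _ => rfl
      map_zero' := rfl
      map_add' := fun _ _ => rfl }
  let P : Ideal O := (IsLocalRing.maximalIdeal A).comap ι
  have hmem : ∀ x : O, x ∈ P ↔ ((x : L) : AlgebraicClosure ℚ) ∈ A.nonunits := fun x =>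
    ValuationSubring.coe_mem_nonunits_iff.symm
  have hqP : (q : O) ∈ P := by
    rw [hmem]
    have : (((q : O) : L) : AlgebraicClosure ℚ) = (q : AlgebraicClosure ℚ) :=
      map_natCast (L.val.toRingHom.comp (algebraMap O L)) q
    rw [this]
    exact hA
  have hP : P ≠ ⊥ := fun h => Nat.cast_ne_zero.2 hq.ne_zero (by rwa [h, Ideal.mem_bot] at hqP)
  have : P.IsPrime := Ideal.IsPrime.comap ι
  have : P.IsMaximal := Ideal.IsPrime.isMaximal inferInstance hP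
  have : Finite (O ⧸ P) := Ring.HasFiniteQuotients.finiteQuotient hP
  let r : Γℚ →* Gal(L/ℚ) := AlgEquiv.restrictNormalHom L
  have hcomm : ∀ (g : Γℚ) (y : L),
      g (y : AlgebraicClosure ℚ) = ((r g y : L) : AlgebraicClosure ℚ) :=
    fun g y => (AlgEquiv.restrictNormal_commutes g L y).symm
  have : FaithfulSMul Gal(L/ℚ) O := (IsGaloisGroup.of_isFractionRing Gal(L/ℚ) ℤ O ℚ L).faithful
  let I : Subgroup Gal(L/ℚ) := (A.inertiaSubgroupIn ℚ).map r
  have hI : I ≤ P.inertia Gal(L/ℚ) := by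
    rintro _ ⟨g, hg, rfl⟩ x
    change r g • x - x ∈ P
    rw [hmem]
    have := sub_mem_nonunits_of_mem_inertiaSubgroupIn hg (ι x).2
    convert this using 1
    change ((r g (x : L) : L) : AlgebraicClosure ℚ) - _ = _
    rw [← hcomm]
    rfl
  have hI' : ∀ s ∈ P.inertia Gal(L/ℚ), ∃ g ∈ A.inertiaSubgroupIn ℚ, r g = s := by
    intro s hs
    obtain ⟨σ, hσ⟩ := AlgEquiv.restrictNormalHom_surjective (K₁ := L) (F := ℚ)
      (AlgebraicClosure ℚ) s
    obtain ⟨g, hg, hgL⟩ := MW.exists_mem_inertia_eqOn A L σ fun x hx hint => by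
      have hint' : IsIntegral ℤ (⟨x, hx⟩ : L) :=
        (isIntegral_algHom_iff ((L.val.restrictScalars ℤ)) L.val.injective).mp hint
      have h1 := (hmem _).1 (hs ⟨⟨x, hx⟩, hint'⟩)
      have h2 : ((s ⟨x, hx⟩ : L) : AlgebraicClosure ℚ) = σ x := by
        rw [← hσ]
        exact AlgEquiv.restrictNormal_commutes σ L ⟨x, hx⟩
      rw [← h2]
      exact h1
    refine ⟨g, hg, ?_⟩
    rw [← hσ]
    exact AlgEquiv.ext fun x => Subtype.ext (by rw [← hcomm, ← hcomm]; exact hgL x x.2)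
  obtain ⟨s₀, hs₀, hgen⟩ := exists_inertia_generator P hP hq hqP (G := Gal(L/ℚ))
  obtain ⟨g₀, hg₀, rfl⟩ := hI' s₀ hs₀
  -- a homomorphism of level `L₀` is determined by its value at `g₀`
  have key : ∀ φ : Γℚ → ZMod 2, (∀ g, ∀ s ∈ L₀.fixingSubgroup, φ (g * s) = φ g) →
      (∀ σ ∈ A.inertiaSubgroupIn ℚ, ∀ τ ∈ A.inertiaSubgroupIn ℚ, φ (σ * τ) = φ σ + φ τ) →
      ∀ σ ∈ A.inertiaSubgroupIn ℚ, ∃ n : ℕ, φ σ = (n : ZMod 2) * φ g₀ ∧
        ∀ φ' : Γℚ → ZMod 2, (∀ g, ∀ s ∈ L₀.fixingSubgroup, φ' (g * s) = φ' g) →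
        (∀ σ ∈ A.inertiaSubgroupIn ℚ, ∀ τ ∈ A.inertiaSubgroupIn ℚ,
          φ' (σ * τ) = φ' σ + φ' τ) → φ' σ = (n : ZMod 2) * φ' g₀ := by
    intro φ hφL hφ σ hσ
    obtain ⟨n, m, hnm⟩ := hgen (r σ) (hI ⟨σ, hσ, rfl⟩)
    have main : ∀ φ : Γℚ → ZMod 2, (∀ g, ∀ s ∈ L₀.fixingSubgroup, φ (g * s) = φ g) →
        (∀ σ ∈ A.inertiaSubgroupIn ℚ, ∀ τ ∈ A.inertiaSubgroupIn ℚ, φ (σ * τ) = φ σ + φ τ) →
        φ σ = (n : ZMod 2) * φ g₀ := by
      intro φ hφL hφ
      have h1 : φ 1 = 0 := by simpa using hφ 1 (one_mem _) 1 (one_mem _)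
      have hpow : ∀ g ∈ A.inertiaSubgroupIn ℚ, ∀ k : ℕ, φ (g ^ k) = (k : ZMod 2) * φ g := by
        intro g hg k
        induction k with
        | zero => simp [h1]
        | succ k ih => rw [pow_succ, hφ _ (pow_mem hg k) _ hg, ih]; push_cast; ring
      have hγmem : (g₀ ^ n)⁻¹ * σ ∈ A.inertiaSubgroupIn ℚ :=
        mul_mem (inv_mem (pow_mem hg₀ n)) hσ
      have hfix : ((g₀ ^ n)⁻¹ * σ) ^ q ^ m ∈ L₀.fixingSubgroup := by
        rw [IntermediateField.mem_fixingSubgroup_iff]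
        intro x hx
        have hxL : x ∈ L := IntermediateField.le_normalClosure L₀ hx
        have e : r (((g₀ ^ n)⁻¹ * σ) ^ q ^ m) = 1 := by
          rw [map_pow, map_mul, map_inv, map_pow]; exact hnm
        rw [hcomm _ ⟨x, hxL⟩, e]
        rfl
      have h0 : φ ((g₀ ^ n)⁻¹ * σ) = 0 := by
        have := hpow _ hγmem (q ^ m)
        rw [← one_mul (((g₀ ^ n)⁻¹ * σ) ^ q ^ m), hφL 1 _ hfix, h1,
          ZMod.natCast_eq_one_iff_odd.2 (Odd.pow (hq.odd_of_ne_two hq2)), one_mul] at this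
        exact this.symm
      have := hφ _ (pow_mem hg₀ n) _ hγmem
      rwa [mul_inv_cancel_left, h0, add_zero, hpow _ hg₀] at this
    exact ⟨n, main φ hφL hφ, main⟩
  have hval : ∀ φ : Γℚ → ZMod 2, (∀ g, ∀ s ∈ L₀.fixingSubgroup, φ (g * s) = φ g) →
      (∀ σ ∈ A.inertiaSubgroupIn ℚ, ∀ τ ∈ A.inertiaSubgroupIn ℚ, φ (σ * τ) = φ σ + φ τ) →
      (∃ σ ∈ A.inertiaSubgroupIn ℚ, φ σ ≠ 0) → φ g₀ = 1 := by
    rintro φ hφL hφ ⟨σ, hσ, hne⟩
    obtain ⟨n, hn, -⟩ := key φ hφL hφ σ hσ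
    by_contra h
    have : ∀ a : ZMod 2, a ≠ 1 → a = 0 := by decide
    exact hne (by rw [hn, this _ h, mul_zero])
  intro σ hσ
  obtain ⟨n, hn, hn'⟩ := key χ (fun g s hs => (hlev g s hs).1)
    (fun a ha b hb => (hadd a ha b hb).1) σ hσ
  rw [hn, hn' χ' (fun g s hs => (hlev g s hs).2) (fun a ha b hb => (hadd a ha b hb).2),
    hval χ (fun g s hs => (hlev g s hs).1) (fun a ha b hb => (hadd a ha b hb).1) hne,
    hval χ' (fun g s hs => (hlev g s hs).2) (fun a ha b hb => (hadd a ha b hb).2) hne']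

end Fermat.Agent.Residual.Sel
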