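import Fermat.Agent.Residual.SelFinite
import Fermat.Agent.Residual.SelGood
import Fermat.Agent.Residual.SelTame
import Fermat.Agent.Density.Main
import Fermat.Agent.PoitouTate.GlobalKummer

/-!
# Choice of the auxiliary primes

Primes `q ≡ 1` modulo `2^M`, outside `B`, with a Frobenius element acting as `[[1, c], [0, 1]]`
(`c` odd) cut the Selmer cocycles down to coboundaries; their number is bounded independently of
the level `2^M`, and at least one is used.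
-/

set_option autoImplicit false

open scoped Pointwise

namespace Fermat.Agent.Residual.Sel

local notation "ℚbar" => AlgebraicClosure ℚ
local notation "Γℚ" => AlgebraicClosure ℚ ≃ₐ[ℚ] AlgebraicClosure ℚ

/-- Every decomposition group over `ℓ` fixes a root. -/
def HasFixedRootAt (π : Γℚ →* Equiv.Perm (Fin 3)) (ℓ : ℕ) : Prop :=
  ∀ A : ValuationSubring ℚbar, A.LiesOverPrime ℓ →
    ∃ i, ∀ g ∈ A.decompositionSubgroup ℚ, π g i = i

/-- The consequence of reciprocity: a Selmer cocycle which is non-zero at the Frobenius element of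
a new prime `q` forces the Selmer cocycles with `q` added to be unramified at `q`. -/
def PairingCut (π : Γℚ →* Equiv.Perm (Fin 3)) (B : Finset ℕ) : Prop :=
  ∀ Q : Finset ℕ, (∀ ℓ ∈ Q, ℓ.Prime ∧ ℓ ∉ B ∧ HasFixedRootAt π ℓ) →
  ∀ q : ℕ, q.Prime → q ∉ B → q ∉ Q → q ≠ 2 →
  ∀ A : ValuationSubring ℚbar, A.LiesOverPrime q →
  ∀ τ : Γℚ, A.IsFrobeniusAt τ q → ∀ i, π τ ≠ 1 → π τ i = i →
  ∀ x, IsSel π B Q x → x τ i = 1 →
  ∀ y, IsSel π B (insert q Q) y → UnramifiedAt y q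

/-- The properties of an auxiliary prime. -/
def IsAuxPrime {M : ℕ} (π : Γℚ →* Equiv.Perm (Fin 3)) (ρ : Γℚ →* GL (Fin 2) (ZMod (2 ^ M)))
    (B : Finset ℕ) (q : ℕ) : Prop :=
  q.Prime ∧ q ∉ B ∧ q % 2 ^ M = 1 ∧ HasFixedRootAt π q ∧
    ∃ A : ValuationSubring ℚbar, A.LiesOverPrime q ∧ ∃ τ : Γℚ, A.IsFrobeniusAt τ q ∧
      π τ ≠ 1 ∧ ∃ c : ZMod (2 ^ M),
        (ρ τ : Matrix (Fin 2) (Fin 2) (ZMod (2 ^ M))) = !![1, c; 0, 1]

theorem hasFixedRootAt_of_frobenius {π : Γℚ →* Equiv.Perm (Fin 3)} {q : ℕ} (hq : q.Prime)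
    {A : ValuationSubring ℚbar} (hA : A.LiesOverPrime q) {τ : Γℚ} (hτ : A.IsFrobeniusAt τ q)
    (hunr : ∀ g ∈ A.inertiaSubgroupIn ℚ, π g = 1) (h1 : π τ ≠ 1) {i : Fin 3} (hi : π τ i = i) :
    HasFixedRootAt π q := by
  intro A' hA'
  obtain ⟨h, rfl⟩ := Galois.exists_smul_eq_of_liesOverPrime hq hA hA'
  refine ⟨π h i, fun g hg => ?_⟩
  have hg' : h⁻¹ * g * h ∈ A.decompositionSubgroup ℚ := by
    rw [MulAction.mem_stabilizer_iff, mul_smul, mul_smul, MulAction.mem_stabilizer_iff.1 hg,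
      inv_smul_smul]
  have := congrArg (π h) (decomposition_fix hτ hunr h1 hi hg')
  simpa [map_mul] using this

theorem add_eq_zero_of_two_coords (v w : RootVec) (i j : Fin 3) (hv : ∑ k, v k = 0)
    (hw : ∑ k, w k = 0) (hj : j ≠ i) (hvi : v i = 0) (hwi : w i = 0) (h : v j = w j) :
    v + w = 0 :=
  eq_zero_of_two_coords _ i j (by simp [Finset.sum_add_distrib, hv, hw]) hj
    (by simp [hvi, hwi]) (by show v j + w j = 0; rw [h, CharTwo.add_self_eq_zero])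

theorem isCocycle_zero (π : Γℚ →* Equiv.Perm (Fin 3)) : IsCocycle π (fun _ => 0) where
  sum_eq := fun _ => by simp
  map_mul := fun _ _ => by simp
  level := ⟨⊥, inferInstance, fun _ _ _ => rfl⟩

theorem IsCocycle.add {π : Γℚ →* Equiv.Perm (Fin 3)} {x y : Γℚ → RootVec}
    (hx : IsCocycle π x) (hy : IsCocycle π y) : IsCocycle π (x + y) where
  sum_eq := fun g => by simp [Finset.sum_add_distrib, hx.sum_eq g, hy.sum_eq g]
  map_mul := fun g h => by
    show x (g * h) + y (g * h) = x g + y g + permVec (π g) (x h + y h)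
    rw [hx.map_mul, hy.map_mul, permVec_add]
    abel
  level := by
    obtain ⟨L, hL, hxL⟩ := hx.level
    obtain ⟨L', hL', hyL⟩ := hy.level
    refine ⟨L ⊔ L', IntermediateField.finiteDimensional_sup L L', fun g s hs => ?_⟩
    show x (g * s) + y (g * s) = x g + y g
    rw [hxL g s (IntermediateField.fixingSubgroup_antitone le_sup_left hs),
      hyL g s (IntermediateField.fixingSubgroup_antitone le_sup_right hs)]

/-- A cocycle trivial on the inertia group of one place over `q` is unramified at `q`, when `π`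
is unramified there. -/
theorem unramifiedAt_of_one_place {π : Γℚ →* Equiv.Perm (Fin 3)} {x : Γℚ → RootVec}
    (hx : IsCocycle π x) {q : ℕ} (hq : q.Prime)
    (hunr : ∀ A : ValuationSubring ℚbar, A.LiesOverPrime q →
      ∀ g ∈ A.inertiaSubgroupIn ℚ, π g = 1)
    {A : ValuationSubring ℚbar} (hA : A.LiesOverPrime q)
    (h0 : ∀ g ∈ A.inertiaSubgroupIn ℚ, x g = 0) : UnramifiedAt x q := by
  intro A' hA' g hg
  obtain ⟨h, rfl⟩ := Galois.exists_smul_eq_of_liesOverPrime hq hA hA'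
  have hg' := PoitouTate.conj_mem_inertiaSubgroupIn h⁻¹ hg
  rw [inv_smul_smul, inv_inv] at hg'
  have h1 := h0 _ hg'
  have h2 := hx.map_conj (hunr _ hA _ hg') h
  rw [h1, permVec_zero, show h * (h⁻¹ * g * h) * h⁻¹ = g by group] at h2
  exact h2

/-- Adding one prime at most doubles the number of Selmer cocycles. -/
theorem ncard_isSel_singleton_le {π : Γℚ →* Equiv.Perm (Fin 3)} {B : Finset ℕ} {q : ℕ}
    (hq : q.Prime) (hq2 : q ≠ 2) (hqB : q ∉ B)
    (hunr : ∀ A : ValuationSubring ℚbar, A.LiesOverPrime q →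
      ∀ g ∈ A.inertiaSubgroupIn ℚ, π g = 1)
    (hfix : HasFixedRootAt π q) (hfin : {x | IsSel π B ∅ x}.Finite) :
    {x | IsSel π B {q} x}.ncard ≤ 2 * {x | IsSel π B ∅ x}.ncard := by
  -- an unramified one is a Selmer cocycle of the empty set
  have hdrop : ∀ x, IsCocycle π x → (∀ ℓ, ℓ.Prime → ℓ ∉ B → ℓ ≠ q → UnramifiedAt x ℓ) →
      UnramifiedAt x q → (∀ ℓ, ℓ.Prime → ℓ ∈ B → LineTypeAt π x ℓ) → IsSel π B ∅ x := by
    intro x hx hu huq hl
    refine ⟨hx, fun ℓ hℓ hℓB _ => ?_, fun ℓ hℓ hmem => hl ℓ hℓ (hmem.resolve_right (by simp))⟩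
    by_cases h : ℓ = q
    · subst h; exact huq
    · exact hu ℓ hℓ hℓB h
  by_cases hall : ∀ y, IsSel π B {q} y → UnramifiedAt y q
  · refine le_trans (Set.ncard_le_ncard (fun y hy => hdrop y hy.cocycle
      (fun ℓ hℓ hℓB hne => hy.unramified ℓ hℓ hℓB (by simpa using hne)) (hall y hy)
      (fun ℓ hℓ hℓB => hy.lineType ℓ hℓ (Or.inl hℓB))) hfin) (Nat.le_mul_of_pos_left _ two_pos)
  push Not at hall
  obtain ⟨y₀, hy₀, hy₀r⟩ := hall
  have hsub : {x | IsSel π B {q} x} ⊆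
      {x | IsSel π B ∅ x} ∪ (fun z => z + y₀) '' {x | IsSel π B ∅ x} := by
    intro y hy
    by_cases hyr : UnramifiedAt y q
    · exact Or.inl (hdrop y hy.cocycle
        (fun ℓ hℓ hℓB hne => hy.unramified ℓ hℓ hℓB (by simpa using hne)) hyr
        (fun ℓ hℓ hℓB => hy.lineType ℓ hℓ (Or.inl hℓB)))
    refine Or.inr ⟨y + y₀, hdrop _ (hy.cocycle.add hy₀.cocycle) (fun ℓ hℓ hℓB hne A hA g hg => ?_)
      ?_ (fun ℓ hℓ hℓB A hA i hi g hg => ?_), ?_⟩
    · show y g + y₀ g = 0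
      rw [hy.unramified ℓ hℓ hℓB (by simpa using hne) A hA g hg,
        hy₀.unramified ℓ hℓ hℓB (by simpa using hne) A hA g hg, add_zero]
    · intro A hA g hg
      obtain ⟨i, hi⟩ := hfix A hA
      have hID := PoitouTate.inertiaSubgroupIn_le_decompositionSubgroup A
      have hline : ∀ z : Γℚ → RootVec, IsSel π B {q} z → ∀ s ∈ A.inertiaSubgroupIn ℚ,
          z s i = 0 := fun z hz s hs =>
        hz.lineType q hq (Or.inr (Finset.mem_singleton_self q)) A hA i hi s (hID hs)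
      -- the coordinate at another root
      obtain ⟨j, hj⟩ : ∃ j, j ≠ i := exists_ne i
      have hz0 : ∀ z : Γℚ → RootVec, IsSel π B {q} z → ∀ s ∈ A.inertiaSubgroupIn ℚ,
          z s j = 0 → z s = 0 := by
        exact fun z hz s hs h0 => eq_zero_of_two_coords _ i j (hz.cocycle.sum_eq s) hj (hline z hz s hs) h0
      have hne : ∀ z : Γℚ → RootVec, IsSel π B {q} z → ¬ UnramifiedAt z q →
          ∃ s ∈ A.inertiaSubgroupIn ℚ, z s j ≠ 0 := by
        intro z hz hzr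
        by_contra h
        push Not at h
        exact hzr (unramifiedAt_of_one_place hz.cocycle hq hunr hA
          fun s hs => hz0 z hz s hs (h s hs))
      obtain ⟨L, hL, hyL⟩ := hy.cocycle.level
      obtain ⟨L', hL', hy₀L⟩ := hy₀.cocycle.level
      have heq := inertia_char_unique hq hq2 hA (χ := fun s => y s j) (χ' := fun s => y₀ s j)
        ⟨L ⊔ L', IntermediateField.finiteDimensional_sup L L', fun a s hs =>
          ⟨by rw [hyL a s (IntermediateField.fixingSubgroup_antitone le_sup_left hs)],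
           by rw [hy₀L a s (IntermediateField.fixingSubgroup_antitone le_sup_right hs)]⟩⟩
        (fun a ha b _ => ⟨by rw [hy.cocycle.map_mul_of_ker (hunr A hA a ha)]; rfl,
          by rw [hy₀.cocycle.map_mul_of_ker (hunr A hA a ha)]; rfl⟩)
        (hne y hy hyr) (hne y₀ hy₀ hy₀r) g hg
      show y g + y₀ g = 0
      exact add_eq_zero_of_two_coords _ _ i j (hy.cocycle.sum_eq g) (hy₀.cocycle.sum_eq g) hj (hline y hy g hg)
        (hline y₀ hy₀ g hg) heq
    · show y g i + y₀ g i = 0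
      rw [hy.lineType ℓ hℓ (Or.inl hℓB) A hA i hi g hg,
        hy₀.lineType ℓ hℓ (Or.inl hℓB) A hA i hi g hg, add_zero]
    · show y + y₀ + y₀ = y
      funext g
      show y g + y₀ g + y₀ g = y g
      rw [add_assoc, vec_add_self, add_zero]
  refine (Set.ncard_le_ncard hsub (hfin.union (hfin.image _))).trans
    ((Set.ncard_union_le _ _).trans ?_)
  have := Set.ncard_image_le (f := fun z => z + y₀) hfin
  omega

variable {M : ℕ} {π : Γℚ →* Equiv.Perm (Fin 3)} {ρ : Γℚ →* GL (Fin 2) (ZMod (2 ^ M))}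
  {B : Finset ℕ}

/-- An auxiliary prime outside `S` whose Frobenius element imitates `σ`. -/
theorem exists_aux_frobenius (hM : M ≠ 0)
    (hlev : ∃ L : IntermediateField ℚ ℚbar, FiniteDimensional ℚ L ∧
      ∀ g ∈ L.fixingSubgroup, π g = 1)
    (hρlev : ∃ L : IntermediateField ℚ ℚbar, FiniteDimensional ℚ L ∧
      ∀ g ∈ L.fixingSubgroup, ρ g = 1)
    (hunr : ∀ ℓ : ℕ, ℓ.Prime → ℓ ∉ B → ∀ A : ValuationSubring ℚbar, A.LiesOverPrime ℓ →
      ∀ g ∈ A.inertiaSubgroupIn ℚ, π g = 1)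
    (hdet : ∀ ℓ : ℕ, ℓ.Prime → ℓ ∉ B → ∀ A : ValuationSubring ℚbar, A.LiesOverPrime ℓ →
      ∀ τ : Γℚ, A.IsFrobeniusAt τ ℓ →
        (ρ τ : Matrix (Fin 2) (Fin 2) (ZMod (2 ^ M))).det = (ℓ : ZMod (2 ^ M)))
    {σ : Γℚ} (hσ : (ρ σ : Matrix (Fin 2) (Fin 2) (ZMod (2 ^ M))) = !![1, 1; 0, 1])
    (hσ1 : π σ ≠ 1) {i : Fin 3} (hi : π σ i = i) {x : Γℚ → RootVec} (hx : IsCocycle π x)
    (S : Finset ℕ) :
    ∃ q, q ∉ S ∧ IsAuxPrime π ρ B q ∧ ∃ A : ValuationSubring ℚbar, A.LiesOverPrime q ∧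
      ∃ τ : Γℚ, A.IsFrobeniusAt τ q ∧ π τ ≠ 1 ∧ π τ i = i ∧ x τ i = x σ i := by
  obtain ⟨Lπ, hLπ, hπL⟩ := hlev
  obtain ⟨Lρ, hLρ, hρL⟩ := hρlev
  obtain ⟨Lx, hLx, hxL⟩ := hx.level
  have : FiniteDimensional ℚ (Lρ ⊔ Lx : IntermediateField ℚ ℚbar) :=
    IntermediateField.finiteDimensional_sup Lρ Lx
  have : FiniteDimensional ℚ (Lπ ⊔ (Lρ ⊔ Lx) : IntermediateField ℚ ℚbar) :=
    IntermediateField.finiteDimensional_sup Lπ (Lρ ⊔ Lx)
  obtain ⟨q, hq, hqS, A, hA, τ, hτ, ⟨k', hk'⟩, ⟨k, hk⟩⟩ :=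
    Density.exists_frobenius_pow σ (Lπ ⊔ (Lρ ⊔ Lx)) (B ∪ S)
  rw [Finset.notMem_union] at hqS
  have heqL : ∀ {a b : Γℚ}, (∀ z ∈ (Lπ ⊔ (Lρ ⊔ Lx) : IntermediateField ℚ ℚbar), a z = b z) →
      π a = π b ∧ ρ a = ρ b ∧ x a = x b := by
    intro a b hab
    have hmem : a⁻¹ * b ∈ (Lπ ⊔ (Lρ ⊔ Lx) : IntermediateField ℚ ℚbar).fixingSubgroup :=
      (IntermediateField.mem_fixingSubgroup_iff _ _).2 fun z hz => by
        rw [AlgEquiv.mul_apply, ← hab z hz, ← AlgEquiv.mul_apply, inv_mul_cancel,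
          AlgEquiv.one_apply]
    refine ⟨?_, ?_, ?_⟩
    · have := hπL _ (IntermediateField.fixingSubgroup_antitone le_sup_left hmem)
      rwa [map_mul, map_inv, inv_mul_eq_one] at this
    · have := hρL _ (IntermediateField.fixingSubgroup_antitone
        (le_sup_left.trans le_sup_right) hmem)
      rwa [map_mul, map_inv, inv_mul_eq_one] at this
    · have := hxL a _ (IntermediateField.fixingSubgroup_antitone
        (le_sup_right.trans le_sup_right) hmem)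
      rwa [mul_inv_cancel_left, eq_comm] at this
  obtain ⟨hπτ, hρτ, hxτ⟩ := heqL hk
  obtain ⟨hπσ, -, -⟩ := heqL hk'
  have hτ1 : π τ ≠ 1 := fun h => hσ1 (by rw [hπσ, map_pow, h, one_pow])
  have hkodd : Odd k := by
    rw [← Nat.not_even_iff_odd]
    rintro ⟨m, rfl⟩
    refine hτ1 (hπτ.trans ?_)
    rw [map_pow, ← two_mul, pow_mul, sq, involution_of_fixed _ i hi, one_pow]
  have hτi : π τ i = i := by
    rw [hπτ, map_pow]
    obtain ⟨m, rfl⟩ := hkodd
    rw [pow_succ, pow_mul, sq, involution_of_fixed _ i hi, one_pow, one_mul]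
    exact hi
  have hxτi : x τ i = x σ i := by
    rw [hxτ, hx.apply_pow_of_fixed hi, ZMod.natCast_eq_one_iff_odd.2 hkodd, one_mul]
  have hc : (ρ τ : Matrix (Fin 2) (Fin 2) (ZMod (2 ^ M))) =
      !![1, (k : ZMod (2 ^ M)); 0, 1] := by rw [hρτ, rep_pow_upper hσ]
  have hq1 : (q : ZMod (2 ^ M)) = 1 := by
    rw [← hdet q hq hqS.1 A hA τ hτ, hc, Matrix.det_fin_two_of]
    ring
  have hqmod : q % 2 ^ M = 1 := by
    have : Fact (1 < 2 ^ M) := ⟨Nat.one_lt_two_pow hM⟩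
    rw [← ZMod.val_natCast (2 ^ M) q, hq1, ZMod.val_one]
  exact ⟨q, hqS.2, ⟨hq, hqS.1, hqmod,
    hasFixedRootAt_of_frobenius hq hA hτ (hunr q hq hqS.1 A hA) hτ1 hτi,
    A, hA, τ, hτ, hτ1, _, hc⟩, A, hA, τ, hτ, hτ1, hτi, hxτi⟩

/-- **Choice of the auxiliary primes.** -/
theorem exists_auxiliary_primes (π : Γℚ →* Equiv.Perm (Fin 3)) (B : Finset ℕ)
    (h2 : 2 ∈ B) (hπ : Function.Surjective π)
    (hlev : ∃ L : IntermediateField ℚ ℚbar, FiniteDimensional ℚ L ∧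
      ∀ g ∈ L.fixingSubgroup, π g = 1)
    (hunr : ∀ ℓ : ℕ, ℓ.Prime → ℓ ∉ B → ∀ A : ValuationSubring ℚbar, A.LiesOverPrime ℓ →
      ∀ g ∈ A.inertiaSubgroupIn ℚ, π g = 1)
    (hcut : PairingCut π B) :
    ∃ N : ℕ, ∀ M : ℕ, 1 ≤ M → ∀ ρ : Γℚ →* GL (Fin 2) (ZMod (2 ^ M)), Function.Surjective ρ →
      (∃ L : IntermediateField ℚ ℚbar, FiniteDimensional ℚ L ∧
        ∀ g ∈ L.fixingSubgroup, ρ g = 1) →
      (∀ g, π g = 1 ↔ IsOneModTwo (ρ g : Matrix (Fin 2) (Fin 2) (ZMod (2 ^ M)))) →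
      (∀ ℓ : ℕ, ℓ.Prime → ℓ ∉ B → ∀ A : ValuationSubring ℚbar, A.LiesOverPrime ℓ →
        ∀ τ : Γℚ, A.IsFrobeniusAt τ ℓ →
          (ρ τ : Matrix (Fin 2) (Fin 2) (ZMod (2 ^ M))).det = (ℓ : ZMod (2 ^ M))) →
      ∃ Q : Finset ℕ, Q.Nonempty ∧ Q.card ≤ N ∧ SelTrivial π B Q ∧
        ∀ q ∈ Q, IsAuxPrime π ρ B q := by
  classical
  have hfinU : ∀ Q : Finset ℕ, {x | IsSel π B Q x}.Finite := fun Q =>
    (finite_unramified_cocycles (B ∪ Q) hlev fun ℓ hℓ hℓB =>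
      hunr ℓ hℓ fun h => hℓB (Finset.mem_union_left Q h)).subset fun x hx =>
      ⟨hx.cocycle, fun ℓ hℓ hℓB => hx.unramified ℓ hℓ (fun h => hℓB (Finset.mem_union_left Q h))
        fun h => hℓB (Finset.mem_union_right B h)⟩
  refine ⟨2 * {x | IsSel π B ∅ x}.ncard + 1, fun M hM ρ hρ hρlev hker hdet => ?_⟩
  have hM0 : M ≠ 0 := by omega
  have key : ∀ n (Q : Finset ℕ), (∀ q ∈ Q, IsAuxPrime π ρ B q) →
      {x | IsSel π B Q x}.ncard ≤ n →
      ∃ Q', Q ⊆ Q' ∧ Q'.card ≤ Q.card + n ∧ SelTrivial π B Q' ∧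
        ∀ q ∈ Q', IsAuxPrime π ρ B q := by
    intro n
    induction n using Nat.strong_induction_on with
    | _ n ih =>
    intro Q hQ hn
    by_cases htriv : SelTrivial π B Q
    · exact ⟨Q, subset_rfl, Nat.le_add_right _ _, htriv, hQ⟩
    simp only [SelTrivial, not_forall] at htriv
    obtain ⟨x, hx, hxnt⟩ := htriv
    obtain ⟨σ, i, hσ, hσ1, hi, hxσ⟩ := exists_good_element hM0 hπ hρ hker hx.cocycle hxnt
    obtain ⟨q, hqQ, haux, A, hA, τ, hτ, hτ1, hτi, hxτ⟩ :=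
      exists_aux_frobenius hM0 hlev hρlev hunr hdet hσ hσ1 hi hx.cocycle Q
    rw [hxσ] at hxτ
    obtain ⟨hq, hqB, -⟩ := id haux
    have hq2 : q ≠ 2 := fun h => hqB (h ▸ h2)
    have hsub' : {y | IsSel π B (insert q Q) y} ⊆ {y | IsSel π B Q y} \ {x} := by
      intro y hy
      refine ⟨?_, fun h => ?_⟩
      · have hyq := hcut Q (fun ℓ hℓ => ⟨(hQ ℓ hℓ).1, (hQ ℓ hℓ).2.1, (hQ ℓ hℓ).2.2.2.1⟩) q hq hqB
          hqQ hq2 A hA τ hτ i hτ1 hτi x hx hxτ y hy
        refine ⟨hy.cocycle, fun ℓ hℓ hℓB hℓQ => ?_, fun ℓ hℓ hmem =>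
          hy.lineType ℓ hℓ (hmem.imp_right (Finset.mem_insert_of_mem ·))⟩
        by_cases hlq : ℓ = q
        · subst hlq; exact hyq
        · exact hy.unramified ℓ hℓ hℓB (by simp [hlq, hℓQ])
      · rw [Set.mem_singleton_iff] at h
        subst h
        have := hy.lineType q hq (Or.inr (Finset.mem_insert_self q Q)) A hA i
          (fun g hg => decomposition_fix hτ (hunr q hq hqB A hA) hτ1 hτi hg) τ
          hτ.mem_decompositionSubgroup
        rw [hxτ] at this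
        exact one_ne_zero this
    have hlt : {y | IsSel π B (insert q Q) y}.ncard < {y | IsSel π B Q y}.ncard :=
      Set.ncard_lt_ncard ⟨hsub'.trans Set.sdiff_subset, fun h => (hsub' (h hx)).2 rfl⟩ (hfinU Q)
    obtain ⟨Q', hsubQ, hQ', htriv', hall⟩ := ih (n - 1) (by omega) (insert q Q)
      (Finset.forall_mem_insert _ _ _ |>.2 ⟨haux, hQ⟩) (by omega)
    refine ⟨Q', (Finset.subset_insert q Q).trans hsubQ, ?_, htriv', hall⟩
    rw [Finset.card_insert_of_notMem hqQ] at hQ'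
    omega
  by_cases htriv : SelTrivial π B ∅
  · -- one prime is needed in any case
    obtain ⟨σ, hσ⟩ := exists_lift hρ 1 1 0 1 (by simp)
    have hσ1 : π σ ≠ 1 := fun h => not_two_dvd_one hM0 (by simpa [hσ] using (hker σ).1 h 0 1)
    have hσσ : π (σ * σ) = 1 := by
      rw [← sq, hker, rep_pow_upper hσ]
      exact isOneModTwo_of (by simp) (by simp) (by simp) (by simp)
    obtain ⟨i, hi, -⟩ := exists_fixed_of_involution (π σ) (by rw [← map_mul, hσσ]) hσ1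
    obtain ⟨q, -, haux, -⟩ :=
      exists_aux_frobenius hM0 hlev hρlev hunr hdet hσ hσ1 hi (isCocycle_zero π) ∅
    obtain ⟨hq, hqB, -, hfix, -⟩ := id haux
    have hle := ncard_isSel_singleton_le hq (fun h => hqB (h ▸ h2)) hqB (hunr q hq hqB) hfix
      (hfinU ∅)
    obtain ⟨Q', hsub, hcard, ht, hall⟩ := key _ {q} (by simpa using haux) hle
    refine ⟨Q', ⟨q, hsub (Finset.mem_singleton_self q)⟩, ?_, ht, hall⟩
    rw [Finset.card_singleton] at hcard
    omega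
  · obtain ⟨Q', -, hcard, ht, hall⟩ := key _ ∅ (by simp) le_rfl
    refine ⟨Q', Finset.nonempty_iff_ne_empty.2 fun h => htriv (h ▸ ht), ?_, ht, hall⟩
    rw [Finset.card_empty] at hcard
    omega

end Fermat.Agent.Residual.Sel
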