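import Fermat.Agent.Residual.Defs
import Fermat.Agent.Residual.SelMain
import Fermat.Agent.Datum.Roots
import Fermat.Agent.MW.WeakUnramified
import Fermat.Prelude.Def_GaloisRep_ComplexConjugation
import Mathlib.FieldTheory.PrimitiveElement

/-!
# The permutation representation of a datum

`GL₂(𝔽₂)` permutes the three non-zero vectors; pairing a vector with them identifies the plane
with the even vectors on three letters.  Translation of `IsSelmer` and of lifts into the language
of `Fermat.Agent.Residual.Sel`.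
-/

set_option autoImplicit false

noncomputable section

open Matrix
open scoped Pointwise

namespace Fermat.Agent.Residual.Sel

local notation "ℚbar" => AlgebraicClosure ℚ
local notation "Γℚ" => AlgebraicClosure ℚ ≃ₐ[ℚ] AlgebraicClosure ℚ

/-- The three non-zero vectors of the plane over `𝔽₂`. -/
def lineVec (i : Fin 3) : Fin 2 → ZMod 2 := ![![1, 0], ![0, 1], ![1, 1]] i

/-- The index of a non-zero vector. -/
def lineIdx (v : Fin 2 → ZMod 2) : Fin 3 := if v 0 = 0 then 1 else if v 1 = 0 then 0 else 2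

theorem lineVec_lineIdx : ∀ v : Fin 2 → ZMod 2, v ≠ 0 → lineVec (lineIdx v) = v := by decide

theorem lineIdx_lineVec : ∀ i, lineIdx (lineVec i) = i := by decide

theorem lineVec_ne_zero : ∀ i, lineVec i ≠ 0 := by decide

theorem mulVec_lineVec_ne_zero (g : GL (Fin 2) (ZMod 2)) (i : Fin 3) :
    (g : Matrix (Fin 2) (Fin 2) (ZMod 2)) *ᵥ lineVec i ≠ 0 := fun h => by
  have h' := congrArg ((↑g⁻¹ : Matrix (Fin 2) (Fin 2) (ZMod 2)) *ᵥ ·) h
  simp only [Matrix.mulVec_mulVec, ← Units.val_mul, inv_mul_cancel, Units.val_one,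
    Matrix.one_mulVec, Matrix.mulVec_zero] at h'
  exact lineVec_ne_zero i h'

/-- The index of the image of a line. -/
def lineImage (g : GL (Fin 2) (ZMod 2)) (i : Fin 3) : Fin 3 :=
  lineIdx ((g : Matrix (Fin 2) (Fin 2) (ZMod 2)) *ᵥ lineVec i)

theorem lineVec_lineImage (g : GL (Fin 2) (ZMod 2)) (i : Fin 3) :
    lineVec (lineImage g i) = (g : Matrix (Fin 2) (Fin 2) (ZMod 2)) *ᵥ lineVec i :=
  lineVec_lineIdx _ (mulVec_lineVec_ne_zero g i)

theorem lineImage_mul (g h : GL (Fin 2) (ZMod 2)) (i : Fin 3) :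
    lineImage (g * h) i = lineImage g (lineImage h i) := by
  conv_rhs => rw [lineImage, lineVec_lineImage, Matrix.mulVec_mulVec]
  rfl

theorem lineImage_one (i : Fin 3) : lineImage 1 i = i := by
  rw [lineImage, Units.val_one, Matrix.one_mulVec, lineIdx_lineVec]

/-- The action on the three lines. -/
def linePerm : GL (Fin 2) (ZMod 2) →* Equiv.Perm (Fin 3) where
  toFun g :=
    { toFun := lineImage g
      invFun := lineImage g⁻¹
      left_inv := fun i => by rw [← lineImage_mul, inv_mul_cancel, lineImage_one]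
      right_inv := fun i => by rw [← lineImage_mul, mul_inv_cancel, lineImage_one] }
  map_one' := Equiv.ext lineImage_one
  map_mul' g h := Equiv.ext (lineImage_mul g h)

theorem lineVec_linePerm (g : GL (Fin 2) (ZMod 2)) (i : Fin 3) :
    lineVec (linePerm g i) = (g : Matrix (Fin 2) (Fin 2) (ZMod 2)) *ᵥ lineVec i :=
  lineVec_lineImage g i

theorem linePerm_eq_one {g : GL (Fin 2) (ZMod 2)} (h : linePerm g = 1) : g = 1 := by
  apply Units.ext
  have h0 := lineVec_linePerm g 0
  have h1 := lineVec_linePerm g 1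
  rw [h, Equiv.Perm.one_apply] at h0 h1
  ext i j
  fin_cases j
  · have := congrFun h0 i
    fin_cases i <;> simpa [lineVec, Matrix.mulVec, dotProduct, Fin.sum_univ_two] using this.symm
  · have := congrFun h1 i
    fin_cases i <;> simpa [lineVec, Matrix.mulVec, dotProduct, Fin.sum_univ_two] using this.symm

theorem linePerm_surjective : Function.Surjective linePerm := by
  intro p
  let A : Equiv.Perm (Fin 3) → Matrix (Fin 2) (Fin 2) (ZMod 2) := fun p =>
    Matrix.of fun r c => if c = 0 then lineVec (p 0) r else lineVec (p 1) r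
  have hdet : ∀ p, (A p).det ≠ 0 := by decide
  have hcol : ∀ p i, A p *ᵥ lineVec i = lineVec (p i) := by decide
  refine ⟨Matrix.GeneralLinearGroup.mkOfDetNeZero (A p) (hdet p), Equiv.ext fun i => ?_⟩
  show lineIdx (A p *ᵥ lineVec i) = p i
  rw [hcol, lineIdx_lineVec]

/-- The pairing with a vector. -/
def wedge (v w : Fin 2 → ZMod 2) : ZMod 2 := v 0 * w 1 + v 1 * w 0

theorem wedge_mulVec (g : GL (Fin 2) (ZMod 2)) (v w : Fin 2 → ZMod 2) :
    wedge ((g : Matrix (Fin 2) (Fin 2) (ZMod 2)) *ᵥ v)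
      ((g : Matrix (Fin 2) (Fin 2) (ZMod 2)) *ᵥ w) = wedge v w := by
  have key : ∀ (A : Matrix (Fin 2) (Fin 2) (ZMod 2)), A.det ≠ 0 →
      ∀ v w : Fin 2 → ZMod 2, wedge (A *ᵥ v) (A *ᵥ w) = A.det * wedge v w := by
    intro A _ v w
    simp [wedge, Matrix.det_fin_two, Matrix.mulVec, dotProduct, Fin.sum_univ_two]
    have h2 : ∀ a : ZMod 2, a + a = 0 := CharTwo.add_self_eq_zero
    linear_combination h2 (A 0 0 * v 0 * A 1 0 * w 0) + h2 (A 0 1 * v 1 * A 1 1 * w 1) +
      h2 (A 0 1 * A 1 0 * (v 0 * w 1 + v 1 * w 0))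
  have h0 : (g : Matrix (Fin 2) (Fin 2) (ZMod 2)).det ≠ 0 :=
    (Matrix.GeneralLinearGroup.det g).ne_zero
  have h1 : ∀ a : ZMod 2, a ≠ 0 → a = 1 := by decide
  rw [key _ h0, h1 _ h0, one_mul]

theorem wedge_add (v w w' : Fin 2 → ZMod 2) : wedge v (w + w') = wedge v w + wedge v w' := by
  simp only [wedge, Pi.add_apply]; ring

/-- The coordinates of a vector on the three letters. -/
def coords (w : Fin 2 → ZMod 2) : RootVec := fun i => wedge (lineVec i) w

theorem coords_add (w w' : Fin 2 → ZMod 2) : coords (w + w') = coords w + coords w' :=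
  funext fun _ => wedge_add _ _ _

theorem sum_coords : ∀ w, ∑ i, coords w i = 0 := by decide

theorem coords_injective : Function.Injective coords := by decide

theorem exists_coords_eq : ∀ v : RootVec, (∑ i, v i = 0) → ∃ w, coords w = v := by decide

theorem coords_mulVec (g : GL (Fin 2) (ZMod 2)) (w : Fin 2 → ZMod 2) :
    coords ((g : Matrix (Fin 2) (Fin 2) (ZMod 2)) *ᵥ w) = permVec (linePerm g) (coords w) := by
  funext i
  show wedge (lineVec i) _ = wedge (lineVec ((linePerm g)⁻¹ i)) w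
  conv_rhs => rw [← wedge_mulVec g, ← lineVec_linePerm]
  simp

set_option synthInstance.maxSize 1000 in
theorem coords_apply_eq_zero_of_fixed : ∀ (σ : Equiv.Perm (Fin 3)) (i : Fin 3) (v : RootVec),
    σ ≠ 1 → σ i = i → (∑ j, v j = 0) → permVec σ v = v → v i = 0 := by
  decide

variable {D : Datum}

/-- The permutation representation of a datum. -/
def rootPerm (D : Datum) : Γℚ →* Equiv.Perm (Fin 3) := linePerm.comp D.ρbar

theorem rootPerm_eq_one_iff {g : Γℚ} : rootPerm D g = 1 ↔ D.ρbar g = 1 :=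
  ⟨linePerm_eq_one, fun h => by simp [rootPerm, h]⟩

theorem rootPerm_surjective (D : Datum) : Function.Surjective (rootPerm D) :=
  linePerm_surjective.comp D.surj

theorem rootPerm_level (D : Datum) : ∃ L : IntermediateField ℚ ℚbar, FiniteDimensional ℚ L ∧
    ∀ g ∈ L.fixingSubgroup, rootPerm D g = 1 := by
  obtain ⟨L, hL, h⟩ := D.cont
  exact ⟨L, hL, fun g hg => rootPerm_eq_one_iff.2 (h g hg)⟩

theorem rootPerm_unram (D : Datum) : ∀ ℓ : ℕ, ℓ.Prime → ℓ ∉ D.B → ∀ A : ValuationSubring ℚbar,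
    A.LiesOverPrime ℓ → ∀ g ∈ A.inertiaSubgroupIn ℚ, rootPerm D g = 1 :=
  fun ℓ hℓ hℓB A hA g hg => rootPerm_eq_one_iff.2 (D.unram ℓ hℓ hℓB A hA g hg)

/-- At a bad prime the decomposition group fixes a root and moves the others. -/
theorem exists_fixed_root {b : ℕ} (hb : b ∈ D.B) {A : ValuationSubring ℚbar}
    (hA : A.LiesOverPrime b) :
    ∃ i, (∀ g ∈ A.decompositionSubgroup ℚ, rootPerm D g i = i) ∧
      ∃ g ∈ A.decompositionSubgroup ℚ, rootPerm D g ≠ 1 := by
  obtain ⟨σ₀, hσ₀, hne, hall⟩ := D.transp b hb A hA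
  have hσD : σ₀ ∈ A.decompositionSubgroup ℚ := by
    obtain ⟨⟨s, hs⟩, -, rfl⟩ := hσ₀
    exact hs
  have hne' : rootPerm D σ₀ ≠ 1 := fun h => hne (rootPerm_eq_one_iff.1 h)
  have hsq : rootPerm D σ₀ * rootPerm D σ₀ = 1 := by
    rcases hall (σ₀ * σ₀) (mul_mem hσD hσD) with h | h
    · rw [← map_mul]; exact rootPerm_eq_one_iff.2 h
    · exact absurd (by simpa using h) hne
  obtain ⟨i, hi, -⟩ := exists_fixed_of_involution _ hsq hne'
  refine ⟨i, fun g hg => ?_, σ₀, hσD, hne'⟩
  rcases hall g hg with h | h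
  · rw [rootPerm_eq_one_iff.2 h]; rfl
  · rw [show rootPerm D g = rootPerm D σ₀ by simp [rootPerm, h]]; exact hi

theorem hasFixedRootAt_bad {b : ℕ} (hb : b ∈ D.B) : HasFixedRootAt (rootPerm D) b :=
  fun _ hA => let ⟨i, hi, _⟩ := exists_fixed_root hb hA; ⟨i, hi⟩

/-- Complex conjugation is not in the kernel. -/
theorem rootPerm_complexConjugation (D : Datum) : rootPerm D complexConjugation ≠ 1 := by
  intro h
  have h3 : D.ρbar complexConjugation ^ 3 = 1 := by rw [rootPerm_eq_one_iff.1 h, one_pow]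
  have hr := (D.sqrt D.sqrtNeg D.sqrtNeg_sq complexConjugation).2 h3
  have hz := congrArg complexEmbedding hr
  rw [complexEmbedding_complexConjugation, Complex.conj_eq_iff_re] at hz
  have hsq := congrArg complexEmbedding D.sqrtNeg_sq
  rw [map_pow, map_neg, map_natCast, ← hz] at hsq
  have := congrArg Complex.re hsq
  simp [pow_two] at this
  nlinarith [D.level_pos, mul_self_nonneg (complexEmbedding D.sqrtNeg).re,
    (show (0 : ℝ) < D.level by exact_mod_cast D.level_pos)]

/-- Three algebraic numbers permuted by the Galois group through a given transitive action. -/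
theorem exists_roots {π : Γℚ →* Equiv.Perm (Fin 3)} (hπ : Function.Surjective π)
    (hlev : ∃ L : IntermediateField ℚ ℚbar, FiniteDimensional ℚ L ∧
      ∀ g ∈ L.fixingSubgroup, π g = 1) :
    ∃ e : Fin 3 → ℚbar, Function.Injective e ∧ ∀ g i, g (e i) = e (π g i) := by
  let H : Subgroup Γℚ := (MulAction.stabilizer (Equiv.Perm (Fin 3)) (0 : Fin 3)).comap π
  have hmem : ∀ g, g ∈ H ↔ π g 0 = 0 := fun g => Iff.rfl
  obtain ⟨L, hL, hπL⟩ := hlev
  have ho : IsOpen (H : Set Γℚ) := Subgroup.isOpen_mono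
    (fun g hg => (hmem g).2 (by rw [hπL g hg]; rfl)) (IntermediateField.fixingSubgroup_isOpen L)
  have : FiniteDimensional ℚ (IntermediateField.fixedField H) := MW.finiteDimensional_fixedField ho
  obtain ⟨α, hα⟩ := Field.exists_primitive_element ℚ (IntermediateField.fixedField H)
  have hfix : ∀ g : Γℚ, g (α : ℚbar) = α ↔ π g 0 = 0 := by
    intro g
    rw [← hmem]
    constructor
    · intro hg
      have hgen : IntermediateField.fixedField H = IntermediateField.adjoin ℚ {(α : ℚbar)} := by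
        have := congrArg IntermediateField.lift hα
        exact ((IntermediateField.lift_adjoin_simple ℚ (IntermediateField.fixedField H) α).symm.trans
          (this.trans (IntermediateField.lift_top ℚ (IntermediateField.fixedField H)))).symm
      have hle : IntermediateField.adjoin ℚ {(α : ℚbar)} ≤
          IntermediateField.fixedField (Subgroup.zpowers g) := by
        rw [IntermediateField.adjoin_le_iff]
        rintro x rfl
        rw [SetLike.mem_coe, IntermediateField.mem_fixedField_iff]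
        exact fun s hs => Subgroup.zpowers_le.2 (show g ∈ MulAction.stabilizer Γℚ (α : ℚbar) from
          MulAction.mem_stabilizer_iff.2 hg) hs
      rw [← hgen, IntermediateField.le_iff_le,
        InfiniteGalois.fixingSubgroup_fixedField ⟨H, Subgroup.isClosed_of_isOpen H ho⟩] at hle
      exact hle (Subgroup.mem_zpowers g)
    · intro hg
      exact (IntermediateField.mem_fixedField_iff _ _).1 α.2 g hg
  choose s hs using fun i : Fin 3 =>
    (⟨_, (congrArg (fun p : Equiv.Perm (Fin 3) => p 0) (hπ (Equiv.swap 0 i)).choose_spec).trans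
      (Equiv.swap_apply_left 0 i)⟩ : ∃ g, π g 0 = i)
  have key : ∀ (a b : Γℚ), π a 0 = π b 0 ↔ a (α : ℚbar) = b α := by
    intro a b
    have h := hfix (b⁻¹ * a)
    rw [AlgEquiv.mul_apply, map_mul, map_inv, Equiv.Perm.mul_apply, Equiv.Perm.inv_eq_iff_eq] at h
    rw [← h, AlgEquiv.aut_inv, AlgEquiv.symm_apply_eq]
  refine ⟨fun i => s i α, fun i j h => ?_, fun g i => ?_⟩
  · rw [← hs i, ← hs j]
    exact (key _ _).2 h
  · show (g * s i) (α : ℚbar) = s (π g i) α
    refine (key _ _).1 ?_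
    rw [map_mul, Equiv.Perm.mul_apply, hs, hs]

/-- Selmer cocycles of a datum, in coordinates. -/
theorem isSel_coords {Q : Finset ℕ}
    (hmove : ∀ q ∈ Q, ∀ A : ValuationSubring ℚbar, A.LiesOverPrime q →
      ∃ g ∈ A.decompositionSubgroup ℚ, rootPerm D g ≠ 1)
    {x : Γℚ → Fin 2 → ZMod 2} (hx : IsSelmer D Q x) :
    IsSel (rootPerm D) D.B Q (fun g => coords (x g)) := by
  have hmul : ∀ g h, coords (x (g * h)) =
      coords (x g) + permVec (rootPerm D g) (coords (x h)) := fun g h => by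
    rw [hx.cocycle, coords_add, coords_mulVec]; rfl
  refine ⟨⟨fun g => sum_coords _, hmul, ?_⟩, fun ℓ hℓ hℓB hℓQ A hA g hg => ?_,
    fun ℓ hℓ hmem A hA i hi g hg => ?_⟩
  · obtain ⟨L, hL, h0⟩ := hx.cont
    refine ⟨L, hL, fun g s hs => ?_⟩
    rw [hmul, h0 s hs, show coords (0 : Fin 2 → ZMod 2) = 0 from funext fun i => by
      simp [coords, wedge], permVec_zero, add_zero]
  · show coords (x g) = 0
    rw [hx.unram ℓ hℓ (by simp [hℓB, hℓQ]) A hA g hg]
    exact funext fun i => by simp [coords, wedge]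
  · obtain ⟨τ, hτ, hτ1⟩ : ∃ τ ∈ A.decompositionSubgroup ℚ, rootPerm D τ ≠ 1 := by
      rcases hmem with h | h
      · obtain ⟨-, -, hh⟩ := exists_fixed_root h hA; exact hh
      · exact hmove ℓ h A hA
    obtain ⟨v, hv⟩ := hx.local_ ℓ (Finset.mem_union.2 hmem) A hA
    have h := congrArg coords (hv g hg τ hτ)
    rw [coords_mulVec] at h
    have h0 := coords_apply_eq_zero_of_fixed _ i _ hτ1 (hi τ hτ) (sum_coords _) h
    have hsub : ∀ a b : Fin 2 → ZMod 2, coords (a - b) = coords a + coords b := fun a b => by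
      rw [show a - b = a + b from funext fun i => CharTwo.sub_eq_add (a i) (b i), coords_add]
    rw [hsub, hsub, coords_mulVec] at h0
    simp only [Pi.add_apply] at h0
    rw [show permVec (linePerm (D.ρbar g)) (coords v) i = coords v i from
      permVec_apply_fixed (hi g hg) _, CharTwo.add_self_eq_zero, add_zero] at h0
    exact h0

/-- A cocycle whose coordinates form a coboundary is a coboundary. -/
theorem isCob_of_coords {x : Γℚ → Fin 2 → ZMod 2}
    (h : IsCoboundary (rootPerm D) (fun g => coords (x g))) : IsCob D x := by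
  obtain ⟨v, hv, hxv⟩ := h
  obtain ⟨w, rfl⟩ := exists_coords_eq v hv
  refine ⟨w, fun g => coords_injective ?_⟩
  show coords (x g) = _
  rw [show (D.ρbar g : Matrix (Fin 2) (Fin 2) (ZMod 2)) *ᵥ w - w =
      (D.ρbar g : Matrix (Fin 2) (Fin 2) (ZMod 2)) *ᵥ w + w from
    funext fun i => CharTwo.sub_eq_add _ _, coords_add, coords_mulVec]
  exact hxv g

variable {M : ℕ}

theorem two_dvd_iff_cast_eq_zero (hM : M ≠ 0) (a : ZMod (2 ^ M)) :
    (2 : ZMod (2 ^ M)) ∣ a ↔ ZMod.castHom (dvd_pow_self 2 hM) (ZMod 2) a = 0 := by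
  constructor
  · rintro ⟨t, rfl⟩
    rw [map_mul, map_ofNat, show (2 : ZMod 2) = 0 from rfl, zero_mul]
  · intro h
    rw [← ZMod.natCast_zmod_val a, map_natCast, ZMod.natCast_eq_zero_iff] at h
    obtain ⟨t, ht⟩ := h
    exact ⟨(t : ZMod (2 ^ M)), by rw [← ZMod.natCast_zmod_val a, ht]; push_cast; rfl⟩

/-- The kernel condition for a lift. -/
theorem rootPerm_iff_isOneModTwo (hM : M ≠ 0) {Q : Finset ℕ} {ε : ℕ → ℤ}
    {ρ : Γℚ →* GL (Fin 2) (ZMod (2 ^ M))} (hρ : IsLift D Q ε ρ) (g : Γℚ) :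
    rootPerm D g = 1 ↔ IsOneModTwo (ρ g : Matrix (Fin 2) (Fin 2) (ZMod (2 ^ M))) := by
  rw [rootPerm_eq_one_iff, ← hρ.residual (ZMod.castHom (dvd_pow_self 2 hM) (ZMod 2)) g,
    Units.ext_iff, ← Matrix.ext_iff]
  refine forall₂_congr fun i j => ?_
  rw [two_dvd_iff_cast_eq_zero hM, map_sub, sub_eq_zero]
  fin_cases i <;> fin_cases j <;> simp [ZMod.cast_one (dvd_pow_self 2 hM)]

/-- The determinant of a lift at a Frobenius element. -/
theorem det_frobenius {Q : Finset ℕ} {ε : ℕ → ℤ}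
    {ρ : Γℚ →* GL (Fin 2) (ZMod (2 ^ M))} (hρ : IsLift D Q ε ρ) {ℓ : ℕ} (hℓ : ℓ.Prime)
    (hℓB : ℓ ∉ D.B) {A : ValuationSubring ℚbar} (hA : A.LiesOverPrime ℓ) {τ : Γℚ}
    (hτ : A.IsFrobeniusAt τ ℓ) :
    (ρ τ : Matrix (Fin 2) (Fin 2) (ZMod (2 ^ M))).det = (ℓ : ZMod (2 ^ M)) := by
  have hn : (2 : ZMod (2 ^ M)) ^ M = 0 := by
    rw [show (2 : ZMod (2 ^ M)) ^ M = ((2 ^ M : ℕ) : ZMod (2 ^ M)) by push_cast; rfl,
      ZMod.natCast_self]
  have : NeZero ((2 ^ M : ℕ) : ℚbar) := ⟨Nat.cast_ne_zero.2 (by positivity)⟩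
  obtain ⟨ζ, hζ⟩ := HasEnoughRootsOfUnity.exists_primitiveRoot ℚbar (2 ^ M)
  refine hρ.det_eq M hn τ ζ hζ ℓ (Datum.frobenius_apply_root hA hτ ?_ (by positivity) hζ.pow_eq_one)
  exact Nat.Coprime.pow_right M ((Nat.coprime_primes hℓ Nat.prime_two).2 fun h => hℓB (h ▸ D.two_mem))

/-- A representation unramified at `q` takes conjugate values at all Frobenius elements over
`q`. -/
theorem exists_conj_frobenius {G : Type*} [Group G] (f : Γℚ →* G) {q : ℕ} (hq : q.Prime)
    (hunr : ∀ A : ValuationSubring ℚbar, A.LiesOverPrime q →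
      ∀ g ∈ A.inertiaSubgroupIn ℚ, f g = 1)
    {A A' : ValuationSubring ℚbar} (hA : A.LiesOverPrime q) (hA' : A'.LiesOverPrime q)
    {τ τ' : Γℚ} (hτ : A.IsFrobeniusAt τ q) (hτ' : A'.IsFrobeniusAt τ' q) :
    ∃ h : Γℚ, f τ' = f h * f τ * (f h)⁻¹ := by
  obtain ⟨h, rfl⟩ := Galois.exists_smul_eq_of_liesOverPrime hq hA hA'
  obtain ⟨h₁, hx⟩ := Density.isFrobeniusAt_conj hτ h
  obtain ⟨h₂, hx'⟩ := hτ'
  have hk : (⟨h * τ * h⁻¹, h₁⟩ : (h • A).decompositionSubgroup ℚ)⁻¹ * ⟨τ', h₂⟩ ∈
      (h • A).inertiaSubgroup ℚ := by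
    rw [ValuationSubring.inertiaSubgroup, MonoidHom.mem_ker]
    refine RingEquiv.ext fun y => ?_
    show ((⟨h * τ * h⁻¹, h₁⟩ : (h • A).decompositionSubgroup ℚ)⁻¹ * ⟨τ', h₂⟩) • y = y
    rw [mul_smul, inv_smul_eq_iff, hx, hx']
  have := hunr _ hA' _ (Subgroup.mem_map_of_mem ((h • A).decompositionSubgroup ℚ).subtype hk)
  refine ⟨h, ?_⟩
  rw [Subgroup.coe_subtype, Subgroup.coe_mul, Subgroup.coe_inv, map_mul, map_inv,
    inv_mul_eq_one] at this
  rw [← this, map_mul, map_mul, map_inv]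

end Fermat.Agent.Residual.Sel

end
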