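/-
Twisted fixed vectors of a finite permutation module with signs, Galois descent for them, and
diagonalisation of the invariant form `∑ tᵢ² / dᵢ` on them.
-/
import Mathlib.FieldTheory.Galois.Infinite
import Mathlib.FieldTheory.Normal.Closure
import Mathlib.LinearAlgebra.LinearIndependent.Lemmas
import Mathlib.GroupTheory.Perm.Basic
import Mathlib.Tactic

set_option autoImplicit false

noncomputable section

namespace Fermat.Agent.Residual.Conic

variable {k K : Type*} [Field k] [Field K] [Algebra k K] {ι : Type*}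

/-- A cocycle with values in signs indexed by a permutation representation. -/
def IsTwist {G : Type*} [Group G] (π : G →* Equiv.Perm ι) (c : G → ι → ℤˣ) : Prop :=
  ∀ g h i, c (g * h) i = c g i * c h ((π g)⁻¹ i)

theorem IsTwist.map_one {G : Type*} [Group G] {π : G →* Equiv.Perm ι} {c : G → ι → ℤˣ}
    (hc : IsTwist π c) (i : ι) : c 1 i = 1 := by
  simpa using hc 1 1 i

theorem IsTwist.mul {G : Type*} [Group G] {π : G →* Equiv.Perm ι} {c c' : G → ι → ℤˣ}
    (hc : IsTwist π c) (hc' : IsTwist π c') : IsTwist π (c * c') := by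
  intro g h i
  simp only [Pi.mul_apply, hc g h i, hc' g h i]
  ac_rfl

theorem IsTwist.comp {G H : Type*} [Group G] [Group H] {π : G →* Equiv.Perm ι} {c : G → ι → ℤˣ}
    (hc : IsTwist π c) (φ : H →* G) : IsTwist (π.comp φ) (fun h => c (φ h)) := by
  intro g h i
  simp only [map_mul, MonoidHom.comp_apply]
  exact hc _ _ i

/-- `f` only depends on a finite level. -/
def HasLevel {X : Type*} (f : (K ≃ₐ[k] K) → X) : Prop :=
  ∃ L : IntermediateField k K, FiniteDimensional k L ∧
    ∀ g s : K ≃ₐ[k] K, (∀ x ∈ L, s x = x) → f (g * s) = f g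

/-- The twisted action on vectors. -/
def act (π : (K ≃ₐ[k] K) →* Equiv.Perm ι) (c : (K ≃ₐ[k] K) → ι → ℤˣ) (g : K ≃ₐ[k] K) (t : ι → K) :
    ι → K :=
  fun i => ((c g i : ℤ) : K) * g (t ((π g)⁻¹ i))

/-- Fixed vectors of the twisted action. -/
def IsFixed (π : (K ≃ₐ[k] K) →* Equiv.Perm ι) (c : (K ≃ₐ[k] K) → ι → ℤˣ) (t : ι → K) : Prop :=
  ∀ g, act π c g t = t

variable {π : (K ≃ₐ[k] K) →* Equiv.Perm ι} {c : (K ≃ₐ[k] K) → ι → ℤˣ}

theorem act_add (g : K ≃ₐ[k] K) (s t : ι → K) :
    act π c g (s + t) = act π c g s + act π c g t := by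
  ext i; simp [act, mul_add]

theorem act_smul (g : K ≃ₐ[k] K) (a : K) (t : ι → K) :
    act π c g (a • t) = g a • act π c g t := by
  ext i; simp [act]; ring

theorem act_sum {α : Type*} (g : K ≃ₐ[k] K) (s : Finset α) (t : α → ι → K) :
    act π c g (∑ a ∈ s, t a) = ∑ a ∈ s, act π c g (t a) := by
  ext i; simp [act, Finset.sum_apply, Finset.mul_sum]

theorem act_mul (hc : IsTwist π c) (g h : K ≃ₐ[k] K) (t : ι → K) :
    act π c g (act π c h t) = act π c (g * h) t := by
  ext i
  simp only [act, hc g h i, map_mul, map_intCast, AlgEquiv.mul_apply, mul_inv_rev,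
    Equiv.Perm.mul_apply, Units.val_mul, Int.cast_mul]
  ring

variable [Fintype ι] [DecidableEq ι]

/-- **Descent**: fixed vectors span. -/
theorem span_isFixed [IsGalois k K] (hc : IsTwist π c) (hcl : HasLevel c) (hπl : HasLevel π) :
    Submodule.span K {t : ι → K | IsFixed π c t} = ⊤ := by
  classical
  obtain ⟨L, hL, hcL⟩ := hcl
  obtain ⟨L', hL', hπL⟩ := hπl
  haveI : FiniteDimensional k ↥(L ⊔ L') := IntermediateField.finiteDimensional_sup L L'
  let N : IntermediateField k K := IntermediateField.normalClosure k ↥(L ⊔ L') K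
  haveI : FiniteDimensional k N := normalClosure.is_finiteDimensional _ _ _
  haveI : IsGalois k N := IsGalois.normalClosure _ _ _
  have hLN : L ⊔ L' ≤ N := IntermediateField.le_normalClosure _
  -- lifts of the finite Galois group
  choose s hs using AlgEquiv.restrictNormalHom_surjective (F := k) (K₁ := N) K
  have hs' : ∀ (γ : N ≃ₐ[k] N) (x : N), s γ (x : K) = ((γ x : N) : K) := fun γ x => by
    have h := AlgEquiv.restrictNormalHom_apply N (s γ) x
    rw [hs γ] at h
    exact h.symm
  have hinvar : ∀ (g u : K ≃ₐ[k] K), (∀ x ∈ N, u x = x) → ∀ w : ι → K, (∀ i, w i ∈ N) →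
      act π c (g * u) w = act π c g w := fun g u hu w hw => by
    have h1 : c (g * u) = c g := hcL g u fun x hx => hu x (hLN ((le_sup_left : L ≤ L ⊔ L') hx))
    have h2 : π (g * u) = π g := hπL g u fun x hx => hu x (hLN ((le_sup_right : L' ≤ L ⊔ L') hx))
    ext i
    simp only [act, h1, h2, AlgEquiv.mul_apply, hu _ (hw _)]
  have hclass : ∀ (g : K ≃ₐ[k] K) (γ : N ≃ₐ[k] N), AlgEquiv.restrictNormalHom N g = γ →
      ∀ w : ι → K, (∀ i, w i ∈ N) → act π c g w = act π c (s γ) w := fun g γ hγ w hw => by
    have hu : ∀ x ∈ N, ((s γ)⁻¹ * g) x = x := fun x hx => by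
      have h := AlgEquiv.restrictNormalHom_apply N g ⟨x, hx⟩
      rw [hγ, ← hs' γ ⟨x, hx⟩] at h
      rw [AlgEquiv.mul_apply, ← h]
      exact AlgEquiv.symm_apply_apply (s γ) x
    simpa using hinvar (s γ) _ hu w hw
  let T : N → ι → ι → K := fun a j => ∑ γ : N ≃ₐ[k] N, act π c (s γ) (Pi.single j (a : K))
  have hT : ∀ a j, IsFixed π c (T a j) := fun a j g => by
    have hw : ∀ i, (Pi.single j (a : K) : ι → K) i ∈ N := fun i => by
      by_cases h : i = j
      · subst h; simp
      · simp [Pi.single_eq_of_ne h]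
    simp only [T, act_sum, act_mul hc]
    rw [Finset.sum_congr rfl fun γ _ => hclass (g * s γ)
      (AlgEquiv.restrictNormalHom N g * γ) (by rw [map_mul, hs γ]) _ hw]
    exact Fintype.sum_equiv (Equiv.mulLeft (AlgEquiv.restrictNormalHom N g)) _ _ fun γ => rfl
  by_contra hne
  obtain ⟨f, hf0, hf⟩ := Submodule.exists_le_ker_of_lt_top _ (lt_top_iff_ne_top.mpr hne)
  apply hf0
  refine LinearMap.pi_ext' fun j => LinearMap.ext_ring ?_
  simp only [LinearMap.coe_comp, Function.comp_apply, LinearMap.single_apply, LinearMap.zero_apply]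
  let χ : (N ≃ₐ[k] N) → N →* K := fun γ =>
    (N.val.toRingHom.toMonoidHom).comp γ.toAlgHom.toRingHom.toMonoidHom
  have hχ : Function.Injective χ := fun γ γ' h => AlgEquiv.ext fun x =>
    Subtype.ext (congrArg (fun φ : N →* K => φ x) h)
  have li := (linearIndependent_monoidHom N K).comp χ hχ
  have hz := Fintype.linearIndependent_iff.mp li
    (fun γ => ((c (s γ) (π (s γ) j) : ℤ) : K) * f (Pi.single (π (s γ) j) 1)) (by
      funext a
      have h0 : f (T a j) = 0 := LinearMap.mem_ker.mp (hf (Submodule.subset_span (hT a j)))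
      simp only [T, map_sum] at h0
      simp only [Finset.sum_apply, Pi.smul_apply, smul_eq_mul, Function.comp_apply, Pi.zero_apply]
      refine Eq.trans (Finset.sum_congr rfl fun γ _ => ?_) h0
      have e : act π c (s γ) (Pi.single j (a : K)) =
          (((c (s γ) (π (s γ) j) : ℤ) : K) * ((γ a : N) : K)) •
            Pi.single (π (s γ) j) (1 : K) := by
        ext i
        by_cases h : i = π (s γ) j
        · subst h
          simp [act, hs' γ a]
        · have h' : (π (s γ))⁻¹ i ≠ j := fun hh => h (by rw [← hh]; simp)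
          simp only [act, Pi.single_eq_of_ne h', map_zero, mul_zero, Pi.smul_apply,
            Pi.single_eq_of_ne h, smul_zero]
      rw [e, map_smul, smul_eq_mul]
      simp only [χ]
      show _ = _
      rw [mul_right_comm]
      rfl) 1
  have h1 : ∀ x ∈ N, s 1 x = x := fun x hx => hs' 1 ⟨x, hx⟩
  rw [← one_mul (s 1), hcL 1 _ (fun x hx => h1 x (hLN ((le_sup_left : L ≤ L ⊔ L') hx))),
    hπL 1 _ (fun x hx => h1 x (hLN ((le_sup_right : L' ≤ L ⊔ L') hx))), map_one,
    Equiv.Perm.one_apply, hc.map_one, Units.val_one, Int.cast_one, one_mul] at hz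
  exact hz

/-- The invariant bilinear form. -/
def bform (d : ι → K) (s t : ι → K) : K := ∑ i, s i * t i / d i

variable {d : ι → K}

omit [Algebra k K] [DecidableEq ι] in
theorem bform_comm (s t : ι → K) : bform d s t = bform d t s := by
  simp [bform, mul_comm (s _)]

omit [Algebra k K] [DecidableEq ι] in
theorem bform_add_left (s s' t : ι → K) :
    bform d (s + s') t = bform d s t + bform d s' t := by
  simp [bform, add_mul, add_div, Finset.sum_add_distrib]

omit [Algebra k K] [DecidableEq ι] in
theorem bform_smul_left (a : K) (s t : ι → K) : bform d (a • s) t = a * bform d s t := by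
  simp [bform, Finset.mul_sum, mul_assoc, mul_div_assoc]

omit [DecidableEq ι] in
/-- The form as a bilinear map. -/
def bformLin (d : ι → K) : (ι → K) →ₗ[K] (ι → K) →ₗ[K] K :=
  LinearMap.mk₂ K (bform d) bform_add_left bform_smul_left
    (fun s t t' => by rw [bform_comm, bform_add_left, bform_comm t, bform_comm t'])
    (fun a s t => by rw [bform_comm, bform_smul_left, bform_comm t]; rfl)

omit [Algebra k K] [DecidableEq ι] in
@[simp] theorem bformLin_apply (s t : ι → K) : bformLin d s t = bform d s t := rfl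

omit [DecidableEq ι] in
theorem bform_act (hd : ∀ g i, g (d i) = d (π g i)) (g : K ≃ₐ[k] K) (s t : ι → K) :
    bform d (act π c g s) (act π c g t) = g (bform d s t) := by
  simp only [bform, map_sum, map_div₀, map_mul, hd]
  refine (Fintype.sum_equiv (π g) _ _ fun i => ?_).symm
  have h : ((c g (π g i) : ℤ) : K) * ((c g (π g i) : ℤ) : K) = 1 := by
    rw [← Int.cast_mul, ← Units.val_mul, Int.units_mul_self, Units.val_one, Int.cast_one]
  simp only [act, Equiv.Perm.coe_inv, Equiv.symm_apply_apply]
  rw [mul_mul_mul_comm, h, one_mul]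

omit [DecidableEq ι] in
theorem exists_algebraMap_bform [IsGalois k K] (hd : ∀ g i, g (d i) = d (π g i)) {s t : ι → K}
    (hs : IsFixed π c s) (ht : IsFixed π c t) : ∃ a : k, algebraMap k K a = bform d s t := by
  have h : bform d s t ∈ (⊥ : IntermediateField k K) := by
    rw [InfiniteGalois.mem_bot_iff_fixed]
    intro g
    rw [← bform_act (c := c) hd g, hs g, ht g]
  exact IntermediateField.mem_bot.mp h

/-- An orthogonal family of fixed vectors with nonzero values. -/
structure IsOrth (π : (K ≃ₐ[k] K) →* Equiv.Perm ι) (c : (K ≃ₐ[k] K) → ι → ℤˣ) (d : ι → K) {n : ℕ}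
    (u : Fin n → ι → K) (A : Fin n → k) : Prop where
  fixed : ∀ a, IsFixed π c (u a)
  ne : ∀ a, A a ≠ 0
  diag : ∀ a, bform d (u a) (u a) = algebraMap k K (A a)
  orth : ∀ a b, a ≠ b → bform d (u a) (u b) = 0

section Orth

variable {n : ℕ} {u : Fin n → ι → K} {A : Fin n → k}

/-- The projection away from an orthogonal family. -/
def orthProj (d : ι → K) (u : Fin n → ι → K) : (ι → K) →ₗ[K] (ι → K) :=
  LinearMap.id - ∑ a, ((bform d (u a) (u a))⁻¹ • bformLin d (u a)).smulRight (u a)

omit [Algebra k K] [DecidableEq ι] in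
theorem orthProj_apply (t : ι → K) :
    orthProj d u t = t - ∑ a, (bform d t (u a) / bform d (u a) (u a)) • u a := by
  simp [orthProj, LinearMap.sum_apply, bform_comm t, div_eq_inv_mul]

omit [DecidableEq ι] in
theorem IsOrth.val_ne (h : IsOrth π c d u A) (a : Fin n) : bform d (u a) (u a) ≠ 0 := by
  rw [h.diag]; simpa using h.ne a

omit [DecidableEq ι] in
theorem IsOrth.bform_orthProj (h : IsOrth π c d u A) (t : ι → K) (b : Fin n) :
    bform d (orthProj d u t) (u b) = 0 := by
  rw [← bformLin_apply, orthProj_apply, map_sub, LinearMap.sub_apply, map_sum,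
    LinearMap.sum_apply, Finset.sum_eq_single b]
  · simp [div_mul_cancel₀ _ (h.val_ne b)]
  · intro a _ hab; simp [h.orth a b hab]
  · simp

omit [DecidableEq ι] in
theorem IsOrth.isFixed_orthProj [IsGalois k K] (hd : ∀ g i, g (d i) = d (π g i))
    (h : IsOrth π c d u A) {t : ι → K} (ht : IsFixed π c t) : IsFixed π c (orthProj d u t) := by
  intro g
  rw [orthProj_apply, sub_eq_add_neg, act_add, ← neg_one_smul K (∑ a, _ • u a), act_smul, act_sum,
    map_neg, map_one, ht g]
  congr 2
  refine Finset.sum_congr rfl fun a _ => ?_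
  rw [act_smul, map_div₀, ← bform_act (c := c) hd g, ← bform_act (c := c) hd g, ht g, h.fixed a g]

omit [DecidableEq ι] in
theorem IsOrth.card_ge_of_orthProj_eq_zero (hp : orthProj d u = 0) :
    Fintype.card ι ≤ n := by
  have hsurj : ∀ t : ι → K, t ∈ Submodule.span K (Set.range u) := fun t => by
    have := LinearMap.congr_fun hp t
    rw [orthProj_apply, LinearMap.zero_apply, sub_eq_zero] at this
    rw [this]
    exact Submodule.sum_mem _ fun a _ => Submodule.smul_mem _ _ (Submodule.subset_span ⟨a, rfl⟩)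
  have h1 := finrank_range_le_card (R := K) u
  rw [Set.finrank, Submodule.eq_top_iff'.mpr hsurj, finrank_top, Module.finrank_fintype_fun_eq_card,
    Fintype.card_fin] at h1
  exact h1

/-- An orthogonal family which is too small extends. -/
theorem IsOrth.exists_next [IsGalois k K] (h2 : (2 : K) ≠ 0) (hd : ∀ g i, g (d i) = d (π g i))
    (hd0 : ∀ i, d i ≠ 0) (hc : IsTwist π c) (hcl : HasLevel c) (hπl : HasLevel π)
    (h : IsOrth π c d u A) (hn : n < Fintype.card ι) :
    ∃ (t : ι → K) (b : k), IsFixed π c t ∧ b ≠ 0 ∧ bform d t t = algebraMap k K b ∧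
      ∀ a, bform d t (u a) = 0 := by
  by_contra hcon
  push Not at hcon
  have hiso : ∀ t, IsFixed π c t → bform d (orthProj d u t) (orthProj d u t) = 0 := fun t ht => by
    have hf := h.isFixed_orthProj hd ht
    obtain ⟨b, hb⟩ := exists_algebraMap_bform hd hf hf
    by_contra hne
    obtain ⟨a, ha⟩ := hcon (orthProj d u t) b hf (fun hb0 => hne (by rw [← hb, hb0, map_zero]))
      hb.symm
    exact ha (h.bform_orthProj t a)
  have hpol : ∀ s t, IsFixed π c s → IsFixed π c t →
      bform d (orthProj d u s) (orthProj d u t) = 0 := fun s t hs ht => by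
    have hst : IsFixed π c (s + t) := fun g => by rw [act_add, hs g, ht g]
    have e := hiso _ hst
    rw [map_add, bform_add_left, bform_comm _ (orthProj d u s + _),
      bform_comm (orthProj d u t) (orthProj d u s + _), bform_add_left, bform_add_left,
      hiso s hs, hiso t ht, bform_comm (orthProj d u t)] at e
    have : (2 : K) * bform d (orthProj d u s) (orthProj d u t) = 0 := by linear_combination e
    exact (mul_eq_zero.mp this).resolve_left h2
  have hzero : (bformLin d).compl₁₂ (orthProj d u) (orthProj d u) = 0 :=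
    LinearMap.ext_on (span_isFixed hc hcl hπl) fun s hs =>
      LinearMap.ext_on (span_isFixed hc hcl hπl) fun t ht => by simpa using hpol s t hs ht
  refine absurd (IsOrth.card_ge_of_orthProj_eq_zero (d := d) (u := u) ?_) (not_le.mpr hn)
  refine LinearMap.ext fun v => funext fun i => ?_
  have hperp : ∀ w, bform d (orthProj d u v) w = 0 := fun w => by
    have e : w = orthProj d u w + ∑ a, (bform d w (u a) / bform d (u a) (u a)) • u a := by
      rw [orthProj_apply, sub_add_cancel]
    rw [e, ← bformLin_apply, map_add, map_sum,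
      show bformLin d (orthProj d u v) (orthProj d u w) = 0 from
        LinearMap.congr_fun (LinearMap.congr_fun hzero v) w]
    simp [h.bform_orthProj]
  have h3 := hperp (Pi.single i 1)
  rw [bform, Finset.sum_eq_single i] at h3
  · simpa [hd0 i] using h3
  · intro j _ hj; simp [Pi.single_eq_of_ne hj]
  · simp

omit [DecidableEq ι] in
theorem IsOrth.cons (h : IsOrth π c d u A) {t : ι → K} {b : k} (ht : IsFixed π c t) (hb : b ≠ 0)
    (htb : bform d t t = algebraMap k K b) (hperp : ∀ a, bform d t (u a) = 0) :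
    IsOrth π c d (Fin.cons t u) (Fin.cons b A) := by
  refine ⟨Fin.cases ht h.fixed, Fin.cases hb h.ne, Fin.cases htb h.diag, ?_⟩
  intro a
  refine Fin.cases (fun b' hne => ?_) (fun a' b' => ?_) a
  · obtain ⟨b'', rfl⟩ := Fin.exists_succ_eq.mpr hne.symm
    simpa using hperp b''
  · refine Fin.cases (fun _ => ?_) (fun b'' hne => ?_) b'
    · simpa [bform_comm] using hperp a'
    · simpa using h.orth a' b'' (fun hh => hne (by rw [hh]))

end Orth

/-- The form has an isotropic fixed vector. -/
def IsIso (π : (K ≃ₐ[k] K) →* Equiv.Perm ι) (c : (K ≃ₐ[k] K) → ι → ℤˣ) (d : ι → K) : Prop :=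
  ∃ t, t ≠ 0 ∧ IsFixed π c t ∧ bform d t t = 0

omit [DecidableEq ι] in
theorem IsOrth.isIso_iff [IsGalois k K] (hd : ∀ g i, g (d i) = d (π g i))
    {u : Fin (Fintype.card ι) → ι → K} {A : Fin (Fintype.card ι) → k} (h : IsOrth π c d u A) :
    IsIso π c d ↔ ∃ x : Fin (Fintype.card ι) → k, x ≠ 0 ∧ ∑ a, A a * x a ^ 2 = 0 := by
  have hq : ∀ x : Fin (Fintype.card ι) → K, bform d (∑ a, x a • u a) (∑ a, x a • u a) =
      ∑ a, algebraMap k K (A a) * x a ^ 2 := fun x => by
    rw [← bformLin_apply, map_sum]
    refine Finset.sum_congr rfl fun a _ => ?_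
    rw [map_sum, LinearMap.sum_apply, Finset.sum_eq_single a]
    · simp [h.diag a]; ring
    · intro b _ hb; simp [h.orth b a hb]
    · simp
  have hli : LinearIndependent K u := by
    rw [Fintype.linearIndependent_iff]
    intro g hg b
    have := congrArg (fun t => bformLin d t (u b)) hg
    simp only [map_sum, LinearMap.sum_apply, map_zero, LinearMap.zero_apply] at this
    rw [Finset.sum_eq_single b] at this
    · simpa [h.val_ne b] using this
    · intro a _ hab; simp [h.orth a b hab]
    · simp
  constructor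
  · rintro ⟨t, ht0, htf, htt⟩
    obtain ⟨x, rfl⟩ := (Submodule.mem_span_range_iff_exists_fun K).mp (show t ∈ _ by
      rw [hli.span_eq_top_of_card_eq_finrank' (by simp)]; trivial)
    have hx : ∀ a, ∃ y : k, algebraMap k K y = x a := fun a => by
      obtain ⟨y, hy⟩ := exists_algebraMap_bform hd htf (h.fixed a)
      refine ⟨y / A a, ?_⟩
      rw [map_div₀, hy, ← bformLin_apply, map_sum, LinearMap.sum_apply, Finset.sum_eq_single a]
      · simp [h.diag a, h.ne a]
      · intro b _ hb; simp [h.orth b a hb]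
      · simp
    choose y hy using hx
    refine ⟨y, fun h0 => ht0 (Finset.sum_eq_zero fun a _ => ?_), ?_⟩
    · rw [← hy a, h0]; simp
    · apply (algebraMap k K).injective
      rw [map_zero, ← htt, hq, map_sum]
      simp [← hy]
  · rintro ⟨x, hx0, hx⟩
    refine ⟨∑ a, algebraMap k K (x a) • u a, fun h0 => hx0 (funext fun a => ?_), fun g => ?_, ?_⟩
    · simpa using Fintype.linearIndependent_iff.mp hli _ h0 a
    · rw [act_sum]
      exact Finset.sum_congr rfl fun a _ => by rw [act_smul, AlgEquiv.commutes, h.fixed a g]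
    · rw [hq, ← map_zero (algebraMap k K), ← hx, map_sum]
      simp

end Fermat.Agent.Residual.Conic
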