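/-
The conic of a class on three roots: explicit orthogonal vectors when a root is fixed, and the
case of a cyclic permutation group of order three.
-/
import Fermat.Agent.Residual.ConicForm

set_option autoImplicit false

noncomputable section

namespace Fermat.Agent.Residual.Conic

variable {k K : Type*} [Field k] [Field K] [Algebra k K]
  {π : (K ≃ₐ[k] K) →* Equiv.Perm (Fin 3)} {c : (K ≃ₐ[k] K) → Fin 3 → ℤˣ}

/-- `f'(eᵢ)` for the cubic with roots `eᵢ`. -/
def rootD (e : Fin 3 → K) (i : Fin 3) : K := ∏ j ∈ Finset.univ.erase i, (e i - e j)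

omit [Algebra k K] in
theorem rootD_ne_zero {e : Fin 3 → K} (he : Function.Injective e) (i : Fin 3) : rootD e i ≠ 0 :=
  Finset.prod_ne_zero_iff.mpr fun j hj =>
    sub_ne_zero.mpr fun h => (Finset.mem_erase.mp hj).1 (he h).symm

theorem map_rootD {e : Fin 3 → K} (hπ : ∀ g i, g (e i) = e (π g i)) (g : K ≃ₐ[k] K) (i : Fin 3) :
    g (rootD e i) = rootD e (π g i) := by
  simp only [rootD, map_prod, map_sub, hπ]
  refine Finset.prod_equiv (π g) (fun j => ?_) fun j _ => rfl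
  simp

omit [Algebra k K] in
theorem rootD_eval (e : Fin 3 → K) :
    rootD e 0 = (e 0 - e 1) * (e 0 - e 2) ∧ rootD e 1 = (e 1 - e 0) * (e 1 - e 2) ∧
      rootD e 2 = (e 2 - e 0) * (e 2 - e 1) := by
  refine ⟨?_, ?_, ?_⟩
  · simp [rootD, show (Finset.univ : Finset (Fin 3)).erase 0 = {1, 2} from rfl]
  · simp [rootD, show (Finset.univ : Finset (Fin 3)).erase 1 = {0, 2} from rfl]
  · simp [rootD, show (Finset.univ : Finset (Fin 3)).erase 2 = {0, 1} from rfl]

omit [Algebra k K] in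
theorem sum_inv_rootD {e : Fin 3 → K} (he : Function.Injective e) :
    ∑ i, (rootD e i)⁻¹ = 0 := by
  obtain ⟨h0, h1, h2⟩ := rootD_eval e
  have a : e 0 - e 1 ≠ 0 := sub_ne_zero.mpr fun h => absurd (he h) (by decide)
  have b : e 0 - e 2 ≠ 0 := sub_ne_zero.mpr fun h => absurd (he h) (by decide)
  have c : e 1 - e 2 ≠ 0 := sub_ne_zero.mpr fun h => absurd (he h) (by decide)
  rw [Fin.sum_univ_three, h0, h1, h2, show e 1 - e 0 = -(e 0 - e 1) by ring,
    show e 2 - e 0 = -(e 0 - e 2) by ring, show e 2 - e 1 = -(e 1 - e 2) by ring]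
  field_simp
  ring

theorem hasLevel_perm [IsGalois k K] {e : Fin 3 → K} (he : Function.Injective e)
    (hπ : ∀ g i, g (e i) = e (π g i)) : HasLevel π := by
  classical
  refine ⟨IntermediateField.adjoin k (Set.range e),
    IntermediateField.finiteDimensional_adjoin fun x _ => Algebra.IsIntegral.isIntegral x,
    fun g s hs => Equiv.ext fun i => he ?_⟩
  rw [← hπ, AlgEquiv.mul_apply, hs _ (IntermediateField.subset_adjoin k _ ⟨i, rfl⟩), hπ]

theorem isFixed_vec {τ : K} (h0 : ∀ g, π g 0 = 0) (hτ : ∀ g, ((c g 0 : ℤ) : K) * g τ = τ) :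
    IsFixed π c ![τ, 0, 0] := by
  intro g
  have hi : ∀ i : Fin 3, i ≠ 0 → (π g)⁻¹ i ≠ 0 := fun i hi h => hi (by
    have := congrArg (π g) h
    rwa [Equiv.Perm.coe_inv, Equiv.apply_symm_apply, h0] at this)
  have hz : ∀ i : Fin 3, i ≠ 0 → (![τ, 0, 0] : Fin 3 → K) i = 0 := by
    intro i hi; fin_cases i <;> simp at hi ⊢
  ext i
  by_cases h : i = 0
  · subst h
    have h' : (π g)⁻¹ 0 = 0 := by
      rw [Equiv.Perm.coe_inv, Equiv.symm_apply_eq, h0]
    simp [act, h', hτ g]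
  · simp only [act, hz _ (hi i h), hz _ h, map_zero, mul_zero]

/-- The coordinate at a fixed root of a spanning fixed vector. -/
theorem exists_root_scalar [IsGalois k K] (hc : IsTwist π c) (hcl : HasLevel c)
    (hπl : HasLevel π) (h0 : ∀ g, π g 0 = 0) :
    ∃ τ : K, τ ≠ 0 ∧ ∀ g, ((c g 0 : ℤ) : K) * g τ = τ := by
  by_contra hcon
  push Not at hcon
  have hz : ∀ t : Fin 3 → K, IsFixed π c t → t 0 = 0 := fun t ht => by
    by_contra hne
    obtain ⟨g, hg⟩ := hcon (t 0) hne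
    have h := congrFun (ht g) 0
    have h' : (π g)⁻¹ 0 = 0 := by rw [Equiv.Perm.coe_inv, Equiv.symm_apply_eq, h0]
    rw [act, h'] at h
    exact hg h
  have h1 : LinearMap.proj (R := K) (φ := fun _ : Fin 3 => K) 0 = 0 :=
    LinearMap.ext_on (span_isFixed hc hcl hπl) fun t ht => hz t ht
  exact one_ne_zero (LinearMap.congr_fun h1 1)

variable {e : Fin 3 → K}

/-- The third vector orthogonal to `(τ,0,0)` and `w`. -/
def thirdVec (e : Fin 3 → K) (τ : K) (w : Fin 3 → K) : Fin 3 → K :=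
  (τ * (e 1 - e 2))⁻¹ • ![0, rootD e 1 * w 2, -(rootD e 2 * w 1)]

theorem perm_cases {σ : Equiv.Perm (Fin 3)} (h : σ 0 = 0) :
    (σ 1 = 1 ∧ σ 2 = 2 ∧ σ⁻¹ 0 = 0 ∧ σ⁻¹ 1 = 1 ∧ σ⁻¹ 2 = 2) ∨
      (σ 1 = 2 ∧ σ 2 = 1 ∧ σ⁻¹ 0 = 0 ∧ σ⁻¹ 1 = 2 ∧ σ⁻¹ 2 = 1) := by
  revert σ; decide

omit [Algebra k K] in
theorem units_cast_sq (u : ℤˣ) : ((u : ℤ) : K) * ((u : ℤ) : K) = 1 := by
  rw [← Int.cast_mul, ← Units.val_mul, Int.units_mul_self, Units.val_one, Int.cast_one]

theorem isFixed_thirdVec (hprod : ∀ g, ∏ i, c g i = 1) (hπ : ∀ g i, g (e i) = e (π g i))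
    (h0 : ∀ g, π g 0 = 0) {τ : K} (hτ : ∀ g, ((c g 0 : ℤ) : K) * g τ = τ) {w : Fin 3 → K}
    (hw : IsFixed π c w) : IsFixed π c (thirdVec e τ w) := by
  intro g
  have hgτ : g τ = ((c g 0 : ℤ) : K) * τ := by
    conv_rhs => rw [← hτ g, ← mul_assoc, units_cast_sq, one_mul]
  have hp : ((c g 0 : ℤ) : K) * ((c g 1 : ℤ) : K) * ((c g 2 : ℤ) : K) = 1 := by
    rw [← Int.cast_mul, ← Int.cast_mul, ← Units.val_mul, ← Units.val_mul, ← Fin.prod_univ_three,
      hprod g, Units.val_one, Int.cast_one]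
  have hw1 := congrFun (hw g) 1
  have hw2 := congrFun (hw g) 2
  have s0 := units_cast_sq (K := K) (c g 0)
  have s1 := units_cast_sq (K := K) (c g 1)
  have s2 := units_cast_sq (K := K) (c g 2)
  have hc0 : ((c g 0 : ℤ) : K) = ((c g 1 : ℤ) : K) * ((c g 2 : ℤ) : K) := by
    linear_combination ((c g 1 : ℤ) : K) * ((c g 2 : ℤ) : K) * hp -
      ((c g 0 : ℤ) : K) * ((c g 2 : ℤ) : K) * ((c g 2 : ℤ) : K) * s1 - ((c g 0 : ℤ) : K) * s2
  rw [hc0] at hgτ
  ext i
  rcases perm_cases (h0 g) with ⟨p1, p2, q0, q1, q2⟩ | ⟨p1, p2, q0, q1, q2⟩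
  · simp only [act, q1, q2] at hw1 hw2
    have e1 : g (w 1) = ((c g 1 : ℤ) : K) * w 1 := by
      conv_rhs => rw [← hw1, ← mul_assoc, s1, one_mul]
    have e2 : g (w 2) = ((c g 2 : ℤ) : K) * w 2 := by
      conv_rhs => rw [← hw2, ← mul_assoc, s2, one_mul]
    rcases Int.units_eq_one_or (c g 1) with u1 | u1 <;>
      rcases Int.units_eq_one_or (c g 2) with u2 | u2 <;>
      simp only [u1, u2, Units.val_one, Units.val_neg, Int.cast_one, Int.cast_neg, one_mul,
        neg_mul, mul_neg, neg_neg, mul_one] at hgτ e1 e2 <;>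
      fin_cases i <;>
      simp [act, thirdVec, q0, q1, q2, map_rootD hπ, hπ, hgτ, p1, p2, e1, e2, u1, u2] <;> ring
  · simp only [act, q1, q2] at hw1 hw2
    have hflip : (e 2 - e 1)⁻¹ = -(e 1 - e 2)⁻¹ := by rw [← inv_neg, neg_sub]
    have e2 : g (w 2) = ((c g 1 : ℤ) : K) * w 1 := by
      conv_rhs => rw [← hw1, ← mul_assoc, s1, one_mul]
    have e1 : g (w 1) = ((c g 2 : ℤ) : K) * w 2 := by
      conv_rhs => rw [← hw2, ← mul_assoc, s2, one_mul]
    rcases Int.units_eq_one_or (c g 1) with u1 | u1 <;>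
      rcases Int.units_eq_one_or (c g 2) with u2 | u2 <;>
      simp only [u1, u2, Units.val_one, Units.val_neg, Int.cast_one, Int.cast_neg, one_mul,
        neg_mul, mul_neg, neg_neg, mul_one] at hgτ e1 e2 <;>
      fin_cases i <;>
      simp [act, thirdVec, q0, q1, q2, map_rootD hπ, hπ, hgτ, p1, p2, e1, e2, u1, u2] <;>
      (try simp only [hflip]) <;> ring

/-- The orthogonal family at a fixed root. -/
theorem isOrth_root (he : Function.Injective e) (hprod : ∀ g, ∏ i, c g i = 1)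
    (hπ : ∀ g i, g (e i) = e (π g i)) (h0 : ∀ g, π g 0 = 0) {τ : K} (hτ0 : τ ≠ 0)
    (hτ : ∀ g, ((c g 0 : ℤ) : K) * g τ = τ) {w : Fin 3 → K} (hw : IsFixed π c w) (hw0 : w 0 = 0)
    {a n : k} (ha : algebraMap k K a = τ ^ 2 / rootD e 0)
    (hn : algebraMap k K n = bform (rootD e) w w) (hn0 : n ≠ 0) :
    IsOrth π c (rootD e) ![![τ, 0, 0], w, thirdVec e τ w] ![a, n, -(n / a)] := by
  obtain ⟨d0, d1, d2⟩ := rootD_eval e
  have r0 := rootD_ne_zero he 0
  have r1 := rootD_ne_zero he 1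
  have r2 := rootD_ne_zero he 2
  have hne : e 1 - e 2 ≠ 0 := sub_ne_zero.mpr fun h => absurd (he h) (by decide)
  have ha0 : a ≠ 0 := fun h => by
    rw [h, map_zero, eq_comm, div_eq_zero_iff] at ha
    rcases ha with ha | ha
    · exact hτ0 (pow_eq_zero_iff two_ne_zero |>.mp ha)
    · exact r0 ha
  have hn' : w 1 * w 1 / rootD e 1 + w 2 * w 2 / rootD e 2 = algebraMap k K n := by
    rw [hn, bform, Fin.sum_univ_three, hw0]; ring
  have hprod12 : rootD e 1 * rootD e 2 = -(e 1 - e 2) ^ 2 * rootD e 0 := by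
    rw [d0, d1, d2]; ring
  refine ⟨?_, ?_, ?_, ?_⟩
  · intro i; fin_cases i
    · exact isFixed_vec h0 hτ
    · exact hw
    · exact isFixed_thirdVec hprod hπ h0 hτ hw
  · intro i; fin_cases i
    · exact ha0
    · exact hn0
    · simp [ha0, hn0]
  · intro i; fin_cases i
    · simp [bform, Fin.sum_univ_three, ha, sq]
    · simp [hn]
    · simp [bform, Fin.sum_univ_three, thirdVec, map_div₀, ha, ← hn']
      field_simp
      linear_combination (rootD e 2 * w 1 ^ 2 + rootD e 1 * w 2 ^ 2) * hprod12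
  · intro i j hij; fin_cases i <;> fin_cases j <;> first | exact absurd rfl hij | skip
    all_goals simp [bform, Fin.sum_univ_three, thirdVec, hw0]
    all_goals field_simp
    all_goals ring

/-- A cubic cyclic and commuting class is a coboundary, so its conic has a point. -/
theorem isIso_of_three_cycle (he : Function.Injective e) (hc : IsTwist π c)
    (hprod : ∀ g, ∏ i, c g i = 1) (hcomm : ∀ g h, c (g * h) = c (h * g) ∧ π (g * h) = π (h * g))
    {g₀ : K ≃ₐ[k] K} (h₀ : ∀ i, π g₀ i ≠ i) : IsIso π c (rootD e) := by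
  classical
  obtain ⟨m, hm1, hm⟩ : ∃ m : Fin 3 → ℤˣ, ∏ i, m i = 1 ∧
      ∀ i, c g₀ i = m i * m ((π g₀)⁻¹ i) := by
    have key : ∀ σ : Equiv.Perm (Fin 3), (∀ i, σ i ≠ i) → ∀ v : Fin 3 → ℤˣ, ∏ i, v i = 1 →
        ∃ m : Fin 3 → ℤˣ, ∏ i, m i = 1 ∧ ∀ i, v i = m i * m (σ⁻¹ i) := by decide
    exact key _ h₀ _ (hprod g₀)
  have hperm : ∀ h, π h = 1 ∨ π h = π g₀ ∨ π h = (π g₀)⁻¹ := fun h => by
    have key : ∀ σ τ : Equiv.Perm (Fin 3), (∀ i, σ i ≠ i) → σ * τ = τ * σ →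
        τ = 1 ∨ τ = σ ∨ τ = σ⁻¹ := by decide
    exact key _ _ h₀ (by rw [← map_mul, ← map_mul, (hcomm g₀ h).2])
  have hcob : ∀ g i, c g i = m i * m ((π g)⁻¹ i) := by
    -- the kernel of the permutation action
    have hker : ∀ n, π n = 1 → ∀ i, c n i = 1 := fun n hn => by
      have h1 : ∀ i, c n ((π g₀)⁻¹ i) = c n i := fun i => by
        have h := congrFun (hcomm g₀ n).1 i
        rw [hc g₀ n i, hc n g₀ i, hn, inv_one, Equiv.Perm.one_apply] at h
        exact mul_left_cancel (a := c g₀ i) (by rw [h, mul_comm])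
      have key : ∀ σ : Equiv.Perm (Fin 3), (∀ i, σ i ≠ i) → ∀ v : Fin 3 → ℤˣ, ∏ i, v i = 1 →
          (∀ i, v (σ⁻¹ i) = v i) → ∀ i, v i = 1 := by decide
      exact key _ h₀ _ (hprod n) h1
    intro g i
    have hinv : ∀ i, c g₀⁻¹ i = m i * m (π g₀ i) := fun i => by
      have h := hc g₀ g₀⁻¹ (π g₀ i)
      rw [mul_inv_cancel, hc.map_one, Equiv.Perm.coe_inv, Equiv.symm_apply_apply,
        hm, Equiv.Perm.coe_inv, Equiv.symm_apply_apply] at h
      calc c g₀⁻¹ i = (m (π g₀ i) * m i) * ((m (π g₀ i) * m i) * c g₀⁻¹ i) := by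
            rw [← mul_assoc, Int.units_mul_self, one_mul]
        _ = m i * m (π g₀ i) := by rw [← h, mul_one, mul_comm]
    rcases hperm g with h | h | h
    · rw [hker g h, h, inv_one, Equiv.Perm.one_apply, Int.units_mul_self]
    · have hn : π (g₀⁻¹ * g) = 1 := by rw [map_mul, map_inv, h, inv_mul_cancel]
      have e1 := hc g₀ (g₀⁻¹ * g) i
      rw [mul_inv_cancel_left, hker _ hn, mul_one] at e1
      rw [e1, h, hm]
    · have hn : π (g₀ * g) = 1 := by rw [map_mul, h, mul_inv_cancel]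
      have e1 := hc g₀⁻¹ (g₀ * g) i
      rw [inv_mul_cancel_left, hker _ hn, mul_one] at e1
      rw [e1, h, inv_inv, hinv]
  refine ⟨fun i => ((m i : ℤ) : K), fun h => ?_, fun g => funext fun i => ?_, ?_⟩
  · have := units_cast_sq (K := K) (m 0)
    rw [show ((m 0 : ℤ) : K) = 0 from congrFun h 0, zero_mul] at this
    exact zero_ne_one this
  · simp only [act, map_intCast, hcob g i, Units.val_mul, Int.cast_mul, mul_assoc]
    rw [units_cast_sq, mul_one]
  · simp only [bform, units_cast_sq, one_div]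
    exact sum_inv_rootD he

end Fermat.Agent.Residual.Conic
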