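/-
Hilbert symbols over the `p`-adic numbers, with values in `ZMod 2`: explicit formula,
bimultiplicativity, the isotropy criterion, and the square criteria behind it.
-/
import Mathlib.NumberTheory.Padics.RingHoms
import Mathlib.NumberTheory.Padics.Hensel
import Mathlib.FieldTheory.Finite.Basic
import Mathlib.NumberTheory.LegendreSymbol.Basic
import Mathlib.Tactic

set_option autoImplicit false

namespace Fermat.Agent.Residual.Conic

open Polynomial

variable {p : ℕ} [Fact p.Prime]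

/-- An element of norm at most one as a `p`-adic integer. -/
def toZp (x : ℚ_[p]) (h : ‖x‖ ≤ 1) : ℤ_[p] := ⟨x, h⟩

theorem coe_toZp (x : ℚ_[p]) (h : ‖x‖ ≤ 1) : (toZp x h : ℚ_[p]) = x := rfl

/-- The unit part of a nonzero element. -/
noncomputable def unitPart (a : ℚ_[p]) : ℤ_[p] :=
  if h : ‖a * (p : ℚ_[p]) ^ (-a.valuation)‖ ≤ 1 then
    toZp (a * (p : ℚ_[p]) ^ (-a.valuation)) h else 0

/-- The parity of the valuation. -/
noncomputable def valPar (a : ℚ_[p]) : ZMod 2 := (a.valuation : ZMod 2)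

theorem norm_mul_zpow_valuation {a : ℚ_[p]} (ha : a ≠ 0) :
    ‖a * (p : ℚ_[p]) ^ (-a.valuation)‖ = 1 := by
  have hp : (p : ℝ) ≠ 0 := by exact_mod_cast (Fact.out : p.Prime).ne_zero
  rw [norm_mul, Padic.norm_eq_zpow_neg_valuation ha, Padic.norm_p_zpow, ← zpow_add₀ hp, neg_neg,
    neg_add_cancel, zpow_zero]

theorem coe_unitPart {a : ℚ_[p]} (ha : a ≠ 0) :
    (unitPart a : ℚ_[p]) = a * (p : ℚ_[p]) ^ (-a.valuation) := by
  rw [unitPart, dif_pos (norm_mul_zpow_valuation ha).le, coe_toZp]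

theorem isUnit_unitPart {a : ℚ_[p]} (ha : a ≠ 0) : IsUnit (unitPart a) := by
  rw [PadicInt.isUnit_iff, PadicInt.norm_def, coe_unitPart ha, norm_mul_zpow_valuation ha]

theorem natCast_p_ne_zero : (p : ℚ_[p]) ≠ 0 := by exact_mod_cast (Fact.out : p.Prime).ne_zero

theorem unitPart_mul {a b : ℚ_[p]} (ha : a ≠ 0) (hb : b ≠ 0) :
    unitPart (a * b) = unitPart a * unitPart b := by
  refine PadicInt.ext ?_
  rw [PadicInt.coe_mul, coe_unitPart (mul_ne_zero ha hb), coe_unitPart ha, coe_unitPart hb,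
    Padic.valuation_mul ha hb, neg_add, zpow_add₀ natCast_p_ne_zero]
  ring

theorem valPar_mul {a b : ℚ_[p]} (ha : a ≠ 0) (hb : b ≠ 0) :
    valPar (a * b) = valPar a + valPar b := by
  simp [valPar, Padic.valuation_mul ha hb]

theorem valuation_coe_unit {u : ℤ_[p]} (hu : IsUnit u) : (u : ℚ_[p]).valuation = 0 := by
  have h1 : ‖(u : ℚ_[p])‖ = 1 := by rw [← PadicInt.norm_def]; exact PadicInt.isUnit_iff.mp hu
  have h0 : (u : ℚ_[p]) ≠ 0 := by
    intro h; rw [h, norm_zero] at h1; exact one_ne_zero h1.symm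
  rw [Padic.norm_eq_zpow_neg_valuation h0,
    zpow_eq_one_iff_right₀ (by positivity) (by exact_mod_cast (Fact.out : p.Prime).one_lt.ne')]
    at h1
  omega

theorem unitPart_coe {u : ℤ_[p]} (hu : IsUnit u) : unitPart (u : ℚ_[p]) = u := by
  refine PadicInt.ext ?_
  rw [coe_unitPart (by simpa using hu.ne_zero), valuation_coe_unit hu, neg_zero, zpow_zero,
    mul_one]

theorem valPar_coe {u : ℤ_[p]} (hu : IsUnit u) : valPar (u : ℚ_[p]) = 0 := by
  simp [valPar, valuation_coe_unit hu]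

/-! ### Residue invariants -/

open Classical in
/-- `0` for a square residue, `1` otherwise. -/
noncomputable def resPar (u : ℤ_[p]) : ZMod 2 := if IsSquare (PadicInt.toZMod u) then 0 else 1

/-- The residue modulo `8`, for `p = 2`. -/
noncomputable def res8 (u : ℤ_[p]) : ZMod 8 := ((PadicInt.toZModPow 3 u).val : ZMod 8)

/-- `(u - 1) / 2` modulo `2`. -/
def epsTwo (u : ZMod 8) : ZMod 2 := if u = 3 ∨ u = 7 then 1 else 0

/-- `(u ^ 2 - 1) / 8` modulo `2`. -/
def omTwo (u : ZMod 8) : ZMod 2 := if u = 3 ∨ u = 5 then 1 else 0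

theorem toZMod_ne_zero {u : ℤ_[p]} (hu : IsUnit u) : PadicInt.toZMod u ≠ 0 :=
  (hu.map PadicInt.toZMod).ne_zero

theorem resPar_mul (hp : p ≠ 2) {u v : ℤ_[p]} (hu : IsUnit u) (hv : IsUnit v) :
    resPar (u * v) = resPar u + resPar v := by
  classical
  have hc : ringChar (ZMod p) ≠ 2 := by rw [ZMod.ringChar_zmod_n]; exact hp
  have key : ∀ x : ZMod p, x ≠ 0 → (IsSquare x ↔ quadraticChar (ZMod p) x = 1) := fun x hx =>
    (quadraticChar_one_iff_isSquare hx).symm
  have hu' := toZMod_ne_zero hu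
  have hv' := toZMod_ne_zero hv
  unfold resPar
  rw [map_mul]
  simp only [key _ hu', key _ hv', key _ (mul_ne_zero hu' hv'), map_mul]
  rcases quadraticChar_dichotomy hu' with h1 | h1 <;>
    rcases quadraticChar_dichotomy hv' with h2 | h2 <;> simp [h1, h2] <;> decide

theorem resPar_neg_one (hp : p ≠ 2) :
    resPar (-1 : ℤ_[p]) = (((p / 2 : ℕ) : ℕ) : ZMod 2) := by
  unfold resPar
  rw [map_neg, map_one]
  by_cases h : p % 4 = 3
  · rw [if_neg (by rw [ZMod.exists_sq_eq_neg_one_iff]; simpa using h)]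
    have : (p / 2) % 2 = 1 := by omega
    rw [← ZMod.natCast_mod, this]; rfl
  · rw [if_pos (by rw [ZMod.exists_sq_eq_neg_one_iff]; exact h)]
    have := (Fact.out : p.Prime).eq_two_or_odd
    have h2 : (p / 2) % 2 = 0 := by omega
    rw [← ZMod.natCast_mod, h2]; rfl

theorem res8_mul (hp : p = 2) (u v : ℤ_[p]) : res8 (u * v) = res8 u * res8 v := by
  subst hp
  unfold res8
  rw [map_mul]
  exact (by decide : ∀ x y : ZMod 8, (((x * y).val : ℕ) : ZMod 8) = (x.val : ZMod 8) * y.val) _ _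

theorem res8_add (hp : p = 2) (u v : ℤ_[p]) : res8 (u + v) = res8 u + res8 v := by
  subst hp
  unfold res8
  rw [map_add]
  exact (by decide : ∀ x y : ZMod 8, (((x + y).val : ℕ) : ZMod 8) = (x.val : ZMod 8) + y.val) _ _

theorem res8_one (hp : p = 2) : res8 (1 : ℤ_[p]) = 1 := by
  subst hp
  unfold res8
  rw [map_one]
  rfl

theorem res8_natCast (hp : p = 2) (n : ℕ) : res8 (n : ℤ_[p]) = n := by
  subst hp
  unfold res8
  rw [map_natCast]
  exact (by decide : ∀ x : ZMod 8, ((x.val : ℕ) : ZMod 8) = x) _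

theorem res8_neg (hp : p = 2) (u : ℤ_[p]) : res8 (-u) = -res8 u := by
  have h := res8_add hp u (-u)
  have h0 : res8 (0 : ℤ_[p]) = 0 := by simpa using res8_natCast hp 0
  rw [add_neg_cancel, h0] at h
  exact eq_neg_of_add_eq_zero_right h.symm

theorem res8_isUnit (hp : p = 2) {u : ℤ_[p]} (hu : IsUnit u) :
    res8 u = 1 ∨ res8 u = 3 ∨ res8 u = 5 ∨ res8 u = 7 := by
  obtain ⟨v, hv⟩ := hu.exists_left_inv
  have h := res8_mul hp v u
  rw [hv, res8_one hp] at h
  exact (by decide : ∀ x y : ZMod 8, 1 = y * x → x = 1 ∨ x = 3 ∨ x = 5 ∨ x = 7) _ _ h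

/-! ### Squares -/

theorem exists_sq_of_resPar (hp : p ≠ 2) {u : ℤ_[p]} (hu : IsUnit u) (h : resPar u = 0) :
    ∃ w : ℤ_[p], w ^ 2 = u := by
  have hsq : IsSquare (PadicInt.toZMod u) := by
    by_contra hn
    rw [resPar, if_neg hn] at h
    exact one_ne_zero h
  obtain ⟨r, hr⟩ := hsq
  obtain ⟨a, rfl⟩ := ZMod.ringHom_surjective PadicInt.toZMod r
  have ha : IsUnit a := by
    rw [PadicInt.isUnit_iff]
    by_contra hn
    have : PadicInt.toZMod a = 0 := by
      rw [← RingHom.mem_ker, PadicInt.ker_toZMod, PadicInt.maximalIdeal_eq_span_p,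
        Ideal.mem_span_singleton, ← PadicInt.norm_lt_one_iff_dvd]
      exact lt_of_le_of_ne (PadicInt.norm_le_one _) hn
    exact toZMod_ne_zero hu (by rw [hr, this, zero_mul])
  have h2 : IsUnit (2 : ℤ_[p]) := by
    rw [PadicInt.isUnit_iff]
    by_contra hn
    have hd : (p : ℤ) ∣ 2 := by
      rw [← PadicInt.norm_int_lt_one_iff_dvd]
      push_cast
      exact lt_of_le_of_ne (PadicInt.norm_le_one _) hn
    exact hp ((Nat.prime_dvd_prime_iff_eq Fact.out Nat.prime_two).mp (by exact_mod_cast hd))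
  have hlt : ‖a ^ 2 - u‖ < 1 := by
    rw [PadicInt.norm_lt_one_iff_dvd, ← Ideal.mem_span_singleton, ← PadicInt.maximalIdeal_eq_span_p,
      ← PadicInt.ker_toZMod, RingHom.mem_ker, map_sub, map_pow, hr, pow_two, sub_self]
  obtain ⟨z, hz, -⟩ := hensels_lemma (F := (X ^ 2 - C u : ℤ_[p][X])) (a := a) (by
    simp only [derivative_sub, derivative_X_pow, derivative_C, sub_zero, map_sub, map_mul,
      aeval_C, aeval_X, map_pow, Algebra.algebraMap_self, RingHom.id_apply]
    norm_num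
    rw [PadicInt.isUnit_iff.mp h2, PadicInt.isUnit_iff.mp ha]
    norm_num
    exact hlt)
  exact ⟨z, by simpa [sub_eq_zero] using hz⟩

theorem exists_sq_of_res8 (hp : p = 2) {u : ℤ_[p]} (h : res8 u = 1) :
    ∃ w : ℤ_[p], w ^ 2 = u := by
  subst hp
  have h' : PadicInt.toZModPow 3 (1 - u) = 0 := by
    rw [map_sub, map_one, sub_eq_zero]
    exact ((by decide : ∀ x : ZMod 8, ((x.val : ℕ) : ZMod 8) = 1 → (1 : ZMod 8) = x) _ h)
  rw [← RingHom.mem_ker, PadicInt.ker_toZModPow, ← PadicInt.norm_le_pow_iff_mem_span_pow] at h'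
  obtain ⟨z, hz, -⟩ := hensels_lemma (F := (X ^ 2 - C u : ℤ_[2][X])) (a := (1 : ℤ_[2])) (by
    simp only [derivative_sub, derivative_X_pow, derivative_C, sub_zero, map_sub, map_mul,
      aeval_C, aeval_X, map_pow, Algebra.algebraMap_self, RingHom.id_apply]
    norm_num
    rw [show ((2 : ℤ_[2]) : ℤ_[2]) = ((2 : ℕ) : ℤ_[2]) by norm_num, PadicInt.norm_p]
    calc ‖1 - u‖ ≤ (2 : ℝ) ^ (-((3 : ℕ) : ℤ)) := h'
      _ < _ := by norm_num)
  exact ⟨z, by simpa [sub_eq_zero] using hz⟩

/-! ### The symbol -/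

/-- The Hilbert symbol of `ℚ_p`, additively. -/
noncomputable def hilb (a b : ℚ_[p]) : ZMod 2 :=
  if p = 2 then
    epsTwo (res8 (unitPart a)) * epsTwo (res8 (unitPart b)) +
      valPar a * omTwo (res8 (unitPart b)) + valPar b * omTwo (res8 (unitPart a))
  else
    ((p / 2 : ℕ) : ZMod 2) * valPar a * valPar b + valPar b * resPar (unitPart a) +
      valPar a * resPar (unitPart b)

theorem hilb_comm (a b : ℚ_[p]) : hilb a b = hilb b a := by
  unfold hilb
  split <;> ring

theorem hilb_mul_left {a a' b : ℚ_[p]} (ha : a ≠ 0) (ha' : a' ≠ 0) :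
    hilb (a * a') b = hilb a b + hilb a' b := by
  unfold hilb
  split
  · next hp =>
    rw [unitPart_mul ha ha', valPar_mul ha ha', res8_mul hp]
    obtain ⟨he, ho⟩ : epsTwo (res8 (unitPart a) * res8 (unitPart a')) =
        epsTwo (res8 (unitPart a)) + epsTwo (res8 (unitPart a')) ∧
        omTwo (res8 (unitPart a) * res8 (unitPart a')) =
        omTwo (res8 (unitPart a)) + omTwo (res8 (unitPart a')) := by
      rcases res8_isUnit hp (isUnit_unitPart ha) with h | h | h | h <;>
        rcases res8_isUnit hp (isUnit_unitPart ha') with h' | h' | h' | h' <;>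
          rw [h, h'] <;> decide
    rw [he, ho]
    ring
  · next hp =>
    rw [unitPart_mul ha ha', valPar_mul ha ha', resPar_mul hp (isUnit_unitPart ha)
      (isUnit_unitPart ha')]
    ring

theorem hilb_mul_right {a b b' : ℚ_[p]} (hb : b ≠ 0) (hb' : b' ≠ 0) :
    hilb a (b * b') = hilb a b + hilb a b' := by
  rw [hilb_comm, hilb_mul_left hb hb', hilb_comm b, hilb_comm b']

theorem hilb_sq_left {c b : ℚ_[p]} (hc : c ≠ 0) : hilb (c * c) b = 0 := by
  rw [hilb_mul_left hc hc, CharTwo.add_self_eq_zero]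

theorem hilb_sq_mul_left {a c b : ℚ_[p]} (ha : a ≠ 0) (hc : c ≠ 0) :
    hilb (c * c * a) b = hilb a b := by
  rw [hilb_mul_left (mul_ne_zero hc hc) ha, hilb_sq_left hc, zero_add]

theorem unitPart_neg {a : ℚ_[p]} (ha : a ≠ 0) :
    unitPart (-a) = -unitPart a ∧ valPar (-a) = valPar a := by
  have hu : IsUnit (-1 : ℤ_[p]) := isUnit_one.neg
  have e : ((-1 : ℤ_[p]) : ℚ_[p]) = -1 := by simp
  have h0 : ((-1 : ℤ_[p]) : ℚ_[p]) ≠ 0 := by rw [e]; norm_num
  rw [show -a = ((-1 : ℤ_[p]) : ℚ_[p]) * a by rw [e, neg_one_mul], unitPart_mul h0 ha,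
    valPar_mul h0 ha, unitPart_coe hu, valPar_coe hu]
  simp

theorem hilb_neg_self {a : ℚ_[p]} (ha : a ≠ 0) : hilb a (-a) = 0 := by
  unfold hilb
  obtain ⟨h1, h2⟩ := unitPart_neg ha
  rw [h1, h2]
  split
  · next hp =>
    rw [res8_neg hp]
    rcases res8_isUnit hp (isUnit_unitPart ha) with h | h | h | h <;> rw [h] <;>
      generalize valPar a = x <;> revert x <;> decide
  · next hp =>
    rw [← neg_one_mul (unitPart a), resPar_mul hp isUnit_one.neg (isUnit_unitPart ha),
      resPar_neg_one hp]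
    generalize valPar a = x
    generalize ((p / 2 : ℕ) : ZMod 2) = y
    generalize resPar (unitPart a) = z
    revert x y z
    decide

/-- The conic `z² = a x² + b y²` has a point. -/
def HasPt (a b : ℚ_[p]) : Prop :=
  ∃ x y z : ℚ_[p], (x ≠ 0 ∨ y ≠ 0 ∨ z ≠ 0) ∧ z ^ 2 = a * x ^ 2 + b * y ^ 2

omit [Fact p.Prime] in
theorem HasPt.symm [Fact p.Prime] {a b : ℚ_[p]} (h : HasPt a b) : HasPt b a := by
  obtain ⟨x, y, z, hne, e⟩ := h
  exact ⟨y, x, z, by tauto, by rw [e]; ring⟩

theorem HasPt.sq_mul {a b c : ℚ_[p]} (hc : c ≠ 0) : HasPt (c * c * a) b ↔ HasPt a b := by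
  constructor
  · rintro ⟨x, y, z, hne, e⟩
    refine ⟨c * x, y, z, ?_, by rw [e]; ring⟩
    rcases hne with h | h | h
    · exact .inl (mul_ne_zero hc h)
    · exact .inr (.inl h)
    · exact .inr (.inr h)
  · rintro ⟨x, y, z, hne, e⟩
    refine ⟨x / c, y, z, ?_, by rw [e]; field_simp⟩
    rcases hne with h | h | h
    · exact .inl (div_ne_zero h hc)
    · exact .inr (.inl h)
    · exact .inr (.inr h)

theorem HasPt.neg_mul {a b : ℚ_[p]} (ha : a ≠ 0) : HasPt a (-(a * b)) ↔ HasPt a b := by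
  constructor
  · rintro ⟨x, y, z, hne, e⟩
    refine ⟨z, a * y, a * x, ?_, by linear_combination (-a) * e⟩
    rcases hne with h | h | h
    · exact .inr (.inr (mul_ne_zero ha h))
    · exact .inr (.inl (mul_ne_zero ha h))
    · exact .inl h
  · rintro ⟨x, y, z, hne, e⟩
    refine ⟨z, y, a * x, ?_, by linear_combination (-a) * e⟩
    rcases hne with h | h | h
    · exact .inr (.inr (mul_ne_zero ha h))
    · exact .inr (.inl h)
    · exact .inl h

/-- A nonzero solution can be made primitive. -/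
theorem HasPt.exists_primitive {a b : ℚ_[p]} (h : HasPt a b) :
    ∃ x y z : ℤ_[p], (IsUnit x ∨ IsUnit y ∨ IsUnit z) ∧
      (z : ℚ_[p]) ^ 2 = a * (x : ℚ_[p]) ^ 2 + b * (y : ℚ_[p]) ^ 2 := by
  obtain ⟨x, y, z, hne, e⟩ := h
  obtain ⟨m, hm0, hx, hy, hz, hm⟩ : ∃ m : ℚ_[p], m ≠ 0 ∧ ‖x‖ ≤ ‖m‖ ∧ ‖y‖ ≤ ‖m‖ ∧ ‖z‖ ≤ ‖m‖ ∧
      (m = x ∨ m = y ∨ m = z) := by
    have key : ∃ m : ℚ_[p], ‖x‖ ≤ ‖m‖ ∧ ‖y‖ ≤ ‖m‖ ∧ ‖z‖ ≤ ‖m‖ ∧ (m = x ∨ m = y ∨ m = z) := by
      rcases le_total ‖x‖ ‖y‖ with h1 | h1 <;> rcases le_total ‖y‖ ‖z‖ with h2 | h2 <;>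
        rcases le_total ‖x‖ ‖z‖ with h3 | h3 <;>
        first
          | exact ⟨x, le_rfl, by linarith, by linarith, .inl rfl⟩
          | exact ⟨y, by linarith, le_rfl, by linarith, .inr (.inl rfl)⟩
          | exact ⟨z, by linarith, by linarith, le_rfl, .inr (.inr rfl)⟩
    obtain ⟨m, hx, hy, hz, hm⟩ := key
    refine ⟨m, fun h0 => ?_, hx, hy, hz, hm⟩
    rw [h0, norm_zero] at hx hy hz
    rcases hne with h | h | h
    · exact h (norm_le_zero_iff.mp hx)
    · exact h (norm_le_zero_iff.mp hy)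
    · exact h (norm_le_zero_iff.mp hz)
  have hd : ∀ w : ℚ_[p], ‖w‖ ≤ ‖m‖ → ‖w / m‖ ≤ 1 := fun w hw => by
    rw [norm_div, div_le_one (norm_pos_iff.mpr hm0)]; exact hw
  refine ⟨toZp (x / m) (hd x hx), toZp (y / m) (hd y hy), toZp (z / m) (hd z hz), ?_, ?_⟩
  · have one : ∀ w : ℚ_[p], ∀ hw : ‖w / m‖ ≤ 1, w = m → IsUnit (toZp (w / m) hw) := by
      intro w hw hwm
      rw [PadicInt.isUnit_iff, PadicInt.norm_def, coe_toZp, hwm, div_self hm0, norm_one]
    rcases hm with h | h | h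
    · exact .inl (one _ _ h.symm)
    · exact .inr (.inl (one _ _ h.symm))
    · exact .inr (.inr (one _ _ h.symm))
  · rw [coe_toZp, coe_toZp, coe_toZp]
    field_simp
    linear_combination e

theorem hasPt_of_sq {a b : ℚ_[p]} {w : ℚ_[p]} (hw : w ^ 2 = b) : HasPt a b :=
  ⟨0, 1, w, by simp, by rw [hw]; ring⟩

/-- The criterion when `b` is a unit. -/
theorem hasPt_iff_of_unit {u v : ℤ_[p]} (hu : IsUnit u) (hv : IsUnit v) (i : Fin 2) :
    HasPt ((p : ℚ_[p]) ^ (i : ℕ) * (u : ℚ_[p])) (v : ℚ_[p]) ↔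
      hilb ((p : ℚ_[p]) ^ (i : ℕ) * (u : ℚ_[p])) (v : ℚ_[p]) = 0 := by
  have hpv : valPar ((p : ℚ_[p]) ^ (i : ℕ) * (u : ℚ_[p])) = ((i : ℕ) : ZMod 2) := by
    rw [valPar_mul (pow_ne_zero _ natCast_p_ne_zero) (by simpa using hu.ne_zero), valPar_coe hu]
    simp [valPar]
  have hpu : unitPart ((p : ℚ_[p]) ^ (i : ℕ) * (u : ℚ_[p])) = u := by
    refine PadicInt.ext ?_
    rw [coe_unitPart (mul_ne_zero (pow_ne_zero _ natCast_p_ne_zero) (by simpa using hu.ne_zero)),
      Padic.valuation_mul (pow_ne_zero _ natCast_p_ne_zero) (by simpa using hu.ne_zero),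
      valuation_coe_unit hu, Padic.valuation_pow, Padic.valuation_p, add_zero, mul_one,
      zpow_neg, zpow_natCast]
    field_simp [natCast_p_ne_zero (p := p)]
  unfold hilb
  rw [hpv, hpu, valPar_coe hv, unitPart_coe hv]
  by_cases hp : p = 2
  · rw [if_pos hp, zero_mul, add_zero]
    constructor
    · intro h
      obtain ⟨x, y, z, hprim, e⟩ := h.exists_primitive
      have e' : z ^ 2 = (p : ℤ_[p]) ^ (i : ℕ) * u * x ^ 2 + v * y ^ 2 := by
        apply PadicInt.ext
        push_cast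
        exact e
      have e8 := congrArg res8 e'
      simp only [pow_two, res8_add hp, res8_mul hp] at e8
      have hpi : res8 ((p : ℤ_[p]) ^ (i : ℕ)) = (2 : ZMod 8) ^ (i : ℕ) := by
        have hn := res8_natCast hp (p ^ (i : ℕ))
        push_cast at hn
        rw [hn]
        subst hp
        rfl
      rw [hpi] at e8
      have sqs : ∀ w : ℤ_[p], res8 w * res8 w ∈ ({0, 1, 4} : Finset (ZMod 8)) := fun w =>
        (by decide : ∀ t : ZMod 8, t * t ∈ ({0, 1, 4} : Finset (ZMod 8))) _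
      have one : ∀ w : ℤ_[p], IsUnit w → res8 w * res8 w = 1 := fun w hw => by
        rcases res8_isUnit hp hw with h | h | h | h <;> rw [h] <;> decide
      have hprim' : res8 x * res8 x = 1 ∨ res8 y * res8 y = 1 ∨ res8 z * res8 z = 1 :=
        hprim.imp (one x) (Or.imp (one y) (one z))
      have hX := sqs x
      have hY := sqs y
      have hZ := sqs z
      revert hX hY hZ hprim' e8
      generalize res8 x * res8 x = X, res8 y * res8 y = Y, res8 z * res8 z = Z
      intro e8 hprim' hX hY hZ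
      fin_cases i <;>
        (rcases res8_isUnit hp hu with h1 | h1 | h1 | h1 <;>
          rcases res8_isUnit hp hv with h2 | h2 | h2 | h2 <;> rw [h1, h2] at e8 ⊢ <;>
          simp only [Finset.mem_insert, Finset.mem_singleton] at hX hY hZ <;>
          rcases hX with rfl | rfl | rfl <;> rcases hY with rfl | rfl | rfl <;>
          rcases hZ with rfl | rfl | rfl <;> revert e8 hprim' <;> decide)
    · intro h
      obtain ⟨x, y, hxy⟩ : ∃ x y : ZMod 8,
          (2 : ZMod 8) ^ (i : ℕ) * res8 u * (x * x) + res8 v * (y * y) = 1 := by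
        revert h
        fin_cases i <;>
          (rcases res8_isUnit hp hu with h1 | h1 | h1 | h1 <;>
            rcases res8_isUnit hp hv with h2 | h2 | h2 | h2 <;> rw [h1, h2] <;> decide)
      obtain ⟨w, hw⟩ := exists_sq_of_res8 hp (u := (p : ℤ_[p]) ^ (i : ℕ) * u * (x.val : ℤ_[p]) ^ 2
          + v * (y.val : ℤ_[p]) ^ 2) (by
        have hn := res8_natCast hp (p ^ (i : ℕ))
        push_cast at hn
        simp only [pow_two, res8_add hp, res8_mul hp, res8_natCast hp, hn,
          ZMod.natCast_zmod_val]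
        subst hp
        exact hxy)
      refine ⟨((x.val : ℕ) : ℚ_[p]), ((y.val : ℕ) : ℚ_[p]), (w : ℚ_[p]), ?_, ?_⟩
      · by_contra hcon
        push Not at hcon
        obtain ⟨hx0, hy0, -⟩ := hcon
        rw [Nat.cast_eq_zero, ZMod.val_eq_zero] at hx0 hy0
        rw [hx0, hy0] at hxy
        exact absurd hxy (by simp; decide)
      · have := congrArg ((↑) : ℤ_[p] → ℚ_[p]) hw
        push_cast at this
        exact this
  · rw [if_neg hp, mul_zero, zero_mul, zero_add, zero_add]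
    fin_cases i
    · -- two units
      simp only [Nat.cast_zero, zero_mul, pow_zero, one_mul, iff_true]
      obtain ⟨a, b, hab⟩ := FiniteField.exists_root_sum_quadratic
        (f := C (PadicInt.toZMod u) * X ^ 2) (g := C (PadicInt.toZMod v) * X ^ 2 - 1)
        (by rw [degree_C_mul_X_pow _ (toZMod_ne_zero hu)]; rfl)
        (by rw [degree_sub_eq_left_of_degree_lt] <;>
              rw [degree_C_mul_X_pow _ (toZMod_ne_zero hv)]
            · rfl
            · rw [degree_one]; decide)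
        (by rw [ZMod.card]; exact (Fact.out : p.Prime).eq_two_or_odd.resolve_left hp)
      obtain ⟨a, rfl⟩ := ZMod.ringHom_surjective PadicInt.toZMod a
      obtain ⟨b, rfl⟩ := ZMod.ringHom_surjective PadicInt.toZMod b
      simp only [eval_mul, eval_C, eval_pow, eval_X, eval_sub, eval_one] at hab
      have hr : PadicInt.toZMod (u * a ^ 2 + v * b ^ 2) = 1 := by
        simp only [map_add, map_mul, map_pow]; linear_combination hab
      have hU : IsUnit (u * a ^ 2 + v * b ^ 2) := by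
        rw [PadicInt.isUnit_iff]
        by_contra hn
        have h0 : PadicInt.toZMod (u * a ^ 2 + v * b ^ 2) = 0 := by
          rw [← RingHom.mem_ker, PadicInt.ker_toZMod, PadicInt.maximalIdeal_eq_span_p,
            Ideal.mem_span_singleton, ← PadicInt.norm_lt_one_iff_dvd]
          exact lt_of_le_of_ne (PadicInt.norm_le_one _) hn
        rw [hr] at h0
        exact one_ne_zero h0
      obtain ⟨w, hw⟩ := exists_sq_of_resPar hp hU
        (by rw [resPar, if_pos (by rw [hr]; exact IsSquare.one)])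
      refine ⟨(a : ℚ_[p]), (b : ℚ_[p]), (w : ℚ_[p]), .inr (.inr ?_), ?_⟩
      · intro hw0
        rw [PadicInt.coe_eq_zero] at hw0
        rw [← hw, hw0, zero_pow two_ne_zero] at hU
        exact not_isUnit_zero hU
      · have := congrArg ((↑) : ℤ_[p] → ℚ_[p]) hw
        push_cast at this
        exact this
    · -- one uniformiser
      simp only [Nat.cast_one, one_mul, pow_one]
      constructor
      · intro h
        by_contra hne
        have hns : ¬ IsSquare (PadicInt.toZMod v) := fun hs => hne (by rw [resPar, if_pos hs])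
        obtain ⟨x, y, z, hprim, e⟩ := h.exists_primitive
        have e' : z ^ 2 = (p : ℤ_[p]) * u * x ^ 2 + v * y ^ 2 := by
          apply PadicInt.ext
          push_cast
          exact e
        have e0 := congrArg PadicInt.toZMod e'
        simp only [map_add, map_mul, map_pow, map_natCast, ZMod.natCast_self, zero_mul,
          zero_add] at e0
        have hy : PadicInt.toZMod y = 0 := by
          by_contra hy
          exact hns ⟨PadicInt.toZMod z / PadicInt.toZMod y, by field_simp; linear_combination -e0⟩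
        have hz : PadicInt.toZMod z = 0 := by
          rw [hy, zero_pow two_ne_zero, mul_zero] at e0
          exact eq_zero_of_pow_eq_zero e0
        have hdvd : ∀ w : ℤ_[p], PadicInt.toZMod w = 0 → (p : ℤ_[p]) ∣ w := fun w hw => by
          rw [← Ideal.mem_span_singleton, ← PadicInt.maximalIdeal_eq_span_p,
            ← PadicInt.ker_toZMod]
          exact hw
        obtain ⟨y', rfl⟩ := hdvd y hy
        obtain ⟨z', rfl⟩ := hdvd z hz
        have hx : IsUnit x := by
          rcases hprim with h | h | h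
          · exact h
          · exact absurd (h.map PadicInt.toZMod) (by rw [hy]; exact not_isUnit_zero)
          · exact absurd (h.map PadicInt.toZMod) (by rw [hz]; exact not_isUnit_zero)
        have hp0 : (p : ℤ_[p]) ≠ 0 := by exact_mod_cast (Fact.out : p.Prime).ne_zero
        have e1 : u * x ^ 2 = (p : ℤ_[p]) * (z' ^ 2 - v * y' ^ 2) := by
          refine mul_left_cancel₀ hp0 ?_
          linear_combination -e'
        have hbad := (hu.mul (hx.pow 2)).map PadicInt.toZMod
        rw [e1, map_mul, map_natCast, ZMod.natCast_self, zero_mul] at hbad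
        exact not_isUnit_zero hbad
      · intro h
        obtain ⟨w, hw⟩ := exists_sq_of_resPar hp hv h
        refine hasPt_of_sq (w := (w : ℚ_[p])) ?_
        have := congrArg ((↑) : ℤ_[p] → ℚ_[p]) hw
        push_cast at this
        exact this

/-- Every nonzero element is a square times a unit or a uniformiser. -/
theorem exists_normal_form {a : ℚ_[p]} (ha : a ≠ 0) : ∃ (c : ℚ_[p]) (i : Fin 2) (u : ℤ_[p]),
    c ≠ 0 ∧ IsUnit u ∧ a = c * c * ((p : ℚ_[p]) ^ (i : ℕ) * (u : ℚ_[p])) := by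
  have hlt : (a.valuation % 2).toNat < 2 := by omega
  refine ⟨(p : ℚ_[p]) ^ (a.valuation / 2), ⟨(a.valuation % 2).toNat, hlt⟩, unitPart a,
    zpow_ne_zero _ natCast_p_ne_zero, isUnit_unitPart ha, ?_⟩
  rw [coe_unitPart ha, ← zpow_add₀ natCast_p_ne_zero, ← zpow_natCast (p : ℚ_[p]),
    mul_comm a, ← mul_assoc, ← mul_assoc, ← zpow_add₀ natCast_p_ne_zero,
    ← zpow_add₀ natCast_p_ne_zero]
  rw [show a.valuation / 2 + a.valuation / 2 + (((a.valuation % 2).toNat : ℕ) : ℤ)
    + -a.valuation = 0 by omega, zpow_zero, one_mul]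

/-- **Isotropy criterion.** -/
theorem hasPt_iff {a b : ℚ_[p]} (ha : a ≠ 0) (hb : b ≠ 0) : HasPt a b ↔ hilb a b = 0 := by
  -- the case of a unit, up to squares
  have unit : ∀ {a c : ℚ_[p]} {v : ℤ_[p]}, a ≠ 0 → c ≠ 0 → IsUnit v →
      (HasPt a (c * c * (v : ℚ_[p])) ↔ hilb a (c * c * (v : ℚ_[p])) = 0) := by
    intro a c v ha hc hv
    obtain ⟨d, i, u, hd, hu, rfl⟩ := exists_normal_form ha
    have hv0 : (v : ℚ_[p]) ≠ 0 := by simpa using hv.ne_zero
    have h0 : (p : ℚ_[p]) ^ (i : ℕ) * (u : ℚ_[p]) ≠ 0 :=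
      mul_ne_zero (pow_ne_zero _ natCast_p_ne_zero) (by simpa using hu.ne_zero)
    rw [HasPt.sq_mul hd, hilb_sq_mul_left h0 hd, hilb_comm, hilb_sq_mul_left hv0 hc, hilb_comm]
    refine Iff.trans ⟨fun h => ?_, fun h => ?_⟩ (hasPt_iff_of_unit hu hv i)
    · exact ((HasPt.sq_mul hc).mp h.symm).symm
    · exact ((HasPt.sq_mul hc).mpr h.symm).symm
  obtain ⟨c, i, v, hc, hv, hbe⟩ := exists_normal_form hb
  fin_cases i
  · simp only [pow_zero, one_mul] at hbe
    rw [hbe]
    exact unit ha hc hv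
  · obtain ⟨d, k, u, hd, hu, hae⟩ := exists_normal_form ha
    fin_cases k
    · simp only [pow_zero, one_mul] at hae
      rw [hilb_comm, hae]
      exact ⟨fun h => (unit hb hd hu).mp h.symm, fun h => ((unit hb hd hu).mpr h).symm⟩
    · simp only [pow_one] at hbe hae
      have hab : -(a * b) = c * d * (p : ℚ_[p]) * (c * d * p) * ((-(u * v) : ℤ_[p]) : ℚ_[p]) := by
        rw [hae, hbe]; push_cast; ring
      have hcd : c * d * (p : ℚ_[p]) ≠ 0 := mul_ne_zero (mul_ne_zero hc hd) natCast_p_ne_zero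
      rw [← HasPt.neg_mul ha, hab, unit ha hcd (hu.mul hv).neg, ← hab, ← neg_mul,
        hilb_mul_right (neg_ne_zero.mpr ha) hb, hilb_neg_self ha, zero_add]

end Fermat.Agent.Residual.Conic
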