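/-
The symbol of the conic of a class over `ℚ_p`, and the sum over two classes and their product
when one of them has line type.
-/
import Fermat.Agent.Residual.ConicHilbert
import Fermat.Agent.Residual.ConicCubic
import Mathlib.NumberTheory.Padics.Complex
import Mathlib.FieldTheory.IsAlgClosed.Basic

set_option autoImplicit false

noncomputable section

namespace Fermat.Agent.Residual.Conic

section Relabel

variable {k K : Type*} [Field k] [Field K] [Algebra k K]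
  {π : (K ≃ₐ[k] K) →* Equiv.Perm (Fin 3)} {c : (K ≃ₐ[k] K) → Fin 3 → ℤˣ}

/-- The permutation action after relabelling. -/
def relabelPerm {G : Type*} [Group G] (σ : Equiv.Perm (Fin 3)) (π : G →* Equiv.Perm (Fin 3)) :
    G →* Equiv.Perm (Fin 3) :=
  (MulAut.conj σ⁻¹).toMonoidHom.comp π

/-- A cocycle after relabelling. -/
def relabelTwist {G : Type*} (σ : Equiv.Perm (Fin 3)) (c : G → Fin 3 → ℤˣ) : G → Fin 3 → ℤˣ :=
  fun g a => c g (σ a)

theorem relabelPerm_apply {G : Type*} [Group G] (σ : Equiv.Perm (Fin 3))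
    (π : G →* Equiv.Perm (Fin 3)) (g : G) (a : Fin 3) :
    relabelPerm σ π g a = σ⁻¹ (π g (σ a)) := by
  simp [relabelPerm]

theorem relabelPerm_inv_apply {G : Type*} [Group G] (σ : Equiv.Perm (Fin 3))
    (π : G →* Equiv.Perm (Fin 3)) (g : G) (a : Fin 3) :
    (relabelPerm σ π g)⁻¹ a = σ⁻¹ ((π g)⁻¹ (σ a)) := by
  rw [← map_inv, relabelPerm_apply, map_inv]

theorem IsTwist.relabel {G : Type*} [Group G] {π : G →* Equiv.Perm (Fin 3)}
    {c : G → Fin 3 → ℤˣ} (hc : IsTwist π c) (σ : Equiv.Perm (Fin 3)) :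
    IsTwist (relabelPerm σ π) (relabelTwist σ c) := by
  intro g h a
  simp only [relabelTwist, relabelPerm_inv_apply, Equiv.Perm.coe_inv, Equiv.apply_symm_apply]
  exact hc g h (σ a)

omit [Algebra k K] in
theorem rootD_relabel (e : Fin 3 → K) (σ : Equiv.Perm (Fin 3)) (a : Fin 3) :
    rootD (e ∘ σ) a = rootD e (σ a) :=
  Finset.prod_equiv σ (fun b => by simp) fun b _ => rfl

theorem isIso_relabel (e : Fin 3 → K) (σ : Equiv.Perm (Fin 3)) :
    IsIso (relabelPerm σ π) (relabelTwist σ c) (rootD (e ∘ σ)) ↔ IsIso π c (rootD e) := by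
  have hact : ∀ (g : K ≃ₐ[k] K) (t : Fin 3 → K),
      act (relabelPerm σ π) (relabelTwist σ c) g (t ∘ σ) = act π c g t ∘ σ := fun g t => by
    funext a
    simp [act, relabelTwist, relabelPerm_inv_apply]
  have hb : ∀ t : Fin 3 → K, bform (rootD (e ∘ σ)) (t ∘ σ) (t ∘ σ) = bform (rootD e) t t :=
    fun t => Fintype.sum_equiv σ _ _ fun a => by rw [rootD_relabel]; rfl
  constructor
  · rintro ⟨t, h0, hf, hq⟩
    have ht : (t ∘ σ.symm) ∘ σ = t := by funext a; simp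
    refine ⟨t ∘ σ.symm, fun h => h0 (by rw [← ht, h]; rfl), fun g => ?_, ?_⟩
    · have h1 := hact g (t ∘ σ.symm)
      rw [ht, hf g] at h1
      funext i
      have := congrFun h1 (σ.symm i)
      simpa using this.symm
    · rw [← hb, ht]; exact hq
  · rintro ⟨t, h0, hf, hq⟩
    refine ⟨t ∘ σ, fun h => h0 (funext fun i => ?_), fun g => by rw [hact, hf g], by rw [hb, hq]⟩
    simpa using congrFun h (σ.symm i)

theorem HasLevel.comp {X Y : Type*} {f : (K ≃ₐ[k] K) → X} (h : HasLevel f) (φ : X → Y) :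
    HasLevel (φ ∘ f) := by
  obtain ⟨L, hL, hf⟩ := h
  exact ⟨L, hL, fun g s hs => congrArg φ (hf g s hs)⟩

theorem HasLevel.mul {X : Type*} [Mul X] {f f' : (K ≃ₐ[k] K) → X} (h : HasLevel f)
    (h' : HasLevel f') : HasLevel (f * f') := by
  obtain ⟨L, hL, hf⟩ := h
  obtain ⟨L', hL', hf'⟩ := h'
  refine ⟨L ⊔ L', IntermediateField.finiteDimensional_sup L L', fun g s hs => ?_⟩
  simp only [Pi.mul_apply]
  rw [hf g s fun x hx => hs x ((le_sup_left : L ≤ L ⊔ L') hx),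
    hf' g s fun x hx => hs x ((le_sup_right : L' ≤ L ⊔ L') hx)]

end Relabel

variable {p : ℕ} [Fact p.Prime]

theorem isGalois_padicAlgCl : IsGalois ℚ_[p] (PadicAlgCl p) := IsAlgClosure.isGalois _ _

open Classical in
/-- `0` when the conic of the class has a point over `ℚ_p`, `1` otherwise. -/
def conicSym (π : (PadicAlgCl p ≃ₐ[ℚ_[p]] PadicAlgCl p) →* Equiv.Perm (Fin 3)) (c : (PadicAlgCl p ≃ₐ[ℚ_[p]] PadicAlgCl p) → Fin 3 → ℤˣ) (e : Fin 3 → (PadicAlgCl p)) : ZMod 2 :=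
  if IsIso π c (rootD e) then 0 else 1

variable {π : (PadicAlgCl p ≃ₐ[ℚ_[p]] PadicAlgCl p) →* Equiv.Perm (Fin 3)} {c x y : (PadicAlgCl p ≃ₐ[ℚ_[p]] PadicAlgCl p) → Fin 3 → ℤˣ} {e : Fin 3 → (PadicAlgCl p)}

theorem conicSym_relabel (σ : Equiv.Perm (Fin 3)) :
    conicSym (relabelPerm σ π) (relabelTwist σ c) (e ∘ σ) = conicSym π c e := by
  classical
  unfold conicSym
  exact ite_congr (propext (isIso_relabel e σ)) (fun _ => rfl) (fun _ => rfl)

/-- The symbol from a diagonal form. -/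
theorem conicSym_eq (hπ : ∀ (g : (PadicAlgCl p ≃ₐ[ℚ_[p]] PadicAlgCl p)) i, g (e i) = e (π g i)) {u : Fin 3 → Fin 3 → (PadicAlgCl p)}
    {A : Fin 3 → ℚ_[p]} (h : IsOrth π c (rootD e) u A) :
    conicSym π c e = hilb (-(A 0 * A 2)) (-(A 1 * A 2)) := by
  classical
  haveI := isGalois_padicAlgCl (p := p)
  have h0 : -(A 0 * A 2) ≠ 0 := neg_ne_zero.mpr (mul_ne_zero (h.ne 0) (h.ne 2))
  have h1 : -(A 1 * A 2) ≠ 0 := neg_ne_zero.mpr (mul_ne_zero (h.ne 1) (h.ne 2))
  have key : IsIso π c (rootD e) ↔ hilb (-(A 0 * A 2)) (-(A 1 * A 2)) = 0 := by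
    rw [h.isIso_iff (map_rootD hπ), ← hasPt_iff h0 h1]
    constructor
    · rintro ⟨x', hx, hq'⟩
      obtain ⟨x, rfl⟩ : ∃ x : Fin 3 → ℚ_[p], x = x' := ⟨x', rfl⟩
      have hq : ∑ a : Fin 3, A a * x a ^ 2 = 0 := hq'
      rw [Fin.sum_univ_three] at hq
      refine ⟨x 0, x 1, A 2 * x 2, ?_, by linear_combination (A 2) * hq⟩
      by_contra hcon
      push Not at hcon
      obtain ⟨a, b, d⟩ := hcon
      refine hx (funext fun i => ?_)
      have d' : x 2 = 0 := (mul_eq_zero.mp d).resolve_left (h.ne 2)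
      fin_cases i <;> assumption
    · rintro ⟨a, b, z, hne, hq⟩
      refine ⟨![a, b, z / A 2], fun hz => ?_, ?_⟩
      · rcases hne with hn | hn | hn
        · exact hn (congrFun hz 0)
        · exact hn (congrFun hz 1)
        · exact hn ((div_eq_zero_iff.mp (show z / A 2 = 0 from congrFun hz 2)).resolve_right (h.ne 2))
      · show ∑ i : Fin 3, A i * (![a, b, z / A 2] : Fin 3 → ℚ_[p]) i ^ 2 = 0
        rw [Fin.sum_univ_three]
        simp only [Matrix.cons_val_zero, Matrix.cons_val_one, Matrix.cons_val]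
        field_simp [h.ne 2]
        linear_combination hq
  unfold conicSym
  split_ifs with hi
  · exact (key.mp hi).symm
  · generalize hilb (-(A 0 * A 2)) (-(A 1 * A 2)) = r at key
    rcases (by decide : ∀ r : ZMod 2, r = 0 ∨ r = 1) r with rfl | rfl
    · exact absurd (key.mpr rfl) hi
    · rfl

/-- The symbol at a fixed root. -/
theorem conicSym_root (he : Function.Injective e) (hprod : ∀ g, ∏ i, c g i = 1)
    (hπ : ∀ (g : (PadicAlgCl p ≃ₐ[ℚ_[p]] PadicAlgCl p)) i, g (e i) = e (π g i)) (h0 : ∀ g, π g 0 = 0) {τ : (PadicAlgCl p)} (hτ0 : τ ≠ 0)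
    (hτ : ∀ g, ((c g 0 : ℤ) : (PadicAlgCl p)) * g τ = τ) {w : Fin 3 → (PadicAlgCl p)} (hw : IsFixed π c w)
    (hw0 : w 0 = 0) {a n : ℚ_[p]} (ha : algebraMap ℚ_[p] (PadicAlgCl p) a = τ ^ 2 / rootD e 0)
    (hn : algebraMap ℚ_[p] (PadicAlgCl p) n = bform (rootD e) w w) (hn0 : n ≠ 0) :
    conicSym π c e = hilb n a := by
  have h := isOrth_root he hprod hπ h0 hτ0 hτ hw hw0 ha hn hn0
  have ha0 : a ≠ 0 := h.ne 0
  rw [conicSym_eq hπ h]
  simp only [Matrix.cons_val_zero, Matrix.cons_val_one, Matrix.cons_val]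
  rw [show -(a * -(n / a)) = n by field_simp, show -(n * -(n / a)) = n / a * (n / a) * a by
    field_simp, hilb_comm n, hilb_sq_mul_left ha0 (div_ne_zero hn0 ha0), hilb_comm]

theorem exists_algebraMap_sq {χ : (PadicAlgCl p ≃ₐ[ℚ_[p]] PadicAlgCl p) → ℤˣ} {τ : (PadicAlgCl p)} (hτ : ∀ g, ((χ g : ℤ) : (PadicAlgCl p)) * g τ = τ) :
    ∃ D : ℚ_[p], algebraMap ℚ_[p] (PadicAlgCl p) D = τ ^ 2 := by
  haveI := isGalois_padicAlgCl (p := p)
  refine IntermediateField.mem_bot.mp ((InfiniteGalois.mem_bot_iff_fixed _).mpr fun g => ?_)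
  conv_rhs => rw [← hτ g, mul_pow, sq, units_cast_sq, one_mul, ← map_pow]

/-- A square root realising a sign character. -/
theorem exists_signRoot {χ : (PadicAlgCl p ≃ₐ[ℚ_[p]] PadicAlgCl p) → ℤˣ} (hχ : ∀ g h, χ (g * h) = χ g * χ h) (hl : HasLevel χ) :
    ∃ τ : (PadicAlgCl p), τ ≠ 0 ∧ ∀ g, ((χ g : ℤ) : (PadicAlgCl p)) * g τ = τ := by
  haveI := isGalois_padicAlgCl (p := p)
  have hspan := span_isFixed (π := (1 : (PadicAlgCl p ≃ₐ[ℚ_[p]] PadicAlgCl p) →* Equiv.Perm (Fin 1))) (c := fun g _ => χ g)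
    (fun g h i => hχ g h) (hl.comp fun u _ => u)
    ⟨⊥, inferInstance, fun g s _ => rfl⟩
  by_contra hcon
  push Not at hcon
  have hz : ∀ t : Fin 1 → (PadicAlgCl p), IsFixed (1 : (PadicAlgCl p ≃ₐ[ℚ_[p]] PadicAlgCl p) →* Equiv.Perm (Fin 1)) (fun g _ => χ g) t →
      t 0 = 0 := fun t ht => by
    by_contra hne
    obtain ⟨g, hg⟩ := hcon (t 0) hne
    exact hg (by simpa [act] using congrFun (ht g) 0)
  have h1 : LinearMap.proj (R := (PadicAlgCl p)) (φ := fun _ : Fin 1 => (PadicAlgCl p)) 0 = 0 :=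
    LinearMap.ext_on hspan fun t ht => hz t ht
  exact one_ne_zero (LinearMap.congr_fun h1 1)

/-- **The sum over two classes and their product, one of line type.** -/
theorem conicSym_triple_zero (he : Function.Injective e) (hπ : ∀ (g : (PadicAlgCl p ≃ₐ[ℚ_[p]] PadicAlgCl p)) i, g (e i) = e (π g i))
    (h0 : ∀ g, π g 0 = 0) (hx : IsTwist π x) (hx1 : ∀ g, ∏ i, x g i = 1) (hxl : HasLevel x)
    (hy : IsTwist π y) (hy1 : ∀ g, ∏ i, y g i = 1) (hyl : HasLevel y) (hy0 : ∀ g, y g 0 = 1) :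
    ∃ (τ δ : (PadicAlgCl p)) (D d : ℚ_[p]), D ≠ 0 ∧ d ≠ 0 ∧
      τ ^ 2 = algebraMap ℚ_[p] (PadicAlgCl p) D ∧ (∀ g, ((x g 0 : ℤ) : (PadicAlgCl p)) * g τ = τ) ∧
      δ ^ 2 = algebraMap ℚ_[p] (PadicAlgCl p) d ∧ (∀ g, ((y g 1 : ℤ) : (PadicAlgCl p)) * g δ = δ) ∧
      conicSym π x e + conicSym π y e + conicSym π (x * y) e = hilb d D := by
  haveI := isGalois_padicAlgCl (p := p)
  have hπl := hasLevel_perm he hπ
  have r0 := rootD_ne_zero he 0
  have hy12 : ∀ g, y g 1 = y g 2 := fun g => by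
    have h := hy1 g
    rw [Fin.prod_univ_three, hy0, one_mul] at h
    exact eq_comm.mp ((mul_left_cancel (a := y g 1) (by rw [h, Int.units_mul_self]) : y g 2 = y g 1))
  obtain ⟨P, hP⟩ : ∃ P : ℚ_[p], algebraMap ℚ_[p] (PadicAlgCl p) P = (rootD e 0)⁻¹ :=
    IntermediateField.mem_bot.mp ((InfiniteGalois.mem_bot_iff_fixed _).mpr fun g => by
      rw [map_inv₀, map_rootD hπ, h0])
  have hP0 : P ≠ 0 := fun h => by rw [h, map_zero, eq_comm, inv_eq_zero] at hP; exact r0 hP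
  -- the data of `x`
  obtain ⟨τ, hτ0, hτ⟩ := exists_root_scalar hx hxl hπl h0
  obtain ⟨D, hD⟩ := exists_algebraMap_sq hτ
  have hD0 : D ≠ 0 := fun h => by
    rw [h, map_zero, eq_comm, pow_eq_zero_iff two_ne_zero] at hD; exact hτ0 hD
  have ha : algebraMap ℚ_[p] (PadicAlgCl p) (D * P) = τ ^ 2 / rootD e 0 := by
    rw [map_mul, hD, hP, div_eq_mul_inv]
  have horth : IsOrth π x (rootD e) ![![τ, 0, 0]] ![D * P] := by
    refine ⟨fun i => ?_, fun i => ?_, fun i => ?_, fun i j h => ?_⟩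
    · fin_cases i; exact isFixed_vec h0 hτ
    · fin_cases i; exact mul_ne_zero hD0 hP0
    · fin_cases i
      simp [bform, Fin.sum_univ_three, hD, hP, sq, div_eq_mul_inv]
    · exact absurd (Subsingleton.elim i j) h
  obtain ⟨w, n, hw, hn0, hn, hperp⟩ := horth.exists_next (by norm_num) (map_rootD hπ)
    (rootD_ne_zero he) hx hxl hπl (by simp)
  have hw0 : w 0 = 0 := by
    have h := hperp 0
    simpa [bform, Fin.sum_univ_three, hτ0, r0] using h
  -- the data of `y`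
  obtain ⟨δ, hδ0, hδ⟩ := exists_signRoot (χ := fun g => y g 1) (fun g h => by
      rw [hy g h 1]
      rcases perm_cases (h0 g) with ⟨-, -, -, q1, -⟩ | ⟨-, -, -, q1, -⟩ <;> rw [q1]
      rw [← hy12 h]) (hyl.comp fun v => v 1)
  obtain ⟨d, hd⟩ := exists_algebraMap_sq hδ
  have hd0 : d ≠ 0 := fun h => by
    rw [h, map_zero, eq_comm, pow_eq_zero_iff two_ne_zero] at hd; exact hδ0 hd
  have hv : IsFixed π y ![0, δ, δ] := fun g => funext fun i => by
    rcases perm_cases (h0 g) with ⟨-, -, q0, q1, q2⟩ | ⟨-, -, q0, q1, q2⟩ <;> fin_cases i <;>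
      simp [act, q0, q1, q2, hδ g, ← hy12 g]
  have sx : conicSym π x e = hilb n (D * P) :=
    conicSym_root he hx1 hπ h0 hτ0 hτ hw hw0 ha hn.symm hn0
  have hone : algebraMap ℚ_[p] (PadicAlgCl p) P = (1 : (PadicAlgCl p)) ^ 2 / rootD e 0 := by rw [hP, one_pow, one_div]
  have hval : algebraMap ℚ_[p] (PadicAlgCl p) (-(d * P)) = bform (rootD e) ![0, δ, δ] ![0, δ, δ] := by
    have hs := sum_inv_rootD he
    rw [Fin.sum_univ_three] at hs
    rw [map_neg, map_mul, hd, hP]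
    simp [bform, Fin.sum_univ_three, div_eq_mul_inv]
    linear_combination -(δ * δ) * hs
  have sy : conicSym π y e = hilb (-(d * P)) P :=
    conicSym_root he hy1 hπ h0 one_ne_zero (fun g => by simp [hy0]) hv (by simp) hone hval
      (neg_ne_zero.mpr (mul_ne_zero hd0 hP0))
  have hxy : IsFixed π (x * y) (δ • w) := fun g => funext fun i => by
    have h := congrFun (hw g) i
    have hi : i = 0 ∨ y g i = y g 1 := by
      fin_cases i
      · exact .inl rfl
      · exact .inr rfl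
      · exact .inr (hy12 g).symm
    rcases hi with rfl | hi
    · rcases perm_cases (h0 g) with ⟨-, -, q0, -, -⟩ | ⟨-, -, q0, -, -⟩ <;>
        simp [act, q0, hw0]
    · simp only [act, Pi.mul_apply, Units.val_mul, Int.cast_mul, Pi.smul_apply, smul_eq_mul,
        map_mul, hi] at h ⊢
      calc _ = (((y g 1 : ℤ) : (PadicAlgCl p)) * g δ) * (((x g i : ℤ) : (PadicAlgCl p)) * g (w ((π g)⁻¹ i))) := by ring
        _ = δ * w i := by rw [hδ g, h]
  have sxy : conicSym π (x * y) e = hilb (d * n) (D * P) := by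
    refine conicSym_root he (fun g => by simp [Finset.prod_mul_distrib, hx1, hy1]) hπ h0 hτ0
      (fun g => by simpa [hy0] using hτ g) hxy (by simp [hw0]) ha ?_ (mul_ne_zero hd0 hn0)
    rw [map_mul, hd, ← hn, bform_smul_left, bform_comm w (δ • w), bform_smul_left, sq, mul_assoc]
  refine ⟨τ, δ, D, d, hD0, hd0, hD.symm, hτ, hd.symm, hδ, ?_⟩
  rw [sx, sy, sxy, hilb_mul_left hd0 hn0, hilb_mul_right hD0 hP0 (a := d),
    show -(d * P) = d * -P by ring, hilb_mul_left hd0 (neg_ne_zero.mpr hP0), hilb_comm (-P),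
    hilb_neg_self hP0, hilb_mul_right hD0 hP0]
  generalize hilb n D = z1, hilb n P = z2, hilb d D = z3, hilb d P = z4
  revert z1 z2 z3 z4
  decide

end Fermat.Agent.Residual.Conic
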