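/-
The product formula for the Hilbert symbols of `ℚ`, deduced from quadratic reciprocity.
-/
import Fermat.Agent.Residual.ConicHilbert
import Mathlib.NumberTheory.LegendreSymbol.QuadraticReciprocity
import Mathlib.NumberTheory.Padics.PadicVal.Basic
import Mathlib.Tactic

set_option autoImplicit false

namespace Fermat.Agent.Residual.Conic

/-- The Hilbert symbol at `p` of two rationals (zero when `p` is not prime). -/
noncomputable def hilbAt (p : ℕ) (a b : ℚ) : ZMod 2 :=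
  if h : p.Prime then (haveI := Fact.mk h; hilb (a : ℚ_[p]) (b : ℚ_[p])) else 0

theorem hilbAt_eq (p : ℕ) [Fact p.Prime] (a b : ℚ) :
    hilbAt p a b = hilb (a : ℚ_[p]) (b : ℚ_[p]) := by
  rw [hilbAt, dif_pos (Fact.out : p.Prime)]

/-- The symbol at the real place. -/
def hilbInf (a b : ℚ) : ZMod 2 := if a < 0 ∧ b < 0 then 1 else 0

theorem hilb_eq_zero_of_units {p : ℕ} [Fact p.Prime] (hp : p ≠ 2) {a b : ℚ_[p]}
    (ha : a.valuation = 0) (hb : b.valuation = 0) : hilb a b = 0 := by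
  simp [hilb, hp, valPar, ha, hb]

/-! ### Local values on the generators -/

section localValues

variable {p : ℕ} [Fact p.Prime]

theorem isUnit_natCast_of_not_dvd {n : ℕ} (h : ¬ p ∣ n) : IsUnit (n : ℤ_[p]) := by
  rw [PadicInt.isUnit_iff]
  refine le_antisymm (PadicInt.norm_le_one _) (not_lt.mp fun hlt => h ?_)
  have := (PadicInt.norm_int_lt_one_iff_dvd (n : ℤ)).mp (by exact_mod_cast hlt)
  exact_mod_cast this

theorem valPar_natCast {n : ℕ} (h : ¬ p ∣ n) : valPar (n : ℚ_[p]) = 0 := by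
  rw [← PadicInt.coe_natCast, valPar_coe (isUnit_natCast_of_not_dvd h)]

theorem unitPart_natCast {n : ℕ} (h : ¬ p ∣ n) : unitPart (n : ℚ_[p]) = n := by
  rw [← PadicInt.coe_natCast, unitPart_coe (isUnit_natCast_of_not_dvd h)]

theorem valPar_neg_one : valPar (-1 : ℚ_[p]) = 0 := by
  rw [show (-1 : ℚ_[p]) = ((-1 : ℤ_[p]) : ℚ_[p]) by simp, valPar_coe isUnit_one.neg]

theorem unitPart_neg_one : unitPart (-1 : ℚ_[p]) = -1 := by
  rw [show (-1 : ℚ_[p]) = ((-1 : ℤ_[p]) : ℚ_[p]) by simp, unitPart_coe isUnit_one.neg]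

theorem valPar_self : valPar (p : ℚ_[p]) = 1 := by
  simp [valPar]

theorem unitPart_self : unitPart (p : ℚ_[p]) = 1 := by
  refine PadicInt.ext ?_
  rw [coe_unitPart natCast_p_ne_zero, Padic.valuation_p, zpow_neg, zpow_one, PadicInt.coe_one,
    mul_inv_cancel₀ natCast_p_ne_zero]

theorem resPar_one : resPar (1 : ℤ_[p]) = 0 := by
  classical
  rw [resPar, if_pos]
  rw [map_one]
  exact IsSquare.one

open Classical in
theorem resPar_natCast (n : ℕ) :
    resPar (n : ℤ_[p]) = if IsSquare (n : ZMod p) then 0 else 1 := by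
  unfold resPar
  rw [map_natCast]

/-- At an odd prime `p`, the pair `(p, u)`. -/
theorem hilbAt_self_natCast (hp : p ≠ 2) {n : ℕ} (h : ¬ p ∣ n) :
    hilbAt p p n = resPar (n : ℤ_[p]) := by
  rw [hilbAt_eq, Rat.cast_natCast, Rat.cast_natCast]
  simp [hilb, hp, valPar_natCast h, unitPart_natCast h, valPar_self]

theorem hilbAt_self_neg_one (hp : p ≠ 2) : hilbAt p p (-1) = ((p / 2 : ℕ) : ZMod 2) := by
  rw [hilbAt_eq, Rat.cast_natCast, Rat.cast_neg, Rat.cast_one]
  simp [hilb, hp, valPar_neg_one, unitPart_neg_one, valPar_self, resPar_neg_one hp]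

theorem hilbAt_natCast_natCast (hp : p ≠ 2) {m n : ℕ} (hm : ¬ p ∣ m) (hn : ¬ p ∣ n) :
    hilbAt p m n = 0 := by
  rw [hilbAt_eq, Rat.cast_natCast, Rat.cast_natCast]
  simp [hilb, hp, valPar_natCast hm, valPar_natCast hn]

theorem hilbAt_natCast_neg_one (hp : p ≠ 2) {m : ℕ} (hm : ¬ p ∣ m) :
    hilbAt p m (-1) = 0 := by
  rw [hilbAt_eq, Rat.cast_natCast, Rat.cast_neg, Rat.cast_one]
  simp [hilb, hp, valPar_natCast hm, valPar_neg_one]

theorem hilbAt_neg_one_neg_one (hp : p ≠ 2) : hilbAt p (-1) (-1) = 0 := by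
  rw [hilbAt_eq, Rat.cast_neg, Rat.cast_one]
  simp [hilb, hp, valPar_neg_one]

end localValues

/-! ### Values at two -/

theorem hilbAt_two_odd {m n : ℕ} (hm : ¬ 2 ∣ m) (hn : ¬ 2 ∣ n) :
    hilbAt 2 m n = ((m / 2 : ℕ) : ZMod 2) * ((n / 2 : ℕ) : ZMod 2) := by
  rw [hilbAt_eq, Rat.cast_natCast, Rat.cast_natCast]
  have key : ∀ k : ℕ, ¬ 2 ∣ k → epsTwo (k : ZMod 8) = ((k / 2 : ℕ) : ZMod 2) := fun k hk => by
    rw [← ZMod.natCast_mod k 8, ← ZMod.natCast_mod (k / 2) 2,
      show k / 2 % 2 = k % 8 / 2 % 2 by omega]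
    have hk8 : k % 8 = 1 ∨ k % 8 = 3 ∨ k % 8 = 5 ∨ k % 8 = 7 := by omega
    rcases hk8 with h | h | h | h <;> rw [h] <;> decide
  simp [hilb, valPar_natCast hm, valPar_natCast hn, unitPart_natCast hm, unitPart_natCast hn,
    res8_natCast, key m hm, key n hn]

theorem hilbAt_two_two_odd {n : ℕ} (hn : ¬ 2 ∣ n) :
    hilbAt 2 (2 : ℕ) n = omTwo (n : ZMod 8) := by
  rw [hilbAt_eq, Rat.cast_natCast, Rat.cast_natCast]
  simp only [hilb, if_true, valPar_natCast hn, unitPart_natCast hn, valPar_self, unitPart_self]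
  rw [res8_natCast rfl, res8_one rfl, show epsTwo (1 : ZMod 8) = 0 from by decide]
  simp

theorem hilbAt_two_odd_neg_one {m : ℕ} (hm : ¬ 2 ∣ m) :
    hilbAt 2 m (-1) = ((m / 2 : ℕ) : ZMod 2) := by
  rw [hilbAt_eq, Rat.cast_natCast, Rat.cast_neg, Rat.cast_one]
  simp only [hilb, if_true, valPar_natCast hm, valPar_neg_one, unitPart_natCast hm,
    unitPart_neg_one]
  rw [res8_natCast rfl, res8_neg rfl, res8_one rfl,
    show epsTwo (-1 : ZMod 8) = 1 from by decide]
  rw [← ZMod.natCast_mod m 8, ← ZMod.natCast_mod (m / 2) 2,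
    show m / 2 % 2 = m % 8 / 2 % 2 by omega]
  have hk8 : m % 8 = 1 ∨ m % 8 = 3 ∨ m % 8 = 5 ∨ m % 8 = 7 := by omega
  rcases hk8 with h | h | h | h <;> rw [h] <;> decide

theorem hilbAt_two_two_neg_one : hilbAt 2 (2 : ℕ) (-1) = 0 := by
  rw [hilbAt_eq, Rat.cast_natCast, Rat.cast_neg, Rat.cast_one]
  simp only [hilb, if_true, valPar_neg_one, valPar_self, unitPart_self, unitPart_neg_one]
  rw [res8_neg rfl, res8_one rfl]
  decide

theorem hilbAt_two_neg_one_neg_one : hilbAt 2 (-1) (-1) = 1 := by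
  rw [hilbAt_eq, Rat.cast_neg, Rat.cast_one]
  simp only [hilb, if_true, valPar_neg_one, unitPart_neg_one]
  rw [res8_neg rfl, res8_one rfl]
  decide

/-! ### Bimultiplicativity of the sum of all symbols -/

theorem hilbAt_comm (p : ℕ) (a b : ℚ) : hilbAt p a b = hilbAt p b a := by
  unfold hilbAt
  split
  · next h => have := Fact.mk h; exact hilb_comm _ _
  · rfl

theorem hilbAt_mul_left (p : ℕ) {a a' b : ℚ} (ha : a ≠ 0) (ha' : a' ≠ 0) :
    hilbAt p (a * a') b = hilbAt p a b + hilbAt p a' b := by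
  unfold hilbAt
  split
  · next h =>
    have := Fact.mk h
    rw [Rat.cast_mul, hilb_mul_left (by exact_mod_cast ha) (by exact_mod_cast ha')]
  · rw [add_zero]

theorem hilbInf_comm (a b : ℚ) : hilbInf a b = hilbInf b a := by
  simp [hilbInf, and_comm]

theorem hilbInf_mul_left {a a' b : ℚ} (ha : a ≠ 0) (ha' : a' ≠ 0) :
    hilbInf (a * a') b = hilbInf a b + hilbInf a' b := by
  unfold hilbInf
  by_cases hb : b < 0
  · rcases lt_or_gt_of_ne ha with h | h <;> rcases lt_or_gt_of_ne ha' with h' | h' <;>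
      simp [mul_neg_iff, h, h', hb, not_lt.mpr h.le, not_lt.mpr h'.le, CharTwo.add_self_eq_zero]
  · simp [hb]

/-- The sum of all symbols over `S` and the real place. -/
noncomputable def hilbSum (S : Finset ℕ) (a b : ℚ) : ZMod 2 :=
  (∑ p ∈ S, hilbAt p a b) + hilbInf a b

theorem hilbSum_comm (S : Finset ℕ) (a b : ℚ) : hilbSum S a b = hilbSum S b a := by
  unfold hilbSum
  rw [hilbInf_comm, Finset.sum_congr rfl fun p _ => hilbAt_comm p a b]

theorem hilbSum_mul_left (S : Finset ℕ) {a a' b : ℚ} (ha : a ≠ 0) (ha' : a' ≠ 0) :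
    hilbSum S (a * a') b = hilbSum S a b + hilbSum S a' b := by
  unfold hilbSum
  rw [hilbInf_mul_left ha ha', Finset.sum_congr rfl fun p _ => hilbAt_mul_left p ha ha',
    Finset.sum_add_distrib]
  ring

theorem hilbSum_sq_left (S : Finset ℕ) {c b : ℚ} (hc : c ≠ 0) : hilbSum S (c * c) b = 0 := by
  rw [hilbSum_mul_left S hc hc, CharTwo.add_self_eq_zero]

/-- Induction over the rationals supported on `S`, up to squares. -/
theorem sUnit_induction {S : Finset ℕ} {motive : ℚ → Prop} (hneg : motive (-1))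
    (hgen : ∀ l ∈ S, motive (l : ℚ))
    (hmul : ∀ a b : ℚ, a ≠ 0 → b ≠ 0 → motive a → motive b → motive (a * b))
    (hsq : ∀ c : ℚ, c ≠ 0 → motive (c * c))
    {a : ℚ} (ha : a ≠ 0) (hunit : ∀ p, p.Prime → p ∉ S → padicValRat p a = 0) : motive a := by
  have hnat : ∀ n : ℕ, n ≠ 0 → (∀ q, q.Prime → q ∣ n → q ∈ S) → motive (n : ℚ) := by
    intro n
    induction n using induction_on_primes with
    | zero => intro h; exact absurd rfl h
    | one => intro _ _; simpa using hsq 1 one_ne_zero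
    | prime_mul q m hq ih =>
      intro h0 h
      have hm : m ≠ 0 := fun hm => h0 (by rw [hm, mul_zero])
      rw [Nat.cast_mul]
      exact hmul _ _ (by exact_mod_cast hq.ne_zero) (by exact_mod_cast hm)
        (hgen q (h q hq (dvd_mul_right q m)))
        (ih hm fun r hr hrm => h r hr (dvd_mul_of_dvd_right hrm q))
  have hn0 : a.num.natAbs ≠ 0 := Int.natAbs_ne_zero.mpr (Rat.num_ne_zero.mpr ha)
  have hnum : motive ((a.num.natAbs : ℕ) : ℚ) := by
    refine hnat _ hn0 fun q hq hdvd => ?_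
    by_contra hS
    have hd : ¬ q ∣ a.den := fun hd =>
      hq.not_dvd_one (a.reduced.gcd_eq_one ▸ Nat.dvd_gcd hdvd hd)
    have := Fact.mk hq
    have h := hunit q hq hS
    rw [padicValRat_def, padicValNat.eq_zero_of_not_dvd hd, padicValInt] at h
    have := one_le_padicValNat_of_dvd hn0 hdvd
    omega
  have hden : motive ((a.den : ℕ) : ℚ) := by
    refine hnat _ a.den_ne_zero fun q hq hdvd => ?_
    by_contra hS
    have hd : ¬ q ∣ a.num.natAbs := fun hd =>
      hq.not_dvd_one (a.reduced.gcd_eq_one ▸ Nat.dvd_gcd hd hdvd)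
    have := Fact.mk hq
    have h := hunit q hq hS
    rw [padicValRat_def, padicValInt, padicValNat.eq_zero_of_not_dvd hd] at h
    have := one_le_padicValNat_of_dvd a.den_ne_zero hdvd
    omega
  have hd0 : ((a.den : ℕ) : ℚ) ≠ 0 := by exact_mod_cast a.den_ne_zero
  have hn0' : ((a.num.natAbs : ℕ) : ℚ) ≠ 0 := by exact_mod_cast hn0
  have hnum' : motive (a.num : ℚ) := by
    rcases Int.natAbs_eq a.num with h | h
    · rw [h, Int.cast_natCast]; exact hnum
    · rw [h, Int.cast_neg, Int.cast_natCast, ← neg_one_mul]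
      exact hmul _ _ (by norm_num) hn0' hneg hnum
  have hN : (a.num : ℚ) ≠ 0 := by exact_mod_cast Rat.num_ne_zero.mpr ha
  have := hmul _ _ (mul_ne_zero hN hd0)
    (mul_ne_zero (inv_ne_zero hd0) (inv_ne_zero hd0)) (hmul _ _ hN hd0 hnum' hden)
    (hsq _ (inv_ne_zero hd0))
  rwa [show (a.num : ℚ) * (a.den : ℚ) * ((a.den : ℚ)⁻¹ * (a.den : ℚ)⁻¹) = a by
    conv_rhs => rw [← Rat.num_div_den a]
    field_simp] at this

section generators

variable {S : Finset ℕ} (hS : ∀ p ∈ S, p.Prime) (h2 : 2 ∈ S)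

include hS h2

theorem hilbSum_neg_one_neg_one : hilbSum S (-1) (-1) = 0 := by
  unfold hilbSum
  rw [Finset.sum_eq_single_of_mem 2 h2 fun p hp hp2 => by
      have := Fact.mk (hS p hp); exact hilbAt_neg_one_neg_one hp2,
    hilbAt_two_neg_one_neg_one]
  norm_num [hilbInf]
  decide

theorem hilbSum_prime_neg_one {l : ℕ} (hl : l ∈ S) : hilbSum S (l : ℚ) (-1) = 0 := by
  unfold hilbSum
  have hinf : hilbInf (l : ℚ) (-1) = 0 := by simp [hilbInf]
  rw [hinf, add_zero]
  have hnd : ∀ p ∈ S, p ≠ l → ¬ p ∣ l := fun p hp hne h =>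
    hne ((Nat.prime_dvd_prime_iff_eq (hS p hp) (hS l hl)).mp h)
  by_cases hl2 : l = 2
  · subst hl2
    rw [Finset.sum_eq_single_of_mem 2 h2 fun p hp hp2 => by
      have := Fact.mk (hS p hp); exact hilbAt_natCast_neg_one hp2 (hnd p hp hp2)]
    exact hilbAt_two_two_neg_one
  · have := Fact.mk (hS l hl)
    rw [Finset.sum_eq_add_of_mem l 2 hl h2 hl2 fun p hp hne => by
      have := Fact.mk (hS p hp); exact hilbAt_natCast_neg_one hne.2 (hnd p hp hne.1),
      hilbAt_self_neg_one hl2, hilbAt_two_odd_neg_one (hnd 2 h2 (Ne.symm hl2)),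
      CharTwo.add_self_eq_zero]

theorem hilbSum_two_odd {l : ℕ} (hl : l ∈ S) (hl2 : l ≠ 2) :
    hilbSum S (2 : ℕ) (l : ℚ) = 0 := by
  unfold hilbSum
  have hinf : hilbInf ((2 : ℕ) : ℚ) (l : ℚ) = 0 := by simp [hilbInf]
  rw [hinf, add_zero]
  have hnd : ∀ p ∈ S, ∀ q ∈ S, p ≠ q → ¬ p ∣ q := fun p hp q hq hne h =>
    hne ((Nat.prime_dvd_prime_iff_eq (hS p hp) (hS q hq)).mp h)
  have := Fact.mk (hS l hl)
  rw [Finset.sum_eq_add_of_mem l 2 hl h2 hl2 fun p hp hne => by
    have := Fact.mk (hS p hp)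
    exact hilbAt_natCast_natCast hne.2 (hnd p hp 2 h2 hne.2) (hnd p hp l hl hne.1)]
  rw [hilbAt_comm l, hilbAt_self_natCast hl2 (hnd l hl 2 h2 hl2),
    hilbAt_two_two_odd (hnd 2 h2 l hl (Ne.symm hl2)), resPar_natCast, ← ZMod.natCast_mod l 8]
  have hodd := (hS l hl).eq_two_or_odd.resolve_left hl2
  have hk8 : l % 8 = 1 ∨ l % 8 = 3 ∨ l % 8 = 5 ∨ l % 8 = 7 := by omega
  by_cases hsq : IsSquare ((2 : ℕ) : ZMod l)
  · rw [if_pos hsq, zero_add]
    have h' := (ZMod.exists_sq_eq_two_iff hl2).mp (by simpa using hsq)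
    rcases hk8 with h | h | h | h <;> rw [h] at h' ⊢ <;> first | omega | decide
  · rw [if_neg hsq]
    have h' := mt (ZMod.exists_sq_eq_two_iff hl2).mpr (by simpa using hsq)
    rcases hk8 with h | h | h | h <;> rw [h] at h' ⊢ <;> first | omega | decide

theorem hilbSum_odd_odd {l m : ℕ} (hl : l ∈ S) (hm : m ∈ S) (hl2 : l ≠ 2) (hm2 : m ≠ 2)
    (hlm : l ≠ m) : hilbSum S (l : ℚ) (m : ℚ) = 0 := by
  unfold hilbSum
  have hinf : hilbInf (l : ℚ) (m : ℚ) = 0 := by simp [hilbInf]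
  rw [hinf, add_zero]
  have hnd : ∀ p ∈ S, ∀ q ∈ S, p ≠ q → ¬ p ∣ q := fun p hp q hq hne h =>
    hne ((Nat.prime_dvd_prime_iff_eq (hS p hp) (hS q hq)).mp h)
  have := Fact.mk (hS l hl)
  have := Fact.mk (hS m hm)
  have hsub : ({2, l, m} : Finset ℕ) ⊆ S := by
    intro x hx
    simp only [Finset.mem_insert, Finset.mem_singleton] at hx
    rcases hx with rfl | rfl | rfl <;> assumption
  rw [← Finset.sum_subset hsub fun p hp hpn => by
    simp only [Finset.mem_insert, Finset.mem_singleton, not_or] at hpn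
    have := Fact.mk (hS p hp)
    exact hilbAt_natCast_natCast hpn.1 (hnd p hp l hl hpn.2.1) (hnd p hp m hm hpn.2.2)]
  rw [Finset.sum_insert (by simp [Ne.symm hl2, Ne.symm hm2]),
    Finset.sum_insert (by simp [hlm]), Finset.sum_singleton,
    hilbAt_two_odd (hnd 2 h2 l hl (Ne.symm hl2)) (hnd 2 h2 m hm (Ne.symm hm2)),
    hilbAt_self_natCast hl2 (hnd l hl m hm hlm), hilbAt_comm m,
    hilbAt_self_natCast hm2 (hnd m hm l hl (Ne.symm hlm)), resPar_natCast, resPar_natCast,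
    ← ZMod.natCast_mod (l / 2) 2, ← ZMod.natCast_mod (m / 2) 2]
  have ol := (hS l hl).eq_two_or_odd.resolve_left hl2
  have om := (hS m hm).eq_two_or_odd.resolve_left hm2
  have cl : (l % 4 = 1 ∧ l / 2 % 2 = 0) ∨ (l % 4 = 3 ∧ l / 2 % 2 = 1) := by omega
  have cm : (m % 4 = 1 ∧ m / 2 % 2 = 0) ∨ (m % 4 = 3 ∧ m / 2 % 2 = 1) := by omega
  rcases cl with ⟨l4, e1⟩ | ⟨l4, e1⟩
  · rw [e1]
    have := ZMod.exists_sq_eq_prime_iff_of_mod_four_eq_one (p := l) (q := m) l4 hm2
    by_cases hsq : IsSquare ((m : ℕ) : ZMod l)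
    · simp [hsq, this.mp hsq]
    · simp [hsq, mt this.mpr hsq, CharTwo.add_self_eq_zero]
  · rcases cm with ⟨m4, e2⟩ | ⟨m4, e2⟩
    · rw [e2]
      have := ZMod.exists_sq_eq_prime_iff_of_mod_four_eq_one (p := m) (q := l) m4 hl2
      by_cases hsq : IsSquare ((l : ℕ) : ZMod m)
      · simp [hsq, this.mp hsq]
      · simp [hsq, mt this.mpr hsq, CharTwo.add_self_eq_zero]
    · rw [e1, e2]
      have := ZMod.exists_sq_eq_prime_iff_of_mod_four_eq_three (p := l) (q := m) l4 m4 hlm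
      by_cases hsq : IsSquare ((m : ℕ) : ZMod l)
      · simp [hsq, this.mp hsq, CharTwo.add_self_eq_zero]
      · have h2' : IsSquare ((l : ℕ) : ZMod m) := by
          by_contra hn; exact hsq (this.mpr hn)
        simp [hsq, h2', CharTwo.add_self_eq_zero]

theorem hilbSum_prime_prime {l m : ℕ} (hl : l ∈ S) (hm : m ∈ S) :
    hilbSum S (l : ℚ) (m : ℚ) = 0 := by
  by_cases hlm : l = m
  · subst hlm
    have hl0 : (l : ℚ) ≠ 0 := by exact_mod_cast (hS l hl).ne_zero
    have hpos : (0 : ℚ) < l := by exact_mod_cast (hS l hl).pos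
    -- `(l, -l) = 0` everywhere
    have hneg : hilbSum S (l : ℚ) (-l : ℚ) = 0 := by
      unfold hilbSum
      rw [Finset.sum_eq_zero fun p hp => ?_]
      · simp [hilbInf, hpos.le]
      · have := Fact.mk (hS p hp)
        rw [hilbAt_eq, Rat.cast_neg]
        exact hilb_neg_self (by exact_mod_cast hl0)
    rw [hilbSum_comm, ← neg_one_mul (l : ℚ), hilbSum_mul_left S (by norm_num) hl0,
      hilbSum_comm S (-1), hilbSum_prime_neg_one hS h2 hl, zero_add] at hneg
    exact hneg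
  · by_cases hl2 : l = 2
    · subst hl2; exact hilbSum_two_odd hS h2 hm (Ne.symm hlm)
    · by_cases hm2 : m = 2
      · subst hm2; rw [hilbSum_comm]; exact hilbSum_two_odd hS h2 hl hlm
      · exact hilbSum_odd_odd hS h2 hl hm hl2 hm2 hlm

end generators

/-- **Product formula.** -/
theorem hilb_product (a b : ℚ) (ha : a ≠ 0) (hb : b ≠ 0) (S : Finset ℕ) (hS : ∀ p ∈ S, p.Prime)
    (h2 : 2 ∈ S)
    (hunit : ∀ p, p.Prime → p ∉ S → padicValRat p a = 0 ∧ padicValRat p b = 0) :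
    (∑ p ∈ S, hilbAt p a b) + hilbInf a b = 0 := by
  -- extend from the generators in the first variable, then in the second
  have step : ∀ y : ℚ, hilbSum S (-1) y = 0 → (∀ l ∈ S, hilbSum S (l : ℚ) y = 0) →
      ∀ x : ℚ, x ≠ 0 → (∀ p, p.Prime → p ∉ S → padicValRat p x = 0) → hilbSum S x y = 0 := by
    intro y h1 hl x hx hu
    refine sUnit_induction (motive := fun t => hilbSum S t y = 0) h1 hl ?_
      (fun c hc => hilbSum_sq_left S hc) hx hu
    intro s t hs ht e1 e2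
    rw [hilbSum_mul_left S hs ht, e1, e2, add_zero]
  have hb' : ∀ p, p.Prime → p ∉ S → padicValRat p b = 0 := fun p hp hpS => (hunit p hp hpS).2
  refine step b ?_ ?_ a ha fun p hp hpS => (hunit p hp hpS).1
  · rw [hilbSum_comm]
    exact step (-1) (hilbSum_neg_one_neg_one hS h2)
      (fun l hl => hilbSum_prime_neg_one hS h2 hl) b hb hb'
  · intro l hl
    rw [hilbSum_comm]
    refine step (l : ℚ) ?_ (fun m hm => hilbSum_prime_prime hS h2 hm hl) b hb hb'
    rw [hilbSum_comm]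
    exact hilbSum_prime_neg_one hS h2 hl

end Fermat.Agent.Residual.Conic
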