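/-
The conic of a global class: diagonal form over `ℚ`, its restriction to the completions, and the
real place.
-/
import Fermat.Agent.Residual.ConicPadic
import Fermat.Agent.Residual.ConicProduct
import Fermat.Agent.Galois.QbarInstances
import Fermat.Prelude.Def_GaloisRep_CompletionBridge
import Fermat.Prelude.Def_GaloisRep_ComplexConjugation
import Mathlib.Analysis.Complex.Polynomial.Basic
import Mathlib.Analysis.SpecialFunctions.Sqrt
import Mathlib.FieldTheory.Minpoly.Basic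

set_option autoImplicit false

noncomputable section

namespace Fermat.Agent.Residual.Conic

section Transfer

variable {k K k' K' : Type*} [Field k] [Field K] [Algebra k K] [Field k'] [Field K'] [Algebra k' K']
  {ι : K →+* K'} {κ : k →+* k'} {φ : (K' ≃ₐ[k'] K') →* (K ≃ₐ[k] K)}
  {π : (K ≃ₐ[k] K) →* Equiv.Perm (Fin 3)} {c : (K ≃ₐ[k] K) → Fin 3 → ℤˣ}

theorem rootD_map (ι : K →+* K') (e : Fin 3 → K) (i : Fin 3) :
    rootD (ι ∘ e) i = ι (rootD e i) := by
  simp [rootD, map_prod]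

theorem HasLevel.transfer [Algebra.IsAlgebraic k' K']
    (hφ : ∀ g z, ι (φ g z) = g (ι z)) {X : Type*} {f : (K ≃ₐ[k] K) → X} (h : HasLevel f) :
    HasLevel (fun g => f (φ g)) := by
  classical
  obtain ⟨L, hL, hf⟩ := h
  let b := Module.finBasis k L
  let T : Set K' := Set.range fun a => ι (b a : K)
  refine ⟨IntermediateField.adjoin k' T,
    IntermediateField.finiteDimensional_adjoin fun x _ => Algebra.IsIntegral.isIntegral x,
    fun g s hs => ?_⟩
  show f (φ (g * s)) = f (φ g)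
  rw [map_mul]
  refine hf _ _ fun x hx => ?_
  have hb : ∀ a, φ s (b a : K) = (b a : K) := fun a => ι.injective (by
    rw [hφ, hs _ (IntermediateField.subset_adjoin k' T ⟨a, rfl⟩)])
  have h2 : (φ s).toAlgHom.toLinearMap.comp L.val.toLinearMap = L.val.toLinearMap :=
    b.ext fun a => hb a
  exact LinearMap.congr_fun h2 ⟨x, hx⟩

theorem IsOrth.transfer (hκ : ∀ a, ι (algebraMap k K a) = algebraMap k' K' (κ a))
    (hφ : ∀ g z, ι (φ g z) = g (ι z)) {e : Fin 3 → K} {n : ℕ} {u : Fin n → Fin 3 → K}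
    {A : Fin n → k} (h : IsOrth π c (rootD e) u A) :
    IsOrth (π.comp φ) (fun g => c (φ g)) (rootD (ι ∘ e)) (fun a => ι ∘ u a) (κ ∘ A) := by
  have hb : ∀ s t : Fin 3 → K, bform (rootD (ι ∘ e)) (ι ∘ s) (ι ∘ t) = ι (bform (rootD e) s t) :=
    fun s t => by simp [bform, map_sum, rootD_map]
  refine ⟨fun a g => funext fun i => ?_, fun a => ?_, fun a => ?_, fun a b hab => ?_⟩
  · have := congrArg ι (congrFun (h.fixed a (φ g)) i)
    simpa [act, hφ] using this
  · simpa using h.ne a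
  · rw [hb, h.diag, hκ]; rfl
  · rw [hb, h.orth a b hab, map_zero]

/-- A diagonal basis exists. -/
theorem exists_orth_basis [IsGalois k K] (h2 : (2 : K) ≠ 0) {e : Fin 3 → K}
    (he : Function.Injective e) (hπ : ∀ (g : K ≃ₐ[k] K) i, g (e i) = e (π g i)) (hc : IsTwist π c)
    (hcl : HasLevel c) : ∃ u A, IsOrth π c (rootD e) (u : Fin 3 → Fin 3 → K) (A : Fin 3 → k) := by
  have ext : ∀ {n : ℕ} {u : Fin n → Fin 3 → K} {A : Fin n → k}, IsOrth π c (rootD e) u A → n < 3 →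
      ∃ u' A', IsOrth π c (rootD e) (u' : Fin (n + 1) → Fin 3 → K) A' := fun {n u A} h hn => by
    obtain ⟨t, b, ht, hb, htb, hp⟩ := h.exists_next h2 (map_rootD hπ) (rootD_ne_zero he) hc hcl
      (hasLevel_perm he hπ) (by simpa using hn)
    exact ⟨_, _, h.cons ht hb htb hp⟩
  have h0 : IsOrth π c (rootD e) (Fin.elim0 : Fin 0 → Fin 3 → K) (Fin.elim0 : Fin 0 → k) :=
    ⟨fun a => a.elim0, fun a => a.elim0, fun a => a.elim0, fun a => a.elim0⟩
  obtain ⟨u1, A1, h1⟩ := ext h0 (by norm_num)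
  obtain ⟨u2, A2, h2'⟩ := ext h1 (by norm_num)
  exact ext h2' (by norm_num)

end Transfer

variable {e : Fin 3 → AlgebraicClosure ℚ}
  {π : (AlgebraicClosure ℚ ≃ₐ[ℚ] AlgebraicClosure ℚ) →* Equiv.Perm (Fin 3)}
  {c : (AlgebraicClosure ℚ ≃ₐ[ℚ] AlgebraicClosure ℚ) → Fin 3 → ℤˣ}

section Padic

variable (v : ℕ) [Fact v.Prime]

/-- The roots in `PadicAlgCl v`. -/
def localRoots (e : Fin 3 → AlgebraicClosure ℚ) : Fin 3 → PadicAlgCl v :=
  fun i => padicEmbedding v (e i)

theorem localRoots_injective (he : Function.Injective e) : Function.Injective (localRoots v e) :=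
  (padicEmbedding v).toRingHom.injective.comp he

theorem localRoots_perm
    (hπ : ∀ (g : AlgebraicClosure ℚ ≃ₐ[ℚ] AlgebraicClosure ℚ) i, g (e i) = e (π g i))
    (g : PadicAlgCl v ≃ₐ[ℚ_[v]] PadicAlgCl v) (i : Fin 3) :
    g (localRoots v e i) = localRoots v e ((π.comp (localGaloisToGlobal v)) g i) := by
  simp only [localRoots, ← padicEmbedding_localGaloisToGlobal, hπ, MonoidHom.comp_apply]

theorem hasLevel_local {X : Type*}
    {f : (AlgebraicClosure ℚ ≃ₐ[ℚ] AlgebraicClosure ℚ) → X} (h : HasLevel f) :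
    HasLevel (fun g => f (localGaloisToGlobal v g)) := by
  haveI : Algebra.IsAlgebraic ℚ_[v] (PadicAlgCl v) := AlgebraicClosure.isAlgebraic _
  exact h.transfer (ι := (padicEmbedding v).toRingHom) fun g z =>
    padicEmbedding_localGaloisToGlobal v g z

/-- The symbol at `v` is the symbol of the local conic. -/
theorem hilbAt_eq_conicSym
    (hπ : ∀ (g : AlgebraicClosure ℚ ≃ₐ[ℚ] AlgebraicClosure ℚ) i, g (e i) = e (π g i))
    {u : Fin 3 → Fin 3 → AlgebraicClosure ℚ} {A : Fin 3 → ℚ} (h : IsOrth π c (rootD e) u A) :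
    hilbAt v (-(A 0 * A 2)) (-(A 1 * A 2)) =
      conicSym (π.comp (localGaloisToGlobal v)) (fun g => c (localGaloisToGlobal v g))
        (localRoots v e) := by
  have h' := h.transfer (ι := (padicEmbedding v).toRingHom) (κ := Rat.castHom ℚ_[v])
    (fun a => by simp) (fun g z => padicEmbedding_localGaloisToGlobal v g z)
  rw [conicSym_eq (localRoots_perm v hπ) h', hilbAt_eq]
  simp

end Padic

section Real

local instance : Algebra.IsAlgebraic ℚ (AlgebraicClosure ℚ) := AlgebraicClosure.isAlgebraic ℚ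

theorem exists_archimedean :
    ∃ φ : (ℂ ≃ₐ[ℝ] ℂ) →* (AlgebraicClosure ℚ ≃ₐ[ℚ] AlgebraicClosure ℚ),
      (∀ g z, complexEmbedding (φ g z) = g (complexEmbedding z)) ∧
      φ Complex.conjAe = complexConjugation := by
  letI : Algebra (AlgebraicClosure ℚ) ℂ := complexEmbedding.toRingHom.toAlgebra
  haveI : IsScalarTower ℚ (AlgebraicClosure ℚ) ℂ :=
    IsScalarTower.of_algebraMap_eq' (Subsingleton.elim _ _)
  refine ⟨(AlgEquiv.restrictNormalHom (F := ℚ) (K₁ := ℂ) (AlgebraicClosure ℚ)).comp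
    (MonoidHom.mk' (fun τ : ℂ ≃ₐ[ℝ] ℂ => τ.restrictScalars ℚ) (fun _ _ => rfl)), ?_, ?_⟩
  · exact fun g z => AlgEquiv.restrictNormal_commutes (g.restrictScalars ℚ) (AlgebraicClosure ℚ) z
  · refine AlgEquiv.ext fun z => complexEmbedding.toRingHom.injective ?_
    refine (AlgEquiv.restrictNormal_commutes (Complex.conjAe.restrictScalars ℚ)
      (AlgebraicClosure ℚ) z).trans (Eq.trans ?_ (complexEmbedding_complexConjugation z).symm)
    rfl

theorem algEquiv_complex (g : ℂ ≃ₐ[ℝ] ℂ) : g = 1 ∨ g = Complex.conjAe := by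
  rcases Complex.real_algHom_eq_id_or_conj g.toAlgHom with h | h
  · exact .inl (AlgEquiv.ext fun z => DFunLike.congr_fun h z)
  · exact .inr (AlgEquiv.ext fun z => DFunLike.congr_fun h z)

/-- At the real place, with complex conjugation a transposition, the symbol vanishes. -/
theorem hilbInf_eq_zero (he : Function.Injective e)
    (hπ : ∀ (g : AlgebraicClosure ℚ ≃ₐ[ℚ] AlgebraicClosure ℚ) i, g (e i) = e (π g i))
    (hc : IsTwist π c) (hc1 : ∀ g, ∏ i, c g i = 1) (hcl : HasLevel c)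
    (hinf : π complexConjugation ≠ 1) {u : Fin 3 → Fin 3 → AlgebraicClosure ℚ} {A : Fin 3 → ℚ}
    (h : IsOrth π c (rootD e) u A) : hilbInf (-(A 0 * A 2)) (-(A 1 * A 2)) = 0 := by
  classical
  haveI : IsAlgClosure ℝ ℂ := ⟨Complex.isAlgClosed, inferInstance⟩
  haveI : IsGalois ℝ ℂ := IsAlgClosure.isGalois ℝ ℂ
  obtain ⟨φ, hφ, hconj⟩ := exists_archimedean
  have h' := h.transfer (ι := complexEmbedding.toRingHom) (κ := Rat.castHom ℝ)
    (fun a => by simp) (fun g z => hφ g z)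
  have hcl' : HasLevel (fun g => c (φ g)) :=
    hcl.transfer (ι := complexEmbedding.toRingHom) fun g z => hφ g z
  let E : Fin 3 → ℂ := complexEmbedding.toRingHom ∘ e
  have hE : ∀ (g : ℂ ≃ₐ[ℝ] ℂ) i, g (E i) = E ((π.comp φ) g i) := fun g i => by
    show g (complexEmbedding (e i)) = complexEmbedding (e (π (φ g) i))
    rw [← hπ, hφ]
  have hinv : π (φ Complex.conjAe) * π (φ Complex.conjAe) = 1 := by
    rw [hconj, ← map_mul, complexConjugation_mul_self, map_one]
  obtain ⟨i, hi⟩ : ∃ i, π (φ Complex.conjAe) i = i :=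
    (by decide : ∀ σ : Equiv.Perm (Fin 3), σ * σ = 1 → ∃ i, σ i = i) _ hinv
  let σ : Equiv.Perm (Fin 3) := Equiv.swap 0 i
  set π' := relabelPerm σ (π.comp φ) with hπ'def
  set c' := relabelTwist σ (fun g => c (φ g)) with hc'def
  have he' : Function.Injective (E ∘ σ) :=
    ((complexEmbedding.toRingHom.injective).comp he).comp σ.injective
  have hπ' : ∀ (g : ℂ ≃ₐ[ℝ] ℂ) a, g ((E ∘ σ) a) = (E ∘ σ) (π' g a) := fun g a => by
    simp [hπ'def, relabelPerm_apply, hE]
  have hc' : IsTwist π' c' := (hc.comp φ).relabel σ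
  have hc1' : ∀ g, ∏ a, c' g a = 1 := fun g => by
    rw [← hc1 (φ g)]; exact Fintype.prod_equiv σ _ _ fun a => rfl
  have hfix : π' Complex.conjAe 0 = 0 := by
    have hs : σ 0 = i := Equiv.swap_apply_left 0 i
    rw [hπ'def, relabelPerm_apply, MonoidHom.comp_apply, hs, hi, Equiv.Perm.coe_inv,
      Equiv.symm_apply_eq, hs]
  have h0 : ∀ g, π' g 0 = 0 := fun g => by
    rcases algEquiv_complex g with rfl | rfl
    · simp
    · exact hfix
  have hne1 : π' Complex.conjAe ≠ 1 := fun h1 => hinf (by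
    rw [← hconj]
    refine Equiv.ext fun j => ?_
    have h2 := congrArg (fun s : Equiv.Perm (Fin 3) => σ (s (σ j))) h1
    simp only [hπ'def, relabelPerm_apply, MonoidHom.comp_apply, Equiv.Perm.coe_inv,
      Equiv.apply_symm_apply, Equiv.Perm.one_apply, σ, Equiv.swap_apply_self] at h2
    simpa using h2)
  obtain ⟨hp1, hp2, q1, q2⟩ : π' Complex.conjAe 1 = 2 ∧ π' Complex.conjAe 2 = 1 ∧
      (π' Complex.conjAe)⁻¹ 1 = 2 ∧ (π' Complex.conjAe)⁻¹ 2 = 1 :=
    (by decide : ∀ s : Equiv.Perm (Fin 3), s 0 = 0 → s ≠ 1 →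
      s 1 = 2 ∧ s 2 = 1 ∧ s⁻¹ 1 = 2 ∧ s⁻¹ 2 = 1) _ hfix hne1
  have hc0 : ∀ g, c' g 0 = 1 := fun g => by
    rcases algEquiv_complex g with rfl | rfl
    · exact hc'.map_one 0
    · have hm := hc' Complex.conjAe Complex.conjAe 1
      have hcc : Complex.conjAe * Complex.conjAe = (1 : ℂ ≃ₐ[ℝ] ℂ) :=
        AlgEquiv.ext fun z => Complex.conj_conj z
      rw [hcc, hc'.map_one, q1] at hm
      have hp := hc1' Complex.conjAe
      rw [Fin.prod_univ_three, mul_assoc, ← hm, mul_one] at hp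
      exact hp
  obtain ⟨N, hN0, hN⟩ : ∃ N : ℝ, 0 < N ∧ (N : ℂ) = rootD (E ∘ σ) 0 := by
    refine ⟨Complex.normSq ((E ∘ σ) 0 - (E ∘ σ) 1), Complex.normSq_pos.mpr
      (sub_ne_zero.mpr fun hh => absurd (he' hh) (by decide)), ?_⟩
    have e0 := hπ' Complex.conjAe 0
    have e1 := hπ' Complex.conjAe 1
    rw [hfix] at e0
    rw [hp1] at e1
    rw [(rootD_eval _).1, ← Complex.mul_conj, map_sub]
    change _ * (Complex.conjAe ((E ∘ σ) 0) - Complex.conjAe ((E ∘ σ) 1)) = _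
    rw [e0, e1]
  have hiso : IsIso (π.comp φ) (fun g => c (φ g)) (rootD E) := by
    rw [← isIso_relabel E σ]
    have horth : IsOrth π' c' (rootD (E ∘ σ)) ![![(1 : ℂ), 0, 0]] ![N⁻¹] := by
      refine ⟨fun a => ?_, fun a => ?_, fun a => ?_, fun a b hab => ?_⟩
      · fin_cases a; exact isFixed_vec h0 fun g => by simp [hc0 g]
      · fin_cases a; exact inv_ne_zero hN0.ne'
      · fin_cases a; simp [bform, Fin.sum_univ_three, hN]
      · exact absurd (Subsingleton.elim a b) hab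
    obtain ⟨w, n, hw, hn0, hn, hperp⟩ := horth.exists_next (by norm_num) (map_rootD hπ')
      (rootD_ne_zero he') hc' ((hcl'.comp fun t a => t (σ a))) (hasLevel_perm he' hπ') (by simp)
    have hw0 : w 0 = 0 := by
      simpa [bform, Fin.sum_univ_three, rootD_ne_zero he' 0] using hperp 0
    have hO := isOrth_root he' hc1' hπ' h0 one_ne_zero (fun g => by simp [hc0 g]) hw hw0
      (a := N⁻¹) (n := n) (by simp [hN, one_div]) hn.symm hn0
    refine (hO.isIso_iff (map_rootD hπ')).mpr ⟨![0, 1, Real.sqrt N⁻¹], fun hz => ?_, ?_⟩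
    · exact one_ne_zero (congrFun hz (1 : Fin 3))
    · show ∑ a : Fin 3, ![N⁻¹, n, -(n / N⁻¹)] a * (![0, 1, Real.sqrt N⁻¹] : Fin 3 → ℝ) a ^ 2 = 0
      rw [Fin.sum_univ_three]
      simp only [Matrix.cons_val_zero, Matrix.cons_val_one, Matrix.cons_val]
      rw [Real.sq_sqrt (inv_pos.mpr hN0).le]
      field_simp
      ring
  obtain ⟨x', hx0, hx'⟩ := (h'.isIso_iff (map_rootD hE)).mp hiso
  obtain ⟨x, rfl⟩ : ∃ x : Fin 3 → ℝ, x = x' := ⟨x', rfl⟩
  have hx : ∑ a : Fin 3, (A a : ℝ) * x a ^ 2 = 0 := hx'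
  rw [Fin.sum_univ_three] at hx
  rw [hilbInf, if_neg]
  rintro ⟨h02, h12⟩
  have a02 : (0 : ℝ) < A 0 * A 2 := by exact_mod_cast neg_lt_zero.mp h02
  have a12 : (0 : ℝ) < A 1 * A 2 := by exact_mod_cast neg_lt_zero.mp h12
  have a22 : (0 : ℝ) < A 2 * A 2 := mul_self_pos.mpr (by simpa using h.ne 2)
  have hs : (A 0 * A 2 : ℝ) * x 0 ^ 2 + A 1 * A 2 * x 1 ^ 2 + A 2 * A 2 * x 2 ^ 2 = 0 := by
    linear_combination (A 2 : ℝ) * hx
  have n0 := mul_nonneg a02.le (sq_nonneg (x 0))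
  have n1 := mul_nonneg a12.le (sq_nonneg (x 1))
  have n2 := mul_nonneg a22.le (sq_nonneg (x 2))
  refine hx0 (funext fun a => ?_)
  fin_cases a
  · exact pow_eq_zero_iff two_ne_zero |>.mp
      ((mul_eq_zero.mp (show (A 0 * A 2 : ℝ) * x 0 ^ 2 = 0 by linarith)).resolve_left a02.ne')
  · exact pow_eq_zero_iff two_ne_zero |>.mp
      ((mul_eq_zero.mp (show (A 1 * A 2 : ℝ) * x 1 ^ 2 = 0 by linarith)).resolve_left a12.ne')
  · exact pow_eq_zero_iff two_ne_zero |>.mp
      ((mul_eq_zero.mp (show (A 2 * A 2 : ℝ) * x 2 ^ 2 = 0 by linarith)).resolve_left a22.ne')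

end Real

end Fermat.Agent.Residual.Conic
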