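/-
The chosen place over `v`: local automorphisms realise the decomposition group on finite layers,
the decomposition group is commutative modulo inertia there, and the parity of the valuation of
a square is read off on inertia.
-/
import Fermat.Agent.Residual.ConicHilbert
import Fermat.Agent.Residual.ConicForm
import Fermat.Agent.Galois.TamePlace
import Fermat.Agent.Mult.RootMoved
import Fermat.Agent.PoitouTate.GlobalLocalConj

set_option autoImplicit false

noncomputable section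

namespace Fermat.Agent.Residual.Conic

variable (v : ℕ) [Fact v.Prime]

theorem padicPlace_liesOver_self : (padicPlace v).LiesOverPrime v := by
  show (v : AlgebraicClosure ℚ) ∈ (padicPlace v).nonunits
  rw [ValuationSubring.mem_nonunits_iff_or]
  refine Or.inr fun h => ?_
  rw [mem_padicPlace_iff, map_inv₀, map_natCast,
    ← map_natCast (algebraMap ℚ_[v] (PadicAlgCl v)), nnnorm_inv, nnnorm_algebraMap',
    ← NNReal.coe_le_coe, NNReal.coe_inv, coe_nnnorm, Padic.norm_p, inv_inv, NNReal.coe_one] at h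
  exact absurd h (not_le.mpr (by exact_mod_cast (Fact.out : v.Prime).one_lt))

theorem mem_nonunits_padicPlace {x : AlgebraicClosure ℚ} :
    x ∈ (padicPlace v).nonunits ↔ ‖padicEmbedding v x‖ < 1 := by
  rcases eq_or_ne x 0 with rfl | hx
  · simp [ValuationSubring.mem_nonunits_iff_or]
  have hx' : padicEmbedding v x ≠ 0 := fun h0 => hx ((map_eq_zero _).1 h0)
  rw [ValuationSubring.mem_nonunits_iff_or, mem_padicPlace_iff, map_inv₀, nnnorm_inv, not_le,
    one_lt_inv₀ (nnnorm_pos.2 hx'), ← NNReal.coe_lt_coe, coe_nnnorm, NNReal.coe_one]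
  simp [hx]

/-- A decomposition element agrees on a finite layer with a local automorphism. -/
theorem exists_local_eqOn (L : IntermediateField ℚ (AlgebraicClosure ℚ)) [FiniteDimensional ℚ L]
    {σ : AlgebraicClosure ℚ ≃ₐ[ℚ] AlgebraicClosure ℚ}
    (hσ : σ ∈ (padicPlace v).decompositionSubgroup ℚ) :
    ∃ g : PadicAlgCl v ≃ₐ[ℚ_[v]] PadicAlgCl v, ∀ x ∈ L, localGaloisToGlobal v g x = σ x := by
  have hnorm : ∀ x ∈ L, ‖padicEmbedding v ((1 : AlgebraicClosure ℚ ≃ₐ[ℚ] AlgebraicClosure ℚ) x)‖ =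
      ‖padicEmbedding v (σ x)‖ := by
    refine PoitouTate.norm_eq_of_lt_one_iff v fun x _ => ?_
    rw [← mem_nonunits_padicPlace, ← mem_nonunits_padicPlace, AlgEquiv.one_apply]
    constructor
    · exact Galois.map_mem_nonunits hσ
    · intro h
      have := Galois.map_mem_nonunits (inv_mem hσ) h
      rwa [← AlgEquiv.mul_apply, inv_mul_cancel, AlgEquiv.one_apply] at this
  obtain ⟨g, s, hs, h⟩ := PoitouTate.exists_local_of_norm_eq v hnorm
  rw [IntermediateField.mem_fixingSubgroup_iff] at hs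
  exact ⟨g, fun x hx => by rw [h, AlgEquiv.mul_apply, mul_one, hs x hx]⟩

omit [Fact v.Prime] in
/-- A twisted cocycle trivial on inertia is commutative on the decomposition group. -/
theorem unramified_commute {ℓ : ℕ} (hℓ : ℓ.Prime) {A : ValuationSubring (AlgebraicClosure ℚ)}
    (hA : A.LiesOverPrime ℓ)
    {π : (AlgebraicClosure ℚ ≃ₐ[ℚ] AlgebraicClosure ℚ) →* Equiv.Perm (Fin 3)}
    {c : (AlgebraicClosure ℚ ≃ₐ[ℚ] AlgebraicClosure ℚ) → Fin 3 → ℤˣ}
    (hc : IsTwist π c) (hcl : HasLevel c) (hπl : HasLevel π)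
    (hπu : ∀ σ ∈ A.inertiaSubgroupIn ℚ, π σ = 1) (hcu : ∀ σ ∈ A.inertiaSubgroupIn ℚ, c σ = 1)
    {g h : AlgebraicClosure ℚ ≃ₐ[ℚ] AlgebraicClosure ℚ}
    (hg : g ∈ A.decompositionSubgroup ℚ) (hh : h ∈ A.decompositionSubgroup ℚ) :
    c (g * h) = c (h * g) ∧ π (g * h) = π (h * g) := by
  obtain ⟨φ, hφ⟩ := Galois.exists_isFrobeniusAt hℓ hA
  obtain ⟨L, hL, hcL⟩ := hcl
  obtain ⟨L', hL', hπL⟩ := hπl
  haveI : FiniteDimensional ℚ (L ⊔ L' : IntermediateField ℚ (AlgebraicClosure ℚ)) :=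
    IntermediateField.finiteDimensional_sup L L'
  let N : IntermediateField ℚ (AlgebraicClosure ℚ) := IntermediateField.normalClosure ℚ
    (L ⊔ L' : IntermediateField ℚ (AlgebraicClosure ℚ)) (AlgebraicClosure ℚ)
  haveI : FiniteDimensional ℚ N := normalClosure.is_finiteDimensional _ _ _
  haveI : Normal ℚ N := normalClosure.normal _ _ _
  have hLN : L ⊔ L' ≤ N := IntermediateField.le_normalClosure _
  have key : ∀ g ∈ A.decompositionSubgroup ℚ, ∃ j : ℕ, c g = c (φ ^ j) ∧ π g = π φ ^ j := by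
    intro g hg
    obtain ⟨j, t, ht, hgt⟩ := Galois.exists_decomposition_eq (L := N) hℓ hA hφ hg
    refine ⟨j, ?_⟩
    have hs : ∀ x ∈ N, ((φ ^ j * t)⁻¹ * g) x = x := fun x hx => by
      rw [AlgEquiv.mul_apply, hgt x hx, ← AlgEquiv.mul_apply, inv_mul_cancel, AlgEquiv.one_apply]
    have h1 := hcL (φ ^ j * t) _ fun x hx => hs x (hLN ((le_sup_left : L ≤ L ⊔ L') hx))
    have h2 := hπL (φ ^ j * t) _ fun x hx => hs x (hLN ((le_sup_right : L' ≤ L ⊔ L') hx))
    rw [mul_inv_cancel_left] at h1 h2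
    refine ⟨?_, by rw [h2, map_mul, hπu t ht, mul_one, map_pow]⟩
    rw [h1]
    funext i
    rw [hc, hcu t ht, Pi.one_apply, mul_one]
  obtain ⟨a, ha, ha'⟩ := key g hg
  obtain ⟨b, hb, hb'⟩ := key h hh
  refine ⟨funext fun i => ?_, by rw [map_mul, map_mul, ha', hb', ← pow_add, ← pow_add, add_comm]⟩
  rw [hc g h i, hc h g i, ha, hb, ha', hb', ← map_pow, ← map_pow, ← hc, ← hc, ← pow_add,
    ← pow_add, add_comm]

variable {v}

/-- Rational approximation up to squares, at an odd prime. -/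
theorem exists_rat_sq_mul (hv : v ≠ 2) {d : ℚ_[v]} (hd : d ≠ 0) :
    ∃ (r : ℚ) (c : ℚ_[v]), r ≠ 0 ∧ c ≠ 0 ∧ (r : ℚ_[v]) = d * c ^ 2 ∧
      padicValRat v r = d.valuation := by
  classical
  obtain ⟨r, hr⟩ := Padic.rat_dense v d (norm_pos_iff.mpr hd)
  have hw : ‖(r : ℚ_[v]) / d - 1‖ < 1 := by
    rw [div_sub_one hd, norm_div, norm_sub_rev, div_lt_one (norm_pos_iff.mpr hd)]
    exact hr
  have hn : ‖(r : ℚ_[v]) / d‖ = 1 := by
    have h := IsUltrametricDist.norm_add_eq_max_of_norm_ne_norm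
      (x := (r : ℚ_[v]) / d - 1) (y := 1) (by rw [norm_one]; exact hw.ne)
    rwa [sub_add_cancel, norm_one, max_eq_right hw.le] at h
  let u : ℤ_[v] := toZp ((r : ℚ_[v]) / d) hn.le
  have hu : IsUnit u := by rw [PadicInt.isUnit_iff, PadicInt.norm_def, coe_toZp, hn]
  have hres : resPar u = 0 := by
    have h1 : PadicInt.toZMod (u - 1) = 0 := by
      rw [← RingHom.mem_ker, PadicInt.ker_toZMod, PadicInt.maximalIdeal_eq_span_p,
        Ideal.mem_span_singleton, ← PadicInt.norm_lt_one_iff_dvd, PadicInt.norm_def,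
        PadicInt.coe_sub, PadicInt.coe_one, coe_toZp]
      exact hw
    rw [map_sub, map_one, sub_eq_zero] at h1
    rw [resPar, if_pos (by rw [h1]; exact IsSquare.one)]
  obtain ⟨w, hw2⟩ := exists_sq_of_resPar hv hu hres
  have e : (w : ℚ_[v]) ^ 2 = (r : ℚ_[v]) / d := by
    rw [← PadicInt.coe_pow, hw2, coe_toZp]
  have hr0 : (r : ℚ_[v]) / d ≠ 0 := fun h => by rw [h, norm_zero] at hn; exact zero_ne_one hn
  have hc : (w : ℚ_[v]) ≠ 0 := fun h => hr0 (by rw [← e, h, zero_pow two_ne_zero])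
  refine ⟨r, w, fun h => hr0 (by simp [h]), hc, by rw [e, mul_div_cancel₀ _ hd], ?_⟩
  rw [← Padic.valuation_ratCast, show (r : ℚ_[v]) = d * ((w : ℚ_[v]) ^ 2) by
    rw [e, mul_div_cancel₀ _ hd], Padic.valuation_mul hd (pow_ne_zero _ hc), Padic.valuation_pow,
    valuation_coe_unit]
  · simp
  · rw [PadicInt.isUnit_iff, PadicInt.norm_def, ← pow_left_inj₀ (norm_nonneg _) zero_le_one
      two_ne_zero, ← norm_pow, e, hn, one_pow]

theorem exists_sqrt_rat (hv : v ≠ 2) {δ : PadicAlgCl v} {d : ℚ_[v]} (hd : d ≠ 0)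
    (hδ : δ ^ 2 = algebraMap ℚ_[v] (PadicAlgCl v) d) :
    ∃ (t : AlgebraicClosure ℚ) (r : ℚ) (b : ℚ_[v]), r ≠ 0 ∧ b ≠ 0 ∧
      t ^ 2 = (r : AlgebraicClosure ℚ) ∧ padicValRat v r = d.valuation ∧
      padicEmbedding v t = algebraMap ℚ_[v] (PadicAlgCl v) b * δ := by
  obtain ⟨r, c, hr, hc, hrc, hval⟩ := exists_rat_sq_mul hv hd
  obtain ⟨t, ht⟩ := IsAlgClosed.exists_pow_nat_eq (r : AlgebraicClosure ℚ) (n := 2) two_pos
  have h2 : padicEmbedding v t ^ 2 = (algebraMap ℚ_[v] (PadicAlgCl v) c * δ) ^ 2 := by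
    rw [← map_pow, ht, mul_pow, hδ, ← map_pow, ← map_mul, mul_comm, ← hrc, map_ratCast,
      map_ratCast]
  rcases sq_eq_sq_iff_eq_or_eq_neg.mp h2 with h | h
  · exact ⟨t, r, c, hr, hc, ht, hval, h⟩
  · exact ⟨t, r, -c, hr, neg_ne_zero.mpr hc, ht, hval, by rw [h, map_neg, neg_mul]⟩

/-- A square of odd valuation has a root moved by inertia. -/
theorem even_valuation_of_inertia_fixed (hv : v ≠ 2) {δ : PadicAlgCl v} {d : ℚ_[v]} (hd : d ≠ 0)
    (hδ : δ ^ 2 = algebraMap ℚ_[v] (PadicAlgCl v) d)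
    (L : IntermediateField ℚ (AlgebraicClosure ℚ)) [FiniteDimensional ℚ L]
    (h : ∀ g : PadicAlgCl v ≃ₐ[ℚ_[v]] PadicAlgCl v, (∃ σ ∈ (padicPlace v).inertiaSubgroupIn ℚ,
      ∀ x ∈ L, localGaloisToGlobal v g x = σ x) → g δ = δ) :
    Even d.valuation := by
  obtain ⟨t, r, b, hr, hb, ht, hval, hbd⟩ := exists_sqrt_rat hv hd hδ
  by_contra hne
  obtain ⟨σ, hσ, hmove⟩ := Mult.exists_inertia_apply_ne (Fact.out : v.Prime)
    (padicPlace_liesOver_self v) two_ne_zero hr ht
    (fun h' => hne (even_iff_two_dvd.mpr (by rw [← hval]; exact_mod_cast h')))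
  haveI : FiniteDimensional ℚ (IntermediateField.adjoin ℚ {t}) :=
    IntermediateField.adjoin.finiteDimensional (Algebra.IsIntegral.isIntegral t)
  haveI : FiniteDimensional ℚ
      (L ⊔ IntermediateField.adjoin ℚ {t} : IntermediateField ℚ (AlgebraicClosure ℚ)) :=
    IntermediateField.finiteDimensional_sup L _
  obtain ⟨g, hg⟩ := exists_local_eqOn v (L ⊔ IntermediateField.adjoin ℚ {t})
    (Mult.mem_decomposition_of_mem_inertia hσ)
  have hfix := h g ⟨σ, hσ, fun x hx => hg x ((le_sup_left : L ≤ L ⊔ _) hx)⟩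
  refine hmove ((padicEmbedding v).toRingHom.injective ?_)
  show padicEmbedding v (σ t) = padicEmbedding v t
  rw [← hg t ((le_sup_right : IntermediateField.adjoin ℚ {t} ≤ L ⊔ _)
    (IntermediateField.mem_adjoin_simple_self ℚ t)), padicEmbedding_localGaloisToGlobal, hbd,
    map_mul, AlgEquiv.commutes, hfix]

/-- A root of a square of even valuation is fixed by inertia. -/
theorem exists_local_fixing (hv : v ≠ 2) {δ : PadicAlgCl v} {d : ℚ_[v]} (hd : d ≠ 0)
    (hδ : δ ^ 2 = algebraMap ℚ_[v] (PadicAlgCl v) d) (heven : Even d.valuation)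
    (L : IntermediateField ℚ (AlgebraicClosure ℚ)) [FiniteDimensional ℚ L]
    {σ : AlgebraicClosure ℚ ≃ₐ[ℚ] AlgebraicClosure ℚ}
    (hσ : σ ∈ (padicPlace v).inertiaSubgroupIn ℚ) :
    ∃ g : PadicAlgCl v ≃ₐ[ℚ_[v]] PadicAlgCl v,
      (∀ x ∈ L, localGaloisToGlobal v g x = σ x) ∧ g δ = δ := by
  obtain ⟨t, r, b, hr, hb, ht, hval, hbd⟩ := exists_sqrt_rat hv hd hδ
  haveI : FiniteDimensional ℚ (IntermediateField.adjoin ℚ {t}) :=
    IntermediateField.adjoin.finiteDimensional (Algebra.IsIntegral.isIntegral t)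
  haveI : FiniteDimensional ℚ
      (L ⊔ IntermediateField.adjoin ℚ {t} : IntermediateField ℚ (AlgebraicClosure ℚ)) :=
    IntermediateField.finiteDimensional_sup L _
  obtain ⟨g, hg⟩ := exists_local_eqOn v (L ⊔ IntermediateField.adjoin ℚ {t})
    (Mult.mem_decomposition_of_mem_inertia hσ)
  refine ⟨g, fun x hx => hg x ((le_sup_left : L ≤ L ⊔ _) hx), ?_⟩
  have hst : σ t = t := Mult.inertia_apply_of_pow_eq_rat (Fact.out : v.Prime)
    (padicPlace_liesOver_self v) hσ
    (fun h => hv ((Nat.prime_dvd_prime_iff_eq Fact.out Nat.prime_two).mp h)) ht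
    (by rw [hval]; exact_mod_cast even_iff_two_dvd.mp heven)
  have e := congrArg (padicEmbedding v) hst
  rw [← hg t ((le_sup_right : IntermediateField.adjoin ℚ {t} ≤ L ⊔ _)
    (IntermediateField.mem_adjoin_simple_self ℚ t)), padicEmbedding_localGaloisToGlobal, hbd,
    map_mul, AlgEquiv.commutes] at e
  exact mul_left_cancel₀ (by simpa using hb) e

end Fermat.Agent.Residual.Conic
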