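/-
The product formula for the conics of two classes and their product: two Selmer type classes
cannot cross at a single auxiliary prime.
-/
import Fermat.Agent.Residual.ConicGlobal
import Fermat.Agent.Residual.ConicPlaces

set_option autoImplicit false

noncomputable section

namespace Fermat.Agent.Residual.Conic

section Local

variable {p : ℕ} [Fact p.Prime] {π : (PadicAlgCl p ≃ₐ[ℚ_[p]] PadicAlgCl p) →* Equiv.Perm (Fin 3)}
  {x y : (PadicAlgCl p ≃ₐ[ℚ_[p]] PadicAlgCl p) → Fin 3 → ℤˣ} {e : Fin 3 → PadicAlgCl p}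

/-- The triple at an arbitrary fixed root. -/
theorem conicSym_triple (he : Function.Injective e)
    (hπ : ∀ (g : PadicAlgCl p ≃ₐ[ℚ_[p]] PadicAlgCl p) a, g (e a) = e (π g a))
    {i : Fin 3} (hi : ∀ g, π g i = i)
    (hx : IsTwist π x) (hx1 : ∀ g, ∏ a, x g a = 1) (hxl : HasLevel x)
    (hy : IsTwist π y) (hy1 : ∀ g, ∏ a, y g a = 1) (hyl : HasLevel y) (hyi : ∀ g, y g i = 1) :
    ∃ (τ δ : PadicAlgCl p) (D d : ℚ_[p]), D ≠ 0 ∧ d ≠ 0 ∧
      τ ^ 2 = algebraMap ℚ_[p] (PadicAlgCl p) D ∧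
      (∀ g, ((x g i : ℤ) : PadicAlgCl p) * g τ = τ) ∧
      δ ^ 2 = algebraMap ℚ_[p] (PadicAlgCl p) d ∧
      (∀ g, ((y g (Equiv.swap 0 i 1) : ℤ) : PadicAlgCl p) * g δ = δ) ∧
      conicSym π x e + conicSym π y e + conicSym π (x * y) e = hilb d D := by
  let σ : Equiv.Perm (Fin 3) := Equiv.swap 0 i
  have hs : σ 0 = i := Equiv.swap_apply_left 0 i
  obtain ⟨τ, δ, D, d, h1, h2, h3, h4, h5, h6, h7⟩ :=
    conicSym_triple_zero (π := relabelPerm σ π) (x := relabelTwist σ x) (y := relabelTwist σ y)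
      (e := e ∘ σ) (he.comp σ.injective)
      (fun g a => by simp [relabelPerm_apply, hπ])
      (fun g => by
        rw [relabelPerm_apply, hs, hi, Equiv.Perm.coe_inv, Equiv.symm_apply_eq, hs])
      (hx.relabel σ) (fun g => by rw [← hx1 g]; exact Fintype.prod_equiv σ _ _ fun a => rfl)
      (hxl.comp fun t a => t (σ a)) (hy.relabel σ)
      (fun g => by rw [← hy1 g]; exact Fintype.prod_equiv σ _ _ fun a => rfl)
      (hyl.comp fun t a => t (σ a)) (fun g => by simp [relabelTwist, hs, hyi g])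
  refine ⟨τ, δ, D, d, h1, h2, h3, fun g => by simpa [relabelTwist, hs] using h4 g, h5,
    fun g => h6 g, ?_⟩
  rw [show relabelTwist σ x * relabelTwist σ y = relabelTwist σ (x * y) from rfl,
    conicSym_relabel, conicSym_relabel, conicSym_relabel] at h7
  exact h7

theorem units_eq_one_of_fixed {u : ℤˣ} {g : PadicAlgCl p ≃ₐ[ℚ_[p]] PadicAlgCl p}
    {τ : PadicAlgCl p} (hτ0 : τ ≠ 0) (h : ((u : ℤ) : PadicAlgCl p) * g τ = τ) (hg : g τ = τ) :
    u = 1 := by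
  rw [hg] at h
  rcases Int.units_eq_one_or u with hu | hu
  · exact hu
  · exfalso
    rw [hu, Units.val_neg, Units.val_one, Int.cast_neg, Int.cast_one] at h
    exact hτ0 ((mul_eq_zero.mp (show (2 : PadicAlgCl p) * τ = 0 by linear_combination -h)
      ).resolve_left two_ne_zero)

theorem hilb_eq_zero_of_even (hp : p ≠ 2) {a b : ℚ_[p]} (ha : Even a.valuation)
    (hb : Even b.valuation) : hilb a b = 0 := by
  have h : ∀ c : ℚ_[p], Even c.valuation → valPar c = 0 := fun c hc =>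
    (ZMod.intCast_eq_zero_iff_even).mpr hc
  simp [hilb, hp, h a ha, h b hb]

theorem exists_sq_of_even (hp : p ≠ 2) {D : ℚ_[p]} (hD : D ≠ 0) (heven : Even D.valuation)
    (hres : resPar (unitPart D) = 0) : ∃ a : ℚ_[p], a ^ 2 = D := by
  obtain ⟨w, hw⟩ := exists_sq_of_resPar hp (isUnit_unitPart hD) hres
  obtain ⟨m, hm⟩ := heven
  refine ⟨(p : ℚ_[p]) ^ m * (w : ℚ_[p]), ?_⟩
  rw [mul_pow, ← PadicInt.coe_pow, hw, coe_unitPart hD, sq, ← zpow_add₀ natCast_p_ne_zero, ← hm,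
    ← mul_assoc, mul_comm _ D, mul_assoc, ← zpow_add₀ natCast_p_ne_zero, add_neg_cancel, zpow_zero,
    mul_one]

theorem char_eq_one_of_sq {χ : (PadicAlgCl p ≃ₐ[ℚ_[p]] PadicAlgCl p) → ℤˣ} {τ : PadicAlgCl p}
    {D a : ℚ_[p]} (hD0 : D ≠ 0) (hτ : τ ^ 2 = algebraMap ℚ_[p] (PadicAlgCl p) D)
    (hχ : ∀ g, ((χ g : ℤ) : PadicAlgCl p) * g τ = τ) (ha : a ^ 2 = D) :
    ∀ g, χ g = 1 := by
  intro g
  have hτ0 : τ ≠ 0 := fun h => hD0 (by
    rw [h, zero_pow two_ne_zero, eq_comm, map_eq_zero] at hτ; exact hτ)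
  refine units_eq_one_of_fixed hτ0 (hχ g) ?_
  rw [← ha, map_pow] at hτ
  rcases sq_eq_sq_iff_eq_or_eq_neg.mp hτ with h | h <;> simp [h]

theorem exists_sq_of_char_eq_one {χ : (PadicAlgCl p ≃ₐ[ℚ_[p]] PadicAlgCl p) → ℤˣ}
    {τ : PadicAlgCl p} {D : ℚ_[p]} (hτ : τ ^ 2 = algebraMap ℚ_[p] (PadicAlgCl p) D)
    (hχ : ∀ g, ((χ g : ℤ) : PadicAlgCl p) * g τ = τ) (h1 : ∀ g, χ g = 1) :
    ∃ a : ℚ_[p], D = a * a := by
  haveI := isGalois_padicAlgCl (p := p)
  obtain ⟨a, ha⟩ : ∃ a : ℚ_[p], algebraMap ℚ_[p] (PadicAlgCl p) a = τ :=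
    IntermediateField.mem_bot.mp ((InfiniteGalois.mem_bot_iff_fixed _).mpr fun g => by
      simpa [h1 g] using hχ g)
  exact ⟨a, (algebraMap ℚ_[p] (PadicAlgCl p)).injective (by rw [← hτ, map_mul, ha, sq])⟩

end Local

variable {e : Fin 3 → AlgebraicClosure ℚ}
  {π : (AlgebraicClosure ℚ ≃ₐ[ℚ] AlgebraicClosure ℚ) →* Equiv.Perm (Fin 3)}
  {x y : (AlgebraicClosure ℚ ≃ₐ[ℚ] AlgebraicClosure ℚ) → Fin 3 → ℤˣ}

/-- The symbol at `v` of a global class. -/
def symAt (v : ℕ) [Fact v.Prime] (e : Fin 3 → AlgebraicClosure ℚ)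
    (π : (AlgebraicClosure ℚ ≃ₐ[ℚ] AlgebraicClosure ℚ) →* Equiv.Perm (Fin 3))
    (c : (AlgebraicClosure ℚ ≃ₐ[ℚ] AlgebraicClosure ℚ) → Fin 3 → ℤˣ) : ZMod 2 :=
  conicSym (π.comp (localGaloisToGlobal v)) (fun g => c (localGaloisToGlobal v g)) (localRoots v e)

theorem agree_of_eqOn {X : Type*} {f : (AlgebraicClosure ℚ ≃ₐ[ℚ] AlgebraicClosure ℚ) → X}
    {L : IntermediateField ℚ (AlgebraicClosure ℚ)}
    (hf : ∀ g s, (∀ z ∈ L, s z = z) → f (g * s) = f g)
    {a b : AlgebraicClosure ℚ ≃ₐ[ℚ] AlgebraicClosure ℚ} (h : ∀ z ∈ L, a z = b z) : f a = f b := by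
  have h1 := hf b (b⁻¹ * a) fun z hz => by
    rw [AlgEquiv.mul_apply, h z hz, ← AlgEquiv.mul_apply, inv_mul_cancel, AlgEquiv.one_apply]
  rwa [mul_inv_cancel_left] at h1

section Places

variable (v : ℕ) [Fact v.Prime]

theorem even_of_unramified (hv : v ≠ 2)
    {c : (AlgebraicClosure ℚ ≃ₐ[ℚ] AlgebraicClosure ℚ) → Fin 3 → ℤˣ} (hcl : HasLevel c)
    {j : Fin 3} (hu : ∀ σ ∈ (padicPlace v).inertiaSubgroupIn ℚ, c σ j = 1) {τ : PadicAlgCl v}
    {D : ℚ_[v]} (hD : D ≠ 0) (hτ : τ ^ 2 = algebraMap ℚ_[v] (PadicAlgCl v) D)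
    (hχ : ∀ g, ((c (localGaloisToGlobal v g) j : ℤ) : PadicAlgCl v) * g τ = τ) :
    Even D.valuation := by
  obtain ⟨L, hL, hcL⟩ := hcl
  refine even_valuation_of_inertia_fixed hv hD hτ L fun g ⟨σ, hσ, hg⟩ => ?_
  have h := hχ g
  rw [agree_of_eqOn hcL hg, hu σ hσ, Units.val_one, Int.cast_one, one_mul] at h
  exact h

variable (he : Function.Injective e)
  (hπ : ∀ (g : AlgebraicClosure ℚ ≃ₐ[ℚ] AlgebraicClosure ℚ) i, g (e i) = e (π g i))
  (hx : IsTwist π x) (hx1 : ∀ g, ∏ i, x g i = 1) (hxl : HasLevel x)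
  (hy : IsTwist π y) (hy1 : ∀ g, ∏ i, y g i = 1) (hyl : HasLevel y)

include he hπ hx hx1 hxl hy hy1 hyl

/-- At a place where both classes have line type at the same root the sum vanishes. -/
theorem symAt_sum_line
    (hB : ∃ i, ∀ g, π (localGaloisToGlobal v g) i = i ∧ x (localGaloisToGlobal v g) i = 1 ∧
      y (localGaloisToGlobal v g) i = 1) :
    symAt v e π x + symAt v e π y + symAt v e π (x * y) = 0 := by
  obtain ⟨i, hi⟩ := hB
  obtain ⟨τ, δ, D, d, hD, hd, hτ, hχ, -, -, hsum⟩ :=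
    conicSym_triple (x := fun g => x (localGaloisToGlobal v g))
      (y := fun g => y (localGaloisToGlobal v g)) (localRoots_injective v he)
      (localRoots_perm v hπ) (fun g => (hi g).1) (hx.comp _) (fun g => hx1 _)
      (hasLevel_local v hxl) (hy.comp _) (fun g => hy1 _) (hasLevel_local v hyl)
      (fun g => (hi g).2.2)
  obtain ⟨a, rfl⟩ := exists_sq_of_char_eq_one hτ hχ fun g => (hi g).2.1
  have ha : a ≠ 0 := fun h => hD (by rw [h, mul_zero])
  rw [hilb_comm, hilb_sq_left ha] at hsum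
  exact hsum

/-- At an odd place where everything is unramified the sum vanishes. -/
theorem symAt_sum_unramified (hv : v ≠ 2)
    (hu : ∀ σ ∈ (padicPlace v).inertiaSubgroupIn ℚ, π σ = 1 ∧ x σ = 1 ∧ y σ = 1) :
    symAt v e π x + symAt v e π y + symAt v e π (x * y) = 0 := by
  classical
  haveI := isGalois_padicAlgCl (p := v)
  have hπl : HasLevel π := hasLevel_perm he hπ
  have hlocal := localGaloisToGlobal_mem_decompositionSubgroup v
  have hcom : ∀ c, IsTwist π c → HasLevel c →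
      (∀ σ ∈ (padicPlace v).inertiaSubgroupIn ℚ, c σ = 1) → ∀ g h,
      c (localGaloisToGlobal v g * localGaloisToGlobal v h) =
        c (localGaloisToGlobal v h * localGaloisToGlobal v g) ∧
      π (localGaloisToGlobal v g * localGaloisToGlobal v h) =
        π (localGaloisToGlobal v h * localGaloisToGlobal v g) :=
    fun c hc hcl hcu g h => unramified_commute (Fact.out : v.Prime) (padicPlace_liesOver_self v)
      hc hcl hπl (fun σ hσ => (hu σ hσ).1) hcu (hlocal g) (hlocal h)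
  have hxy : IsTwist π (x * y) := hx.mul hy
  have hxy1 : ∀ g, ∏ i, (x * y) g i = 1 := fun g => by
    simp [Finset.prod_mul_distrib, hx1, hy1]
  have hxyl : HasLevel (x * y) := hxl.mul hyl
  have hxu : ∀ σ ∈ (padicPlace v).inertiaSubgroupIn ℚ, x σ = 1 := fun σ hσ => (hu σ hσ).2.1
  have hyu : ∀ σ ∈ (padicPlace v).inertiaSubgroupIn ℚ, y σ = 1 := fun σ hσ => (hu σ hσ).2.2
  have hxyu : ∀ σ ∈ (padicPlace v).inertiaSubgroupIn ℚ, (x * y) σ = 1 := fun σ hσ => by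
    rw [Pi.mul_apply, hxu σ hσ, hyu σ hσ, one_mul]
  by_cases hcyc : ∃ g₀, ∀ i, π (localGaloisToGlobal v g₀) i ≠ i
  · obtain ⟨g₀, hg₀⟩ := hcyc
    have zero : ∀ c, IsTwist π c → (∀ g, ∏ i, c g i = 1) → HasLevel c →
        (∀ σ ∈ (padicPlace v).inertiaSubgroupIn ℚ, c σ = 1) → symAt v e π c = 0 :=
      fun c hc hc1 hcl hcu => if_pos (isIso_of_three_cycle (localRoots_injective v he) (hc.comp _)
        (fun g => hc1 _) (fun g h => by
          simp only [map_mul, MonoidHom.comp_apply]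
          exact ⟨(hcom c hc hcl hcu g h).1, by simpa only [map_mul] using (hcom c hc hcl hcu g h).2⟩)
        (g₀ := g₀) hg₀)
    rw [zero x hx hx1 hxl hxu, zero y hy hy1 hyl hyu, zero _ hxy hxy1 hxyl hxyu]
    rfl
  · push Not at hcyc
    obtain ⟨i, hi⟩ : ∃ i, ∀ g, π (localGaloisToGlobal v g) i = i := by
      by_cases htriv : ∀ g, π (localGaloisToGlobal v g) = 1
      · exact ⟨0, fun g => by rw [htriv g]; rfl⟩
      · push Not at htriv
        obtain ⟨g₁, hg₁⟩ := htriv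
        obtain ⟨i, hi⟩ := hcyc g₁
        refine ⟨i, fun g => ?_⟩
        refine (by decide : ∀ s t : Equiv.Perm (Fin 3), ∀ i : Fin 3, s ≠ 1 → s i = i →
          s * t = t * s → t i = i) _ _ i hg₁ hi ?_
        simpa only [map_mul] using (hcom x hx hxl hxu g₁ g).2
    -- square roots of the characters at the fixed root
    have hroot : ∀ c, IsTwist π c → HasLevel c →
        (∀ σ ∈ (padicPlace v).inertiaSubgroupIn ℚ, c σ = 1) →
        ∃ (τ : PadicAlgCl v) (D : ℚ_[v]), D ≠ 0 ∧ Even D.valuation ∧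
          τ ^ 2 = algebraMap ℚ_[v] (PadicAlgCl v) D ∧
          ∀ g, ((c (localGaloisToGlobal v g) i : ℤ) : PadicAlgCl v) * g τ = τ := by
      intro c hc hcl hcu
      have hhom : ∀ g h, c (localGaloisToGlobal v (g * h)) i =
          c (localGaloisToGlobal v g) i * c (localGaloisToGlobal v h) i := fun g h => by
        rw [map_mul, hc, show (π (localGaloisToGlobal v g))⁻¹ i = i from by
          rw [Equiv.Perm.coe_inv, Equiv.symm_apply_eq, hi g]]
      obtain ⟨τ, hτ0, hτ⟩ := exists_signRoot (χ := fun g => c (localGaloisToGlobal v g) i) hhom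
        ((hasLevel_local v hcl).comp fun t => t i)
      obtain ⟨D, hD⟩ := exists_algebraMap_sq hτ
      have hD0 : D ≠ 0 := fun h => by
        rw [h, map_zero, eq_comm, pow_eq_zero_iff two_ne_zero] at hD; exact hτ0 hD
      exact ⟨τ, D, hD0, even_of_unramified v hv hcl (fun σ hσ => by rw [hcu σ hσ]; rfl) hD0
        hD.symm hτ, hD.symm, hτ⟩
    -- the sum when the second class has line type
    have core : ∀ a b, IsTwist π a → (∀ g, ∏ i, a g i = 1) → HasLevel a →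
        (∀ σ ∈ (padicPlace v).inertiaSubgroupIn ℚ, a σ = 1) →
        IsTwist π b → (∀ g, ∏ i, b g i = 1) → HasLevel b →
        (∀ σ ∈ (padicPlace v).inertiaSubgroupIn ℚ, b σ = 1) →
        (∀ g, b (localGaloisToGlobal v g) i = 1) →
        symAt v e π a + symAt v e π b + symAt v e π (a * b) = 0 := by
      intro a b ha ha1 hal hau hb hb1 hbl hbu hbi
      obtain ⟨τ, δ, D, d, hD, hd, hτ, hχ, hδ, hψ, hsum⟩ :=
        conicSym_triple (x := fun g => a (localGaloisToGlobal v g))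
          (y := fun g => b (localGaloisToGlobal v g)) (localRoots_injective v he)
          (localRoots_perm v hπ) hi (ha.comp _) (fun g => ha1 _) (hasLevel_local v hal)
          (hb.comp _) (fun g => hb1 _) (hasLevel_local v hbl) hbi
      rw [hilb_eq_zero_of_even hv
        (even_of_unramified v hv hbl (fun σ hσ => by rw [hbu σ hσ]; rfl) hd hδ hψ)
        (even_of_unramified v hv hal (fun σ hσ => by rw [hau σ hσ]; rfl) hD hτ hχ)] at hsum
      exact hsum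
    obtain ⟨τx, Dx, hDx, hDxe, hτx, hχx⟩ := hroot x hx hxl hxu
    obtain ⟨τy, Dy, hDy, hDye, hτy, hχy⟩ := hroot y hy hyl hyu
    rcases (by decide : ∀ r s : ZMod 2, r = 0 ∨ s = 0 ∨ r + s = 0)
      (resPar (unitPart Dx)) (resPar (unitPart Dy)) with h | h | h
    · obtain ⟨a, ha⟩ := exists_sq_of_even hv hDx hDxe h
      have key := core y x hy hy1 hyl hyu hx hx1 hxl hxu (char_eq_one_of_sq hDx hτx hχx ha)
      rw [mul_comm y x] at key
      rw [add_comm (symAt v e π x)]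
      exact key
    · obtain ⟨a, ha⟩ := exists_sq_of_even hv hDy hDye h
      exact core x y hx hx1 hxl hxu hy hy1 hyl hyu (char_eq_one_of_sq hDy hτy hχy ha)
    · obtain ⟨a, ha⟩ := exists_sq_of_even hv (mul_ne_zero hDx hDy)
        (by rw [Padic.valuation_mul hDx hDy]; exact hDxe.add hDye)
        (by rw [unitPart_mul hDx hDy, resPar_mul hv (isUnit_unitPart hDx) (isUnit_unitPart hDy), h])
      have hline : ∀ g, (x * y) (localGaloisToGlobal v g) i = 1 :=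
        char_eq_one_of_sq (mul_ne_zero hDx hDy) (τ := τx * τy)
          (by rw [mul_pow, hτx, hτy, map_mul]) (fun g => by
            rw [Pi.mul_apply, Pi.mul_apply, Units.val_mul, Int.cast_mul, map_mul, mul_mul_mul_comm,
              hχx g, hχy g]) ha
      have key := core x (x * y) hx hx1 hxl hxu hxy hxy1 hxyl hxyu hline
      have hxx : x * (x * y) = y := funext fun g => funext fun j => by
        simp [← mul_assoc, Int.units_mul_self]
      rw [hxx] at key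
      rw [add_right_comm]
      exact key

/-- At the crossing prime the sum is `1`. -/
theorem symAt_sum_crossing (hv : v ≠ 2) {i : Fin 3}
    (hi : ∀ g, π (localGaloisToGlobal v g) i = i ∧ y (localGaloisToGlobal v g) i = 1)
    (hxu : ∀ σ ∈ (padicPlace v).inertiaSubgroupIn ℚ, x σ i = 1)
    (hxne : ∃ g, x (localGaloisToGlobal v g) i ≠ 1)
    (hyr : ∃ σ ∈ (padicPlace v).inertiaSubgroupIn ℚ, y σ ≠ 1) :
    symAt v e π x + symAt v e π y + symAt v e π (x * y) = 1 := by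
  obtain ⟨τ, δ, D, d, hD, hd, hτ, hχ, hδ, hψ, hsum⟩ :=
    conicSym_triple (x := fun g => x (localGaloisToGlobal v g))
      (y := fun g => y (localGaloisToGlobal v g)) (localRoots_injective v he)
      (localRoots_perm v hπ) (fun g => (hi g).1) (hx.comp _) (fun g => hx1 _)
      (hasLevel_local v hxl) (hy.comp _) (fun g => hy1 _) (hasLevel_local v hyl)
      (fun g => (hi g).2)
  have hDe : Even D.valuation := even_of_unramified v hv hxl hxu hD hτ hχ
  have hDr : resPar (unitPart D) = 1 := by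
    rcases (by decide : ∀ r : ZMod 2, r = 0 ∨ r = 1) (resPar (unitPart D)) with h | h
    · obtain ⟨a, ha⟩ := exists_sq_of_even hv hD hDe h
      obtain ⟨g, hg⟩ := hxne
      exact absurd (char_eq_one_of_sq hD hτ hχ ha g) hg
    · exact h
  have hdo : ¬ Even d.valuation := by
    intro heven
    obtain ⟨σ, hσ, hne⟩ := hyr
    obtain ⟨L, hL, hyL⟩ := id hyl
    obtain ⟨g, hg, hgδ⟩ := exists_local_fixing hv hd hδ heven L hσ
    refine hne ?_
    rw [← agree_of_eqOn hyL hg]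
    have hδ0 : δ ≠ 0 := fun h => hd (by
      rw [h, zero_pow two_ne_zero, eq_comm, map_eq_zero] at hδ; exact hδ)
    exact (by decide : ∀ (i : Fin 3) (u : Fin 3 → ℤˣ), ∏ a, u a = 1 → u i = 1 →
      u (Equiv.swap 0 i 1) = 1 → u = 1) i _ (hy1 _) (hi g).2
      (units_eq_one_of_fixed hδ0 (hψ g) hgδ)
  refine hsum.trans ?_
  have h1 : valPar D = 0 := (ZMod.intCast_eq_zero_iff_even).mpr hDe
  have h2 : valPar d = 1 :=
    ((by decide : ∀ r : ZMod 2, r = 0 ∨ r = 1) (valPar d)).resolve_left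
      fun h => hdo ((ZMod.intCast_eq_zero_iff_even).mp h)
  simp [hilb, hv, h1, h2, hDr]

end Places

theorem not_mem_primeFactors_val {v : ℕ} (hv : v.Prime) {a : ℚ} (ha : a ≠ 0)
    (h : v ∉ (a.num.natAbs * a.den).primeFactors) : padicValRat v a = 0 := by
  have hnd : ¬ v ∣ a.num.natAbs * a.den := fun hd => h (Nat.mem_primeFactors.mpr
    ⟨hv, hd, mul_ne_zero (Int.natAbs_ne_zero.mpr (Rat.num_ne_zero.mpr ha)) a.den_nz⟩)
  rw [padicValRat_def, padicValInt,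
    padicValNat.eq_zero_of_not_dvd fun hd => hnd (dvd_mul_of_dvd_left hd _),
    padicValNat.eq_zero_of_not_dvd fun hd => hnd (dvd_mul_of_dvd_right hd _)]
  rfl

/-- **Crossing pairs do not exist.** -/
theorem false_of_crossing_pair (e : Fin 3 → AlgebraicClosure ℚ) (he : Function.Injective e)
    (π : (AlgebraicClosure ℚ ≃ₐ[ℚ] AlgebraicClosure ℚ) →* Equiv.Perm (Fin 3))
    (hπ : ∀ (g : AlgebraicClosure ℚ ≃ₐ[ℚ] AlgebraicClosure ℚ) i, g (e i) = e (π g i))
    (x y : (AlgebraicClosure ℚ ≃ₐ[ℚ] AlgebraicClosure ℚ) → Fin 3 → ℤˣ)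
    (hx : IsTwist π x) (hy : IsTwist π y) (hx1 : ∀ g, ∏ i, x g i = 1)
    (hy1 : ∀ g, ∏ i, y g i = 1) (hxl : HasLevel x) (hyl : HasLevel y)
    (hinf : π complexConjugation ≠ 1)
    (B : Finset ℕ) (h2 : 2 ∈ B) (q : ℕ) [Fact q.Prime] (hqB : q ∉ B)
    (hB : ∀ v ∈ B, ∀ [Fact v.Prime], ∃ i, ∀ g, π (localGaloisToGlobal v g) i = i ∧
      x (localGaloisToGlobal v g) i = 1 ∧ y (localGaloisToGlobal v g) i = 1)
    (hout : ∀ v : ℕ, ∀ [Fact v.Prime], v ∉ B → v ≠ q →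
      ∀ σ ∈ (padicPlace v).inertiaSubgroupIn ℚ, π σ = 1 ∧ x σ = 1 ∧ y σ = 1)
    (hq : ∃ i, (∀ g, π (localGaloisToGlobal q g) i = i ∧ y (localGaloisToGlobal q g) i = 1) ∧
      (∀ σ ∈ (padicPlace q).inertiaSubgroupIn ℚ, x σ i = 1) ∧
      (∃ g, x (localGaloisToGlobal q g) i ≠ 1) ∧
      ∃ σ ∈ (padicPlace q).inertiaSubgroupIn ℚ, y σ ≠ 1) : False := by
  classical
  have hxy : IsTwist π (x * y) := hx.mul hy
  have hxy1 : ∀ g, ∏ i, (x * y) g i = 1 := fun g => by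
    simp [Finset.prod_mul_distrib, hx1, hy1]
  have hxyl : HasLevel (x * y) := hxl.mul hyl
  obtain ⟨u₁, A₁, o₁⟩ := exists_orth_basis two_ne_zero he hπ hx hxl
  obtain ⟨u₂, A₂, o₂⟩ := exists_orth_basis two_ne_zero he hπ hy hyl
  obtain ⟨u₃, A₃, o₃⟩ := exists_orth_basis two_ne_zero he hπ hxy hxyl
  let F : ℚ → Finset ℕ := fun a => (a.num.natAbs * a.den).primeFactors
  let S : Finset ℕ := (B ∪ {q} ∪ F (-(A₁ 0 * A₁ 2)) ∪ F (-(A₁ 1 * A₁ 2)) ∪
    F (-(A₂ 0 * A₂ 2)) ∪ F (-(A₂ 1 * A₂ 2)) ∪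
    F (-(A₃ 0 * A₃ 2)) ∪ F (-(A₃ 1 * A₃ 2))).filter Nat.Prime
  have hqp : q.Prime := Fact.out
  have hSp : ∀ v ∈ S, v.Prime := fun v hv => (Finset.mem_filter.mp hv).2
  have hS2 : 2 ∈ S := Finset.mem_filter.mpr ⟨by simp [h2], Nat.prime_two⟩
  have hSq : q ∈ S := Finset.mem_filter.mpr ⟨by simp, hqp⟩
  have nz : ∀ {A : Fin 3 → ℚ}, (∀ a, A a ≠ 0) → ∀ a b, -(A a * A b) ≠ 0 :=
    fun hA a b => neg_ne_zero.mpr (mul_ne_zero (hA a) (hA b))
  have prod : ∀ {c} {u : Fin 3 → Fin 3 → AlgebraicClosure ℚ} {A : Fin 3 → ℚ},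
      IsTwist π c → (∀ g, ∏ i, c g i = 1) → HasLevel c → IsOrth π c (rootD e) u A →
      F (-(A 0 * A 2)) ⊆ B ∪ {q} ∪ F (-(A₁ 0 * A₁ 2)) ∪ F (-(A₁ 1 * A₁ 2)) ∪
        F (-(A₂ 0 * A₂ 2)) ∪ F (-(A₂ 1 * A₂ 2)) ∪ F (-(A₃ 0 * A₃ 2)) ∪ F (-(A₃ 1 * A₃ 2)) →
      F (-(A 1 * A 2)) ⊆ B ∪ {q} ∪ F (-(A₁ 0 * A₁ 2)) ∪ F (-(A₁ 1 * A₁ 2)) ∪
        F (-(A₂ 0 * A₂ 2)) ∪ F (-(A₂ 1 * A₂ 2)) ∪ F (-(A₃ 0 * A₃ 2)) ∪ F (-(A₃ 1 * A₃ 2)) →
      ∑ v ∈ S, hilbAt v (-(A 0 * A 2)) (-(A 1 * A 2)) = 0 := by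
    intro c u A hc hc1 hcl o s0 s1
    have h := hilb_product (-(A 0 * A 2)) (-(A 1 * A 2)) (nz o.ne 0 2) (nz o.ne 1 2) S hSp hS2
      fun v hv hvS => ⟨not_mem_primeFactors_val hv (nz o.ne 0 2)
          fun hm => hvS (Finset.mem_filter.mpr ⟨s0 hm, hv⟩),
        not_mem_primeFactors_val hv (nz o.ne 1 2)
          fun hm => hvS (Finset.mem_filter.mpr ⟨s1 hm, hv⟩)⟩
    rwa [hilbInf_eq_zero he hπ hc hc1 hcl hinf o, add_zero] at h
  have e₁ := prod hx hx1 hxl o₁ (by intro a ha; simp [ha]) (by intro a ha; simp [ha])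
  have e₂ := prod hy hy1 hyl o₂ (by intro a ha; simp [ha]) (by intro a ha; simp [ha])
  have e₃ := prod hxy hxy1 hxyl o₃ (by intro a ha; simp [ha]) (by intro a ha; simp [ha])
  let T : ℕ → ZMod 2 := fun v => hilbAt v (-(A₁ 0 * A₁ 2)) (-(A₁ 1 * A₁ 2)) +
    hilbAt v (-(A₂ 0 * A₂ 2)) (-(A₂ 1 * A₂ 2)) + hilbAt v (-(A₃ 0 * A₃ 2)) (-(A₃ 1 * A₃ 2))
  have hT : ∀ v : ℕ, ∀ [Fact v.Prime],
      T v = symAt v e π x + symAt v e π y + symAt v e π (x * y) := fun v _ => by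
    simp only [T, hilbAt_eq_conicSym v hπ o₁, hilbAt_eq_conicSym v hπ o₂,
      hilbAt_eq_conicSym v hπ o₃]
    rfl
  have hsum : ∑ v ∈ S, T v = 0 := by
    simp only [T, Finset.sum_add_distrib, e₁, e₂, e₃, add_zero]
  rw [Finset.sum_eq_single q] at hsum
  · obtain ⟨i, hi, hxu, hxne, hyr⟩ := hq
    rw [hT, symAt_sum_crossing q he hπ hx hx1 hxl hy hy1 hyl
      (fun h => hqB (h.symm ▸ h2)) hi hxu hxne hyr] at hsum
    exact one_ne_zero hsum
  · intro v hv hvq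
    haveI := Fact.mk (hSp v hv)
    rw [hT]
    by_cases hvB : v ∈ B
    · exact symAt_sum_line v he hπ hx hx1 hxl hy hy1 hyl (hB v hvB)
    · exact symAt_sum_unramified v he hπ hx hx1 hxl hy hy1 hyl (fun h => hvB (h.symm ▸ h2))
        (hout v hvB hvq)
  · exact fun h => absurd hSq h

end Fermat.Agent.Residual.Conic
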