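import Fermat.Agent.Residual.SelSigns
import Fermat.Agent.Residual.ConicPairing

/-!
# Reciprocity cuts the Selmer cocycles

`PairingCut` from the absence of crossing pairs.
-/

set_option autoImplicit false

namespace Fermat.Agent.Residual.Sel

local notation "ℚbar" => AlgebraicClosure ℚ
local notation "Γℚ" => AlgebraicClosure ℚ ≃ₐ[ℚ] AlgebraicClosure ℚ

theorem sgn_eq_one_fun {v : RootVec} (h : v = 0) : (fun i => sgn (v i)) = 1 :=
  funext fun i => by rw [h]; rfl

theorem pairingCut_of_roots {π : Γℚ →* Equiv.Perm (Fin 3)} {B : Finset ℕ}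
    (e : Fin 3 → ℚbar) (he : Function.Injective e) (hπ : ∀ g i, g (e i) = e (π g i))
    (hinf : π complexConjugation ≠ 1) (h2 : 2 ∈ B)
    (hunr : ∀ ℓ : ℕ, ℓ.Prime → ℓ ∉ B → ∀ A : ValuationSubring ℚbar, A.LiesOverPrime ℓ →
      ∀ g ∈ A.inertiaSubgroupIn ℚ, π g = 1)
    (hfixB : ∀ b ∈ B, HasFixedRootAt π b) : PairingCut π B := by
  intro Q hQ q hq hqB hqQ hq2 A hA τ hτ i hτ1 hτi x hx hxτ y hy
  by_contra hyr
  have := Fact.mk hq
  have hpl : ∀ v : ℕ, ∀ [hv : Fact v.Prime], (padicPlace v).LiesOverPrime v := fun v hv =>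
    PoitouTate.liesOverPrime_padicPlace ⟨v, hv.out⟩
  obtain ⟨j, hj, g, hg⟩ :=
    exists_local_ne_zero (hunr q hq hqB) hA hτ hτ1 hτi hx.cocycle hxτ
  refine Conic.false_of_crossing_pair e he π hπ (fun g i => sgn (x g i)) (fun g i => sgn (y g i))
    hx.cocycle.isTwist hy.cocycle.isTwist (fun g => prod_sgn _ (hx.cocycle.sum_eq g))
    (fun g => prod_sgn _ (hy.cocycle.sum_eq g)) hx.cocycle.hasLevel hy.cocycle.hasLevel hinf
    (B ∪ Q) (Finset.mem_union_left Q h2) q (by simp [hqB, hqQ]) ?_ ?_ ?_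
  · intro v hv hvf
    have hfix : HasFixedRootAt π v := by
      rcases Finset.mem_union.1 hv with h | h
      · exact hfixB v h
      · exact (hQ v h).2.2
    obtain ⟨k, hk⟩ := hfix (padicPlace v) (hpl v)
    refine ⟨k, fun s => ?_⟩
    have hs := localGaloisToGlobal_mem_decompositionSubgroup v s
    refine ⟨hk _ hs, (sgn_eq_one _).2 ?_, (sgn_eq_one _).2 ?_⟩
    · exact hx.lineType v hvf.out (Finset.mem_union.1 hv) (padicPlace v) (hpl v) k hk _ hs
    · exact hy.lineType v hvf.out ((Finset.mem_union.1 hv).imp_right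
        (Finset.mem_insert_of_mem ·)) (padicPlace v) (hpl v) k hk _ hs
  · intro v hvf hv hvq s hs
    rw [Finset.notMem_union] at hv
    exact ⟨hunr v hvf.out hv.1 _ (hpl v) s hs,
      sgn_eq_one_fun (hx.unramified v hvf.out hv.1 hv.2 _ (hpl v) s hs),
      sgn_eq_one_fun (hy.unramified v hvf.out hv.1 (by simp [hvq, hv.2]) _ (hpl v) s hs)⟩
  · refine ⟨j, fun s => ?_, fun s hs => ?_, ⟨g, fun h => hg ((sgn_eq_one _).1 h)⟩, ?_⟩
    · have hs := localGaloisToGlobal_mem_decompositionSubgroup q s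
      exact ⟨hj _ hs, (sgn_eq_one _).2 (hy.lineType q hq
        (Or.inr (Finset.mem_insert_self q Q)) (padicPlace q) (hpl q) j hj _ hs)⟩
    · exact congrFun (sgn_eq_one_fun (hx.unramified q hq hqB hqQ _ (hpl q) s hs)) j
    · by_contra h
      push Not at h
      refine hyr (unramifiedAt_of_one_place hy.cocycle hq (hunr q hq hqB) (hpl q) fun s hs => ?_)
      exact funext fun k => (sgn_eq_one _).1 (congrFun (h s hs) k)

end Fermat.Agent.Residual.Sel
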