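/-
Residual modularity at three: the auxiliary primes.
-/
import Fermat.Agent.Residual.Defs
import Fermat.Agent.Residual.SelDatum
import Fermat.Agent.Residual.SelPairing

set_option autoImplicit false

noncomputable section

open Matrix

namespace Fermat.Agent.Residual

local notation "Qbar" => AlgebraicClosure ℚ
local notation "Γℚ" => (AlgebraicClosure ℚ ≃ₐ[ℚ] AlgebraicClosure ℚ)

/-- A bounded nonempty set of auxiliary primes, independent in number of the two-adic precision,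
kills the Selmer group; each has Frobenius with eigenvalues `q` and `1` modulo `2 ^ M`. -/
theorem exists_auxSet (D : Datum) :
    ∃ C : ℕ, ∀ M : ℕ, 3 ≤ M → ∀ (ε : ℕ → ℤ) (ρ : Γℚ →* GL (Fin 2) (ZMod (2 ^ M))),
      IsLift D ∅ ε ρ → Function.Surjective ρ →
      ∃ Q : Finset ℕ, IsAuxSet D Q ∧ Q.Nonempty ∧ Q.card ≤ C ∧ SelVanishes D Q ∧
        ∀ q ∈ Q, q % 2 ^ M = 1 ∧ ∀ A : ValuationSubring Qbar, A.LiesOverPrime q →
          ∀ τ : Γℚ, A.IsFrobeniusAt τ q →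
            ((ρ τ : Matrix (Fin 2) (Fin 2) (ZMod (2 ^ M)))).trace = 1 + (q : ZMod (2 ^ M)) := by
  classical
  obtain ⟨e, he, hπe⟩ := Sel.exists_roots (Sel.rootPerm_surjective D) (Sel.rootPerm_level D)
  have hcut := Sel.pairingCut_of_roots e he hπe (Sel.rootPerm_complexConjugation D) D.two_mem
    (Sel.rootPerm_unram D) fun b hb => Sel.hasFixedRootAt_bad hb
  obtain ⟨N, hN⟩ := Sel.exists_auxiliary_primes (Sel.rootPerm D) D.B D.two_mem
    (Sel.rootPerm_surjective D) (Sel.rootPerm_level D) (Sel.rootPerm_unram D) hcut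
  refine ⟨N, fun M hM ε ρ hρ hsurj => ?_⟩
  have hM0 : M ≠ 0 := by omega
  obtain ⟨Q, hne, hcard, htriv, haux⟩ := hN M (by omega) ρ hsurj hρ.cont
    (Sel.rootPerm_iff_isOneModTwo hM0 hρ)
    (fun ℓ hℓ hℓB A hA τ hτ => Sel.det_frobenius hρ hℓ hℓB hA hτ)
  -- every Frobenius element over an auxiliary prime is conjugate to the chosen one
  have hfrob : ∀ q ∈ Q, ∀ A : ValuationSubring Qbar, A.LiesOverPrime q →
      ∀ τ : Γℚ, A.IsFrobeniusAt τ q →
        (ρ τ : Matrix (Fin 2) (Fin 2) (ZMod (2 ^ M))).trace = 1 + (q : ZMod (2 ^ M)) ∧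
          D.ρbar τ ≠ 1 ∧ D.ρbar τ ^ 2 = 1 := by
    intro q hq A' hA' τ' hτ'
    obtain ⟨hqp, hqB, hq1, -, A, hA, τ, hτ, hτ1, c, hc⟩ := haux q hq
    obtain ⟨h, hh⟩ := Sel.exists_conj_frobenius ρ hqp
      (fun P hP σ hσ => hρ.unram q hqp (by simpa using hqB) P hP σ hσ) hA hA' hτ hτ'
    obtain ⟨h', hh'⟩ := Sel.exists_conj_frobenius D.ρbar hqp
      (fun P hP σ hσ => D.unram q hqp hqB P hP σ hσ) hA hA' hτ hτ'
    have hb1 : D.ρbar τ ≠ 1 := fun h => hτ1 (Sel.rootPerm_eq_one_iff.2 h)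
    have hb2 : D.ρbar τ * D.ρbar τ = 1 := by
      rw [← map_mul, ← Sel.rootPerm_eq_one_iff, Sel.rootPerm_iff_isOneModTwo hM0 hρ, map_mul,
        Units.val_mul, hc, Matrix.mul_fin_two]
      exact Sel.isOneModTwo_of (by simp) ⟨c, by ring⟩ (by simp) (by simp)
    refine ⟨?_, ?_, ?_⟩
    · rw [hh, Units.val_mul, Units.val_mul, Matrix.trace_units_conj, hc, Matrix.trace_fin_two_of]
      have : ((q : ℕ) : ZMod (2 ^ M)) = 1 := by
        rw [← ZMod.natCast_mod, hq1, Nat.cast_one]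
      rw [this]
    · rw [hh']
      simpa [conj_eq_one_iff] using hb1
    · rw [hh', sq, show D.ρbar h' * D.ρbar τ * (D.ρbar h')⁻¹ *
        (D.ρbar h' * D.ρbar τ * (D.ρbar h')⁻¹) =
        D.ρbar h' * (D.ρbar τ * D.ρbar τ) * (D.ρbar h')⁻¹ by group, hb2, mul_one, mul_inv_cancel]
  refine ⟨Q, fun q hq => ⟨(haux q hq).1, (haux q hq).2.1, fun A hA τ hτ => (hfrob q hq A hA τ hτ).2⟩,
    hne, hcard, fun x hx => Sel.isCob_of_coords (htriv _ (Sel.isSel_coords ?_ hx)),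
    fun q hq => ⟨(haux q hq).2.2.1, fun A hA τ hτ => (hfrob q hq A hA τ hτ).1⟩⟩
  intro q hq A hA
  obtain ⟨τ, hτ⟩ := Galois.exists_isFrobeniusAt (haux q hq).1 hA
  exact ⟨τ, hτ.mem_decompositionSubgroup,
    fun h => (hfrob q hq A hA τ hτ).2.1 (Sel.rootPerm_eq_one_iff.1 h)⟩

end Fermat.Agent.Residual

end
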