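/-
Matrix facts for the two-adic representation of a dihedral curve: subgroups of `GL₂(ℤ/2^M)`
with full image mod two, and the six elements of `GL₂(𝔽₂)`.
-/
import Mathlib.LinearAlgebra.Matrix.GeneralLinearGroup.Defs
import Mathlib.LinearAlgebra.Matrix.Determinant.Basic
import Mathlib.Data.ZMod.Basic
import Mathlib.AlgebraicGeometry.EllipticCurve.Weierstrass
import Mathlib.Tactic

set_option autoImplicit false

noncomputable section

open Matrix

namespace Fermat.Agent.Residual.CurveDatum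

/-- Reduction modulo two. -/
abbrev redTwo (M : ℕ) (hM : M ≠ 0) : ZMod (2 ^ M) →+* ZMod 2 :=
  ZMod.castHom (dvd_pow_self 2 hM) (ZMod 2)

theorem zmodTwo_cases (x : ZMod 2) : x = 0 ∨ x = 1 := by
  revert x; decide

/-- The units of `ℤ/2^M` are the elements that are odd. -/
theorem isUnit_iff_redTwo {M : ℕ} (hM : M ≠ 0) (x : ZMod (2 ^ M)) :
    IsUnit x ↔ redTwo M hM x = 1 := by
  constructor
  · intro h
    rcases zmodTwo_cases (redTwo M hM x) with h0 | h1
    · exact absurd ((h.map (redTwo M hM))) (by rw [h0]; exact not_isUnit_zero)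
    · exact h1
  · intro h
    haveI : NeZero (2 ^ M) := ⟨pow_ne_zero M two_ne_zero⟩
    obtain ⟨n, rfl⟩ : ∃ n : ℕ, (n : ZMod (2 ^ M)) = x := ⟨x.val, ZMod.natCast_zmod_val x⟩
    rw [map_natCast, ← Nat.cast_one, ZMod.natCast_eq_natCast_iff'] at h
    rw [ZMod.isUnit_iff_coprime]
    exact Nat.Coprime.pow_right M (Nat.coprime_two_right.2 (Nat.odd_iff.2 h))

variable {R : Type*} [CommRing R]

/-- Upper unitriangular matrices. -/
def upper (x : R) : GL (Fin 2) R where
  val := !![1, x; 0, 1]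
  inv := !![1, -x; 0, 1]
  val_inv := by ext i j; fin_cases i <;> fin_cases j <;> simp [Matrix.mul_apply, Fin.sum_univ_two]
  inv_val := by ext i j; fin_cases i <;> fin_cases j <;> simp [Matrix.mul_apply, Fin.sum_univ_two]

/-- Lower unitriangular matrices. -/
def lower (x : R) : GL (Fin 2) R where
  val := !![1, 0; x, 1]
  inv := !![1, 0; -x, 1]
  val_inv := by ext i j; fin_cases i <;> fin_cases j <;> simp [Matrix.mul_apply, Fin.sum_univ_two]
  inv_val := by ext i j; fin_cases i <;> fin_cases j <;> simp [Matrix.mul_apply, Fin.sum_univ_two]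

@[simp] theorem coe_upper (x : R) : ((upper x : GL (Fin 2) R) : Matrix (Fin 2) (Fin 2) R) =
    !![1, x; 0, 1] := rfl

@[simp] theorem coe_lower (x : R) : ((lower x : GL (Fin 2) R) : Matrix (Fin 2) (Fin 2) R) =
    !![1, 0; x, 1] := rfl

theorem upper_pow (x : R) (j : ℕ) : upper x ^ j = upper (j * x) := by
  induction j with
  | zero => ext i k; fin_cases i <;> fin_cases k <;> simp
  | succ j ih =>
    rw [pow_succ, ih]
    ext i k
    fin_cases i <;> fin_cases k <;> simp [Matrix.mul_apply, Fin.sum_univ_two] <;> ring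

theorem lower_pow (x : R) (j : ℕ) : lower x ^ j = lower (j * x) := by
  induction j with
  | zero => ext i k; fin_cases i <;> fin_cases k <;> simp
  | succ j ih =>
    rw [pow_succ, ih]
    ext i k
    fin_cases i <;> fin_cases k <;> simp [Matrix.mul_apply, Fin.sum_univ_two] <;> ring

/-- A matrix of determinant one with invertible lower left entry is a product of three
unitriangular matrices. -/
theorem eq_upper_lower_upper (g : GL (Fin 2) R) (hdet : (g : Matrix (Fin 2) (Fin 2) R).det = 1)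
    (u : Rˣ) (hu : (u : R) = g 1 0) :
    g = upper ((g 0 0 - 1) * ↑u⁻¹) * lower (g 1 0) * upper ((g 1 1 - 1) * ↑u⁻¹) := by
  have h1 : g 1 0 * (↑u⁻¹ : R) = 1 := by rw [← hu, Units.mul_inv]
  rw [Matrix.det_fin_two] at hdet
  ext i j
  fin_cases i <;> fin_cases j <;>
    simp [Matrix.mul_apply, Fin.sum_univ_two]
  · linear_combination -(g 0 0 - 1) * h1
  · linear_combination -(g 0 1) * h1 - (↑u⁻¹ : R) * hdet -
      (g 0 0 - 1) * (g 1 1 - 1) * (↑u⁻¹ : R) * h1
  · linear_combination -(g 1 1 - 1) * h1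

section ZMod

variable {M : ℕ} (hM : M ≠ 0) {H : Subgroup (GL (Fin 2) (ZMod (2 ^ M)))}

theorem upper_mem_of_unit (u : (ZMod (2 ^ M))ˣ) (hu : upper (u : ZMod (2 ^ M)) ∈ H)
    (x : ZMod (2 ^ M)) : upper x ∈ H := by
  haveI : NeZero (2 ^ M) := ⟨pow_ne_zero M two_ne_zero⟩
  have h := pow_mem hu (x * ↑u⁻¹).val
  rwa [upper_pow, ZMod.natCast_zmod_val, mul_assoc, Units.inv_mul, mul_one] at h

theorem lower_mem_of_unit (u : (ZMod (2 ^ M))ˣ) (hu : lower (u : ZMod (2 ^ M)) ∈ H)
    (x : ZMod (2 ^ M)) : lower x ∈ H := by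
  haveI : NeZero (2 ^ M) := ⟨pow_ne_zero M two_ne_zero⟩
  have h := pow_mem hu (x * ↑u⁻¹).val
  rwa [lower_pow, ZMod.natCast_zmod_val, mul_assoc, Units.inv_mul, mul_one] at h

include hM in
/-- A subgroup containing the standard transvection, not upper triangular mod two, with all
determinants, is everything. -/
theorem eq_top_of_upper_mem (hT : upper (1 : ZMod (2 ^ M)) ∈ H)
    (hlow : ∃ g ∈ H, redTwo M hM (g 1 0) = 1)
    (hdet : ∀ u : (ZMod (2 ^ M))ˣ, ∃ g ∈ H, (g : Matrix (Fin 2) (Fin 2) (ZMod (2 ^ M))).det = u) :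
    H = ⊤ := by
  have hU : ∀ x, upper x ∈ H := upper_mem_of_unit 1 hT
  obtain ⟨g, hgH, hg⟩ := hlow
  obtain ⟨c, hc⟩ := (isUnit_iff_redTwo hM _).2 hg
  -- a conjugate of the transvection is lower unitriangular
  set g' : GL (Fin 2) (ZMod (2 ^ M)) := upper (-(g 0 0) * ↑c⁻¹) * g with hg'
  have hg'H : g' ∈ H := mul_mem (hU _) hgH
  have h00 : g' 0 0 = 0 := by
    simp [hg', Matrix.mul_apply, Fin.sum_univ_two]
    rw [← hc, mul_assoc, Units.inv_mul, mul_one, add_neg_cancel]
  obtain ⟨D, hD⟩ : IsUnit (g' : Matrix (Fin 2) (Fin 2) (ZMod (2 ^ M))).det :=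
    (Matrix.isUnit_iff_isUnit_det _).1 g'.isUnit
  have h10 : g' 1 0 = c := by
    simp [hg', Matrix.mul_apply, Fin.sum_univ_two, hc]
  have hL : lower (↑(-(c * c) * D⁻¹ : (ZMod (2 ^ M))ˣ) : ZMod (2 ^ M)) ∈ H := by
    have key : g' * upper 1 = lower (↑(-(c * c) * D⁻¹ : (ZMod (2 ^ M))ˣ) : ZMod (2 ^ M)) * g' := by
      have hD' : -(g' 0 1 * g' 1 0) = (D : ZMod (2 ^ M)) := by
        rw [hD, Matrix.det_fin_two, h00, zero_mul, zero_sub]
      have hDi : g' 0 1 * g' 1 0 * (↑D⁻¹ : ZMod (2 ^ M)) = -1 := by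
        rw [show g' 0 1 * g' 1 0 = -(D : ZMod (2 ^ M)) by rw [← hD', neg_neg], neg_mul,
          Units.mul_inv]
      ext i j
      fin_cases i <;> fin_cases j <;>
        simp [Matrix.mul_apply, Fin.sum_univ_two, h00, h10]
      linear_combination (norm := ring_nf) (c : ZMod (2 ^ M)) * hDi.trans rfl
      rw [h10]
      ring
    rw [← mul_inv_eq_iff_eq_mul] at key
    rw [← key]
    exact mul_mem (mul_mem hg'H hT) (inv_mem hg'H)
  have hLall : ∀ x, lower x ∈ H := lower_mem_of_unit _ hL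
  have hSL : ∀ h : GL (Fin 2) (ZMod (2 ^ M)),
      (h : Matrix (Fin 2) (Fin 2) (ZMod (2 ^ M))).det = 1 → h ∈ H := by
    intro h hh
    have main : ∀ h : GL (Fin 2) (ZMod (2 ^ M)),
        (h : Matrix (Fin 2) (Fin 2) (ZMod (2 ^ M))).det = 1 → IsUnit (h 1 0) → h ∈ H := by
      intro h hh ⟨u, hu⟩
      rw [eq_upper_lower_upper h hh u hu]
      exact mul_mem (mul_mem (hU _) (hLall _)) (hU _)
    by_cases hc0 : IsUnit (h 1 0)
    · exact main h hh hc0
    have ha : redTwo M hM (h 0 0) = 1 := by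
      have h1 := congrArg (redTwo M hM) hh
      rw [Matrix.det_fin_two, map_sub, map_mul, map_mul, map_one,
        (zmodTwo_cases (redTwo M hM (h 1 0))).resolve_right fun h' =>
          hc0 ((isUnit_iff_redTwo hM _).2 h'), mul_zero, sub_zero] at h1
      rcases zmodTwo_cases (redTwo M hM (h 0 0)) with h0 | h0
      · rw [h0, zero_mul] at h1; exact absurd h1 zero_ne_one
      · exact h0
    have hmem : lower 1 * h ∈ H := by
      refine main _ ?_ ((isUnit_iff_redTwo hM _).2 ?_)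
      · rw [Units.val_mul, Matrix.det_mul, hh, mul_one, coe_lower, Matrix.det_fin_two]
        simp
      · have h10' : redTwo M hM (h 1 0) = 0 :=
          (zmodTwo_cases _).resolve_right fun h' => hc0 ((isUnit_iff_redTwo hM _).2 h')
        have e : (lower (1 : ZMod (2 ^ M)) * h) 1 0 = h 0 0 + h 1 0 := by
          simp [Matrix.mul_apply, Fin.sum_univ_two]
        rw [e, map_add, ha, h10', add_zero]
    have h2 := mul_mem (inv_mem (hLall 1)) hmem
    rwa [inv_mul_cancel_left] at h2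
  refine eq_top_iff.2 fun h _ => ?_
  obtain ⟨u, hu⟩ := (Matrix.isUnit_iff_isUnit_det _).1 h.isUnit
  obtain ⟨d, hd, hdu⟩ := hdet u
  have h3 : d⁻¹ * h ∈ H := by
    refine hSL _ ?_
    have h4 : (d : Matrix (Fin 2) (Fin 2) (ZMod (2 ^ M))).det *
        ((d⁻¹ : GL (Fin 2) (ZMod (2 ^ M))) : Matrix (Fin 2) (Fin 2) (ZMod (2 ^ M))).det = 1 := by
      rw [← Matrix.det_mul, ← Units.val_mul, mul_inv_cancel, Units.val_one, Matrix.det_one]
    rw [Units.val_mul, Matrix.det_mul, ← hu, ← hdu]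
    linear_combination h4
  simpa using mul_mem hd h3

include hM in
/-- A subgroup with a nontrivial unipotent element mod two, irreducible mod two and with all
determinants is everything. -/
theorem eq_top_of_unipotent_mem {t : GL (Fin 2) (ZMod (2 ^ M))} (ht : t ∈ H)
    (hnil : ((t : Matrix (Fin 2) (Fin 2) (ZMod (2 ^ M))) - 1) *
      ((t : Matrix (Fin 2) (Fin 2) (ZMod (2 ^ M))) - 1) = 0)
    (hne : (t : Matrix (Fin 2) (Fin 2) (ZMod (2 ^ M))).map (redTwo M hM) ≠ 1)
    (hirr : ∀ v : Fin 2 → ZMod 2, v ≠ 0 →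
      ∃ g ∈ H, (g : Matrix (Fin 2) (Fin 2) (ZMod (2 ^ M))).map (redTwo M hM) *ᵥ v ≠ v)
    (hdet : ∀ u : (ZMod (2 ^ M))ˣ, ∃ g ∈ H, (g : Matrix (Fin 2) (Fin 2) (ZMod (2 ^ M))).det = u) :
    H = ⊤ := by
  set n := (t : Matrix (Fin 2) (Fin 2) (ZMod (2 ^ M))) - 1 with hn
  set r := redTwo M hM
  have e00 := congrFun (congrFun hnil 0) 0
  have e01 := congrFun (congrFun hnil 0) 1
  have e10 := congrFun (congrFun hnil 1) 0
  have e11 := congrFun (congrFun hnil 1) 1
  simp [Matrix.mul_apply, Fin.sum_univ_two] at e00 e01 e10 e11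
  -- the change of basis
  obtain ⟨G, hG⟩ : ∃ G : GL (Fin 2) (ZMod (2 ^ M)), t * G = G * upper 1 := by
    by_cases hc : r (n 1 0) = 1
    · have hdetG : IsUnit (!![n 0 0, 1; n 1 0, 0] : Matrix (Fin 2) (Fin 2) (ZMod (2 ^ M))).det := by
        rw [Matrix.det_fin_two]
        simpa using (isUnit_iff_redTwo hM _).2 hc
      obtain ⟨G, hG⟩ := (Matrix.isUnit_iff_isUnit_det _).2 hdetG
      refine ⟨G, Units.ext ?_⟩
      rw [Units.val_mul, Units.val_mul, hG, coe_upper,
        show (t : Matrix (Fin 2) (Fin 2) (ZMod (2 ^ M))) = n + 1 from (sub_add_cancel _ _).symm,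
        Matrix.add_mul, Matrix.one_mul]
      ext i j
      fin_cases i <;> fin_cases j <;> simp [Matrix.mul_apply, Fin.sum_univ_two, e00, e10]
    · have hb : r (n 0 1) = 1 := by
        have h10 := (zmodTwo_cases (r (n 1 0))).resolve_right hc
        rcases zmodTwo_cases (r (n 0 1)) with h01 | h01
        swap
        · exact h01
        exfalso
        have h00 : r (n 0 0) = 0 := by
          have := congrArg r e00
          rw [map_add, map_mul, map_mul, map_zero, h10, h01, mul_zero, add_zero] at this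
          exact mul_self_eq_zero.1 this
        have h11 : r (n 1 1) = 0 := by
          have := congrArg r e11
          rw [map_add, map_mul, map_mul, map_zero, h10, h01, mul_zero, zero_add] at this
          exact mul_self_eq_zero.1 this
        refine hne ?_
        have e : ((t : Matrix (Fin 2) (Fin 2) (ZMod (2 ^ M))) = n + 1) := (sub_add_cancel _ _).symm
        rw [e]
        ext i j
        fin_cases i <;> fin_cases j <;> simp [h00, h01, h10, h11]
      have hdetG : IsUnit (!![n 0 1, 0; n 1 1, 1] : Matrix (Fin 2) (Fin 2) (ZMod (2 ^ M))).det := by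
        rw [Matrix.det_fin_two]
        simpa using (isUnit_iff_redTwo hM _).2 hb
      obtain ⟨G, hG⟩ := (Matrix.isUnit_iff_isUnit_det _).2 hdetG
      refine ⟨G, Units.ext ?_⟩
      rw [Units.val_mul, Units.val_mul, hG, coe_upper,
        show (t : Matrix (Fin 2) (Fin 2) (ZMod (2 ^ M))) = n + 1 from (sub_add_cancel _ _).symm,
        Matrix.add_mul, Matrix.one_mul]
      ext i j
      fin_cases i <;> fin_cases j <;> simp [Matrix.mul_apply, Fin.sum_univ_two, e01, e11] <;> ring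
  -- the conjugate subgroup
  have htop : H.comap (MulAut.conj G).toMonoidHom = ⊤ := by
    refine eq_top_of_upper_mem hM ?_ ?_ fun u => ?_
    · show G * upper 1 * G⁻¹ ∈ H
      rw [← hG, mul_inv_cancel_right]
      exact ht
    · set v : Fin 2 → ZMod 2 :=
        (G : Matrix (Fin 2) (Fin 2) (ZMod (2 ^ M))).map r *ᵥ ![1, 0] with hv
      have hGr : IsUnit ((G : Matrix (Fin 2) (Fin 2) (ZMod (2 ^ M))).map r) :=
        G.isUnit.map r.mapMatrix
      have hinj := Matrix.mulVec_injective_iff_isUnit.2 hGr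
      have hv0 : v ≠ 0 := fun h0 => by
        have := congrFun (hinj (h0.trans (Matrix.mulVec_zero _).symm)) 0
        simp at this
      obtain ⟨g, hg, hgv⟩ := hirr v hv0
      refine ⟨G⁻¹ * g * G, by show G * (G⁻¹ * g * G) * G⁻¹ ∈ H; simpa [mul_assoc] using hg, ?_⟩
      rcases zmodTwo_cases (r ((G⁻¹ * g * G : GL (Fin 2) (ZMod (2 ^ M))) 1 0)) with h0 | h1
      swap
      · exact h1
      exfalso
      set g₁ := G⁻¹ * g * G with hg₁
      have h00 : r (g₁ 0 0) = 1 := by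
        have hd : IsUnit (((g₁ : Matrix (Fin 2) (Fin 2) (ZMod (2 ^ M))).map r).det) :=
          (Matrix.isUnit_iff_isUnit_det _).1 (g₁.isUnit.map r.mapMatrix)
        rw [Matrix.det_fin_two] at hd
        simp only [Matrix.map_apply, h0, mul_zero, sub_zero] at hd
        exact (zmodTwo_cases _).resolve_left fun h => not_isUnit_zero (M₀ := ZMod 2)
          (by rwa [h, zero_mul] at hd)
      apply hgv
      have hfix : (g₁ : Matrix (Fin 2) (Fin 2) (ZMod (2 ^ M))).map r *ᵥ ![1, 0] = ![1, 0] := by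
        ext i
        fin_cases i <;> simp [Matrix.mulVec, dotProduct, Fin.sum_univ_two, h0, h00]
      have hcomm : g * G = G * g₁ := by rw [hg₁, ← mul_assoc, ← mul_assoc, mul_inv_cancel, one_mul]
      rw [hv, Matrix.mulVec_mulVec, ← Matrix.map_mul, ← Units.val_mul, hcomm, Units.val_mul,
        Matrix.map_mul, ← Matrix.mulVec_mulVec, hfix]
    · obtain ⟨g, hg, hgu⟩ := hdet u
      refine ⟨G⁻¹ * g * G, by show G * (G⁻¹ * g * G) * G⁻¹ ∈ H; simpa [mul_assoc] using hg, ?_⟩
      rw [Units.val_mul, Units.val_mul, Matrix.det_units_conj', hgu]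
  refine eq_top_iff.2 fun h _ => ?_
  have h1 : G⁻¹ * h * G ∈ H.comap (MulAut.conj G).toMonoidHom := htop ▸ Subgroup.mem_top _
  have h2 : G * (G⁻¹ * h * G) * G⁻¹ ∈ H := h1
  simpa [mul_assoc] using h2

end ZMod

section FTwo

theorem eq_of_fix_vec_aux : ∀ a b c d v w : ZMod 2, a * d - b * c = 1 →
    ¬(v = 0 ∧ w = 0) → a * v + b * w = v → c * v + d * w = w →
    ¬(a = 1 ∧ b = 0 ∧ c = 0 ∧ d = 1) →
    (a = 1 + v * w ∧ b = v ∧ c = w ∧ d = 1 + v * w) := by
  decide

theorem det_GL_eq_one (g : GL (Fin 2) (ZMod 2)) : g 0 0 * g 1 1 - g 0 1 * g 1 0 = 1 := by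
  have h : IsUnit (g : Matrix (Fin 2) (Fin 2) (ZMod 2)).det :=
    (Matrix.isUnit_iff_isUnit_det _).1 g.isUnit
  rw [Matrix.det_fin_two] at h
  exact (zmodTwo_cases _).resolve_left h.ne_zero

/-- At most one nontrivial element of `GL₂(𝔽₂)` fixes a given nonzero vector. -/
theorem eq_of_fix_vec {g h : GL (Fin 2) (ZMod 2)} {v : Fin 2 → ZMod 2} (hv : v ≠ 0)
    (hg : (g : Matrix (Fin 2) (Fin 2) (ZMod 2)) *ᵥ v = v)
    (hh : (h : Matrix (Fin 2) (Fin 2) (ZMod 2)) *ᵥ v = v) (hg1 : g ≠ 1) (hh1 : h ≠ 1) :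
    g = h := by
  have ne1 : ∀ k : GL (Fin 2) (ZMod 2), k ≠ 1 →
      ¬(k 0 0 = 1 ∧ k 0 1 = 0 ∧ k 1 0 = 0 ∧ k 1 1 = 1) := by
    rintro k hk ⟨h1, h2, h3, h4⟩
    refine hk (Units.ext ?_)
    ext i j
    fin_cases i <;> fin_cases j <;> simp [h1, h2, h3, h4]
  have hg0 := congrFun hg 0
  have hg2 := congrFun hg 1
  have hh0 := congrFun hh 0
  have hh2 := congrFun hh 1
  simp [Matrix.mulVec, dotProduct, Fin.sum_univ_two] at hg0 hg2 hh0 hh2
  have hv' : ¬(v 0 = 0 ∧ v 1 = 0) := fun h' => hv (by ext i; fin_cases i <;> simp [h'.1, h'.2])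
  obtain ⟨a1, a2, a3, a4⟩ :=
    eq_of_fix_vec_aux _ _ _ _ _ _ (det_GL_eq_one g) hv' hg0 hg2 (ne1 g hg1)
  obtain ⟨b1, b2, b3, b4⟩ :=
    eq_of_fix_vec_aux _ _ _ _ _ _ (det_GL_eq_one h) hv' hh0 hh2 (ne1 h hh1)
  refine Units.ext ?_
  ext i j
  fin_cases i <;> fin_cases j
  exacts [a1.trans b1.symm, a2.trans b2.symm, a3.trans b3.symm, a4.trans b4.symm]

/-- The difference product of three labelled numbers, in the labelling of the nonzero vectors. -/
def diffProd {K : Type*} [Field K] (E : ZMod 2 × ZMod 2 → K) (a b : ZMod 2 × ZMod 2) : K :=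
  (E a - E b) * (E a - E (a + b)) * (E b - E (a + b))

/-- Transporting the difference product by `g` multiplies it by the sign of `g`. -/
theorem diffProd_sign {K : Type*} [Field K] [CharZero K] (E : ZMod 2 × ZMod 2 → K)
    (g : GL (Fin 2) (ZMod 2)) (hE : diffProd E (1, 0) (0, 1) ≠ 0) :
    diffProd E (g 0 0, g 1 0) (g 0 1, g 1 1) = diffProd E (1, 0) (0, 1) ↔ g ^ 3 = 1 := by
  have h3 : g ^ 3 = 1 ↔ (g 0 0 * (g 0 0 * g 0 0 + g 0 1 * g 1 0) + g 0 1 * (g 1 0 * g 0 0 + g 1 1 * g 1 0) = 1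
      ∧ g 0 0 * (g 0 0 * g 0 1 + g 0 1 * g 1 1) + g 0 1 * (g 1 0 * g 0 1 + g 1 1 * g 1 1) = 0
      ∧ g 1 0 * (g 0 0 * g 0 0 + g 0 1 * g 1 0) + g 1 1 * (g 1 0 * g 0 0 + g 1 1 * g 1 0) = 0
      ∧ g 1 0 * (g 0 0 * g 0 1 + g 0 1 * g 1 1) + g 1 1 * (g 1 0 * g 0 1 + g 1 1 * g 1 1) = 1) := by
    constructor
    · intro h
      have e : ((g : Matrix (Fin 2) (Fin 2) (ZMod 2))) * (g * g) = 1 := by
        rw [← Units.val_mul, ← Units.val_mul, ← mul_assoc, ← pow_two, ← pow_succ, h, Units.val_one]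
      have e00 := congrFun (congrFun e 0) 0
      have e01 := congrFun (congrFun e 0) 1
      have e10 := congrFun (congrFun e 1) 0
      have e11 := congrFun (congrFun e 1) 1
      simp [Matrix.mul_apply, Fin.sum_univ_two] at e00 e01 e10 e11
      exact ⟨e00, e01, e10, e11⟩
    · rintro ⟨h1, h2, h3, h4⟩
      refine Units.ext ?_
      ext i j
      fin_cases i <;> fin_cases j <;>
        simp [pow_succ', Matrix.mul_apply, Fin.sum_univ_two, h1, h2, h3, h4]
  rw [h3]
  have hd := det_GL_eq_one g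
  generalize g 0 0 = a at *
  generalize g 0 1 = b at *
  generalize g 1 0 = c at *
  generalize g 1 1 = d at *
  have hneg : -diffProd E (1, 0) (0, 1) ≠ diffProd E (1, 0) (0, 1) := fun h => hE <| by
    have : (2 : K) * diffProd E (1, 0) (0, 1) = 0 := by linear_combination -h
    exact (mul_eq_zero.1 this).resolve_left two_ne_zero
  have s1 : (1 : ZMod 2) + 1 = 0 := rfl
  rcases zmodTwo_cases a with rfl | rfl <;> rcases zmodTwo_cases b with rfl | rfl <;>
    rcases zmodTwo_cases c with rfl | rfl <;> rcases zmodTwo_cases d with rfl | rfl <;>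
    simp [s1] at hd ⊢
  all_goals
    simp only [diffProd, Prod.mk_add_mk, add_zero, zero_add, s1] at hneg ⊢
    first
      | ring1
      | (intro h; exact hneg (by linear_combination h))
      | (intro h; exact hneg (by linear_combination -h))

end FTwo

/-- The discriminant of the two-torsion cubic from three distinct roots. -/
theorem delta_eq_sq_of_roots {R : Type*} [Field R] [CharZero R] (W : WeierstrassCurve R)
    {x y z : R} (hxy : x ≠ y) (hxz : x ≠ z) (hyz : y ≠ z)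
    (hx : 4 * x ^ 3 + W.b₂ * x ^ 2 + 2 * W.b₄ * x + W.b₆ = 0)
    (hy : 4 * y ^ 3 + W.b₂ * y ^ 2 + 2 * W.b₄ * y + W.b₆ = 0)
    (hz : 4 * z ^ 3 + W.b₂ * z ^ 2 + 2 * W.b₄ * z + W.b₆ = 0) :
    W.Δ = (4 * ((x - y) * (x - z) * (y - z))) ^ 2 := by
  have e1 : 4 * (x ^ 2 + x * y + y ^ 2) + W.b₂ * (x + y) + 2 * W.b₄ = 0 :=
    mul_left_cancel₀ (sub_ne_zero.2 hxy) (by linear_combination hx - hy)
  have e2 : 4 * (x ^ 2 + x * z + z ^ 2) + W.b₂ * (x + z) + 2 * W.b₄ = 0 :=
    mul_left_cancel₀ (sub_ne_zero.2 hxz) (by linear_combination hx - hz)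
  have h2 : W.b₂ = -4 * (x + y + z) :=
    mul_left_cancel₀ (sub_ne_zero.2 hyz) (by linear_combination e1 - e2)
  have h4 : W.b₄ = 2 * (x * y + x * z + y * z) :=
    mul_left_cancel₀ (two_ne_zero (α := R)) (by linear_combination e1 - (x + y) * h2)
  have h6 : W.b₆ = -4 * (x * y * z) := by linear_combination hx - x ^ 2 * h2 - 2 * x * h4
  refine mul_left_cancel₀ (show (4 : R) ≠ 0 by norm_num) ?_
  rw [show (4 : R) * W.Δ = -W.b₂ ^ 2 * (W.b₂ * W.b₆ - W.b₄ ^ 2) - 32 * W.b₄ ^ 3 - 108 * W.b₆ ^ 2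
    + 36 * W.b₂ * W.b₄ * W.b₆ by rw [← W.b_relation]; simp only [WeierstrassCurve.Δ]; ring,
    h2, h4, h6]
  ring

end Fermat.Agent.Residual.CurveDatum
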