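/-
The matrices of the Galois action on the torsion of an integral Weierstrass curve, in compatible
bases at two and at a power of two.
-/
import Fermat.Agent.Residual.CurveDatumMatrix
import Fermat.Agent.Weil.DetCyclotomic
import Fermat.Agent.ECRed.Frobenius
import Fermat.Agent.Mult.Main
import Mathlib.LinearAlgebra.Matrix.Basis

set_option autoImplicit false

noncomputable section

open scoped WeierstrassCurve.Affine
open Matrix WeierstrassCurve.Affine

namespace Fermat.Agent.Residual.CurveDatum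

local notation "Qbar" => AlgebraicClosure ℚ
local notation "Γℚ" => (AlgebraicClosure ℚ ≃ₐ[ℚ] AlgebraicClosure ℚ)

variable {W : WeierstrassCurve ℤ}

theorem isElliptic_qbar (hW : W.Δ ≠ 0) :
    ((W.map (Int.castRingHom ℚ))⁄Qbar).IsElliptic := by
  refine ⟨?_⟩
  change IsUnit ((W.map (Int.castRingHom ℚ)).map (algebraMap ℚ Qbar)).Δ
  rw [WeierstrassCurve.map_Δ, WeierstrassCurve.map_Δ, isUnit_iff_ne_zero]
  simpa using hW

theorem nonempty_basis (hW : W.Δ ≠ 0) {n : ℕ} (hn : n ≠ 0) :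
    Nonempty (Module.Basis (Fin 2) (ZMod n) (Mult.Tors W n)) := by
  haveI := isElliptic_qbar hW
  obtain ⟨e⟩ := EC.nonempty_torsionBy_linearEquiv (K := Qbar)
    (W := W.map (Int.castRingHom ℚ)) (n := n) (Nat.cast_ne_zero.2 hn)
  exact ⟨Module.Basis.ofEquivFun e⟩

/-- The Galois action on the torsion in a basis. -/
def repGL {n : ℕ} (b : Module.Basis (Fin 2) (ZMod n) (Mult.Tors W n)) :
    Γℚ →* GL (Fin 2) (ZMod n) :=
  MonoidHom.toHomUnits
    ((LinearMap.toMatrixAlgEquiv b :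
        Module.End (ZMod n) (Mult.Tors W n) →* Matrix (Fin 2) (Fin 2) (ZMod n)).comp
      (Point.galoisRepModuleEnd (K := Qbar) ℚ (W.map (Int.castRingHom ℚ)) n))

variable {n : ℕ} (b : Module.Basis (Fin 2) (ZMod n) (Mult.Tors W n))

theorem coe_repGL (σ : Γℚ) :
    (repGL b σ : Matrix (Fin 2) (Fin 2) (ZMod n)) =
      LinearMap.toMatrixAlgEquiv b
        (Point.galoisRepModuleEnd (K := Qbar) ℚ (W.map (Int.castRingHom ℚ)) n σ) := rfl

theorem repGL_apply (σ : Γℚ) (i j : Fin 2) : repGL b σ i j = b.repr (σ • b j) i := by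
  rw [coe_repGL, LinearMap.toMatrixAlgEquiv_apply, Point.galoisRepModuleEnd_apply]

theorem smul_basis (σ : Γℚ) (j : Fin 2) :
    σ • b j = repGL b σ 0 j • b 0 + repGL b σ 1 j • b 1 := by
  conv_lhs => rw [← b.sum_repr (σ • b j), Fin.sum_univ_two]
  rw [repGL_apply, repGL_apply]

theorem repGL_mulVec (σ : Γℚ) (x : Mult.Tors W n) :
    (repGL b σ : Matrix (Fin 2) (Fin 2) (ZMod n)) *ᵥ ⇑(b.repr x) = ⇑(b.repr (σ • x)) := by
  rw [coe_repGL]
  exact LinearMap.toMatrix_mulVec_repr b b _ x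

theorem repGL_eq_one_iff (σ : Γℚ) : repGL b σ = 1 ↔ ∀ x : Mult.Tors W n, σ • x = x := by
  constructor
  · intro h x
    refine b.repr.injective (DFunLike.coe_injective ?_)
    rw [← repGL_mulVec b σ x, h, Units.val_one, Matrix.one_mulVec]
  · intro h
    refine Units.ext ?_
    rw [coe_repGL, show Point.galoisRepModuleEnd (K := Qbar) ℚ (W.map (Int.castRingHom ℚ)) n σ = 1
      from LinearMap.ext fun x => h x, map_one, Units.val_one]

theorem trace_repGL (σ : Γℚ) :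
    (repGL b σ : Matrix (Fin 2) (Fin 2) (ZMod n)).trace =
      Point.galoisTrace (K := Qbar) ℚ (W.map (Int.castRingHom ℚ)) n σ := by
  rw [Point.galoisTrace_def]
  exact (LinearMap.trace_eq_matrix_trace (ZMod n) b _).symm

theorem det_repGL (σ : Γℚ) :
    (repGL b σ : Matrix (Fin 2) (Fin 2) (ZMod n)).det =
      LinearMap.det (Point.galoisRepModuleEnd (K := Qbar) ℚ (W.map (Int.castRingHom ℚ)) n σ) :=
  LinearMap.det_toMatrix b _

/-- Two bases give conjugate matrices. -/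
theorem exists_conj (b' : Module.Basis (Fin 2) (ZMod n) (Mult.Tors W n)) :
    ∃ P : GL (Fin 2) (ZMod n), ∀ σ : Γℚ, repGL b' σ = P * repGL b σ * P⁻¹ := by
  refine ⟨⟨b'.toMatrix b, b.toMatrix b', b'.toMatrix_mul_toMatrix_flip b,
    b.toMatrix_mul_toMatrix_flip b'⟩, fun σ => Units.ext ?_⟩
  exact (basis_toMatrix_mul_linearMap_toMatrix_mul_basis_toMatrix b' b b' b _).symm

theorem exists_level_repGL (hW : W.Δ ≠ 0) (hn : n ≠ 0) :
    ∃ L : IntermediateField ℚ Qbar, FiniteDimensional ℚ L ∧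
      ∀ σ ∈ L.fixingSubgroup, repGL b σ = 1 := by
  haveI := isElliptic_qbar hW
  obtain ⟨L, hL, h⟩ :=
    EC.exists_finiteDimensional_fixing_torsionBy (W := W.map (Int.castRingHom ℚ)) hn
  exact ⟨L, hL, fun σ hσ => (repGL_eq_one_iff b σ).2
    (h σ ((IntermediateField.mem_fixingSubgroup_iff L σ).1 hσ))⟩

section Compatible

variable {M : ℕ}

theorem val_smul_coe {n : ℕ} [NeZero n] (a : ZMod n) (x : Mult.Tors W n) :
    (a • x : Mult.Tors W n).1 = a.val • x.1 := by
  conv_lhs => rw [← ZMod.natCast_zmod_val a, Nat.cast_smul_eq_nsmul]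
  rfl

theorem two_pow_smul_eq_zero (x : Mult.Tors W (2 ^ M)) : (2 ^ M) • x.1 = 0 := by
  rw [← natCast_zsmul]
  exact Mult.torsion_zsmul_eq_zero x

/-- Multiplication by `2^(M-1)` from the `2^M`-torsion to the two-torsion. -/
def halve (hM : M ≠ 0) (x : Mult.Tors W (2 ^ M)) : Mult.Tors W 2 :=
  ⟨2 ^ (M - 1) • x.1, by
    rw [Submodule.mem_torsionBy_iff, natCast_zsmul, ← mul_nsmul, ← pow_succ,
      Nat.sub_add_cancel (Nat.one_le_iff_ne_zero.2 hM)]
    exact two_pow_smul_eq_zero x⟩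

theorem halve_smul_galois (hM : M ≠ 0) (σ : Γℚ) (x : Mult.Tors W (2 ^ M)) :
    halve hM (σ • x) = σ • halve hM x :=
  Subtype.ext (smul_comm (2 ^ (M - 1)) σ x.1)

theorem redTwo_eq_val (hM : M ≠ 0) (a : ZMod (2 ^ M)) : redTwo M hM a = ((a.val : ℕ) : ZMod 2) := by
  haveI : NeZero (2 ^ M) := ⟨pow_ne_zero M two_ne_zero⟩
  conv_lhs => rw [← ZMod.natCast_zmod_val a, map_natCast]

theorem halve_smul (hM : M ≠ 0) (a : ZMod (2 ^ M)) (x : Mult.Tors W (2 ^ M)) :
    halve hM (a • x) = redTwo M hM a • halve hM x := by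
  haveI : NeZero (2 ^ M) := ⟨pow_ne_zero M two_ne_zero⟩
  refine Subtype.ext ?_
  rw [redTwo_eq_val, Nat.cast_smul_eq_nsmul]
  show 2 ^ (M - 1) • (a • x : Mult.Tors W (2 ^ M)).1 = a.val • (2 ^ (M - 1) • x.1)
  rw [val_smul_coe, smul_comm]

theorem halve_add (hM : M ≠ 0) (x y : Mult.Tors W (2 ^ M)) :
    halve hM (x + y) = halve hM x + halve hM y :=
  Subtype.ext (smul_add (2 ^ (M - 1)) x.1 y.1)

/-- Coefficients of a relation between points halving to a basis are divisible by `2^M`. -/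
theorem eq_zero_of_relation (hM : M ≠ 0) {c : Module.Basis (Fin 2) (ZMod 2) (Mult.Tors W 2)}
    {x : Fin 2 → Mult.Tors W (2 ^ M)} (hx : ∀ j, halve hM (x j) = c j) {a b : ℕ}
    (h : a • (x 0).1 + b • (x 1).1 = 0) : 2 ^ M ∣ a ∧ 2 ^ M ∣ b := by
  suffices ∀ k ≤ M, 2 ^ k ∣ a ∧ 2 ^ k ∣ b from this M le_rfl
  intro k
  induction k with
  | zero => simp
  | succ k ih =>
    intro hk
    obtain ⟨⟨a', rfl⟩, ⟨b', rfl⟩⟩ := ih (Nat.le_of_succ_le hk)
    have h1 : (a' : ZMod 2) • c 0 + (b' : ZMod 2) • c 1 = 0 := by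
      rw [← hx, ← hx]
      refine Subtype.ext ?_
      rw [Nat.cast_smul_eq_nsmul, Nat.cast_smul_eq_nsmul]
      show a' • (2 ^ (M - 1) • (x 0).1) + b' • (2 ^ (M - 1) • (x 1).1) = 0
      obtain ⟨d, hd⟩ : ∃ d, M - 1 = d + k := ⟨M - 1 - k, by omega⟩
      have h2 := congrArg (fun P => 2 ^ d • P) h
      simp only [nsmul_add, nsmul_zero, smul_smul] at h2 ⊢
      rw [hd, pow_add, show a' * (2 ^ d * 2 ^ k) = 2 ^ d * (2 ^ k * a') by ring,
        show b' * (2 ^ d * 2 ^ k) = 2 ^ d * (2 ^ k * b') by ring]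
      exact h2
    have h2 := Fintype.linearIndependent_iff.1 c.linearIndependent ![(a' : ZMod 2), (b' : ZMod 2)]
      (by rw [Fin.sum_univ_two]; simpa using h1)
    have ha := h2 0
    have hb := h2 1
    simp only [Matrix.cons_val_zero, Matrix.cons_val_one, Matrix.cons_val_fin_one] at ha hb
    rw [pow_succ]
    exact ⟨mul_dvd_mul_left _ ((ZMod.natCast_eq_zero_iff a' 2).1 ha),
      mul_dvd_mul_left _ ((ZMod.natCast_eq_zero_iff b' 2).1 hb)⟩

theorem linearIndependent_of_halve (hM : M ≠ 0)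
    {c : Module.Basis (Fin 2) (ZMod 2) (Mult.Tors W 2)}
    {x : Fin 2 → Mult.Tors W (2 ^ M)} (hx : ∀ j, halve hM (x j) = c j) :
    LinearIndependent (ZMod (2 ^ M)) x := by
  haveI : NeZero (2 ^ M) := ⟨pow_ne_zero M two_ne_zero⟩
  refine Fintype.linearIndependent_iff.2 fun g hg => ?_
  have h := congrArg Subtype.val hg
  rw [Fin.sum_univ_two, Submodule.coe_add, val_smul_coe, val_smul_coe] at h
  obtain ⟨h0, h1⟩ := eq_zero_of_relation hM hx h
  intro i
  fin_cases i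
  · show g 0 = 0
    rw [← ZMod.natCast_zmod_val (g 0)]; exact (ZMod.natCast_eq_zero_iff _ _).2 h0
  · show g 1 = 0
    rw [← ZMod.natCast_zmod_val (g 1)]; exact (ZMod.natCast_eq_zero_iff _ _).2 h1

/-- A basis of the `2^M`-torsion above a given basis of the two-torsion. -/
theorem exists_basis_halve (hW : W.Δ ≠ 0) (hM : M ≠ 0)
    (c : Module.Basis (Fin 2) (ZMod 2) (Mult.Tors W 2)) :
    ∃ b : Module.Basis (Fin 2) (ZMod (2 ^ M)) (Mult.Tors W (2 ^ M)),
      ∀ j, halve hM (b j) = c j := by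
  haveI : NeZero (2 ^ M) := ⟨pow_ne_zero M two_ne_zero⟩
  obtain ⟨b₀⟩ := nonempty_basis hW (pow_ne_zero M two_ne_zero)
  -- the halves of the basis are independent
  have hind : LinearIndependent (ZMod 2) fun j => halve hM (b₀ j) := by
    refine Fintype.linearIndependent_iff.2 fun g hg => ?_
    have h := congrArg Subtype.val hg
    rw [Fin.sum_univ_two, Submodule.coe_add, val_smul_coe, val_smul_coe] at h
    change (g 0).val • (2 ^ (M - 1) • (b₀ 0).1) + (g 1).val • (2 ^ (M - 1) • (b₀ 1).1) = 0 at h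
    rw [smul_smul, smul_smul] at h
    have h' : (((g 0).val * 2 ^ (M - 1) : ℕ) : ZMod (2 ^ M)) • b₀ 0 +
        (((g 1).val * 2 ^ (M - 1) : ℕ) : ZMod (2 ^ M)) • b₀ 1 = 0 := by
      refine Subtype.ext ?_
      rw [Nat.cast_smul_eq_nsmul, Nat.cast_smul_eq_nsmul]
      exact h
    have h2 := Fintype.linearIndependent_iff.1 b₀.linearIndependent
      ![(((g 0).val * 2 ^ (M - 1) : ℕ) : ZMod (2 ^ M)),
        (((g 1).val * 2 ^ (M - 1) : ℕ) : ZMod (2 ^ M))]
      (by rw [Fin.sum_univ_two]; simpa using h')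
    have key : ∀ t : ZMod 2, (((t.val * 2 ^ (M - 1) : ℕ)) : ZMod (2 ^ M)) = 0 → t = 0 := by
      intro t ht
      rw [ZMod.natCast_eq_zero_iff] at ht
      have e : 2 ^ M = 2 * 2 ^ (M - 1) := by
        rw [← pow_succ', Nat.sub_add_cancel (Nat.one_le_iff_ne_zero.2 hM)]
      rw [e] at ht
      have h3 := Nat.dvd_of_mul_dvd_mul_right (pow_pos two_pos _) ht
      rw [← ZMod.natCast_zmod_val t]
      exact (ZMod.natCast_eq_zero_iff _ _).2 h3
    intro i
    fin_cases i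
    · exact key _ (h2 0)
    · exact key _ (h2 1)
  haveI := Fact.mk Nat.prime_two
  have hspan := hind.span_eq_top_of_card_eq_finrank (by
    rw [Fintype.card_fin, Module.finrank_eq_card_basis c, Fintype.card_fin])
  have hsurj : ∀ y : Mult.Tors W 2, ∃ x, halve hM x = y := by
    intro y
    obtain ⟨g, rfl⟩ := (Submodule.mem_span_range_iff_exists_fun _).1 (hspan ▸ Submodule.mem_top (x := y))
    refine ⟨((g 0).val : ZMod (2 ^ M)) • b₀ 0 + ((g 1).val : ZMod (2 ^ M)) • b₀ 1, ?_⟩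
    rw [halve_add, halve_smul, halve_smul, map_natCast, map_natCast, ZMod.natCast_zmod_val,
      ZMod.natCast_zmod_val, Fin.sum_univ_two]
  choose x hx using fun j => hsurj (c j)
  have hli := linearIndependent_of_halve hM hx
  haveI : Finite (Mult.Tors W (2 ^ M)) := Finite.of_equiv _ b₀.equivFun.symm.toEquiv
  refine ⟨Module.Basis.mk hli ?_, fun j => by rw [Module.Basis.mk_apply, hx]⟩
  have hinj : Function.Injective (Fintype.linearCombination (ZMod (2 ^ M)) x) :=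
    LinearMap.ker_eq_bot.1 (LinearMap.ker_eq_bot'.2 fun g hg => funext
      (Fintype.linearIndependent_iff.1 hli g hg))
  have hbij := hinj.bijective_of_nat_card_le
    (le_of_eq (Nat.card_congr b₀.equivFun.toEquiv))
  intro y _
  obtain ⟨g, rfl⟩ := hbij.2 y
  exact (Submodule.mem_span_range_iff_exists_fun _).2 ⟨g, rfl⟩

/-- Matrices in a basis above `c` reduce to those in `c`. -/
theorem repGL_map_redTwo (hM : M ≠ 0) {c : Module.Basis (Fin 2) (ZMod 2) (Mult.Tors W 2)}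
    {b : Module.Basis (Fin 2) (ZMod (2 ^ M)) (Mult.Tors W (2 ^ M))}
    (hb : ∀ j, halve hM (b j) = c j) (σ : Γℚ) :
    (repGL b σ : Matrix (Fin 2) (Fin 2) (ZMod (2 ^ M))).map (redTwo M hM) =
      (repGL c σ : Matrix (Fin 2) (Fin 2) (ZMod 2)) := by
  ext i j
  have h := congrArg (halve hM) (smul_basis b σ j)
  rw [halve_smul_galois, halve_add, halve_smul, halve_smul, hb, hb, hb] at h
  rw [Matrix.map_apply, repGL_apply c, h]
  fin_cases i <;> simp

end Compatible

/-- The cyclotomic character is surjective. -/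
theorem exists_chiMod_eq (n : ℕ) [NeZero n] (u : (ZMod n)ˣ) :
    ∃ σ : Γℚ, Datum.chiMod n σ = (u : ZMod n) := by
  obtain ⟨ζ, hζ⟩ := HasEnoughRootsOfUnity.exists_primitiveRoot Qbar n
  have hζ' : IsPrimitiveRoot (ζ ^ (u : ZMod n).val) n :=
    hζ.pow_of_coprime _ (ZMod.val_coe_unit_coprime u)
  have hpos := NeZero.pos n
  have hconj : IsConjRoot ℚ ζ (ζ ^ (u : ZMod n).val) := by
    show minpoly ℚ ζ = minpoly ℚ _
    rw [← Polynomial.cyclotomic_eq_minpoly_rat hζ hpos,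
      ← Polynomial.cyclotomic_eq_minpoly_rat hζ' hpos]
  obtain ⟨σ, hσ⟩ := IsConjRoot.exists_algEquiv hconj
  refine ⟨σ⁻¹, ?_⟩
  have h1 : (σ⁻¹ : Γℚ) ζ = ζ ^ (u : ZMod n).val := by
    rw [AlgEquiv.aut_inv, AlgEquiv.symm_apply_eq, hσ]
  have h2 := Datum.chiMod_eq_natCast n σ⁻¹ (a := (u : ZMod n).val) fun μ hμ => by
    obtain ⟨i, -, rfl⟩ := hζ.eq_pow_of_pow_eq_one hμ
    rw [map_pow, h1, ← pow_mul, ← pow_mul, mul_comm]
  rw [h2, ZMod.natCast_zmod_val]

end Fermat.Agent.Residual.CurveDatum
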