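/-
The decomposition group at a multiplicative prime in a basis of Tate type, and the image of the
Galois group on the two-power torsion of a dihedral curve.
-/
import Fermat.Agent.Residual.CurveDatumRep
import Fermat.Agent.ECRed.Good
import Fermat.Prelude.Def_FLTPrelim_ModularRep

set_option autoImplicit false

noncomputable section

open scoped WeierstrassCurve.Affine
open Matrix WeierstrassCurve.Affine

namespace Fermat.Agent.Residual.CurveDatum

local notation "Qbar" => AlgebraicClosure ℚ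
local notation "Γℚ" => (AlgebraicClosure ℚ ≃ₐ[ℚ] AlgebraicClosure ℚ)

variable {W : WeierstrassCurve ℤ} {q : ℕ} {A : ValuationSubring Qbar}

/-- The basis of Tate type. -/
theorem exists_tate_basis (h : Mult.IsMultPlace W q A) {n : ℕ} [NeZero n] :
    ∃ b : Module.Basis (Fin 2) (ZMod n) (Mult.Tors W n),
      ∀ σ ∈ A.decompositionSubgroup ℚ,
        repGL b σ 1 0 = 0 ∧ repGL b σ 1 1 = (Mult.tateSign W A σ : ZMod n) := by
  have hn : n ≠ 0 := NeZero.ne n
  set T := h.basis hn with hT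
  have hli : LinearIndependent (ZMod n) ![Mult.tors₁ T, Mult.tors₂ T] := by
    refine LinearIndependent.pair_iff.2 fun s t hst => ?_
    obtain ⟨a, rfl⟩ := ZMod.intCast_surjective s
    obtain ⟨c, rfl⟩ := ZMod.intCast_surjective t
    rw [Int.cast_smul_eq_zsmul, Int.cast_smul_eq_zsmul] at hst
    obtain ⟨h1, h2⟩ := Mult.dvd_of_comb_tors_eq_zero T hst
    exact ⟨(ZMod.intCast_zmod_eq_zero_iff_dvd _ _).2 h1, (ZMod.intCast_zmod_eq_zero_iff_dvd _ _).2 h2⟩
  have hsp : ⊤ ≤ Submodule.span (ZMod n) (Set.range ![Mult.tors₁ T, Mult.tors₂ T]) := by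
    intro x _
    obtain ⟨a, c, rfl⟩ := Mult.exists_eq_comb T x
    have h0 : ∀ i, ![Mult.tors₁ T, Mult.tors₂ T] i ∈
        Submodule.span (ZMod n) (Set.range ![Mult.tors₁ T, Mult.tors₂ T]) :=
      fun i => Submodule.subset_span ⟨i, rfl⟩
    exact add_mem (zsmul_mem (h0 0) a) (zsmul_mem (h0 1) c)
  set b := Module.Basis.mk hli hsp with hb
  refine ⟨b, fun σ hσ => ?_⟩
  obtain ⟨a, ha⟩ := T.exists_apply_ζ σ
  obtain ⟨k, hk⟩ := T.exists_apply_t σ
  have hb0 : b 0 = Mult.tors₁ T := by rw [hb, Module.Basis.mk_apply]; rfl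
  have hb1 : b 1 = Mult.tors₂ T := by rw [hb, Module.Basis.mk_apply]; rfl
  have e0 : σ • b 0 = ((Mult.tateSign W A σ * (a : ℤ) : ℤ) : ZMod n) • b 0 := by
    rw [hb0, Mult.smul_tors₁ T hσ ha, Int.cast_smul_eq_zsmul]
    rfl
  have e1 : σ • b 1 = ((Mult.tateSign W A σ * (k : ℤ) : ℤ) : ZMod n) • b 0 +
      ((Mult.tateSign W A σ : ℤ) : ZMod n) • b 1 := by
    rw [hb0, hb1, Mult.smul_tors₂ T hσ hk, Int.cast_smul_eq_zsmul, Int.cast_smul_eq_zsmul,
      smul_add, smul_smul]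
    rfl
  refine ⟨?_, ?_⟩
  · rw [repGL_apply, e0]; simp
  · rw [repGL_apply, e1]; simp

theorem inertia_unipotent (h : Mult.IsMultPlace W q A) {n : ℕ} (hn : n ≠ 0) (hqn : ¬ q ∣ n)
    (b : Module.Basis (Fin 2) (ZMod n) (Mult.Tors W n)) {σ : Γℚ}
    (hσ : σ ∈ A.inertiaSubgroupIn ℚ) :
    ((repGL b σ : Matrix (Fin 2) (Fin 2) (ZMod n)) - 1) *
      ((repGL b σ : Matrix (Fin 2) (Fin 2) (ZMod n)) - 1) = 0 := by
  have e := congrArg (LinearMap.toMatrixAlgEquiv b)
    (Mult.inertia_sub_one_mul_sub_one h hn hqn hσ)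
  rw [map_mul, map_sub, map_one, map_zero] at e
  rw [coe_repGL]
  exact e

theorem exists_inertia_repGL_ne_one (h : Mult.IsMultPlace W q A)
    (hv : Odd (padicValInt q W.Δ)) (c : Module.Basis (Fin 2) (ZMod 2) (Mult.Tors W 2)) :
    ∃ σ ∈ A.inertiaSubgroupIn ℚ, repGL c σ ≠ 1 := by
  obtain ⟨σ, hσ, x, hx⟩ := Mult.exists_inertia_smul_ne h two_ne_zero
    (Nat.two_dvd_ne_zero.2 (Nat.odd_iff.1 hv))
  exact ⟨σ, hσ, fun h1 => hx ((repGL_eq_one_iff c σ).1 h1 x)⟩

/-- The decomposition group has image of order two on the two-torsion. -/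
theorem repGL_two_of_decomposition (h : Mult.IsMultPlace W q A)
    (c : Module.Basis (Fin 2) (ZMod 2) (Mult.Tors W 2)) {σ₀ σ : Γℚ}
    (hσ₀ : σ₀ ∈ A.decompositionSubgroup ℚ) (hne : repGL c σ₀ ≠ 1)
    (hσ : σ ∈ A.decompositionSubgroup ℚ) :
    repGL c σ = 1 ∨ repGL c σ = repGL c σ₀ := by
  set v := Mult.tors₁ (h.basis two_ne_zero)
  have hfix : ∀ τ ∈ A.decompositionSubgroup ℚ, τ • v = v := by
    intro τ hτ
    obtain ⟨a, ha⟩ := (h.basis two_ne_zero).exists_apply_ζ τ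
    have h1 := Mult.smul_tors₁ (h.basis two_ne_zero) hτ ha
    set m : ℤ := Tate.twistSign (Mult.tateRoot W A) τ * (a : ℤ)
    have h2 : τ • v = (m : ZMod 2) • v := by rw [Int.cast_smul_eq_zsmul]; exact h1
    rcases zmodTwo_cases (m : ZMod 2) with hm | hm
    · exfalso
      rw [hm, zero_smul] at h2
      exact Mult.tors₁_ne_zero Nat.prime_two _ (by simpa using congrArg (τ⁻¹ • ·) h2)
    · rwa [hm, one_smul] at h2
  have hv : (⇑(c.repr v) : Fin 2 → ZMod 2) ≠ 0 := fun h0 =>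
    Mult.tors₁_ne_zero Nat.prime_two (h.basis two_ne_zero)
      (c.repr.injective (DFunLike.coe_injective (by rw [h0, map_zero]; rfl)))
  by_cases h1 : repGL c σ = 1
  · exact Or.inl h1
  · exact Or.inr (eq_of_fix_vec hv (by rw [repGL_mulVec, hfix σ hσ])
      (by rw [repGL_mulVec, hfix σ₀ hσ₀]) h1 hne)

/-- No vector of the two-torsion is fixed by the whole Galois group. -/
theorem exists_mulVec_ne (hirr : W.ModRepIsIrreducible 2)
    (c : Module.Basis (Fin 2) (ZMod 2) (Mult.Tors W 2)) (v : Fin 2 → ZMod 2) (hv : v ≠ 0) :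
    ∃ σ : Γℚ, (repGL c σ : Matrix (Fin 2) (Fin 2) (ZMod 2)) *ᵥ v ≠ v := by
  by_contra hall
  push Not at hall
  obtain ⟨x, rfl⟩ : ∃ x, ⇑(c.repr x) = v := ⟨c.equivFun.symm v, c.equivFun.apply_symm_apply v⟩
  have hfix : ∀ σ : Γℚ, σ • x = x := fun σ =>
    c.repr.injective (DFunLike.coe_injective (by rw [← repGL_mulVec, hall σ]))
  haveI := Fact.mk Nat.prime_two
  have hx : x ≠ 0 := fun h => hv (by rw [h, map_zero]; rfl)
  rcases hirr.2 (Submodule.span (ZMod 2) {x}) (fun σ y hy => by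
    obtain ⟨a, rfl⟩ := Submodule.mem_span_singleton.1 hy
    have : σ • (a • x) = a • (σ • x) :=
      map_smul (Point.galoisRepModuleEnd (K := Qbar) ℚ (W.map (Int.castRingHom ℚ)) 2 σ) a x
    rw [this, hfix]
    exact Submodule.smul_mem _ _ (Submodule.mem_span_singleton_self x)) with h | h
  · exact hx (by simpa using h.le (Submodule.mem_span_singleton_self x))
  · have h1 := finrank_span_singleton (K := ZMod 2) hx
    rw [h, finrank_top, Module.finrank_eq_card_basis c, Fintype.card_fin] at h1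
    omega

/-- The image on the `2^M`-torsion is everything. -/
theorem repGL_surjective {M : ℕ} (hM : M ≠ 0) (hirr : W.ModRepIsIrreducible 2)
    (h : Mult.IsMultPlace W q A) (hq2 : q ≠ 2) (hv : Odd (padicValInt q W.Δ))
    {c : Module.Basis (Fin 2) (ZMod 2) (Mult.Tors W 2)}
    {b : Module.Basis (Fin 2) (ZMod (2 ^ M)) (Mult.Tors W (2 ^ M))}
    (hb : ∀ j, halve hM (b j) = c j) : Function.Surjective (repGL b) := by
  haveI : NeZero (2 ^ M) := ⟨pow_ne_zero M two_ne_zero⟩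
  rw [← MonoidHom.range_eq_top]
  obtain ⟨σ, hσ, hne⟩ := exists_inertia_repGL_ne_one h hv c
  have hqn : ¬ q ∣ 2 ^ M := fun hd =>
    hq2 ((Nat.prime_dvd_prime_iff_eq h.prime Nat.prime_two).1 (h.prime.dvd_of_dvd_pow hd))
  refine eq_top_of_unipotent_mem hM (t := repGL b σ) ⟨σ, rfl⟩
    (inertia_unipotent h (pow_ne_zero M two_ne_zero) hqn b hσ) ?_ ?_ fun u => ?_
  · rw [repGL_map_redTwo hM hb]
    exact fun h1 => hne (Units.ext h1)
  · intro v hv0
    obtain ⟨g, hg⟩ := exists_mulVec_ne hirr c v hv0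
    exact ⟨_, ⟨g, rfl⟩, by rwa [repGL_map_redTwo hM hb]⟩
  · obtain ⟨g, hg⟩ := exists_chiMod_eq (2 ^ M) u
    refine ⟨_, ⟨g, rfl⟩, ?_⟩
    rw [det_repGL, Weil.det_galoisRepModuleEnd_model W h.Δ_ne_zero Nat.prime_two M g]
    exact hg

end Fermat.Agent.Residual.CurveDatum
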