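/-
The sign of Frobenius at a multiplicative prime does not depend on the place or on the Frobenius
element.
-/
import Fermat.Agent.Mult.Main
import Fermat.Agent.Density.Main
import Fermat.Agent.Datum.Roots

set_option autoImplicit false

noncomputable section

namespace Fermat.Agent.Residual.CurveDatum

local notation "Qbar" => AlgebraicClosure ℚ
local notation "Γℚ" => (AlgebraicClosure ℚ ≃ₐ[ℚ] AlgebraicClosure ℚ)

private theorem inv_mul_mem_inertia {A : ValuationSubring Qbar} {τ σ : Γℚ} {q : ℕ}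
    (hτ : A.IsFrobeniusAt τ q) (hσ : A.IsFrobeniusAt σ q) :
    τ⁻¹ * σ ∈ A.inertiaSubgroupIn ℚ := by
  obtain ⟨hτD, hx⟩ := hτ
  obtain ⟨hσD, hx'⟩ := hσ
  refine ⟨(⟨τ, hτD⟩ : A.decompositionSubgroup ℚ)⁻¹ * ⟨σ, hσD⟩, ?_, rfl⟩
  rw [ValuationSubring.inertiaSubgroup, SetLike.mem_coe, MonoidHom.mem_ker]
  refine RingEquiv.ext fun y => ?_
  show ((⟨τ, hτD⟩ : A.decompositionSubgroup ℚ)⁻¹ * ⟨σ, hσD⟩) • y = y
  rw [mul_smul, inv_smul_eq_iff, hx, hx']

/-- The sign of Frobenius does not depend on the place or the Frobenius element. -/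
theorem tateSign_frobenius_eq {W : WeierstrassCurve ℤ} {q : ℕ} {A A' : ValuationSubring Qbar}
    (h : Mult.IsMultPlace W q A) (h' : Mult.IsMultPlace W q A') {σ σ' : Γℚ}
    (hσ : A.IsFrobeniusAt σ q) (hσ' : A'.IsFrobeniusAt σ' q) :
    Mult.tateSign W A σ = Mult.tateSign W A' σ' := by
  have hq := h.prime
  obtain ⟨g, hg⟩ := Galois.exists_smul_eq_of_liesOverPrime hq h'.liesOver h.liesOver
  set τ := g * σ' * g⁻¹ with hτdef
  have hτ : A.IsFrobeniusAt τ q := by
    have := Density.isFrobeniusAt_conj hσ' g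
    rwa [hg] at this
  -- the two Frobenius elements at `A` have the same sign
  have hτD := hτ.mem_decompositionSubgroup
  have hI : τ⁻¹ * σ ∈ A.inertiaSubgroupIn ℚ := inv_mul_mem_inertia hτ hσ
  have hsame : Mult.tateSign W A σ = Mult.tateSign W A τ := by
    conv_lhs => rw [← mul_inv_cancel_left τ σ]
    rw [Mult.tateSign_mul h, Mult.tateSign_eq_one_of_mem_inertia h hI, mul_one]
  rw [hsame]
  -- compare the eigenvalues on `E[ℓ]` for a large prime `ℓ`
  obtain ⟨ℓ, hℓge, hℓ⟩ := Nat.exists_infinite_primes (q + 2)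
  have hℓ0 := hℓ.ne_zero
  have := Fact.mk hℓ
  have hq2 := hq.two_le
  have hcop : q.Coprime ℓ := (Nat.coprime_primes hq hℓ).2 (by omega)
  obtain ⟨y, hy, hy0⟩ := (Submodule.ne_bot_iff _).1 (Mult.tateLine_ne_bot_and_ne_top h' hℓ).1
  have hy' := Mult.smul_tateLine h' hℓ0 hσ'.mem_decompositionSubgroup (a := q)
    (fun μ hμ => Datum.frobenius_apply_root h'.liesOver hσ' hcop hℓ0 hμ) hy
  set z : Mult.Tors W ℓ := g • y with hzdef
  have hz0 : z ≠ 0 := fun hz => hy0 (by
    have := congrArg (fun x : Mult.Tors W ℓ => g⁻¹ • x) hz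
    simpa [hzdef, inv_smul_smul, smul_zero] using this)
  have hz : τ • z = (Mult.tateSign W A' σ' * (q : ℤ)) • z := by
    rw [hzdef, hτdef, mul_smul, mul_smul, inv_smul_smul, hy', Mult.smul_zsmul_tors]
  by_cases hzL : z ∈ Mult.tateLine W A ℓ
  · have hz' := Mult.smul_tateLine h hℓ0 hτD (a := q)
      (fun μ hμ => Datum.frobenius_apply_root h.liesOver hτ hcop hℓ0 hμ) hzL
    rw [hz] at hz'
    have h0 : ((Mult.tateSign W A' σ' * q - Mult.tateSign W A τ * q : ℤ) : ZMod ℓ) • z = 0 := by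
      rw [Int.cast_smul_eq_zsmul, sub_smul, sub_eq_zero]
      exact hz'
    have hdvd := (ZMod.intCast_zmod_eq_zero_iff_dvd _ _).1 ((smul_eq_zero.1 h0).resolve_right hz0)
    have hndvd : ∀ k : ℤ, k = 2 * q ∨ k = -(2 * q) → ¬ (ℓ : ℤ) ∣ k := by
      intro k hk hd
      have hd' : ℓ ∣ 2 * q := by
        rcases hk with rfl | rfl
        · exact_mod_cast hd
        · exact_mod_cast (Int.dvd_neg.1 hd)
      rcases (hℓ.dvd_mul).1 hd' with h2 | h2 <;> have := Nat.le_of_dvd (by omega) h2 <;> omega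
    rcases Mult.tateSign_eq_one_or_neg_one W A τ with hs | hs <;>
      rcases Mult.tateSign_eq_one_or_neg_one W A' σ' with hs' | hs' <;> rw [hs, hs'] at hdvd ⊢
    · exact absurd hdvd (hndvd _ (Or.inr (by ring)))
    · exact absurd hdvd (hndvd _ (Or.inl (by ring)))
  · exfalso
    have hmem := Mult.smul_sub_tateSign_smul_mem h hℓ0 hτD z
    rw [hz, ← sub_smul, ← Int.cast_smul_eq_zsmul (ZMod ℓ)] at hmem
    refine hzL ((Submodule.smul_mem_iff _ ?_).1 hmem)
    rw [Ne, ZMod.intCast_zmod_eq_zero_iff_dvd]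
    intro hd
    have hd' : (ℓ : ℤ) ∣ (q : ℤ) - 1 ∨ (ℓ : ℤ) ∣ (q : ℤ) + 1 := by
      rcases Mult.tateSign_eq_one_or_neg_one W A τ with hs | hs <;>
        rcases Mult.tateSign_eq_one_or_neg_one W A' σ' with hs' | hs' <;> rw [hs, hs'] at hd
      · left; simpa using hd
      · right; rw [← Int.dvd_neg]; convert hd using 1; ring
      · right; simpa using hd
      · left; rw [← Int.dvd_neg]; convert hd using 1; ring
    rcases hd' with hd' | hd' <;> have := Int.le_of_dvd (by omega) hd' <;> omega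

end Fermat.Agent.Residual.CurveDatum

end
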