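/-
The quadratic field cut out by the sign character on the two-torsion of a curve with negative
discriminant of odd valuations.
-/
import Fermat.Agent.Residual.CurveDatumRep
import Mathlib.Data.Nat.Factorization.Basic

set_option autoImplicit false

noncomputable section

open scoped WeierstrassCurve.Affine
open Matrix WeierstrassCurve.Affine

namespace Fermat.Agent.Residual.CurveDatum

local notation "Qbar" => AlgebraicClosure ℚ
local notation "Γℚ" => (AlgebraicClosure ℚ ≃ₐ[ℚ] AlgebraicClosure ℚ)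

variable {W : WeierstrassCurve ℤ}

/-- The `x`-coordinate, with value `0` at the origin. -/
def xCoord (P : Tate.QbarPoint W) : Qbar :=
  match P with
  | .zero => 0
  | .some x _ _ => x

theorem xCoord_smul (σ : Γℚ) (P : Tate.QbarPoint W) : xCoord (σ • P) = σ (xCoord P) := by
  rw [Point.algEquiv_smul_def]
  rcases P with _ | ⟨x, y, h⟩
  · exact (map_zero σ).symm
  · rw [Point.map_some]
    rfl

theorem neg_two_tors (x : Mult.Tors W 2) : -x.1 = x.1 := by
  have h := Mult.torsion_zsmul_eq_zero x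
  have h : (2 : ℤ) • x.1 = 0 := h
  rw [two_zsmul] at h
  exact neg_eq_of_add_eq_zero_left h

theorem two_tors_spec (x : Mult.Tors W 2) (hx : x ≠ 0) :
    ∃ (a y : Qbar) (h : _), x.1 = Point.some a y h ∧
      2 * y + ((W.map (Int.castRingHom ℚ))⁄Qbar).a₁ * a + ((W.map (Int.castRingHom ℚ))⁄Qbar).a₃ = 0 ∧
      4 * a ^ 3 + ((W.map (Int.castRingHom ℚ))⁄Qbar).b₂ * a ^ 2 +
        2 * ((W.map (Int.castRingHom ℚ))⁄Qbar).b₄ * a + ((W.map (Int.castRingHom ℚ))⁄Qbar).b₆ = 0 := by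
  obtain ⟨_ | ⟨a, y, h⟩, hP⟩ := x
  · exact absurd (Subtype.ext rfl) hx
  refine ⟨a, y, h, rfl, ?_⟩
  have h1 : -(Point.some a y h) = Point.some a y h := neg_two_tors ⟨_, hP⟩
  rw [Point.neg_some, Point.some.injEq] at h1
  have h2 := h1.2
  have he := h.1
  rw [WeierstrassCurve.Affine.equation_iff] at he
  rw [WeierstrassCurve.Affine.negY] at h2
  have h3 : 2 * y + ((W.map (Int.castRingHom ℚ))⁄Qbar).a₁ * a +
      ((W.map (Int.castRingHom ℚ))⁄Qbar).a₃ = 0 := by linear_combination -h2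
  refine ⟨h3, ?_⟩
  simp only [WeierstrassCurve.b₂, WeierstrassCurve.b₄, WeierstrassCurve.b₆]
  linear_combination -4 * he + (2 * y + ((W.map (Int.castRingHom ℚ))⁄Qbar).a₁ * a +
      ((W.map (Int.castRingHom ℚ))⁄Qbar).a₃) * h3

theorem xCoord_injOn {x y : Mult.Tors W 2} (hx : x ≠ 0) (hy : y ≠ 0)
    (h : xCoord x.1 = xCoord y.1) : x = y := by
  obtain ⟨a, u, hu, ex, hxu, -⟩ := two_tors_spec x hx
  obtain ⟨b, v, hv, ey, hyv, -⟩ := two_tors_spec y hy
  rw [ex, ey] at h
  change a = b at h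
  subst h
  refine Subtype.ext ?_
  rw [ex, ey, Point.some.injEq]
  exact ⟨rfl, mul_left_cancel₀ two_ne_zero (by linear_combination hxu - hyv)⟩

theorem cubic_xCoord {x : Mult.Tors W 2} (hx : x ≠ 0) :
    4 * xCoord x.1 ^ 3 + ((W.map (Int.castRingHom ℚ))⁄Qbar).b₂ * xCoord x.1 ^ 2 +
      2 * ((W.map (Int.castRingHom ℚ))⁄Qbar).b₄ * xCoord x.1 +
        ((W.map (Int.castRingHom ℚ))⁄Qbar).b₆ = 0 := by
  obtain ⟨a, u, hu, ex, -, h⟩ := two_tors_spec x hx
  rw [ex]
  exact h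

theorem Δ_qbar : ((W.map (Int.castRingHom ℚ))⁄Qbar).Δ = ((W.Δ : ℤ) : Qbar) := by
  show ((W.map (Int.castRingHom ℚ)).map (algebraMap ℚ Qbar)).Δ = _
  rw [WeierstrassCurve.map_Δ, WeierstrassCurve.map_Δ, eq_intCast, map_intCast]

variable (c : Module.Basis (Fin 2) (ZMod 2) (Mult.Tors W 2))

/-- The labelling of the two-torsion by a basis. -/
def xLabel (v : ZMod 2 × ZMod 2) : Qbar :=
  xCoord (v.1 • c 0 + v.2 • c 1).1

theorem label_ne_zero {v : ZMod 2 × ZMod 2} (hv : v ≠ 0) : v.1 • c 0 + v.2 • c 1 ≠ 0 := by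
  intro h
  have h2 := Fintype.linearIndependent_iff.1 c.linearIndependent ![v.1, v.2]
    (by rw [Fin.sum_univ_two]; simpa using h)
  exact hv (Prod.ext (by simpa using h2 0) (by simpa using h2 1))

theorem label_injective {v w : ZMod 2 × ZMod 2}
    (h : v.1 • c 0 + v.2 • c 1 = w.1 • c 0 + w.2 • c 1) : v = w := by
  by_contra hne
  exact label_ne_zero c (sub_ne_zero.2 hne) (by
    rw [Prod.fst_sub, Prod.snd_sub, sub_smul, sub_smul, sub_add_sub_comm, h, sub_self])

theorem four_diffProd_sq :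
    (4 * diffProd (xLabel c) (1, 0) (0, 1)) ^ 2 = ((W.Δ : ℤ) : Qbar) := by
  have hne : ∀ {v w : ZMod 2 × ZMod 2}, v ≠ 0 → w ≠ 0 → v ≠ w → xLabel c v ≠ xLabel c w :=
    fun hv hw hvw h => hvw (label_injective c
      (xCoord_injOn (label_ne_zero c hv) (label_ne_zero c hw) h))
  rw [← Δ_qbar, diffProd]
  exact (delta_eq_sq_of_roots _ (hne (by decide) (by decide) (by decide))
    (hne (by decide) (by decide) (by decide)) (hne (by decide) (by decide) (by decide))
    (cubic_xCoord (label_ne_zero c (by decide))) (cubic_xCoord (label_ne_zero c (by decide)))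
    (cubic_xCoord (label_ne_zero c (by decide)))).symm

theorem apply_xLabel (σ : Γℚ) (v : ZMod 2 × ZMod 2) :
    σ (xLabel c v) =
      xLabel c (repGL c σ 0 0 * v.1 + repGL c σ 0 1 * v.2,
        repGL c σ 1 0 * v.1 + repGL c σ 1 1 * v.2) := by
  have key : ∀ (a : ZMod 2) (z : Mult.Tors W 2), σ • (a • z) = a • (σ • z) := fun a z =>
    map_smul (Point.galoisRepModuleEnd (K := Qbar) ℚ (W.map (Int.castRingHom ℚ)) 2 σ) a z
  have h : σ • (v.1 • c 0 + v.2 • c 1) =
      (repGL c σ 0 0 * v.1 + repGL c σ 0 1 * v.2) • c 0 +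
        (repGL c σ 1 0 * v.1 + repGL c σ 1 1 * v.2) • c 1 := by
    rw [smul_add, key, key, smul_basis c σ 0, smul_basis c σ 1]
    module
  rw [xLabel, xLabel, ← xCoord_smul]
  exact congrArg (fun z : Mult.Tors W 2 => xCoord z.1) h

theorem apply_diffProd (σ : Γℚ) :
    σ (diffProd (xLabel c) (1, 0) (0, 1)) =
      diffProd (xLabel c) (repGL c σ 0 0, repGL c σ 1 0) (repGL c σ 0 1, repGL c σ 1 1) := by
  simp only [diffProd, map_mul, map_sub, apply_xLabel, Prod.mk_add_mk, mul_one, mul_zero,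
    add_zero, zero_add]

theorem exists_natAbs_eq_prod_mul_sq {Δ : ℤ} (hneg : Δ < 0)
    (hodd : ∀ q : ℕ, q.Prime → (q : ℤ) ∣ Δ → Odd (padicValInt q Δ)) :
    ∃ m : ℕ, m ≠ 0 ∧ Δ = -((∏ q ∈ Δ.natAbs.primeFactors, q : ℕ) : ℤ) * (m : ℤ) ^ 2 := by
  have h0 : Δ.natAbs ≠ 0 := Int.natAbs_ne_zero.2 hneg.ne
  refine ⟨∏ q ∈ Δ.natAbs.primeFactors, q ^ (padicValInt q Δ / 2), ?_, ?_⟩
  · exact Finset.prod_ne_zero_iff.2 fun q hq =>
      pow_ne_zero _ (Nat.prime_of_mem_primeFactors hq).ne_zero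
  · have h1 : Δ.natAbs = (∏ q ∈ Δ.natAbs.primeFactors, q) *
        (∏ q ∈ Δ.natAbs.primeFactors, q ^ (padicValInt q Δ / 2)) ^ 2 := by
      conv_lhs => rw [← Nat.prod_factorization_pow_eq_self h0]
      rw [Finsupp.prod, Nat.support_factorization, ← Finset.prod_pow, ← Finset.prod_mul_distrib]
      refine Finset.prod_congr rfl fun q hq => ?_
      have hqp := Nat.prime_of_mem_primeFactors hq
      obtain ⟨k, hk⟩ := hodd q hqp (Int.natCast_dvd.2 (Nat.dvd_of_mem_primeFactors hq))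
      rw [← pow_mul, ← pow_succ', Nat.factorization_def _ hqp]
      show q ^ padicValInt q Δ = _
      congr 1
      omega
    calc Δ = -(Δ.natAbs : ℤ) := by omega
      _ = _ := by conv_lhs => rw [h1]
                  push_cast
                  ring

/-- An automorphism fixes `√-N` exactly when it acts evenly on the two-torsion. -/
theorem apply_sqrt_iff (hneg : W.Δ < 0)
    (hodd : ∀ q : ℕ, q.Prime → (q : ℤ) ∣ W.Δ → Odd (padicValInt q W.Δ)) (r : Qbar)
    (hr : r ^ 2 = -((∏ q ∈ W.Δ.natAbs.primeFactors, q : ℕ) : Qbar)) (σ : Γℚ) :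
    σ r = r ↔ repGL c σ ^ 3 = 1 := by
  obtain ⟨m, hm, hΔ⟩ := exists_natAbs_eq_prod_mul_sq hneg hodd
  have hsq := four_diffProd_sq c
  have hΔ' : ((W.Δ : ℤ) : Qbar) = ((m : Qbar) * r) ^ 2 := by
    rw [mul_pow, hr]
    conv_lhs => rw [hΔ]
    push_cast
    ring
  have hδ : diffProd (xLabel c) (1, 0) (0, 1) ≠ 0 := fun h => by
    rw [h, mul_zero, zero_pow two_ne_zero] at hsq
    exact hneg.ne (Int.cast_eq_zero.1 hsq.symm)
  rw [← diffProd_sign (xLabel c) (repGL c σ) hδ, ← apply_diffProd]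
  rw [hΔ'] at hsq
  have hm' : (m : Qbar) ≠ 0 := Nat.cast_ne_zero.2 hm
  rcases sq_eq_sq_iff_eq_or_eq_neg.1 hsq with h | h
  all_goals
    constructor
    · intro h'
      have e := congrArg σ h
      rw [map_mul, map_ofNat] at e
      refine mul_left_cancel₀ (show (4 : Qbar) ≠ 0 by norm_num) ?_
      rw [e, h]
      simp [h']
    · intro h'
      have e := congrArg σ h
      rw [map_mul, map_ofNat, h', h] at e
      refine mul_left_cancel₀ hm' ?_
      simpa using e.symm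

end Fermat.Agent.Residual.CurveDatum
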