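/-
Residual modularity at three: the datum and the two-adic lifts of a dihedral curve.
-/
import Fermat.Agent.Residual.Defs
import Fermat.Agent.Residual.CurveDatumSqrt
import Fermat.Agent.Residual.CurveDatumLocal
import Fermat.Agent.Residual.CurveDatumSign
import Fermat.Agent.Galois.Frobenius

set_option autoImplicit false

noncomputable section

open Matrix

namespace Fermat.Agent.Residual

local notation "Qbar" => AlgebraicClosure ℚ
local notation "Γℚ" => (AlgebraicClosure ℚ ≃ₐ[ℚ] AlgebraicClosure ℚ)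

namespace CurveDatum

variable {W : WeierstrassCurve ℤ}

theorem mem_primeFactors_iff (hW : IsDihedralCurve W) {q : ℕ} :
    q ∈ W.Δ.natAbs.primeFactors ↔ q.Prime ∧ (q : ℤ) ∣ W.Δ := by
  rw [Nat.mem_primeFactors_of_ne_zero (Int.natAbs_ne_zero.2 hW.Δ_ne_zero), Int.natCast_dvd]

theorem isMultPlace (hW : IsDihedralCurve W) {q : ℕ} (hq : q.Prime) (hd : (q : ℤ) ∣ W.Δ)
    {A : ValuationSubring Qbar} (hA : A.LiesOverPrime q) : Mult.IsMultPlace W q A :=
  Mult.IsMultPlace.of_semistable hW.Δ_ne_zero hW.semistable hq hd hA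

theorem repGL_inertia_good (hW : IsDihedralCurve W) {n q : ℕ} (hq : q.Prime)
    (hq' : q ∉ W.Δ.natAbs.primeFactors) (hn : ¬ q ∣ n)
    (b : Module.Basis (Fin 2) (ZMod n) (Mult.Tors W n)) {A : ValuationSubring Qbar}
    (hA : A.LiesOverPrime q) {σ : Γℚ} (hσ : σ ∈ A.inertiaSubgroupIn ℚ) : repGL b σ = 1 :=
  (repGL_eq_one_iff b σ).2
    (ECRed.galoisRepUnramifiedAt_of_isGoodPrimeFor W hq
      (fun hd => hq' ((mem_primeFactors_iff hW).2 ⟨hq, hd⟩)) hn A hA σ hσ)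

theorem not_dvd_pow_two (hW : IsDihedralCurve W) {q : ℕ} (hq : q.Prime)
    (hq' : q ∉ W.Δ.natAbs.primeFactors) (M : ℕ) : ¬ q ∣ 2 ^ M := fun h =>
  hq' ((mem_primeFactors_iff hW).2 ⟨hq, by
    rw [(Nat.prime_dvd_prime_iff_eq hq Nat.prime_two).1 (hq.dvd_of_dvd_pow h)]
    exact_mod_cast hW.two_dvd⟩)

/-- The datum of the two-torsion in a basis. -/
def twoDatum (hW : IsDihedralCurve W) (c : Module.Basis (Fin 2) (ZMod 2) (Mult.Tors W 2)) :
    Datum where
  ρbar := repGL c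
  B := W.Δ.natAbs.primeFactors
  cont := exists_level_repGL c hW.Δ_ne_zero two_ne_zero
  surj := by
    obtain ⟨q, hq, hq2, hd⟩ := hW.odd_bad
    obtain ⟨A, hA⟩ := Galois.exists_liesOverPrime hq
    obtain ⟨b, hb⟩ := exists_basis_halve hW.Δ_ne_zero one_ne_zero c
    have hs := repGL_surjective one_ne_zero hW.irred (isMultPlace hW hq hd hA) hq2
      (hW.odd_val q hq hd) hb
    intro g
    haveI : NeZero (2 ^ 1) := ⟨by norm_num⟩
    obtain ⟨σ, hσ⟩ := hs (Matrix.GeneralLinearGroup.map (ZMod.castHom (dvd_refl _) (ZMod (2 ^ 1))) g)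
    refine ⟨σ, Units.ext ?_⟩
    rw [← repGL_map_redTwo one_ne_zero hb, hσ]
    ext i j
    show redTwo 1 one_ne_zero (ZMod.castHom (dvd_refl _) (ZMod (2 ^ 1))
      ((g : Matrix (Fin 2) (Fin 2) (ZMod 2)) i j)) = _
    rw [← RingHom.comp_apply, Subsingleton.elim ((redTwo 1 one_ne_zero).comp _) (RingHom.id (ZMod 2))]
    rfl
  prime_mem p hp := Nat.prime_of_mem_primeFactors hp
  two_mem := (mem_primeFactors_iff hW).2 ⟨Nat.prime_two, by exact_mod_cast hW.two_dvd⟩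
  one_lt_card := by
    obtain ⟨q, hq, hq2, hd⟩ := hW.odd_bad
    exact Finset.one_lt_card.2 ⟨q, (mem_primeFactors_iff hW).2 ⟨hq, hd⟩, 2,
      (mem_primeFactors_iff hW).2 ⟨Nat.prime_two, by exact_mod_cast hW.two_dvd⟩, hq2⟩
  unram p hp hpB A hA σ hσ :=
    repGL_inertia_good hW hp hpB (by simpa using not_dvd_pow_two hW hp hpB 1) c hA hσ
  transp b hb A hA := by
    obtain ⟨hbp, hbd⟩ := (mem_primeFactors_iff hW).1 hb
    have h := isMultPlace hW hbp hbd hA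
    obtain ⟨σ₀, hσ₀, hne⟩ := exists_inertia_repGL_ne_one h (hW.odd_val b hbp hbd) c
    exact ⟨σ₀, hσ₀, hne, fun σ hσ =>
      repGL_two_of_decomposition h c (Mult.mem_decomposition_of_mem_inertia hσ₀) hne hσ⟩
  sqrt r hr σ := apply_sqrt_iff c hW.Δ_neg hW.odd_val r hr σ

open scoped Classical in
/-- The sign of Frobenius at a bad prime. -/
def signAt (W : WeierstrassCurve ℤ) (q : ℕ) : ℤ :=
  if h : ∃ x : ValuationSubring Qbar × Γℚ, Mult.IsMultPlace W q x.1 ∧ x.1.IsFrobeniusAt x.2 q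
  then Mult.tateSign W h.choose.1 h.choose.2 else 1

theorem isPattern_signAt (W : WeierstrassCurve ℤ) : IsPattern (signAt W) := by
  intro q
  rw [signAt]
  split_ifs
  · exact Mult.tateSign_eq_one_or_neg_one _ _ _
  · exact Or.inl rfl

theorem signAt_eq {q : ℕ} {A : ValuationSubring Qbar} {σ : Γℚ} (h : Mult.IsMultPlace W q A)
    (hσ : A.IsFrobeniusAt σ q) : signAt W q = Mult.tateSign W A σ := by
  have hex : ∃ x : ValuationSubring Qbar × Γℚ,
      Mult.IsMultPlace W q x.1 ∧ x.1.IsFrobeniusAt x.2 q := ⟨(A, σ), h, hσ⟩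
  rw [signAt, dif_pos hex]
  exact tateSign_frobenius_eq hex.choose_spec.1 h hex.choose_spec.2 hσ

end CurveDatum

open CurveDatum in
/-- The two-power torsion of a dihedral curve: full image, cyclotomic determinant, unramified
quotient of sign `ε p` at the bad primes, and the traces of Frobenius. -/
theorem exists_datum (W : WeierstrassCurve ℤ) (hW : IsDihedralCurve W) :
    ∃ D : Datum, IsDatumOf W D ∧ ∃ ε : ℕ → ℤ, IsPattern ε ∧
      ∀ M : ℕ, 1 ≤ M → ∃ ρ : Γℚ →* GL (Fin 2) (ZMod (2 ^ M)),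
        Function.Surjective ρ ∧ IsLift D ∅ ε ρ ∧
        ∀ ℓ : ℕ, ℓ.Prime → ℓ ≠ 2 → W.IsGoodPrimeFor ℓ →
          ∀ A : ValuationSubring Qbar, A.LiesOverPrime ℓ → ∀ τ : Γℚ, A.IsFrobeniusAt τ ℓ →
            ((ρ τ : Matrix (Fin 2) (Fin 2) (ZMod (2 ^ M)))).trace =
              (W.apOfModel ℓ : ZMod (2 ^ M)) := by
  obtain ⟨c⟩ := nonempty_basis hW.Δ_ne_zero two_ne_zero
  refine ⟨twoDatum hW c, ⟨rfl, fun ℓ hℓ hℓ2 hg A hA τ hτ => ?_⟩, signAt W, isPattern_signAt W,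
    fun M hM => ?_⟩
  · show ((repGL c τ : Matrix (Fin 2) (Fin 2) (ZMod 2))).trace = _
    rw [trace_repGL, ECRed.galoisTrace_frobenius_prime hℓ hA hg hτ Nat.prime_two (Ne.symm hℓ2)]
  have hM0 : M ≠ 0 := by omega
  haveI : NeZero (2 ^ M) := ⟨pow_ne_zero M two_ne_zero⟩
  obtain ⟨b, hb⟩ := exists_basis_halve hW.Δ_ne_zero hM0 c
  obtain ⟨q, hq, hq2, hd⟩ := hW.odd_bad
  obtain ⟨A₀, hA₀⟩ := Galois.exists_liesOverPrime hq
  refine ⟨repGL b, repGL_surjective hM0 hW.irred (isMultPlace hW hq hd hA₀) hq2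
    (hW.odd_val q hq hd) hb, ⟨exists_level_repGL b hW.Δ_ne_zero (NeZero.ne _),
    fun n hn σ ζ hζ a ha => ?_, fun f σ => ?_, fun p hp hpB P hP σ hσ => ?_, fun p hp P hP => ?_⟩,
    fun ℓ hℓ hℓ2 hg A hA τ hτ => ?_⟩
  · rw [det_repGL, Weil.det_galoisRepModuleEnd_model W hW.Δ_ne_zero Nat.prime_two M σ]
    refine Datum.chiMod_eq_natCast _ σ fun μ hμ => ?_
    have hdvd : 2 ^ M ∣ 2 ^ n := by
      have : ((2 ^ n : ℕ) : ZMod (2 ^ M)) = 0 := by rw [Nat.cast_pow]; exact_mod_cast hn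
      exact (ZMod.natCast_eq_zero_iff _ _).1 this
    obtain ⟨d, hd'⟩ := hdvd
    obtain ⟨i, -, rfl⟩ := hζ.eq_pow_of_pow_eq_one (ξ := μ) (by rw [hd', pow_mul, hμ, one_pow])
    rw [map_pow, ha, ← pow_mul, ← pow_mul, mul_comm]
  · rw [Subsingleton.elim f (redTwo M hM0)]
    refine Units.ext ?_
    exact repGL_map_redTwo hM0 hb σ
  · rw [Finset.union_empty] at hpB
    exact repGL_inertia_good hW hp hpB (not_dvd_pow_two hW hp hpB M) b hP hσ
  · rw [Finset.union_empty] at hp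
    obtain ⟨hpp, hpd⟩ := (mem_primeFactors_iff hW).1 hp
    have h := isMultPlace hW hpp hpd hP
    obtain ⟨bT, hbT⟩ := exists_tate_basis h (n := 2 ^ M)
    obtain ⟨g, hg⟩ := exists_conj b bT
    refine ⟨g, fun σ hσ => ?_⟩
    obtain ⟨h10, h11⟩ := hbT σ hσ
    rw [← hg σ, h10, h11]
    refine ⟨rfl, ?_, fun hI => by rw [Mult.tateSign_eq_one_of_mem_inertia h hI, Int.cast_one],
      fun hF => by rw [signAt_eq h hF]⟩
    rcases Mult.tateSign_eq_one_or_neg_one W P σ with e | e <;> rw [e] <;> simp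
  · rw [trace_repGL, ECRed.galoisTrace_frobenius hℓ hA hg hτ Nat.prime_two (Ne.symm hℓ2)]

end Fermat.Agent.Residual

end
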