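/-
Residual modularity at three, eigen torsion: periods in coordinates and the lattice cut out by
integral equations.
-/
import Fermat.Agent.HeckeCohom.MatrixRep

set_option autoImplicit false

noncomputable section

namespace Fermat.Agent.Residual.Eigen2

open CongruenceSubgroup ModularCurve CuspForm Matrix Fermat.Agent.HeckeCohom

section Kernel

variable {ι κ : Type*} [Fintype ι]

/-- A complex solution of integral linear equations is a combination of integral solutions. -/
theorem mem_span_of_intKernel {γ : Type*} (E : γ → Matrix κ ι ℤ) {v : ι → ℂ}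
    (hv : ∀ j, (E j).map (Int.cast : ℤ → ℂ) *ᵥ v = 0) :
    v ∈ Submodule.span ℂ
      ((fun z : ι → ℤ => fun i => (z i : ℂ)) '' {z | ∀ j, E j *ᵥ z = 0}) := by
  classical
  let W : Submodule ℚ ℂ := Submodule.span ℚ (Set.range v)
  have : FiniteDimensional ℚ W := FiniteDimensional.span_of_finite ℚ (Set.finite_range v)
  let β := Module.finBasis ℚ W
  let vW : ι → W := fun i => ⟨v i, Submodule.subset_span ⟨i, rfl⟩⟩
  have hker : ∀ j k, ∀ a, ∑ i, (E j a i : ℚ) * β.repr (vW i) k = 0 := fun j k a => by
    have h : (∑ i, E j a i • vW i : W) = 0 := by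
      refine Subtype.ext ?_
      rw [Submodule.coe_sum, Submodule.coe_zero]
      simpa [Matrix.mulVec, dotProduct, vW] using congrFun (hv j) a
    have h2 := congrArg (fun w => β.repr w k) h
    simpa [map_sum, zsmul_eq_mul] using h2
  obtain ⟨d, hd⟩ := IsLocalization.exist_integer_multiples_of_finite (nonZeroDivisors ℤ)
    (fun p : ι × Fin (Module.finrank ℚ W) => β.repr (vW p.1) p.2)
  choose z hz using hd
  have hz' : ∀ i k, (z (i, k) : ℚ) = (d : ℤ) * β.repr (vW i) k := fun i k => by
    have h := hz (i, k)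
    simpa [zsmul_eq_mul] using h
  have hd0 : ((d : ℤ) : ℂ) ≠ 0 := Int.cast_ne_zero.mpr (nonZeroDivisors.ne_zero d.2)
  have hvk : v = ∑ k, ((β k : ℂ) / ((d : ℤ) : ℂ)) • fun i => (z (i, k) : ℂ) := by
    funext i
    have h := congrArg (fun w : W => (w : ℂ)) (β.sum_repr (vW i))
    simp only [Submodule.coe_sum, Submodule.coe_smul, vW] at h
    rw [← h, Finset.sum_apply]
    refine Finset.sum_congr rfl fun k _ => ?_
    have e : (z (i, k) : ℂ) = ((d : ℤ) : ℂ) * ((β.repr (vW i) k : ℚ) : ℂ) := by
      exact_mod_cast hz' i k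
    rw [Pi.smul_apply, smul_eq_mul, e, Rat.smul_def]
    field_simp
    exact mul_comm _ _
  rw [hvk]
  refine sum_mem fun k _ => Submodule.smul_mem _ _ (Submodule.subset_span ⟨_, fun j => ?_, rfl⟩)
  funext a
  have e : ((∑ i, E j a i * z (i, k) : ℤ) : ℚ) = 0 := by
    push_cast
    simp only [hz', ← mul_assoc, mul_comm _ ((d : ℤ) : ℚ)]
    rw [show ∑ i, ((d : ℤ) : ℚ) * (E j a i : ℚ) * β.repr (vW i) k
        = ((d : ℤ) : ℚ) * ∑ i, (E j a i : ℚ) * β.repr (vW i) k by
      rw [Finset.mul_sum]; exact Finset.sum_congr rfl fun i _ => mul_assoc _ _ _]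
    rw [hker, mul_zero]
  exact Int.cast_eq_zero.mp e

/-- An integral matrix injective on integral vectors is injective on complex ones. -/
theorem eq_zero_of_map_mulVec (Y : Matrix κ ι ℤ) (hY : ∀ z : ι → ℤ, Y *ᵥ z = 0 → z = 0)
    {v : ι → ℂ} (hv : Y.map (Int.cast : ℤ → ℂ) *ᵥ v = 0) : v = 0 := by
  have h := mem_span_of_intKernel (fun _ : Unit => Y) (v := v) fun _ => hv
  have hs : (fun z : ι → ℤ => fun i => (z i : ℂ)) '' {z | ∀ _ : Unit, Y *ᵥ z = 0} ⊆ {0} := by
    rintro _ ⟨z, hz, rfl⟩
    simp [hY z (hz ())]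
    rfl
  exact (Submodule.mem_bot ℂ).mp (Submodule.span_le.mpr (hs.trans (by simp)) h)

end Kernel

section Periods

variable (N : ℕ) [NeZero N]

/-- The period coordinates of a pair of forms. -/
def periodCoord : CuspForm (Gamma0 N) 2 × CuspForm (Gamma0 N) 2 →ₗ[ℂ] (Fin (rk N) → ℂ) where
  toFun x i := periodHomPair N x (Additive.ofMul (gen N i))
  map_add' x y := funext fun i => by rw [map_add, AddMonoidHom.add_apply, Pi.add_apply]
  map_smul' c x := funext fun i => by rw [map_smul]; rfl

theorem periodCoord_injective : Function.Injective (periodCoord N) := by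
  intro x y h
  have hmem : ∀ z, ParHom.IsParEllHom (Gamma0 N) (periodHomPair N z) := fun z =>
    ParHom.isParabolicHom_iff.mp ((range_periodHomPair N).le ⟨z, rfl⟩)
  exact Periods.periodHomPair_injective N (ParHom.IsParEllHom.ext_parGen
    (ParHom.neg_one_mem_Gamma0 N) (hmem x) (hmem y) fun i => congrFun h i)

theorem periodCoord_surjective : Function.Surjective (periodCoord N) := by
  intro v
  let φ := (ParHom.parEquiv (ParHom.neg_one_mem_Gamma0 N) ℂ ℂ).symm v
  obtain ⟨x, hx⟩ := (range_periodHomPair N).ge (ParHom.mem_parEllHoms.mp φ.2).isParabolicHom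
  refine ⟨x, funext fun i => ?_⟩
  show periodHomPair N x (Additive.ofMul (gen N i)) = v i
  rw [hx]
  exact congrFun ((ParHom.parEquiv (ParHom.neg_one_mem_Gamma0 N) ℂ ℂ).apply_symm_apply v) i

/-- In period coordinates a Hecke operator is the cast of its integral matrix. -/
theorem periodCoord_hecke (t : CuspForm.heckeAlgebra N 2 ∅)
    (x : CuspForm (Gamma0 N) 2 × CuspForm (Gamma0 N) 2) :
    periodCoord N ((t : Module.End ℂ _) x.1, (t : Module.End ℂ _) x.2)
      = (actMatrix N t).map (Int.cast : ℤ → ℂ) *ᵥ periodCoord N x := by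
  have key : (periodCoord N) ∘ₗ (LinearMap.prodMap (t : Module.End ℂ _) (t : Module.End ℂ _))
      = (Matrix.mulVecLin ((actMatrix N t).map (Int.cast : ℤ → ℂ))) ∘ₗ periodCoord N := by
    choose y hy using fun i => exists_periodHomPair_eq_castHom (basisHom N i)
    have hyc : ∀ i, periodCoord N (y i) = Pi.single i 1 := fun i => funext fun j => by
      show periodHomPair N (y i) (Additive.ofMul (gen N j)) = _
      rw [hy]
      show (((basisHom N i : Additive (Gamma0 N) →+ ℤ) (Additive.ofMul (gen N j)) : ℤ) : ℂ) = _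
      rw [basisHom_gen]
      rcases eq_or_ne j i with rfl | hne <;> simp [*]
    refine LinearMap.ext fun z => ?_
    have hz : z = ∑ i, periodCoord N z i • y i := periodCoord_injective N <| by
      rw [map_sum]
      simp only [map_smul, hyc]
      funext j
      simp [Finset.sum_apply, Pi.single_apply]
    rw [hz, map_sum, map_sum]
    refine Finset.sum_congr rfl fun i _ => ?_
    rw [map_smul, map_smul]
    refine congrArg _ (funext fun j => ?_)
    show periodHomPair N ((t : Module.End ℂ _) (y i).1, (t : Module.End ℂ _) (y i).2)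
      (Additive.ofMul (gen N j)) = ((actMatrix N t).map (Int.cast : ℤ → ℂ) *ᵥ periodCoord N (y i)) j
    rw [rel_heckeActZ N t _ _ (hy i), hyc, Matrix.mulVec_single_one]
    show (((heckeActZ N t (basisHom N i) : Additive (Gamma0 N) →+ ℤ)
      (Additive.ofMul (gen N j)) : ℤ) : ℂ) = _
    rw [← actMatrix_apply]
    rfl
  exact LinearMap.congr_fun key x

end Periods

end Fermat.Agent.Residual.Eigen2

end
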