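/-
Residual modularity at three, eigen torsion: an integral matrix congruent to one of small complex
rank has small rank modulo the prime.
-/
import Mathlib.LinearAlgebra.Matrix.Rank
import Mathlib.LinearAlgebra.Dimension.Constructions
import Mathlib.Algebra.CharP.Lemmas
import Mathlib.RingTheory.Ideal.Quotient.Operations
import Mathlib.LinearAlgebra.Matrix.NonsingularInverse
import Mathlib.Algebra.Field.ZMod
import Mathlib.Analysis.Complex.Basic

set_option autoImplicit false

noncomputable section

open Matrix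

namespace Fermat.Agent.Residual.Eigen2

/-- Generators modulo `p` of the image of an integral matrix, from a bound on the complex rank of
a congruent matrix over a ring of integers. -/
theorem exists_generators_of_rank_le {ι : Type*} [Fintype ι] [DecidableEq ι] {p d : ℕ}
    [Fact p.Prime] (A : Matrix ι ι ℤ) {O : Type*} [CommRing O] (j : O →+* ℂ)
    (hj : Function.Injective j) (𝔪 : Ideal O) (h𝔪 : 𝔪 ≠ ⊤) (hp : (p : O) ∈ 𝔪)
    (U : Matrix ι ι O) (hU : ∀ a b, U a b - (A a b : O) ∈ 𝔪) (hrank : (U.map j).rank ≤ d) :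
    ∃ y : Fin d → ι → ℤ, ∀ v : ι → ℤ, ∃ c : Fin d → ℤ, ∃ r : ι → ℤ,
      A *ᵥ v = ∑ i, c i • y i + (p : ℤ) • r := by
  classical
  set Ab := A.map (Int.cast : ℤ → ZMod p) with hAb
  obtain ⟨b, hbsub, hspan, hli⟩ := exists_linearIndependent (ZMod p) (Set.range Ab.col)
  have hbfin : b.Finite := (Set.finite_range _).subset hbsub
  let e := hbfin.fintype
  obtain ⟨m, ⟨eb⟩⟩ : ∃ m : ℕ, Nonempty (Fin m ≃ b) := ⟨_, ⟨(Fintype.equivFin b).symm⟩⟩
  choose J hJ using fun i : Fin m => hbsub (eb i).2
  have hliJ : LinearIndependent (ZMod p) (fun i => Ab.col (J i)) := by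
    have hfun : (fun i => Ab.col (J i)) = (fun x : b => (x : ι → ZMod p)) ∘ eb := funext hJ
    rw [hfun]
    exact hli.comp _ eb.injective
  -- a left inverse modulo `p`
  set AJ := Ab.submatrix id J with hAJ
  have hinj : Function.Injective AJ.mulVecLin := by
    rw [Matrix.coe_mulVecLin, Matrix.mulVec_injective_iff]
    exact hliJ
  obtain ⟨g, hg⟩ := AJ.mulVecLin.exists_leftInverse_of_injective (LinearMap.ker_eq_bot.mpr hinj)
  have hBA : LinearMap.toMatrix' g * AJ = 1 := by
    have h := congrArg LinearMap.toMatrix' hg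
    rwa [LinearMap.toMatrix'_comp, LinearMap.toMatrix'_id, ← Matrix.toLin'_apply',
      LinearMap.toMatrix'_toLin'] at h
  choose B hB using fun i k => ZMod.intCast_surjective (LinearMap.toMatrix' g i k)
  have hmd : m ≤ d := by
    have : Nontrivial (O ⧸ 𝔪) := Ideal.Quotient.nontrivial_iff.mpr h𝔪
    have : CharP (O ⧸ 𝔪) p := (CharP.charP_iff_prime_eq_zero Fact.out).mpr (by
      rw [← map_natCast (Ideal.Quotient.mk 𝔪)]
      exact Ideal.Quotient.eq_zero_iff_mem.mpr hp)
    let γ : ZMod p →+* O ⧸ 𝔪 := ZMod.castHom (dvd_refl p) _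
    let M : Matrix (Fin m) (Fin m) O :=
      ((Matrix.of B).map (Int.cast : ℤ → O)) * (U.submatrix id J)
    have hM : M.map (Ideal.Quotient.mk 𝔪) = 1 := by
      have h1 : M.map (Ideal.Quotient.mk 𝔪) =
          (LinearMap.toMatrix' g * AJ).map γ := by
        rw [Matrix.map_mul, Matrix.map_mul]
        congr 1
        · ext i k
          simp [← hB]
        · ext i k
          simp only [hAJ, hAb, Matrix.map_apply, Matrix.submatrix_apply, id_eq, γ, map_intCast]
          rw [← map_intCast (Ideal.Quotient.mk 𝔪)]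
          exact Ideal.Quotient.eq.mpr (hU _ _)
      rw [h1, hBA, Matrix.map_one _ γ.map_zero γ.map_one]
    have hdet : (M.map j).det ≠ 0 := by
      rw [← RingHom.mapMatrix_apply, ← RingHom.map_det]
      intro h0
      have h1 := congrArg (Ideal.Quotient.mk 𝔪) ((map_eq_zero_iff j hj).mp h0)
      rw [RingHom.map_det, RingHom.mapMatrix_apply, hM, Matrix.det_one, map_zero] at h1
      exact one_ne_zero h1
    have hrM : (M.map j).rank = m := by
      rw [Matrix.rank_of_isUnit _ ((Matrix.isUnit_iff_isUnit_det _).mpr (isUnit_iff_ne_zero.mpr hdet)),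
        Fintype.card_fin]
    have hsub : (U.submatrix id J).map j = U.map j * (1 : Matrix ι ι ℂ).submatrix id J := by
      ext i k
      simp [Matrix.mul_apply, Matrix.one_apply]
    rw [← hrM, show M.map j = ((Matrix.of B).map (Int.cast : ℤ → O)).map j * (U.submatrix id J).map j
      from Matrix.map_mul, hsub]
    exact (Matrix.rank_mul_le_right _ _).trans ((Matrix.rank_mul_le_left _ _).trans hrank)
  refine ⟨fun i => if h : (i : ℕ) < m then A.col (J ⟨i, h⟩) else 0, fun v => ?_⟩
  have hmem : Ab *ᵥ (fun k => (v k : ZMod p)) ∈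
      Submodule.span (ZMod p) (Set.range fun i => Ab.col (J i)) := by
    have hr : (Set.range fun i => Ab.col (J i)) = b := by
      ext w
      simp only [Set.mem_range]
      refine ⟨fun ⟨i, hi⟩ => ?_, fun hw => ⟨eb.symm ⟨w, hw⟩, ?_⟩⟩
      · rw [← hi, hJ i]; exact (eb i).2
      · rw [hJ, Equiv.apply_symm_apply]
    rw [hr, hspan, ← Matrix.range_mulVecLin]
    exact ⟨_, rfl⟩
  obtain ⟨c, hc⟩ := (Submodule.mem_span_range_iff_exists_fun (ZMod p)).mp hmem
  choose cz hcz using fun i => ZMod.intCast_surjective (c i)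
  let c' : Fin d → ℤ := fun i => if h : (i : ℕ) < m then cz ⟨i, h⟩ else 0
  let s : ι → ℤ := A *ᵥ v - ∑ i : Fin m, cz i • A.col (J i)
  have hs : ∀ k, ((p : ℤ)) ∣ s k := fun k => by
    rw [← ZMod.intCast_zmod_eq_zero_iff_dvd]
    have h := congrFun hc k
    simp only [Finset.sum_apply, Pi.smul_apply, smul_eq_mul, Matrix.col_apply, Matrix.mulVec,
      dotProduct, hAb, Matrix.map_apply] at h
    simp only [s, Pi.sub_apply, Finset.sum_apply, Pi.smul_apply, smul_eq_mul, Matrix.col_apply,
      Matrix.mulVec, dotProduct, Int.cast_sub, Int.cast_sum, Int.cast_mul, hcz, h, sub_self]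
  choose r hr using hs
  refine ⟨c', r, ?_⟩
  have hsum : (∑ i : Fin d, c' i • if h : (i : ℕ) < m then A.col (J ⟨i, h⟩) else 0)
      = ∑ i : Fin m, cz i • A.col (J i) := by
    refine (Finset.sum_of_injOn (Fin.castLE hmd) (Fin.castLE_injective hmd).injOn
      (by simp) ?_ ?_).symm
    · intro i _ hi
      have : ¬ (i : ℕ) < m := fun h => hi ⟨⟨i, h⟩, by simp⟩
      simp [c', this]
    · intro i _
      simp [c']
  rw [hsum]
  funext k
  have := hr k
  simp only [s, Pi.sub_apply] at this
  simp only [Pi.add_apply, Pi.smul_apply, smul_eq_mul]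
  linarith

end Fermat.Agent.Residual.Eigen2

end
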