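/-
Weights for subgroups of `SL(2, ℤ)` acting on the upper half plane: nonnegative functions whose
sum over the group is `1`. The integral of an invariant function against a weight does not depend
on the weight; this replaces fundamental domains in the definition of the Petersson product.
-/
import Mathlib
import Fermat.Agent.Duality.Potential

set_option autoImplicit false

noncomputable section

namespace Fermat.Agent.Residual.Petersson

open MeasureTheory UpperHalfPlane Matrix.SpecialLinearGroup Fermat.Agent.Duality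
open scoped MatrixGroups ENNReal NNReal Modular Topology

/-- The real matrix of an element of `SL(2, ℤ)`. -/
abbrev realGL : SL(2, ℤ) →* GL (Fin 2) ℝ := mapGL ℝ

theorem realGL_smul (g : SL(2, ℤ)) (τ : ℍ) : realGL g • τ = g • τ := rfl

theorem measurable_slSmul (g : SL(2, ℤ)) : Measurable fun τ : ℍ => g • τ :=
  (continuous_const_smul (realGL g) : Continuous fun τ : ℍ => realGL g • τ).measurable

theorem countable_sl : Countable SL(2, ℤ) :=
  haveI : Countable (Matrix (Fin 2) (Fin 2) ℤ) := inferInstanceAs (Countable (Fin 2 → Fin 2 → ℤ))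
  Subtype.countable

attribute [local instance] countable_sl

/-- The points of `ℍ` over sets of positive Lebesgue measure have positive measure. -/
theorem isOpenPosMeasure_volume : Measure.IsOpenPosMeasure (volume : Measure ℍ) := by
  refine ⟨fun U hU hne h0 => ?_⟩
  have hmk : Measurable fun z : ℍ => NNReal.mk z.im z.im_pos.le :=
    continuous_im.measurable.subtype_mk
  have hm : Measurable fun z : ℍ => ((((1 / NNReal.mk z.im z.im_pos.le : ℝ≥0) ^ 2 : ℝ≥0)) : ℝ≥0∞) :=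
    ((measurable_const.div hmk).pow_const 2).coe_nnreal_ennreal
  rw [volume_def, withDensity_apply_eq_zero hm] at h0
  have hall : {z : ℍ | ((((1 / NNReal.mk z.im z.im_pos.le : ℝ≥0) ^ 2 : ℝ≥0)) : ℝ≥0∞) ≠ 0} = Set.univ :=
    Set.eq_univ_of_forall fun z h => by
      simp only [ENNReal.coe_eq_zero, pow_eq_zero_iff two_ne_zero, div_eq_zero_iff, one_ne_zero,
        false_or] at h
      exact z.im_ne_zero (congrArg NNReal.toReal h)
  rw [hall, Set.univ_inter, measurableEmbedding_coe.comap_apply] at h0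
  exact ((isOpenEmbedding_coe.isOpenMap U hU).measure_pos volume (hne.image _)).ne' h0

/-- A weight for `Γ`. -/
structure IsWeight (Γ : Subgroup SL(2, ℤ)) (Φ : ℍ → ℝ≥0) : Prop where
  meas : Measurable Φ
  sum_eq : ∀ τ, ∑' γ : Γ, (Φ ((γ : SL(2, ℤ)) • τ) : ℝ≥0∞) = 1
  fin : ∫⁻ τ, Φ τ ≠ ⊤

/-- The integral against a weight. -/
def wInt (Φ : ℍ → ℝ≥0) (P : ℍ → ℂ) : ℂ := ∫ τ, (Φ τ : ℝ) • P τ

theorem integral_comp_glSmul (g : GL (Fin 2) ℝ) (F : ℍ → ℂ) :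
    (∫ τ, F (g • τ)) = ∫ τ, F τ :=
  integral_smul_eq_self F

theorem lintegral_comp_glSmul (g : GL (Fin 2) ℝ) {F : ℍ → ℝ≥0∞} (hF : Measurable F) :
    (∫⁻ τ, F (g • τ)) = ∫⁻ τ, F τ :=
  (measurePreserving_smul g (volume : Measure ℍ)).lintegral_comp hF

namespace IsWeight

variable {Γ Γ' : Subgroup SL(2, ℤ)} {Φ Φ₁ Φ₂ : ℍ → ℝ≥0}

theorem integrable (h : IsWeight Γ Φ) : Integrable fun τ => (Φ τ : ℝ) := by
  refine ⟨h.meas.coe_nnreal_real.aestronglyMeasurable, ?_⟩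
  rw [hasFiniteIntegral_iff_enorm]
  refine lt_of_le_of_lt (le_of_eq (lintegral_congr fun τ => ?_)) h.fin.lt_top
  simp [Real.enorm_eq_ofReal]

theorem integrable_smul (h : IsWeight Γ Φ) {P : ℍ → ℂ} (hP : Continuous P) {C : ℝ}
    (hC : ∀ τ, ‖P τ‖ ≤ C) : Integrable fun τ => (Φ τ : ℝ) • P τ := by
  refine Integrable.mono' (h.integrable.mul_const C)
    (h.meas.coe_nnreal_real.aestronglyMeasurable.smul hP.aestronglyMeasurable) (.of_forall fun τ => ?_)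
  rw [norm_smul, Real.norm_of_nonneg (NNReal.coe_nonneg _)]
  exact mul_le_mul_of_nonneg_left (hC τ) (Φ τ).2

theorem hasSum_real (h : IsWeight Γ Φ) (τ : ℍ) :
    HasSum (fun γ : Γ => (Φ ((γ : SL(2, ℤ)) • τ) : ℝ)) 1 := by
  have h1 : HasSum (fun γ : Γ => (Φ ((γ : SL(2, ℤ)) • τ) : ℝ≥0∞)) ((1 : ℝ≥0) : ℝ≥0∞) := by
    rw [ENNReal.coe_one, ← h.sum_eq τ]
    exact ENNReal.summable.hasSum
  exact NNReal.hasSum_coe.mpr (ENNReal.hasSum_coe.mp h1)

theorem wInt_eq_tsum (h₁ : IsWeight Γ Φ₁) (h₂ : IsWeight Γ Φ₂) {P : ℍ → ℂ} (hP : Continuous P)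
    {C : ℝ} (hC : ∀ τ, ‖P τ‖ ≤ C) :
    wInt Φ₁ P = ∑' γ : Γ, ∫ τ, ((Φ₁ τ : ℝ) * (Φ₂ ((γ : SL(2, ℤ)) • τ) : ℝ)) • P τ := by
  rw [wInt, ← integral_tsum]
  · refine integral_congr_ae (.of_forall fun τ => ?_)
    have := (((h₂.hasSum_real τ).mul_left (Φ₁ τ : ℝ)).smul_const (P τ)).tsum_eq
    rw [mul_one] at this
    exact this.symm
  · exact fun γ => (h₁.meas.coe_nnreal_real.mul
      (h₂.meas.comp (measurable_slSmul γ)).coe_nnreal_real).aestronglyMeasurable.smul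
        hP.aestronglyMeasurable
  · have hm : ∀ γ : Γ, Measurable fun τ => (Φ₁ τ : ℝ≥0∞) * Φ₂ ((γ : SL(2, ℤ)) • τ) := fun γ =>
      h₁.meas.coe_nnreal_ennreal.mul (h₂.meas.comp (measurable_slSmul γ)).coe_nnreal_ennreal
    refine ne_top_of_le_ne_top (ENNReal.mul_ne_top h₁.fin (ENNReal.ofReal_ne_top (r := C))) ?_
    calc ∑' γ : Γ, ∫⁻ τ, ‖((Φ₁ τ : ℝ) * (Φ₂ ((γ : SL(2, ℤ)) • τ) : ℝ)) • P τ‖ₑ
        ≤ ∑' γ : Γ, ∫⁻ τ, (Φ₁ τ : ℝ≥0∞) * Φ₂ ((γ : SL(2, ℤ)) • τ) * ENNReal.ofReal C := by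
          refine ENNReal.tsum_le_tsum fun γ => lintegral_mono fun τ => ?_
          rw [enorm_smul, Real.enorm_eq_ofReal (mul_nonneg (NNReal.coe_nonneg _) (NNReal.coe_nonneg _)),
            ENNReal.ofReal_mul (NNReal.coe_nonneg _), ENNReal.ofReal_coe_nnreal, ENNReal.ofReal_coe_nnreal,
            ← ofReal_norm]
          exact mul_le_mul_right (ENNReal.ofReal_le_ofReal (hC τ)) _
      _ = ∫⁻ τ, ∑' γ : Γ, (Φ₁ τ : ℝ≥0∞) * Φ₂ ((γ : SL(2, ℤ)) • τ) * ENNReal.ofReal C :=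
          (lintegral_tsum fun γ => ((hm γ).mul_const _).aemeasurable).symm
      _ = ∫⁻ τ, (Φ₁ τ : ℝ≥0∞) * ENNReal.ofReal C := lintegral_congr fun τ => by
          rw [ENNReal.tsum_mul_right, ENNReal.tsum_mul_left, h₂.sum_eq, mul_one]
      _ = (∫⁻ τ, (Φ₁ τ : ℝ≥0∞)) * ENNReal.ofReal C :=
          lintegral_mul_const _ h₁.meas.coe_nnreal_ennreal

/-- **The integral of an invariant function does not depend on the weight.** -/
theorem wInt_eq (h₁ : IsWeight Γ Φ₁) (h₂ : IsWeight Γ Φ₂) {P : ℍ → ℂ} (hP : Continuous P)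
    {C : ℝ} (hC : ∀ τ, ‖P τ‖ ≤ C) (hinv : ∀ γ ∈ Γ, ∀ τ, P (γ • τ) = P τ) :
    wInt Φ₁ P = wInt Φ₂ P := by
  rw [h₁.wInt_eq_tsum h₂ hP hC, h₂.wInt_eq_tsum h₁ hP hC,
    ← (Equiv.inv Γ).tsum_eq fun γ : Γ => ∫ τ, ((Φ₁ τ : ℝ) * (Φ₂ ((γ : SL(2, ℤ)) • τ) : ℝ)) • P τ]
  refine tsum_congr fun γ => ?_
  rw [← integral_comp_glSmul (realGL (γ : SL(2, ℤ)))]
  refine integral_congr_ae (.of_forall fun τ => ?_)
  simp only [realGL_smul, Equiv.inv_apply, Subgroup.coe_inv, inv_smul_smul, hinv _ γ.2, mul_comm]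

/-- Transport of a weight along a matrix normalising the group. -/
theorem comp (h : IsWeight Γ Φ) (g : GL (Fin 2) ℝ) (e : Γ' ≃ Γ)
    (he : ∀ (γ : Γ') (τ : ℍ), g • ((γ : SL(2, ℤ)) • τ) = (e γ : SL(2, ℤ)) • (g • τ)) :
    IsWeight Γ' fun τ => Φ (g • τ) where
  meas := h.meas.comp (continuous_const_smul g).measurable
  sum_eq τ := by
    simp only [he]
    rw [e.tsum_eq fun γ : Γ => (Φ ((γ : SL(2, ℤ)) • g • τ) : ℝ≥0∞)]
    exact h.sum_eq _
  fin := by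
    rw [lintegral_comp_glSmul g h.meas.coe_nnreal_ennreal]
    exact h.fin

/-- From a group to a subgroup of finite index, given coset representatives. -/
theorem sum_reps (h : IsWeight Γ Φ) (hle : Γ' ≤ Γ) {ι : Type*} [Fintype ι] {r : ι → SL(2, ℤ)}
    (hr : IsReps Γ' Γ r) : IsWeight Γ' fun τ => ∑ i, Φ ((r i)⁻¹ • τ) where
  meas := Finset.measurable_sum _ fun i _ => h.meas.comp (measurable_slSmul _)
  sum_eq τ := by
    have hmem : ∀ p : ι × Γ', (r p.1)⁻¹ * (p.2 : SL(2, ℤ)) ∈ Γ := fun p =>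
      mul_mem (inv_mem (hr.1 _)) (hle p.2.2)
    have hbij : Function.Bijective fun p : ι × Γ' =>
        (⟨(r p.1)⁻¹ * (p.2 : SL(2, ℤ)), hmem p⟩ : Γ) := by
      constructor
      · rintro ⟨i, γ⟩ ⟨j, δ⟩ e
        have e' : (r i)⁻¹ * (γ : SL(2, ℤ)) = (r j)⁻¹ * δ := congrArg Subtype.val e
        obtain ⟨k, -, hk⟩ := hr.2 ((γ : SL(2, ℤ))⁻¹ * r i) (mul_mem (inv_mem (hle γ.2)) (hr.1 i))
        have hi := hk i (by beta_reduce; rw [mul_inv_cancel_right]; exact inv_mem γ.2)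
        have hj := hk j (by
          beta_reduce
          rw [show (γ : SL(2, ℤ))⁻¹ * r i = ((r i)⁻¹ * (γ : SL(2, ℤ)))⁻¹ by group, e',
            show ((r j)⁻¹ * (δ : SL(2, ℤ)))⁻¹ * (r j)⁻¹ = (δ : SL(2, ℤ))⁻¹ by group]
          exact inv_mem δ.2)
        obtain rfl := hi.trans hj.symm
        exact Prod.ext rfl (Subtype.ext (mul_left_cancel e'))
      · intro g
        obtain ⟨i, hi, -⟩ := hr.2 (g : SL(2, ℤ))⁻¹ (inv_mem g.2)
        exact ⟨(i, ⟨_, inv_mem hi⟩), Subtype.ext (by simp [mul_assoc])⟩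
    calc ∑' γ : Γ', ((∑ i, Φ ((r i)⁻¹ • ((γ : SL(2, ℤ)) • τ)) : ℝ≥0) : ℝ≥0∞)
        = ∑' p : ι × Γ', (Φ (((r p.1)⁻¹ * (p.2 : SL(2, ℤ))) • τ) : ℝ≥0∞) := by
          simp only [ENNReal.coe_finsetSum, ← mul_smul]
          rw [Summable.tsum_finsetSum fun i _ => ENNReal.summable,
            ENNReal.tsum_prod' (f := fun p : ι × Γ' =>
              (Φ (((r p.1)⁻¹ * (p.2 : SL(2, ℤ))) • τ) : ℝ≥0∞)), tsum_fintype]
      _ = ∑' g : Γ, (Φ ((g : SL(2, ℤ)) • τ) : ℝ≥0∞) :=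
          (Equiv.ofBijective _ hbij).tsum_eq fun g : Γ => (Φ ((g : SL(2, ℤ)) • τ) : ℝ≥0∞)
      _ = 1 := h.sum_eq τ
  fin := by
    simp only [ENNReal.coe_finsetSum]
    rw [lintegral_finsetSum (f := fun i τ => (Φ ((r i)⁻¹ • τ) : ℝ≥0∞)) _
      fun i _ => (h.meas.comp (measurable_slSmul _)).coe_nnreal_ennreal]
    refine ENNReal.sum_ne_top.mpr fun i _ => ?_
    have := lintegral_comp_glSmul (realGL (r i)⁻¹) h.meas.coe_nnreal_ennreal
    simp only [realGL_smul] at this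
    rw [this]
    exact h.fin

/-- A nonnegative invariant function with vanishing integral vanishes. -/
theorem eq_zero_of_integral_eq_zero (h : IsWeight Γ Φ) {P : ℍ → ℝ} (hP : Continuous P)
    (h0 : ∀ τ, 0 ≤ P τ) {C : ℝ} (hC : ∀ τ, P τ ≤ C) (hinv : ∀ γ ∈ Γ, ∀ τ, P (γ • τ) = P τ)
    (hI : (∫ τ, (Φ τ : ℝ) * P τ) = 0) : P = 0 := by
  haveI := isOpenPosMeasure_volume
  have hint : Integrable fun τ => (Φ τ : ℝ) * P τ := by
    refine Integrable.mono' (h.integrable.mul_const C)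
      (h.meas.coe_nnreal_real.mul hP.measurable).aestronglyMeasurable (.of_forall fun τ => ?_)
    rw [Real.norm_of_nonneg (mul_nonneg (NNReal.coe_nonneg _) (h0 τ))]
    exact mul_le_mul_of_nonneg_left (hC τ) (Φ τ).2
  have h1 : ∀ γ : Γ, ∀ᵐ τ : ℍ, (Φ ((γ : SL(2, ℤ)) • τ) : ℝ) * P τ = 0 := fun γ => by
    have := (integral_eq_zero_iff_of_nonneg (fun τ => mul_nonneg (Φ τ).2 (h0 τ)) hint).mp hI
    have := (measurePreserving_smul (realGL (γ : SL(2, ℤ))) (volume : Measure ℍ)).quasiMeasurePreserving.ae this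
    filter_upwards [this] with τ hτ
    have e : (Φ ((γ : SL(2, ℤ)) • τ) : ℝ) * P ((γ : SL(2, ℤ)) • τ) = 0 := hτ
    rwa [hinv _ γ.2] at e
  have h2 : P =ᵐ[(volume : Measure ℍ)] 0 := by
    filter_upwards [ae_all_iff.mpr h1] with τ hτ
    have := ((h.hasSum_real τ).mul_right (P τ)).tsum_eq
    rw [tsum_congr hτ, tsum_zero, one_mul] at this
    exact this.symm
  exact Measure.eq_of_ae_eq h2 hP continuous_const

end IsWeight

/-! ### Existence -/

theorem finite_setOf_smul_mem_fd (τ : ℍ) : {g : SL(2, ℤ) | g • τ ∈ 𝒟}.Finite := by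
  obtain ⟨g₀, h₀⟩ := ModularGroup.exists_smul_mem_fd τ
  let S := ModularGroup.S
  let T := ModularGroup.T
  let L : Set SL(2, ℤ) := {1, -1, T, -T, T⁻¹, -T⁻¹, S, -S, T * S, -(T * S), T⁻¹ * S * T⁻¹,
    -(T⁻¹ * S * T⁻¹), S * T⁻¹, -(S * T⁻¹), S * T, -(S * T), T * S * T, -(T * S * T), T⁻¹ * S,
    -(T⁻¹ * S)}
  refine ((Set.toFinite L).image (· * g₀)).subset fun g hg => ⟨g * g₀⁻¹, ?_, inv_mul_cancel_right g g₀⟩
  have hg' : (g * g₀⁻¹) • (g₀ • τ) ∈ 𝒟 := by rwa [mul_smul, inv_smul_smul]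
  rcases ModularGroup.cases_of_mem_fd_smul_mem_fd h₀ hg' with
    h | ⟨h, -⟩ | ⟨h, -⟩ | ⟨h, -⟩ | ⟨h, -⟩ | ⟨h, -⟩ | ⟨h, -⟩ | ⟨h, -⟩ | ⟨h, -⟩ | ⟨h, -⟩ <;>
    rcases h with h | h <;> rw [h] <;>
      simp only [L, S, T, Set.mem_insert_iff, Set.mem_singleton_iff, true_or, or_true]

theorem volume_fd_ne_top : (volume 𝒟 : ℝ≥0∞) ≠ ⊤ := by
  have hsub : UpperHalfPlane.coe '' 𝒟 ⊆
      Complex.measurableEquivRealProd ⁻¹' (Set.Icc (-(1 / 2) : ℝ) (1 / 2) ×ˢ Set.Ioi (1 / 2 : ℝ)) := by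
    rintro _ ⟨τ, hτ, rfl⟩
    have h3 := ModularGroup.three_le_four_mul_im_sq_of_mem_fd hτ
    have h1 : -(1 / 2) ≤ τ.re ∧ τ.re ≤ 1 / 2 := abs_le.mp hτ.2
    have h2 : 1 / 2 < τ.im := by nlinarith [τ.im_pos]
    simpa [Complex.measurableEquivRealProd_apply] using And.intro h1 h2
  have hF : Measurable fun p : ℝ × ℝ => (((1 / ‖p.2‖₊) ^ 2 : ℝ≥0) : ℝ≥0∞) := by fun_prop
  rw [volume_eq_lintegral]
  refine ne_top_of_le_ne_top ?_ (lintegral_mono_set hsub)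
  change (∫⁻ z in _, (fun p : ℝ × ℝ => (((1 / ‖p.2‖₊) ^ 2 : ℝ≥0) : ℝ≥0∞))
    (Complex.measurableEquivRealProd z)) ≠ ⊤
  rw [Complex.volume_preserving_equiv_real_prod.setLIntegral_comp_preimage
    (measurableSet_Icc.prod measurableSet_Ioi) hF, Measure.volume_eq_prod,
    setLIntegral_prod _ hF.aemeasurable]
  simp only [setLIntegral_const]
  refine ENNReal.mul_ne_top ?_ (by simp)
  have hint : IntegrableOn (fun y : ℝ => y ^ (-2 : ℝ)) (Set.Ioi (1 / 2)) :=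
    integrableOn_Ioi_rpow_of_lt (by norm_num) (by norm_num)
  refine ne_of_lt (lt_of_le_of_lt (le_of_eq (setLIntegral_congr_fun measurableSet_Ioi ?_)) hint.2)
  intro y hy
  have hy0 : 0 < y := lt_trans (by norm_num) (Set.mem_Ioi.mp hy)
  simp only
  rw [Real.enorm_eq_ofReal (by positivity), ← ENNReal.ofReal_coe_nnreal]
  congr 1
  push_cast
  rw [Real.norm_of_nonneg hy0.le, Real.rpow_neg hy0.le, Real.rpow_two]
  field_simp

theorem exists_weight (Γ : Subgroup SL(2, ℤ)) [Γ.FiniteIndex] : ∃ Φ, IsWeight Γ Φ := by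
  classical
  haveI := Fintype.ofFinite (SL(2, ℤ) ⧸ Γ)
  set u : ℍ → ℝ≥0∞ := Set.indicator 𝒟 fun _ => 1 with hu
  have humeas : Measurable u := measurable_const.indicator ModularGroup.isClosed_fd.measurableSet
  set Ψ : ℍ → ℝ≥0∞ := fun τ => ∑ c : SL(2, ℤ) ⧸ Γ, u (c.out • τ) with hΨ
  have hΨm : Measurable Ψ := Finset.measurable_sum _ fun c _ => humeas.comp (measurable_slSmul _)
  set n : ℍ → ℝ≥0∞ := fun τ => ∑' γ : Γ, Ψ ((γ : SL(2, ℤ)) • τ) with hn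
  have hbij : Function.Bijective fun p : (SL(2, ℤ) ⧸ Γ) × Γ => p.1.out * (p.2 : SL(2, ℤ)) := by
    constructor
    · rintro ⟨c, γ⟩ ⟨d, δ⟩ e
      simp only at e
      have h' : (QuotientGroup.mk (c.out * (γ : SL(2, ℤ))) : SL(2, ℤ) ⧸ Γ) =
          QuotientGroup.mk (d.out * (δ : SL(2, ℤ))) := congrArg QuotientGroup.mk e
      rw [QuotientGroup.mk_mul_of_mem _ γ.2, QuotientGroup.mk_mul_of_mem _ δ.2,
        QuotientGroup.out_eq', QuotientGroup.out_eq'] at h'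
      subst h'
      exact Prod.ext rfl (Subtype.ext (mul_left_cancel e))
    · intro g
      refine ⟨(QuotientGroup.mk g, ⟨(QuotientGroup.mk g : SL(2, ℤ) ⧸ Γ).out⁻¹ * g, ?_⟩), by simp⟩
      exact QuotientGroup.eq.mp (QuotientGroup.out_eq' _)
  have hn' : ∀ τ, n τ = ∑' g : SL(2, ℤ), u (g • τ) := fun τ => by
    rw [← (Equiv.ofBijective _ hbij).tsum_eq fun g : SL(2, ℤ) => u (g • τ)]
    simp only [hn, hΨ, Equiv.ofBijective_apply, ← mul_smul]
    rw [Summable.tsum_finsetSum fun c _ => ENNReal.summable,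
      ENNReal.tsum_prod' (f := fun p : (SL(2, ℤ) ⧸ Γ) × Γ =>
        u ((p.1.out * (p.2 : SL(2, ℤ))) • τ)), tsum_fintype]
  have h1 : ∀ τ, 1 ≤ n τ := fun τ => by
    obtain ⟨g, hg⟩ := ModularGroup.exists_smul_mem_fd τ
    rw [hn']
    refine le_trans (le_of_eq ?_) (ENNReal.le_tsum g)
    rw [hu, Set.indicator_of_mem hg]
  have hfin : ∀ τ, n τ ≠ ⊤ := fun τ => by
    rw [hn', tsum_eq_sum (s := (finite_setOf_smul_mem_fd τ).toFinset) fun g hg => by
      simp only [Set.Finite.mem_toFinset, Set.mem_setOf_eq] at hg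
      rw [hu]
      exact Set.indicator_of_notMem hg _]
    refine ENNReal.sum_ne_top.mpr fun g _ => ne_top_of_le_ne_top ENNReal.one_ne_top ?_
    exact Set.indicator_le_self' (fun _ _ => zero_le_one) _
  have hΨfin : ∀ τ, Ψ τ / n τ ≠ ⊤ := fun τ => by
    refine ENNReal.div_ne_top (ENNReal.sum_ne_top.mpr fun c _ => ne_top_of_le_ne_top
      ENNReal.one_ne_top (Set.indicator_le_self' (fun _ _ => zero_le_one) _)) ?_
    exact (zero_lt_one.trans_le (h1 τ)).ne'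
  have hinv : ∀ (γ : Γ) τ, n ((γ : SL(2, ℤ)) • τ) = n τ := fun γ τ => by
    conv_rhs => rw [hn]
    show ∑' δ : Γ, _ = ∑' δ : Γ, _
    rw [← (Equiv.mulRight γ).tsum_eq fun δ : Γ => Ψ ((δ : SL(2, ℤ)) • τ)]
    simp [mul_smul]
  have hnm : Measurable n := Measurable.ennreal_tsum fun γ => hΨm.comp (measurable_slSmul _)
  refine ⟨fun τ => (Ψ τ / n τ).toNNReal, (hΨm.div hnm).ennreal_toNNReal, fun τ => ?_, ?_⟩
  · simp only [ENNReal.coe_toNNReal (hΨfin _)]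
    simp only [hinv]
    rw [show (fun γ : Γ => Ψ ((γ : SL(2, ℤ)) • τ) / n τ) =
      fun γ : Γ => Ψ ((γ : SL(2, ℤ)) • τ) * (n τ)⁻¹ from rfl, ENNReal.tsum_mul_right]
    exact ENNReal.mul_inv_cancel (zero_lt_one.trans_le (h1 τ)).ne' (hfin τ)
  · refine ne_top_of_le_ne_top ?_ (lintegral_mono (g := Ψ) fun τ => ?_)
    · simp only [hΨ]
      rw [lintegral_finsetSum (f := fun c τ => u ((c : SL(2, ℤ) ⧸ Γ).out • τ)) _
        fun c _ => humeas.comp (measurable_slSmul _)]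
      refine ENNReal.sum_ne_top.mpr fun c _ => ?_
      have := lintegral_comp_glSmul (realGL c.out) humeas
      simp only [realGL_smul] at this
      rw [this, hu, lintegral_indicator_const ModularGroup.isClosed_fd.measurableSet, one_mul]
      exact volume_fd_ne_top
    · rw [ENNReal.coe_toNNReal (hΨfin τ)]
      calc Ψ τ / n τ ≤ Ψ τ / 1 := ENNReal.div_le_div_left (h1 τ) _
        _ = Ψ τ := div_one _

end Fermat.Agent.Residual.Petersson

end
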