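/-
The Petersson product in weight two for `Γ₀(N)` and self-adjointness of `T_ℓ`, `ℓ ∤ N`;
the maximum of `|f| y` and the eigenvalues `± (ℓ + 1)`.
-/
import Fermat.Agent.Residual.PeterssonWeight
import Fermat.Agent.Duality.Gamma0
import Fermat.Prelude.Def_ModularForm_HeckeOperatorForms

set_option autoImplicit false

noncomputable section

namespace Fermat.Agent.Residual.Petersson

open MeasureTheory UpperHalfPlane CongruenceSubgroup ModularForm Filter Fermat.Agent.Duality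
  Fermat.Agent.HeckeCohom
open scoped MatrixGroups NNReal Modular Topology ComplexConjugate ModularForm

variable {N : ℕ} [NeZero N]

/-- `|f| y`. -/
def hgt (f : ℍ → ℂ) (τ : ℍ) : ℝ := ‖f τ‖ * τ.im

theorem hgt_nonneg (f : ℍ → ℂ) (τ : ℍ) : 0 ≤ hgt f τ := mul_nonneg (norm_nonneg _) τ.im_pos.le

theorem norm_petersson_eq (f g : ℍ → ℂ) (τ : ℍ) :
    ‖petersson 2 f g τ‖ = hgt f τ * hgt g τ := by
  simp only [petersson, hgt, norm_mul, Complex.norm_conj, norm_zpow, Complex.norm_real,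
    Real.norm_of_nonneg τ.im_pos.le, zpow_two]
  ring

theorem petersson_self_eq (f : ℍ → ℂ) (τ : ℍ) :
    petersson 2 f f τ = ((hgt f τ ^ 2 : ℝ) : ℂ) := by
  rw [petersson, hgt, mul_pow, ← Complex.normSq_eq_norm_sq, Complex.ofReal_mul,
    Complex.ofReal_pow, Complex.normSq_eq_conj_mul_self, zpow_two, sq]

theorem petersson_slash_two (f g : ℍ → ℂ) {m : GL (Fin 2) ℝ} (hm : 0 < m.val.det) (τ : ℍ) :
    petersson 2 (f ∣[(2 : ℤ)] m) (g ∣[(2 : ℤ)] m) τ = petersson 2 f g (m • τ) := by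
  rw [petersson_slash, sub_self, zpow_zero, one_mul, UpperHalfPlane.σ, if_pos]
  · rfl
  · exact hm

theorem hgt_slash (f : ℍ → ℂ) {m : GL (Fin 2) ℝ} (hm : 0 < m.val.det) (τ : ℍ) :
    hgt (f ∣[(2 : ℤ)] m) τ = hgt f (m • τ) := by
  refine (sq_eq_sq₀ (hgt_nonneg _ _) (hgt_nonneg _ _)).mp ?_
  rw [sq, sq, ← norm_petersson_eq, ← norm_petersson_eq, petersson_slash_two _ _ hm]

theorem det_realGL_pos (γ : SL(2, ℤ)) : 0 < (realGL γ).val.det := by
  rw [Matrix.SpecialLinearGroup.mapGL_coe_matrix, Matrix.SpecialLinearGroup.det_coe]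
  exact one_pos

theorem slash_realGL (f : CuspForm (Gamma0 N) 2) {γ : SL(2, ℤ)} (hγ : γ ∈ Gamma0 N) :
    (⇑f) ∣[(2 : ℤ)] realGL γ = ⇑f :=
  SlashInvariantFormClass.slash_action_eq f _ ⟨γ, hγ, rfl⟩

theorem hgt_smul (f : CuspForm (Gamma0 N) 2) {γ : SL(2, ℤ)} (hγ : γ ∈ Gamma0 N) (τ : ℍ) :
    hgt f (γ • τ) = hgt f τ := by
  conv_rhs => rw [← slash_realGL f hγ]
  exact (hgt_slash _ (det_realGL_pos γ) τ).symm

theorem continuous_hgt (f : CuspForm (Gamma0 N) 2) : Continuous (hgt f) :=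
  (CuspFormClass.holo f).continuous.norm.mul continuous_im

open ConjAct Pointwise Matrix.SpecialLinearGroup in
theorem tendsto_hgt_comp_smul (f : CuspForm (Gamma0 N) 2) (g : SL(2, ℤ)) :
    Tendsto (fun τ => hgt f (g • τ)) atImInfty (𝓝 0) := by
  have harith : ((toConjAct (g : GL (Fin 2) ℝ)⁻¹) •
      (Gamma0 N : Subgroup (GL (Fin 2) ℝ))).IsArithmetic := by
    simpa [(show Rat.castHom ℝ = algebraMap ℚ ℝ by rfl), map_inv, map_mapGL]
      using! Subgroup.IsArithmetic.conj (Gamma0 N : Subgroup (GL (Fin 2) ℝ)) (mapGL ℚ g)⁻¹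
  have h : IsZeroAtImInfty (petersson 2 ((⇑f) ∣[(2 : ℤ)] realGL g) ((⇑f) ∣[(2 : ℤ)] realGL g)) :=
    (CuspFormClass.zero_at_infty (CuspForm.translate f g)).petersson_isZeroAtImInfty_left 2 _
      (CuspForm.translate f g)
  have h' := (tendsto_zero_iff_norm_tendsto_zero.mp h).sqrt
  rw [Real.sqrt_zero] at h'
  refine h'.congr fun τ => ?_
  rw [norm_petersson_eq, Real.sqrt_mul_self (hgt_nonneg _ _), hgt_slash _ (det_realGL_pos g),
    realGL_smul]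

/-- `|f| y` attains its supremum. -/
theorem exists_max_hgt (f : CuspForm (Gamma0 N) 2) : ∃ τ₀, ∀ τ, hgt f τ ≤ hgt f τ₀ := by
  by_cases hz : ∀ τ, hgt f τ ≤ 0
  · exact ⟨I, fun τ => (hz τ).trans (hgt_nonneg _ _)⟩
  push Not at hz
  obtain ⟨τ₁, h₁⟩ := hz
  haveI := Fintype.ofFinite (SL(2, ℤ) ⧸ Gamma0 N)
  have hev : ∀ᶠ σ in atImInfty, ∀ c : SL(2, ℤ) ⧸ Gamma0 N, hgt f (c.out⁻¹ • σ) < hgt f τ₁ :=
    eventually_all.mpr fun c => (tendsto_hgt_comp_smul f c.out⁻¹).eventually (eventually_lt_nhds h₁)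
  obtain ⟨y, hy⟩ := (atImInfty_mem _).mp hev
  set K : Set ℍ := ⋃ c : SL(2, ℤ) ⧸ Gamma0 N,
    (fun σ => c.out⁻¹ • σ) '' ModularGroup.truncatedFundamentalDomain y with hKdef
  have hK : IsCompact K := isCompact_iUnion fun c =>
    (ModularGroup.isCompact_truncatedFundamentalDomain y).image
      (continuous_const_smul (realGL c.out⁻¹) : Continuous fun σ : ℍ => realGL c.out⁻¹ • σ)
  have key : ∀ τ, hgt f τ₁ ≤ hgt f τ → ∃ x ∈ K, hgt f x = hgt f τ := fun τ hτ => by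
    obtain ⟨g, hg⟩ := ModularGroup.exists_smul_mem_fd τ
    set c : SL(2, ℤ) ⧸ Gamma0 N := QuotientGroup.mk g
    have hmem : c.out⁻¹ * g ∈ Gamma0 N := QuotientGroup.eq.mp (QuotientGroup.out_eq' c)
    have e : hgt f (c.out⁻¹ • g • τ) = hgt f τ := by rw [← mul_smul, hgt_smul f hmem]
    refine ⟨c.out⁻¹ • g • τ, Set.mem_iUnion.mpr ⟨c, g • τ, ⟨hg, ?_⟩, rfl⟩, e⟩
    by_contra hlt
    have h2 : hgt f (c.out⁻¹ • g • τ) < hgt f τ₁ := hy (g • τ) (not_le.mp hlt).le c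
    rw [e] at h2
    exact absurd hτ (not_le.mpr h2)
  obtain ⟨x, hx, e⟩ := key τ₁ le_rfl
  obtain ⟨τ₀, -, h₀⟩ := hK.exists_isMaxOn ⟨x, hx⟩ (continuous_hgt f).continuousOn
  have h₀' : ∀ x ∈ K, hgt f x ≤ hgt f τ₀ := fun x hx => isMaxOn_iff.mp h₀ x hx
  refine ⟨τ₀, fun τ => ?_⟩
  rcases le_total (hgt f τ₁) (hgt f τ) with h | h
  · obtain ⟨x', hx', e'⟩ := key τ h
    exact e' ▸ h₀' x' hx'
  · exact h.trans (e ▸ h₀' x hx)

theorem exists_hgt_le (f : CuspForm (Gamma0 N) 2) : ∃ C, ∀ τ, hgt f τ ≤ C :=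
  ⟨_, (exists_max_hgt f).choose_spec⟩

/-- The triangle inequality for `T_ℓ`. -/
theorem hgt_heckeT_le {ℓ : ℕ} (hℓ : ℓ ≠ 0) (f : ℍ → ℂ) (τ : ℍ) :
    hgt (heckeT 2 ℓ f) τ ≤
      (∑ j ∈ Finset.range ℓ, hgt f (heckeMatrix ℓ j • τ)) + hgt f (heckeDiagMatrix ℓ • τ) := by
  have h1 : ∀ j, hgt (f ∣[(2 : ℤ)] heckeMatrix ℓ j) τ = hgt f (heckeMatrix ℓ j • τ) :=
    fun j => hgt_slash _ (det_heckeMatrix_pos ℓ j) τ
  rw [← Finset.sum_congr rfl fun j _ => h1 j, ← hgt_slash f (det_heckeDiagMatrix_pos ℓ) τ]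
  simp only [hgt, heckeT_def, Pi.add_apply, Finset.sum_apply, ← Finset.sum_mul, ← add_mul]
  exact mul_le_mul_of_nonneg_right
    ((norm_add_le _ _).trans (add_le_add (norm_sum_le _ _) le_rfl)) τ.im_pos.le

/-- The eigenvalue bound: `|c| < ℓ + 1`. -/
theorem eq_zero_of_norm_eigenvalue {ℓ : ℕ} (hℓ : ℓ.Prime) (f : CuspForm (Gamma0 N) 2) {c : ℂ}
    (hc : (ℓ : ℝ) + 1 ≤ ‖c‖) (hf : heckeT 2 ℓ ⇑f = c • ⇑f) : f = 0 := by
  obtain ⟨τ₀, hmax⟩ := exists_max_hgt f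
  suffices h0 : hgt f τ₀ = 0 by
    refine DFunLike.coe_injective (funext fun τ => ?_)
    have := le_antisymm ((hmax τ).trans h0.le) (hgt_nonneg _ _)
    simpa [hgt, τ.im_ne_zero] using this
  set H := hgt f τ₀ with hH
  have hstep : ∀ τ, hgt f τ = H → hgt f (heckeDiagMatrix ℓ • τ) = H := fun τ hτ => by
    refine le_antisymm (hmax _) ?_
    have h1 := hgt_heckeT_le hℓ.ne_zero (⇑f) τ
    rw [hf] at h1
    have h2 : hgt (c • ⇑f) τ = ‖c‖ * H := by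
      rw [← hτ, hgt, hgt, Pi.smul_apply, smul_eq_mul, norm_mul, mul_assoc]
    have h3 : (∑ j ∈ Finset.range ℓ, hgt f (heckeMatrix ℓ j • τ)) ≤ ℓ * H := by
      refine (Finset.sum_le_card_nsmul _ _ _ fun j _ => hmax _).trans ?_
      simp
    have h4 : ((ℓ : ℝ) + 1) * H ≤ ‖c‖ * H := mul_le_mul_of_nonneg_right hc (hgt_nonneg _ _)
    linarith
  let a : ℕ → ℍ := fun n => (fun τ => heckeDiagMatrix ℓ • τ)^[n] τ₀
  have ha : ∀ n, hgt f (a n) = H := fun n => by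
    induction n with
    | zero => rfl
    | succ n ih => simp only [a, Function.iterate_succ_apply']; exact hstep _ ih
  have him : ∀ n, (a n).im = (ℓ : ℝ) ^ n * τ₀.im := fun n => by
    induction n with
    | zero => simp [a]
    | succ n ih =>
      have e := congrArg Complex.im (coe_heckeDiagMatrix_smul hℓ.ne_zero (a n))
      simp only [a, Function.iterate_succ_apply']
      rw [UpperHalfPlane.coe_im] at e
      rw [e]
      simp only [Complex.mul_im, Complex.natCast_re, Complex.natCast_im, zero_mul, add_zero,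
        UpperHalfPlane.coe_im]
      simp only [a] at ih
      rw [ih, pow_succ]
      ring
  have hlim : Tendsto a atTop atImInfty := by
    rw [atImInfty, tendsto_comap_iff]
    refine Tendsto.congr (fun n => (him n).symm) ?_
    exact (tendsto_pow_atTop_atTop_of_one_lt (by exact_mod_cast hℓ.one_lt)).atTop_mul_const τ₀.im_pos
  have h := (tendsto_hgt_comp_smul f 1).comp hlim
  simp only [one_smul, Function.comp_def, ha] at h
  exact tendsto_const_nhds_iff.mp h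

/-! ### The product -/

theorem continuous_petersson (f g : CuspForm (Gamma0 N) 2) : Continuous (petersson 2 ⇑f ⇑g) :=
  petersson_continuous 2 (CuspFormClass.holo f).continuous (CuspFormClass.holo g).continuous

theorem petersson_smul_gamma0 (f g : CuspForm (Gamma0 N) 2) {γ : SL(2, ℤ)} (hγ : γ ∈ Gamma0 N)
    (τ : ℍ) : petersson 2 ⇑f ⇑g (γ • τ) = petersson 2 ⇑f ⇑g τ := by
  conv_rhs => rw [← slash_realGL f hγ, ← slash_realGL g hγ,
    petersson_slash_two _ _ (det_realGL_pos γ)]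
  rfl

theorem exists_petersson_bound {f g : ℍ → ℂ} (hf : ∃ C, ∀ τ, hgt f τ ≤ C)
    (hg : ∃ C, ∀ τ, hgt g τ ≤ C) : ∃ C, ∀ τ, ‖petersson 2 f g τ‖ ≤ C := by
  obtain ⟨C, hC⟩ := hf
  obtain ⟨C', hC'⟩ := hg
  exact ⟨C * C', fun τ => norm_petersson_eq f g τ ▸ mul_le_mul (hC τ) (hC' τ) (hgt_nonneg _ _)
    ((hgt_nonneg _ _).trans (hC τ))⟩

/-- The Petersson product against a weight. -/
def pip (Φ : ℍ → ℝ≥0) (f g : CuspForm (Gamma0 N) 2) : ℂ := wInt Φ (petersson 2 ⇑f ⇑g)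

variable {Φ : ℍ → ℝ≥0}

theorem integrable_petersson (h : IsWeight (Gamma0 N) Φ) (f g : CuspForm (Gamma0 N) 2) :
    Integrable fun τ => (Φ τ : ℝ) • petersson 2 ⇑f ⇑g τ :=
  h.integrable_smul (continuous_petersson f g)
    (exists_petersson_bound (exists_hgt_le f) (exists_hgt_le g)).choose_spec

theorem pip_symm (f g : CuspForm (Gamma0 N) 2) : pip Φ g f = conj (pip Φ f g) := by
  rw [pip, pip, wInt, wInt, ← integral_conj]
  refine integral_congr_ae (.of_forall fun τ => ?_)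
  simp [petersson_symm 2 ⇑f ⇑g τ]

theorem pip_sub_right (h : IsWeight (Gamma0 N) Φ) (f g g' : CuspForm (Gamma0 N) 2) :
    pip Φ f (g - g') = pip Φ f g - pip Φ f g' := by
  rw [pip, pip, pip, wInt, wInt, wInt,
    ← integral_sub (integrable_petersson h f g) (integrable_petersson h f g')]
  refine integral_congr_ae (.of_forall fun τ => ?_)
  simp only [petersson, CuspForm.coe_sub, Pi.sub_apply, Complex.real_smul]
  ring

theorem pip_smul_right (c : ℂ) (f g : CuspForm (Gamma0 N) 2) :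
    pip Φ f (c • g) = c * pip Φ f g := by
  rw [pip, pip, wInt, wInt, ← integral_const_mul]
  refine integral_congr_ae (.of_forall fun τ => ?_)
  simp only [petersson, CuspForm.IsGLPos.coe_smul, Pi.smul_apply, Complex.real_smul, smul_eq_mul]
  ring

theorem pip_smul_left (c : ℂ) (f g : CuspForm (Gamma0 N) 2) :
    pip Φ (c • f) g = conj c * pip Φ f g := by
  rw [pip_symm, pip_smul_right, map_mul, ← pip_symm]

theorem eq_zero_of_pip_self (h : IsWeight (Gamma0 N) Φ) (f : CuspForm (Gamma0 N) 2)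
    (h0 : pip Φ f f = 0) : f = 0 := by
  obtain ⟨C, hC⟩ := exists_hgt_le f
  have hI : (∫ τ, (Φ τ : ℝ) * hgt f τ ^ 2) = 0 := by
    rw [← Complex.ofReal_inj, Complex.ofReal_zero, ← h0, pip, wInt, ← integral_complex_ofReal]
    refine integral_congr_ae (.of_forall fun τ => ?_)
    simp [petersson_self_eq]
  have := h.eq_zero_of_integral_eq_zero ((continuous_hgt f).pow 2) (fun τ => sq_nonneg _)
    (fun τ => pow_le_pow_left₀ (hgt_nonneg _ _) (hC τ) 2)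
    (fun γ hγ τ => by simp only [Pi.pow_apply, hgt_smul f hγ]) hI
  refine DFunLike.coe_injective (funext fun τ => ?_)
  have h' := congrFun this τ
  simpa [hgt, τ.im_ne_zero] using h'

/-! ### Self-adjointness -/

theorem wInt_sum_comp {Γ : Subgroup SL(2, ℤ)} (h : IsWeight Γ Φ) {ι : Type*} [Fintype ι]
    (r : ι → SL(2, ℤ)) {P : ℍ → ℂ} (hP : Continuous P) {C : ℝ} (hC : ∀ τ, ‖P τ‖ ≤ C) :
    wInt Φ (fun τ => ∑ i, P (r i • τ)) = wInt (fun τ => ∑ i, Φ ((r i)⁻¹ • τ)) P := by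
  have hi : ∀ i, Integrable fun τ => (Φ τ : ℝ) • P (r i • τ) := fun i =>
    h.integrable_smul
      (hP.comp (continuous_const_smul (realGL (r i)) : Continuous fun τ : ℍ => realGL (r i) • τ))
      fun τ => hC _
  have hi' : ∀ i, Integrable fun τ => (Φ ((r i)⁻¹ • τ) : ℝ) • P τ := fun i => by
    have := (measurePreserving_smul (realGL (r i))⁻¹ (volume : Measure ℍ)).integrable_comp_of_integrable
      (hi i)
    refine this.congr (.of_forall fun τ => ?_)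
    simp only [Function.comp, ← map_inv, realGL_smul, smul_inv_smul]
  simp only [wInt, Finset.smul_sum, NNReal.coe_sum, Finset.sum_smul]
  rw [integral_finsetSum _ fun i _ => hi i, integral_finsetSum _ fun i _ => hi' i]
  refine Finset.sum_congr rfl fun i _ => ?_
  rw [← integral_comp_glSmul (realGL (r i)) fun τ => (Φ ((r i)⁻¹ • τ) : ℝ) • P τ]
  simp only [realGL_smul, inv_smul_smul]

variable {ℓ : ℕ} [Fact ℓ.Prime]

theorem toReal_diagOne : toReal (diagOne ℓ) = heckeMatrix ℓ 0 := by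
  haveI : NeZero ℓ := ⟨(Fact.out : ℓ.Prime).ne_zero⟩
  ext i j
  fin_cases i <;> fin_cases j <;>
    simp [toReal, Matrix.GeneralLinearGroup.map, (Fact.out : ℓ.Prime).ne_zero]

omit [NeZero N] in
theorem upHom_downHom [NeZero ℓ] (k : Gamma0 (N * ℓ)) : upHom N ℓ (downHom N ℓ k) = k := by
  refine Subtype.ext (toGL_mul_cancel (α := diagOne ℓ * diagTop ℓ) ?_)
  have hs : ∀ g : SL(2, ℤ), toGL g * (diagOne ℓ * diagTop ℓ) = diagOne ℓ * diagTop ℓ * toGL g := by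
    intro g
    ext i j
    fin_cases i <;> fin_cases j <;> simp [Matrix.mul_apply, Fin.sum_univ_two, mul_comm]
  rw [hs (k : SL(2, ℤ)), mul_assoc (diagOne ℓ) (diagTop ℓ), downHom_spec, ← mul_assoc, ← mul_assoc,
    upHom_spec]

theorem exists_data (hℓN : ¬ ℓ ∣ N) : ∃ (a b : ℤ) (r : Gamma0 N),
    a * ℓ - b * N = 1 ∧
      ((r : SL(2, ℤ)) : Matrix (Fin 2) (Fin 2) ℤ) = !![a * ℓ, b; (N : ℤ), 1] := by
  obtain ⟨a, b, r, -, hab, hr, -⟩ :=
    exists_bezoutRep N ℓ ((Fact.out : ℓ.Prime).coprime_iff_not_dvd.mpr hℓN)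
  exact ⟨a, b, r, hab, hr⟩

variable {a b : ℤ} {r : Gamma0 N} (hab : a * ℓ - b * N = 1)
  (hr : ((r : SL(2, ℤ)) : Matrix (Fin 2) (Fin 2) ℤ) = !![a * ℓ, b; (N : ℤ), 1])

include hab hr in
theorem slash_diag_eq (f : CuspForm (Gamma0 N) 2) :
    (⇑f) ∣[(2 : ℤ)] heckeDiagMatrix ℓ =
      ((⇑f) ∣[(2 : ℤ)] heckeMatrix ℓ 0) ∣[(2 : ℤ)] realGL (r : SL(2, ℤ)) := by
  have hℓ := (Fact.out : ℓ.Prime).ne_zero
  let u : SL(2, ℤ) := mkSL a b N ℓ (by linarith)
  have hu : u ∈ Gamma0 N := by rw [mem_Gamma0_iff_dvd]; simp [u]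
  have e : heckeMatrix ℓ 0 * realGL (r : SL(2, ℤ)) = realGL u * heckeDiagMatrix ℓ := by
    ext i j
    fin_cases i <;> fin_cases j <;>
      simp [realGL, u, Matrix.mul_apply, Fin.sum_univ_two, hr, hℓ, mul_comm]
  rw [← SlashAction.slash_mul, e, SlashAction.slash_mul, slash_realGL f hu]

include hab hr in
theorem heckeT_eq_sum (hℓN : ¬ ℓ ∣ N) (f : CuspForm (Gamma0 N) 2) :
    heckeT 2 ℓ ⇑f = ∑ i : HeckeIdx N ℓ,
      ((⇑f) ∣[(2 : ℤ)] heckeMatrix ℓ 0) ∣[(2 : ℤ)] realGL (upRep (l := ℓ) r i) := by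
  have hℓ := (Fact.out : ℓ.Prime).ne_zero
  haveI : NeZero ℓ := ⟨hℓ⟩
  rw [heckeT_def]
  have h := sum_heckeBeta N ℓ (M := ℍ → ℂ) fun m => (⇑f) ∣[(2 : ℤ)] m
  rw [if_neg hℓN] at h
  rw [← h]
  refine Finset.sum_congr rfl fun i _ => ?_
  obtain ⟨_ | x, hx⟩ := i
  · exact slash_diag_eq hab hr f
  · rw [← SlashAction.slash_mul]
    congr 1
    ext i j
    fin_cases i <;> fin_cases j <;>
      simp [heckeBeta, upRep, realGL, Matrix.mul_apply, Fin.sum_univ_two, hℓ, -ZMod.natCast_val]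

include hab hr in
theorem isWeight_conj (hℓN : ¬ ℓ ∣ N) {Φ' : ℍ → ℝ≥0} (h : IsWeight (gammaUp N ℓ) Φ') :
    IsWeight (gammaUp N ℓ) fun τ =>
      Φ' ((realGL (r : SL(2, ℤ)) * heckeMatrix ℓ 0)⁻¹ • τ) := by
  have _ := hℓN
  haveI : NeZero ℓ := ⟨(Fact.out : ℓ.Prime).ne_zero⟩
  let ψ : gammaUp N ℓ → gammaUp N ℓ := fun g => ⟨(r : SL(2, ℤ)) * (upHom N ℓ g : SL(2, ℤ)) *
    (r : SL(2, ℤ))⁻¹, (conj_mem_gammaUp_iff hab hr _).mpr (upHom N ℓ g).2⟩
  have hψ : Function.Bijective ψ := by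
    constructor
    · intro g g' e
      have e' := congrArg Subtype.val e
      simp only [ψ, mul_left_inj, mul_right_inj] at e'
      rw [← downHom_upHom N ℓ g, ← downHom_upHom N ℓ g', Subtype.ext e']
    · intro k
      have hk : (r : SL(2, ℤ))⁻¹ * k * r ∈ Gamma0 (N * ℓ) := by
        rw [← conj_mem_gammaUp_iff hab hr]
        simp [mul_assoc]
      refine ⟨downHom N ℓ ⟨_, hk⟩, Subtype.ext ?_⟩
      simp only [ψ, upHom_downHom]
      group
  have hM : ∀ g : gammaUp N ℓ,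
      realGL (r : SL(2, ℤ)) * heckeMatrix ℓ 0 * realGL (g : SL(2, ℤ)) =
        realGL (ψ g : SL(2, ℤ)) * (realGL (r : SL(2, ℤ)) * heckeMatrix ℓ 0) := fun g => by
    have e := congrArg toReal (upHom_spec N ℓ g)
    rw [map_mul, map_mul, toReal_diagOne] at e
    have t : ∀ x : SL(2, ℤ), toReal (toGL x) = realGL x := fun x =>
      Matrix.SpecialLinearGroup.map_mapGL (R := ℤ) (S := ℚ) (T := ℝ) x
    rw [t, t] at e
    simp only [ψ, map_mul, map_inv, mul_assoc, e, inv_mul_cancel_left]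
  refine h.comp _ (Equiv.ofBijective ψ hψ).symm fun γ τ => ?_
  obtain ⟨g, rfl⟩ := hψ.2 γ
  rw [Equiv.ofBijective_symm_apply_apply]
  rw [← realGL_smul, ← realGL_smul, ← mul_smul, ← mul_smul]
  congr 1
  rw [inv_mul_eq_iff_eq_mul, ← mul_assoc, hM, mul_assoc, mul_inv_cancel, mul_one]

/-- **`T_ℓ` is self-adjoint.** -/
theorem pip_heckeT (h : IsWeight (Gamma0 N) Φ) (hℓN : ¬ ℓ ∣ N) (f g : CuspForm (Gamma0 N) 2) :
    pip Φ (CuspForm.heckeTLin 2 Fact.out hℓN f) g =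
      pip Φ f (CuspForm.heckeTLin 2 Fact.out hℓN g) := by
  obtain ⟨a, b, r, hab, hr⟩ := exists_data (ℓ := ℓ) hℓN
  haveI : NeZero ℓ := ⟨(Fact.out : ℓ.Prime).ne_zero⟩
  set α := heckeMatrix ℓ 0 with hα
  have hαpos : 0 < α.val.det := det_heckeMatrix_pos ℓ 0
  set ρ := upRep (l := ℓ) r with hρ
  have hreps := isReps_upRep hℓN hab hr
  set Φ' : ℍ → ℝ≥0 := fun τ => ∑ i, Φ ((ρ i)⁻¹ • τ) with hΦ'
  have hw : IsWeight (gammaUp N ℓ) Φ' := h.sum_reps (gammaUp_le N ℓ) hreps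
  have hcα : ∀ u : CuspForm (Gamma0 N) 2, Continuous ((⇑u) ∣[(2 : ℤ)] α) := fun u =>
    ((CuspFormClass.holo u).slash 2 α).continuous
  have hbα : ∀ u : CuspForm (Gamma0 N) 2, ∃ C, ∀ τ, hgt ((⇑u) ∣[(2 : ℤ)] α) τ ≤ C := fun u =>
    ⟨(exists_hgt_le u).choose, fun τ => hgt_slash ⇑u hαpos τ ▸ (exists_hgt_le u).choose_spec _⟩
  obtain ⟨C₁, hC₁⟩ := exists_petersson_bound (hbα f) (exists_hgt_le g)
  obtain ⟨C₂, hC₂⟩ := exists_petersson_bound (exists_hgt_le f) (hbα g)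
  have hP₁ := petersson_continuous 2 (hcα f) (CuspFormClass.holo g).continuous
  have hP₂ := petersson_continuous 2 (CuspFormClass.holo f).continuous (hcα g)
  have hl : ∀ τ, petersson 2 (heckeT 2 ℓ ⇑f) ⇑g τ =
      ∑ i, petersson 2 ((⇑f) ∣[(2 : ℤ)] α) ⇑g (ρ i • τ) := fun τ => by
    have e : ∀ i, petersson 2 ((⇑f) ∣[(2 : ℤ)] α) ⇑g (ρ i • τ) =
        petersson 2 (((⇑f) ∣[(2 : ℤ)] α) ∣[(2 : ℤ)] realGL (ρ i)) ⇑g τ := fun i => by
      conv_rhs => rw [← slash_realGL g (hreps.1 i),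
        petersson_slash_two _ _ (det_realGL_pos _)]
      rfl
    simp only [e]
    simp only [heckeT_eq_sum hab hr hℓN, petersson, Finset.sum_apply, map_sum, Finset.sum_mul]
    rfl
  have hrt : ∀ τ, petersson 2 ⇑f (heckeT 2 ℓ ⇑g) τ =
      ∑ i, petersson 2 ⇑f ((⇑g) ∣[(2 : ℤ)] α) (ρ i • τ) := fun τ => by
    have e : ∀ i, petersson 2 ⇑f ((⇑g) ∣[(2 : ℤ)] α) (ρ i • τ) =
        petersson 2 ⇑f (((⇑g) ∣[(2 : ℤ)] α) ∣[(2 : ℤ)] realGL (ρ i)) τ := fun i => by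
      conv_rhs => rw [← slash_realGL f (hreps.1 i),
        petersson_slash_two _ _ (det_realGL_pos _)]
      rfl
    simp only [e]
    simp only [heckeT_eq_sum hab hr hℓN, petersson, Finset.sum_apply, Finset.mul_sum,
      Finset.sum_mul]
    rfl
  set M : GL (Fin 2) ℝ := realGL (r : SL(2, ℤ)) * α with hM
  have hswap : ∀ σ, petersson 2 ((⇑f) ∣[(2 : ℤ)] α) ⇑g σ =
      petersson 2 ⇑f ((⇑g) ∣[(2 : ℤ)] α) (M • σ) := fun σ => by
    have hgg : ((⇑g) ∣[(2 : ℤ)] heckeDiagMatrix ℓ) ∣[(2 : ℤ)] α = ⇑g := by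
      rw [← SlashAction.slash_mul]
      funext τ
      have hℓ : (ℓ : ℂ) ≠ 0 := Nat.cast_ne_zero.mpr (NeZero.ne ℓ)
      have hm : ((heckeDiagMatrix ℓ * α : GL (Fin 2) ℝ) : Matrix (Fin 2) (Fin 2) ℝ) =
          !![(ℓ : ℝ), 0; 0, (ℓ : ℝ)] := by
        simp [hα, NeZero.ne ℓ, Matrix.mul_fin_two]
      have hdet : 0 < (heckeDiagMatrix ℓ * α).det.val := by
        rw [Matrix.GeneralLinearGroup.val_det_apply, hm, Matrix.det_fin_two_of]
        have : (0 : ℝ) < ℓ := Nat.cast_pos.mpr (Nat.pos_of_ne_zero (NeZero.ne ℓ))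
        nlinarith
      have hfix : (heckeDiagMatrix ℓ * α) • τ = τ := by
        apply UpperHalfPlane.ext
        rw [UpperHalfPlane.coe_smul_of_det_pos hdet]
        simp [UpperHalfPlane.num, UpperHalfPlane.denom, hm, hℓ]
      rw [ModularForm.slash_apply, hfix, UpperHalfPlane.σ, if_pos hdet,
        Matrix.GeneralLinearGroup.val_det_apply, hm, Matrix.det_fin_two_of]
      simp [UpperHalfPlane.denom, hm, abs_of_pos, hℓ]
      field_simp
    conv_lhs => rw [← hgg, petersson_slash_two _ _ hαpos, slash_diag_eq hab hr g]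
    conv_lhs => rw [← slash_realGL f r.2, petersson_slash_two _ _ (det_realGL_pos _)]
    rw [hM, mul_smul]
  have hinv : ∀ γ ∈ gammaUp N ℓ, ∀ σ, petersson 2 ⇑f ((⇑g) ∣[(2 : ℤ)] α) (γ • σ) =
      petersson 2 ⇑f ((⇑g) ∣[(2 : ℤ)] α) σ := fun γ hγ σ => by
    have e := congrArg toReal (upHom_spec N ℓ ⟨γ, hγ⟩)
    have t : ∀ x : SL(2, ℤ), toReal (toGL x) = realGL x := fun x =>
      Matrix.SpecialLinearGroup.map_mapGL (R := ℤ) (S := ℚ) (T := ℝ) x
    rw [map_mul, map_mul, toReal_diagOne, t, t] at e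
    have hg' : ((⇑g) ∣[(2 : ℤ)] α) ∣[(2 : ℤ)] realGL γ = (⇑g) ∣[(2 : ℤ)] α := by
      rw [← SlashAction.slash_mul, hα, e, SlashAction.slash_mul,
        slash_realGL g (Gamma0_mul_le N ℓ (upHom N ℓ ⟨γ, hγ⟩).2)]
    conv_rhs => rw [← slash_realGL f (gammaUp_le N ℓ hγ), ← hg',
      petersson_slash_two _ _ (det_realGL_pos γ)]
    rfl
  calc pip Φ (CuspForm.heckeTLin 2 Fact.out hℓN f) g
      = wInt Φ fun τ => ∑ i, petersson 2 ((⇑f) ∣[(2 : ℤ)] α) ⇑g (ρ i • τ) :=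
        congrArg (wInt Φ) (funext hl)
    _ = wInt Φ' (petersson 2 ((⇑f) ∣[(2 : ℤ)] α) ⇑g) := wInt_sum_comp h ρ hP₁ hC₁
    _ = wInt (fun τ => Φ' (M⁻¹ • τ)) (petersson 2 ⇑f ((⇑g) ∣[(2 : ℤ)] α)) := by
        rw [wInt, wInt, ← integral_comp_glSmul M fun τ =>
          (Φ' (M⁻¹ • τ) : ℝ) • petersson 2 ⇑f ((⇑g) ∣[(2 : ℤ)] α) τ]
        simp only [inv_smul_smul, hswap]
    _ = wInt Φ' (petersson 2 ⇑f ((⇑g) ∣[(2 : ℤ)] α)) :=
        (isWeight_conj hab hr hℓN hw).wInt_eq hw hP₂ hC₂ hinv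
    _ = wInt Φ fun τ => ∑ i, petersson 2 ⇑f ((⇑g) ∣[(2 : ℤ)] α) (ρ i • τ) :=
        (wInt_sum_comp h ρ hP₂ hC₂).symm
    _ = pip Φ f (CuspForm.heckeTLin 2 Fact.out hℓN g) :=
        congrArg (wInt Φ) (funext fun τ => (hrt τ).symm)

end Fermat.Agent.Residual.Petersson

end
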