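/-
Residual modularity at 3, counting step: semisimplicity of the good Hecke operators in weight two
and exclusion of the eigenvalues `± (ℓ + 1)`, by the Petersson scalar product.

Method: a weight for `Γ ≤ SL(2, ℤ)` is `Φ ≥ 0` on `ℍ` with `∑_{γ ∈ Γ} Φ (γ τ) = 1`; then
`∫ Φ * P` does not depend on the weight for `Γ`-invariant bounded `P`. `T_ℓ` is the trace of
`f ∣ !![1, 0; 0, ℓ]` from `Γ₀(N) ∩ Γ⁰(ℓ)`, hence self adjoint; and a maximum point
of `|f| y` is moved to `i∞` by `τ ↦ ℓ τ` if `|eigenvalue| ≥ ℓ + 1`, so then `f = 0`.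
-/
import Fermat.Prelude.Def_CuspForm_HeckeAlgebra
import Fermat.Agent.Residual.PeterssonHecke
import Fermat.Agent.Eigen.QCoeff
import Mathlib.LinearAlgebra.Eigenspace.Pi
import Mathlib.LinearAlgebra.Eigenspace.Triangularizable
import Mathlib.NumberTheory.ModularForms.Bounds
import Mathlib.LinearAlgebra.Eigenspace.Basic

set_option autoImplicit false

noncomputable section

namespace Fermat.Agent.Residual

variable {N : ℕ} [NeZero N]

/-- `T_ℓ` is semisimple: a generalised eigenvector is an eigenvector. -/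
theorem heckeT_eigen_of_sq_eq_zero {ℓ : ℕ} (hℓ : ℓ.Prime) (hℓN : ¬ ℓ ∣ N) (c : ℂ)
    (f : CuspForm (CongruenceSubgroup.Gamma0 N) 2)
    (hf : CuspForm.heckeTLin 2 hℓ hℓN (CuspForm.heckeTLin 2 hℓ hℓN f - c • f)
      = c • (CuspForm.heckeTLin 2 hℓ hℓN f - c • f)) :
    CuspForm.heckeTLin 2 hℓ hℓN f = c • f := by
  haveI : Fact ℓ.Prime := ⟨hℓ⟩
  obtain ⟨Φ, hΦ⟩ := Petersson.exists_weight (CongruenceSubgroup.Gamma0 N)
  set g := CuspForm.heckeTLin 2 hℓ hℓN f - c • f with hg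
  have adj := Petersson.pip_heckeT hΦ hℓN g g
  rw [hf, Petersson.pip_smul_left, Petersson.pip_smul_right] at adj
  have h1 : Petersson.pip Φ g g = (starRingEnd ℂ c - c) * Petersson.pip Φ g f := by
    calc Petersson.pip Φ g g
        = Petersson.pip Φ g (CuspForm.heckeTLin 2 hℓ hℓN f) - Petersson.pip Φ g (c • f) := by
          conv_lhs => arg 3; rw [hg]
          exact Petersson.pip_sub_right hΦ g _ _
      _ = _ := by
          rw [← Petersson.pip_heckeT hΦ hℓN g f, hf, Petersson.pip_smul_left,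
            Petersson.pip_smul_right, sub_mul]
  refine sub_eq_zero.mp (Petersson.eq_zero_of_pip_self hΦ g ?_)
  rcases eq_or_ne (starRingEnd ℂ c) c with hc | hc
  · rw [h1, hc, sub_self, zero_mul]
  · exact (mul_eq_zero.mp (by rw [sub_mul, adj, sub_self])).resolve_left (sub_ne_zero.mpr hc)

/-- `± (ℓ + 1)` are not eigenvalues of `T_ℓ` on cusp forms. -/
theorem eq_zero_of_heckeT_eq_smul_succ {ℓ : ℕ} (hℓ : ℓ.Prime) (hℓN : ¬ ℓ ∣ N) (e : ℂ)
    (he : e ^ 2 = 1) (f : CuspForm (CongruenceSubgroup.Gamma0 N) 2)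
    (hf : CuspForm.heckeTLin 2 hℓ hℓN f = (e * ((ℓ : ℂ) + 1)) • f) : f = 0 := by
  refine Petersson.eq_zero_of_norm_eigenvalue hℓ f (c := e * ((ℓ : ℂ) + 1)) ?_ ?_
  · have he1 : ‖e‖ = 1 := by
      rcases sq_eq_one_iff.mp he with rfl | rfl <;> simp
    rw [norm_mul, he1, one_mul, show ((ℓ : ℂ) + 1) = ((ℓ + 1 : ℕ) : ℂ) by push_cast; ring,
      Complex.norm_natCast]
    push_cast
    rfl
  · have h := congrArg (fun g : CuspForm (CongruenceSubgroup.Gamma0 N) 2 => (⇑g : UpperHalfPlane → ℂ)) hf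
    simpa using h

/-- Generalised eigenvectors of `T_ℓ` are eigenvectors. -/
theorem maxGenEigenspace_heckeT {ℓ : ℕ} (hℓ : ℓ.Prime) (hℓN : ¬ ℓ ∣ N) (c : ℂ) :
    Module.End.maxGenEigenspace
        (CuspForm.heckeTLin 2 hℓ hℓN : Module.End ℂ (CuspForm (CongruenceSubgroup.Gamma0 N) 2)) c ≤
      Module.End.eigenspace
        (CuspForm.heckeTLin 2 hℓ hℓN : Module.End ℂ (CuspForm (CongruenceSubgroup.Gamma0 N) 2)) c := by
  intro f hf
  set T : Module.End ℂ (CuspForm (CongruenceSubgroup.Gamma0 N) 2) :=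
    CuspForm.heckeTLin 2 hℓ hℓN with hT
  obtain ⟨k, hk⟩ := (Module.End.mem_maxGenEigenspace _ _ _).mp hf
  rw [Module.End.mem_eigenspace_iff]
  clear hf
  induction k generalizing f with
  | zero => simp_all
  | succ k ih =>
    rw [pow_succ, Module.End.mul_apply] at hk
    have h := ih hk
    simp only [LinearMap.sub_apply, LinearMap.smul_apply, Module.End.one_apply] at h
    exact heckeT_eigen_of_sq_eq_zero hℓ hℓN c f h

/-- The common eigenspace of the `T_ℓ`, `ℓ ∤ D`, for the system `χ`. -/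
def sysSpace (N D : ℕ) [NeZero N] (hND : N ∣ D) (χ : ℕ → ℂ) :
    Submodule ℂ (CuspForm (CongruenceSubgroup.Gamma0 N) 2) :=
  ⨅ (ℓ : ℕ) (hℓ : ℓ.Prime) (h : ¬ ℓ ∣ D),
    Module.End.eigenspace (CuspForm.heckeTLin 2 hℓ fun h' => h (h'.trans hND)) (χ ℓ)

/-- Cusp forms are sums of common eigenvectors of the good Hecke operators. -/
theorem iSup_sysSpace_eq_top (D : ℕ) [NeZero D] (hND : N ∣ D) :
    ⨆ χ : ℕ → ℂ, sysSpace N D hND χ = ⊤ := by
  classical
  haveI := Fermat.Agent.Eigen.finiteDimensional_cuspForm N 2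
  let ι := {ℓ : ℕ // ℓ.Prime ∧ ¬ ℓ ∣ D}
  let T : ι → Module.End ℂ (CuspForm (CongruenceSubgroup.Gamma0 N) 2) := fun i =>
    CuspForm.heckeTLin 2 i.2.1 fun h' => i.2.2 (h'.trans hND)
  have h := Module.End.iSup_iInf_maxGenEigenspace_eq_top_of_iSup_maxGenEigenspace_eq_top_of_commute
    T (fun i j _ => CuspForm.heckeTLin_comm 2 i.2.1 _ j.2.1 _)
    (fun i => Module.End.iSup_maxGenEigenspace_eq_top (T i))
  rw [eq_top_iff, ← h]
  refine iSup_le fun χ => ?_
  refine le_iSup_of_le (fun l => if hl : l.Prime ∧ ¬ l ∣ D then χ ⟨l, hl⟩ else 0) ?_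
  refine le_iInf fun l => le_iInf fun hl => le_iInf fun hlD => ?_
  refine (iInf_le _ (⟨l, hl, hlD⟩ : ι)).trans ?_
  simp only [dif_pos (And.intro hl hlD)]
  exact maxGenEigenspace_heckeT hl _ _

end Fermat.Agent.Residual

end
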