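/-
The operators `U_q` on the common eigenspace of the good Hecke operators attached to an eigenform
`g` of lower level: `U_q = a_q(g)` if `g` is new at `q`, and `U_q² - a_q(g) U_q + q = 0` otherwise.
-/
import Fermat.Agent.Residual.CountPetersson
import Fermat.Agent.Ribet.OldEigen

set_option autoImplicit false

noncomputable section

open CongruenceSubgroup ModularFormClass
open Fermat.Agent.Eigen (qCoeff_sub qCoeff_smul qCoeff_form_zero qCoeff_heckeULin
  qCoeff_heckeTLin_two qCoeff_index_zero ext_qCoeff)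
open Fermat.Agent.Newform (levelInclusion qCoeff_levelInclusion atkin_rel_T
  atkin_heckeT_eigen eq_zero_of_supported_dvd)
open Fermat.Agent.Ribet (exists_sieve_prod exists_lower_of_supported)

namespace Fermat.Agent.Residual

variable {D M : ℕ} [NeZero D]

theorem mem_sysSpace_iff {N D : ℕ} [NeZero N] (hND : N ∣ D) (χ : ℕ → ℂ)
    (f : CuspForm (Gamma0 N) 2) :
    f ∈ sysSpace N D hND χ ↔ ∀ (ℓ : ℕ) (hℓ : ℓ.Prime) (h : ¬ ℓ ∣ D),
      CuspForm.heckeTLin 2 hℓ (fun h' => h (h'.trans hND)) f = χ ℓ • f := by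
  simp [sysSpace, Submodule.mem_iInf, Module.End.mem_eigenspace_iff]

/-- `U_p` preserves the common eigenspaces of the good operators. -/
theorem heckeU_mem_sysSpace {χ : ℕ → ℂ} {f : CuspForm (Gamma0 D) 2}
    (hf : f ∈ sysSpace D D dvd_rfl χ) {p : ℕ} (hp : p ∣ D) :
    CuspForm.heckeULin 2 hp f ∈ sysSpace D D dvd_rfl χ := by
  rw [mem_sysSpace_iff] at hf ⊢
  intro ℓ hℓ hℓD
  have h := congrArg (fun T : Module.End ℂ _ => T f)
    (CuspForm.heckeTLin_heckeULin_comm 2 hℓ hℓD hp).eq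
  simp only [Module.End.mul_apply] at h
  rw [h, hf ℓ hℓ hℓD, map_smul]

/-- An eigenform of level `M ∣ D` lies in the eigenspace it defines. -/
theorem levelInclusion_mem_sysSpace (hMD : M ∣ D) {g : CuspForm (Gamma0 M) 2}
    (hg : g.IsNormalizedEigenform) :
    levelInclusion 2 hMD g ∈ sysSpace D D dvd_rfl (qCoeff g) := by
  haveI : NeZero M := ⟨fun h => NeZero.ne D (zero_dvd_iff.mp (h ▸ hMD))⟩
  rw [mem_sysSpace_iff]
  intro ℓ hℓ hℓD
  rw [levelInclusion, Fermat.Agent.Newform.heckeTLin_degeneracy 2 _ hℓ hℓD, atkin_heckeT_eigen hg,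
    map_smul]

variable {g : CuspForm (Gamma0 M) 2}

/-- `a_{m e}(f) = a_m(g) a_e(f)` for `m` prime to `D` and to `e`. -/
theorem qCoeff_mul_of_mem (hMD : M ∣ D) (hg : g.IsNormalizedEigenform)
    {f : CuspForm (Gamma0 D) 2} (hf : f ∈ sysSpace D D dvd_rfl (qCoeff g)) (m e : ℕ)
    (hm : m ≠ 0) (hmD : m.Coprime D) (hme : m.Coprime e) :
    qCoeff f (m * e) = qCoeff g m * qCoeff f e := by
  haveI : NeZero M := ⟨fun h => NeZero.ne D (zero_dvd_iff.mp (h ▸ hMD))⟩
  induction m using Nat.strong_induction_on generalizing e with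
  | _ m ih =>
    rcases eq_or_ne m 1 with rfl | hm1
    · rw [hg.qCoeff_one, one_mul, one_mul]
    obtain ⟨r, hr, hrm⟩ := Nat.exists_prime_and_dvd hm1
    obtain ⟨k, m', hrm', rfl⟩ := Nat.exists_eq_pow_mul_and_not_dvd hm r hr.one_lt.ne'
    have hk : k ≠ 0 := fun h0 => hrm' (by simpa [h0] using hrm)
    have hm'0 : m' ≠ 0 := fun h0 => hm (by simp [h0])
    have hrD : ¬ r ∣ D := fun h =>
      hr.not_dvd_one ((hmD.gcd_eq_one) ▸ Nat.dvd_gcd hrm h)
    have hrM : ¬ r ∣ M := fun h => hrD (h.trans hMD)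
    have hre : ¬ r ∣ e := fun h => hr.not_dvd_one ((hme.gcd_eq_one) ▸ Nat.dvd_gcd hrm h)
    have hT := atkin_rel_T hr hrD ((mem_sysSpace_iff dvd_rfl _ f).mp hf r hr hrD)
    have hpow : ∀ s, qCoeff f (r ^ s * e) = qCoeff g (r ^ s) * qCoeff f e := by
      intro s
      induction s using Nat.strong_induction_on with
      | _ s ih2 =>
        rcases s with _ | _ | s
        · simp [hg.qCoeff_one]
        · have h := hT e
          rw [if_neg hre, add_zero] at h
          simpa [mul_comm] using h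
        · have h := hT (r ^ (s + 1) * e)
          rw [if_pos ((dvd_pow_self r s.succ_ne_zero).mul_right e),
            show r ^ (s + 1) * e / r = r ^ s * e by
              rw [show r ^ (s + 1) * e = r * (r ^ s * e) by ring, Nat.mul_div_cancel_left _ hr.pos],
            show r ^ (s + 1) * e * r = r ^ (s + 2) * e by ring, ih2 (s + 1) (by omega),
            ih2 s (by omega)] at h
          rw [hg.qCoeff_prime_pow_of_not_dvd r s hr hrM]
          linear_combination h
    have hlt : m' < r ^ k * m' :=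
      lt_mul_left (Nat.pos_of_ne_zero hm'0) (Nat.one_lt_pow hk hr.one_lt)
    have hcop : (r ^ k).Coprime m' := (hr.coprime_iff_not_dvd.mpr hrm').pow_left k
    rw [show r ^ k * m' * e = m' * (r ^ k * e) by ring,
      ih m' hlt (r ^ k * e) hm'0 (Nat.Coprime.of_dvd_left (dvd_mul_left m' _) hmD)
        (Nat.Coprime.mul_right hcop.symm (Nat.Coprime.of_dvd_left (dvd_mul_left m' _) hme)),
      hpow, hg.qCoeff_mul_of_coprime _ _ hcop]
    ring

theorem qCoeff_eq_of_mem (hMD : M ∣ D) (hg : g.IsNormalizedEigenform)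
    {f : CuspForm (Gamma0 D) 2} (hf : f ∈ sysSpace D D dvd_rfl (qCoeff g)) (n : ℕ)
    (hn : n.Coprime D) : qCoeff f n = qCoeff g n * qCoeff f 1 := by
  rcases eq_or_ne n 0 with rfl | hn0
  · haveI : NeZero M := ⟨fun h => NeZero.ne D (zero_dvd_iff.mp (h ▸ hMD))⟩
    rw [qCoeff_index_zero, qCoeff_index_zero, zero_mul]
  · simpa using qCoeff_mul_of_mem hMD hg hf n 1 hn0 hn (Nat.coprime_one_right n)

/-- Reduction of a statement about all coefficients to indices prime to a set of primes of `D`. -/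
theorem forall_of_forall_not_dvd {χ : ℕ → ℂ} (R : Finset ℕ)
    (hR : ∀ r ∈ R, r.Prime ∧ r ∣ D) (P : CuspForm (Gamma0 D) 2 → ℕ → Prop)
    (h0 : ∀ f, P f 0)
    (hbase : ∀ f ∈ sysSpace D D dvd_rfl χ, ∀ n, (∀ r ∈ R, ¬ r ∣ n) → P f n)
    (hstep : ∀ (f : CuspForm (Gamma0 D) 2) (r : ℕ) (hr : r ∈ R) (n : ℕ),
      P (CuspForm.heckeULin 2 (hR r hr).2 f) n → P f (n * r)) :
    ∀ f ∈ sysSpace D D dvd_rfl χ, ∀ n, P f n := by
  intro f hf n
  induction n using Nat.strong_induction_on generalizing f with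
  | _ n ih =>
    by_cases hn : ∀ r ∈ R, ¬ r ∣ n
    · exact hbase f hf n hn
    push Not at hn
    obtain ⟨r, hr, hrn⟩ := hn
    rcases eq_or_ne n 0 with rfl | hn0
    · exact h0 f
    rw [← Nat.div_mul_cancel hrn]
    refine hstep f r hr _ (ih _ ?_ _ (heckeU_mem_sysSpace hf (hR r hr).2))
    exact Nat.div_lt_self (Nat.pos_of_ne_zero hn0) (hR r hr).1.one_lt

variable {q D' : ℕ}

/-- The primes of the level other than `q`. -/
theorem primeFactors_cond (hD : D = q * D') (hqD' : ¬ q ∣ D') :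
    q ∉ D'.primeFactors ∧ ∀ r ∈ D'.primeFactors, r.Prime ∧ r ∣ D := by
  refine ⟨fun h => hqD' (Nat.mem_primeFactors.mp h).2.1, fun r hr => ?_⟩
  obtain ⟨h1, h2, -⟩ := Nat.mem_primeFactors.mp hr
  exact ⟨h1, hD ▸ dvd_mul_of_dvd_right h2 q⟩

theorem coprime_of_cond (hq : q.Prime) (hD : D = q * D') {n : ℕ} (hqn : ¬ q ∣ n)
    (hn : ∀ r ∈ D'.primeFactors, ¬ r ∣ n) : n.Coprime D := by
  have hD'0 : D' ≠ 0 := fun h => NeZero.ne D (by simp [hD, h])
  rw [hD]
  refine Nat.Coprime.mul_right ((hq.coprime_iff_not_dvd.mpr hqn).symm) ?_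
  refine Nat.coprime_of_dvd fun k hk hkn hkD => hn k (Nat.mem_primeFactors.mpr ⟨hk, hkD, hD'0⟩) hkn

theorem not_dvd_mul_sieve (hq : q.Prime) (hqD' : ¬ q ∣ D') :
    ¬ q ∣ D' * ∏ r ∈ D'.primeFactors, r * r := fun h => by
  rcases hq.dvd_mul.mp h with h | h
  · exact hqD' h
  · obtain ⟨r, hr, hd⟩ := (hq.prime.dvd_finsetProd_iff _).mp h
    obtain ⟨hrp, hrd, -⟩ := Nat.mem_primeFactors.mp hr
    rcases hq.dvd_mul.mp hd with hd | hd <;>
      exact hqD' ((Nat.prime_dvd_prime_iff_eq hq hrp).mp hd ▸ hrd)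

theorem cond_mul_iff (hq : q.Prime) (hqD' : ¬ q ∣ D') (n : ℕ) :
    (∀ r ∈ D'.primeFactors, ¬ r ∣ n * q) ↔ ∀ r ∈ D'.primeFactors, ¬ r ∣ n := by
  refine forall₂_congr fun r hr => not_congr ⟨fun h => ?_, fun h => h.mul_right q⟩
  obtain ⟨hrp, hrd, -⟩ := Nat.mem_primeFactors.mp hr
  rcases hrp.dvd_mul.mp h with h | h
  · exact h
  · exact absurd ((Nat.prime_dvd_prime_iff_eq hrp hq).mp h ▸ hrd) hqD'

/-- If `g` is new at `q` (`a_q(g) = ± 1`), then `U_q = a_q(g)` on its eigenspace. -/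
theorem qCoeff_mul_prime_of_new (hq : q.Prime) (hD : D = q * D') (hqD' : ¬ q ∣ D')
    (hMD : M ∣ D) (hqM : q ∣ M) (hg : g.IsNormalizedEigenform) (hε : qCoeff g q ^ 2 = 1)
    {f : CuspForm (Gamma0 D) 2} (hf : f ∈ sysSpace D D dvd_rfl (qCoeff g)) (n : ℕ) :
    qCoeff f (n * q) = qCoeff g q * qCoeff f n := by
  classical
  haveI : NeZero M := ⟨fun h => NeZero.ne D (zero_dvd_iff.mp (h ▸ hMD))⟩
  have hR := (primeFactors_cond hD hqD').2
  have hD'0 : D' ≠ 0 := fun h => NeZero.ne D (by simp [hD, h])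
  refine forall_of_forall_not_dvd (χ := qCoeff g) D'.primeFactors hR
    (fun f n => qCoeff f (n * q) = qCoeff g q * qCoeff f n)
    (fun f => by simp [qCoeff_index_zero]) ?_
    (fun f r hr n h => by
      rw [qCoeff_heckeULin (hR r hr).1.ne_zero, qCoeff_heckeULin (hR r hr).1.ne_zero] at h
      rwa [mul_right_comm]) f hf n
  intro f hf n hn
  set ε := qCoeff g q with hεdef
  set a1 := qCoeff f 1 with ha1
  set P := ∏ r ∈ D'.primeFactors, r * r with hP
  have hP0 : P ≠ 0 := Finset.prod_ne_zero_iff.mpr fun r hr =>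
    mul_ne_zero (hR r hr).1.ne_zero (hR r hr).1.ne_zero
  haveI : NeZero (D * P) := ⟨mul_ne_zero (NeZero.ne D) hP0⟩
  haveI : NeZero (D' * P) := ⟨mul_ne_zero hD'0 hP0⟩
  have hqL := not_dvd_mul_sieve hq hqD'
  have hlev : D * P = q * (D' * P) := by rw [hD, mul_assoc]
  have hinc : D' * P ∣ D * P := hlev ▸ dvd_mul_left _ q
  obtain ⟨F, hF⟩ := exists_sieve_prod f D'.primeFactors fun r hr => (hR r hr).1
  obtain ⟨G, hG⟩ := exists_sieve_prod (levelInclusion 2 hMD g) D'.primeFactors fun r hr => (hR r hr).1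
  simp only [qCoeff_levelInclusion] at hG
  have hcond := cond_mul_iff hq hqD'
  have hgq : ∀ k, qCoeff g (k * q) = ε * qCoeff g k := fun k =>
    Fermat.Agent.Newform.atkin_rel_U hq hqM
      (Fermat.Agent.Newform.atkin_heckeU_eigen hg hq hqM) k
  have hgood : ∀ k, ¬ q ∣ k → (∀ r ∈ D'.primeFactors, ¬ r ∣ k) →
      qCoeff f k = qCoeff g k * a1 := fun k hk hk' =>
    qCoeff_eq_of_mem hMD hg hf k (coprime_of_cond hq hD hk hk')
  obtain ⟨E, hE⟩ := exists_lower_of_supported (M := D' * P) hq hqL hlev (F - a1 • G) fun k hk => by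
    rw [qCoeff_sub, qCoeff_smul, hF, hG]
    by_cases hk' : ∀ r ∈ D'.primeFactors, ¬ r ∣ k
    · rw [if_pos hk', if_pos hk', hgood k hk hk']; ring
    · rw [if_neg hk', if_neg hk']; ring
  simp only [qCoeff_sub, qCoeff_smul] at hE
  set c := qCoeff f q - a1 * ε with hc
  have hEk : ∀ k, ¬ q ∣ k → qCoeff E k = c * qCoeff G k := by
    intro k hk
    rw [hE, hF, hG, hG]
    simp only [hcond]
    by_cases hk' : ∀ r ∈ D'.primeFactors, ¬ r ∣ k
    · rw [if_pos hk', if_pos hk', if_pos hk', hgq]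
      have hk0 : k ≠ 0 := fun h => hk (h ▸ dvd_zero q)
      rw [qCoeff_mul_of_mem hMD hg hf k q hk0 (coprime_of_cond hq hD hk hk')
        ((hq.coprime_iff_not_dvd.mpr hk).symm), hc]
      ring
    · rw [if_neg hk', if_neg hk', if_neg hk']; ring
  -- `c = 0`
  have hc0 : c = 0 := by
    by_contra hcne
    obtain ⟨H, hH⟩ : ∃ H : CuspForm (Gamma0 (D' * P)) 2, H = c⁻¹ • E := ⟨_, rfl⟩
    have hHk : ∀ k, ¬ q ∣ k → qCoeff H k = qCoeff G k := fun k hk => by
      rw [hH, qCoeff_smul, hEk k hk, inv_mul_cancel_left₀ hcne]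
    set β := (qCoeff f (q * q) - a1) / c with hβ
    have hHq : ∀ k, ¬ q ∣ k → qCoeff H (k * q) = β * qCoeff G k := by
      intro k hk
      rw [hH, qCoeff_smul, hE, hF, hG, hG]
      simp only [hcond]
      by_cases hk' : ∀ r ∈ D'.primeFactors, ¬ r ∣ k
      · rw [if_pos hk', if_pos hk', if_pos hk', hgq, hgq]
        have hk0 : k ≠ 0 := fun h => hk (h ▸ dvd_zero q)
        rw [mul_assoc k q q, qCoeff_mul_of_mem hMD hg hf k (q * q) hk0
          (coprime_of_cond hq hD hk hk')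
          (Nat.Coprime.mul_right (hq.coprime_iff_not_dvd.mpr hk).symm
            (hq.coprime_iff_not_dvd.mpr hk).symm), hβ]
        rw [div_eq_inv_mul]
        linear_combination -(c⁻¹ * a1 * qCoeff g k) * hε
      · rw [if_neg hk', if_neg hk', if_neg hk']; ring
    have hone : ∀ r ∈ D'.primeFactors, ¬ r ∣ 1 := fun r hr => (hR r hr).1.not_dvd_one
    have hG1 : qCoeff G 1 = 1 := by rw [hG, if_pos hone, hg.qCoeff_one]
    have hH1 : qCoeff H 1 = 1 := by rw [hHk 1 hq.not_dvd_one, hG1]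
    have hHq1 : qCoeff H q = β := by
      have := hHq 1 hq.not_dvd_one
      rwa [one_mul, hG1, mul_one] at this
    have hT : CuspForm.heckeTLin 2 hq hqL H = β • H := by
      refine sub_eq_zero.mp (eq_zero_of_supported_dvd hq hqL fun k hk => ?_)
      rw [qCoeff_sub, qCoeff_heckeTLin_two, if_neg hk, qCoeff_smul, hHq k hk, hHk k hk]
      ring
    have hGq : ∀ k, qCoeff G (k * q) = ε * qCoeff G k := fun k => by
      rw [hG, hG]
      simp only [hcond]
      by_cases hk' : ∀ r ∈ D'.primeFactors, ¬ r ∣ k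
      · rw [if_pos hk', if_pos hk', hgq]
      · rw [if_neg hk', if_neg hk', mul_zero]
    obtain ⟨E2, hE2⟩ := exists_lower_of_supported (M := D' * P) hq hqL hlev
      (G - levelInclusion 2 hinc H) fun k hk => by
        rw [qCoeff_sub, qCoeff_levelInclusion, hHk k hk, sub_self]
    simp only [qCoeff_sub, qCoeff_levelInclusion] at hE2
    have hE2H : E2 = (ε - β) • H := by
      refine sub_eq_zero.mp (eq_zero_of_supported_dvd hq hqL fun k hk => ?_)
      rw [qCoeff_sub, hE2, qCoeff_smul, hHk k hk, hGq, hHq k hk]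
      ring
    have h1 := congrArg (fun x : CuspForm (Gamma0 (D' * P)) 2 => qCoeff x q) hE2H
    simp only [hE2, qCoeff_smul, hHq1] at h1
    have h2 := congrArg (fun x : CuspForm (Gamma0 (D' * P)) 2 => qCoeff x q) hT
    simp only [qCoeff_heckeTLin_two, if_pos (dvd_refl q), Nat.div_self hq.pos, hH1,
      qCoeff_smul, hHq1] at h2
    have h3 := hGq q
    have h4 := hGq 1
    rw [one_mul, hG1, mul_one] at h4
    rw [h4] at h3
    have hβval : β = ε * ((q : ℂ) + 1) := by
      linear_combination (-(ε)) * h1 + (-ε) * h2 + ε * h3 - (β - ε) * hε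
    have hH0 := eq_zero_of_heckeT_eq_smul_succ hq hqL ε hε H (by rw [← hβval]; exact hT)
    rw [hH0, qCoeff_form_zero] at hH1
    exact zero_ne_one hH1
  have hE0 : E = 0 := eq_zero_of_supported_dvd hq hqL fun k hk => by
    rw [hEk k hk, hc0, zero_mul]
  have hz := hE n
  rw [hE0, qCoeff_form_zero, hF, hG, if_pos ((hcond n).mpr hn), if_pos ((hcond n).mpr hn),
    hgq] at hz
  by_cases hqn : q ∣ n
  · obtain ⟨k, rfl⟩ := hqn
    have hz' := hE k
    rw [hE0, qCoeff_form_zero, hF, hG, if_pos (by rw [mul_comm]; exact hn),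
      if_pos (by rw [mul_comm]; exact hn)] at hz'
    rw [mul_comm q k] at hz ⊢
    linear_combination -hz + ε * hz'
  · rw [hgood n hqn hn]
    linear_combination -hz

/-- If `g` is old at `q`, then `U_q² - a_q(g) U_q + q = 0` on its eigenspace at level `D`. -/
theorem qCoeff_quad_of_old (hq : q.Prime) (hD : D = q * D') (hqD' : ¬ q ∣ D')
    (hMD' : M ∣ D') (hg : g.IsNormalizedEigenform)
    {f : CuspForm (Gamma0 D) 2} (hf : f ∈ sysSpace D D dvd_rfl (qCoeff g)) (n : ℕ) :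
    qCoeff f (n * q * q) - qCoeff g q * qCoeff f (n * q) + q * qCoeff f n = 0 := by
  classical
  have hD'0 : D' ≠ 0 := fun h => NeZero.ne D (by simp [hD, h])
  haveI : NeZero M := ⟨fun h => hD'0 (zero_dvd_iff.mp (h ▸ hMD'))⟩
  haveI : NeZero D' := ⟨hD'0⟩
  have hMD : M ∣ D := hD ▸ dvd_mul_of_dvd_right hMD' q
  have hqM : ¬ q ∣ M := fun h => hqD' (h.trans hMD')
  have hR := (primeFactors_cond hD hqD').2
  refine forall_of_forall_not_dvd (χ := qCoeff g) D'.primeFactors hR
    (fun f n => qCoeff f (n * q * q) - qCoeff g q * qCoeff f (n * q) + q * qCoeff f n = 0)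
    (fun f => by simp [qCoeff_index_zero]) ?_
    (fun f r hr n h => by
      simp only [qCoeff_heckeULin (hR r hr).1.ne_zero] at h
      rwa [mul_right_comm n r q, mul_right_comm (n * q) r q]) f hf n
  intro f hf n hn
  set b := qCoeff g q with hb
  set a1 := qCoeff f 1 with ha1
  set P := ∏ r ∈ D'.primeFactors, r * r with hP
  have hP0 : P ≠ 0 := Finset.prod_ne_zero_iff.mpr fun r hr =>
    mul_ne_zero (hR r hr).1.ne_zero (hR r hr).1.ne_zero
  haveI : NeZero (D * P) := ⟨mul_ne_zero (NeZero.ne D) hP0⟩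
  haveI : NeZero (D' * P) := ⟨mul_ne_zero hD'0 hP0⟩
  have hqL := not_dvd_mul_sieve hq hqD'
  have hlev : D * P = q * (D' * P) := by rw [hD, mul_assoc]
  have hinc : D' * P ∣ D * P := hlev ▸ dvd_mul_left _ q
  obtain ⟨F, hF⟩ := exists_sieve_prod f D'.primeFactors fun r hr => (hR r hr).1
  obtain ⟨G, hG⟩ := exists_sieve_prod (levelInclusion 2 hMD' g) D'.primeFactors
    fun r hr => (hR r hr).1
  simp only [qCoeff_levelInclusion] at hG
  have hcond := cond_mul_iff hq hqD'
  have hgood : ∀ k, ¬ q ∣ k → (∀ r ∈ D'.primeFactors, ¬ r ∣ k) →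
      qCoeff f k = qCoeff g k * a1 := fun k hk hk' =>
    qCoeff_eq_of_mem hMD hg hf k (coprime_of_cond hq hD hk hk')
  obtain ⟨E, hE⟩ := exists_lower_of_supported (M := D' * P) hq hqL hlev
    (F - a1 • levelInclusion 2 hinc G) fun k hk => by
    rw [qCoeff_sub, qCoeff_smul, qCoeff_levelInclusion, hF, hG]
    by_cases hk' : ∀ r ∈ D'.primeFactors, ¬ r ∣ k
    · rw [if_pos hk', if_pos hk', hgood k hk hk']; ring
    · rw [if_neg hk', if_neg hk']; ring
  simp only [qCoeff_sub, qCoeff_smul, qCoeff_levelInclusion] at hE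
  set c := qCoeff f q - a1 * b with hc
  have hEc : E = c • G := by
    refine sub_eq_zero.mp (eq_zero_of_supported_dvd hq hqL fun k hk => ?_)
    rw [qCoeff_sub, qCoeff_smul, hE, hF, hG, hG]
    simp only [hcond]
    by_cases hk' : ∀ r ∈ D'.primeFactors, ¬ r ∣ k
    · rw [if_pos hk', if_pos hk', if_pos hk']
      have hk0 : k ≠ 0 := fun h => hk (h ▸ dvd_zero q)
      rw [qCoeff_mul_of_mem hMD hg hf k q hk0 (coprime_of_cond hq hD hk hk')
        ((hq.coprime_iff_not_dvd.mpr hk).symm),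
        hg.qCoeff_mul_of_coprime k q ((hq.coprime_iff_not_dvd.mpr hk).symm), hc]
      ring
    · rw [if_neg hk', if_neg hk', if_neg hk']; ring
  have hFk : ∀ k, qCoeff F (k * q) = a1 * qCoeff G (k * q) + c * qCoeff G k := fun k => by
    have h := hE k
    rw [hEc, qCoeff_smul] at h
    linear_combination -h
  have hGq : ∀ k, (∀ r ∈ D'.primeFactors, ¬ r ∣ k) →
      qCoeff G (k * q) + (if q ∣ k then (q : ℂ) * qCoeff G (k / q) else 0) = b * qCoeff G k := by
    intro k hk'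
    have h := Fermat.Agent.Newform.atkin_rel_T hq hqM (atkin_heckeT_eigen hg hq hqM) k
    rw [hG (k * q), hG k, if_pos ((hcond k).mpr hk'), if_pos hk']
    by_cases hd : q ∣ k
    · rw [if_pos hd] at h ⊢
      rw [hG, if_pos (by rw [← hcond, Nat.div_mul_cancel hd]; exact hk')]
      exact h
    · rw [if_neg hd] at h ⊢
      exact h
  have hFn : ∀ k, (∀ r ∈ D'.primeFactors, ¬ r ∣ k) → qCoeff f k = qCoeff F k := fun k hk' => by
    rw [hF, if_pos hk']
  have hn1 : ∀ r ∈ D'.primeFactors, ¬ r ∣ n * q := (hcond n).mpr hn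
  rw [hFn _ ((hcond _).mpr hn1), hFn _ hn1, hFn _ hn, hFk, hFk]
  have g2 := hGq (n * q) hn1
  rw [if_pos (dvd_mul_left q n), Nat.mul_div_cancel _ hq.pos] at g2
  have g1 := hGq n hn
  by_cases hqn : q ∣ n
  · obtain ⟨k, rfl⟩ := hqn
    rw [if_pos (dvd_mul_right q k), Nat.mul_div_cancel_left _ hq.pos] at g1
    rw [mul_comm q k] at g1 g2 ⊢
    rw [hFk]
    linear_combination a1 * g2 + c * g1
  · rw [if_neg hqn, add_zero] at g1
    rw [hF n, if_pos hn, hgood n hqn hn]
    have hgn : qCoeff G n = qCoeff g n := by rw [hG, if_pos hn]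
    rw [← hgn]
    linear_combination a1 * g2 + c * g1

end Fermat.Agent.Residual

end
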