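/-
Residual modularity at three, eigen torsion: the cusp forms with prescribed signs at every prime
of a squarefree level.
-/
import Fermat.Agent.Residual.CountSieve
import Fermat.Agent.Eigen.EigenHom
import Fermat.Agent.Newform.Extension
import Mathlib.LinearAlgebra.Eigenspace.Pi
import Mathlib.LinearAlgebra.Eigenspace.Triangularizable

set_option autoImplicit false

noncomputable section

open CongruenceSubgroup ModularFormClass CuspForm
open Fermat.Agent.Eigen (eigenChar apply_eq_eigenChar_smul eigenform_ext qCoeff_one_ne_zero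
  isNormalizedEigenform_of_eigen heckeTLin_eigenform heckeULin_eigenform qCoeff_smul
  finiteDimensional_cuspForm)

namespace Fermat.Agent.Residual.Eigen2

variable (N : ℕ) [NeZero N] (ε : ℕ → ℤ)

/-- The forms on which every `U_q`, `q ∣ N`, acts by `ε q`. -/
def signSpace : Submodule ℂ (CuspForm (Gamma0 N) 2) :=
  ⨅ (q : ℕ) (_ : q.Prime) (h : q ∣ N), Module.End.eigenspace (heckeULin 2 h) (ε q : ℂ)

/-- The normalised eigenforms in `signSpace`. -/
def signForms : Set (CuspForm (Gamma0 N) 2) :=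
  {f | f.IsNormalizedEigenform ∧ ∀ q : ℕ, q.Prime → q ∣ N → qCoeff f q = (ε q : ℂ)}

variable {N ε}

theorem mem_signSpace_iff {f : CuspForm (Gamma0 N) 2} :
    f ∈ signSpace N ε ↔ ∀ (q : ℕ) (_ : q.Prime) (h : q ∣ N), heckeULin 2 h f = (ε q : ℂ) • f := by
  simp [signSpace, Submodule.mem_iInf]

theorem mem_signSpace_of_mem_signForms {f : CuspForm (Gamma0 N) 2} (hf : f ∈ signForms N ε) :
    f ∈ signSpace N ε :=
  mem_signSpace_iff.mpr fun q hq h => by rw [heckeULin_eigenform hf.1 hq h, hf.2 q hq h]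

/-- Different forms with the signs `ε` differ at a prime outside the level. -/
theorem eq_of_forall_not_dvd {f g : CuspForm (Gamma0 N) 2} (hf : f ∈ signForms N ε)
    (hg : g ∈ signForms N ε) (h : ∀ ℓ : ℕ, ℓ.Prime → ¬ ℓ ∣ N → qCoeff f ℓ = qCoeff g ℓ) :
    f = g := by
  refine eigenform_ext hf.1 hg.1 fun p hp => ?_
  by_cases hpN : p ∣ N
  · rw [hf.2 p hp hpN, hg.2 p hp hpN]
  · exact h p hp hpN

theorem eigenChar_injective' {f g : CuspForm (Gamma0 N) 2} (hf : f ∈ signForms N ε)
    (hg : g ∈ signForms N ε) (h : eigenChar f hf.1 ∅ = eigenChar g hg.1 ∅) : f = g :=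
  eq_of_forall_not_dvd hf hg fun ℓ hℓ hℓN => by
    rw [← Eigen.eigenChar_T hf.1 hℓ hℓN (Set.notMem_empty ℓ), h, Eigen.eigenChar_T hg.1]

theorem finite_signForms : (signForms N ε).Finite := by
  have := finiteDimensional_cuspForm N 2
  suffices h : LinearIndependent ℂ (fun f : signForms N ε => (f : CuspForm (Gamma0 N) 2)) from
    Set.finite_coe_iff.mp h.finite
  have hinj : Function.Injective fun f : signForms N ε =>
      (eigenChar (f : CuspForm (Gamma0 N) 2) f.2.1 ∅).toMonoidHom := fun f g h =>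
    Subtype.ext (eigenChar_injective' f.2 g.2 (RingHom.ext fun t => DFunLike.congr_fun h t))
  have hind := (linearIndependent_monoidHom (CuspForm.heckeAlgebra N 2 ∅) ℂ).comp _ hinj
  let ev : CuspForm (Gamma0 N) 2 →ₗ[ℂ] (CuspForm.heckeAlgebra N 2 ∅ → ℂ) :=
    LinearMap.pi fun t =>
      (Eigen.qCoeffLin (N := N) (k := 2) 1).comp (t : Module.End ℂ (CuspForm (Gamma0 N) 2))
  refine LinearIndependent.of_comp ev ?_
  exact hind

/-- An eigenform all of whose bad coefficients are signs is new. -/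
theorem isNewform_of_mem (hN : Squarefree N) (hε : ∀ p, ε p = 1 ∨ ε p = -1)
    {f : CuspForm (Gamma0 N) 2} (hf : f ∈ signForms N ε) : f.IsNewform := by
  rw [Newform.isNewform_iff_forall_isNewformAt hf.1]
  intro q hq hqN
  refine ⟨hf.1, hqN, ?_⟩
  rintro ⟨g, hg, hgf⟩
  obtain ⟨M, hM⟩ := hqN
  have hdiv : N / q = M := by rw [hM, Nat.mul_div_cancel_left _ hq.pos]
  subst hdiv
  have hqM : ¬ q ∣ N / q := fun h => by
    have h2 : q * q ∣ N := hM ▸ mul_dvd_mul_left q h
    exact hq.not_isUnit (hN q h2)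
  have : NeZero (N / q) := ⟨fun h => hqM (h ▸ dvd_zero q)⟩
  have hsys : f ∈ sysSpace N N dvd_rfl (qCoeff g) := (mem_sysSpace_iff dvd_rfl _ f).mpr
    fun ℓ hℓ hℓN => by rw [heckeTLin_eigenform hf.1 hℓ, hgf ℓ hℓ hℓN]
  have hquad := qCoeff_quad_of_old hq hM hqM dvd_rfl hg hsys 1
  have hU := heckeULin_eigenform hf.1 hq ⟨N / q, hM⟩
  have hqq : qCoeff f (q * q) = qCoeff f q * qCoeff f q :=
    Newform.atkin_rel_U hq ⟨N / q, hM⟩ hU q
  rw [one_mul, hqq, hf.1.qCoeff_one, hf.2 q hq ⟨N / q, hM⟩, mul_one] at hquad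
  set e : ℂ := (ε q : ℂ) with he
  have he2 : e ^ 2 = 1 := by rcases hε q with h | h <;> simp [he, h]
  have hb : qCoeff g q = e * ((q : ℂ) + 1) := by
    linear_combination (-e) * hquad + (e - qCoeff g q) * he2
  refine hg.ne_zero (eq_zero_of_heckeT_eq_smul_succ hq hqM e he2 g ?_)
  rw [← hb]
  exact heckeTLin_eigenform hg hq hqM

/-- A subspace stable under commuting semisimple operators is contained in any subspace containing
its joint eigenvectors. -/
theorem le_of_forall_joint_eigen {V : Type*} [AddCommGroup V] [Module ℂ V] [FiniteDimensional ℂ V]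
    {ι : Type*} (T : ι → Module.End ℂ V) (hT : ∀ i j, Commute (T i) (T j)) (K S : Submodule ℂ V)
    (hstab : ∀ i, ∀ x ∈ K, T i x ∈ K)
    (hss : ∀ (i : ι) (c : ℂ) (x : V), T i (T i x - c • x) = c • (T i x - c • x) → T i x = c • x)
    (hS : ∀ (χ : ι → ℂ), ∀ x ∈ K, (∀ i, T i x = χ i • x) → x ∈ S) : K ≤ S := by
  let R : ι → Module.End ℂ K := fun i => (T i).restrict (hstab i)
  have hcomm : ∀ i j, Commute (R i) (R j) := fun i j =>
    LinearMap.ext fun x => Subtype.ext (LinearMap.congr_fun (hT i j).eq (x : V))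
  have htop := Module.End.iSup_iInf_maxGenEigenspace_eq_top_of_forall_mapsTo R
    (fun i j φ => Module.End.mapsTo_maxGenEigenspace_of_comm (hcomm j i) φ)
    (fun i => Module.End.iSup_maxGenEigenspace_eq_top (R i))
  intro x hx
  have hxtop : (⟨x, hx⟩ : K) ∈ (⊤ : Submodule ℂ K) := Submodule.mem_top
  rw [← htop] at hxtop
  suffices h : ∀ y : K, y ∈ ⨆ χ : ι → ℂ, ⨅ i, (R i).maxGenEigenspace (χ i) → (y : V) ∈ S from
    h _ hxtop
  intro y hy
  induction hy using Submodule.iSup_induction' with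
  | zero => exact zero_mem _
  | add a b _ _ ha hb => exact add_mem ha hb
  | mem χ y hy =>
    refine hS χ (y : V) y.2 fun i => ?_
    obtain ⟨k, hk⟩ := (Module.End.mem_maxGenEigenspace _ _ _).mp ((Submodule.mem_iInf _).mp hy i)
    clear hy
    induction k generalizing y with
    | zero =>
      simp only [pow_zero, Module.End.one_apply] at hk
      simp [hk]
    | succ k ih =>
      rw [pow_succ, Module.End.mul_apply] at hk
      exact hss i (χ i) (y : V) (ih _ hk)

/-- A joint eigenvector with the signs `ε` is a multiple of a form in `signForms`. -/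
theorem mem_span_of_eigen {y : CuspForm (Gamma0 N) 2} (hy : y ∈ signSpace N ε) (a : ℕ → ℂ)
    (hT : ∀ (p : ℕ) (hp : p.Prime) (hpN : ¬ p ∣ N), heckeTLin 2 hp hpN y = a p • y) :
    y ∈ Submodule.span ℂ (signForms N ε) := by
  rcases eq_or_ne y 0 with h0 | h0
  · rw [h0]; exact zero_mem _
  let b : ℕ → ℂ := fun p => if p ∣ N then (ε p : ℂ) else a p
  have hT' : ∀ (p : ℕ) (hp : p.Prime) (hpN : ¬ p ∣ N), heckeTLin 2 hp hpN y = b p • y :=
    fun p hp hpN => by simp only [b, if_neg hpN]; exact hT p hp hpN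
  have hU : ∀ (p : ℕ) (_ : p.Prime) (hpN : p ∣ N), heckeULin 2 hpN y = b p • y :=
    fun p hp hpN => by simp only [b, if_pos hpN]; exact mem_signSpace_iff.mp hy p hp hpN
  have h1 := qCoeff_one_ne_zero hT' hU h0
  set f := (qCoeff y 1)⁻¹ • y with hfdef
  have hf1 : qCoeff f 1 = 1 := by rw [hfdef, qCoeff_smul, inv_mul_cancel₀ h1]
  have hf : f.IsNormalizedEigenform := isNormalizedEigenform_of_eigen (a := b)
    (fun p hp hpN => by rw [hfdef, map_smul, hT', smul_comm])
    (fun p hp hpN => by rw [hfdef, map_smul, hU p hp hpN, smul_comm]) hf1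
  have hmem : f ∈ signForms N ε := ⟨hf, fun p hp hpN => by
    have h2 := mem_signSpace_iff.mp (Submodule.smul_mem _ (qCoeff y 1)⁻¹ hy) p hp hpN
    rw [← hfdef, heckeULin_eigenform hf hp hpN] at h2
    exact smul_left_injective ℂ hf.ne_zero h2⟩
  rw [show y = qCoeff y 1 • f by rw [hfdef, smul_inv_smul₀ h1]]
  exact Submodule.smul_mem _ _ (Submodule.subset_span hmem)

/-- `signSpace` is spanned by its normalised eigenforms. -/
theorem signSpace_le_span : signSpace N ε ≤ Submodule.span ℂ (signForms N ε) := by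
  have := finiteDimensional_cuspForm N 2
  refine le_of_forall_joint_eigen
    (fun i : {ℓ : ℕ // ℓ.Prime ∧ ¬ ℓ ∣ N} => heckeTLin 2 i.2.1 i.2.2)
    (fun i j => CuspForm.heckeTLin_comm 2 i.2.1 i.2.2 j.2.1 j.2.2) _ _ ?_
    (fun i c x h => heckeT_eigen_of_sq_eq_zero i.2.1 i.2.2 c x h) ?_
  · intro i x hx
    refine mem_signSpace_iff.mpr fun q hq h => ?_
    have e := LinearMap.congr_fun (heckeTLin_heckeULin_comm 2 i.2.1 i.2.2 h).eq x
    simp only [Module.End.mul_apply] at e
    rw [← e, mem_signSpace_iff.mp hx q hq h, map_smul]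
  · intro χ x hx hT
    refine mem_span_of_eigen hx
      (fun p => if h : p.Prime ∧ ¬ p ∣ N then χ ⟨p, h⟩ else 0) fun p hp hpN => ?_
    rw [dif_pos ⟨hp, hpN⟩]
    exact hT ⟨p, hp, hpN⟩

/-- A polynomial in a Hecke operator vanishing on the eigenvalues outside `G` maps `signSpace` into
the span of `G`. -/
theorem aeval_mem_span (G : Set (CuspForm (Gamma0 N) 2)) (t : CuspForm.heckeAlgebra N 2 ∅)
    (P : Polynomial ℂ)
    (hP : ∀ f, ∀ hf : f ∈ signForms N ε, f ∉ G → P.eval (eigenChar f hf.1 ∅ t) = 0)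
    {x : CuspForm (Gamma0 N) 2} (hx : x ∈ signSpace N ε) :
    Polynomial.aeval (t : Module.End ℂ (CuspForm (Gamma0 N) 2)) P x ∈ Submodule.span ℂ G := by
  have hle : Submodule.span ℂ (signForms N ε) ≤
      (Submodule.span ℂ G).comap (Polynomial.aeval (t : Module.End ℂ (CuspForm (Gamma0 N) 2)) P) :=
    Submodule.span_le.mpr fun f hf => by
      have h : Polynomial.aeval (t : Module.End ℂ (CuspForm (Gamma0 N) 2)) P f
          = P.eval (eigenChar f hf.1 ∅ t) • f :=
        Module.End.aeval_apply_of_hasEigenvector (Module.End.hasEigenvector_iff.mpr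
          ⟨Module.End.mem_eigenspace_iff.mpr (apply_eq_eigenChar_smul hf.1 t), hf.1.ne_zero⟩)
      rw [SetLike.mem_coe, Submodule.mem_comap, h]
      by_cases hG : f ∈ G
      · exact Submodule.smul_mem _ _ (Submodule.subset_span hG)
      · rw [hP f hf hG, zero_smul]; exact zero_mem _
  exact hle (signSpace_le_span hx)

end Fermat.Agent.Residual.Eigen2

end
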