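/-
Residual modularity at three, eigen torsion: the lattice of the signs `ε` inside the integral
parabolic homomorphisms, its complex span, and the rank modulo `p` of a separating operator.
-/
import Fermat.Agent.Residual.EigenPeriods
import Fermat.Agent.Residual.EigenSign
import Fermat.Agent.Residual.EigenRank
import Fermat.Agent.Integral.Eigenform

set_option autoImplicit false

noncomputable section

namespace Fermat.Agent.Residual.Eigen2

open CongruenceSubgroup ModularFormClass ModularCurve CuspForm Matrix Fermat.Agent.HeckeCohom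
open Fermat.Agent.Eigen (eigenChar apply_eq_eigenChar_smul)

variable (N : ℕ) [NeZero N] (ε : ℕ → ℤ)

/-- The equations `U_q = ε q`. -/
def signEq (j : {q : ℕ // q.Prime ∧ q ∣ N}) : Matrix (Fin (rk N)) (Fin (rk N)) ℤ :=
  actMatrix N (CuspForm.heckeAlgebra.U j.2.1 j.2.2 (Set.notMem_empty _)) -
    (ε j.1 : Matrix (Fin (rk N)) (Fin (rk N)) ℤ)

/-- The integral solutions of `U_q = ε q`. -/
def signLattice : Submodule ℤ (Fin (rk N) → ℤ) :=
  ⨅ j, LinearMap.ker (Matrix.mulVecLin (signEq N ε j))

variable {N ε}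

theorem mem_signLattice_iff {v : Fin (rk N) → ℤ} :
    v ∈ signLattice N ε ↔ ∀ j, signEq N ε j *ᵥ v = 0 := by
  simp [signLattice, Submodule.mem_iInf]

theorem signLattice_stable (t : CuspForm.heckeAlgebra N 2 ∅) :
    ∀ v ∈ signLattice N ε, Matrix.mulVecLin (actMatrix N t) v ∈ signLattice N ε := by
  intro v hv
  rw [mem_signLattice_iff] at hv ⊢
  intro j
  have h : signEq N ε j * actMatrix N t = actMatrix N t * signEq N ε j := by
    simp only [signEq, sub_mul, mul_sub, ← map_mul, mul_comm t, (Int.cast_commute (ε j.1) _).eq]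
  rw [Matrix.mulVecLin_apply, Matrix.mulVec_mulVec, h, ← Matrix.mulVec_mulVec, hv j,
    Matrix.mulVec_zero]

variable (N ε) in
/-- The Hecke algebra acting on `signLattice`. -/
def signRep : CuspForm.heckeAlgebra N 2 ∅ →+* Module.End ℤ (signLattice N ε) where
  toFun t := (Matrix.mulVecLin (actMatrix N t)).restrict (signLattice_stable t)
  map_one' := LinearMap.ext fun v => Subtype.ext (by
    simp [LinearMap.restrict_apply, map_one])
  map_mul' s t := LinearMap.ext fun v => Subtype.ext (by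
    simp [LinearMap.restrict_apply, map_mul, Matrix.mulVec_mulVec])
  map_zero' := LinearMap.ext fun v => Subtype.ext (by
    simp [LinearMap.restrict_apply, map_zero])
  map_add' s t := LinearMap.ext fun v => Subtype.ext (by
    simp [LinearMap.restrict_apply, map_add])

theorem coe_signRep (t : CuspForm.heckeAlgebra N 2 ∅) (v : signLattice N ε) :
    ((signRep N ε t v : signLattice N ε) : Fin (rk N) → ℤ) = actMatrix N t *ᵥ v := rfl

theorem signRep_U {q : ℕ} (hq : q.Prime) (hqN : q ∣ N) (v : signLattice N ε) :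
    signRep N ε (CuspForm.heckeAlgebra.U hq hqN (Set.notMem_empty q)) v = ε q • v := by
  refine Subtype.ext ?_
  have h := mem_signLattice_iff.mp v.2 ⟨q, hq, hqN⟩
  rw [signEq, Matrix.sub_mulVec, sub_eq_zero] at h
  rw [coe_signRep, h, Submodule.coe_smul]
  exact funext fun i => by simp [Matrix.intCast_mulVec]

/-- The complex solutions are the periods of `signSpace`. -/
theorem periodCoord_killed_iff (x : CuspForm (Gamma0 N) 2 × CuspForm (Gamma0 N) 2) :
    (∀ j, (signEq N ε j).map (Int.cast : ℤ → ℂ) *ᵥ periodCoord N x = 0) ↔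
      x.1 ∈ signSpace N ε ∧ x.2 ∈ signSpace N ε := by
  have key : ∀ j : {q : ℕ // q.Prime ∧ q ∣ N},
      (signEq N ε j).map (Int.cast : ℤ → ℂ) *ᵥ periodCoord N x =
        periodCoord N (heckeULin 2 j.2.2 x.1 - (ε j.1 : ℂ) • x.1,
          heckeULin 2 j.2.2 x.2 - (ε j.1 : ℂ) • x.2) := by
    intro j
    have h1 := periodCoord_hecke N (CuspForm.heckeAlgebra.U j.2.1 j.2.2 (Set.notMem_empty _)) x
    have e : (signEq N ε j).map (Int.cast : ℤ → ℂ) =
        (actMatrix N (CuspForm.heckeAlgebra.U j.2.1 j.2.2 (Set.notMem_empty _))).map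
          (Int.cast : ℤ → ℂ) - (ε j.1 : ℂ) • 1 := by
      ext a b
      simp [signEq, Matrix.one_apply, Matrix.intCast_apply, apply_ite (Int.cast : ℤ → ℂ)]
    rw [e, Matrix.sub_mulVec, Matrix.smul_mulVec, Matrix.one_mulVec, ← h1, ← map_smul, ← map_sub,
      Prod.smul_def, Prod.mk_sub_mk]
    rfl
  simp only [key, mem_signSpace_iff, (periodCoord_injective N).eq_iff' (map_zero _),
    Prod.mk_eq_zero, sub_eq_zero]
  exact ⟨fun h => ⟨fun q hq hqN => (h ⟨q, hq, hqN⟩).1, fun q hq hqN => (h ⟨q, hq, hqN⟩).2⟩,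
    fun h j => ⟨h.1 _ j.2.1 j.2.2, h.2 _ j.2.1 j.2.2⟩⟩

/-- An operator vanishing on the lattice kills every eigenform with these signs. -/
theorem eigenChar_eq_zero_of_signRep_eq_zero {t : CuspForm.heckeAlgebra N 2 ∅}
    (ht : signRep N ε t = 0) {f : CuspForm (Gamma0 N) 2} (hf : f ∈ signForms N ε) :
    eigenChar f hf.1 ∅ t = 0 := by
  have hmem := mem_span_of_intKernel (signEq N ε) (v := periodCoord N (f, 0))
    ((periodCoord_killed_iff (f, 0)).mpr ⟨mem_signSpace_of_mem_signForms hf, zero_mem _⟩)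
  have hle : Submodule.span ℂ ((fun z : Fin (rk N) → ℤ => fun i => (z i : ℂ)) ''
      {z | ∀ j, signEq N ε j *ᵥ z = 0}) ≤
      LinearMap.ker (Matrix.mulVecLin ((actMatrix N t).map (Int.cast : ℤ → ℂ))) := by
    refine Submodule.span_le.mpr ?_
    rintro _ ⟨z, hz, rfl⟩
    have h := congrArg Subtype.val (LinearMap.congr_fun ht ⟨z, mem_signLattice_iff.mpr hz⟩)
    rw [coe_signRep] at h
    refine LinearMap.mem_ker.mpr (funext fun i => ?_)
    simpa [Matrix.mulVec, dotProduct] using congrArg (Int.cast : ℤ → ℂ) (congrFun h i)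
  have h := hle hmem
  rw [LinearMap.mem_ker, Matrix.mulVecLin_apply, ← periodCoord_hecke,
    (periodCoord_injective N).eq_iff' (map_zero _), Prod.mk_eq_zero] at h
  have h1 := h.1
  rw [apply_eq_eigenChar_smul hf.1 t] at h1
  exact (smul_eq_zero.mp h1).resolve_right hf.1.ne_zero

theorem periodCoord_aeval (t : CuspForm.heckeAlgebra N 2 ∅) (P : Polynomial ℂ)
    (x : CuspForm (Gamma0 N) 2 × CuspForm (Gamma0 N) 2) :
    periodCoord N (Polynomial.aeval (t : Module.End ℂ (CuspForm (Gamma0 N) 2)) P x.1,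
        Polynomial.aeval (t : Module.End ℂ (CuspForm (Gamma0 N) 2)) P x.2) =
      Polynomial.aeval ((actMatrix N t).map (Int.cast : ℤ → ℂ)) P *ᵥ periodCoord N x := by
  induction P using Polynomial.induction_on generalizing x with
  | C c =>
    simp only [Polynomial.aeval_C, Module.algebraMap_end_apply]
    rw [Algebra.algebraMap_eq_smul_one, Matrix.smul_mulVec, Matrix.one_mulVec, ← map_smul]
    rfl
  | add P P' hP hP' =>
    simp only [map_add, LinearMap.add_apply, Matrix.add_mulVec, ← hP, ← hP']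
    rw [← map_add, Prod.mk_add_mk]
  | monomial n c ih =>
    rw [pow_succ, ← mul_assoc]
    simp only [map_mul, Polynomial.aeval_X, Module.End.mul_apply, ← Matrix.mulVec_mulVec]
    rw [← periodCoord_hecke]
    have h := ih ((t : Module.End ℂ (CuspForm (Gamma0 N) 2)) x.1, (t : Module.End ℂ _) x.2)
    simp only [map_mul, Module.End.mul_apply, ← Matrix.mulVec_mulVec] at h
    exact h

theorem mul_aeval_of_mul_eq {l k : Type*} [Fintype l] [DecidableEq l] [Fintype k] [DecidableEq k]
    {Y : Matrix l k ℂ} {A : Matrix k k ℂ} {B : Matrix l l ℂ} (h : Y * A = B * Y)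
    (P : Polynomial ℂ) : Y * Polynomial.aeval A P = Polynomial.aeval B P * Y := by
  induction P using Polynomial.induction_on with
  | C c => simp [Algebra.algebraMap_eq_smul_one]
  | add P P' hP hP' => rw [map_add, map_add, Matrix.mul_add, Matrix.add_mul, hP, hP']
  | monomial n c ih =>
    rw [pow_succ, ← mul_assoc, map_mul (Polynomial.aeval A) (Polynomial.C c * Polynomial.X ^ n),
      map_mul (Polynomial.aeval B) (Polynomial.C c * Polynomial.X ^ n), Polynomial.aeval_X,
      Polynomial.aeval_X,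
      ← Matrix.mul_assoc, ih, Matrix.mul_assoc, h, Matrix.mul_assoc]

section Matrices

variable {κ : Type*} [Fintype κ] [DecidableEq κ]

/-- Modulo an ideal containing all the roots, a polynomial in a matrix is a power of it. -/
theorem aeval_sub_pow_mem {O σ : Type*} [CommRing O] [Fintype σ] (𝔪 : Ideal O) (A : Matrix κ κ ℤ)
    (z : σ → O) (hz : ∀ f, z f ∈ 𝔪) (u w : κ) :
    Polynomial.aeval (A.map (Int.cast : ℤ → O)) (∏ f, (Polynomial.X - Polynomial.C (z f))) u w
      - (((A ^ Fintype.card σ) u w : ℤ) : O) ∈ 𝔪 := by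
  rw [← Ideal.Quotient.eq, map_intCast]
  let π := Ideal.Quotient.mk 𝔪
  have hz0 : ∀ f, π (z f) = 0 := fun f => Ideal.Quotient.eq_zero_iff_mem.mpr (hz f)
  have h := Polynomial.map_aeval_eq_aeval_map (φ := π) (ψ := π.mapMatrix)
    (by ext r a b; simp [Matrix.algebraMap_matrix_apply, apply_ite π])
    (∏ f, (Polynomial.X - Polynomial.C (z f))) (A.map (Int.cast : ℤ → O))
  have hA : π.mapMatrix (A.map (Int.cast : ℤ → O)) = (Int.castRingHom (O ⧸ 𝔪)).mapMatrix A := by
    ext; simp
  simp only [Polynomial.map_prod, Polynomial.map_sub, Polynomial.map_X, Polynomial.map_C, hz0,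
    map_zero, sub_zero, Finset.prod_const, Finset.card_univ] at h
  rw [map_pow (Polynomial.aeval (π.mapMatrix (A.map (Int.cast : ℤ → O)))), Polynomial.aeval_X, hA,
    ← map_pow] at h
  have h2 := congrFun (congrFun h u) w
  simpa using h2

omit [DecidableEq κ] in
theorem map_intCast_mul {l k : Type*} (A : Matrix l κ ℤ) (B : Matrix κ k ℤ) :
    (A * B).map (Int.cast : ℤ → ℂ) = A.map (Int.cast : ℤ → ℂ) * B.map (Int.cast : ℤ → ℂ) :=
  Matrix.map_mul (f := Int.castRingHom ℂ)

/-- Generators modulo `p` in coordinates give generators. -/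
theorem exists_generators_of_coord {L : Type*} [AddCommGroup L] (b : Module.Basis κ ℤ L)
    (g : Module.End ℤ L) (m : ℕ) {d : ℕ} (p : ℤ) (y : Fin d → κ → ℤ)
    (hy : ∀ v : κ → ℤ, ∃ (c : Fin d → ℤ) (r : κ → ℤ),
      (LinearMap.toMatrixAlgEquiv b g ^ m) *ᵥ v = ∑ i, c i • y i + p • r) :
    ∃ y' : Fin d → L, ∀ v : L, ∃ (c : Fin d → ℤ) (r : L),
      (g ^ m) v = ∑ i, c i • y' i + p • r := by
  refine ⟨fun i => b.equivFun.symm (y i), fun v => ?_⟩
  obtain ⟨c, r, hcr⟩ := hy (b.equivFun v)
  refine ⟨c, b.equivFun.symm r, b.equivFun.injective ?_⟩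
  simp only [map_add, map_sum, map_zsmul, LinearEquiv.apply_symm_apply]
  rw [← hcr, ← map_pow (LinearMap.toMatrixAlgEquiv b)]
  exact (LinearMap.toMatrix_mulVec_repr b b _ v).symm

theorem map_aeval_intCast {O : Type*} [CommRing O] (j : O →+* ℂ) (A : Matrix κ κ ℤ)
    (P : Polynomial O) :
    (Polynomial.aeval (A.map (Int.cast : ℤ → O)) P).map j =
      Polynomial.aeval (A.map (Int.cast : ℤ → ℂ)) (P.map j) := by
  have h := Polynomial.map_aeval_eq_aeval_map (φ := j) (ψ := j.mapMatrix)
    (by ext r a b; simp [Matrix.algebraMap_matrix_apply, apply_ite j]) P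
    (A.map (Int.cast : ℤ → O))
  rw [RingHom.mapMatrix_apply] at h
  refine h.trans (congrArg (fun X => Polynomial.aeval X (P.map j)) ?_)
  ext
  simp

end Matrices

section Coordinates

variable {κ : Type*} [Fintype κ] [DecidableEq κ]

/-- The vectors of a basis of `signLattice`, as the columns of a matrix. -/
def latticeMatrix (b : Module.Basis κ ℤ (signLattice N ε)) : Matrix (Fin (rk N)) κ ℤ :=
  Matrix.of fun i k => ((b k : signLattice N ε) : Fin (rk N) → ℤ) i

theorem actMatrix_mul_latticeMatrix (b : Module.Basis κ ℤ (signLattice N ε))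
    (t : CuspForm.heckeAlgebra N 2 ∅) :
    actMatrix N t * latticeMatrix b =
      latticeMatrix b * LinearMap.toMatrixAlgEquiv b (signRep N ε t) := by
  ext i k
  have h1 : signRep N ε t (b k) = ∑ l, LinearMap.toMatrixAlgEquiv b (signRep N ε t) l k • b l := by
    conv_lhs => rw [← b.sum_repr (signRep N ε t (b k))]
    refine Finset.sum_congr rfl fun l _ => ?_
    rw [LinearMap.toMatrixAlgEquiv_apply]
  have h2 := congrFun (congrArg Subtype.val h1) i
  rw [coe_signRep, Submodule.coe_sum, Finset.sum_apply] at h2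
  rw [Matrix.mul_apply, Matrix.mul_apply]
  refine Eq.trans ?_ (h2.trans (Finset.sum_congr rfl fun l _ => ?_))
  · rfl
  · rw [Submodule.coe_smul, Pi.smul_apply, smul_eq_mul, mul_comm]
    rfl

omit [DecidableEq κ] in
theorem latticeMatrix_mulVec_eq_zero (b : Module.Basis κ ℤ (signLattice N ε)) {w : κ → ℤ}
    (hw : latticeMatrix b *ᵥ w = 0) : w = 0 := by
  have h0 : ∑ k, w k • b k = 0 := by
    refine Subtype.ext (funext fun i => ?_)
    rw [Submodule.coe_sum, Finset.sum_apply, Submodule.coe_zero, Pi.zero_apply]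
    refine Eq.trans (Finset.sum_congr rfl fun k _ => ?_) (congrFun hw i)
    rw [Submodule.coe_smul, Pi.smul_apply, smul_eq_mul, mul_comm]
    rfl
  exact funext fun k => Fintype.linearIndependent_iff.mp b.linearIndependent w h0 k

/-- The complex rank of a polynomial vanishing on the eigenvalues outside `G`. -/
theorem rank_aeval_le (b : Module.Basis κ ℤ (signLattice N ε)) {c : ℕ}
    (G : Set (CuspForm (Gamma0 N) 2)) (hG : G.Finite) (hGc : Nat.card G ≤ c)
    (e : CuspForm.heckeAlgebra N 2 ∅) (P : Polynomial ℂ)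
    (hP : ∀ f, ∀ hf : f ∈ signForms N ε, f ∉ G → P.eval (eigenChar f hf.1 ∅ e) = 0) :
    (Polynomial.aeval ((LinearMap.toMatrixAlgEquiv b (signRep N ε e)).map (Int.cast : ℤ → ℂ))
      P).rank ≤ 2 * c := by
  set AC := (LinearMap.toMatrixAlgEquiv b (signRep N ε e)).map (Int.cast : ℤ → ℂ) with hAC
  set EC := (actMatrix N e).map (Int.cast : ℤ → ℂ) with hEC
  set YC := (latticeMatrix b).map (Int.cast : ℤ → ℂ) with hYC
  have hYU : YC * Polynomial.aeval AC P = Polynomial.aeval EC P * YC := by
    refine mul_aeval_of_mul_eq ?_ _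
    rw [hYC, hAC, hEC, ← map_intCast_mul, ← map_intCast_mul, actMatrix_mul_latticeMatrix]
  have hYinj : Function.Injective YC.mulVecLin :=
    (injective_iff_map_eq_zero _).mpr fun v hv =>
      eq_zero_of_map_mulVec (latticeMatrix b) (fun w hw => latticeMatrix_mulVec_eq_zero b hw) hv
  have : FiniteDimensional ℂ (CuspForm (Gamma0 N) 2) := Eigen.finiteDimensional_cuspForm N 2
  have hfin : Module.finrank ℂ (Submodule.span ℂ G) ≤ c := by
    have := hG.fintype
    refine (finrank_span_le_card G).trans ?_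
    rwa [Set.toFinset_card, ← Nat.card_eq_fintype_card]
  let W := ((Submodule.span ℂ G).prod (Submodule.span ℂ G)).map (periodCoord N)
  have hW : Module.finrank ℂ W ≤ 2 * c := by
    refine (Submodule.finrank_map_le _ _).trans ?_
    rw [← Submodule.range_subtype (Submodule.span ℂ G), ← LinearMap.range_prodMap]
    refine (LinearMap.finrank_range_le _).trans ?_
    rw [Module.finrank_prod]
    omega
  refine le_trans ?_ hW
  rw [Matrix.rank, (Submodule.equivMapOfInjective _ hYinj
    (LinearMap.range (Polynomial.aeval AC P).mulVecLin)).finrank_eq]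
  refine Submodule.finrank_mono ?_
  rintro _ ⟨_, ⟨w, rfl⟩, rfl⟩
  obtain ⟨x, hx⟩ := periodCoord_surjective N (YC *ᵥ w)
  have hkill : ∀ i, (signEq N ε i).map (Int.cast : ℤ → ℂ) *ᵥ periodCoord N x = 0 := fun i => by
    have h0 : signEq N ε i * latticeMatrix b = 0 := by
      ext a k
      rw [Matrix.mul_apply, Matrix.zero_apply]
      exact congrFun (mem_signLattice_iff.mp (b k).2 i) a
    rw [hx, Matrix.mulVec_mulVec, hYC, ← map_intCast_mul, h0]
    simp
  obtain ⟨hx1, hx2⟩ := (periodCoord_killed_iff x).mp hkill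
  refine ⟨(_, _), ⟨aeval_mem_span G e P hP hx1, aeval_mem_span G e P hP hx2⟩, ?_⟩
  rw [periodCoord_aeval, hx, ← hEC, Matrix.mulVec_mulVec, ← hYU, ← Matrix.mulVec_mulVec]
  rfl

end Coordinates

/-- If the eigenvalues of `e` outside a set `G` of `c` forms lie in `𝔪`, a power of `e` has rank at
most `2 c` on the lattice modulo `p`. -/
theorem exists_generators_signRep {p c : ℕ} [Fact p.Prime] (𝔪 : Ideal (integralClosure ℤ ℂ))
    (h𝔪 : 𝔪 ≠ ⊤) (hp : (p : integralClosure ℤ ℂ) ∈ 𝔪) (G : Set (CuspForm (Gamma0 N) 2))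
    (hG : G.Finite) (hGc : Nat.card G ≤ c) (e : CuspForm.heckeAlgebra N 2 ∅)
    (hout : ∀ f, ∀ hf : f ∈ signForms N ε, f ∉ G →
      ∃ z : integralClosure ℤ ℂ, (z : ℂ) = eigenChar f hf.1 ∅ e ∧ z ∈ 𝔪) :
    ∃ (m : ℕ) (y : Fin (2 * c) → signLattice N ε), ∀ v : signLattice N ε,
      ∃ (cc : Fin (2 * c) → ℤ) (r : signLattice N ε),
        signRep N ε (e ^ m) v = ∑ i, cc i • y i + (p : ℤ) • r := by
  classical
  let b := Module.Free.chooseBasis ℤ (signLattice N ε)
  have hfinS : (signForms N ε \ G).Finite := finite_signForms.subset Set.sdiff_subset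
  have := hfinS.fintype
  choose z hz hzm using fun f : (signForms N ε \ G : Set (CuspForm (Gamma0 N) 2)) =>
    hout f.1 f.2.1 f.2.2
  let A := LinearMap.toMatrixAlgEquiv b (signRep N ε e)
  let P : Polynomial (integralClosure ℤ ℂ) := ∏ f, (Polynomial.X - Polynomial.C (z f))
  let j : integralClosure ℤ ℂ →+* ℂ := (integralClosure ℤ ℂ).val.toRingHom
  have hrank : ((Polynomial.aeval (A.map (Int.cast : ℤ → integralClosure ℤ ℂ)) P).map j).rank
      ≤ 2 * c := by
    rw [map_aeval_intCast]
    refine rank_aeval_le b G hG hGc e (P.map j) fun f hf hfG => ?_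
    rw [Polynomial.map_prod, Polynomial.eval_prod]
    refine Finset.prod_eq_zero (Finset.mem_univ ⟨f, hf, hfG⟩) ?_
    rw [Polynomial.map_sub, Polynomial.map_X, Polynomial.map_C, Polynomial.eval_sub,
      Polynomial.eval_X, Polynomial.eval_C, sub_eq_zero]
    exact (hz ⟨f, hf, hfG⟩).symm
  have hU := aeval_sub_pow_mem 𝔪 A z hzm
  obtain ⟨y, hy⟩ := exists_generators_of_rank_le
    (A ^ Fintype.card (signForms N ε \ G : Set (CuspForm (Gamma0 N) 2))) j
    Subtype.val_injective 𝔪 h𝔪 hp (Polynomial.aeval (A.map (Int.cast : ℤ → integralClosure ℤ ℂ)) P)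
    hU hrank
  obtain ⟨y', hy'⟩ := exists_generators_of_coord b (signRep N ε e) _ (p : ℤ) y hy
  refine ⟨Fintype.card (signForms N ε \ G : Set (CuspForm (Gamma0 N) 2)), y', fun v => ?_⟩
  rw [map_pow]
  exact hy' v

end Fermat.Agent.Residual.Eigen2

end
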