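/-
Residual modularity at three: the pattern forms as characters of the Hecke algebra; finiteness and
separation for the two-adic Hecke algebra of a pattern.
-/
import Fermat.Agent.Residual.Defs
import Fermat.Agent.Integral.Eigenform
import Fermat.Agent.Galois.Frobenius
import Mathlib.NumberTheory.Padics.RingHoms
import Mathlib.RingTheory.IntegralClosure.IsIntegralClosure.Basic
import Mathlib.LinearAlgebra.FreeModule.PID

set_option autoImplicit false

noncomputable section

open ModularFormClass CongruenceSubgroup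

namespace Fermat.Agent.Residual

variable {D : Datum} {Q : Finset ℕ} {ε : ℕ → ℤ}

theorem algebraMap_Q2bar_injective : Function.Injective (algebraMap ℤ_[2] Q2bar) := by
  rw [IsScalarTower.algebraMap_eq ℤ_[2] ℚ_[2] Q2bar]
  exact (algebraMap ℚ_[2] Q2bar).injective.comp Subtype.val_injective

theorem algebraMap_Q2int_injective : Function.Injective (algebraMap ℤ_[2] Q2int) :=
  fun _ _ h => algebraMap_Q2bar_injective (congrArg Subtype.val h)

instance : FaithfulSMul ℤ_[2] Q2int :=
  (faithfulSMul_iff_algebraMap_injective _ _).2 algebraMap_Q2int_injective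

instance (D : Datum) (Q : Finset ℕ) (ε : ℕ → ℤ) :
    Module.IsTorsionFree ℤ_[2] (patternAlgebra D Q ε) :=
  Subtype.val_injective.moduleIsTorsionFree (fun x => (x : patternForms D Q ε → Q2int))
    fun _ _ => rfl

theorem auxLevel_pos (hQ : IsAuxSet D Q) : 0 < D.auxLevel Q :=
  Nat.mul_pos D.level_pos (Finset.prod_pos fun q hq => (hQ q hq).1.pos)

theorem two_dvd_auxLevel (D : Datum) (Q : Finset ℕ) : 2 ∣ D.auxLevel Q :=
  (Finset.dvd_prod_of_mem _ D.two_mem).mul_right _

theorem mem_of_dvd_auxLevel (hQ : IsAuxSet D Q) {p : ℕ} (hp : p.Prime) (h : p ∣ D.auxLevel Q) :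
    p ∈ D.B ∪ Q := by
  rcases hp.dvd_mul.1 h with h | h
  · obtain ⟨b, hb, hpb⟩ := hp.prime.exists_mem_finset_dvd h
    rw [(Nat.prime_dvd_prime_iff_eq hp (D.prime_mem b hb)).1 hpb]
    exact Finset.mem_union_left _ hb
  · obtain ⟨b, hb, hpb⟩ := hp.prime.exists_mem_finset_dvd h
    rw [(Nat.prime_dvd_prime_iff_eq hp (hQ b hb).1).1 hpb]
    exact Finset.mem_union_right _ hb

theorem not_dvd_two_mul {p M : ℕ} (hp : p.Prime) (h2 : 2 ∣ M) (h : ¬ p ∣ M) : ¬ p ∣ 2 * M :=
  fun hd => (hp.dvd_mul.1 hd).elim (fun h' => h (h'.trans h2)) h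

section Hom

variable [NeZero (D.auxLevel Q)]

/-- The Hecke algebra as functions on the pattern forms. -/
def patternHom (D : Datum) (Q : Finset ℕ) (ε : ℕ → ℤ) [NeZero (D.auxLevel Q)] :
    CuspForm.heckeAlgebra (D.auxLevel Q) 2 ∅ →+* (patternForms D Q ε → Q2int) :=
  RingHom.pi fun f => twoEmb.comp
    ((Eigen.eigenChar f.1 f.2.1.1.isNormalizedEigenform ∅).codRestrict
      (integralClosure ℤ ℂ).toSubring
      fun t => Integral.isIntegral_eigenChar f.2.1.1.isNormalizedEigenform t)

theorem patternGen_eq_patternHom {ℓ : ℕ} (hℓ : ℓ.Prime) (h : ¬ ℓ ∣ D.auxLevel Q) :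
    patternGen D Q ε ℓ =
      patternHom D Q ε (CuspForm.heckeAlgebra.T hℓ h (Set.notMem_empty ℓ)) := by
  funext f
  have hi := Integral.isIntegral_qCoeff f.2.1.1.isNormalizedEigenform ℓ
  refine congrArg twoEmb (Subtype.ext ?_)
  rw [coeffInt, dif_pos hi]
  exact (Eigen.eigenChar_T f.2.1.1.isNormalizedEigenform hℓ h _).symm

theorem patternAlgebra_le_span :
    Subalgebra.toSubmodule (patternAlgebra D Q ε) ≤
      Submodule.span ℤ_[2] (Set.range (patternHom D Q ε)) := by
  rw [patternAlgebra, Algebra.adjoin_eq_span]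
  refine Submodule.span_mono fun x hx => ?_
  have hsub : Submonoid.closure (patternGen D Q ε '' {ℓ | ℓ.Prime ∧ ¬ ℓ ∣ D.auxLevel Q}) ≤
      (patternHom D Q ε).range.toSubmonoid := by
    rw [Submonoid.closure_le]
    rintro _ ⟨ℓ, ⟨hℓ, h⟩, rfl⟩
    exact ⟨_, (patternGen_eq_patternHom hℓ h).symm⟩
  exact hsub hx

end Hom

theorem moduleFinite_patternAlgebra (hQ : IsAuxSet D Q) :
    Module.Finite ℤ_[2] (patternAlgebra D Q ε) := by
  have : NeZero (D.auxLevel Q) := ⟨(auxLevel_pos hQ).ne'⟩
  have := Integral.moduleFinite_heckeAlgebra (D.auxLevel Q) 2 ∅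
  have hfg : (Submodule.span ℤ_[2] (Set.range (patternHom D Q ε))).FG := by
    obtain ⟨s, hs⟩ := Module.Finite.fg_top (R := ℤ) (M := CuspForm.heckeAlgebra (D.auxLevel Q) 2 ∅)
    classical
    refine ⟨s.image (patternHom D Q ε), le_antisymm (Submodule.span_mono ?_) ?_⟩
    · intro x hx
      obtain ⟨t, -, rfl⟩ := Finset.mem_image.1 hx
      exact ⟨t, rfl⟩
    rw [Submodule.span_le]
    rintro _ ⟨t, rfl⟩
    have ht : t ∈ Submodule.span ℤ (s : Set (CuspForm.heckeAlgebra (D.auxLevel Q) 2 ∅)) :=
      hs ▸ Submodule.mem_top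
    induction ht using Submodule.span_induction with
    | mem x hx => exact Submodule.subset_span (Finset.mem_image_of_mem _ hx)
    | zero => rw [map_zero]; exact Submodule.zero_mem _
    | add x y _ _ hx hy => rw [map_add]; exact Submodule.add_mem _ hx hy
    | smul z x _ hx => rw [map_zsmul]; exact zsmul_mem hx z
  have : Module.Finite ℤ_[2] (Submodule.span ℤ_[2] (Set.range (patternHom D Q ε))) :=
    Module.Finite.iff_fg.2 hfg
  exact Module.Finite.of_injective
    (Submodule.inclusion (R := ℤ_[2]) (patternAlgebra_le_span (D := D) (Q := Q) (ε := ε)))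
    (Submodule.inclusion_injective _)

theorem free_patternAlgebra (hQ : IsAuxSet D Q) :
    Module.Free ℤ_[2] (patternAlgebra D Q ε) := by
  have := moduleFinite_patternAlgebra (ε := ε) hQ
  exact Module.free_of_finite_type_torsion_free'

/-- Evaluation at a pattern form. -/
def patternEval (D : Datum) (Q : Finset ℕ) (ε : ℕ → ℤ) (f : patternForms D Q ε) :
    patternAlgebra D Q ε →ₐ[ℤ_[2]] Q2bar :=
  (Q2int.val.comp (Pi.evalAlgHom ℤ_[2] (fun _ => Q2int) f)).comp (patternAlgebra D Q ε).val

/-- The pattern forms are separated by the Hecke algebra. -/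
theorem patternEval_injective (hQ : IsAuxSet D Q) :
    Function.Injective (patternEval D Q ε) := by
  have : NeZero (D.auxLevel Q) := ⟨(auxLevel_pos hQ).ne'⟩
  intro f g hfg
  refine Subtype.ext (Eigen.eigenform_ext f.2.1.1.isNormalizedEigenform
    g.2.1.1.isNormalizedEigenform fun p hp => ?_)
  by_cases hd : p ∣ D.auxLevel Q
  · rw [f.2.2 p (mem_of_dvd_auxLevel hQ hp hd), g.2.2 p (mem_of_dvd_auxLevel hQ hp hd)]
  · have h1 : patternGen D Q ε p f = patternGen D Q ε p g :=
      Subtype.ext (DFunLike.congr_fun hfg (patternT D Q ε hp hd))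
    have h2 := twoEmb_injective h1
    rw [coeffInt, coeffInt, dif_pos (Integral.isIntegral_qCoeff f.2.1.1.isNormalizedEigenform p),
      dif_pos (Integral.isIntegral_qCoeff g.2.1.1.isNormalizedEigenform p)] at h2
    exact congrArg Subtype.val h2

/-- Independence of the evaluations in a basis. -/
theorem linearIndependent_patternEval (hQ : IsAuxSet D Q) {ι : Type*} [Fintype ι]
    (b : Module.Basis ι ℤ_[2] (patternAlgebra D Q ε)) :
    LinearIndependent Q2bar fun (f : patternForms D Q ε) (i : ι) => patternEval D Q ε f (b i) := by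
  classical
  have h0 : LinearIndependent Q2bar
      (fun f : patternForms D Q ε => (patternEval D Q ε f : patternAlgebra D Q ε → Q2bar)) :=
    (linearIndependent_monoidHom (patternAlgebra D Q ε) Q2bar).comp
      (fun f => ((patternEval D Q ε f : patternAlgebra D Q ε →+* Q2bar) :
        patternAlgebra D Q ε →* Q2bar))
      fun f g hfg => patternEval_injective hQ (AlgHom.ext fun x => DFunLike.congr_fun hfg x)
  rw [linearIndependent_iff'] at h0 ⊢
  intro s c hc f hf
  refine h0 s c (funext fun x => ?_) f hf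
  simp only [Finset.sum_apply, Pi.smul_apply, smul_eq_mul, Pi.zero_apply]
  have key : ∀ i, ∑ g ∈ s, c g * patternEval D Q ε g (b i) = 0 := fun i => by
    simpa using congrFun hc i
  conv_lhs =>
    arg 2; ext g
    rw [← b.sum_repr x, map_sum, Finset.mul_sum]
  rw [Finset.sum_comm]
  refine Finset.sum_eq_zero fun i _ => ?_
  simp only [map_smul, Algebra.mul_smul_comm, ← Finset.smul_sum, key i, smul_zero]

theorem finite_patternForms_of_basis (hQ : IsAuxSet D Q) : Finite (patternForms D Q ε) := by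
  have := moduleFinite_patternAlgebra (ε := ε) hQ
  have := free_patternAlgebra (ε := ε) hQ
  exact (linearIndependent_patternEval hQ
    (Module.finBasis ℤ_[2] (patternAlgebra D Q ε))).finite

theorem natCard_patternForms_le_finrank (hQ : IsAuxSet D Q) :
    Nat.card (patternForms D Q ε) ≤ Module.finrank ℤ_[2] (patternAlgebra D Q ε) := by
  have := moduleFinite_patternAlgebra (ε := ε) hQ
  have := free_patternAlgebra (ε := ε) hQ
  have := finite_patternForms_of_basis (ε := ε) hQ
  have := Fintype.ofFinite (patternForms D Q ε)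
  have h := (linearIndependent_patternEval hQ
    (Module.finBasis ℤ_[2] (patternAlgebra D Q ε))).fintype_card_le_finrank
  rw [Module.finrank_fin_fun, ← Nat.card_eq_fintype_card] at h
  exact h

/-- Two lies in every maximal ideal of `Q2int`. -/
theorem isUnit_of_sub_one_mem_twoMax {x : Q2int} (h : x - 1 ∈ twoMax) : IsUnit x := by
  by_contra hx
  obtain ⟨m, hm, hxm⟩ := exists_max_ideal_of_mem_nonunits hx
  have h2 : (2 : Q2int) ∈ m := by
    have := Ideal.IsMaximal.under ℤ_[2] m
    have he : m.under ℤ_[2] = IsLocalRing.maximalIdeal ℤ_[2] :=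
      IsLocalRing.eq_maximalIdeal inferInstance
    have h2' : (2 : ℤ_[2]) ∈ m.under ℤ_[2] := by
      rw [he, PadicInt.maximalIdeal_eq_span_p]
      exact Ideal.subset_span (by simp)
    rw [Ideal.mem_comap, map_ofNat] at h2'
    exact h2'
  have hle : twoMax ≤ m := by
    rw [twoMax, hm.isPrime.radical_le_iff, Ideal.span_singleton_le_iff_mem]
    exact h2
  exact hm.ne_top (m.eq_top_iff_one.2 (by simpa using m.sub_mem hxm (hle h)))

theorem two_mem_twoMax : (2 : Q2int) ∈ twoMax :=
  Ideal.le_radical (Ideal.mem_span_singleton_self _)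

theorem twoMax_ne_top : twoMax ≠ ⊤ := by
  rw [twoMax, Ne, Ideal.radical_eq_top, Ideal.span_singleton_eq_top]
  intro h
  have : IsLocalHom (algebraMap ℤ_[2] Q2int) := Algebra.IsIntegral.isLocalHom ℤ_[2] Q2int
  have h' : IsUnit (algebraMap ℤ_[2] Q2int 2) := by rwa [map_ofNat]
  have h2 : IsUnit (2 : ℤ_[2]) := isUnit_of_map_unit (algebraMap ℤ_[2] Q2int) 2 h'
  exact PadicInt.p_nonunit (p := 2) (by exact_mod_cast h2)

end Fermat.Agent.Residual

end
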