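/-
Residual modularity at three, eigen torsion: `twoMax` is the maximal ideal of the local ring
`Q2int`, and residual separation of algebraic integers by integral polynomials.
-/
import Fermat.Agent.Residual.PatternHecke
import Mathlib.NumberTheory.Padics.Complex
import Mathlib.RingTheory.Polynomial.GaussLemma
import Mathlib.FieldTheory.Minpoly.IsIntegrallyClosed

set_option autoImplicit false

noncomputable section

open Polynomial

namespace Fermat.Agent.Residual.Eigen2

open Fermat.Agent.Residual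

/-- Elements of `Q2int` have norm at most one. -/
theorem norm_le_one_of_isIntegral {x : PadicAlgCl 2} (hx : IsIntegral ℤ_[2] x) : ‖x‖ ≤ 1 := by
  obtain ⟨P, hP, hP0⟩ := hx
  set R : (ℚ_[2])[X] := P.map (algebraMap ℤ_[2] ℚ_[2]) with hR
  have hRm : R.Monic := hP.map _
  have hR0 : aeval x R = 0 := by
    rw [hR, aeval_map_algebraMap, aeval_def]
    exact hP0
  have hnorm : spectralValue R ≤ 1 := by
    rw [spectralValue_le_one_iff hRm]
    intro n
    rw [hR, coeff_map]
    exact (P.coeff n).norm_le_one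
  rw [← PadicAlgCl.spectralNorm_eq]
  have hroot := norm_root_le_spectralValue (f := spectralAlgNorm ℚ_[2] (PadicAlgCl 2))
    (fun y n hn => by simp [spectralAlgNorm_def, isPowMul_spectralNorm y hn])
    (isNonarchimedean_spectralNorm (K := ℚ_[2]) (L := PadicAlgCl 2)) hRm hR0
  exact (le_of_eq (spectralAlgNorm_def _).symm).trans (hroot.trans hnorm)

/-- Elements of norm at most one are integral over `ℤ₂`. -/
theorem isIntegral_of_norm_le_one {x : PadicAlgCl 2} (hx : ‖x‖ ≤ 1) : IsIntegral ℤ_[2] x := by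
  have hint : IsIntegral ℚ_[2] x := Algebra.IsIntegral.isIntegral x
  set P := minpoly ℚ_[2] x
  have hP : ∀ n, ‖P.coeff n‖ ≤ 1 :=
    (spectralValue_le_one_iff (minpoly.monic hint)).mp hx
  have hlift : P ∈ Polynomial.lifts (algebraMap ℤ_[2] ℚ_[2]) :=
    (Polynomial.lifts_iff_coeff_lifts P).mpr fun n => ⟨⟨P.coeff n, hP n⟩, rfl⟩
  obtain ⟨R, hR, -, hRm⟩ :=
    Polynomial.lifts_and_degree_eq_and_monic hlift (minpoly.monic hint)
  refine ⟨R, hRm, ?_⟩
  rw [← aeval_def, ← aeval_map_algebraMap ℚ_[2], hR]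
  exact minpoly.aeval _ _

/-- Outside `twoMax` everything is a unit. -/
theorem isUnit_of_notMem_twoMax {x : Q2int} (hx : x ∉ twoMax) : IsUnit x := by
  let y : PadicAlgCl 2 := (x : Q2bar)
  have hle : ‖y‖ ≤ 1 := norm_le_one_of_isIntegral x.2
  have h2 : ‖(2 : PadicAlgCl 2)‖ = (2 : ℝ)⁻¹ := by
    have h := PadicAlgCl.norm_extends 2 (2 : ℚ_[2])
    rw [show ((2 : ℚ_[2]) : PadicAlgCl 2) = 2 from map_ofNat (algebraMap ℚ_[2] (PadicAlgCl 2)) 2] at h
    rw [h]
    exact_mod_cast Padic.norm_p (p := 2)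
  rcases lt_or_eq_of_le hle with hlt | heq
  · refine absurd ?_ hx
    obtain ⟨n, hn⟩ := exists_pow_lt_of_lt_one (by norm_num : (0 : ℝ) < 2⁻¹) hlt
    have h20 : (2 : PadicAlgCl 2) ≠ 0 := two_ne_zero
    have hz : ‖y ^ n / 2‖ ≤ 1 := by
      rw [norm_div, norm_pow, h2, div_le_one (by norm_num)]
      exact hn.le
    refine Ideal.mem_radical_iff.mpr ⟨n, Ideal.mem_span_singleton.mpr
      ⟨⟨_, isIntegral_of_norm_le_one hz⟩, Subtype.ext ?_⟩⟩
    show y ^ n = (2 : PadicAlgCl 2) * (y ^ n / 2)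
    rw [mul_div_cancel₀ _ h20]
  · have hy0 : y ≠ 0 := fun h => by simp [h] at heq
    refine isUnit_iff_exists_inv.mpr
      ⟨⟨y⁻¹, isIntegral_of_norm_le_one (by rw [norm_inv, heq, inv_one])⟩, Subtype.ext ?_⟩
    exact mul_inv_cancel₀ hy0

theorem twoMax_isMaximal : twoMax.IsMaximal :=
  Ideal.isMaximal_iff.mpr ⟨(Ideal.ne_top_iff_one _).mp twoMax_ne_top, fun J x hle hx hxJ => by
    rw [← Ideal.eq_top_iff_one]
    exact J.eq_top_of_isUnit_mem hxJ (isUnit_of_notMem_twoMax hx)⟩

/-- The prime of the algebraic integers cut out by `twoEmb`. -/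
def twoPrime : Ideal (integralClosure ℤ ℂ) := twoMax.comap twoEmb

theorem twoPrime_isPrime : twoPrime.IsPrime :=
  Ideal.IsPrime.comap twoEmb (hK := twoMax_isMaximal.isPrime)

theorem two_mem_twoPrime : (2 : integralClosure ℤ ℂ) ∈ twoPrime := by
  rw [twoPrime, Ideal.mem_comap, map_ofNat]
  exact two_mem_twoMax

theorem intCast_mem_twoPrime_iff (n : ℤ) :
    (n : integralClosure ℤ ℂ) ∈ twoPrime ↔ (n : ZMod 2) = 0 := by
  rcases Int.even_or_odd n with ⟨m, rfl⟩ | ⟨m, rfl⟩
  · refine iff_of_true ?_ (by simpa [← two_mul] using Or.inl (by decide : (2 : ZMod 2) = 0))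
    rw [← two_mul, Int.cast_mul, Int.cast_ofNat]
    exact Ideal.mul_mem_right _ _ two_mem_twoPrime
  · refine iff_of_false (fun h => twoPrime_isPrime.ne_top ((Ideal.eq_top_iff_one _).mpr ?_)) ?_
    · have h2 : (2 : integralClosure ℤ ℂ) * (m : integralClosure ℤ ℂ) ∈ twoPrime :=
        Ideal.mul_mem_right _ _ two_mem_twoPrime
      have h3 := twoPrime.sub_mem h h2
      simpa using h3
    · simp [(by decide : (2 : ZMod 2) = 0)]

/-- An algebraic integer outside `twoPrime` is separated from zero modulo two by an integral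
polynomial. -/
theorem exists_poly_separating {x : integralClosure ℤ ℂ} (hx : x ∉ twoPrime) :
    ∃ P : ℤ[X], aeval x P ∈ twoPrime ∧ ((P.eval 0 : ℤ) : ZMod 2) = 1 := by
  have := twoPrime_isPrime
  obtain ⟨F, hF, hF0⟩ := IsIntegralClosure.isIntegral ℤ ℂ x
  set F2 := F.map (Int.castRingHom (ZMod 2))
  have hne : F2 ≠ 0 := (hF.map _).ne_zero
  obtain ⟨R, hR, hRX⟩ := F2.exists_eq_pow_rootMultiplicity_mul_and_not_dvd hne 0
  rw [map_zero, sub_zero] at hR hRX
  obtain ⟨P, hP⟩ := Polynomial.map_surjective (Int.castRingHom (ZMod 2))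
    ZMod.intCast_surjective R
  refine ⟨P, ?_, ?_⟩
  · -- compute in the quotient by `twoPrime`
    let π := Ideal.Quotient.mk twoPrime
    have h2 : (2 : integralClosure ℤ ℂ ⧸ twoPrime) = 0 := by
      rw [← map_ofNat π 2]
      exact Ideal.Quotient.eq_zero_iff_mem.mpr two_mem_twoPrime
    have : CharP (integralClosure ℤ ℂ ⧸ twoPrime) 2 :=
      (CharP.charP_iff_prime_eq_zero Nat.prime_two).mpr (by exact_mod_cast h2)
    let g : ZMod 2 →+* integralClosure ℤ ℂ ⧸ twoPrime := ZMod.castHom (dvd_refl 2) _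
    have hcomp : ∀ G : ℤ[X],
        π (aeval x G) = (G.map (Int.castRingHom (ZMod 2))).eval₂ g (π x) := fun G => by
      rw [eval₂_map, aeval_def, hom_eval₂]
      congr 1
      exact RingHom.ext_int _ _
    have h := hcomp F
    rw [aeval_def, hF0, map_zero, show F.map (Int.castRingHom (ZMod 2)) = F2 from rfl, hR,
      eval₂_mul, eval₂_pow, eval₂_X, ← hP, ← hcomp] at h
    rcases mul_eq_zero.mp h.symm with h' | h'
    · exact absurd (Ideal.Quotient.eq_zero_iff_mem.mp (pow_eq_zero_iff'.mp h').1) hx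
    · exact Ideal.Quotient.eq_zero_iff_mem.mp h'
  · rw [← hP, X_dvd_iff, coeff_map, eq_intCast] at hRX
    rw [← coeff_zero_eq_eval_zero]
    generalize ((P.coeff 0 : ℤ) : ZMod 2) = u at hRX ⊢
    revert u
    decide

end Fermat.Agent.Residual.Eigen2

end
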