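/-
Residual modularity at three: the two-adic Hecke algebra of a pattern and its representation.
-/
import Fermat.Agent.Residual.Defs
import Fermat.Agent.Residual.PatternHecke

set_option autoImplicit false

noncomputable section

open Matrix

namespace Fermat.Agent.Residual

local notation "Qbar" => AlgebraicClosure ℚ
local notation "Γℚ" => (AlgebraicClosure ℚ ≃ₐ[ℚ] AlgebraicClosure ℚ)

variable {D : Datum} {Q : Finset ℕ} {ε : ℕ → ℤ}

/-- Modulo `2 ^ k` the Hecke algebra of a pattern is free over `ℤ/2^k`. -/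
theorem exists_equiv_patternQuot (hQ : IsAuxSet D Q) (k : ℕ) :
    Nonempty (PatternQuot D Q ε k ≃
      (Fin (Module.finrank ℤ_[2] (patternAlgebra D Q ε)) → ZMod (2 ^ k))) := by
  have := moduleFinite_patternAlgebra (ε := ε) hQ
  have := free_patternAlgebra (ε := ε) hQ
  let b := Module.finBasis ℤ_[2] (patternAlgebra D Q ε)
  let ψ : patternAlgebra D Q ε →+
      (Fin (Module.finrank ℤ_[2] (patternAlgebra D Q ε)) → ZMod (2 ^ k)) :=
    { toFun := fun x i => PadicInt.toZModPow k (b.equivFun x i)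
      map_zero' := by funext i; simp
      map_add' := fun x y => by funext i; simp }
  have hpow : ∀ x, (2 : patternAlgebra D Q ε) ^ k * x = ((2 : ℤ_[2]) ^ k) • x := fun x => by
    rw [Algebra.smul_def, map_pow, map_ofNat]
  have hker : ∀ x, ψ x = 0 ↔ (2 : patternAlgebra D Q ε) ^ k ∣ x := by
    intro x
    constructor
    · intro h
      have hi : ∀ i, ∃ t : ℤ_[2], b.equivFun x i = (2 : ℤ_[2]) ^ k * t := fun i => by
        have h' : PadicInt.toZModPow k (b.equivFun x i) = 0 := congrFun h i
        rw [← RingHom.mem_ker, PadicInt.ker_toZModPow, Ideal.mem_span_singleton] at h'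
        exact_mod_cast h'
      choose t ht using hi
      refine ⟨b.equivFun.symm t, b.equivFun.injective ?_⟩
      rw [hpow, map_smul, LinearEquiv.apply_symm_apply]
      funext i
      simp [ht i]
    · rintro ⟨y, rfl⟩
      funext i
      show PadicInt.toZModPow k (b.equivFun _ i) = 0
      rw [hpow, map_smul, ← RingHom.mem_ker, PadicInt.ker_toZModPow, Ideal.mem_span_singleton]
      exact ⟨b.equivFun y i, by simp⟩
  have hsurj : Function.Surjective ψ := fun y => by
    choose t ht using fun i => ZMod.ringHom_surjective (PadicInt.toZModPow (p := 2) k) (y i)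
    exact ⟨b.equivFun.symm t, funext fun i => by
      show PadicInt.toZModPow k (b.equivFun _ i) = y i
      rw [LinearEquiv.apply_symm_apply, ht i]⟩
  let sec := Function.surjInv (patternMk_surjective D Q ε k)
  have hsec : ∀ q, patternMk D Q ε k (sec q) = q := Function.surjInv_eq _
  have heq : ∀ x y, ψ x = ψ y ↔ patternMk D Q ε k x = patternMk D Q ε k y := fun x y => by
    rw [← sub_eq_zero, ← map_sub, hker, ← patternMk_eq_zero_iff, map_sub, sub_eq_zero]
  refine ⟨Equiv.ofBijective (fun q => ψ (sec q)) ⟨fun q q' h => ?_, fun y => ?_⟩⟩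
  · rw [← hsec q, ← hsec q']
    exact (heq _ _).1 h
  · obtain ⟨x, rfl⟩ := hsurj y
    exact ⟨patternMk D Q ε k x, (heq _ _).2 (hsec _)⟩

theorem finite_patternAlgebra_quotient (hQ : IsAuxSet D Q) (k : ℕ) :
    Finite (PatternQuot D Q ε k) := by
  obtain ⟨e⟩ := exists_equiv_patternQuot (ε := ε) hQ k
  have : NeZero (2 ^ k) := ⟨by positivity⟩
  exact Finite.of_equiv _ e.symm

theorem two_pow_le_natCard_patternAlgebra_quotient (hQ : IsAuxSet D Q) (hε : IsPattern ε)
    (k : ℕ) : 2 ^ (k * Nat.card (patternForms D Q ε)) ≤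
      Nat.card (PatternQuot D Q ε k) := by
  obtain ⟨e⟩ := exists_equiv_patternQuot (ε := ε) hQ k
  rw [Nat.card_congr e, Nat.card_fun, Nat.card_zmod, Nat.card_fin, ← pow_mul]
  exact Nat.pow_le_pow_right two_pos
    (Nat.mul_le_mul_left k (natCard_patternForms_le_finrank hQ))

/-- Every element of the Hecke algebra of a pattern is congruent to one integer at all forms. -/
theorem exists_residue_int (x : patternAlgebra D Q ε) :
    ∃ n : ℤ, ∀ f, (x : patternForms D Q ε → Q2int) f - (n : Q2int) ∈ twoMax := by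
  obtain ⟨x, hx⟩ := x
  show ∃ n : ℤ, ∀ f, x f - (n : Q2int) ∈ twoMax
  induction hx using Algebra.adjoin_induction with
  | mem x hx =>
    obtain ⟨ℓ, ⟨hℓ, h⟩, rfl⟩ := hx
    obtain ⟨A, τ, hA, hτ⟩ := Galois.exists_valuationSubring_isFrobeniusAt hℓ
    refine ⟨((((D.ρbar τ : Matrix (Fin 2) (Fin 2) (ZMod 2))).trace).val : ℕ), fun f => ?_⟩
    have := (f.2.1.2 ℓ hℓ (not_dvd_two_mul hℓ (two_dvd_auxLevel D Q) h)).2 A hA τ hτ
    simpa [patternGen] using this
  | algebraMap r =>
    refine ⟨((PadicInt.toZMod r).val : ℕ), fun f => ?_⟩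
    have h0 : PadicInt.toZMod (r - ((((PadicInt.toZMod r).val : ℕ)) : ℤ_[2])) = 0 := by
      rw [map_sub, map_natCast, ZMod.natCast_zmod_val, sub_self]
    rw [← RingHom.mem_ker, PadicInt.ker_toZMod, PadicInt.maximalIdeal_eq_span_p,
      Ideal.mem_span_singleton] at h0
    obtain ⟨t, ht⟩ := h0
    have h2 := congrArg (algebraMap ℤ_[2] Q2int) ht
    rw [map_sub, map_mul, map_natCast, map_natCast] at h2
    rw [Pi.algebraMap_apply, Int.cast_natCast, h2]
    exact Ideal.mul_mem_right _ _ (by exact_mod_cast two_mem_twoMax)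
  | add x y _ _ hx hy =>
    obtain ⟨n, hn⟩ := hx
    obtain ⟨m, hm⟩ := hy
    refine ⟨n + m, fun f => ?_⟩
    have : (x + y) f - ((n + m : ℤ) : Q2int) = (x f - (n : Q2int)) + (y f - (m : Q2int)) := by
      rw [Pi.add_apply, Int.cast_add]; ring
    rw [this]
    exact twoMax.add_mem (hn f) (hm f)
  | mul x y _ _ hx hy =>
    obtain ⟨n, hn⟩ := hx
    obtain ⟨m, hm⟩ := hy
    refine ⟨n * m, fun f => ?_⟩
    have : (x * y) f - ((n * m : ℤ) : Q2int) =
        (x f - (n : Q2int)) * y f + (n : Q2int) * (y f - (m : Q2int)) := by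
      rw [Pi.mul_apply, Int.cast_mul]; ring
    rw [this]
    exact twoMax.add_mem (twoMax.mul_mem_right _ (hn f)) (twoMax.mul_mem_left _ (hm f))

theorem intCast_mem_twoMax {n : ℤ} (h : (n : Q2int) ∈ twoMax) : (n : ZMod 2) = 0 := by
  by_contra h0
  obtain ⟨m, rfl⟩ : Odd n := by
    rw [← Int.not_even_iff_odd]
    exact fun he => h0 ((ZMod.intCast_zmod_eq_zero_iff_dvd n 2).2 (by exact_mod_cast he.two_dvd))
  refine twoMax_ne_top ((Ideal.eq_top_iff_one _).2 ?_)
  have h2 : (2 : Q2int) * (m : Q2int) ∈ twoMax := twoMax.mul_mem_right _ two_mem_twoMax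
  have := twoMax.sub_mem h h2
  simpa using this

theorem exists_residue_patternAlgebra (hQ : IsAuxSet D Q)
    (hne : (patternForms D Q ε).Nonempty) :
    Nonempty (patternAlgebra D Q ε →+* ZMod 2) := by
  obtain ⟨f₀, hf₀⟩ := hne
  choose N hN using exists_residue_int (D := D) (Q := Q) (ε := ε)
  have huniq : ∀ (x : patternAlgebra D Q ε) (n : ℤ),
      ((x : patternForms D Q ε → Q2int) ⟨f₀, hf₀⟩ - (n : Q2int) ∈ twoMax) →
        (N x : ZMod 2) = (n : ZMod 2) := fun x n hn => by
    rw [← sub_eq_zero, ← Int.cast_sub]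
    refine intCast_mem_twoMax ?_
    have h := twoMax.sub_mem hn (hN x ⟨f₀, hf₀⟩)
    simpa using h
  exact ⟨{
    toFun := fun x => (N x : ZMod 2)
    map_one' := by simpa using huniq 1 1 (by simp)
    map_zero' := by simpa using huniq 0 0 (by simp)
    map_add' := fun x y => by
      rw [← Int.cast_add]
      refine huniq _ _ ?_
      have h := twoMax.add_mem (hN x ⟨f₀, hf₀⟩) (hN y ⟨f₀, hf₀⟩)
      simpa [add_sub_add_comm] using h
    map_mul' := fun x y => by
      rw [← Int.cast_mul]
      refine huniq _ _ ?_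
      have h := twoMax.add_mem (twoMax.mul_mem_right ((y : patternForms D Q ε → Q2int) ⟨f₀, hf₀⟩)
        (hN x ⟨f₀, hf₀⟩)) (twoMax.mul_mem_left (N x : Q2int) (hN y ⟨f₀, hf₀⟩))
      convert h using 1
      simp
      ring }⟩

theorem isIntegral_pattern_function [Finite (patternForms D Q ε)]
    (y : patternForms D Q ε → Q2int) : IsIntegral ℤ_[2] y := by
  have := Fintype.ofFinite (patternForms D Q ε)
  choose P hP hP0 using fun f => IsIntegralClosure.isIntegral ℤ_[2] Q2bar (y f)
  refine ⟨∏ f, P f, Polynomial.monic_prod_of_monic _ _ fun f _ => hP f, ?_⟩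
  rw [← Polynomial.aeval_def]
  funext g
  have h : Polynomial.aeval (y g) (∏ f, P f) = 0 := by
    rw [map_prod]
    exact Finset.prod_eq_zero (Finset.mem_univ g) (hP0 g)
  rw [Pi.zero_apply, ← h]
  exact (Polynomial.aeval_algHom_apply (Pi.evalAlgHom ℤ_[2] (fun _ => Q2int) g) y _).symm

theorem isLocalRing_patternAlgebra (hQ : IsAuxSet D Q) (hne : (patternForms D Q ε).Nonempty) :
    IsLocalRing (patternAlgebra D Q ε) := by
  obtain ⟨f₀, hf₀⟩ := hne
  have : Finite (patternForms D Q ε) := finite_patternForms_of_basis hQ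
  have hunit : ∀ x : patternAlgebra D Q ε, (∀ f, (x : patternForms D Q ε → Q2int) f - 1 ∈ twoMax) →
      IsUnit x := by
    intro x hx
    have hu : IsUnit (x : patternForms D Q ε → Q2int) :=
      Pi.isUnit_iff.2 fun f => isUnit_of_sub_one_mem_twoMax (hx f)
    have hint : (algebraMap ℤ_[2] (patternForms D Q ε → Q2int)).IsIntegral :=
      fun y => isIntegral_pattern_function y
    have : IsLocalHom (patternAlgebra D Q ε).val.toRingHom :=
      (RingHom.IsIntegral.tower_top (algebraMap ℤ_[2] (patternAlgebra D Q ε))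
        (patternAlgebra D Q ε).val.toRingHom hint).isLocalHom Subtype.val_injective
    exact isUnit_of_map_unit (patternAlgebra D Q ε).val.toRingHom x hu
  have : Nontrivial (patternAlgebra D Q ε) := by
    refine ⟨⟨0, 1, fun h => ?_⟩⟩
    have h' := congrFun (congrArg Subtype.val h) ⟨f₀, hf₀⟩
    exact zero_ne_one h'
  refine IsLocalRing.of_isUnit_or_isUnit_one_sub_self fun x => ?_
  obtain ⟨n, hn⟩ := exists_residue_int x
  rcases Int.even_or_odd n with ⟨m, rfl⟩ | ⟨m, rfl⟩
  · refine Or.inr (hunit _ fun f => ?_)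
    have h2 : (2 : Q2int) * (m : Q2int) ∈ twoMax := twoMax.mul_mem_right _ two_mem_twoMax
    have := twoMax.neg_mem (twoMax.add_mem (hn f) h2)
    convert this using 1
    simp
    ring
  · refine Or.inl (hunit _ fun f => ?_)
    have h2 : (2 : Q2int) * (m : Q2int) ∈ twoMax := twoMax.mul_mem_right _ two_mem_twoMax
    have := twoMax.add_mem (hn f) h2
    convert this using 1
    simp
    ring

end Fermat.Agent.Residual

end
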