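/-
Residual modularity at three, eigen torsion: the pattern data seen on the lattice of signs.
-/
import Fermat.Agent.Residual.PatternRep
import Fermat.Agent.Residual.EigenTwoAdic
import Fermat.Agent.Residual.EigenLattice

set_option autoImplicit false

noncomputable section

namespace Fermat.Agent.Residual.Eigen2

open CongruenceSubgroup ModularFormClass CuspForm Fermat.Agent.Residual
open Fermat.Agent.Eigen (eigenChar)

variable {D : Datum} {Q : Finset ℕ} {ε : ℕ → ℤ}

theorem squarefree_auxLevel (hQ : IsAuxSet D Q) : Squarefree (D.auxLevel Q) := by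
  have hd : Disjoint D.B Q := Finset.disjoint_right.mpr fun q hq => (hQ q hq).2.1
  rw [Datum.auxLevel, Datum.level, ← Finset.prod_union hd]
  refine Finset.squarefree_prod_of_pairwise_isCoprime ?_ ?_
  · intro a ha b hb hab
    have hp : ∀ x ∈ D.B ∪ Q, x.Prime := fun x hx =>
      (Finset.mem_union.mp hx).elim (D.prime_mem x) fun h => (hQ x h).1
    exact Nat.coprime_iff_isRelPrime.mp ((Nat.coprime_primes (hp a ha) (hp b hb)).mpr hab)
  · intro a ha
    exact ((Finset.mem_union.mp ha).elim (D.prime_mem a) fun h => (hQ a h).1).squarefree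

theorem dvd_auxLevel_of_mem {p : ℕ} (hp : p ∈ D.B ∪ Q) : p ∣ D.auxLevel Q :=
  (Finset.mem_union.mp hp).elim (fun h => (Finset.dvd_prod_of_mem _ h).mul_right _)
    fun h => (Finset.dvd_prod_of_mem _ h).mul_left _

variable [NeZero (D.auxLevel Q)]

omit [NeZero (D.auxLevel Q)] in
theorem mem_signForms_of_mem_patternForms (hQ : IsAuxSet D Q)
    {f : CuspForm (Gamma0 (D.auxLevel Q)) 2} (hf : f ∈ patternForms D Q ε) :
    f ∈ signForms (D.auxLevel Q) ε :=
  ⟨hf.1.1.isNormalizedEigenform, fun _ hp h => hf.2 _ (mem_of_dvd_auxLevel hQ hp h)⟩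

theorem patternHom_mem (hQ : IsAuxSet D Q) (t : CuspForm.heckeAlgebra (D.auxLevel Q) 2 ∅) :
    patternHom D Q ε t ∈ patternAlgebra D Q ε := by
  obtain ⟨t, ht⟩ := t
  induction ht using Algebra.adjoin_induction with
  | mem x hx =>
    rcases hx with ⟨ℓ, hℓ, hℓN, _, rfl⟩ | ⟨q, hqN, hq, _, rfl⟩
    · have h := patternGen_eq_patternHom (D := D) (Q := Q) (ε := ε) hℓ hℓN
      exact h ▸ Algebra.subset_adjoin ⟨ℓ, ⟨hℓ, hℓN⟩, rfl⟩
    · have h : patternHom D Q ε (CuspForm.heckeAlgebra.U hq hqN (Set.notMem_empty q)) =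
          (ε q : patternForms D Q ε → Q2int) := by
        funext f
        rw [Pi.intCast_apply, ← map_intCast twoEmb]
        refine congrArg twoEmb (Subtype.ext ?_)
        refine (Eigen.eigenChar_U f.2.1.1.isNormalizedEigenform hq hqN _).trans ?_
        rw [f.2.2 q (mem_of_dvd_auxLevel hQ hq hqN)]
        exact (map_intCast (integralClosure ℤ ℂ).val (ε q)).symm
      exact h ▸ intCast_mem _ _
  | algebraMap n =>
    show patternHom D Q ε (algebraMap ℤ _ n) ∈ _
    rw [eq_intCast, map_intCast]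
    exact intCast_mem _ _
  | add x y hx hy ihx ihy =>
    have h := add_mem ihx ihy
    rwa [← map_add] at h
  | mul x y hx hy ihx ihy =>
    have h := mul_mem ihx ihy
    rwa [← map_mul] at h

variable (D Q ε) in
/-- The Hecke algebra mapped onto the generators of the algebra of a pattern. -/
def toPattern (hQ : IsAuxSet D Q) :
    CuspForm.heckeAlgebra (D.auxLevel Q) 2 ∅ →+* patternAlgebra D Q ε :=
  (patternHom D Q ε).codRestrict (patternAlgebra D Q ε).toSubring fun t => patternHom_mem hQ t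

theorem toPattern_T (hQ : IsAuxSet D Q) {ℓ : ℕ} (hℓ : ℓ.Prime) (h : ¬ ℓ ∣ D.auxLevel Q) :
    toPattern D Q ε hQ (CuspForm.heckeAlgebra.T hℓ h (Set.notMem_empty ℓ)) =
      patternT D Q ε hℓ h :=
  Subtype.ext (patternGen_eq_patternHom hℓ h).symm

theorem toPattern_eq_zero (hQ : IsAuxSet D Q) {t : CuspForm.heckeAlgebra (D.auxLevel Q) 2 ∅}
    (ht : signRep (D.auxLevel Q) ε t = 0) : toPattern D Q ε hQ t = 0 := by
  refine Subtype.ext (funext fun f => ?_)
  show twoEmb _ = (0 : Q2int)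
  rw [← map_zero twoEmb]
  exact congrArg twoEmb (Subtype.ext
    (eigenChar_eq_zero_of_signRep_eq_zero ht (mem_signForms_of_mem_patternForms hQ f.2)))

variable {M : ℕ} (φ : patternAlgebra D Q ε →+* ZMod (2 ^ M))

omit [NeZero (D.auxLevel Q)] in
theorem nonempty_patternForms (hM : 1 ≤ M) (φ : patternAlgebra D Q ε →+* ZMod (2 ^ M)) :
    (patternForms D Q ε).Nonempty := by
  by_contra h
  have : IsEmpty (patternForms D Q ε) := Set.isEmpty_coe_sort.mpr (Set.not_nonempty_iff_eq_empty.mp h)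
  have h1 : (1 : patternAlgebra D Q ε) = 0 := Subtype.ext (funext fun f => isEmptyElim f)
  have := congrArg φ h1
  rw [map_one, map_zero] at this
  have hlt : Fact (1 < 2 ^ M) := ⟨Nat.one_lt_two_pow (by omega)⟩
  exact one_ne_zero this

omit [NeZero (D.auxLevel Q)] in
/-- The parity of the eigenvalues is that of the residual traces. -/
theorem parity_eq_trace (hQ : IsAuxSet D Q) (hM : 1 ≤ M) {a : ℕ → ℤ} {ℓ : ℕ} (hℓ : ℓ.Prime)
    (h : ¬ ℓ ∣ D.auxLevel Q) (ha : φ (patternT D Q ε hℓ h) = (a ℓ : ZMod (2 ^ M)))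
    {A : ValuationSubring (AlgebraicClosure ℚ)} (hA : A.LiesOverPrime ℓ)
    {τ : AlgebraicClosure ℚ ≃ₐ[ℚ] AlgebraicClosure ℚ} (hτ : A.IsFrobeniusAt τ ℓ) :
    (a ℓ : ZMod 2) = ((D.ρbar τ : Matrix (Fin 2) (Fin 2) (ZMod 2))).trace := by
  obtain ⟨f, hf⟩ := nonempty_patternForms hM φ
  have : IsLocalRing (patternAlgebra D Q ε) := isLocalRing_patternAlgebra hQ ⟨f, hf⟩
  set δ := ((D.ρbar τ : Matrix (Fin 2) (Fin 2) (ZMod 2))).trace
  let φ2 := (ZMod.castHom (dvd_pow_self 2 (by omega : M ≠ 0)) (ZMod 2)).comp φ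
  let x : patternAlgebra D Q ε := patternT D Q ε hℓ h - (δ.val : patternAlgebra D Q ε)
  have hnu : ¬ IsUnit x := fun hu => by
    have h1 : IsUnit ((x : patternForms D Q ε → Q2int) ⟨f, hf⟩) :=
      Pi.isUnit_iff.mp (hu.map (patternAlgebra D Q ε).val) ⟨f, hf⟩
    refine twoMax_ne_top (Ideal.eq_top_of_isUnit_mem _ ?_ h1)
    have := (hf.1.2 ℓ hℓ (not_dvd_two_mul hℓ (two_dvd_auxLevel D Q) h)).2 A hA τ hτ
    simpa [x, patternT, patternGen, -ZMod.natCast_val] using this
  have hker : (RingHom.ker φ2).IsMaximal :=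
    RingHom.ker_isMaximal_of_surjective φ2 (ZMod.ringHom_surjective φ2)
  have hx : φ2 x = 0 := by
    rw [← RingHom.mem_ker, IsLocalRing.eq_maximalIdeal hker]
    exact hnu
  simp only [x, map_sub, map_natCast, φ2, RingHom.comp_apply, ha, map_intCast,
    ZMod.natCast_zmod_val] at hx
  exact sub_eq_zero.mp hx

theorem isUnit_of_castHom_eq_one (hM : 1 ≤ M) {z : ZMod (2 ^ M)}
    (hz : ZMod.castHom (dvd_pow_self 2 (by omega : M ≠ 0)) (ZMod 2) z = 1) : IsUnit z := by
  obtain ⟨n, rfl⟩ := ZMod.intCast_surjective z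
  rw [map_intCast] at hz
  obtain ⟨w, hw⟩ := (ZMod.intCast_eq_intCast_iff_dvd_sub 1 n 2).mp (by rw [Int.cast_one, hz])
  have hnil : IsNilpotent ((2 : ZMod (2 ^ M)) * (w : ZMod (2 ^ M))) := ⟨M, by
    rw [mul_pow, show (2 : ZMod (2 ^ M)) ^ M = ((2 ^ M : ℕ) : ZMod (2 ^ M)) by push_cast; rfl,
      ZMod.natCast_self, zero_mul]⟩
  have : (n : ZMod (2 ^ M)) = 1 + (2 : ZMod (2 ^ M)) * (w : ZMod (2 ^ M)) := by
    rw [show n = 1 + 2 * w by omega]
    push_cast
    rfl
  rw [this]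
  exact IsNilpotent.isUnit_one_add hnil

/-- An element of the Hecke algebra separating the pattern forms from the other forms with the
same signs. -/
theorem exists_separator (hQ : IsAuxSet D Q) (hε : IsPattern ε) (hM : 1 ≤ M) (a : ℕ → ℤ)
    (ha : ∀ (ℓ : ℕ) (hℓ : ℓ.Prime) (h : ¬ ℓ ∣ D.auxLevel Q),
      φ (patternT D Q ε hℓ h) = (a ℓ : ZMod (2 ^ M))) :
    ∃ e, IsUnit ((φ.comp (toPattern D Q ε hQ)) e) ∧
      ∀ f, ∀ hf : f ∈ signForms (D.auxLevel Q) ε, f ∉ patternForms D Q ε →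
        ∃ z : integralClosure ℤ ℂ, (z : ℂ) = eigenChar f hf.1 ∅ e ∧ z ∈ twoPrime := by
  classical
  set S := signForms (D.auxLevel Q) ε \ patternForms D Q ε
  have hSfin : S.Finite := finite_signForms.subset Set.sdiff_subset
  have := hSfin.fintype
  -- a separator for a single form
  have hone : ∀ g : S, ∃ t, IsUnit ((φ.comp (toPattern D Q ε hQ)) t) ∧
      ∃ z : integralClosure ℤ ℂ, (z : ℂ) = eigenChar g.1 g.2.1.1 ∅ t ∧ z ∈ twoPrime := by
    rintro ⟨g, hg, hgp⟩
    have hne : ∃ ℓ : ℕ, ℓ.Prime ∧ ¬ ℓ ∣ 2 * D.auxLevel Q ∧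
        ∃ A : ValuationSubring (AlgebraicClosure ℚ), A.LiesOverPrime ℓ ∧
          ∃ τ, A.IsFrobeniusAt τ ℓ ∧ twoEmb (coeffInt g ℓ) -
            ((((D.ρbar τ : Matrix (Fin 2) (Fin 2) (ZMod 2))).trace).val : Q2int) ∉ twoMax := by
      by_contra hcon
      push Not at hcon
      exact hgp ⟨⟨isNewform_of_mem (squarefree_auxLevel hQ) hε hg, fun ℓ hℓ h =>
        ⟨Integral.isIntegral_qCoeff hg.1 ℓ, fun A hA τ hτ => hcon ℓ hℓ h A hA τ hτ⟩⟩,
        fun p hp => hg.2 p ((Finset.mem_union.mp hp).elim (D.prime_mem p) fun h => (hQ p h).1)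
          (dvd_auxLevel_of_mem hp)⟩
    obtain ⟨ℓ, hℓ, hℓ2, A, hA, τ, hτ, hout⟩ := hne
    have hℓL : ¬ ℓ ∣ D.auxLevel Q := fun h => hℓ2 (h.mul_left 2)
    set δ := ((D.ρbar τ : Matrix (Fin 2) (Fin 2) (ZMod 2))).trace
    set x : integralClosure ℤ ℂ := coeffInt g ℓ - (δ.val : integralClosure ℤ ℂ) with hx
    have hxP : x ∉ twoPrime := by
      rw [twoPrime, Ideal.mem_comap, hx, map_sub, map_natCast]
      exact hout
    obtain ⟨P, hPx, hP0⟩ := exists_poly_separating hxP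
    let t : CuspForm.heckeAlgebra (D.auxLevel Q) 2 ∅ :=
      CuspForm.heckeAlgebra.T hℓ hℓL (Set.notMem_empty ℓ) -
        (δ.val : CuspForm.heckeAlgebra (D.auxLevel Q) 2 ∅)
    refine ⟨Polynomial.aeval t P, isUnit_of_castHom_eq_one hM ?_, Polynomial.aeval x P, ?_, hPx⟩
    · let ψ := (ZMod.castHom (dvd_pow_self 2 (by omega : M ≠ 0)) (ZMod 2)).comp
        (φ.comp (toPattern D Q ε hQ))
      show ψ (Polynomial.aeval t P) = 1
      have ht : ψ t = 0 := by
        simp only [t, ψ, map_sub, map_natCast, RingHom.comp_apply, toPattern_T, ha, map_intCast,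
          parity_eq_trace φ hQ hM hℓ hℓL (ha ℓ hℓ hℓL) hA hτ, ZMod.natCast_zmod_val, δ, sub_self]
      rw [Polynomial.aeval_def, Polynomial.hom_eval₂, ht, Polynomial.eval₂_at_zero, ← hP0,
        ← Polynomial.coeff_zero_eq_eval_zero]
      exact eq_intCast _ _
    · have hval : eigenChar g hg.1 ∅ t = ((x : integralClosure ℤ ℂ) : ℂ) := by
        rw [hx, map_sub, map_natCast, Eigen.eigenChar_T hg.1 hℓ hℓL, coeffInt,
          dif_pos (Integral.isIntegral_qCoeff hg.1 ℓ)]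
        push_cast
        rfl
      rw [Polynomial.aeval_def, Polynomial.aeval_def, Polynomial.hom_eval₂, hval]
      show (integralClosure ℤ ℂ).val.toRingHom _ = _
      rw [Polynomial.hom_eval₂]
      congr 1
      exact RingHom.ext_int _ _
  choose t ht z hz hzm using hone
  refine ⟨∏ g, t g, ?_, fun f hf hfp => ?_⟩
  · rw [map_prod]
    exact Finset.prod_induction _ IsUnit (fun _ _ => IsUnit.mul) isUnit_one fun g _ => ht g
  · let g : S := ⟨f, hf, hfp⟩
    refine ⟨z g * ⟨_, Integral.isIntegral_eigenChar hf.1 (∏ i ∈ Finset.univ.erase g, t i)⟩, ?_,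
      Ideal.mul_mem_right _ _ (hzm g)⟩
    rw [← Finset.mul_prod_erase Finset.univ t (Finset.mem_univ g), map_mul, Subalgebra.coe_mul,
      hz g]

end Fermat.Agent.Residual.Eigen2

end
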