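/-
Residual modularity at 3: the Fitting type bound (applied to the dual lattice).

A ring `T` acts on a lattice `L`, `χ : T → ℤ/p^M` vanishes on the annihilator of `L`, and some
`e ∈ T` with `χ e` a unit has rank at most `d` on `L/pL`. Then, for `k d < M`, the eigenvectors
of `χ` in `L/p^M L` are not all killed by `p^k`.
-/
import Mathlib.Data.ZMod.Basic
import Mathlib.RingTheory.Nakayama
import Mathlib.LinearAlgebra.Matrix.Adjugate
import Mathlib.LinearAlgebra.Dual.Lemmas
import Mathlib.Algebra.Module.CharacterModule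
import Mathlib.Algebra.BigOperators.Field
import Mathlib.Tactic.Linarith
import Mathlib.RingTheory.Nilpotent.Basic

set_option autoImplicit false

noncomputable section

namespace Fermat.Agent.Residual.Fitting

section Bound

variable {T W : Type*} [CommRing T] [AddCommGroup W] [Module T W] {p M d k : ℕ}

/-- The determinant trick. -/
theorem le_mul_of_pow_smul_mem [hp : Fact p.Prime] (χ : T →+* ZMod (p ^ M))
    (hann : ∀ a : T, (∀ w : W, a • w = 0) → χ a = 0) (x : Fin d → W) {s : T}
    (hs : IsUnit (χ s)) (hspan : ∀ w : W, s • w ∈ Submodule.span T (Set.range x))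
    (hk : ∀ w : W, ((p ^ k : ℕ) : T) • w ∈ RingHom.ker χ • (⊤ : Submodule T W)) :
    M ≤ k * d := by
  classical
  have hsI : ∀ v ∈ RingHom.ker χ • (⊤ : Submodule T W),
      s • v ∈ RingHom.ker χ • Submodule.span T (Set.range x) := by
    intro v hv
    induction hv using Submodule.smul_induction_on' with
    | smul a ha w _ =>
      rw [smul_comm]
      exact Submodule.smul_mem_smul ha (hspan w)
    | add a _ b _ ha hb =>
      rw [smul_add]
      exact add_mem ha hb
  have hA : ∀ i, ∃ a : Fin d → T, (∀ j, a j ∈ RingHom.ker χ) ∧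
      ∑ j, a j • x j = (s * ((p ^ k : ℕ) : T)) • x i := fun i => by
    obtain ⟨a, ha, hsum⟩ := (Submodule.mem_ideal_smul_span_iff_exists_sum _ x _).mp
      (hsI _ (hk (x i)))
    refine ⟨a, ha, ?_⟩
    rw [← smul_smul, ← hsum]
    exact (Finsupp.sum_fintype a (fun i (c : T) => c • x i) fun _ => zero_smul T _).symm
  choose a ha hsum using hA
  let B : Matrix (Fin d) (Fin d) T :=
    Matrix.diagonal (fun _ => s * ((p ^ k : ℕ) : T)) - Matrix.of a
  have hB : ∀ i, ∑ j, B i j • x j = 0 := fun i => by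
    simp only [B, Matrix.sub_apply, Matrix.of_apply, sub_smul, Finset.sum_sub_distrib, hsum]
    rw [Finset.sum_eq_single i (fun j _ hj => by rw [Matrix.diagonal_apply_ne' _ hj, zero_smul])
      (fun h => absurd (Finset.mem_univ i) h), Matrix.diagonal_apply_eq, sub_self]
  have hdet : ∀ j, B.det • x j = 0 := fun j => by
    have h : ∑ i, B.adjugate j i • ∑ l, B i l • x l = B.det • x j := by
      simp only [Finset.smul_sum, smul_smul]
      rw [Finset.sum_comm]
      simp only [← Finset.sum_smul, ← Matrix.mul_apply, Matrix.adjugate_mul, Matrix.smul_apply,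
        Matrix.one_apply, smul_eq_mul, mul_ite, mul_one, mul_zero, ite_smul, zero_smul,
        Finset.sum_ite_eq, Finset.mem_univ, if_true]
    rw [← h]
    simp [hB]
  have hall : ∀ w : W, (B.det * s) • w = 0 := fun w => by
    rw [← smul_smul]
    have hle : Submodule.span T (Set.range x) ≤ LinearMap.ker (LinearMap.lsmul T W B.det) :=
      Submodule.span_le.mpr (Set.range_subset_iff.mpr hdet)
    exact hle (hspan w)
  have h0 := hann _ hall
  have hdetχ : χ B.det = (χ s * ((p ^ k : ℕ) : ZMod (p ^ M))) ^ d := by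
    rw [RingHom.map_det, RingHom.mapMatrix_apply]
    have : B.map χ = Matrix.diagonal fun _ => χ s * ((p ^ k : ℕ) : ZMod (p ^ M)) := by
      ext i j
      rcases eq_or_ne i j with rfl | h
      · simp [B, RingHom.mem_ker.mp (ha i i)]
      · simp [B, h, RingHom.mem_ker.mp (ha i j)]
    rw [this, Matrix.det_diagonal, Finset.prod_const, Finset.card_univ, Fintype.card_fin]
  rw [map_mul, hdetχ, mul_pow, mul_right_comm, ← pow_succ, (hs.pow _).mul_right_eq_zero,
    ← Nat.cast_pow, ZMod.natCast_eq_zero_iff, ← pow_mul] at h0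
  exact (Nat.pow_dvd_pow_iff_le_right hp.out.one_lt).mp h0

/-- Nakayama: generators modulo `p` after multiplication by a unit of the eigen system generate
after localisation. -/
theorem exists_smul_mem_span [Fact p.Prime] [Module.Finite T W] (χ : T →+* ZMod (p ^ M))
    (x : Fin d → W) {e : T} (he : IsUnit (χ e))
    (hmod : ∀ w : W, ∃ v ∈ Submodule.span T (Set.range x), ∃ r : W,
      e • w = v + (p : T) • r) :
    ∃ s : T, IsUnit (χ s) ∧ ∀ w : W, s • w ∈ Submodule.span T (Set.range x) := by
  set P := Submodule.span T (Set.range x)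
  set J : Ideal T := RingHom.ker χ ⊔ Ideal.span {(p : T)}
  obtain ⟨z, hz⟩ := ZMod.intCast_surjective ((he.unit⁻¹ : (ZMod (p ^ M))ˣ) : ZMod (p ^ M))
  have h1 : 1 - (z : T) * e ∈ J := Ideal.mem_sup_left (by
    rw [RingHom.mem_ker, map_sub, map_one, map_mul, map_intCast, hz, IsUnit.val_inv_mul, sub_self])
  have hle : (⊤ : Submodule T (W ⧸ P)) ≤ J • ⊤ := fun q _ => by
    obtain ⟨w, rfl⟩ := Submodule.mkQ_surjective P q
    obtain ⟨v, hv, r, hr⟩ := hmod w
    have e1 : P.mkQ w = (1 - (z : T) * e) • P.mkQ w + ((z : T) * p) • P.mkQ r := by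
      have hv0 : P.mkQ v = 0 := (Submodule.Quotient.mk_eq_zero P).mpr hv
      have h2 : P.mkQ (e • w) = (p : T) • P.mkQ r := by rw [hr, map_add, hv0, zero_add, map_smul]
      rw [map_smul] at h2
      rw [sub_smul, one_smul, mul_smul, mul_smul, h2, sub_add_cancel]
    rw [e1]
    exact add_mem (Submodule.smul_mem_smul h1 Submodule.mem_top)
      (Submodule.smul_mem_smul (Ideal.mul_mem_left _ _
        (Ideal.mem_sup_right (Ideal.mem_span_singleton_self _))) Submodule.mem_top)
  obtain ⟨s, hs1, hs⟩ := Submodule.exists_sub_one_mem_and_smul_eq_zero_of_fg_of_le_smul J ⊤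
    Module.Finite.fg_top hle
  refine ⟨s, ?_, fun w => ?_⟩
  · obtain ⟨a, ha, b, hb, hab⟩ := Submodule.mem_sup.mp hs1
    obtain ⟨c, rfl⟩ := Ideal.mem_span_singleton.mp hb
    have hnil : IsNilpotent ((p : ZMod (p ^ M)) * χ c) := ⟨M, by
      rw [mul_pow, ← Nat.cast_pow, ZMod.natCast_self, zero_mul]⟩
    have : χ s = 1 + (p : ZMod (p ^ M)) * χ c := by
      have h := congrArg χ hab
      rw [map_add, RingHom.mem_ker.mp ha, zero_add, map_mul, map_natCast, map_sub, map_one] at h
      rw [h]; ring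
    rw [this]
    exact IsNilpotent.isUnit_one_add hnil
  · exact (Submodule.Quotient.mk_eq_zero P).mp
      (by simpa using hs (P.mkQ w) Submodule.mem_top)

end Bound

section Lattice

variable {T L : Type*} [CommRing T] [AddCommGroup L] [Module.Free ℤ L] [Module.Finite ℤ L]
  {p M d k : ℕ}

/-- The transposed action on the dual lattice. -/
def dualRep (ρ : T →+* Module.End ℤ L) : T →+* Module.End ℤ (Module.Dual ℤ L) where
  toFun t := (ρ t).dualMap
  map_one' := by rw [map_one]; exact LinearMap.dualMap_id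
  map_mul' a b := by
    rw [mul_comm, map_mul]
    exact LinearMap.ext fun f => LinearMap.ext fun v => rfl
  map_zero' := by rw [map_zero]; exact map_zero Module.Dual.transpose
  map_add' a b := by rw [map_add]; exact map_add Module.Dual.transpose _ _

/-- The bound: for `k * d < M` the `χ`-eigenvectors in `L/p^M L` are not killed by `p^k`. -/
theorem exists_eigenvector_mod_pow [Fact p.Prime] (ρ : T →+* Module.End ℤ L)
    (χ : T →+* ZMod (p ^ M)) (hann : ∀ a, ρ a = 0 → χ a = 0) {e : T} (he : IsUnit (χ e))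
    (y : Fin d → L) (hrank : ∀ v : L, ∃ c : Fin d → ℤ, ∃ r : L,
      ρ e v = ∑ j, c j • y j + (p : ℤ) • r)
    (hk : k * d < M) :
    ∃ x : L, (∀ (t : T) (z : ℤ), χ t = z → ∃ r : L, ρ t x - z • x = ((p : ℤ) ^ M) • r) ∧
      ¬ ∃ r : L, ((p : ℤ) ^ k) • x = ((p : ℤ) ^ M) • r := by
  classical
  have hp : p.Prime := Fact.out
  let b := Module.Free.chooseBasis ℤ L
  letI : Module T (Module.Dual ℤ L) := Module.compHom _ (dualRep ρ)
  have smul_def : ∀ (t : T) (f : Module.Dual ℤ L) (v : L), (t • f) v = f (ρ t v) :=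
    fun _ _ _ => rfl
  haveI : IsScalarTower ℤ T (Module.Dual ℤ L) := ⟨fun z t f => LinearMap.ext fun v => by
    rw [smul_def, map_zsmul, LinearMap.smul_apply, LinearMap.smul_apply, map_zsmul, smul_def]⟩
  haveI : Module.Finite T (Module.Dual ℤ L) := Module.Finite.of_restrictScalars_finite ℤ T _
  -- generators of `e • Dual` modulo `p`
  choose c r hcr using fun i => hrank (b i)
  let γ : Fin d → Module.Dual ℤ L := fun j => b.constr ℤ fun i => c i j
  have hmod : ∀ f : Module.Dual ℤ L, ∃ v ∈ Submodule.span T (Set.range γ), ∃ g : Module.Dual ℤ L,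
      e • f = v + (p : T) • g := by
    refine fun f => ⟨∑ j, (f (y j) : T) • γ j,
      sum_mem fun j _ => Submodule.smul_mem _ _ (Submodule.subset_span ⟨j, rfl⟩),
      b.constr ℤ fun i => f (r i), b.ext fun i => ?_⟩
    rw [smul_def, hcr, LinearMap.add_apply, LinearMap.sum_apply, map_add, map_sum, smul_def,
      map_natCast, Module.End.natCast_apply, map_nsmul, Module.Basis.constr_basis, map_zsmul,
      natCast_zsmul]
    congr 1
    refine Finset.sum_congr rfl fun j _ => ?_
    rw [smul_def, map_intCast, Module.End.intCast_apply, map_zsmul, map_zsmul,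
      Module.Basis.constr_basis, smul_eq_mul, smul_eq_mul, mul_comm]
  obtain ⟨s, hs, hspan⟩ := exists_smul_mem_span χ γ he hmod
  have hnot : ¬ ∀ f : Module.Dual ℤ L,
      ((p ^ k : ℕ) : T) • f ∈ RingHom.ker χ • (⊤ : Submodule T (Module.Dual ℤ L)) := fun h =>
    absurd (le_mul_of_pow_smul_mem χ (fun a ha => hann a (LinearMap.ext fun v => by
      refine b.ext_elem fun i => ?_
      have := LinearMap.congr_fun (ha (b.coord i)) v
      simpa [smul_def] using this)) γ hs hspan h) (not_le.mpr hk)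
  obtain ⟨w, hw⟩ := not_forall.mp hnot
  -- a character of the quotient
  set S := RingHom.ker χ • (⊤ : Submodule T (Module.Dual ℤ L))
  obtain ⟨φ, hφ⟩ := CharacterModule.exists_character_apply_ne_zero_of_ne_zero
    (a := S.mkQ (((p ^ k : ℕ) : T) • w)) fun h => hw ((Submodule.Quotient.mk_eq_zero S).mp h)
  let θ : Module.Dual ℤ L →+ AddCircle (1 : ℚ) := φ.comp S.mkQ.toAddMonoidHom
  have hθ : ∀ a ∈ RingHom.ker χ, ∀ f, θ (a • f) = 0 := fun a ha f => by
    show φ (S.mkQ (a • f)) = 0
    rw [show S.mkQ (a • f) = 0 from (Submodule.Quotient.mk_eq_zero S).mpr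
      (Submodule.smul_mem_smul ha Submodule.mem_top)]
    exact map_zero φ
  have hpM : ((p : ℚ) ^ M) ≠ 0 := pow_ne_zero _ (Nat.cast_ne_zero.mpr hp.ne_zero)
  have hlift : ∀ i, ∃ z : ℤ, θ (b.coord i) = (((z : ℚ) / (p : ℚ) ^ M : ℚ) : AddCircle (1 : ℚ)) := by
    intro i
    obtain ⟨q, hq⟩ := QuotientAddGroup.mk'_surjective _ (θ (b.coord i))
    have h0 : (p ^ M) • θ (b.coord i) = 0 := by
      rw [← map_nsmul, show (p ^ M) • b.coord i = ((p ^ M : ℕ) : T) • b.coord i from
        LinearMap.ext fun v => by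
          rw [smul_def, map_natCast, Module.End.natCast_apply, map_nsmul, LinearMap.smul_apply],
        hθ _ (by rw [RingHom.mem_ker, map_natCast, ZMod.natCast_self])]
    rw [← hq] at h0 ⊢
    obtain ⟨z, hz⟩ := (AddCircle.coe_eq_zero_iff (1 : ℚ)).mp h0
    refine ⟨z, congrArg _ ?_⟩
    rw [eq_div_iff hpM]
    simp only [zsmul_eq_mul, mul_one, nsmul_eq_mul, Nat.cast_pow] at hz
    linarith
  choose z hz using hlift
  refine ⟨∑ i, z i • b i, ?_, ?_⟩ <;> set x := ∑ i, z i • b i with hx
  all_goals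
    have hval : ∀ f : Module.Dual ℤ L,
        θ f = ((((f x : ℤ) : ℚ) / (p : ℚ) ^ M : ℚ) : AddCircle (1 : ℚ)) := fun f => by
      conv_lhs => rw [← b.sum_dual_apply_smul_coord f]
      rw [map_sum, hx, map_sum, Int.cast_sum, Finset.sum_div]
      refine Eq.trans ?_ (map_sum (QuotientAddGroup.mk' (AddSubgroup.zmultiples (1 : ℚ))) _ _).symm
      refine Finset.sum_congr rfl fun i _ => ?_
      rw [map_zsmul, hz, map_zsmul, smul_eq_mul, Int.cast_mul, mul_comm (z i : ℚ), mul_div_assoc,
        ← AddCircle.coe_zsmul, zsmul_eq_mul]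
      rfl
  · intro t m hm
    have hi : ∀ i, ((p : ℤ) ^ M) ∣ b.repr (ρ t x - m • x) i := fun i => by
      have h0 : θ ((t - (m : T)) • b.coord i) = 0 :=
        hθ _ (by rw [RingHom.mem_ker, map_sub, map_intCast, hm, sub_self]) _
      rw [hval] at h0
      obtain ⟨n, hn⟩ := (AddCircle.coe_eq_zero_iff (1 : ℚ)).mp h0
      rw [smul_def, map_sub, LinearMap.sub_apply, map_intCast, Module.End.intCast_apply,
        zsmul_eq_mul, mul_one, eq_div_iff hpM, b.coord_apply] at hn
      exact ⟨n, by rw [mul_comm]; exact_mod_cast hn.symm⟩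
    choose g hg using hi
    refine ⟨∑ i, g i • b i, b.ext_elem fun i => ?_⟩
    rw [hg i, map_zsmul, Finsupp.smul_apply, smul_eq_mul, b.repr_sum_self]
  · rintro ⟨r, hr⟩
    refine hφ (Eq.trans (hval _) ?_)
    rw [smul_def, map_natCast, Module.End.natCast_apply, ← natCast_zsmul, Nat.cast_pow, hr,
      map_zsmul, smul_eq_mul, Int.cast_mul, Int.cast_pow, Int.cast_natCast, mul_div_cancel_left₀ _ hpM]
    exact (AddCircle.coe_eq_zero_iff (1 : ℚ)).mpr ⟨w r, by simp⟩

end Lattice

end Fermat.Agent.Residual.Fitting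

end
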