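/-
Residual modularity at three: torsion points from congruences.
-/
import Fermat.Agent.Residual.Defs
import Fermat.Agent.Residual.EigenSystem
import Fermat.Agent.Residual.FittingBound
import Fermat.Agent.Torsion.Main

set_option autoImplicit false

noncomputable section

namespace Fermat.Agent.Residual

local notation "Qbar" => AlgebraicClosure ℚ
local notation "Γℚ" => (AlgebraicClosure ℚ ≃ₐ[ℚ] AlgebraicClosure ℚ)

open CongruenceSubgroup ModularCurve CuspForm Fermat.Agent.HeckeCohom Eigen2 in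
/-- An integral vector in the lattice of signs that is an eigenvector modulo `2 ^ M` gives a
torsion class with that system. -/
theorem exists_torsion_of_eigenvector {N : ℕ} [NeZero N] {ε : ℕ → ℤ} {M k : ℕ} (a : ℕ → ℤ)
    (x : signLattice N ε)
    (hx : ∀ (ℓ : ℕ) (hℓ : ℓ.Prime) (h : ¬ ℓ ∣ N), ∃ r : signLattice N ε,
      signRep N ε (CuspForm.heckeAlgebra.T hℓ h (Set.notMem_empty ℓ)) x - a ℓ • x =
        ((2 : ℤ) ^ M) • r)
    (hk : ¬ ∃ r : signLattice N ε, ((2 : ℤ) ^ k) • x = ((2 : ℤ) ^ M) • r) :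
    HasEigenTorsion N (k + 1) (fun _ => True) a := by
  classical
  have : NeZero (2 ^ M) := ⟨pow_ne_zero M two_ne_zero⟩
  let coords := ParHom.parEquiv (ParHom.neg_one_mem_Gamma0 N) ℤ (ZMod (2 ^ M))
  let φ : Torsion.CharMod N (2 ^ M) :=
    coords.symm fun i => (((x : Fin (rk N) → ℤ) i : ℤ) : ZMod (2 ^ M))
  have hφ : ∀ i, (φ : Additive (Gamma0 N) →+ ZMod (2 ^ M)) (Additive.ofMul (gen N i)) =
      (((x : Fin (rk N) → ℤ) i : ℤ) : ZMod (2 ^ M)) :=
    fun i => congrFun (coords.apply_symm_apply _) i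
  let X : JZero N := (Torsion.torsionEquiv N (2 ^ M) φ : Torsion.jTorsion N (2 ^ M))
  have hXM : (2 ^ M : ℕ) • X = 0 :=
    Torsion.mem_jTorsion.mp (Torsion.torsionEquiv N (2 ^ M) φ).2
  have hsmul : ∀ n : ℕ, n • X = 0 → ∀ i, ((2 ^ M : ℕ) : ℤ) ∣ (n : ℤ) * (x : Fin (rk N) → ℤ) i := by
    intro n hn i
    have h0 : n • φ = 0 := by
      apply (Torsion.torsionEquiv N (2 ^ M)).injective
      rw [map_nsmul, map_zero]
      exact Subtype.ext hn
    have h1 := DFunLike.congr_fun (congrArg Subtype.val h0) (Additive.ofMul (gen N i))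
    rw [← ZMod.intCast_zmod_eq_zero_iff_dvd, Int.cast_mul, Int.cast_natCast, ← hφ i]
    simpa [nsmul_eq_mul] using h1
  have hXk : (2 ^ k : ℕ) • X ≠ 0 := by
    intro h0
    have hdiv : ∀ i, ((2 : ℤ) ^ M) ∣ (2 : ℤ) ^ k * (x : Fin (rk N) → ℤ) i := fun i => by
      have h := hsmul _ h0 i
      push_cast at h
      exact h
    choose r hr using hdiv
    have hmem : r ∈ signLattice N ε := by
      rw [mem_signLattice_iff]
      intro j
      have e1 : ((2 : ℤ) ^ M) • r = ((2 : ℤ) ^ k) • (x : Fin (rk N) → ℤ) :=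
        funext fun i => by simp [hr i]
      have e2 : ((2 : ℤ) ^ M) • (signEq N ε j).mulVec r = 0 := by
        rw [← Matrix.mulVec_smul, e1, Matrix.mulVec_smul, mem_signLattice_iff.mp x.2 j, smul_zero]
      exact (smul_eq_zero.mp e2).resolve_left (pow_ne_zero _ two_ne_zero)
    exact hk ⟨⟨r, hmem⟩, Subtype.ext (funext fun i => by simp [hr i])⟩
  have hT : ∀ ℓ : Nat.Primes, ¬ (ℓ : ℕ) ∣ N → heckeOperatorBar N ℓ X = a ℓ • X := by
    intro ℓ hN
    show heckeOperatorBar N ℓ (Torsion.torsionEquiv N (2 ^ M) φ : JZero N) = _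
    rw [Torsion.heckeOperatorBar_torsionEquiv]
    have e : Torsion.heckeChar N (2 ^ M) ℓ φ = a ℓ • φ := by
      have hT' : heckeAct N ℤ (ZMod (2 ^ M))
          (CuspForm.heckeAlgebra.T ℓ.2 hN (Set.notMem_empty _)) =
          Torsion.heckeChar N (2 ^ M) ℓ := heckeAct_T ℤ (ZMod (2 ^ M)) ℓ.2 hN _
      rw [← hT']
      apply coords.injective
      funext i
      rw [map_zsmul, Pi.smul_apply]
      show (heckeAct N ℤ (ZMod (2 ^ M)) _ φ : Additive (Gamma0 N) →+ ZMod (2 ^ M))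
          (Additive.ofMul (gen N i)) =
        a ℓ • (φ : Additive (Gamma0 N) →+ ZMod (2 ^ M)) (Additive.ofMul (gen N i))
      rw [heckeAct_gen]
      simp only [hφ, zsmul_eq_mul, ← Int.cast_mul, ← Int.cast_sum]
      rw [← sub_eq_zero, ← Int.cast_sub, ZMod.intCast_zmod_eq_zero_iff_dvd]
      obtain ⟨r, hr⟩ := hx ℓ ℓ.2 hN
      refine ⟨(r : Fin (rk N) → ℤ) i, ?_⟩
      have h := congrFun (congrArg Subtype.val hr) i
      simp only [AddSubgroupClass.coe_sub, Submodule.coe_smul, coe_signRep, Pi.sub_apply,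
        Pi.smul_apply, smul_eq_mul, Matrix.mulVec, dotProduct] at h
      push_cast
      simpa using h
    rw [e, map_zsmul, AddSubgroup.coe_zsmul]
  -- scale to exact order `2 ^ (k + 1)`
  have hex : ∃ s : ℕ, (2 ^ s : ℕ) • X = 0 := ⟨M, hXM⟩
  set s := Nat.find hex
  have hs : (2 ^ s : ℕ) • X = 0 := Nat.find_spec hex
  have hks : k + 1 ≤ s := by
    by_contra hlt
    refine hXk ?_
    rw [show k = (k - s) + s by omega, pow_add, mul_smul, hs, smul_zero]
  refine ⟨inferInstance, (2 ^ (s - (k + 1)) : ℕ) • X, ?_, ?_, fun ℓ hℓ _ => ?_⟩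
  · rw [← mul_smul, ← pow_add, show k + 1 + (s - (k + 1)) = s by omega, hs]
  · rw [← mul_smul, ← pow_add, show k + 1 - 1 + (s - (k + 1)) = s - 1 by omega]
    exact Nat.find_min hex (by omega : s - 1 < s)
  · rw [map_nsmul, hT ℓ fun h => hℓ (h.mul_left 2), smul_comm]

variable {D : Datum} {Q : Finset ℕ} {ε : ℕ → ℤ}

/-- A homomorphism from the Hecke algebra of a pattern modulo `2 ^ M` is realised on a torsion
point of the Jacobian. -/
theorem exists_eigenTorsion (hQ : IsAuxSet D Q) (hε : IsPattern ε) {M r : ℕ} (hM : 1 ≤ M)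
    (φ : patternAlgebra D Q ε →+* ZMod (2 ^ M))
    (hr : Nat.card (patternAlgebra D Q ε ⧸ Ideal.span {(2 : patternAlgebra D Q ε)}) ≤ 2 ^ r)
    (a : ℕ → ℤ)
    (ha : ∀ (ℓ : ℕ) (hℓ : ℓ.Prime) (h : ¬ ℓ ∣ D.auxLevel Q),
      φ (patternT D Q ε hℓ h) = (a ℓ : ZMod (2 ^ M))) :
    ∃ e : ℕ, e ≤ M ∧ M ≤ e * (2 * r) ∧ HasEigenTorsion (D.auxLevel Q) e (fun _ => True) a := by
  classical
  have : NeZero (D.auxLevel Q) := ⟨(auxLevel_pos hQ).ne'⟩
  have hne := Eigen2.nonempty_patternForms hM φ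
  have hfin : (patternForms D Q ε).Finite := Eigen2.finite_signForms.subset
    fun f hf => Eigen2.mem_signForms_of_mem_patternForms hQ hf
  set c := Nat.card (patternForms D Q ε) with hc
  have hc0 : 0 < c := by
    have := hfin.to_subtype
    have := hne.to_subtype
    exact Nat.card_pos
  have hcr : c ≤ r := by
    have h1 := two_pow_le_natCard_patternAlgebra_quotient hQ hε 1
    rw [one_mul, PatternQuot, pow_one] at h1
    exact (Nat.pow_le_pow_iff_right (by norm_num : 1 < 2)).mp (h1.trans hr)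
  obtain ⟨e, he, hout⟩ := Eigen2.exists_separator φ hQ hε hM a ha
  have : Fact (Nat.Prime 2) := ⟨Nat.prime_two⟩
  obtain ⟨m, y, hy⟩ := Eigen2.exists_generators_signRep (p := 2) (ε := ε) Eigen2.twoPrime
    Eigen2.twoPrime_isPrime.ne_top (by exact_mod_cast Eigen2.two_mem_twoPrime) _ hfin le_rfl e hout
  set k := (M - 1) / (2 * c) with hk
  have hkc : k * (2 * c) < M := by
    have := Nat.div_mul_le_self (M - 1) (2 * c)
    rw [← hk] at this
    omega
  obtain ⟨x, hx, hxk⟩ := Fitting.exists_eigenvector_mod_pow (p := 2)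
    (Eigen2.signRep (D.auxLevel Q) ε) (φ.comp (Eigen2.toPattern D Q ε hQ))
    (fun t ht => by rw [RingHom.comp_apply, Eigen2.toPattern_eq_zero hQ ht, map_zero])
    (by rw [map_pow]; exact he.pow m) y hy hkc
  have hMk : M ≤ (k + 1) * (2 * c) := by
    have := Nat.lt_div_mul_add (a := M - 1) (b := 2 * c) (by omega)
    rw [← hk] at this
    rw [add_mul, one_mul]
    omega
  refine ⟨k + 1, ?_, hMk.trans (Nat.mul_le_mul le_rfl (Nat.mul_le_mul le_rfl hcr)),
    exists_torsion_of_eigenvector (M := M) a x (fun ℓ hℓ h => ?_) hxk⟩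
  · have : k ≤ k * (2 * c) := Nat.le_mul_of_pos_right k (by omega)
    omega
  · exact hx _ (a ℓ) (by rw [RingHom.comp_apply, Eigen2.toPattern_T, ha])

end Fermat.Agent.Residual

end
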