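/-
Residual modularity at three: congruences of every precision give modularity.
-/
import Fermat.Agent.Residual.Defs
import Fermat.Agent.Torsion.Main
import Fermat.Agent.Integral.Eigenform

/-!
# From torsion points of every two-adic precision to an eigenform

The Hecke operators away from `2 N` act on the given points of exact order `2 ^ m` through
integers which do not depend on `m`; the resulting character of the Hecke algebra comes from an
eigenform.
-/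

set_option autoImplicit false

noncomputable section

namespace Fermat.Agent.Residual

open ModularCurve CongruenceSubgroup

section EigenChar

variable {N : ℕ} [NeZero N] {S : Set ℕ}

theorem end_add_apply {B : Type*} [AddCommGroup B] (f g : AddMonoid.End B) (b : B) :
    (f + g) b = f b + g b := rfl

/-- The integer by which every member of a sequence of torsion points is multiplied. -/
def ActsBy (x : ∀ m : ℕ, Torsion.jTorsion N (2 ^ m)) (t : CuspForm.heckeAlgebra N 2 S) (c : ℤ) :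
    Prop :=
  ∀ m : ℕ, Torsion.heckeRep N (2 ^ m)
    (Subalgebra.inclusion (CuspForm.heckeAlgebra_mono (Set.empty_subset S)) t) (x m) = c • x m

theorem ActsBy.add {x : ∀ m : ℕ, Torsion.jTorsion N (2 ^ m)}
    {t s : CuspForm.heckeAlgebra N 2 S} {c d : ℤ} (ht : ActsBy x t c) (hs : ActsBy x s d) :
    ActsBy x (t + s) (c + d) := fun m => by
  rw [map_add, map_add, end_add_apply, ht m, hs m, add_zsmul]

theorem ActsBy.mul {x : ∀ m : ℕ, Torsion.jTorsion N (2 ^ m)}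
    {t s : CuspForm.heckeAlgebra N 2 S} {c d : ℤ} (ht : ActsBy x t c) (hs : ActsBy x s d) :
    ActsBy x (t * s) (c * d) := fun m => by
  rw [map_mul, map_mul, AddMonoid.End.coe_mul, Function.comp_apply, hs m, map_zsmul, ht m,
    ← mul_zsmul, mul_comm d c]

theorem ActsBy.unique {x : ∀ m : ℕ, Torsion.jTorsion N (2 ^ m)}
    (hx : ∀ m : ℕ, (2 ^ m : ℕ) • x (m + 1) ≠ 0)
    {t : CuspForm.heckeAlgebra N 2 S} {c d : ℤ} (ht : ActsBy x t c) (hs : ActsBy x t d) :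
    c = d := by
  have key : ∀ m : ℕ, ((2 ^ (m + 1) : ℕ) : ℤ) ∣ c - d := by
    intro m
    have h0 : (c - d) • x (m + 1) = 0 := by rw [sub_zsmul, ← ht, ← hs, add_neg_cancel]
    have hx2 : (2 ^ (m + 1)) • x (m + 1) = 0 :=
      Subtype.ext (by
        rw [AddSubgroupClass.coe_nsmul, ZeroMemClass.coe_zero]
        exact Torsion.mem_jTorsion.1 (x (m + 1)).2)
    have hord : addOrderOf (x (m + 1)) = 2 ^ (m + 1) :=
      haveI : Fact (2 : ℕ).Prime := ⟨Nat.prime_two⟩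
      addOrderOf_eq_prime_pow (hx m) hx2
    rw [← hord]
    exact addOrderOf_dvd_iff_zsmul_eq_zero.2 h0
  by_contra hne
  have hcd : c - d ≠ 0 := sub_ne_zero.2 hne
  have h1 := Int.natAbs_dvd_natAbs.2 (key (c - d).natAbs)
  rw [Int.natAbs_natCast] at h1
  have h2 := Nat.le_of_dvd (Int.natAbs_pos.2 hcd) h1
  have h3 := Nat.lt_two_pow_self (n := (c - d).natAbs + 1)
  omega

/-- Torsion points of every two-adic precision with the eigenvalues `a` give an eigenform. -/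
theorem exists_eigenform_of_torsion (hS : ∀ q : ℕ, q.Prime → q ∣ N → q ∈ S) (a : ℕ → ℤ)
    (x : ∀ m : ℕ, Torsion.jTorsion N (2 ^ m)) (hx : ∀ m : ℕ, (2 ^ m : ℕ) • x (m + 1) ≠ 0)
    (ha : ∀ (m ℓ : ℕ) (hℓ : ℓ.Prime), ℓ ∉ S →
      heckeOperatorBar N ⟨ℓ, hℓ⟩ (x m : JZero N) = a ℓ • (x m : JZero N)) :
    ∃ f : CuspForm (Gamma0 N) 2, f.IsNormalizedEigenform ∧
      ∀ ℓ : ℕ, ℓ.Prime → ℓ ∉ S → ModularFormClass.qCoeff f ℓ = (a ℓ : ℂ) := by
  have hint : ∀ n : ℤ, ActsBy x (n : CuspForm.heckeAlgebra N 2 S) n := fun n m => by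
    rw [map_intCast, map_intCast]
    rfl
  have hgen : ∀ (ℓ : ℕ) (hℓ : ℓ.Prime) (hℓN : ¬ ℓ ∣ N) (hℓS : ℓ ∉ S),
      ActsBy x (CuspForm.heckeAlgebra.T hℓ hℓN hℓS) (a ℓ) := fun ℓ hℓ hℓN hℓS m => by
    rw [show Subalgebra.inclusion (CuspForm.heckeAlgebra_mono (Set.empty_subset S))
        (CuspForm.heckeAlgebra.T hℓ hℓN hℓS : CuspForm.heckeAlgebra N 2 S) =
          CuspForm.heckeAlgebra.T hℓ hℓN (Set.notMem_empty ℓ) from Subtype.ext rfl,
      Torsion.heckeRep_T N _ hℓ hℓN]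
    refine Subtype.ext ?_
    exact (Torsion.coe_heckeTors (2 ^ m) ⟨ℓ, hℓ⟩ (x m)).trans
      ((ha m ℓ hℓ hℓS).trans (AddSubgroupClass.coe_zsmul (x m) (a ℓ)).symm)
  have hex' : ∀ u ∈ CuspForm.heckeAlgebra N 2 S, ∃ (v : CuspForm.heckeAlgebra N 2 S) (c : ℤ),
      v.val = u ∧ ActsBy x v c := by
    intro u hu
    induction hu using Algebra.adjoin_induction with
    | mem u hu =>
      rcases hu with ⟨ℓ, hℓ, hℓN, hℓS, rfl⟩ | ⟨q, hqN, hq, hqS, rfl⟩
      · exact ⟨_, a ℓ, CuspForm.heckeAlgebra.coe_T hℓ hℓN hℓS, hgen ℓ hℓ hℓN hℓS⟩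
      · exact absurd (hS q hq hqN) hqS
    | algebraMap n =>
      exact ⟨n, n, by simp, hint n⟩
    | add t s _ _ iht ihs =>
      obtain ⟨v, c, hv, hc⟩ := iht
      obtain ⟨w, d, hw, hd⟩ := ihs
      exact ⟨v + w, c + d, by rw [← hv, ← hw]; exact Subalgebra.coe_add _ v w, hc.add hd⟩
    | mul t s _ _ iht ihs =>
      obtain ⟨v, c, hv, hc⟩ := iht
      obtain ⟨w, d, hw, hd⟩ := ihs
      exact ⟨v * w, c * d, by rw [← hv, ← hw]; exact Subalgebra.coe_mul _ v w, hc.mul hd⟩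
  have hex : ∀ t : CuspForm.heckeAlgebra N 2 S, ∃ c, ActsBy x t c := fun t => by
    obtain ⟨v, c, hv, hc⟩ := hex' t.1 t.2
    exact ⟨c, (Subtype.ext hv : v = t) ▸ hc⟩
  choose χ hχ using hex
  have h1' := hint 1
  rw [Int.cast_one] at h1'
  have h0' := hint 0
  rw [Int.cast_zero] at h0'
  have e1 : χ 1 = 1 := ActsBy.unique hx (hχ 1) h1'
  have e2 : ∀ t s, χ (t * s) = χ t * χ s := fun t s =>
    ActsBy.unique hx (hχ _) ((hχ t).mul (hχ s))
  have e3 : χ 0 = 0 := ActsBy.unique hx (hχ 0) h0'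
  have e4 : ∀ t s, χ (t + s) = χ t + χ s := fun t s =>
    ActsBy.unique hx (hχ _) ((hχ t).add (hχ s))
  let χ' : CuspForm.heckeAlgebra N 2 S →+* ℤ := RingHom.mk ⟨⟨χ, e1⟩, e2⟩ e3 e4
  obtain ⟨g, hg, hgχ⟩ := Integral.exists_eigenform_of_ringHom ((Int.castRingHom ℂ).comp χ')
  refine ⟨g, hg, fun ℓ hℓ hℓS => ?_⟩
  have hℓN : ¬ ℓ ∣ N := fun h => hℓS (hS ℓ hℓ h)
  rw [← Eigen.eigenChar_T hg hℓ hℓN hℓS, hgχ]
  show ((χ _ : ℤ) : ℂ) = _
  rw [ActsBy.unique hx (hχ _) (hgen ℓ hℓ hℓN hℓS)]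

end EigenChar

/-- A curve whose Hecke system occurs on the torsion of `J₀(N)` to every two-adic precision is
modular of level `N`. -/
theorem isModularModelOfLevel_of_hasSystem {W : WeierstrassCurve ℤ} (hW : IsDihedralCurve W)
    (h : ∀ m : ℕ, 1 ≤ m → HasSystem W W.conductorLevel m) :
    W.IsModularModelOfLevel W.conductorLevel := by
  classical
  obtain ⟨inst, -⟩ := h 1 le_rfl
  have := inst
  set N := W.conductorLevel
  let S : Set ℕ := {q | q ∣ 2 * N ∨ ¬ W.IsGoodPrimeFor q}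
  have hex : ∀ m : ℕ, ∃ x : Torsion.jTorsion N (2 ^ m),
      (1 ≤ m → (2 ^ (m - 1) : ℕ) • x ≠ 0) ∧ ∀ (ℓ : ℕ) (hℓ : ℓ.Prime), ℓ ∉ S →
        heckeOperatorBar N ⟨ℓ, hℓ⟩ (x : JZero N) = W.apOfModel ℓ • (x : JZero N) := by
    intro m
    rcases Nat.eq_zero_or_pos m with rfl | hm
    · exact ⟨0, fun h0 => absurd h0 (by omega), fun ℓ hℓ _ => by simp⟩
    · obtain ⟨_, y, hy1, hy2, hy3⟩ := h m hm
      refine ⟨⟨y, Torsion.mem_jTorsion.2 hy1⟩, fun _ h0 => hy2 ?_, fun ℓ hℓ hℓS => ?_⟩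
      · simpa using congrArg (Subtype.val) h0
      · simp only [S, Set.mem_ofPred_eq, not_or, not_not] at hℓS
        exact hy3 ⟨ℓ, hℓ⟩ hℓS.1 hℓS.2
  choose x hx1 hx2 using hex
  obtain ⟨f, hf, hfa⟩ := exists_eigenform_of_torsion (S := S)
    (fun q _ hq => Or.inl (hq.mul_left 2)) W.apOfModel x
    (fun m => by simpa using hx1 (m + 1) (by omega)) hx2
  refine ⟨f, hf, fun p hp hgood hpN => hfa p hp ?_⟩
  simp only [S, Set.mem_ofPred_eq, not_or, not_not]
  refine ⟨fun h2 => ?_, hgood⟩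
  rcases hp.dvd_mul.1 h2 with h2' | h2'
  · rw [(Nat.prime_dvd_prime_iff_eq hp Nat.prime_two).1 h2'] at hgood
    exact hgood hW.two_dvd
  · exact hpN h2'

end Fermat.Agent.Residual

end
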