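/-
Mazur's principle modulo powers of two: two data of the same curve have the same kernel, and a
good prime has odd trace.
-/
import Fermat.Agent.Residual.Defs
import Fermat.Agent.Density.Main
import Fermat.Agent.RepLemmas.Morita

set_option autoImplicit false

noncomputable section

open Matrix

namespace Fermat.Agent.Residual.Lower

local notation "Qbar" => AlgebraicClosure ℚ
local notation "Γℚ" => (AlgebraicClosure ℚ ≃ₐ[ℚ] AlgebraicClosure ℚ)

theorem det_eq_one_zmod_two (g : GL (Fin 2) (ZMod 2)) :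
    (g : Matrix (Fin 2) (Fin 2) (ZMod 2)).det = 1 := by
  have h : ∀ x : ZMod 2, x ≠ 0 → x = 1 := by decide
  exact h _ ((g.isUnit.map (Matrix.detMonoidHom (n := Fin 2) (R := ZMod 2))).ne_zero)

/-- The trace of a power only depends on the trace. -/
theorem trace_pow_congr {X Y : Matrix (Fin 2) (Fin 2) (ZMod 2)} (hX : X.det = 1) (hY : Y.det = 1)
    (h : X.trace = Y.trace) (k : ℕ) : (X ^ k).trace = (Y ^ k).trace := by
  have key : ∀ (Z : Matrix (Fin 2) (Fin 2) (ZMod 2)), Z.det = 1 → ∀ i : ℕ,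
      (Z ^ (i + 2)).trace = Z.trace * (Z ^ (i + 1)).trace - (Z ^ i).trace := by
    intro Z hZ i
    have e : Z * Z = Z.trace • Z - (1 : Matrix (Fin 2) (Fin 2) (ZMod 2)) := by
      have h' : Z * Z - Z.trace • Z + Z.det • (1 : Matrix (Fin 2) (Fin 2) (ZMod 2)) = 0 :=
        RepLemmas.quadRel_trace_det_ring Z
      rw [hZ, one_smul] at h'
      rw [← sub_eq_zero, ← h']
      abel
    rw [pow_add, sq, e, Matrix.mul_sub, Matrix.mul_smul, ← pow_succ, mul_one, Matrix.trace_sub,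
      Matrix.trace_smul, smul_eq_mul]
  induction k using Nat.twoStepInduction with
  | zero => rfl
  | one => simpa using h
  | more i h₀ h₁ => rw [key X hX i, key Y hY i, h, h₀, h₁]

theorem trace_eq_of_isDatumOf {W : WeierstrassCurve ℤ} (hΔ : W.Δ ≠ 0) {D D' : Datum}
    (hD : IsDatumOf W D) (hD' : IsDatumOf W D') (g : Γℚ) :
    ((D.ρbar g : Matrix (Fin 2) (Fin 2) (ZMod 2))).trace =
      ((D'.ρbar g : Matrix (Fin 2) (Fin 2) (ZMod 2))).trace := by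
  obtain ⟨F₁, hF₁, h₁⟩ := D.cont
  obtain ⟨F₂, hF₂, h₂⟩ := D'.cont
  haveI := hF₁
  haveI := hF₂
  haveI := IntermediateField.finiteDimensional_sup F₁ F₂
  refine Density.forall_of_frobenius
    (P := fun g => ((D.ρbar g : Matrix (Fin 2) (Fin 2) (ZMod 2))).trace =
      ((D'.ρbar g : Matrix (Fin 2) (Fin 2) (ZMod 2))).trace) (F₁ ⊔ F₂)
    (fun σ τ hστ hσ => ?_) (fun σ k hσ => ?_) (insert 2 W.Δ.natAbs.primeFactors)
    (fun ℓ hℓ hℓS A hA τ hτ => ?_) g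
  · have hfix : ∀ x ∈ F₁ ⊔ F₂, (σ⁻¹ * τ) x = x := fun x hx => by
      rw [AlgEquiv.mul_apply, ← hστ x hx, ← AlgEquiv.mul_apply, inv_mul_cancel, AlgEquiv.one_apply]
    have e : τ = σ * (σ⁻¹ * τ) := by rw [mul_inv_cancel_left]
    have e₁ : D.ρbar τ = D.ρbar σ := by
      rw [e, map_mul, h₁ _ ((IntermediateField.mem_fixingSubgroup_iff _ _).2
        fun x hx => hfix x (SetLike.le_def.1 le_sup_left hx)), mul_one]
    have e₂ : D'.ρbar τ = D'.ρbar σ := by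
      rw [e, map_mul, h₂ _ ((IntermediateField.mem_fixingSubgroup_iff _ _).2
        fun x hx => hfix x (SetLike.le_def.1 le_sup_right hx)), mul_one]
    show _ = _
    rw [e₁, e₂]
    exact hσ
  · show _ = _
    rw [map_pow, map_pow, Units.val_pow_eq_pow_val, Units.val_pow_eq_pow_val]
    exact trace_pow_congr (det_eq_one_zmod_two _) (det_eq_one_zmod_two _) hσ k
  · rw [Finset.mem_insert, not_or, Nat.mem_primeFactors] at hℓS
    have hg : W.IsGoodPrimeFor ℓ := fun h =>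
      hℓS.2 ⟨hℓ, Int.natCast_dvd.1 h, Int.natAbs_ne_zero.2 hΔ⟩
    exact (hD.trace ℓ hℓ hℓS.1 hg A hA τ hτ).trans (hD'.trace ℓ hℓ hℓS.1 hg A hA τ hτ).symm

/-- The kernel of a surjective representation to `GL₂(𝔽₂)` is seen by the traces. -/
theorem eq_one_iff_trace {G : Type*} [Group G] (ρ : G →* GL (Fin 2) (ZMod 2))
    (hρ : Function.Surjective ρ) (g : G) :
    ρ g = 1 ↔ ∀ h : G, ((ρ (g * h) : Matrix (Fin 2) (Fin 2) (ZMod 2))).trace =
      ((ρ h : Matrix (Fin 2) (Fin 2) (ZMod 2))).trace := by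
  refine ⟨fun e h => by rw [map_mul, e, one_mul], fun e => Units.ext ?_⟩
  have hsq : ∀ X : Matrix (Fin 2) (Fin 2) (ZMod 2),
      X = !![1, 1; 0, 1] ∨ X = !![1, 0; 1, 1] → X * X = 1 := by
    rintro X (rfl | rfl) <;> decide
  obtain ⟨h₁, e₁⟩ := hρ ⟨!![1, 1; 0, 1], !![1, 1; 0, 1], hsq _ (Or.inl rfl), hsq _ (Or.inl rfl)⟩
  obtain ⟨h₂, e₂⟩ := hρ ⟨!![1, 0; 1, 1], !![1, 0; 1, 1], hsq _ (Or.inr rfl), hsq _ (Or.inr rfl)⟩
  have k0 := e 1
  have k1 := e h₁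
  have k2 := e h₂
  have hd := det_eq_one_zmod_two (ρ g)
  rw [map_mul, map_one, mul_one] at k0
  rw [map_mul, Units.val_mul, e₁] at k1
  rw [map_mul, Units.val_mul, e₂] at k2
  simp only [Units.val_mk, Units.val_one] at k0 k1 k2
  rw [Matrix.det_fin_two] at hd
  rw [Units.val_one]
  rw [Matrix.eta_fin_two (ρ g : Matrix (Fin 2) (Fin 2) (ZMod 2))] at k0 k1 k2 ⊢
  revert k0 k1 k2 hd
  generalize (ρ g : Matrix (Fin 2) (Fin 2) (ZMod 2)) 0 0 = a
  generalize (ρ g : Matrix (Fin 2) (Fin 2) (ZMod 2)) 0 1 = b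
  generalize (ρ g : Matrix (Fin 2) (Fin 2) (ZMod 2)) 1 0 = c
  generalize (ρ g : Matrix (Fin 2) (Fin 2) (ZMod 2)) 1 1 = d
  revert a b c d
  simp only [Matrix.trace_fin_two, Matrix.mul_apply, Fin.sum_univ_two, ← Matrix.ext_iff, Fin.forall_fin_two, Matrix.one_apply]
  decide

theorem ρbar_eq_one_iff {W : WeierstrassCurve ℤ} (hΔ : W.Δ ≠ 0) {D D' : Datum}
    (hD : IsDatumOf W D) (hD' : IsDatumOf W D') (g : Γℚ) : D.ρbar g = 1 ↔ D'.ρbar g = 1 := by
  rw [eq_one_iff_trace D.ρbar D.surj, eq_one_iff_trace D'.ρbar D'.surj]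
  simp_rw [trace_eq_of_isDatumOf hΔ hD hD']

/-- A good prime with odd trace of Frobenius. -/
theorem exists_odd_trace {W : WeierstrassCurve ℤ} (hΔ : W.Δ ≠ 0) {D : Datum}
    (hD : IsDatumOf W D) {R : ℕ} (hR : R ≠ 0) :
    ∃ l : Nat.Primes, ¬ (l : ℕ) ∣ R ∧ Odd (W.apOfModel l - (l : ℕ) - 1) := by
  obtain ⟨F, hF, hfix⟩ := D.cont
  haveI := hF
  obtain ⟨g, hg⟩ := D.surj ⟨!![1, 1; 1, 0], !![0, 1; 1, 1], by decide, by decide⟩
  obtain ⟨ℓ, hℓ, hℓS, A, hA, τ, hτ, ⟨k, hk⟩, -⟩ :=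
    Density.exists_frobenius_pow g F (insert 2 ((W.Δ.natAbs).primeFactors ∪ R.primeFactors))
  simp only [Finset.mem_insert, Finset.mem_union, Nat.mem_primeFactors, not_or] at hℓS
  obtain ⟨hℓ2, hℓΔ, hℓR⟩ := hℓS
  have e : D.ρbar g = D.ρbar τ ^ k := by
    rw [← map_pow]
    have h := hfix ((τ ^ k)⁻¹ * g) ((IntermediateField.mem_fixingSubgroup_iff _ _).2 fun x hx => by
      rw [AlgEquiv.mul_apply, hk x hx, ← AlgEquiv.mul_apply, inv_mul_cancel, AlgEquiv.one_apply])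
    rw [map_mul, map_inv, inv_mul_eq_one] at h
    exact h.symm
  have hgood : W.IsGoodPrimeFor ℓ := fun h =>
    hℓΔ ⟨hℓ, Int.natCast_dvd.1 h, Int.natAbs_ne_zero.2 hΔ⟩
  have hodd : (W.apOfModel ℓ : ZMod 2) = 1 := by
    rw [← hD.trace ℓ hℓ hℓ2 hgood A hA τ hτ]
    by_contra hne
    have h0 : ((D.ρbar τ : Matrix (Fin 2) (Fin 2) (ZMod 2))).trace =
        (1 : Matrix (Fin 2) (Fin 2) (ZMod 2)).trace := by
      have hall : ∀ x : ZMod 2, x ≠ 1 → x = 0 := by decide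
      rw [hall _ hne]
      decide
    have h1 := trace_pow_congr (det_eq_one_zmod_two _) Matrix.det_one h0 k
    rw [← Units.val_pow_eq_pow_val, ← e, one_pow, hg] at h1
    revert h1
    simp only [Units.val_mk]
    decide
  refine ⟨⟨ℓ, hℓ⟩, fun h => hℓR ⟨hℓ, h, hR⟩, ?_⟩
  have h2 : ((W.apOfModel ℓ - (ℓ : ℕ) - 1 : ℤ) : ZMod 2) = 1 := by
    push_cast
    rw [hodd, show ((ℓ : ℕ) : ZMod 2) = 1 from ?_]
    · decide
    · exact ZMod.natCast_eq_one_iff_odd.2 (hℓ.odd_of_ne_two hℓ2)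
  exact ZMod.intCast_eq_one_iff_odd.1 h2

end Fermat.Agent.Residual.Lower

end
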