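/-
Mazur's principle modulo powers of two: the singular points of the special fibre of `X₀(M q)` at
`q` are ordinary double points joining the two components.
-/
import Fermat.Agent.BadReduction.X0Conductor
import Fermat.Agent.Residual.LowerGluing
import Fermat.Agent.Residual.LowerSeparate
import Fermat.Agent.Mazur.LocalRank

set_option autoImplicit false
set_option linter.style.haveILetI false

noncomputable section

open ModularCurve IsLocalRing AlgebraicCurve
open Fermat.Agent.Curve Fermat.Agent.Bad

namespace Fermat.Agent.Residual.Lower

local notation "ℚbar" => AlgebraicClosure ℚ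

variable {M q : ℕ} [NeZero M] [hq : Fact q.Prime]

local instance neZero_primeCount : NeZero q := ⟨hq.out.ne_zero⟩

/-- The gluing of the special fibre, with every branch glued to the other component and at most
two branches at a point. -/
theorem exists_gluing (hqM : ¬ q ∣ M) (A : ValuationSubring ℚbar) (hA : A.LiesOverPrime q)
    [IsAlgClosed (ResidueField A)] :
    ∃ G : Gluing (BadReduction.x0Reduction hqM A hA), G.IsSeminormal ∧
      (∀ b : ↥G.B, ∃ b' : ↥G.B, G.pt b = G.pt b' ∧
        (b : Σ _ : Fin 2, Place (ResidueField A) (BadReduction.X0Res M A)).1 ≠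
          (b' : Σ _ : Fin 2, Place (ResidueField A) (BadReduction.X0Res M A)).1) ∧
      G.B.card ≤ 2 * Nat.card G.Pt := by
  obtain ⟨B, hreg, hmeets, hZ⟩ := BadReduction.exists_conductor_proof hqM A hA
  exact exists_gluing_of_separates _ (Mazur.rankLeOne_of_liesOverPrime hq.out hA)
    (separates_x0Reduction hqM A hA) B hreg hmeets hZ (Fintype.card_fin 2)

end Fermat.Agent.Residual.Lower

end
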