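/-
Mazur's principle modulo powers of two: the component reduction.

A torsion class on `X₀(M q)` fixed by inertia at `q`, `q ≡ 1 (mod 2 ^ m)`, which is killed by
`T_l - a l`, gives two classes on `X₀(M)` killed by `T_l - a l`; if these are killed by `2 ^ j`,
then `2 ^ (j + 4)` times the class is trivial on both components.
-/
import Fermat.Agent.Residual.LowerCount
import Fermat.Agent.Residual.LowerUnit
import Fermat.Agent.Residual.LowerRep
import Fermat.Agent.Residual.LowerHecke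
import Fermat.Agent.Residual.LowerLift
import Fermat.Agent.Residual.LowerCompRatio
import Fermat.Agent.Residual.LowerCompDescent
import Fermat.Prelude.Def_ModularCurve_HeckeModule

set_option autoImplicit false
set_option linter.style.haveILetI false
set_option synthInstance.maxHeartbeats 400000
set_option maxHeartbeats 1600000

noncomputable section

open ModularCurve IsLocalRing AlgebraicCurve
open Fermat.Agent.Curve Fermat.Agent.Bad Fermat.Agent.BadReduction

namespace Fermat.Agent.Residual.Lower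

local notation "ℚbar" => AlgebraicClosure ℚ

variable {M q : ℕ} [NeZero M] [hq : Fact q.Prime]

local instance neZero_primeComp : NeZero q := ⟨hq.out.ne_zero⟩

/-- **Component reduction.** -/
theorem exists_lowered_classes (hqM : ¬ q ∣ M) (A : ValuationSubring ℚbar)
    (hA : A.LiesOverPrime q) {m : ℕ} (hm : 2 ^ m ∣ q - 1) (a : ℕ → ℤ) (l₀ : Nat.Primes)
    (hl₀ : ¬ (l₀ : ℕ) ∣ M * q) (ha₀ : Odd (a l₀ - (l₀ : ℕ) - 1)) (x : JZero (M * q))
    (hx : (2 ^ m : ℕ) • x = 0) (hI : ∀ σ ∈ A.inertiaSubgroupIn ℚ, σ • x = x)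
    (hT : ∀ l : Nat.Primes, ¬ (l : ℕ) ∣ M * q → heckeOperatorBar (M * q) l x = a l • x) :
    ∃ z : Fin 2 → JZero M,
      (∀ i, (2 ^ (m - 4) : ℕ) • z i = 0) ∧
      (∀ i, ∀ l : Nat.Primes, ¬ (l : ℕ) ∣ M * q → heckeOperatorBar M l (z i) = a l • z i) ∧
      ∀ j : ℕ, (∀ i, (2 ^ j : ℕ) • z i = 0) →
        IsComponentTrivial (x0Reduction hqM A hA) (2 ^ (m - 4)) ((2 ^ (j + 4) : ℕ) • x) := by
  haveI : IsAlgClosed (ResidueField A) := Igusa.isAlgClosed_residueField hqM hA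
  haveI := charP_residueField A hq.out hA
  have hrk := Mazur.rankLeOne_of_liesOverPrime hq.out hA
  by_cases hm5 : m ≤ 4
  · refine ⟨0, fun i => smul_zero _,
      fun i l _ => (map_zero (heckeOperatorBar M l)).trans (smul_zero (a l)).symm,
      fun j _ => ?_⟩
    have h0 : (2 ^ (j + 4) : ℕ) • x = Pic0.mk 0 := by
      obtain ⟨t, ht⟩ := pow_dvd_pow 2 (show m ≤ j + 4 by omega)
      rw [ht, mul_comm (2 ^ m) t, mul_smul, hx, smul_zero, Pic0.mk_zero]
    rw [h0, Nat.sub_eq_zero_of_le hm5, pow_zero]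
    refine isComponentTrivial_of_forall_pow hrk (by simp) 0 (f := 1) one_ne_zero
      (fun v => by simp) fun i => ⟨1, by rw [one_smul]; exact one_mem _, 1, 1, one_ne_zero,
        one_ne_zero, ?_⟩
    rw [map_one, one_pow, mul_one, ← map_one ((x0Reduction hqM A hA).φ i)]
    exact congrArg _ (Subtype.ext (one_smul _ _))
  have hqm : ¬ q ∣ 2 ^ m := fun h => by
    have h2 : q = 2 := (Nat.prime_dvd_prime_iff_eq hq.out Nat.prime_two).1
      (hq.out.dvd_of_dvd_pow h)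
    subst h2
    have h32 : 2 ^ m ≤ 1 := Nat.le_of_dvd one_pos hm
    have h5 : (2 : ℕ) ^ 1 ≤ 2 ^ m := Nat.pow_le_pow_right two_pos (by omega)
    omega
  have hqn : (( 2 ^ (m - 4) : ℕ) : ResidueField A) ≠ 0 := fun h =>
    hqm (((CharP.cast_eq_zero_iff _ q _).1 h).trans (pow_dvd_pow 2 (Nat.sub_le m 4)))
  have hsplit : 2 ^ m = 16 * 2 ^ (m - 4) := by
    rw [show (16 : ℕ) = 2 ^ 4 from rfl, ← pow_add, Nat.add_sub_cancel' (by omega)]
  obtain ⟨σ, hσ, β, ζ, hβ, hζ, hσβ⟩ :=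
    exists_inertia_root hA (n := 2 ^ m) (by positivity) hqm
  obtain ⟨D₀, f, rfl, hf, hgf, hD⟩ :=
    exists_fixed_fun σ (n := 2 ^ m) (by positivity) hx (hI σ hσ)
  obtain ⟨G, hG, hpart, hB⟩ := exists_gluing hqM A hA
  have hg := isInertial_galois hqM A hA hσ
  -- the ratios
  obtain ⟨U, hU0, hUfix, hUdiv, hUc0, hUc1⟩ := exists_unit M q hqM A hA
  obtain ⟨ωU, hωU, hUord⟩ := exists_isRatio_unit hqM A hA hqm hβ hζ hσβ hUc0 hUc1
  obtain ⟨ω, hω, hωn⟩ := exists_isRatio hg (show 0 < 2 ^ m by positivity) hf hgf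
  have hωc := ratio_const hqM A hA hσ (by omega) l₀ hl₀ ha₀ D₀ hf hgf hD hx (hT l₀ hl₀) hωn hω
  have hqz : ((2 ^ m : ℕ) : ℤ) ∣ (q : ℤ) - 1 := by
    rw [← Nat.cast_one, ← Nat.cast_sub hq.out.one_le]
    exact Int.natCast_dvd_natCast.2 hm
  -- the residues
  choose c hc hne using fun i => (x0Reduction hqM A hA).exists_scale i f hf
  have hdiv : ∀ (i : Fin 2) (v : Place (ResidueField A) (X0Res M A)),
      ((2 ^ (m - 4) : ℕ) : ℤ) ∣ v.ord (compPhi hqM A hA i ⟨_, hc i⟩) := by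
    intro i v
    have h := dvd_resOrd G hrk hG hpart hB hg hU0 (hUfix σ) (fun w => hqz.trans (hUdiv w))
      hωU hUord hf hgf (fun w => ⟨_, (hD w).symm⟩) hω hωc i v
    rwa [resOrd_eq v (hc i) (hne i)] at h
  choose D W hW hDtor hDW hW0 heq using fun i =>
    exists_descent hqM A hA hqn i (hc i) (hne i) (hdiv i)
  refine ⟨fun i => Pic0.mk (D i), hDtor, fun i l hl => ?_, fun j hj => ?_⟩
  · haveI : NeZero (l : ℕ) := ⟨l.2.ne_zero⟩
    obtain ⟨a', ha'⟩ : ∃ a' : ℕ, (a l % ((2 ^ m : ℕ) : ℤ)).toNat = a' := ⟨_, rfl⟩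
    have hTl := hT l hl
    rw [zsmul_eq_emod_nsmul (show 0 < 2 ^ m by positivity) hx, ha'] at hTl
    obtain ⟨C, h, hC, hh, hH⟩ := exists_hecke_rel l rfl D₀ hf hD hTl
    rw [zsmul_eq_emod_nsmul (show 0 < 2 ^ m by positivity) (x := Pic0.mk (D i))
      (by rw [hsplit, mul_smul, hDtor i, smul_zero]), ha']
    exact hecke_descent hqM A hA l hl (e := 16) hqn i hC hh (hsplit ▸ hH) (hc i) (hne i) (D i)
      (hW i) (hDW i) (heq i)
  · rw [← pic0_mk_nsmul]
    refine isComponentTrivial_of_forall_pow hrk hqn ((2 ^ (j + 4) : ℕ) • D₀)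
      (f := f ^ (2 ^ j)) (pow_ne_zero _ hf) (fun v => ?_) fun i => ?_
    · show ((2 ^ (m - 4) : ℕ) : ℤ) *
        ((2 ^ (j + 4) : ℕ) • (D₀ : Divisor ℚbar (X0F M q))) v = _
      rw [Finsupp.smul_apply, nsmul_eq_mul, Curve.ord_pow, ← hD v, hsplit]
      push_cast
      ring
    · obtain ⟨b, g, hb, hg0, hbg⟩ := exists_pow_of_killed hqM A hA (D i) (hW i)
        (heq i ▸ hne i) (hDW i) (hj i)
      have hpow : c i ^ 2 ^ j • f ^ 2 ^ j = (c i • f) ^ 2 ^ j := (smul_pow _ _ _).symm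
      refine ⟨c i ^ 2 ^ j, hpow ▸ pow_mem (hc i) _, b, g, hb, hg0, ?_⟩
      refine Eq.trans ?_ hbg
      rw [← heq i]
      exact (congrArg _ (Subtype.ext hpow)).trans
        (map_pow ((x0Reduction hqM A hA).φ i) ⟨_, hc i⟩ (2 ^ j))

end Fermat.Agent.Residual.Lower

end
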