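/-
Mazur's principle modulo powers of two: the torsion classes with a given system of Hecke
eigenvalues carry the representation of that system.
-/
import Fermat.Agent.Torsion.Main
import Fermat.Agent.ES.SpecialMain
import Fermat.Agent.GaloisAdic.Inputs
import Fermat.Agent.RepLemmas.Morita
import Fermat.Agent.Density.Main

set_option autoImplicit false

noncomputable section

open ModularCurve Matrix

namespace Fermat.Agent.Residual.Lower

local notation "ℚbar" => AlgebraicClosure ℚ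
local notation "Γℚ" => (AlgebraicClosure ℚ ≃ₐ[ℚ] AlgebraicClosure ℚ)

section Quad

variable {A B : Type*} [CommRing A] [Ring B] [Algebra A B]

/-- The quadratic relation with the trace and determinant of a matrix is inherited by powers. -/
theorem quadRel_pow_trace_det {a : B} {X : Matrix (Fin 2) (Fin 2) A}
    (h : RepLemmas.QuadRel a X.trace X.det) (k : ℕ) :
    RepLemmas.QuadRel (a ^ k) (X ^ k).trace (X ^ k).det := by
  have ha : a * a = X.trace • a - X.det • (1 : B) := by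
    have h' : a * a - X.trace • a + X.det • (1 : B) = 0 := h
    rw [← sub_eq_zero, ← h']
    abel
  have hX : X * X = X.trace • X - X.det • (1 : Matrix (Fin 2) (Fin 2) A) := by
    have h' : X * X - X.trace • X + X.det • (1 : Matrix (Fin 2) (Fin 2) A) = 0 :=
      RepLemmas.quadRel_trace_det_ring X
    rw [← sub_eq_zero, ← h']
    abel
  obtain ⟨u, v, hu, hv⟩ : ∃ u v : A, a ^ k = u • (1 : B) + v • a ∧
      X ^ k = u • (1 : Matrix (Fin 2) (Fin 2) A) + v • X := by
    induction k with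
    | zero => exact ⟨1, 0, by simp, by simp⟩
    | succ k ih =>
      obtain ⟨u, v, hu, hv⟩ := ih
      refine ⟨-(v * X.det), u + v * X.trace, ?_, ?_⟩
      · rw [pow_succ, hu, add_mul, smul_one_mul, smul_mul_assoc, ha]
        simp only [smul_sub, smul_smul, neg_smul, add_smul]
        abel
      · rw [pow_succ, hv, add_mul, smul_one_mul, smul_mul_assoc, hX]
        simp only [smul_sub, smul_smul, neg_smul, add_smul]
        abel
  have htr : (X ^ k).trace = 2 * u + v * X.trace := by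
    rw [hv, Matrix.trace_fin_two, Matrix.trace_fin_two]
    simp
    ring
  have hdet : (X ^ k).det = u * u + u * v * X.trace + v * v * X.det := by
    rw [hv, Matrix.det_fin_two, Matrix.det_fin_two, Matrix.trace_fin_two]
    simp
    ring
  show a ^ k * a ^ k - (X ^ k).trace • a ^ k + (X ^ k).det • (1 : B) = 0
  rw [hu, htr, hdet]
  simp only [add_mul, mul_add, smul_mul_assoc, mul_smul_comm, one_mul, mul_one, ha, smul_add,
    smul_sub, smul_smul]
  module

end Quad

variable {L R : ℕ} [NeZero L] {n : ℕ} {a : ℕ → ℤ}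

variable (L R n a) in
/-- The classes killed by `n` on which `T_l` acts by `a l` for every prime `l` not dividing `R`. -/
def eigenPart : AddSubgroup (JZero L) where
  carrier := {y | n • y = 0 ∧
    ∀ l : Nat.Primes, ¬ (l : ℕ) ∣ R → heckeOperatorBar L l y = a l • y}
  zero_mem' := ⟨smul_zero _, fun _ _ => by rw [map_zero, smul_zero]⟩
  add_mem' {x y} hx hy :=
    ⟨(nsmul_add x y n).trans (by rw [hx.1, hy.1, add_zero]),
    fun l hl => by rw [map_add, hx.2 l hl, hy.2 l hl]; exact (zsmul_add x y (a l)).symm⟩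
  neg_mem' {x} hx := ⟨by rw [show n • -x = -(n • x) from neg_nsmul x n, hx.1, neg_zero],
    fun l hl => by rw [map_neg, hx.2 l hl]; exact (zsmul_neg x (a l)).symm⟩

theorem mem_eigenPart {y : JZero L} : y ∈ eigenPart L R n a ↔ n • y = 0 ∧
    ∀ l : Nat.Primes, ¬ (l : ℕ) ∣ R → heckeOperatorBar L l y = a l • y := Iff.rfl

theorem galois_mem_eigenPart (σ : Γℚ) {y : JZero L} (hy : y ∈ eigenPart L R n a) :
    σ • y ∈ eigenPart L R n a :=
  ⟨by rw [← ES.galois_smul_nsmul, hy.1, ES.galois_smul_zero],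
    fun l hl => by
      rw [HeckeJ.heckeOperatorBar_galois_smul, hy.2 l hl]
      exact map_zsmul (DistribSMul.toAddMonoidHom (JZero L) σ) (a l) y⟩

instance moduleEigenPart : Module (ZMod n) (eigenPart L R n a) :=
  AddCommGroup.zmodModule fun y => Subtype.ext y.2.1

variable (L R n a) in
/-- The Galois action on `eigenPart`. -/
def eigenGal : Γℚ →* Module.End (ZMod n) (eigenPart L R n a) where
  toFun σ := AddMonoidHom.toZModLinearMap n
    { toFun := fun y => ⟨σ • (y : JZero L), galois_mem_eigenPart σ y.2⟩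
      map_zero' := Subtype.ext (smul_zero σ)
      map_add' := fun x y => Subtype.ext (smul_add σ (x : JZero L) (y : JZero L)) }
  map_one' := LinearMap.ext fun y => Subtype.ext (one_smul Γℚ (y : JZero L))
  map_mul' σ τ := LinearMap.ext fun y => Subtype.ext (mul_smul σ τ (y : JZero L))

theorem coe_eigenGal (σ : Γℚ) (y : eigenPart L R n a) :
    ((eigenGal L R n a σ y : eigenPart L R n a) : JZero L) = σ • (y : JZero L) := rfl

theorem exists_level_eigenGal [NeZero n] :
    ∃ F : IntermediateField ℚ ℚbar, FiniteDimensional ℚ F ∧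
      ∀ σ : Γℚ, (∀ x ∈ F, σ x = x) → eigenGal L R n a σ = 1 := by
  choose K hK hfix using GaloisAdic.exists_finiteDimensional_forall_smul_eq L
  haveI : Finite (eigenPart L R n a) := Finite.of_injective
    (fun y => (⟨(y : JZero L), Torsion.mem_jTorsion.2 y.2.1⟩ : Torsion.jTorsion L n))
    fun x y h => Subtype.ext (congrArg (fun z : Torsion.jTorsion L n => (z : JZero L)) h :)
  have := fun y : eigenPart L R n a => hK (y : JZero L)
  refine ⟨⨆ y : eigenPart L R n a, K (y : JZero L), inferInstance, fun σ hσ => ?_⟩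
  refine LinearMap.ext fun y => Subtype.ext ?_
  exact hfix (y : JZero L) σ fun x hx => hσ x
    (SetLike.le_def.1 (le_iSup (fun y : eigenPart L R n a => K (y : JZero L)) y) hx)

/-- Eichler–Shimura on `eigenPart` at a Frobenius element. -/
theorem eigenGal_quadRel_frobenius {m : ℕ} (hn : n = 2 ^ m) (hLR : L ∣ R) (h2R : 2 ∣ R)
    {l : ℕ} (hl : l.Prime) (hlR : ¬ l ∣ R) {A : ValuationSubring ℚbar} (hA : A.LiesOverPrime l)
    {τ : Γℚ} (hτ : A.IsFrobeniusAt τ l) :
    RepLemmas.QuadRel (eigenGal L R n a τ) (a l : ZMod n) (l : ZMod n) := by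
  refine LinearMap.ext fun y => Subtype.ext ?_
  have hnp : ¬ l ∣ L * 2 := fun h => (hl.dvd_mul.1 h).elim (fun h' => hlR (h'.trans hLR))
    fun h' => hlR (((Nat.prime_dvd_prime_iff_eq hl Nat.prime_two).1 h').symm ▸ h2R)
  have h := ES.frobenius_quadratic (p := 2) hl hnp hA hτ ⟨m, by rw [← hn]; exact y.2.1⟩
  rw [(galois_mem_eigenPart τ y.2).2 ⟨l, hl⟩ hlR] at h
  simp only [LinearMap.add_apply, LinearMap.sub_apply, LinearMap.smul_apply, LinearMap.zero_apply,
    Module.End.mul_apply, Module.End.one_apply, Int.cast_smul_eq_zsmul, Nat.cast_smul_eq_nsmul,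
    AddSubgroup.coe_add, AddSubgroup.coe_sub, AddSubgroup.coe_zsmul, AddSubgroup.coe_nsmul,
    ZeroMemClass.coe_zero, coe_eigenGal]
  exact h

set_option maxHeartbeats 1000000 in
/-- **The relation of the system**: every element of the Galois group acts on `eigenPart` as a
root of the characteristic polynomial of the representation `ρ` attached to the system. -/
theorem eigenGal_quadRel {m : ℕ} (hn : n = 2 ^ m) (hLR : L ∣ R) (h2R : 2 ∣ R) (hR0 : R ≠ 0)
    (ρ : Γℚ →* Matrix (Fin 2) (Fin 2) (ZMod n))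
    (hcont : ∃ F : IntermediateField ℚ ℚbar, FiniteDimensional ℚ F ∧
      ∀ σ ∈ F.fixingSubgroup, ρ σ = 1)
    (hfrob : ∀ l : ℕ, l.Prime → ¬ l ∣ R → ∀ A : ValuationSubring ℚbar, A.LiesOverPrime l →
      ∀ τ : Γℚ, A.IsFrobeniusAt τ l → (ρ τ).trace = (a l : ZMod n) ∧ (ρ τ).det = (l : ZMod n))
    (g : Γℚ) : RepLemmas.QuadRel (eigenGal L R n a g) (ρ g).trace (ρ g).det := by
  haveI : NeZero n := ⟨by rw [hn]; exact pow_ne_zero _ two_ne_zero⟩
  obtain ⟨F₁, hF₁, h₁⟩ := exists_level_eigenGal (L := L) (R := R) (n := n) (a := a)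
  obtain ⟨F₂, hF₂, h₂⟩ := hcont
  haveI := hF₁
  haveI := hF₂
  haveI := IntermediateField.finiteDimensional_sup F₁ F₂
  refine Density.forall_of_frobenius
    (P := fun g => RepLemmas.QuadRel (eigenGal L R n a g) (ρ g).trace (ρ g).det) (F₁ ⊔ F₂)
    (fun σ τ hστ hσ => ?_) (fun σ k hσ => ?_) R.primeFactors
    (fun l hl hlR A hA τ hτ => ?_) g
  · have hfix : ∀ x ∈ F₁ ⊔ F₂, (σ⁻¹ * τ) x = x := fun x hx => by
      rw [AlgEquiv.mul_apply, ← hστ x hx, ← AlgEquiv.mul_apply, inv_mul_cancel, AlgEquiv.one_apply]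
    have e : τ = σ * (σ⁻¹ * τ) := by rw [mul_inv_cancel_left]
    have e₁ : eigenGal L R n a τ = eigenGal L R n a σ := by
      rw [e, map_mul, h₁ _ fun x hx => hfix x (SetLike.le_def.1 le_sup_left hx), mul_one]
    have e₂ : ρ τ = ρ σ := by
      rw [e, map_mul, h₂ _ ((IntermediateField.mem_fixingSubgroup_iff _ _).2
        fun x hx => hfix x (SetLike.le_def.1 le_sup_right hx)), mul_one]
    rw [e₁, e₂]
    exact hσ
  · show RepLemmas.QuadRel (eigenGal L R n a (σ ^ k)) (ρ (σ ^ k)).trace (ρ (σ ^ k)).det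
    rw [map_pow (eigenGal L R n a), map_pow ρ]
    exact quadRel_pow_trace_det (A := ZMod n) (B := Module.End (ZMod n) (eigenPart L R n a))
      (a := eigenGal L R n a σ) (X := ρ σ) hσ k
  · have hlR' : ¬ l ∣ R := fun h => hlR (Nat.mem_primeFactors.2 ⟨hl, h, hR0⟩)
    obtain ⟨ht, hd⟩ := hfrob l hl hlR' A hA τ hτ
    have hq := eigenGal_quadRel_frobenius (a := a) (L := L) hn hLR h2R hl hlR' hA hτ
    rw [← ht, ← hd] at hq
    exact hq

/-- A class of exact order `2 ^ m` in `eigenPart` yields a copy of `ρ`. -/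
theorem exists_copy {m : ℕ} (hn : n = 2 ^ m) (hLR : L ∣ R) (h2R : 2 ∣ R) (hR0 : R ≠ 0)
    (ρ : Γℚ →* Matrix (Fin 2) (Fin 2) (ZMod n))
    (hcont : ∃ F : IntermediateField ℚ ℚbar, FiniteDimensional ℚ F ∧
      ∀ σ ∈ F.fixingSubgroup, ρ σ = 1)
    (hfrob : ∀ l : ℕ, l.Prime → ¬ l ∣ R → ∀ A : ValuationSubring ℚbar, A.LiesOverPrime l →
      ∀ τ : Γℚ, A.IsFrobeniusAt τ l → (ρ τ).trace = (a l : ZMod n) ∧ (ρ τ).det = (l : ZMod n))
    (hspan : Submodule.span (ZMod n) (Set.range ρ) = ⊤) {x : JZero L}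
    (hx : x ∈ eigenPart L R n a) (hx' : (2 ^ (m - 1) : ℕ) • x ≠ 0) :
    ∃ j : (Fin 2 → ZMod n) →ₗ[ZMod n] eigenPart L R n a, Function.Injective j ∧
      ∀ g u, ((j (ρ g *ᵥ u) : eigenPart L R n a) : JZero L) = g • ((j u : eigenPart L R n a) :
        JZero L) := by
  have hsoc : ∀ c : ZMod n, c ≠ 0 → c ∣ ((2 ^ (m - 1) : ℕ) : ZMod n) := by
    intro c hc
    haveI : NeZero n := ⟨by rw [hn]; exact pow_ne_zero _ two_ne_zero⟩
    obtain ⟨v, hv, e⟩ : ∃ v : ℕ, v < n ∧ c = (v : ZMod n) :=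
      ⟨c.val, ZMod.val_lt c, (ZMod.natCast_zmod_val c).symm⟩
    have hv0 : v ≠ 0 := by rintro rfl; exact hc (by rw [e, Nat.cast_zero])
    obtain ⟨k, w, hw, rfl⟩ := Nat.exists_eq_pow_mul_and_not_dvd hv0 2 (by norm_num)
    have hkm : k < m := by
      by_contra hle
      push Not at hle
      have h1 : 2 ^ m ≤ 2 ^ k * w := le_trans (Nat.pow_le_pow_right two_pos hle)
        (Nat.le_mul_of_pos_right _ (Nat.pos_of_ne_zero fun h => hw (by simp [h])))
      omega
    have hcop : w.Coprime n := by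
      rw [hn]
      exact Nat.Coprime.pow_right _ (Nat.coprime_comm.1 ((Nat.prime_two.coprime_iff_not_dvd).2 hw))
    obtain ⟨wu, hwu⟩ := (ZMod.isUnit_iff_coprime w n).2 hcop
    refine ⟨((2 ^ (m - 1 - k) : ℕ) : ZMod n) * ↑wu⁻¹, ?_⟩
    rw [e, Nat.cast_mul, ← hwu, mul_mul_mul_comm, Units.mul_inv, mul_one, ← Nat.cast_mul,
      ← pow_add, Nat.add_sub_cancel' (by omega)]
  have hne : ((2 ^ (m - 1) : ℕ) : ZMod n) • (⟨x, hx⟩ : eigenPart L R n a) ≠ 0 := by
    intro h
    rw [Nat.cast_smul_eq_nsmul] at h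
    exact hx' (congrArg (fun z : eigenPart L R n a => (z : JZero L)) h :)
  obtain ⟨j, hj, hjg⟩ := RepLemmas.exists_injective_equivariant ρ (eigenGal L R n a) hspan
    (eigenGal_quadRel hn hLR h2R hR0 ρ hcont hfrob) ⟨x, hx⟩ _ hsoc hne
  exact ⟨j, hj, fun g u => (congrArg (fun z : eigenPart L R n a => (z : JZero L)) (hjg g u) :)⟩

/-- The Hecke operator at a prime where the system is known only through the representation. -/
theorem heckeOperatorBar_eq_of_copy {m : ℕ} (hn : n = 2 ^ m) (hLR : L ∣ R) (h2R : 2 ∣ R)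
    (hR0 : R ≠ 0) (ρ : Γℚ →* Matrix (Fin 2) (Fin 2) (ZMod n))
    (hcont : ∃ F : IntermediateField ℚ ℚbar, FiniteDimensional ℚ F ∧
      ∀ σ ∈ F.fixingSubgroup, ρ σ = 1)
    (hfrob : ∀ l : ℕ, l.Prime → ¬ l ∣ R → ∀ A : ValuationSubring ℚbar, A.LiesOverPrime l →
      ∀ τ : Γℚ, A.IsFrobeniusAt τ l → (ρ τ).trace = (a l : ZMod n) ∧ (ρ τ).det = (l : ZMod n))
    {q : ℕ} (hq : q.Prime) (hqL : ¬ q ∣ L * 2) {A : ValuationSubring ℚbar}
    (hA : A.LiesOverPrime q) {τ : Γℚ} (hτ : A.IsFrobeniusAt τ q)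
    (htr : (ρ τ).trace = (a q : ZMod n)) (hdet : (ρ τ).det = (q : ZMod n)) {x : JZero L}
    (hx : x ∈ eigenPart L R n a) :
    heckeOperatorBar L ⟨q, hq⟩ x = a q • x := by
  have hy := galois_mem_eigenPart τ⁻¹ hx
  have h1 : τ • τ • τ⁻¹ • x - a q • τ • τ⁻¹ • x + q • τ⁻¹ • x = 0 := by
    have h := eigenGal_quadRel (a := a) hn hLR h2R hR0 ρ hcont hfrob τ
    rw [htr, hdet] at h
    have h' := congrArg Subtype.val (LinearMap.congr_fun h ⟨_, hy⟩)
    simpa only [LinearMap.add_apply, LinearMap.sub_apply, LinearMap.smul_apply,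
      LinearMap.zero_apply, Module.End.mul_apply, Module.End.one_apply, Int.cast_smul_eq_zsmul,
      Nat.cast_smul_eq_nsmul, AddSubgroup.coe_add, AddSubgroup.coe_sub, AddSubgroup.coe_zsmul,
      AddSubgroup.coe_nsmul, ZeroMemClass.coe_zero, coe_eigenGal] using h'
  have h2 := ES.frobenius_quadratic (p := 2) hq hqL hA hτ (x := τ⁻¹ • x)
    ⟨m, by rw [← hn]; exact hy.1⟩
  rw [smul_inv_smul] at h1 h2
  have := h2.trans h1.symm
  rwa [add_left_inj, sub_right_inj] at this

end Fermat.Agent.Residual.Lower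

end
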