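/-
Mazur's principle modulo powers of two: a class of level `M q` with the system of a
representation which is unramified at `q`, non-trivial and unipotent at Frobenius, gives a class
of level `M` with the same system and almost the same order.
-/
import Fermat.Agent.Residual.LowerCopy
import Fermat.Agent.Residual.LowerComp
import Fermat.Agent.BadReduction.X0GluingFrobenius
import Fermat.Agent.NewformRep.Geometry

set_option autoImplicit false
set_option linter.style.haveILetI false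
set_option synthInstance.maxHeartbeats 400000
set_option maxHeartbeats 1600000

noncomputable section

open ModularCurve IsLocalRing AlgebraicCurve Matrix
open Fermat.Agent.Curve Fermat.Agent.Bad Fermat.Agent.BadReduction

namespace Fermat.Agent.Residual.Lower

local notation "ℚbar" => AlgebraicClosure ℚ
local notation "Γℚ" => (AlgebraicClosure ℚ ≃ₐ[ℚ] AlgebraicClosure ℚ)

variable {M q : ℕ} [NeZero M] [hq : Fact q.Prime]

local instance neZero_primeStep : NeZero q := ⟨hq.out.ne_zero⟩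

/-- On classes trivial on both components the square of a Frobenius is `q ^ 2`. -/
theorem galois_sq_smul (hqM : ¬ q ∣ M) (A : ValuationSubring ℚbar) (hA : A.LiesOverPrime q)
    {σ : Γℚ} (hσ : A.IsFrobeniusAt σ q) {n : ℕ} (hn : ¬ q ∣ n) {c : JZero (M * q)}
    (hc : IsComponentTrivial (x0Reduction hqM A hA) n c) : σ • σ • c = q ^ 2 • c := by
  haveI := charP_residue_of_liesOverPrime hq.out hA
  haveI := (x0Reduction hqM A hA).isAlgClosed_residue
  obtain ⟨B, hreg, hmeets, hfix, hZ⟩ := exists_conductor_frobenius hqM A hA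
  exact galois_sq_smul_of_conductor A hqM hA B hreg hmeets hZ hσ
    (fun b hb => NewformRep.mapBranch_sq_eq_self _ b (hfix b hb)) hn hc

variable {m : ℕ} {a : ℕ → ℤ}

/-- The lowered class. -/
theorem exists_lower_class (hqM : ¬ q ∣ M) (h2M : 2 ∣ M) (hm : 6 ≤ m) (hq1 : q % 2 ^ m = 1)
    (ρ : Γℚ →* Matrix (Fin 2) (Fin 2) (ZMod (2 ^ m)))
    (hcont : ∃ F : IntermediateField ℚ ℚbar, FiniteDimensional ℚ F ∧
      ∀ σ ∈ F.fixingSubgroup, ρ σ = 1)
    (hspan : Submodule.span (ZMod (2 ^ m)) (Set.range ρ) = ⊤)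
    (hfrob : ∀ l : ℕ, l.Prime → ¬ l ∣ M * q → ∀ A : ValuationSubring ℚbar, A.LiesOverPrime l →
      ∀ τ : Γℚ, A.IsFrobeniusAt τ l →
        (ρ τ).trace = (a l : ZMod (2 ^ m)) ∧ (ρ τ).det = (l : ZMod (2 ^ m)))
    (A : ValuationSubring ℚbar) (hA : A.LiesOverPrime q) (τ : Γℚ) (hτ : A.IsFrobeniusAt τ q)
    (hunr : ∀ σ ∈ A.inertiaSubgroupIn ℚ, ρ σ = 1)
    (htr : (ρ τ).trace = (a q : ZMod (2 ^ m))) (hdet : (ρ τ).det = (q : ZMod (2 ^ m)))
    (htr2 : (ρ τ).trace = 2) (hunit : ∃ i k, IsUnit ((ρ τ - 1) i k))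
    (l₀ : Nat.Primes) (hl₀ : ¬ (l₀ : ℕ) ∣ M * q) (ha₀ : Odd (a l₀ - (l₀ : ℕ) - 1))
    (x : JZero (M * q)) (hx : (2 ^ m : ℕ) • x = 0) (hx' : (2 ^ (m - 1) : ℕ) • x ≠ 0)
    (hT : ∀ l : Nat.Primes, ¬ (l : ℕ) ∣ M * q → heckeOperatorBar (M * q) l x = a l • x) :
    ∃ z : JZero M, (2 ^ m : ℕ) • z = 0 ∧ (2 ^ (m - 6) : ℕ) • z ≠ 0 ∧
      ∀ l : Nat.Primes, ¬ (l : ℕ) ∣ M → heckeOperatorBar M l z = a l • z := by
  have hR0 : M * q ≠ 0 := mul_ne_zero (NeZero.ne M) hq.out.ne_zero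
  have h2R : 2 ∣ M * q := h2M.mul_right q
  have hq2 : q ≠ 2 := fun h => hqM (h ▸ h2M)
  have hqone : (q : ZMod (2 ^ m)) = 1 := by rw [← ZMod.natCast_mod, hq1, Nat.cast_one]
  have hqsub : 2 ^ m ∣ q - 1 := ⟨q / 2 ^ m, by have := Nat.mod_add_div q (2 ^ m); omega⟩
  -- the copy of `ρ`
  obtain ⟨j, hj, hjg⟩ := exists_copy (L := M * q) (R := M * q) (a := a) rfl dvd_rfl h2R hR0 ρ hcont
    hfrob hspan (x := x) ⟨hx, hT⟩ hx'
  obtain ⟨i, k, hik⟩ := hunit
  set u : Fin 2 → ZMod (2 ^ m) := Pi.single k 1 with hu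
  set y : JZero (M * q) := ((j u : eigenPart (M * q) (M * q) (2 ^ m) a) : JZero (M * q)) with hy
  have hyI : ∀ σ ∈ A.inertiaSubgroupIn ℚ, σ • y = y := fun σ hσ => by
    rw [hy, ← hjg σ u, hunr σ hσ, Matrix.one_mulVec]
  obtain ⟨z, hz, hzT, hzc⟩ := exists_lowered_classes hqM A hA hqsub a l₀ hl₀ ha₀ y (j u).2.1 hyI
    (j u).2.2
  -- one of the classes has large order
  obtain ⟨i₀, hi₀⟩ : ∃ i₀, (2 ^ (m - 6) : ℕ) • z i₀ ≠ 0 := by
    by_contra! hall
    have hqn : ¬ q ∣ 2 ^ (m - 4) := fun h =>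
      hq2 ((Nat.prime_dvd_prime_iff_eq hq.out Nat.prime_two).1 (hq.out.dvd_of_dvd_pow h))
    have h := galois_sq_smul hqM A hA hτ hqn (hzc (m - 6) hall)
    set e : ZMod (2 ^ m) := ((2 ^ (m - 6 + 4) : ℕ) : ZMod (2 ^ m)) with he
    have hey : (2 ^ (m - 6 + 4) : ℕ) • y =
        ((j (e • u) : eigenPart (M * q) (M * q) (2 ^ m) a) : JZero (M * q)) := by
      rw [map_smul, he, Nat.cast_smul_eq_nsmul]
      rfl
    rw [hey, ← hjg, ← hjg] at h
    have h' : j (ρ τ *ᵥ (ρ τ *ᵥ (e • u))) = j (((q ^ 2 : ℕ) : ZMod (2 ^ m)) • (e • u)) := by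
      refine Subtype.ext ?_
      rw [h, map_smul j (((q ^ 2 : ℕ) : ZMod (2 ^ m))) (e • u)]
      exact (congrArg Subtype.val
        (Nat.cast_smul_eq_nsmul (ZMod (2 ^ m)) (q ^ 2) (j (e • u)))).symm
    have h'' := congrFun (hj h') i
    rw [Nat.cast_pow, hqone, one_pow, one_smul, Matrix.mulVec_mulVec, Matrix.mulVec_smul,
      Pi.smul_apply, Pi.smul_apply, smul_eq_mul, smul_eq_mul, hu, Matrix.mulVec_single_one] at h''
    have hsq : ρ τ * ρ τ = (2 : ZMod (2 ^ m)) • ρ τ - 1 := by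
      have hc : ρ τ * ρ τ - (ρ τ).trace • ρ τ + (ρ τ).det • (1 : Matrix (Fin 2) (Fin 2) _) = 0 :=
        RepLemmas.quadRel_trace_det_ring (ρ τ)
      rw [htr2, hdet, hqone, one_smul] at hc
      rw [← sub_eq_zero, ← hc]
      abel
    have hzero : e * (2 * ((ρ τ - 1) i k)) = 0 := by
      rw [← sub_eq_zero, ← mul_sub] at h''
      rw [← h'']
      congr 1
      simp [Matrix.col, hsq, Matrix.sub_apply, Matrix.one_apply, Pi.single_apply]
      ring
    obtain ⟨w, hw⟩ := hik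
    rw [← hw, ← mul_assoc] at hzero
    have h5 := congrArg (fun t => t * (↑w⁻¹ : ZMod (2 ^ m))) hzero
    simp only [zero_mul, mul_assoc, Units.mul_inv, mul_one] at h5
    have h6 : ((2 ^ (m - 6 + 5) : ℕ) : ZMod (2 ^ m)) = 0 := by
      rw [← h5, he, show m - 6 + 5 = m - 6 + 4 + 1 from rfl, pow_succ, Nat.cast_mul, Nat.cast_ofNat]
    rw [ZMod.natCast_eq_zero_iff, Nat.pow_dvd_pow_iff_le_right one_lt_two] at h6
    omega
  have hzm : (2 ^ m : ℕ) • z i₀ = 0 := by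
    rw [show 2 ^ m = 2 ^ 4 * 2 ^ (m - 4) by rw [← pow_add, Nat.add_sub_cancel' (by omega)],
      mul_smul, hz i₀, smul_zero]
  refine ⟨z i₀, hzm, hi₀, fun l hl => ?_⟩
  by_cases hlR : (l : ℕ) ∣ M * q
  · have hlq : (l : ℕ) = q :=
      ((Nat.prime_dvd_prime_iff_eq l.2 hq.out).1 ((l.2.dvd_mul.1 hlR).resolve_left hl))
    obtain rfl : l = ⟨q, hq.out⟩ := Subtype.ext hlq
    exact heckeOperatorBar_eq_of_copy (L := M) (R := M * q) (a := a) rfl (dvd_mul_right M q) h2R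
      hR0 ρ hcont hfrob hq.out
      (fun h => (hq.out.dvd_mul.1 h).elim hqM fun h' =>
        hq2 ((Nat.prime_dvd_prime_iff_eq hq.out Nat.prime_two).1 h'))
      hA hτ htr hdet ⟨hzm, fun l' hl' => hzT i₀ l' hl'⟩
  · exact hzT i₀ l hlR

end Fermat.Agent.Residual.Lower

end
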