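/-
Residual modularity at three: removing an auxiliary prime from the level.
-/
import Fermat.Agent.Residual.Defs
import Fermat.Agent.Residual.CurveDatum
import Fermat.Agent.Residual.SelDatum
import Fermat.Agent.Residual.LowerDatum
import Fermat.Agent.Residual.LowerStep

set_option autoImplicit false

noncomputable section

open Matrix

namespace Fermat.Agent.Residual

local notation "Qbar" => AlgebraicClosure ℚ
local notation "Γℚ" => (AlgebraicClosure ℚ ≃ₐ[ℚ] AlgebraicClosure ℚ)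

namespace Lower

/-- A surjective representation to `GL₂` spans the matrices. -/
theorem span_range_eq_top {G A : Type*} [Group G] [CommRing A] (ρ : G →* GL (Fin 2) A)
    (hρ : Function.Surjective ρ) :
    Submodule.span A (Set.range ((Units.coeHom (Matrix (Fin 2) (Fin 2) A)).comp ρ)) = ⊤ := by
  set S := Submodule.span A (Set.range ((Units.coeHom (Matrix (Fin 2) (Fin 2) A)).comp ρ))
  have hmem : ∀ X Y : Matrix (Fin 2) (Fin 2) A, X * Y = 1 → Y * X = 1 → X ∈ S := fun X Y h h' => by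
    obtain ⟨g, hg⟩ := hρ ⟨X, Y, h, h'⟩
    exact Submodule.subset_span ⟨g, by rw [MonoidHom.comp_apply, hg]; rfl⟩
  have h1 : (1 : Matrix (Fin 2) (Fin 2) A) ∈ S := hmem 1 1 (one_mul _) (one_mul _)
  have hu : (!![1, 1; 0, 1] : Matrix (Fin 2) (Fin 2) A) ∈ S :=
    hmem _ !![1, -1; 0, 1] (by simp [Matrix.one_fin_two]) (by simp [Matrix.one_fin_two])
  have hl : (!![1, 0; 1, 1] : Matrix (Fin 2) (Fin 2) A) ∈ S :=
    hmem _ !![1, 0; -1, 1] (by simp [Matrix.one_fin_two]) (by simp [Matrix.one_fin_two])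
  have hw : (!![1, 1; 1, 0] : Matrix (Fin 2) (Fin 2) A) ∈ S :=
    hmem _ !![0, 1; 1, -1] (by simp [Matrix.one_fin_two]) (by simp [Matrix.one_fin_two])
  refine eq_top_iff.2 fun X _ => ?_
  have e : X = X 0 1 • (!![1, 1; 0, 1] - 1) + X 1 0 • (!![1, 0; 1, 1] - 1) + X 1 1 • 1 +
      (X 0 0 - X 1 1) • (!![1, 1; 1, 0] - (!![1, 1; 0, 1] - 1) - (!![1, 0; 1, 1] - 1)) := by
    rw [Matrix.one_fin_two]
    ext i j
    fin_cases i <;> fin_cases j <;> simp
  rw [e]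
  exact S.add_mem (S.add_mem (S.add_mem (S.smul_mem _ (S.sub_mem hu h1))
    (S.smul_mem _ (S.sub_mem hl h1))) (S.smul_mem _ h1))
    (S.smul_mem _ (S.sub_mem (S.sub_mem hw (S.sub_mem hu h1)) (S.sub_mem hl h1)))

end Lower

open ModularCurve in
/-- Removing an auxiliary prime from the level costs at most eight powers of two. -/
theorem hasSystem_lower {W : WeierstrassCurve ℤ} {D : Datum} (hW : IsDihedralCurve W)
    (hD : IsDatumOf W D) {S : Finset ℕ} {q : ℕ} (hS : IsAuxSet D (insert q S)) (hq : q ∉ S)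
    {m : ℕ} (hm : 9 ≤ m) (hq1 : q % 2 ^ m = 1)
    (hdvd : (2 ^ m : ℤ) ∣ W.apOfModel q - (1 + q))
    (h : HasSystem W (D.auxLevel (insert q S)) m) :
    HasSystem W (D.auxLevel S) (m - 8) := by
  obtain ⟨D', hD', ε, -, hρ⟩ := exists_datum W hW
  obtain ⟨ρ, hsurj, hlift, htrace⟩ := hρ m (by omega)
  have hB : D'.B = D.B := hD'.primes.trans hD.primes.symm
  obtain ⟨hqp, hqB, hqaux⟩ := hS q (Finset.mem_insert_self q S)
  haveI : Fact q.Prime := ⟨hqp⟩
  have hq2 : q ≠ 2 := fun h2 => hqB (h2 ▸ D.two_mem)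
  have hgoodB : ∀ ℓ : ℕ, ℓ.Prime → ℓ ∉ D.B → W.IsGoodPrimeFor ℓ := fun ℓ hℓ hℓB hd =>
    hℓB (by rw [hD.primes, Nat.mem_primeFactors]
            exact ⟨hℓ, Int.natCast_dvd.1 hd, Int.natAbs_ne_zero.2 hW.Δ_ne_zero⟩)
  have haux : D.auxLevel (insert q S) = D.auxLevel S * q := by
    simp only [Datum.auxLevel, Finset.prod_insert hq]
    ring
  have hM0 : D.auxLevel S ≠ 0 := mul_ne_zero D.level_pos.ne'
    (Finset.prod_ne_zero_iff.2 fun p hp => (hS p (Finset.mem_insert_of_mem hp)).1.ne_zero)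
  haveI : NeZero (D.auxLevel S) := ⟨hM0⟩
  have hqM : ¬ q ∣ D.auxLevel S := fun hd => (hqp.dvd_mul.1 hd).elim
    (fun h' => by
      obtain ⟨b, hb, hqb⟩ := (Prime.dvd_finsetProd_iff hqp.prime _).1 h'
      exact hqB ((Nat.prime_dvd_prime_iff_eq hqp (D.prime_mem b hb)).1 hqb ▸ hb))
    fun h' => by
      obtain ⟨p, hp, hqpd⟩ := (Prime.dvd_finsetProd_iff hqp.prime _).1 h'
      exact hq ((Nat.prime_dvd_prime_iff_eq hqp (hS p (Finset.mem_insert_of_mem hp)).1).1 hqpd ▸ hp)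
  have hdvdB : ∀ b ∈ D.B, b ∣ D.auxLevel S := fun b hb =>
    dvd_mul_of_dvd_left (Finset.dvd_prod_of_mem _ hb) _
  have h2M : 2 ∣ D.auxLevel S := hdvdB 2 D.two_mem
  rw [haux] at h
  obtain ⟨hL, x, hx, hx', hT⟩ := h
  have hgood : ∀ ℓ : ℕ, ℓ.Prime → ¬ ℓ ∣ D.auxLevel S * q →
      ℓ ∉ D'.B ∧ ℓ ≠ 2 ∧ W.IsGoodPrimeFor ℓ := fun ℓ hℓ hn =>
    have hℓB : ℓ ∉ D.B := fun hb => hn ((hdvdB ℓ hb).mul_right q)
    ⟨hB ▸ hℓB, fun h2 => hℓB (h2 ▸ D.two_mem), hgoodB ℓ hℓ hℓB⟩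
  obtain ⟨A, τ, hA, hτ⟩ := Galois.exists_valuationSubring_isFrobeniusAt hqp
  have hqB' : q ∉ D'.B := hB ▸ hqB
  have htr := htrace q hqp hq2 (hgoodB q hqp hqB) A hA τ hτ
  have htr2 : ((ρ τ : Matrix (Fin 2) (Fin 2) (ZMod (2 ^ m)))).trace = 2 := by
    have h1 : ((1 + q : ℤ) : ZMod (2 ^ m)) = (W.apOfModel q : ZMod (2 ^ m)) :=
      (ZMod.intCast_eq_intCast_iff_dvd_sub _ _ _).2 (by push_cast; exact hdvd)
    rw [htr, ← h1]
    push_cast
    rw [show (q : ZMod (2 ^ m)) = 1 by rw [← ZMod.natCast_mod, hq1, Nat.cast_one]]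
    norm_num
  -- the residual Frobenius is not trivial
  set f := ZMod.castHom (dvd_pow_self 2 (by omega : m ≠ 0)) (ZMod 2)
  have hne : D'.ρbar τ ≠ 1 := fun h1 =>
    (hqaux A hA τ hτ).1 ((Lower.ρbar_eq_one_iff hW.Δ_ne_zero hD hD' τ).2 h1)
  obtain ⟨i, k, hik⟩ : ∃ i k, IsUnit (((ρ τ : Matrix (Fin 2) (Fin 2) (ZMod (2 ^ m))) - 1) i k) := by
    by_contra! hall
    refine hne ?_
    rw [← hlift.residual f τ]
    refine Units.ext (Matrix.ext fun i k => ?_)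
    haveI : NeZero (2 ^ m) := ⟨pow_ne_zero _ two_ne_zero⟩
    obtain ⟨v, -, hv⟩ : ∃ v : ℕ, v < 2 ^ m ∧
        ((ρ τ : Matrix (Fin 2) (Fin 2) (ZMod (2 ^ m))) - 1) i k = (v : ZMod (2 ^ m)) :=
      ⟨_, ZMod.val_lt _, (ZMod.natCast_zmod_val _).symm⟩
    have h2v : 2 ∣ v := by
      by_contra h2
      refine hall i k ?_
      rw [hv]
      exact (ZMod.isUnit_iff_coprime v _).2
        (Nat.Coprime.pow_right _ (Nat.coprime_comm.1 (Nat.prime_two.coprime_iff_not_dvd.2 h2)))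
    have h0 : f (((ρ τ : Matrix (Fin 2) (Fin 2) (ZMod (2 ^ m))) - 1) i k) = 0 := by
      rw [hv, map_natCast]
      exact (ZMod.natCast_eq_zero_iff v 2).2 h2v
    rw [Matrix.sub_apply, map_sub, sub_eq_zero] at h0
    rw [Units.val_one]
    exact h0.trans (by rcases eq_or_ne i k with rfl | hne <;> simp [*])
  obtain ⟨l₀, hl₀, ha₀⟩ := Lower.exists_odd_trace hW.Δ_ne_zero hD
    (R := D.auxLevel S * q) (mul_ne_zero hM0 hqp.ne_zero)
  obtain ⟨z, hz, hz', hzT⟩ := Lower.exists_lower_class (a := W.apOfModel) hqM h2M (by omega) hq1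
    ((Units.coeHom _).comp ρ)
    (by obtain ⟨F, hF, hFρ⟩ := hlift.cont
        exact ⟨F, hF, fun σ hσ => by rw [MonoidHom.comp_apply, hFρ σ hσ]; rfl⟩)
    (Lower.span_range_eq_top ρ hsurj)
    (fun l hl hln A hA τ hτ =>
      have ⟨hlB, hl2, hlg⟩ := hgood l hl hln
      ⟨htrace l hl hl2 hlg A hA τ hτ, Sel.det_frobenius hlift hl hlB hA hτ⟩)
    A hA τ hτ
    (fun σ hσ => by
      rw [MonoidHom.comp_apply, hlift.unram q hqp (by simpa using hqB') A hA σ hσ]; rfl)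
    htr (Sel.det_frobenius hlift hqp hqB' hA hτ) htr2 ⟨i, k, hik⟩ l₀ hl₀ ha₀ x hx hx'
    (fun l hl => hT l
      (fun h2 => (l.2.dvd_mul.1 h2).elim
        (fun h2' => hl (((Nat.prime_dvd_prime_iff_eq l.2 Nat.prime_two).1 h2').symm ▸
          h2M.mul_right q)) hl)
      (hgood l l.2 hl).2.2)
  -- a multiple of exact order `2 ^ (m - 8)`
  classical
  have hex : ∃ s, (2 ^ s : ℕ) • z = 0 := ⟨m, hz⟩
  have hlt : m - 6 < Nat.find hex := by
    by_contra hle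
    push Not at hle
    refine hz' ?_
    rw [← Nat.sub_add_cancel hle, pow_add, mul_nsmul', Nat.find_spec hex, nsmul_zero]
  refine ⟨inferInstance, (2 ^ (Nat.find hex - (m - 8)) : ℕ) • z, ?_, ?_, fun l hl _ => ?_⟩
  · rw [← mul_nsmul', ← pow_add, Nat.add_sub_cancel' (by omega), Nat.find_spec hex]
  · rw [← mul_nsmul', ← pow_add]
    exact Nat.find_min hex (by omega)
  · rw [map_nsmul, hzT l fun hd => hl (hd.mul_left 2)]
    exact smul_comm _ _ z

end Fermat.Agent.Residual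

end
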