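/-
Fixed points in the upper half plane of integer matrices of positive determinant:
commutation, elliptic traces, and the absence of fixed neighbours at an inert prime.
-/
import Fermat.Agent.Newform.AtkinMatrix
import Mathlib.LinearAlgebra.Matrix.Adjugate
import Mathlib.Algebra.Field.ZMod

set_option autoImplicit false

noncomputable section

open Matrix UpperHalfPlane
open scoped MatrixGroups

namespace Fermat.Agent.Residual.CMFix

/-- Integer `2 × 2` matrices. -/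
abbrev IMat : Type := Matrix (Fin 2) (Fin 2) ℤ

/-- An integer matrix as a complex one. -/
def cmat (M : IMat) : Matrix (Fin 2) (Fin 2) ℂ := (Int.castRingHom ℂ).mapMatrix M

/-- The vector `(τ, 1)`. -/
def vec (τ : ℍ) : Fin 2 → ℂ := ![(τ : ℂ), 1]

/-- `c τ + d`. -/
def den (M : IMat) (τ : ℍ) : ℂ := (M 1 0 : ℂ) * τ + M 1 1

/-- `τ` is a fixed point of `M`. -/
def Fixes (M : IMat) (τ : ℍ) : Prop :=
  (M 0 0 : ℂ) * τ + M 0 1 = den M τ * τ

/-- The shape of the Atkin-Lehner matrices of level `D` attached to the divisor `d`. -/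
structure IsAL (D d : ℕ) (M : IMat) : Prop where
  det_eq : M.det = d
  dvd00 : (d : ℤ) ∣ M 0 0
  dvd11 : (d : ℤ) ∣ M 1 1
  dvd10 : (D : ℤ) ∣ M 1 0

/-- The orbit of `τ` is fixed by the Atkin-Lehner involution attached to `d`. -/
def IsALFixed (D d : ℕ) (τ : ℍ) : Prop := ∃ M, IsAL D d M ∧ Fixes M τ

theorem cmat_mul (A B : IMat) : cmat (A * B) = cmat A * cmat B := map_mul _ A B

@[simp]
theorem cmat_apply (A : IMat) (i j : Fin 2) : cmat A i j = (A i j : ℂ) := rfl

theorem cmat_mulVec (A : IMat) (τ : ℍ) :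
    cmat A *ᵥ vec τ = ![(A 0 0 : ℂ) * τ + A 0 1, (A 1 0 : ℂ) * τ + A 1 1] := by
  ext i
  fin_cases i <;> simp [mulVec, dotProduct, Fin.sum_univ_two, vec]

theorem fixes_iff_mulVec {M : IMat} {τ : ℍ} :
    Fixes M τ ↔ cmat M *ᵥ vec τ = den M τ • vec τ := by
  rw [cmat_mulVec]
  constructor
  · intro h
    ext i
    fin_cases i
    · simpa [vec, Fixes] using h
    · simp [vec, den]
  · intro h
    simpa [vec, Fixes] using congrFun h 0

theorem fixes_of_mulVec {M : IMat} {τ : ℍ} {μ : ℂ} (h : cmat M *ᵥ vec τ = μ • vec τ) :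
    Fixes M τ ∧ den M τ = μ := by
  rw [cmat_mulVec] at h
  have h0 := congrFun h 0
  have h1 := congrFun h 1
  simp [vec] at h0 h1
  refine ⟨?_, h1⟩
  show _ = den M τ * τ
  rw [show den M τ = μ from h1]
  exact h0

theorem eq_zero_of_cast {u v : ℤ} {τ : ℍ} (h : (u : ℂ) * τ + v = 0) : u = 0 ∧ v = 0 := by
  have h1 := congrArg Complex.im h
  simp at h1
  have hu : u = 0 := h1.resolve_right τ.im_pos.ne'
  subst hu
  simpa using h

/-- An integer matrix is determined by its effect on `(τ, 1)`. -/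
theorem eq_of_mulVec_eq {A B : IMat} {τ : ℍ} (h : cmat A *ᵥ vec τ = cmat B *ᵥ vec τ) : A = B := by
  rw [cmat_mulVec, cmat_mulVec] at h
  have h0 := congrFun h 0
  have h1 := congrFun h 1
  simp at h0 h1
  have e0 := eq_zero_of_cast (u := A 0 0 - B 0 0) (v := A 0 1 - B 0 1) (τ := τ)
    (by push_cast; linear_combination h0)
  have e1 := eq_zero_of_cast (u := A 1 0 - B 1 0) (v := A 1 1 - B 1 1) (τ := τ)
    (by push_cast; linear_combination h1)
  ext i j
  fin_cases i <;> fin_cases j <;> simp <;> omega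

/-- Matrices with a common fixed point commute. -/
theorem commute_of_fixes {A B : IMat} {τ : ℍ} (hA : Fixes A τ) (hB : Fixes B τ) :
    A * B = B * A := by
  refine eq_of_mulVec_eq (τ := τ) ?_
  rw [fixes_iff_mulVec] at hA hB
  rw [cmat_mul, cmat_mul, ← mulVec_mulVec, ← mulVec_mulVec, hB, hA, mulVec_smul, mulVec_smul,
    hA, hB, smul_smul, smul_smul, mul_comm]

/-- The discriminant of the characteristic polynomial. -/
def disc (M : IMat) : ℤ := (M 0 0 + M 1 1) ^ 2 - 4 * M.det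

theorem disc_eq (M : IMat) : disc M = (M 1 1 - M 0 0) ^ 2 + 4 * M 0 1 * M 1 0 := by
  rw [disc, det_fin_two]
  ring

theorem Fixes.scalar {M : IMat} {τ : ℍ} (h : Fixes M τ) (h10 : M 1 0 = 0) :
    M 1 1 = M 0 0 ∧ M 0 1 = 0 := by
  have := eq_zero_of_cast (u := M 0 0 - M 1 1) (v := M 0 1) (τ := τ) (by
    simp only [Fixes, den, h10, Int.cast_zero, zero_mul, zero_add] at h
    push_cast
    linear_combination h)
  omega

theorem disc_neg {M : IMat} {τ : ℍ} (h : Fixes M τ) (h10 : M 1 0 ≠ 0) : disc M < 0 := by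
  set s : ℂ := 2 * (M 1 0 : ℂ) * τ + ((M 1 1 - M 0 0 : ℤ) : ℂ) with hs
  have hsq : s ^ 2 = ((disc M : ℤ) : ℂ) := by
    rw [disc_eq, hs]
    unfold Fixes den at h
    push_cast
    linear_combination -(4 * (M 1 0 : ℂ)) * h
  have him : s.im ≠ 0 := by
    simp [hs, h10, τ.im_pos.ne']
  have h1 := congrArg Complex.re hsq
  have h2 := congrArg Complex.im hsq
  simp [sq, Complex.mul_re, Complex.mul_im] at h1 h2
  have hre : s.re = 0 := by
    have h3 : s.re * s.im = 0 := by linarith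
    exact (mul_eq_zero.1 h3).resolve_right him
  have : ((disc M : ℤ) : ℝ) < 0 := by
    rw [← h1, hre]
    simpa using mul_self_pos.2 him
  exact_mod_cast this

theorem IsAL.ten_ne_zero {D d : ℕ} {M : IMat} (hM : IsAL D d M) (hd : 1 < d) {τ : ℍ}
    (h : Fixes M τ) : M 1 0 ≠ 0 := by
  intro h10
  obtain ⟨e, -⟩ := h.scalar h10
  obtain ⟨k, hk⟩ := hM.dvd00
  have hdet := hM.det_eq
  rw [det_fin_two, e, h10, hk, mul_zero, sub_zero] at hdet
  have h1 : (d : ℤ) * (k * k) = 1 := by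
    have hd0 : (d : ℤ) ≠ 0 := by omega
    apply mul_left_cancel₀ hd0
    linear_combination hdet
  have := Int.eq_one_of_mul_eq_one_right (Int.natCast_nonneg d) h1
  omega

/-- The traces of the elliptic Atkin-Lehner matrices. -/
theorem IsAL.trace_spec {D d : ℕ} {M : IMat} (hM : IsAL D d M) (hd : 1 < d) {τ : ℍ}
    (h : Fixes M τ) :
    (d : ℤ) ∣ M 0 0 + M 1 1 ∧ (M 0 0 + M 1 1) ^ 2 < 4 * d := by
  refine ⟨dvd_add hM.dvd00 hM.dvd11, ?_⟩
  have := disc_neg h (hM.ten_ne_zero hd h)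
  rw [disc, hM.det_eq] at this
  linarith

theorem IsAL.trace_eq_zero {D d : ℕ} {M : IMat} (hM : IsAL D d M) (hd : 4 ≤ d) {τ : ℍ}
    (h : Fixes M τ) : M 0 0 + M 1 1 = 0 := by
  obtain ⟨⟨k, hk⟩, hlt⟩ := hM.trace_spec (by omega) h
  rw [hk] at hlt ⊢
  by_contra h0
  have hk0 : k ≠ 0 := fun e => h0 (by rw [e, mul_zero])
  have : 1 ≤ k ^ 2 := by nlinarith [Int.one_le_abs hk0, sq_abs k]
  nlinarith [mul_le_mul_of_nonneg_left this (by positivity : (0 : ℤ) ≤ d * d)]

/-- `g τ`, in vector form. -/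
theorem mulVec_smul_vec {g : IMat} (hg : 0 < g.det) (τ : ℍ) :
    cmat g *ᵥ vec τ = den g τ • vec (Newform.atkinGL g • τ) ∧ den g τ ≠ 0 := by
  have hd := Newform.atkinGL_det_pos hg
  have hv : ∀ i j, ((Newform.atkinGL g) i j : ℝ) = (g i j : ℝ) := by
    intro i j
    rw [Newform.val_atkinGL hg.ne']
    simp
  have hne : den g τ ≠ 0 := by
    intro h0
    obtain ⟨e, e'⟩ := eq_zero_of_cast h0
    rw [det_fin_two, e, e'] at hg
    simp at hg
  refine ⟨?_, hne⟩
  rw [cmat_mulVec]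
  ext i
  fin_cases i
  · have e : ((Newform.atkinGL g • τ : ℍ) : ℂ) =
        ((g 0 0 : ℂ) * τ + g 0 1) / den g τ := by
      rw [coe_smul_of_det_pos hd, num, denom, den, hv, hv, hv, hv]
      simp
    simp [vec, e, mul_div_cancel₀ _ hne]
  · simp [vec, den]

/-- Transport of a fixed point of `M'` at `g τ` back to `τ`. -/
theorem fixes_adjugate_mul {g M' : IMat} (hg : 0 < g.det) {τ : ℍ}
    (h : Fixes M' (Newform.atkinGL g • τ)) :
    Fixes (g.adjugate * M' * g) τ ∧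
      den (g.adjugate * M' * g) τ = g.det * den M' (Newform.atkinGL g • τ) := by
  obtain ⟨hgv, hne⟩ := mulVec_smul_vec hg τ
  rw [fixes_iff_mulVec] at h
  have hadj : cmat g.adjugate *ᵥ vec (Newform.atkinGL g • τ) =
      ((g.det : ℂ) / den g τ) • vec τ := by
    have h1 : cmat g.adjugate *ᵥ (cmat g *ᵥ vec τ) = (g.det : ℂ) • vec τ := by
      rw [mulVec_mulVec, ← cmat_mul, adjugate_mul]
      ext i
      fin_cases i <;> simp [mulVec, dotProduct, vec, Matrix.intCast_apply]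
    rw [hgv, mulVec_smul] at h1
    rw [div_eq_inv_mul, ← smul_smul, ← h1, smul_smul, inv_mul_cancel₀ hne, one_smul]
  refine fixes_of_mulVec ?_
  rw [cmat_mul, cmat_mul, ← mulVec_mulVec, ← mulVec_mulVec, hgv, mulVec_smul, h, smul_smul,
    mulVec_smul, hadj, smul_smul]
  congr 1
  field_simp

section ModPrime

variable {ℓ : ℕ}

/-- An integer matrix modulo `ℓ`. -/
def modMat (ℓ : ℕ) (M : IMat) : Matrix (Fin 2) (Fin 2) (ZMod ℓ) :=
  (Int.castRingHom (ZMod ℓ)).mapMatrix M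

@[simp]
theorem modMat_apply (A : IMat) (i j : Fin 2) : modMat ℓ A i j = (A i j : ZMod ℓ) := rfl

theorem modMat_eq_zero_iff (A : IMat) : modMat ℓ A = 0 ↔ ∀ i j, (ℓ : ℤ) ∣ A i j := by
  constructor
  · intro h i j
    have := congrFun (congrFun h i) j
    rw [modMat_apply, Matrix.zero_apply] at this
    exact (ZMod.intCast_zmod_eq_zero_iff_dvd _ _).1 this
  · intro h
    ext i j
    exact (ZMod.intCast_zmod_eq_zero_iff_dvd _ _).2 (h i j)

/-- A matrix with an eigenvector has square discriminant. -/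
theorem isSquare_disc {R : Type*} [Field R] (A : Matrix (Fin 2) (Fin 2) R) {v : Fin 2 → R}
    (hv : v ≠ 0) (h : v 0 * (A *ᵥ v) 1 = v 1 * (A *ᵥ v) 0) :
    IsSquare ((A 0 0 + A 1 1) ^ 2 - 4 * A.det) := by
  simp only [mulVec, dotProduct, Fin.sum_univ_two] at h
  by_cases h1 : v 1 = 0
  · have h0 : v 0 ≠ 0 := fun e => hv (funext fun i => by fin_cases i <;> assumption)
    have hc : A 1 0 = 0 := by
      rw [h1] at h
      simpa [h0] using h
    refine ⟨A 1 1 - A 0 0, ?_⟩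
    rw [det_fin_two, hc]
    ring
  · refine ⟨(2 * A 1 0 * v 0 + (A 1 1 - A 0 0) * v 1) / v 1, ?_⟩
    rw [div_mul_div_comm, eq_div_iff (mul_ne_zero h1 h1), det_fin_two]
    linear_combination -(4 * A 1 0) * h

theorem cast_disc (M : IMat) :
    ((disc M : ℤ) : ZMod ℓ) =
      ((modMat ℓ M) 0 0 + (modMat ℓ M) 1 1) ^ 2 - 4 * (modMat ℓ M).det := by
  simp [disc, det_fin_two]

theorem modMat_mul (A B : IMat) : modMat ℓ (A * B) = modMat ℓ A * modMat ℓ B := map_mul _ A B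

variable [Fact ℓ.Prime]

/-- A prime dividing the determinant of `g`, at which the discriminant of `M` is a non-square,
divides every matrix that kills the kernel of `g` and commutes with `M`. -/
theorem modMat_eq_zero_of_commute {M N₀ : IMat} (hM : ¬ IsSquare ((disc M : ℤ) : ZMod ℓ))
    (hc : M * N₀ = N₀ * M) {v : Fin 2 → ZMod ℓ} (hv : v ≠ 0) (h0 : modMat ℓ N₀ *ᵥ v = 0) :
    modMat ℓ N₀ = 0 := by
  set A := modMat ℓ M with hA
  have h1 : modMat ℓ N₀ *ᵥ (A *ᵥ v) = 0 := by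
    rw [mulVec_mulVec, hA, modMat, modMat, ← map_mul, ← hc, map_mul, ← mulVec_mulVec]
    change A *ᵥ (modMat ℓ N₀ *ᵥ v) = 0
    rw [h0, mulVec_zero]
  have hD : v 0 * (A *ᵥ v) 1 - v 1 * (A *ᵥ v) 0 ≠ 0 := fun e =>
    hM (cast_disc (ℓ := ℓ) M ▸ isSquare_disc A hv (sub_eq_zero.1 e))
  ext i j
  have e0 := congrFun h0 i
  have e1 := congrFun h1 i
  simp only [mulVec, dotProduct, Fin.sum_univ_two, Pi.zero_apply] at e0 e1
  change _ = (0 : ZMod ℓ)
  apply (mul_eq_zero.1 (show (modMat ℓ N₀) i j *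
    (v 0 * (A *ᵥ v) 1 - v 1 * (A *ᵥ v) 0) = 0 from ?_)).resolve_right hD
  simp only [mulVec, dotProduct, Fin.sum_univ_two]
  fin_cases j
  · simp only [Fin.zero_eta] at *
    linear_combination (A 1 0 * v 0 + A 1 1 * v 1) * e0 - v 1 * e1
  · simp only [Fin.mk_one] at *
    linear_combination -(A 0 0 * v 0 + A 0 1 * v 1) * e0 + v 0 * e1

/-- **No fixed neighbours at an inert prime.** -/
theorem no_fixed_neighbour {M M' g : IMat} (hg : g.det = ℓ)
    (hM : ¬ IsSquare ((disc M : ℤ) : ZMod ℓ)) (hM' : ¬ IsSquare ((disc M' : ℤ) : ZMod ℓ))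
    {τ : ℍ} (h : Fixes M τ) (h' : Fixes M' (Newform.atkinGL g • τ)) : False := by
  have hℓ : (0 : ℤ) < ℓ := by exact_mod_cast (Fact.out : ℓ.Prime).pos
  obtain ⟨hN, -⟩ := fixes_adjugate_mul (hg ▸ hℓ) h'
  obtain ⟨v, hv, hgv⟩ := exists_mulVec_eq_zero_iff.2
    (show (modMat ℓ g).det = 0 by
      rw [modMat, ← RingHom.map_det, hg]
      simp)
  have hz := modMat_eq_zero_of_commute hM (commute_of_fixes h hN) hv (by
    rw [modMat_mul, ← mulVec_mulVec, hgv, mulVec_zero])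
  rw [modMat_eq_zero_iff] at hz
  choose k hk using hz
  set N₁ : IMat := Matrix.of k with hN₁
  have e : g.adjugate * M' * g = (ℓ : ℤ) • N₁ := by
    ext i j
    rw [hk i j, Matrix.smul_apply, hN₁, of_apply, smul_eq_mul]
  have e' : (ℓ : ℤ) • (M' * g) = (ℓ : ℤ) • (g * N₁) := by
    rw [← Matrix.mul_smul g, ← e, ← Matrix.mul_assoc, ← Matrix.mul_assoc, mul_adjugate, hg,
      Matrix.smul_mul, Matrix.one_mul, Matrix.smul_mul]
  have e'' : M' * g = g * N₁ := smul_right_injective _ hℓ.ne' e'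
  have h1 : modMat ℓ g *ᵥ (modMat ℓ N₁ *ᵥ v) = 0 := by
    rw [mulVec_mulVec, ← modMat_mul, ← e'', modMat_mul, ← mulVec_mulVec, hgv, mulVec_zero]
  have hdisc : disc N₁ = disc M' := by
    have hd : N₁.det = M'.det := by
      have := congrArg Matrix.det e''
      rw [det_mul, det_mul, mul_comm (g.det)] at this
      exact (mul_right_cancel₀ (by omega) this).symm
    have ht : N₁ 0 0 + N₁ 1 1 = M' 0 0 + M' 1 1 := by
      have := congrArg Matrix.trace e
      rw [Matrix.trace_mul_cycle, mul_adjugate, hg, Matrix.trace_smul, Matrix.smul_mul,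
        Matrix.one_mul, Matrix.trace_smul, smul_eq_mul, smul_eq_mul, trace_fin_two,
        trace_fin_two] at this
      exact (mul_left_cancel₀ hℓ.ne' this).symm
    rw [disc, disc, hd, ht]
  rw [← hdisc, cast_disc] at hM'
  refine hM' (isSquare_disc _ hv ?_)
  by_contra hne
  have hz : modMat ℓ g = 0 := by
    have e0 : ∀ i, (modMat ℓ g *ᵥ v) i = 0 := congrFun hgv
    have e1 : ∀ i, (modMat ℓ g *ᵥ (modMat ℓ N₁ *ᵥ v)) i = 0 := congrFun h1
    simp only [mulVec, dotProduct, Fin.sum_univ_two] at e0 e1 hne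
    ext i j
    change _ = (0 : ZMod ℓ)
    have hne' := sub_ne_zero.2 hne
    apply (mul_eq_zero.1 (show (modMat ℓ g) i j * _ = 0 from ?_)).resolve_right hne'
    fin_cases j
    · simp only [Fin.zero_eta] at *
      linear_combination (modMat ℓ N₁ 1 0 * v 0 + modMat ℓ N₁ 1 1 * v 1) * e0 i - v 1 * e1 i
    · simp only [Fin.mk_one] at *
      linear_combination -(modMat ℓ N₁ 0 0 * v 0 + modMat ℓ N₁ 0 1 * v 1) * e0 i + v 0 * e1 i
  rw [modMat_eq_zero_iff] at hz
  obtain ⟨a, ha⟩ := hz 0 0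
  obtain ⟨b, hb⟩ := hz 0 1
  obtain ⟨c, hc⟩ := hz 1 0
  obtain ⟨f, hf⟩ := hz 1 1
  rw [det_fin_two, ha, hb, hc, hf] at hg
  have h2 : (ℓ : ℤ) * (a * f - b * c) = 1 := by
    apply mul_left_cancel₀ hℓ.ne'
    linear_combination hg
  have h3 := Int.eq_one_of_mul_eq_one_right hℓ.le h2
  have := (Fact.out : ℓ.Prime).one_lt
  omega

/-- If `ℓ` is inert in all fields occurring, no Hecke neighbour of an Atkin-Lehner fixed point is
an Atkin-Lehner fixed point. -/
theorem not_isALFixed_of_inert {D d : ℕ} (hd : 1 < d)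
    (hℓ : ∀ t : ℤ, (d : ℤ) ∣ t → t ^ 2 < 4 * d → ¬ IsSquare ((t ^ 2 - 4 * d : ℤ) : ZMod ℓ))
    {g : IMat} (hg : g.det = ℓ) {τ : ℍ} (h : IsALFixed D d τ) :
    ¬ IsALFixed D d (Newform.atkinGL g • τ) := by
  rintro ⟨M', hM', hf'⟩
  obtain ⟨M, hM, hf⟩ := h
  have key : ∀ {A : IMat} {σ : ℍ}, IsAL D d A → Fixes A σ →
      ¬ IsSquare ((disc A : ℤ) : ZMod ℓ) := by
    intro A σ hA hAσ
    obtain ⟨h1, h2⟩ := hA.trace_spec hd hAσ
    rw [disc, hA.det_eq]
    exact hℓ _ h1 h2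
  exact no_fixed_neighbour hg (key hM hf) (key hM' hf') hf hf'

/-- For `d ≥ 4` the condition is that `-d` is a non-square modulo `ℓ`. -/
theorem not_isALFixed_of_inert_of_four_le {D d : ℕ} (hd : 4 ≤ d) (hℓ2 : ℓ ≠ 2)
    (hℓ : ¬ IsSquare (-(d : ZMod ℓ))) {g : IMat} (hg : g.det = ℓ) {τ : ℍ}
    (h : IsALFixed D d τ) : ¬ IsALFixed D d (Newform.atkinGL g • τ) := by
  refine not_isALFixed_of_inert (by omega) (fun t ht ht2 hsq => hℓ ?_) hg h
  obtain ⟨k, rfl⟩ := ht
  have hk : k = 0 := by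
    by_contra hk0
    have : 1 ≤ k ^ 2 := by nlinarith [Int.one_le_abs hk0, sq_abs k]
    nlinarith [mul_le_mul_of_nonneg_left this (by positivity : (0 : ℤ) ≤ d * d)]
  obtain ⟨s, hs⟩ := hsq
  have h2 : (2 : ZMod ℓ) ≠ 0 := by
    intro e
    have : ((2 : ℕ) : ZMod ℓ) = 0 := by exact_mod_cast e
    rw [ZMod.natCast_eq_zero_iff] at this
    exact hℓ2 ((Nat.prime_dvd_prime_iff_eq Fact.out Nat.prime_two).1 this)
  refine ⟨s / 2, ?_⟩
  subst hk
  push_cast at hs
  field_simp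
  linear_combination hs

end ModPrime

end Fermat.Agent.Residual.CMFix

end
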