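/-
Atkin-Lehner fixed orbits of `Γ₀(D)` on the upper half plane.
-/
import Fermat.Agent.Residual.CMFixMatrix
import Mathlib.NumberTheory.ModularForms.CongruenceSubgroups

set_option autoImplicit false

noncomputable section

open Matrix UpperHalfPlane CongruenceSubgroup
open scoped MatrixGroups

namespace Fermat.Agent.Residual.CMFix

theorem atkinGL_SL_smul (γ : SL(2, ℤ)) (τ : ℍ) :
    Newform.atkinGL (γ : IMat) • τ = γ • τ := by
  rw [Newform.atkinGL_coe_SL, MulAction.compHom_smul_def]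

theorem det_coe_pos (γ : SL(2, ℤ)) : 0 < (γ : IMat).det := by simp

theorem atkinGL_mul_smul {A B : IMat} (hA : 0 < A.det) (hB : 0 < B.det) (τ : ℍ) :
    Newform.atkinGL (A * B) • τ = Newform.atkinGL A • (Newform.atkinGL B • τ) := by
  rw [Newform.atkinGL_mul hA.ne' hB.ne', mul_smul]

/-- Fixed points in terms of the action. -/
theorem fixes_iff_smul {M : IMat} (hM : 0 < M.det) (τ : ℍ) :
    Fixes M τ ↔ Newform.atkinGL M • τ = τ := by
  obtain ⟨hv, hne⟩ := mulVec_smul_vec hM τ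
  constructor
  · intro h
    rw [fixes_iff_mulVec.1 h] at hv
    have := congrFun hv 0
    simp [vec, hne] at this
    exact this.symm
  · intro h
    rw [h] at hv
    exact fixes_iff_mulVec.2 hv

theorem fixes_conj {M : IMat} {γ : SL(2, ℤ)} {τ : ℍ} (h : Fixes M (γ • τ)) :
    Fixes ((γ : IMat).adjugate * M * (γ : IMat)) τ ∧
      den ((γ : IMat).adjugate * M * (γ : IMat)) τ = den M (γ • τ) := by
  rw [← atkinGL_SL_smul] at h ⊢
  simpa using fixes_adjugate_mul (det_coe_pos γ) h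

theorem coe_Gamma0_dvd {D : ℕ} {γ : SL(2, ℤ)} (hγ : γ ∈ Gamma0 D) : (D : ℤ) ∣ (γ : IMat) 1 0 :=
  (ZMod.intCast_zmod_eq_zero_iff_dvd _ _).1 (Gamma0_mem.1 hγ)

theorem IsAL.Gamma0_mul {D d : ℕ} {M : IMat} (hM : IsAL D d M) (hdD : d ∣ D) {γ : SL(2, ℤ)}
    (hγ : γ ∈ Gamma0 D) : IsAL D d ((γ : IMat) * M) where
  det_eq := by simp [hM.det_eq]
  dvd00 := by
    rw [Matrix.mul_apply, Fin.sum_univ_two]
    exact dvd_add (hM.dvd00.mul_left _) (((Int.natCast_dvd_natCast.2 hdD).trans hM.dvd10).mul_left _)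
  dvd11 := by
    rw [Matrix.mul_apply, Fin.sum_univ_two]
    exact dvd_add (((Int.natCast_dvd_natCast.2 hdD).trans (coe_Gamma0_dvd hγ)).mul_right _)
      (hM.dvd11.mul_left _)
  dvd10 := by
    rw [Matrix.mul_apply, Fin.sum_univ_two]
    exact dvd_add ((coe_Gamma0_dvd hγ).mul_right _) (hM.dvd10.mul_left _)

theorem IsAL.mul_Gamma0 {D d : ℕ} {M : IMat} (hM : IsAL D d M) (hdD : d ∣ D) {γ : SL(2, ℤ)}
    (hγ : γ ∈ Gamma0 D) : IsAL D d (M * (γ : IMat)) where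
  det_eq := by simp [hM.det_eq]
  dvd00 := by
    rw [Matrix.mul_apply, Fin.sum_univ_two]
    exact dvd_add (hM.dvd00.mul_right _)
      (((Int.natCast_dvd_natCast.2 hdD).trans (coe_Gamma0_dvd hγ)).mul_left _)
  dvd11 := by
    rw [Matrix.mul_apply, Fin.sum_univ_two]
    exact dvd_add (((Int.natCast_dvd_natCast.2 hdD).trans hM.dvd10).mul_right _)
      (hM.dvd11.mul_right _)
  dvd10 := by
    rw [Matrix.mul_apply, Fin.sum_univ_two]
    exact dvd_add (hM.dvd10.mul_right _) ((coe_Gamma0_dvd hγ).mul_left _)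

theorem IsAL.neg {D d : ℕ} {M : IMat} (hM : IsAL D d M) : IsAL D d (-M) where
  det_eq := by simp [det_neg, hM.det_eq]
  dvd00 := by simpa using hM.dvd00
  dvd11 := by simpa using hM.dvd11
  dvd10 := by simpa using hM.dvd10

/-- Two Atkin-Lehner matrices of the same type differ by an element of `Γ₀(D)`. -/
theorem IsAL.exists_Gamma0 {D d : ℕ} {M W : IMat} (hM : IsAL D d M) (hW : IsAL D d W)
    (hdD : d ∣ D) (hd : 0 < d) : ∃ γ ∈ Gamma0 D, M = (γ : IMat) * W := by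
  have hdD' : (d : ℤ) ∣ D := Int.natCast_dvd_natCast.2 hdD
  obtain ⟨a, ha⟩ := hM.dvd00
  obtain ⟨e, he⟩ := hM.dvd11
  obtain ⟨c, hc⟩ := hM.dvd10
  obtain ⟨a', ha'⟩ := hW.dvd00
  obtain ⟨e', he'⟩ := hW.dvd11
  obtain ⟨c', hc'⟩ := hW.dvd10
  obtain ⟨q, hq⟩ := hdD'
  let G : IMat := !![M 0 0 * e' - M 0 1 * (q * c'), M 0 1 * a' - a * W 0 1;
    (D : ℤ) * (c * e' - e * c'), M 1 1 * a' - q * c * W 0 1]
  have hG : (d : ℤ) • G = M * W.adjugate := by
    rw [adjugate_fin_two]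
    ext i j
    fin_cases i <;> fin_cases j <;>
      simp [G, Matrix.mul_apply, Fin.sum_univ_two, ha, he, hc, ha', he', hc', hq] <;> ring
  have hd0 : (d : ℤ) ≠ 0 := by omega
  have hdet : G.det = 1 := by
    have h := congrArg Matrix.det hG
    rw [det_smul, det_mul, det_adjugate, Fintype.card_fin, hM.det_eq, hW.det_eq] at h
    apply mul_left_cancel₀ (pow_ne_zero 2 hd0)
    rw [h]
    ring
  refine ⟨(⟨G, hdet⟩ : SL(2, ℤ)), ?_, ?_⟩
  · exact Gamma0_mem.2 ((ZMod.intCast_zmod_eq_zero_iff_dvd _ _).2 ⟨_, rfl⟩)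
  · apply smul_right_injective IMat hd0
    show (d : ℤ) • M = (d : ℤ) • (G * W)
    rw [← Matrix.smul_mul, hG, Matrix.mul_assoc, adjugate_mul, hW.det_eq, Matrix.mul_smul,
      Matrix.mul_one]

/-- The orbit of `τ` is fixed by the involution given by any one matrix `W` of the type `(D, d)`
iff some matrix of that type fixes `τ`. -/
theorem isALFixed_iff {D d : ℕ} {W : IMat} (hW : IsAL D d W) (hdD : d ∣ D) (hd : 0 < d) (τ : ℍ) :
    IsALFixed D d τ ↔ ∃ γ ∈ Gamma0 D, γ • (Newform.atkinGL W • τ) = τ := by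
  have hdW : 0 < W.det := by rw [hW.det_eq]; exact_mod_cast hd
  constructor
  · rintro ⟨M, hM, hf⟩
    obtain ⟨γ, hγ, rfl⟩ := hM.exists_Gamma0 hW hdD hd
    refine ⟨γ, hγ, ?_⟩
    rw [← atkinGL_SL_smul γ, ← atkinGL_mul_smul (det_coe_pos γ) hdW]
    exact (fixes_iff_smul (by rw [hM.det_eq]; exact_mod_cast hd) τ).1 hf
  · rintro ⟨γ, hγ, h⟩
    refine ⟨(γ : IMat) * W, hW.Gamma0_mul hdD hγ, ?_⟩
    rw [fixes_iff_smul (by simp [hW.det_eq, hd]), atkinGL_mul_smul (det_coe_pos γ) hdW,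
      atkinGL_SL_smul]
    exact h

theorem IsALFixed.smul {D d : ℕ} (hdD : d ∣ D) {γ : SL(2, ℤ)} (hγ : γ ∈ Gamma0 D) {τ : ℍ}
    (h : IsALFixed D d τ) : IsALFixed D d (γ • τ) := by
  obtain ⟨M, hM, hf⟩ := h
  rw [← inv_smul_smul γ τ] at hf
  refine ⟨_, ?_, (fixes_conj hf).1⟩
  have hγ' := (Gamma0 D).inv_mem hγ
  have e : ((γ⁻¹ : SL(2, ℤ)) : IMat).adjugate = (γ : IMat) := by
    rw [Matrix.SpecialLinearGroup.coe_inv, adjugate_adjugate _ (by simp)]
    simp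
  rw [e]
  exact (hM.Gamma0_mul hdD hγ).mul_Gamma0 hdD hγ'

theorem isALFixed_smul_iff {D d : ℕ} (hdD : d ∣ D) {γ : SL(2, ℤ)} (hγ : γ ∈ Gamma0 D) (τ : ℍ) :
    IsALFixed D d (γ • τ) ↔ IsALFixed D d τ := by
  refine ⟨fun h => ?_, fun h => h.smul hdD hγ⟩
  simpa using h.smul hdD ((Gamma0 D).inv_mem hγ)

end Fermat.Agent.Residual.CMFix

end
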