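/-
The fixed points of the Fricke involution of `X₀(N)`: the points `(x + i/√N) / z`.
-/
import Fermat.Agent.Residual.CMFixOrbit
import Mathlib.Analysis.Real.Sqrt
import Mathlib.Data.Nat.Squarefree
import Mathlib.RingTheory.Int.Basic

set_option autoImplicit false

noncomputable section

open Matrix UpperHalfPlane CongruenceSubgroup
open scoped MatrixGroups

namespace Fermat.Agent.Residual.CMFix

/-- `i √N`. -/
def rtN (N : ℕ) : ℂ := Complex.I * (Real.sqrt N : ℂ)

theorem rtN_mul_self (N : ℕ) : rtN N * rtN N = -(N : ℂ) := by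
  rw [rtN, mul_mul_mul_comm, Complex.I_mul_I, ← Complex.ofReal_mul,
    Real.mul_self_sqrt (Nat.cast_nonneg N)]
  simp

@[simp]
theorem rtN_re (N : ℕ) : (rtN N).re = 0 := by simp [rtN]

@[simp]
theorem rtN_im (N : ℕ) : (rtN N).im = Real.sqrt N := by simp [rtN]

theorem rtN_ne_zero (N : ℕ) [NeZero N] : rtN N ≠ 0 := by
  simp [rtN, NeZero.ne N]

/-- Parameters `x`, `z > 0` with `z ∣ N x² + 1`. -/
structure CMData (N : ℕ) where
  /-- the parameter `x` -/
  x : ℤ
  /-- the parameter `z` -/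
  z : ℤ
  z_pos : 0 < z
  dvd : z ∣ (N : ℤ) * x ^ 2 + 1

namespace CMData

variable {N : ℕ} (P : CMData N)

/-- The third parameter, `y z = -(N x² + 1)`. -/
def y : ℤ := -(((N : ℤ) * P.x ^ 2 + 1) / P.z)

theorem y_mul_z : P.y * P.z = -((N : ℤ) * P.x ^ 2 + 1) := by
  rw [y, neg_mul, Int.ediv_mul_cancel P.dvd]

/-- The Atkin-Lehner matrix fixing the point. -/
def mat : IMat := !![(N : ℤ) * P.x, P.y; (N : ℤ) * P.z, -((N : ℤ) * P.x)]

theorem det_mat : P.mat.det = N := by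
  rw [mat, det_fin_two_of]
  linear_combination -(N : ℤ) * P.y_mul_z

theorem isAL : IsAL N N P.mat where
  det_eq := P.det_mat
  dvd00 := by simp [mat]
  dvd11 := by simp [mat]
  dvd10 := by simp [mat]

theorem coprime_y : Int.gcd P.y N = 1 := by
  rw [← Int.isCoprime_iff_gcd_eq_one]
  exact ⟨-P.z, -P.x ^ 2, by linear_combination -P.y_mul_z⟩

variable [NeZero N]

/-- The point `(x + i/√N)/z`. -/
def pt : ℍ :=
  UpperHalfPlane.mk (((N : ℂ) * P.x + rtN N) / ((N : ℂ) * P.z)) (by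
    have h : (0 : ℝ) < (N : ℝ) * (P.z : ℝ) :=
      mul_pos (Nat.cast_pos.2 (Nat.pos_of_neZero N)) (Int.cast_pos.2 P.z_pos)
    rw [show (N : ℂ) * (P.z : ℂ) = (((N : ℝ) * (P.z : ℝ) : ℝ) : ℂ) by push_cast; ring,
      Complex.div_ofReal_im]
    simpa using div_pos (Real.sqrt_pos.2 (Nat.cast_pos.2 (Nat.pos_of_neZero N))) h)

theorem nz_mul_pt : (N : ℂ) * P.z * (P.pt : ℂ) = (N : ℂ) * P.x + rtN N := by
  show (N : ℂ) * P.z * (((N : ℂ) * P.x + rtN N) / ((N : ℂ) * P.z)) = _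
  rw [mul_div_cancel₀]
  exact mul_ne_zero (Nat.cast_ne_zero.2 (NeZero.ne N)) (Int.cast_ne_zero.2 P.z_pos.ne')

theorem den_mat : den P.mat P.pt = rtN N := by
  simp only [den, mat, cons_val', cons_val_zero, cons_val_one, of_apply, empty_val',
    cons_val_fin_one]
  push_cast
  linear_combination P.nz_mul_pt

theorem fixes : Fixes P.mat P.pt := by
  unfold Fixes
  rw [den_mat]
  have hy : (P.y : ℂ) * P.z = -((N : ℂ) * P.x ^ 2 + 1) := by exact_mod_cast P.y_mul_z
  have hN : (N : ℂ) ≠ 0 := Nat.cast_ne_zero.2 (NeZero.ne N)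
  have hz : (P.z : ℂ) ≠ 0 := Int.cast_ne_zero.2 P.z_pos.ne'
  apply mul_left_cancel₀ (mul_ne_zero hN hz)
  simp only [mat, cons_val', cons_val_zero, cons_val_one, of_apply, empty_val', cons_val_fin_one]
  push_cast
  linear_combination ((N : ℂ) * P.x - rtN N) * P.nz_mul_pt + (N : ℂ) * hy - rtN_mul_self N

theorem isALFixed : IsALFixed N N P.pt := ⟨P.mat, P.isAL, P.fixes⟩

omit P in
theorem pt_injective : Function.Injective (fun P : CMData N => P.pt) := by
  intro P Q h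
  simp only at h
  have e1 := P.nz_mul_pt
  have e2 := Q.nz_mul_pt
  rw [h] at e1
  have hN : (N : ℤ) ≠ 0 := Int.natCast_ne_zero.2 (NeZero.ne N)
  have h0 := eq_zero_of_cast (u := (N : ℤ) * (P.z - Q.z)) (v := (N : ℤ) * (Q.x - P.x)) (τ := Q.pt)
    (by push_cast; linear_combination e1 - e2)
  simp only [mul_eq_zero, hN, false_or, sub_eq_zero] at h0
  obtain ⟨x, z, hz, hd⟩ := P
  obtain ⟨x', z', hz', hd'⟩ := Q
  simp only at h0
  obtain ⟨rfl, rfl⟩ := h0
  rfl

end CMData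

variable {N : ℕ} [NeZero N]

/-- An integer matrix of eigenvalue `i √N` at a point has trace `0` and determinant `N`. -/
theorem trace_det_of_den {M : IMat} {τ : ℍ} (h : Fixes M τ) (hden : den M τ = rtN N) :
    M 0 0 + M 1 1 = 0 ∧ M.det = N := by
  rw [den] at hden
  have h' : (M 0 0 : ℂ) * τ + M 0 1 = rtN N * τ := by rw [← hden]; exact h
  have key : ((M.det - N : ℤ) : ℂ) - ((M 0 0 + M 1 1 : ℤ) : ℂ) * rtN N = 0 := by
    rw [det_fin_two]
    push_cast
    linear_combination -(M 1 0 : ℂ) * h' + ((M 0 0 : ℂ) - rtN N) * hden - rtN_mul_self N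
  have hi := congrArg Complex.im key
  simp [NeZero.ne N] at hi
  have hr := congrArg Complex.re key
  simp at hr
  exact ⟨by exact_mod_cast hi, by exact_mod_cast (sub_eq_zero.1 hr)⟩

/-- Uniqueness of the data: a matrix of the right shape with eigenvalue `i √N` comes from data. -/
theorem exists_data_of_den {M : IMat} (hM : IsAL N N M) {τ : ℍ} (h : Fixes M τ)
    (hden : den M τ = rtN N) : ∃ P : CMData N, P.pt = τ ∧ P.mat = M := by
  obtain ⟨ht, hdet⟩ := trace_det_of_den h hden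
  obtain ⟨x, hx⟩ := hM.dvd00
  obtain ⟨z, hz⟩ := hM.dvd10
  have hN : (0 : ℤ) < N := Int.natCast_pos.2 (Nat.pos_of_neZero N)
  have hzpos : 0 < z := by
    have hi := congrArg Complex.im hden
    simp [den, hz] at hi
    have h0 : (0 : ℝ) < N * (z : ℝ) * τ.im := by
      rw [hi]
      exact Real.sqrt_pos.2 (Nat.cast_pos.2 (Nat.pos_of_neZero N))
    have h1 : (0 : ℝ) < (N : ℝ) * z := pos_of_mul_pos_left h0 τ.im_pos.le
    exact_mod_cast pos_of_mul_pos_right h1 (Nat.cast_nonneg N)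
  have hyz : M 0 1 * z = -((N : ℤ) * x ^ 2 + 1) := by
    apply mul_left_cancel₀ hN.ne'
    rw [det_fin_two, eq_neg_of_add_eq_zero_right ht, hx, hz] at hdet
    linear_combination -hdet
  let P : CMData N :=
    ⟨x, z, hzpos, ⟨-(M 0 1), by linear_combination hyz⟩⟩
  have hmat : P.mat = M := by
    have hy : P.y = M 0 1 := mul_right_cancel₀ hzpos.ne' (P.y_mul_z.trans hyz.symm)
    ext i j
    fin_cases i <;> fin_cases j <;> simp [CMData.mat, P, hx, hz, ← hy]
    linarith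
  refine ⟨P, ?_, hmat⟩
  apply UpperHalfPlane.ext
  have e := P.nz_mul_pt
  rw [den, eq_neg_of_add_eq_zero_right ht, hx, hz] at hden
  push_cast at hden
  apply mul_left_cancel₀ (mul_ne_zero (Nat.cast_ne_zero.2 (NeZero.ne N) : (N : ℂ) ≠ 0)
    (Int.cast_ne_zero.2 hzpos.ne' : (z : ℂ) ≠ 0))
  show (N : ℂ) * (z : ℂ) * (P.pt : ℂ) = _
  rw [e]
  simp only [P]
  linear_combination -hden

/-- For `N ≥ 4` every fixed point is one of the `(x + i/√N)/z`. -/
theorem IsALFixed.exists_data (hN : 4 ≤ N) {τ : ℍ} (h : IsALFixed N N τ) :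
    ∃ P : CMData N, P.pt = τ := by
  obtain ⟨M, hM, hf⟩ := h
  have ht := hM.trace_eq_zero hN hf
  have hd2 : den M τ * den M τ = -(N : ℂ) := by
    have hdet : ((M.det : ℤ) : ℂ) = (N : ℂ) := by rw [hM.det_eq]; simp
    rw [det_fin_two] at hdet
    push_cast at hdet
    have ht' : (M 0 0 : ℂ) + M 1 1 = 0 := by exact_mod_cast ht
    have hf' : (M 0 0 : ℂ) * τ + M 0 1 = den M τ * τ := hf
    rw [den] at hf' ⊢
    linear_combination -hdet + ((M 1 0 : ℂ) * τ + M 1 1) * ht' - (M 1 0 : ℂ) * hf'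
  rw [← rtN_mul_self] at hd2
  rcases mul_self_eq_mul_self_iff.1 hd2 with hd | hd
  · obtain ⟨P, hP, -⟩ := exists_data_of_den hM hf hd
    exact ⟨P, hP⟩
  · have hf' : Fixes (-M) τ ∧ den (-M) τ = rtN N := by
      refine fixes_of_mulVec ?_
      rw [show cmat (-M) = -cmat M from map_neg _ M, neg_mulVec, fixes_iff_mulVec.1 hf, hd]
      ext i
      simp
    obtain ⟨P, hP, -⟩ := exists_data_of_den hM.neg hf'.1 hf'.2
    exact ⟨P, hP⟩

/-- An element of `SL(2, ℤ)` mapping one fixed point to another is in `Γ₀(N)`. -/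
theorem CMData.mem_Gamma0 (P Q : CMData N) {γ : SL(2, ℤ)} (h : γ • P.pt = Q.pt) :
    γ ∈ Gamma0 N := by
  obtain ⟨hv, hne⟩ := mulVec_smul_vec (det_coe_pos γ) P.pt
  rw [atkinGL_SL_smul, h] at hv
  have e : (γ : IMat) * P.mat = Q.mat * (γ : IMat) := by
    apply eq_of_mulVec_eq (τ := P.pt)
    rw [cmat_mul, cmat_mul, ← mulVec_mulVec, ← mulVec_mulVec, fixes_iff_mulVec.1 P.fixes,
      mulVec_smul, hv, mulVec_smul, fixes_iff_mulVec.1 Q.fixes, P.den_mat, Q.den_mat, smul_smul,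
      smul_smul, mul_comm]
  have h11 := congrFun (congrFun e 1) 1
  simp [Matrix.mul_apply, Fin.sum_univ_two, CMData.mat] at h11
  rw [Gamma0_mem, ZMod.intCast_zmod_eq_zero_iff_dvd]
  refine Int.dvd_of_dvd_mul_left_of_gcd_one (c := P.y) ⟨(γ : IMat) 1 1 * P.x +
    Q.z * (γ : IMat) 0 1 - Q.x * (γ : IMat) 1 1, by linear_combination h11⟩ ?_
  rw [Int.gcd_comm]
  exact P.coprime_y

omit [NeZero N] in
/-- A primitive vector killed by a nilpotent-mod-`N` matrix. -/
theorem exists_kernel (hN : Squarefree N) {M : IMat} (ht : M 0 0 + M 1 1 = 0) (hdet : M.det = N) :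
    ∃ v0 v1 : ℤ, IsCoprime v0 v1 ∧ (N : ℤ) ∣ M 0 0 * v0 + M 0 1 * v1 ∧
      (N : ℤ) ∣ M 1 0 * v0 + M 1 1 * v1 := by
  rw [det_fin_two, eq_neg_of_add_eq_zero_right ht] at hdet
  rw [eq_neg_of_add_eq_zero_right ht]
  set a := M 0 0
  set b := M 0 1
  set c := M 1 0
  classical
  let t : ℤ := ∏ p ∈ N.primeFactors.filter (fun p : ℕ => ¬((p : ℤ) ∣ a ∧ (p : ℤ) ∣ b)), (p : ℤ)
  have hkey : ∀ p : ℕ, p.Prime → p ∣ N →
      ¬((p : ℤ) ∣ b + t * a ∧ (p : ℤ) ∣ -a + t * c) := by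
    intro p hp hpN ⟨h0, h1⟩
    have hpp : Prime (p : ℤ) := Nat.prime_iff_prime_int.mp hp
    by_cases hab : (p : ℤ) ∣ a ∧ (p : ℤ) ∣ b
    · have hpt : ¬ (p : ℤ) ∣ t := by
        intro hd
        obtain ⟨q, hq, hpq⟩ := hpp.exists_mem_finset_dvd hd
        simp only [Finset.mem_filter, Nat.mem_primeFactors] at hq
        rw [Int.natCast_dvd_natCast, Nat.prime_dvd_prime_iff_eq hp hq.1.1] at hpq
        exact hq.2 (hpq ▸ hab)
      have hc : (p : ℤ) ∣ c :=
        (hpp.dvd_or_dvd ((dvd_add_right (dvd_neg.2 hab.1)).1 h1)).resolve_left hpt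
      have h2 : ((p * p : ℕ) : ℤ) ∣ (N : ℤ) := by
        rw [← hdet, Nat.cast_mul, mul_neg]
        exact dvd_sub (dvd_neg.2 (mul_dvd_mul hab.1 hab.1)) (mul_dvd_mul hab.2 hc)
      exact hp.not_isUnit (hN p (Int.natCast_dvd_natCast.1 h2))
    · have hpt : (p : ℤ) ∣ t := Finset.dvd_prod_of_mem (fun q : ℕ => (q : ℤ)) (by
        simp only [Finset.mem_filter, Nat.mem_primeFactors]
        exact ⟨⟨hp, hpN, hN.ne_zero⟩, hab⟩)
      refine hab ⟨?_, (dvd_add_left (hpt.mul_right _)).1 h0⟩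
      exact dvd_neg.1 ((dvd_add_left (hpt.mul_right _)).1 h1)
  have e0 : (N : ℤ) ∣ a * (b + t * a) + b * (-a + t * c) :=
    ⟨-t, by linear_combination -t * hdet⟩
  have e1 : (N : ℤ) ∣ c * (b + t * a) + -a * (-a + t * c) :=
    ⟨-1, by linear_combination -hdet⟩
  rcases Nat.eq_zero_or_pos (Int.gcd (b + t * a) (-a + t * c)) with hg | hg
  · obtain ⟨g0, g1⟩ := Int.gcd_eq_zero_iff.1 hg
    have hN1 : N = 1 := by
      by_contra hne
      obtain ⟨p, hp, hpN⟩ := Nat.exists_prime_and_dvd hne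
      exact hkey p hp hpN ⟨g0 ▸ dvd_zero _, g1 ▸ dvd_zero _⟩
    exact ⟨1, 0, isCoprime_one_left, by simp [hN1], by simp [hN1]⟩
  · obtain ⟨v0, v1, hcop, h0, h1⟩ := Int.exists_gcd_one hg
    set g := Int.gcd (b + t * a) (-a + t * c)
    have hgN : Int.gcd (N : ℤ) g = 1 := by
      rw [Int.gcd_natCast_natCast]
      refine Nat.coprime_of_dvd fun p hp hpN hpg => hkey p hp hpN ⟨?_, ?_⟩
      · rw [h0]; exact (Int.natCast_dvd_natCast.2 hpg).mul_left _
      · rw [h1]; exact (Int.natCast_dvd_natCast.2 hpg).mul_left _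
    refine ⟨v0, v1, Int.isCoprime_iff_gcd_eq_one.2 hcop,
      Int.dvd_of_dvd_mul_left_of_gcd_one (c := (g : ℤ)) ?_ hgN,
      Int.dvd_of_dvd_mul_left_of_gcd_one (c := (g : ℤ)) ?_ hgN⟩
    · rw [h0, h1] at e0
      convert e0 using 1
      ring
    · rw [h0, h1] at e1
      convert e1 using 1
      ring

/-- Every point with an integer endomorphism of eigenvalue `i √N` is `SL(2, ℤ)`-equivalent to a
fixed point of the Fricke involution. -/
theorem exists_data_smul (hN : Squarefree N) {M : IMat} {τ : ℍ} (h : Fixes M τ)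
    (hden : den M τ = rtN N) : ∃ (P : CMData N) (γ : SL(2, ℤ)), γ • P.pt = τ := by
  obtain ⟨ht, hdet⟩ := trace_det_of_den h hden
  obtain ⟨v0, v1, ⟨r, s, hrs⟩, hk0, hk1⟩ := exists_kernel hN ht hdet
  let γ : SL(2, ℤ) := ⟨!![v0, -s; v1, r], by rw [det_fin_two_of]; linear_combination hrs⟩
  have hsm : γ • (γ⁻¹ • τ) = τ := smul_inv_smul γ τ
  obtain ⟨hf, hd⟩ := fixes_conj (γ := γ) (τ := γ⁻¹ • τ) (hsm.symm ▸ h)
  rw [hsm, hden] at hd
  have hγ : (γ : IMat) = !![v0, -s; v1, r] := rfl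
  have hadj : (γ : IMat).adjugate = !![r, s; -v1, v0] := by
    rw [hγ, adjugate_fin_two_of, neg_neg]
  have hAL : IsAL N N ((γ : IMat).adjugate * M * (γ : IMat)) := by
    have h00 : (N : ℤ) ∣ ((γ : IMat).adjugate * M * (γ : IMat)) 0 0 := by
      have e : ((γ : IMat).adjugate * M * (γ : IMat)) 0 0 =
          r * (M 0 0 * v0 + M 0 1 * v1) + s * (M 1 0 * v0 + M 1 1 * v1) := by
        rw [hadj, hγ, Matrix.mul_apply, Fin.sum_univ_two, Matrix.mul_apply, Fin.sum_univ_two,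
          Matrix.mul_apply, Fin.sum_univ_two]
        simp only [cons_val', cons_val_zero, cons_val_one, of_apply, empty_val', cons_val_fin_one]
        ring
      rw [e]
      exact dvd_add (hk0.mul_left _) (hk1.mul_left _)
    refine ⟨by simp [hdet, det_adjugate], h00, ?_, ?_⟩
    · obtain ⟨ht', -⟩ := trace_det_of_den hf hd
      rw [eq_neg_of_add_eq_zero_right ht']
      exact dvd_neg.2 h00
    · have e : ((γ : IMat).adjugate * M * (γ : IMat)) 1 0 =
          -v1 * (M 0 0 * v0 + M 0 1 * v1) + v0 * (M 1 0 * v0 + M 1 1 * v1) := by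
        rw [hadj, hγ, Matrix.mul_apply, Fin.sum_univ_two, Matrix.mul_apply, Fin.sum_univ_two,
          Matrix.mul_apply, Fin.sum_univ_two]
        simp only [cons_val', cons_val_zero, cons_val_one, of_apply, empty_val', cons_val_fin_one]
        ring
      rw [e]
      exact dvd_add (hk0.mul_left _) (hk1.mul_left _)
  obtain ⟨P, hP, -⟩ := exists_data_of_den hAL hf hd
  exact ⟨P, γ, by rw [hP, hsm]⟩

end Fermat.Agent.Residual.CMFix

end
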