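/-
The ring of integers of `ℚ(√-N)`, `N` squarefree, `N ≢ 3 mod 4`, is `ℤ[√-N]`.
-/
import Fermat.Agent.Residual.CMFixData
import Mathlib.NumberTheory.NumberField.Basic
import Mathlib.NumberTheory.NumberField.InfinitePlace.Embeddings
import Mathlib.RingTheory.IntegralClosure.IntegrallyClosed

set_option autoImplicit false

noncomputable section

open NumberField UpperHalfPlane

namespace Fermat.Agent.Residual.CMFix

/-- A square root of `-N` generating the quadratic field `K`. -/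
structure SqrtNeg (N : ℕ) (K : Type*) [Field K] [NumberField K] where
  /-- the square root -/
  θ : 𝓞 K
  sq : θ * θ = -(N : 𝓞 K)
  finrank_eq : Module.finrank ℚ K = 2

theorem isIntegral_rat {q : ℚ} (h : IsIntegral ℤ (q : ℂ)) : ∃ n : ℤ, (n : ℚ) = q := by
  have h' : IsIntegral ℤ q :=
    (isIntegral_algHom_iff ((algebraMap ℚ ℂ).toIntAlgHom) (algebraMap ℚ ℂ).injective).1 (by
      simpa using h)
  obtain ⟨n, hn⟩ := IsIntegrallyClosed.isIntegral_iff.1 h'
  exact ⟨n, by simpa using hn⟩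

/-- The arithmetic of integrality in `ℚ(√-N)`. -/
theorem int_of_trace_norm {N : ℕ} (hN : Squarefree N) (h4 : N % 4 ≠ 3) {a b : ℚ} {u n : ℤ}
    (hu : (u : ℚ) = 2 * a) (hn : (n : ℚ) = a ^ 2 + N * b ^ 2) :
    ∃ a' b' : ℤ, (a' : ℚ) = a ∧ (b' : ℚ) = b := by
  set v := 2 * b with hv
  have hv2 : (N : ℚ) * v ^ 2 = ((4 * n - u ^ 2 : ℤ) : ℚ) := by
    push_cast
    rw [hu, hn, hv]
    ring
  obtain ⟨w, hw⟩ : ∃ w : ℤ, (w : ℚ) = v := by
    refine ⟨v.num, Rat.coe_int_num_of_den_eq_one ?_⟩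
    have h1 : (N : ℤ) * v.num ^ 2 = (4 * n - u ^ 2) * (v.den : ℤ) ^ 2 := by
      have h := hv2
      rw [← Rat.num_div_den v, div_pow, mul_div_assoc', div_eq_iff (by simp)] at h
      exact_mod_cast h
    have hcop : Nat.Coprime (v.den ^ 2) (v.num.natAbs ^ 2) :=
      (Nat.Coprime.pow 2 2 v.reduced).symm
    have hdvd : v.den ^ 2 ∣ N * v.num.natAbs ^ 2 := by
      have h3 := congrArg Int.natAbs h1
      simp only [Int.natAbs_mul, Int.natAbs_pow, Int.natAbs_natCast] at h3
      exact ⟨(4 * n - u ^ 2).natAbs, by rw [h3]; ring⟩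
    have h5 : v.den * v.den ∣ N := by
      rw [← sq]
      exact hcop.dvd_of_dvd_mul_right hdvd
    exact Nat.isUnit_iff.1 (hN v.den h5)
  have h4n : (N : ℤ) * w ^ 2 + u ^ 2 = 4 * n := by
    rw [← hw] at hv2
    have hv3 : (N : ℤ) * w ^ 2 = 4 * n - u ^ 2 := by exact_mod_cast hv2
    linarith
  have hN4 : N % 4 = 1 ∨ N % 4 = 2 := by
    have h0 : N % 4 ≠ 0 := fun h => by
      exact absurd (Nat.isUnit_iff.1 (hN 2 (Nat.dvd_of_mod_eq_zero h))) (by norm_num)
    omega
  have key : ∀ r U W : ZMod 4, (r = 1 ∨ r = 2) → r * W ^ 2 + U ^ 2 = 0 →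
      2 * U = 0 ∧ 2 * W = 0 := by decide
  have hmod := congrArg (fun t : ℤ => (t : ZMod 4)) h4n
  simp only [Int.cast_add, Int.cast_mul, Int.cast_pow, Int.cast_natCast] at hmod
  rw [show ((4 : ℤ) : ZMod 4) = 0 from rfl, zero_mul] at hmod
  obtain ⟨hU, hW⟩ := key (N : ZMod 4) u w (by
    rcases hN4 with h | h
    · left; rw [← ZMod.natCast_mod, h]; rfl
    · right; rw [← ZMod.natCast_mod, h]; rfl) hmod
  have even : ∀ m : ℤ, 2 * (m : ZMod 4) = 0 → (2 : ℤ) ∣ m := fun m hm => by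
    have : ((2 * m : ℤ) : ZMod 4) = 0 := by push_cast; exact hm
    have := (ZMod.intCast_zmod_eq_zero_iff_dvd _ _).1 this
    omega
  obtain ⟨a', ha'⟩ := even u hU
  obtain ⟨b', hb'⟩ := even w hW
  refine ⟨a', b', ?_, ?_⟩
  · rw [ha'] at hu
    push_cast at hu
    linarith
  · rw [hb'] at hw
    push_cast at hw
    linarith [hv]

namespace SqrtNeg

variable {N : ℕ} [NeZero N] {K : Type*} [Field K] [NumberField K] (S : SqrtNeg N K)

theorem exists_emb : ∃ σ : K →+* ℂ, σ (algebraMap (𝓞 K) K S.θ) = rtN N := by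
  obtain ⟨φ⟩ := (inferInstance : Nonempty (K →+* ℂ))
  have h : φ (algebraMap (𝓞 K) K S.θ) * φ (algebraMap (𝓞 K) K S.θ) = rtN N * rtN N := by
    rw [rtN_mul_self, ← map_mul, ← map_mul, S.sq]
    simp
  rcases mul_self_eq_mul_self_iff.1 h with h | h
  · exact ⟨φ, h⟩
  · refine ⟨(starRingEnd ℂ).comp φ, ?_⟩
    rw [RingHom.comp_apply, h, map_neg, rtN, map_mul, Complex.conj_I, Complex.conj_ofReal,
      neg_mul, neg_neg]

/-- The embedding in `ℂ` with `θ ↦ i √N`. -/
def emb : 𝓞 K →+* ℂ := S.exists_emb.choose.comp (algebraMap (𝓞 K) K)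

theorem emb_θ : S.emb S.θ = rtN N := S.exists_emb.choose_spec

theorem emb_injective : Function.Injective S.emb :=
  S.exists_emb.choose.injective.comp RingOfIntegers.coe_injective

theorem linearIndependent : LinearIndependent ℚ ![(1 : K), algebraMap (𝓞 K) K S.θ] := by
  rw [LinearIndependent.pair_iff]
  intro s t h
  have h' := congrArg S.exists_emb.choose h
  rw [map_add, map_zero, Algebra.smul_def, Algebra.smul_def, map_mul, map_mul, map_one, mul_one,
    eq_ratCast (algebraMap ℚ K), eq_ratCast (algebraMap ℚ K), map_ratCast, map_ratCast] at h'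
  change (s : ℂ) + (t : ℂ) * S.emb S.θ = 0 at h'
  rw [emb_θ] at h'
  have hi := congrArg Complex.im h'
  simp [NeZero.ne N] at hi
  subst hi
  simpa using h'

variable (hN : Squarefree N) (h4 : N % 4 ≠ 3)
include hN h4

/-- Every integer of `K` is `a + b θ`. -/
theorem exists_coord (w : 𝓞 K) : ∃ a b : ℤ, w = a + b * S.θ := by
  have hspan := S.linearIndependent.span_eq_top_of_card_eq_finrank (by rw [S.finrank_eq]; simp)
  have hw : algebraMap (𝓞 K) K w ∈ Submodule.span ℚ (Set.range ![1, algebraMap (𝓞 K) K S.θ]) := by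
    rw [hspan]
    exact Submodule.mem_top
  obtain ⟨c, hc⟩ := (Submodule.mem_span_range_iff_exists_fun ℚ).1 hw
  rw [Fin.sum_univ_two] at hc
  set a := c 0
  set b := c 1
  have he : S.emb w = (a : ℂ) + (b : ℂ) * rtN N := by
    rw [← S.emb_θ]
    show S.exists_emb.choose _ = _ + _ * S.exists_emb.choose _
    rw [← hc]
    simp [Algebra.smul_def]
  have hint : IsIntegral ℤ (S.emb w) :=
    (RingOfIntegers.isIntegral w).map S.emb.toIntAlgHom
  have hint' : IsIntegral ℤ (starRingEnd ℂ (S.emb w)) :=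
    hint.map (starRingEnd ℂ).toIntAlgHom
  have hconj : starRingEnd ℂ (S.emb w) = (a : ℂ) - (b : ℂ) * rtN N := by
    rw [he, map_add, map_mul, map_ratCast, map_ratCast, rtN, map_mul, Complex.conj_I,
      Complex.conj_ofReal]
    ring
  obtain ⟨u, hu⟩ := isIntegral_rat (q := 2 * a) (by
    have := hint.add hint'
    rw [hconj, he] at this
    rw [show ((2 * a : ℚ) : ℂ) = ((a : ℂ) + b * rtN N) + ((a : ℂ) - b * rtN N) by
      push_cast; ring]
    exact this)
  obtain ⟨n, hn⟩ := isIntegral_rat (q := a ^ 2 + N * b ^ 2) (by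
    have := hint.mul hint'
    rw [hconj, he] at this
    rw [show ((a ^ 2 + N * b ^ 2 : ℚ) : ℂ) = ((a : ℂ) + b * rtN N) * ((a : ℂ) - b * rtN N) by
      push_cast; linear_combination (b : ℂ) ^ 2 * rtN_mul_self N]
    exact this)
  obtain ⟨a', b', ha', hb'⟩ := int_of_trace_norm hN h4 hu hn
  refine ⟨a', b', S.emb_injective ?_⟩
  rw [he, map_add, map_mul, emb_θ, map_intCast, map_intCast]
  rw [← ha', ← hb']
  push_cast
  ring

end SqrtNeg

end Fermat.Agent.Residual.CMFix

end
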