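/-
Residual modularity at three: the field `ℚ(√-N)` of a datum, and the subgroup of its class group
generated by the ramified primes.
-/
import Fermat.Agent.Residual.Defs
import Fermat.Agent.Residual.CMFixField
import Fermat.Agent.CFT.Places
import Mathlib.NumberTheory.NumberField.ClassNumber
import Mathlib.GroupTheory.PGroup

set_option autoImplicit false

noncomputable section

open NumberField nonZeroDivisors

namespace Fermat.Agent.Residual

local notation "Qbar" => AlgebraicClosure ℚ
local notation "Γℚ" => (AlgebraicClosure ℚ ≃ₐ[ℚ] AlgebraicClosure ℚ)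

namespace Datum

variable (D : Datum)

theorem level_squarefree : Squarefree D.level :=
  Finset.squarefree_prod_of_pairwise_isCoprime
    (fun p hp q hq hpq => (Nat.coprime_iff_isRelPrime).1
      ((Nat.coprime_primes (D.prime_mem p hp) (D.prime_mem q hq)).2 hpq))
    fun p hp => (D.prime_mem p hp).squarefree

theorem two_dvd_level : 2 ∣ D.level := Finset.dvd_prod_of_mem _ D.two_mem

theorem level_mod_four : D.level % 4 ≠ 3 := by
  have := D.two_dvd_level
  omega

instance neZero_level : NeZero D.level := ⟨D.level_pos.ne'⟩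

theorem finrank_field : Module.finrank ℚ D.field = 2 := by
  have hint : IsIntegral ℚ D.sqrtNeg := Algebra.IsIntegral.isIntegral _
  rw [field, IntermediateField.adjoin.finrank hint]
  refine le_antisymm ?_ ?_
  · have hdvd : minpoly ℚ D.sqrtNeg ∣ Polynomial.X ^ 2 + Polynomial.C (D.level : ℚ) :=
      minpoly.dvd _ _ (by simp [D.sqrtNeg_sq])
    refine (Polynomial.natDegree_le_of_dvd hdvd ?_).trans (by compute_degree!)
    exact (Polynomial.monic_X_pow_add_C _ two_ne_zero).ne_zero
  · refine (minpoly.two_le_natDegree_iff hint).2 ?_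
    rintro ⟨r, hr⟩
    have h : ((r ^ 2 : ℚ) : Qbar) = ((-(D.level : ℚ) : ℚ) : Qbar) := by
      push_cast
      rw [← D.sqrtNeg_sq, ← hr, eq_ratCast]
    have h' : r ^ 2 = -(D.level : ℚ) := by exact_mod_cast h
    have hpos : (0 : ℚ) < D.level := by exact_mod_cast D.level_pos
    nlinarith [sq_nonneg r]

/-- The square root of `-N` as an element of the field. -/
def sqrtElt : D.field := ⟨D.sqrtNeg, IntermediateField.mem_adjoin_simple_self ℚ _⟩

theorem sqrtElt_sq : D.sqrtElt ^ 2 = -(D.level : D.field) :=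
  Subtype.ext (by push_cast; exact D.sqrtNeg_sq)

/-- The square root of `-N` as an integer of the field. -/
def sqrtInt : 𝓞 D.field :=
  ⟨D.sqrtElt, IsIntegral.of_pow two_pos (by
    rw [D.sqrtElt_sq]; exact (isIntegral_algebraMap (x := (D.level : ℤ))).neg)⟩

theorem sqrtInt_sq : D.sqrtInt * D.sqrtInt = -(D.level : 𝓞 D.field) := by
  apply RingOfIntegers.ext
  simp only [map_mul, map_neg, map_natCast]
  rw [← pow_two]
  exact D.sqrtElt_sq

/-- The field as an instance of the quadratic fields of the fixed point computation. -/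
def sqrtNegData : CMFix.SqrtNeg D.level D.field := ⟨D.sqrtInt, D.sqrtInt_sq, D.finrank_field⟩

theorem isComplex_field (v : InfinitePlace D.field) : v.IsComplex := by
  rw [← InfinitePlace.not_isReal_iff_isComplex, InfinitePlace.isReal_iff]
  intro h
  have h1 : v.embedding D.sqrtElt ^ 2 = -(D.level : ℂ) := by
    rw [← map_pow, D.sqrtElt_sq, map_neg, map_natCast]
  have h2 := ComplexEmbedding.IsReal.coe_embedding_apply h D.sqrtElt
  rw [← h2] at h1
  have h3 : (h.embedding D.sqrtElt) ^ 2 = -(D.level : ℝ) := by exact_mod_cast h1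
  have hpos : (0 : ℝ) < D.level := by exact_mod_cast D.level_pos
  nlinarith [sq_nonneg (h.embedding D.sqrtElt)]

theorem mem_fixingSubgroup_field_iff (σ : Γℚ) :
    σ ∈ D.field.fixingSubgroup ↔ D.ρbar σ ^ 3 = 1 := by
  rw [← D.sqrt D.sqrtNeg (by simpa [level] using D.sqrtNeg_sq) σ,
    IntermediateField.mem_fixingSubgroup_iff]
  refine ⟨fun h => h _ (IntermediateField.mem_adjoin_simple_self ℚ _), fun h => ?_⟩
  have hle : D.field ≤ IntermediateField.fixedField (Subgroup.zpowers σ) := by
    rw [field, IntermediateField.adjoin_simple_le_iff, IntermediateField.mem_fixedField_iff]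
    intro g hg
    obtain ⟨k, rfl⟩ := Subgroup.mem_zpowers_iff.1 hg
    have hs : σ ∈ MulAction.stabilizer Γℚ D.sqrtNeg := h
    exact Subgroup.zpow_mem _ hs k
  exact fun x hx =>
    (IntermediateField.mem_fixedField_iff _ _).1 (hle hx) σ (Subgroup.mem_zpowers σ)

/-- The ideal generated by a divisor `d` of `N` and `√-N`. -/
def divIdeal (d : ℕ) : Ideal (𝓞 D.field) := Ideal.span {(d : 𝓞 D.field), D.sqrtInt}

theorem natCast_mem_divIdeal (d : ℕ) : (d : 𝓞 D.field) ∈ D.divIdeal d :=
  Ideal.subset_span (Set.mem_insert _ _)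

theorem sqrtInt_mem_divIdeal (d : ℕ) : D.sqrtInt ∈ D.divIdeal d :=
  Ideal.subset_span (Set.mem_insert_of_mem _ rfl)

theorem divIdeal_one : D.divIdeal 1 = ⊤ :=
  (Ideal.eq_top_iff_one _).2 (by simpa using D.natCast_mem_divIdeal 1)

theorem divIdeal_level : D.divIdeal D.level = Ideal.span {D.sqrtInt} := by
  refine le_antisymm (Ideal.span_le.2 ?_) ((Ideal.span_singleton_le_iff_mem _).2
    (D.sqrtInt_mem_divIdeal _))
  rintro x (rfl | rfl)
  · exact Ideal.mem_span_singleton'.2 ⟨-D.sqrtInt, by rw [neg_mul, D.sqrtInt_sq, neg_neg]⟩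
  · exact Ideal.mem_span_singleton_self _

/-- The square of the ideal of `d` is `(d)`. -/
theorem divIdeal_mul_self {d : ℕ} (hd : d ∣ D.level) :
    D.divIdeal d * D.divIdeal d = Ideal.span {(d : 𝓞 D.field)} := by
  obtain ⟨M, hM⟩ := hd
  have hcop : Nat.Coprime d M := Nat.coprime_of_squarefree_mul (hM ▸ D.level_squarefree)
  have hθ : D.sqrtInt * D.sqrtInt = -((d : 𝓞 D.field) * M) := by
    rw [D.sqrtInt_sq, hM, Nat.cast_mul]
  refine le_antisymm ?_ ((Ideal.span_singleton_le_iff_mem _).2 ?_)
  · rw [divIdeal, Ideal.span_pair_mul_span_pair, Ideal.span_le]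
    intro x hx
    simp only [Set.mem_insert_iff, Set.mem_singleton_iff] at hx
    rw [SetLike.mem_coe, Ideal.mem_span_singleton']
    rcases hx with rfl | rfl | rfl | rfl
    · exact ⟨d, rfl⟩
    · exact ⟨D.sqrtInt, by ring⟩
    · exact ⟨D.sqrtInt, by ring⟩
    · exact ⟨-M, by rw [hθ]; ring⟩
  · obtain ⟨u, v, huv⟩ := Int.isCoprime_iff_gcd_eq_one.2
      (show Int.gcd (d : ℤ) M = 1 by simpa [Int.gcd] using hcop)
    have huv' : (u : 𝓞 D.field) * d + v * M = 1 := by exact_mod_cast congrArg (Int.cast) huv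
    have e : (d : 𝓞 D.field) =
        (u : 𝓞 D.field) * ((d : 𝓞 D.field) * d) - v * (D.sqrtInt * D.sqrtInt) := by
      rw [hθ]
      linear_combination -(d : 𝓞 D.field) * huv'
    rw [e]
    exact sub_mem (Ideal.mul_mem_left _ _
      (Ideal.mul_mem_mul (D.natCast_mem_divIdeal d) (D.natCast_mem_divIdeal d)))
      (Ideal.mul_mem_left _ _
        (Ideal.mul_mem_mul (D.sqrtInt_mem_divIdeal d) (D.sqrtInt_mem_divIdeal d)))

theorem divIdeal_mul {d e : ℕ} (hde : d * e ∣ D.level) :
    D.divIdeal d * D.divIdeal e = D.divIdeal (d * e) := by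
  obtain ⟨M, hM⟩ := hde
  have hcop : Nat.Coprime d e :=
    Nat.coprime_of_squarefree_mul (Squarefree.squarefree_of_dvd ⟨M, hM⟩ D.level_squarefree)
  refine le_antisymm ?_ (Ideal.span_le.2 ?_)
  · rw [divIdeal, divIdeal, Ideal.span_pair_mul_span_pair, Ideal.span_le]
    intro x hx
    simp only [Set.mem_insert_iff, Set.mem_singleton_iff] at hx
    rcases hx with rfl | rfl | rfl | rfl
    · rw [← Nat.cast_mul]; exact D.natCast_mem_divIdeal _
    · exact Ideal.mul_mem_left _ _ (D.sqrtInt_mem_divIdeal _)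
    · exact Ideal.mul_mem_right _ _ (D.sqrtInt_mem_divIdeal _)
    · exact Ideal.mul_mem_left _ _ (D.sqrtInt_mem_divIdeal _)
  · intro x hx
    simp only [Set.mem_insert_iff, Set.mem_singleton_iff] at hx
    rcases hx with rfl | rfl
    · rw [Nat.cast_mul]
      exact Ideal.mul_mem_mul (D.natCast_mem_divIdeal _) (D.natCast_mem_divIdeal _)
    · obtain ⟨u, v, huv⟩ := Int.isCoprime_iff_gcd_eq_one.2
        (show Int.gcd (d : ℤ) e = 1 by simpa [Int.gcd] using hcop)
      have huv' : (u : 𝓞 D.field) * d + v * e = 1 := by exact_mod_cast congrArg (Int.cast) huv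
      have e' : D.sqrtInt =
          (u : 𝓞 D.field) * ((d : 𝓞 D.field) * D.sqrtInt) + v * (D.sqrtInt * e) := by
        linear_combination -D.sqrtInt * huv'
      rw [e']
      exact add_mem (Ideal.mul_mem_left _ _
        (Ideal.mul_mem_mul (D.natCast_mem_divIdeal d) (D.sqrtInt_mem_divIdeal e)))
        (Ideal.mul_mem_left _ _
          (Ideal.mul_mem_mul (D.sqrtInt_mem_divIdeal d) (D.natCast_mem_divIdeal e)))

/-- The prime below any place over `b ∣ N` is `(b, √-N)`. -/
theorem placeIdeal_eq {b : ℕ} (hb : b ∈ D.B) {A : ValuationSubring Qbar}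
    (hA : A.LiesOverPrime b) : CFT.placeIdeal D.field A = D.divIdeal b := by
  set P := CFT.placeIdeal D.field A with hP
  have hb' : (b : 𝓞 D.field) ∈ P := CFT.natCast_mem_placeIdeal _ hA
  have hθ : D.sqrtInt ∈ P := by
    refine (CFT.placeIdeal_isPrime D.field A).mem_of_pow_mem 2 ?_
    rw [pow_two, D.sqrtInt_sq]
    obtain ⟨M, hM⟩ : b ∣ D.level := Finset.dvd_prod_of_mem _ hb
    rw [hM, Nat.cast_mul]
    exact neg_mem (Ideal.mul_mem_right _ _ hb')
  have hle : D.divIdeal b ≤ P := Ideal.span_le.2 (by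
    rintro x (rfl | rfl)
    · exact hb'
    · exact hθ)
  refine le_antisymm (fun x hx => ?_) hle
  obtain ⟨m, c, rfl⟩ := D.sqrtNegData.exists_coord D.level_squarefree D.level_mod_four x
  have hm : (m : 𝓞 D.field) ∈ P := by
    have := sub_mem hx (Ideal.mul_mem_left P (c : 𝓞 D.field) hθ)
    simpa [sqrtNegData] using this
  rw [hP, CFT.mem_placeIdeal] at hm
  obtain ⟨k, rfl⟩ := (Galois.intCast_mem_nonunits_iff (D.prime_mem b hb) hA m).1 (by simpa using hm)
  refine add_mem ?_ (Ideal.mul_mem_left _ _ (D.sqrtInt_mem_divIdeal b))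
  rw [Int.cast_mul, Int.cast_natCast]
  exact Ideal.mul_mem_right _ _ (D.natCast_mem_divIdeal b)

theorem divIdeal_ne_bot {d : ℕ} (hd : d ∣ D.level) : D.divIdeal d ≠ ⊥ := by
  intro h
  have := D.natCast_mem_divIdeal d
  rw [h, Ideal.mem_bot, Nat.cast_eq_zero] at this
  subst this
  exact D.level_pos.ne' (Nat.eq_zero_of_zero_dvd hd)

theorem prod_dvd_level {S : Finset ℕ} (hS : S ⊆ D.B) : (∏ b ∈ S, b) ∣ D.level :=
  Finset.prod_dvd_prod_of_subset S D.B _ hS

/-- The class of the product of the ramified primes over the primes in `S`. -/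
def subsetClass (S : Finset ℕ) : ClassGroup (𝓞 D.field) :=
  ClassGroup.mk0 ⟨D.divIdeal (∏ b ∈ S ∩ D.B, b), mem_nonZeroDivisors_iff_ne_zero.2
    (D.divIdeal_ne_bot (D.prod_dvd_level Finset.inter_subset_right))⟩

theorem subsetClass_empty : D.subsetClass ∅ = 1 := by
  rw [subsetClass, ClassGroup.mk0_eq_one_iff]
  refine ⟨⟨1, ?_⟩⟩
  simp [divIdeal_one]

theorem subsetClass_self : D.subsetClass D.B = 1 := by
  rw [subsetClass, ClassGroup.mk0_eq_one_iff]
  refine ⟨⟨D.sqrtInt, ?_⟩⟩
  rw [Finset.inter_self]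
  exact D.divIdeal_level

theorem subsetClass_mul_self (S : Finset ℕ) : D.subsetClass S * D.subsetClass S = 1 := by
  rw [subsetClass, ← map_mul, Submonoid.mk_mul_mk, ClassGroup.mk0_eq_one_iff]
  exact ⟨⟨_, D.divIdeal_mul_self (D.prod_dvd_level Finset.inter_subset_right)⟩⟩

theorem subsetClass_union {S T : Finset ℕ} (h : Disjoint S T) :
    D.subsetClass (S ∪ T) = D.subsetClass S * D.subsetClass T := by
  rw [subsetClass, subsetClass, subsetClass, ← map_mul, Submonoid.mk_mul_mk]
  have hd : Disjoint (S ∩ D.B) (T ∩ D.B) :=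
    h.mono Finset.inter_subset_left Finset.inter_subset_left
  congr 1
  refine Subtype.ext ?_
  simp only
  rw [Finset.union_inter_distrib_right, Finset.prod_union hd, D.divIdeal_mul]
  rw [← Finset.prod_union hd]
  exact D.prod_dvd_level (Finset.union_subset Finset.inter_subset_right Finset.inter_subset_right)

theorem subsetClass_symmDiff (S T : Finset ℕ) :
    D.subsetClass (symmDiff S T) = D.subsetClass S * D.subsetClass T := by
  classical
  have h1 : D.subsetClass S = D.subsetClass (S \ T) * D.subsetClass (S ∩ T) := by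
    rw [← D.subsetClass_union (Finset.disjoint_sdiff_inter S T), Finset.sdiff_union_inter]
  have h2 : D.subsetClass T = D.subsetClass (T \ S) * D.subsetClass (S ∩ T) := by
    rw [Finset.inter_comm, ← D.subsetClass_union (Finset.disjoint_sdiff_inter T S),
      Finset.sdiff_union_inter]
  rw [h1, h2, mul_mul_mul_comm, D.subsetClass_mul_self, mul_one, symmDiff_def,
    Finset.sup_eq_union, D.subsetClass_union disjoint_sdiff_sdiff]

theorem emb_sqrtInt : D.sqrtNegData.emb D.sqrtInt = CMFix.rtN D.level := D.sqrtNegData.emb_θ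

/-- The class of a product of ramified primes is trivial only for none or all of them. -/
theorem eq_empty_or_eq_of_subsetClass_eq_one {S : Finset ℕ} (hS : S ⊆ D.B)
    (h : D.subsetClass S = 1) : S = ∅ ∨ S = D.B := by
  rw [subsetClass, ClassGroup.mk0_eq_one_iff, Finset.inter_eq_left.2 hS] at h
  obtain ⟨⟨w, hw⟩⟩ := h
  change D.divIdeal (∏ b ∈ S, b) = Ideal.span {w} at hw
  set d := ∏ b ∈ S, b with hd
  obtain ⟨M, hM⟩ := D.prod_dvd_level hS
  rw [← hd] at hM
  set e := D.sqrtNegData.emb with he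
  have hnorm : ∀ z : 𝓞 D.field, ∃ a c : ℤ, z = a + c * D.sqrtInt ∧
      Complex.normSq (e z) = ((a ^ 2 + D.level * c ^ 2 : ℤ) : ℝ) := by
    intro z
    obtain ⟨a, c, hz⟩ := D.sqrtNegData.exists_coord D.level_squarefree D.level_mod_four z
    refine ⟨a, c, hz, ?_⟩
    rw [hz, map_add, map_mul, map_intCast, map_intCast, he, D.sqrtNegData.emb_θ]
    simp [Complex.normSq_apply, pow_two]
    rw [show ((c : ℝ) * Real.sqrt D.level) * (c * Real.sqrt D.level)
      = (c * c : ℝ) * (Real.sqrt D.level * Real.sqrt D.level) by ring,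
      Real.mul_self_sqrt (Nat.cast_nonneg _)]
    ring
  obtain ⟨a, c, hw', hnw⟩ := hnorm w
  obtain ⟨x, hx⟩ := Ideal.mem_span_singleton'.1 (hw ▸ D.natCast_mem_divIdeal d)
  obtain ⟨y, hy⟩ := Ideal.mem_span_singleton'.1 (hw ▸ D.sqrtInt_mem_divIdeal d)
  obtain ⟨x₁, x₂, -, hnx⟩ := hnorm x
  obtain ⟨y₁, y₂, -, hny⟩ := hnorm y
  set n : ℤ := a ^ 2 + D.level * c ^ 2 with hn
  -- `n` divides `d²` and `N`, hence `d`
  have h1 : n ∣ (d : ℤ) ^ 2 := by
    have h := congrArg (fun z => Complex.normSq (e z)) hx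
    simp only [map_mul, hnw, hnx, map_natCast, Complex.normSq_natCast] at h
    refine Dvd.intro_left (x₁ ^ 2 + D.level * x₂ ^ 2) (?_ : _ * n = _)
    rw [← pow_two (d : ℝ)] at h
    exact_mod_cast h
  have h2 : n ∣ (D.level : ℤ) := by
    have h := congrArg (fun z => Complex.normSq (e z)) hy
    simp only [map_mul, hnw, hny] at h
    rw [show e D.sqrtInt = CMFix.rtN D.level from D.sqrtNegData.emb_θ,
      ← Complex.normSq_neg] at h
    have h' : Complex.normSq (CMFix.rtN D.level) = (D.level : ℝ) := by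
      simp [Complex.normSq_apply, Real.mul_self_sqrt (Nat.cast_nonneg (α := ℝ) D.level)]
    rw [Complex.normSq_neg, h'] at h
    exact Dvd.intro_left (y₁ ^ 2 + D.level * y₂ ^ 2) (by exact_mod_cast h)
  have hnd : n ∣ (d : ℤ) := by
    have hcop : IsCoprime (d : ℤ) M := Int.isCoprime_iff_gcd_eq_one.2
      (by simpa [Int.gcd] using Nat.coprime_of_squarefree_mul (hM ▸ D.level_squarefree))
    obtain ⟨u, v, huv⟩ := hcop
    have e' : (d : ℤ) = u * (d : ℤ) ^ 2 + v * (D.level : ℤ) := by
      rw [hM]; push_cast; linear_combination -(d : ℤ) * huv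
    rw [e']
    exact dvd_add (h1.mul_left _) (h2.mul_left _)
  -- `d` divides `a`
  have hwmem : w ∈ D.divIdeal d := hw ▸ Ideal.mem_span_singleton_self w
  have had : (d : ℤ) ∣ a := by
    obtain ⟨p, q, hpq⟩ := Ideal.mem_span_pair.1 hwmem
    obtain ⟨p₁, p₂, hp⟩ := D.sqrtNegData.exists_coord D.level_squarefree D.level_mod_four p
    obtain ⟨q₁, q₂, hq⟩ := D.sqrtNegData.exists_coord D.level_squarefree D.level_mod_four q
    have hz := congrArg (fun z => (e z).re) hpq
    simp only [hp, hq, hw', he, map_add, map_mul, map_intCast, map_natCast,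
      D.sqrtNegData.emb_θ, D.emb_sqrtInt] at hz
    simp [Real.mul_self_sqrt (Nat.cast_nonneg (α := ℝ) D.level), mul_assoc] at hz
    have hz' : ((a : ℤ) : ℝ) = ((d * (p₁ - M * q₂) : ℤ) : ℝ) := by
      push_cast
      rw [← hz, hM]
      push_cast
      ring
    exact ⟨_, Int.cast_injective hz'⟩
  obtain ⟨a', ha'⟩ := had
  have hdpos : (0 : ℤ) < d := by
    exact_mod_cast Finset.prod_pos fun p hp => (D.prime_mem p (hS hp)).pos
  have hk : n = d * (d * a' ^ 2 + M * c ^ 2) := by
    rw [hn, ha', hM]; push_cast; ring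
  have hk1 : (d : ℤ) * a' ^ 2 + M * c ^ 2 = 1 := by
    have hdvd : (d : ℤ) * (d * a' ^ 2 + M * c ^ 2) ∣ d * 1 := by rw [mul_one, ← hk]; exact hnd
    rcases Int.isUnit_iff.1 (isUnit_of_dvd_one ((mul_dvd_mul_iff_left hdpos.ne').1 hdvd)) with
      h | h
    · exact h
    · have : (0 : ℤ) ≤ d * a' ^ 2 + M * c ^ 2 := by positivity
      omega
  rcases eq_or_ne a' 0 with rfl | ha0
  · right
    have hM1 : M = 1 := by
      have : (M : ℤ) * c ^ 2 = 1 := by simpa using hk1
      have := Int.eq_one_of_mul_eq_one_right (Int.natCast_nonneg M) this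
      exact_mod_cast this
    rw [hM1, mul_one] at hM
    refine Finset.eq_of_subset_of_card_le hS (le_of_eq ?_)
    rw [show D.B = S from ?_]
    refine (Finset.Subset.antisymm hS fun p hp => ?_).symm
    have hp' : p ∣ d := hM ▸ Finset.dvd_prod_of_mem _ hp
    obtain ⟨q, hq, hpq⟩ := (Prime.dvd_finsetProd_iff (D.prime_mem p hp).prime _).1 (hd ▸ hp')
    rwa [(Nat.prime_dvd_prime_iff_eq (D.prime_mem p hp) (D.prime_mem q (hS hq))).1 hpq]
  · left
    have hd1 : d = 1 := by
      have h1' : 1 ≤ a' ^ 2 := by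
        rcases lt_or_gt_of_ne ha0 with h | h <;> nlinarith
      have h2' : (0 : ℤ) ≤ M * c ^ 2 := by positivity
      have : (d : ℤ) ≤ 1 := by nlinarith
      omega
    refine Finset.eq_empty_of_forall_notMem fun p hp => (D.prime_mem p (hS hp)).ne_one ?_
    exact Nat.dvd_one.1 (hd1 ▸ hd ▸ Finset.dvd_prod_of_mem _ hp)

theorem subsetClass_singleton_eq {b : ℕ} (hb : b ∈ D.B) {A : ValuationSubring Qbar}
    (hA : A.LiesOverPrime b) :
    D.subsetClass {b} = ClassGroup.mk0 (CFT.placeNZ D.field (D.prime_mem b hb) hA) := by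
  rw [subsetClass]
  congr 1
  refine Subtype.ext ?_
  show D.divIdeal _ = CFT.placeIdeal D.field A
  rw [Finset.inter_eq_left.2 (Finset.singleton_subset_iff.2 hb), Finset.prod_singleton,
    D.placeIdeal_eq hb hA]

variable (A : D.B → ValuationSubring Qbar) (hA : ∀ b : D.B, (A b).LiesOverPrime b)

/-- The product of the ramified primes is `(√-N)`. -/
theorem prod_placeClass_eq_one :
    ∏ b : D.B, ClassGroup.mk0 (CFT.placeNZ D.field (D.prime_mem b b.2) (hA b)) = 1 := by
  classical
  rw [Finset.prod_congr rfl fun (b : D.B) _ => (D.subsetClass_singleton_eq b.2 (hA b)).symm]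
  rw [Finset.prod_coe_sort D.B (fun b => D.subsetClass {b})]
  have key : ∀ S : Finset ℕ, ∏ b ∈ S, D.subsetClass {b} = D.subsetClass S := by
    intro S
    induction S using Finset.induction with
    | empty => rw [Finset.prod_empty, D.subsetClass_empty]
    | insert b S hb ih =>
      rw [Finset.prod_insert hb, ih, Finset.insert_eq,
        D.subsetClass_union (Finset.disjoint_singleton_left.2 hb)]
  rw [key, D.subsetClass_self]

theorem placeClass_sq (b : D.B) :
    ClassGroup.mk0 (CFT.placeNZ D.field (D.prime_mem b b.2) (hA b)) ^ 2 = 1 := by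
  rw [← D.subsetClass_singleton_eq b.2 (hA b), pow_two, D.subsetClass_mul_self]

/-- The subgroup of the class group generated by the ramified primes. -/
theorem two_pow_le_natCard_placeClasses :
    2 ^ (D.B.card - 1) ≤ Nat.card (Subgroup.closure (Set.range fun b : D.B =>
      ClassGroup.mk0 (CFT.placeNZ D.field (D.prime_mem b b.2) (hA b)))) := by
  classical
  set H := Subgroup.closure (Set.range fun b : D.B =>
      ClassGroup.mk0 (CFT.placeNZ D.field (D.prime_mem b b.2) (hA b))) with hH
  have hmem : ∀ S : Finset ℕ, S ⊆ D.B → D.subsetClass S ∈ H := by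
    intro S
    induction S using Finset.induction with
    | empty => intro _; rw [D.subsetClass_empty]; exact one_mem H
    | insert b S hb ih =>
      intro hS
      rw [Finset.insert_subset_iff] at hS
      rw [Finset.insert_eq, D.subsetClass_union (Finset.disjoint_singleton_left.2 hb)]
      refine mul_mem (Subgroup.subset_closure ⟨⟨b, hS.1⟩, ?_⟩) (ih hS.2)
      exact (D.subsetClass_singleton_eq hS.1 (hA ⟨b, hS.1⟩)).symm
  let Φ : (D.B.erase 2).powerset → H := fun S =>
    ⟨D.subsetClass S, hmem S ((Finset.mem_powerset.1 S.2).trans (Finset.erase_subset _ _))⟩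
  have hΦ : Function.Injective Φ := by
    rintro ⟨S, hS⟩ ⟨T, hT⟩ h
    have h' : D.subsetClass S = D.subsetClass T := congrArg Subtype.val h
    rw [Finset.mem_powerset] at hS hT
    have hST : symmDiff S T ⊆ D.B.erase 2 := by
      rw [symmDiff_def, Finset.sup_eq_union]
      exact Finset.union_subset (Finset.sdiff_subset.trans hS) (Finset.sdiff_subset.trans hT)
    rcases D.eq_empty_or_eq_of_subsetClass_eq_one (hST.trans (Finset.erase_subset _ _))
      (by rw [D.subsetClass_symmDiff, h', D.subsetClass_mul_self]) with h0 | h0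
    · exact Subtype.ext (symmDiff_eq_bot.1 h0)
    · exact absurd (hST (h0 ▸ D.two_mem)) (Finset.notMem_erase 2 _)
  have := Nat.card_le_card_of_injective Φ hΦ
  rwa [Nat.card_eq_fintype_card, Fintype.card_coe, Finset.card_powerset,
    Finset.card_erase_of_mem D.two_mem] at this

theorem padicVal_index_le (n : ℕ)
    (hn : 2 ^ n ∣ (Subgroup.closure (Set.range fun b : D.B =>
      ClassGroup.mk0 (CFT.placeNZ D.field (D.prime_mem b b.2) (hA b)))).index) :
    2 ^ n ≤ D.cprime := by
  set H := Subgroup.closure (Set.range fun b : D.B =>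
      ClassGroup.mk0 (CFT.placeNZ D.field (D.prime_mem b b.2) (hA b))) with hH
  have hsq : ∀ x ∈ H, x ^ 2 = 1 := fun x hx => by
    induction hx using Subgroup.closure_induction with
    | mem x hx => obtain ⟨b, rfl⟩ := hx; exact D.placeClass_sq A hA b
    | one => exact one_pow 2
    | mul x y _ _ hx hy => rw [mul_pow, hx, hy, one_mul]
    | inv x _ hx => rw [inv_pow, hx, inv_one]
  have hp : IsPGroup 2 H := fun x => ⟨1, Subtype.ext (by simpa using hsq x x.2)⟩
  have := Fact.mk Nat.prime_two
  obtain ⟨j, hj⟩ := IsPGroup.iff_card.1 hp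
  have hjle : D.B.card - 1 ≤ j :=
    (Nat.pow_le_pow_iff_right (by norm_num)).1 (hj ▸ D.two_pow_le_natCard_placeClasses A hA)
  have hdvd : 2 ^ (n + j) ∣ NumberField.classNumber D.field := by
    rw [NumberField.classNumber, ← Nat.card_eq_fintype_card, ← H.index_mul_card, pow_add, hj]
    exact mul_dvd_mul hn dvd_rfl
  have hv : n + j ≤ padicValNat 2 (NumberField.classNumber D.field) :=
    (padicValNat_dvd_iff_le (NumberField.classNumber_pos _).ne').1 hdvd
  refine Nat.pow_le_pow_right (by norm_num) ?_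
  omega

end Datum

end Fermat.Agent.Residual

end
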