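/-
Residual modularity at three: Artin reciprocity for unramified two-extensions.
-/
import Fermat.Agent.CFT.Places
import Fermat.Agent.CFTCyclic.Main
import Mathlib.GroupTheory.PGroup
import Mathlib.NumberTheory.NumberField.ClassNumber

set_option autoImplicit false

noncomputable section

open NumberField

namespace Fermat.Agent.Residual

local notation "Qbar" => AlgebraicClosure ℚ
local notation "Γℚ" => (AlgebraicClosure ℚ ≃ₐ[ℚ] AlgebraicClosure ℚ)

/-- An everywhere unramified character of two-power order of a totally complex number field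
comes from the class group, with Frobenius at the primes of degree one (at two: if of order two there). -/
theorem exists_artin_unramified (K : IntermediateField ℚ Qbar) [FiniteDimensional ℚ K]
    [NumberField K] (hK : ∀ v : InfinitePlace K, v.IsComplex)
    {G : Type*} [CommGroup G] [Finite G] (hG : IsPGroup 2 G) (ψ : K.fixingSubgroup →* G)
    (hcont : ∃ L : IntermediateField ℚ Qbar, FiniteDimensional ℚ L ∧
      ∀ σ : K.fixingSubgroup, (σ : Γℚ) ∈ L.fixingSubgroup → ψ σ = 1)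
    (hunram : ∀ ℓ : ℕ, ℓ.Prime → ∀ A : ValuationSubring Qbar, A.LiesOverPrime ℓ →
      ∀ σ : K.fixingSubgroup, (σ : Γℚ) ∈ A.inertiaSubgroupIn ℚ → ψ σ = 1) :
    ∃ f : ClassGroup (𝓞 K) →* G, f.range = ψ.range ∧
      ∀ (ℓ : ℕ) (hℓ : ℓ.Prime) (A : ValuationSubring Qbar) (hA : A.LiesOverPrime ℓ)
        (τ : K.fixingSubgroup), A.IsFrobeniusAt (τ : Γℚ) ℓ → (ℓ = 2 → ψ τ ^ 2 = 1) →
          f (ClassGroup.mk0 (CFT.placeNZ K hℓ hA)) = ψ τ := by
  classical
  have : NumberField.IsTotallyComplex K := ⟨hK⟩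
  have : Fact (Nat.Prime 2) := ⟨Nat.prime_two⟩
  obtain ⟨ι, hι, n, -, ⟨e⟩⟩ := CommGroup.equiv_prod_multiplicative_zmod_of_finite G
  obtain ⟨m, hm⟩ := IsPGroup.iff_card.1 hG
  have hn : ∀ i, ∃ j, n i = 2 ^ j := fun i => by
    have h : n i ∣ 2 ^ m := by
      rw [← hm, Nat.card_congr e.toEquiv, Nat.card_pi]
      have h1 := Finset.dvd_prod_of_mem (fun i => Nat.card (Multiplicative (ZMod (n i))))
        (Finset.mem_univ i)
      simp only [Nat.card_congr Multiplicative.toAdd, Nat.card_zmod] at h1 ⊢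
      exact h1
    obtain ⟨j, -, hj⟩ := (Nat.dvd_prime_pow Nat.prime_two).1 h
    exact ⟨j, hj⟩
  choose k hk using hn
  obtain rfl : n = fun i => 2 ^ k i := funext hk
  let a : ∀ i, Γℚ → ZMod (2 ^ k i) := fun i g =>
    if h : g ∈ K.fixingSubgroup then Multiplicative.toAdd (e (ψ ⟨g, h⟩) i) else 0
  have hval : ∀ i (g : Γℚ) (h : g ∈ K.fixingSubgroup),
      a i g = Multiplicative.toAdd (e (ψ ⟨g, h⟩) i) := fun i g h => dif_pos h
  have ha : ∀ i, CFT.UnramifiedChar (2 ^ k i) K (a i) := by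
    intro i
    refine ⟨fun σ τ hσ hτ => ?_, ?_, fun ℓ hℓ A hA σ hσ hσK => ?_⟩
    · rw [hval i _ (mul_mem hσ hτ), hval i _ hσ, hval i _ hτ,
        show (⟨σ * τ, mul_mem hσ hτ⟩ : K.fixingSubgroup) = ⟨σ, hσ⟩ * ⟨τ, hτ⟩ from rfl, map_mul,
        map_mul, Pi.mul_apply, toAdd_mul]
    · obtain ⟨L, hLf, hL⟩ := hcont
      refine ⟨L, hLf, fun σ hσ hfix => ?_⟩
      rw [hval i _ hσ, hL ⟨σ, hσ⟩ ((IntermediateField.mem_fixingSubgroup_iff _ σ).2 hfix), map_one,
        Pi.one_apply, toAdd_one]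
    · rw [hval i _ hσK, hunram ℓ hℓ A hA ⟨σ, hσK⟩ hσ, map_one, Pi.one_apply, toAdd_one]
  choose f hf using fun i => CFTCyclic.exists_artinChar_prime_pow (p := 2) (ha i)
  let F : ClassGroup (𝓞 K) →* G := e.symm.toMonoidHom.comp (MonoidHom.mk' (fun C i => f i C)
    (fun C D => funext fun i => map_mul (f i) C D))
  have hF : ∀ (ℓ : ℕ) (hℓ : ℓ.Prime) (A : ValuationSubring Qbar) (hA : A.LiesOverPrime ℓ)
      (τ : K.fixingSubgroup), A.IsFrobeniusAt (τ : Γℚ) ℓ → (ℓ = 2 → ψ τ ^ 2 = 1) →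
        F (ClassGroup.mk0 (CFT.placeNZ K hℓ hA)) = ψ τ := by
    intro ℓ hℓ A hA τ hτ h2
    refine e.injective ((e.apply_symm_apply _).trans (funext fun i => ?_))
    apply Multiplicative.toAdd.injective
    refine (hf i ℓ hℓ A hA τ hτ τ.2 ?_).trans (hval i _ τ.2)
    by_cases hℓ2 : ℓ = 2
    · right
      have h := congrArg (fun z => Multiplicative.toAdd (e z i)) (h2 hℓ2)
      simp only [map_pow, Pi.pow_apply, toAdd_pow, map_one, Pi.one_apply, toAdd_one] at h
      rw [hval i _ τ.2]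
      exact h
    · exact Or.inl hℓ2
  refine ⟨F, le_antisymm ?_ ?_, hF⟩
  · -- the primes of degree one generate
    obtain ⟨S, hS⟩ := CFT.exists_place_fixing K
    have hidx := CFTCyclic.index_le_finrank (F := K) (M := K) (insert 2 S) (ψ.range.comap F)
      (fun w => w.1) (fun _ => rfl) (fun w => Ideal.comap_id _) fun w => by
        obtain ⟨v, hvp, hvS⟩ := w
        rw [Finset.mem_insert, not_or] at hvS
        obtain ⟨B, hB, hBv, hfix⟩ := hS v ⟨hvp, hvS.2⟩
        obtain ⟨τ, hτ⟩ := Galois.exists_isFrobeniusAt hvp hB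
        have hτK : τ ∈ K.fixingSubgroup :=
          (IntermediateField.mem_fixingSubgroup_iff _ τ).2 (hfix τ hτ.mem_decompositionSubgroup)
        rw [show CFT.primeIdeal v = CFT.placeNZ K hvp hB from Subtype.ext hBv.symm,
          Subgroup.mem_comap, hF _ hvp B hB ⟨τ, hτK⟩ hτ fun h => absurd h hvS.1]
        exact ⟨_, rfl⟩
    rw [Module.finrank_self] at hidx
    have h0 : (ψ.range.comap F).index ≠ 0 := Subgroup.index_ne_zero_of_finite
    have htop : ψ.range.comap F = ⊤ := Subgroup.index_eq_one.1 (by omega)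
    rintro _ ⟨C, rfl⟩
    exact Subgroup.mem_comap.1 (htop ▸ Subgroup.mem_top C)
  · rintro _ ⟨⟨g, hg⟩, rfl⟩
    obtain ⟨L, hLf, hL⟩ := hcont
    obtain ⟨ℓ, hℓ, hℓ2, B, hB, τ, hτ, hτK, -, ⟨j, hj⟩, -⟩ :=
      Density.exists_frobenius_pow_over K L g
        ((IntermediateField.mem_fixingSubgroup_iff _ g).1 hg) {2}
    rw [Finset.mem_singleton] at hℓ2
    let τ' : K.fixingSubgroup := ⟨τ, (IntermediateField.mem_fixingSubgroup_iff _ τ).2 hτK⟩
    have h1 : ψ ((τ' ^ j)⁻¹ * ⟨g, hg⟩) = 1 := by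
      refine hL _ ((IntermediateField.mem_fixingSubgroup_iff _ _).2 fun x hx => ?_)
      show ((τ ^ j)⁻¹ * g) x = x
      rw [AlgEquiv.mul_apply, hj x hx]
      exact (τ ^ j).symm_apply_apply x
    rw [map_mul, map_inv, map_pow, inv_mul_eq_one] at h1
    exact ⟨ClassGroup.mk0 (CFT.placeNZ K hℓ hB) ^ j, by
      rw [map_pow, hF ℓ hℓ B hB τ' hτ (fun h => absurd h hℓ2), h1]⟩

end Fermat.Agent.Residual

end
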