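import Mathlib.LinearAlgebra.Matrix.Adjugate
import Mathlib.RingTheory.Ideal.Quotient.Basic
import Mathlib.Algebra.CharP.Two
import Mathlib.Algebra.Field.ZMod
import Mathlib.Tactic

/-!
# Matrix algebra for residually dihedral representations in characteristic two

For a commutative ring `A` of characteristic two, `Matrix (Fin 2) (Fin 2) A` is the direct sum of
the torus algebra `A + A C`, `C = !![0, 1; 1, 1]`, and of the space of antilinear matrices.
`vec M` gives coordinates of the antilinear part of `M`, chosen so that conjugation by a lift of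
a matrix over `ZMod 2` of determinant one becomes the standard action.
-/

set_option autoImplicit false

namespace Fermat.Agent.Residual.Dihedral

open Matrix

/-- Two by two matrices. -/
abbrev Mat (A : Type*) := Matrix (Fin 2) (Fin 2) A

variable {A : Type*} [CommRing A]

/-- Coordinates of the antilinear part of a matrix. -/
def vec (M : Mat A) : Fin 2 → A := ![M 0 0 + M 1 1 + M 0 1, M 0 0 + M 1 1 + M 1 0]

/-- The antilinear matrix with given coordinates. -/
def wmat (v : Fin 2 → A) : Mat A := !![v 0 + v 1, v 0; v 1, v 0 + v 1]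

/-- The generator of the torus algebra. -/
def torusGen : Mat A := !![0, 1; 1, 1]

lemma vec_add (M N : Mat A) : vec (M + N) = vec M + vec N := by
  funext i; fin_cases i <;> simp [vec] <;> ring

lemma vec_smul (a : A) (M : Mat A) : vec (a • M) = a • vec M := by
  funext i; fin_cases i <;> simp [vec] <;> ring

lemma map_vec {B : Type*} [CommRing B] (f : A →+* B) (M : Mat A) :
    vec (M.map f) = f ∘ vec M := by
  funext i; fin_cases i <;> simp [vec]

variable [CharP A 2]

lemma vec_one : vec (1 : Mat A) = 0 := by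
  funext i; fin_cases i <;> simp [vec, CharTwo.add_self_eq_zero]

lemma vec_wmat (v : Fin 2 → A) : vec (wmat v) = v := by
  have h2 : (2 : A) = 0 := CharTwo.two_eq_zero
  funext i; fin_cases i <;> simp [vec, wmat] <;> grind

/-- A matrix with vanishing antilinear part lies in the torus algebra. -/
lemma eq_of_vec_eq_zero {M : Mat A} (h : vec M = 0) :
    M = M 0 0 • (1 : Mat A) + M 0 1 • torusGen := by
  have h0 := congrFun h 0
  have h1 := congrFun h 1
  have h2 : (2 : A) = 0 := CharTwo.two_eq_zero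
  simp [vec] at h0 h1
  ext i j
  fin_cases i <;> fin_cases j <;> simp [torusGen] <;> grind

/-- Torus matrices commute. -/
lemma mul_comm_of_vec_eq_zero {M N : Mat A} (hM : vec M = 0) (hN : vec N = 0) :
    M * N = N * M := by
  rw [eq_of_vec_eq_zero hM, eq_of_vec_eq_zero hN]
  simp [Matrix.add_mul, Matrix.mul_add, smul_smul, mul_comm]
  abel

lemma vec_mul_of_vec_eq_zero {M N : Mat A} (hM : vec M = 0) (hN : vec N = 0) :
    vec (M * N) = 0 := by
  rw [eq_of_vec_eq_zero hM, eq_of_vec_eq_zero hN]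
  have h2 : (2 : A) = 0 := CharTwo.two_eq_zero
  funext i
  fin_cases i <;> simp [vec, torusGen, Matrix.mul_apply, Fin.sum_univ_two] <;> grind

/-- Conjugation by a lift of a matrix of determinant one acts on coordinates in the standard way. -/
lemma vec_conj (ι : ZMod 2 →+* A) (g : Mat (ZMod 2)) (hg : g.det = 1) (M : Mat A) :
    vec (g.map ι * M * g.adjugate.map ι) = (g.map ι) *ᵥ vec M := by
  have h2 : (2 : A) = 0 := CharTwo.two_eq_zero
  obtain ⟨a, b, c, d, rfl⟩ : ∃ a b c d, g = !![a, b; c, d] :=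
    ⟨g 0 0, g 0 1, g 1 0, g 1 1, (Matrix.eta_fin_two g)⟩
  rw [Matrix.det_fin_two_of] at hg
  rw [Matrix.adjugate_fin_two_of]
  have key : ∀ x : ZMod 2, x = 0 ∨ x = 1 := by decide
  funext i
  rcases key a with rfl | rfl <;> rcases key b with rfl | rfl <;> rcases key c with rfl | rfl <;>
    rcases key d with rfl | rfl <;>
    first
    | (exfalso; revert hg; decide)
    | (fin_cases i <;> simp [vec, Matrix.mul_apply, Matrix.mulVec, dotProduct, Fin.sum_univ_two, Matrix.map_apply] <;> grind)

/-- Bilinear error term for the coordinates of a product. -/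
lemma vec_mul_mem {m I I' : Ideal A} (hmI : ∀ a ∈ m, ∀ x ∈ I, a * x ∈ I') {X Y : Mat A}
    (hX : ∀ i j, X i j ∈ m) (hY : ∀ i j, Y i j ∈ m) (hXv : ∀ i, vec X i ∈ I)
    (hYv : ∀ i, vec Y i ∈ I) : ∀ i, vec (X * Y) i ∈ I' := by
  have h2 : (2 : A) = 0 := CharTwo.two_eq_zero
  have hsub : ∀ Z : Mat A, vec (Z - wmat (vec Z)) = 0 := by
    intro Z
    have h := vec_add (Z - wmat (vec Z)) (wmat (vec Z))
    rw [sub_add_cancel, vec_wmat] at h
    exact (add_eq_right.mp h.symm)
  have e' : vec (X * Y)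
      = vec (wmat (vec X) * Y + (X - wmat (vec X)) * wmat (vec Y) : Mat A) := by
    have hsplit : X * Y = (wmat (vec X) * Y + (X - wmat (vec X)) * wmat (vec Y))
        + (X - wmat (vec X)) * (Y - wmat (vec Y)) := by
      rw [Matrix.mul_sub, Matrix.sub_mul, Matrix.sub_mul]; abel
    rw [hsplit, vec_add, vec_mul_of_vec_eq_zero (hsub X) (hsub Y), add_zero]
  have e : ∀ i, vec (X * Y) i = (wmat (vec X) * Y + (X - wmat (vec X)) * wmat (vec Y) :
      Mat A) 0 0 + (wmat (vec X) * Y + (X - wmat (vec X)) * wmat (vec Y) : Mat A) 1 1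
      + (![(wmat (vec X) * Y + (X - wmat (vec X)) * wmat (vec Y) : Mat A) 0 1,
        (wmat (vec X) * Y + (X - wmat (vec X)) * wmat (vec Y) : Mat A) 1 0] i) := by
    intro i
    rw [e']
    fin_cases i <;> rfl
  have hw : ∀ (Z : Mat A), (∀ i, vec Z i ∈ I) → ∀ i j, wmat (vec Z) i j ∈ I := by
    intro Z hZ i j
    fin_cases i <;> fin_cases j <;> simp [wmat] <;>
      first
      | exact hZ _
      | exact I.add_mem (hZ 0) (hZ 1)
  have hwm : ∀ i j, (X - wmat (vec X)) i j ∈ m := by
    intro i j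
    refine m.sub_mem (hX i j) ?_
    have hv : ∀ k, vec X k ∈ m := by
      intro k
      fin_cases k <;> exact m.add_mem (m.add_mem (hX _ _) (hX _ _)) (hX _ _)
    fin_cases i <;> fin_cases j <;> simp [wmat] <;>
      first
      | exact hv _
      | exact m.add_mem (hv 0) (hv 1)
  have hentry : ∀ i j, (wmat (vec X) * Y + (X - wmat (vec X)) * wmat (vec Y) : Mat A) i j
      ∈ I' := by
    intro i j
    simp only [Matrix.add_apply, Matrix.mul_apply, Fin.sum_univ_two]
    refine I'.add_mem (I'.add_mem ?_ ?_) (I'.add_mem ?_ ?_)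
    · rw [mul_comm]; exact hmI _ (hY _ _) _ (hw X hXv _ _)
    · rw [mul_comm]; exact hmI _ (hY _ _) _ (hw X hXv _ _)
    · exact hmI _ (hwm _ _) _ (hw Y hYv _ _)
    · exact hmI _ (hwm _ _) _ (hw Y hYv _ _)
  intro i
  rw [e i]
  refine I'.add_mem (I'.add_mem (hentry _ _) (hentry _ _)) ?_
  fin_cases i <;> exact hentry _ _

/-- A matrix killed on both sides by a square zero matrix with a unit entry is a multiple of it. -/
lemma eq_smul_of_mul_eq_zero {N X : Mat A} (hN : N * N = 0) (htr : N 0 0 = N 1 1)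
    (hu : IsUnit (N 0 1) ∨ IsUnit (N 1 0)) (h1 : N * X = 0) (h2' : X * N = 0) :
    ∃ x : A, X = x • N := by
  have h2 : (2 : A) = 0 := CharTwo.two_eq_zero
  have n00 := congrFun (congrFun hN 0) 0
  have a00 := congrFun (congrFun h1 0) 0
  have a01 := congrFun (congrFun h1 0) 1
  have a10 := congrFun (congrFun h1 1) 0
  have a11 := congrFun (congrFun h1 1) 1
  have b00 := congrFun (congrFun h2' 0) 0
  have b01 := congrFun (congrFun h2' 0) 1
  have b10 := congrFun (congrFun h2' 1) 0
  have b11 := congrFun (congrFun h2' 1) 1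
  simp only [Matrix.mul_apply, Fin.sum_univ_two, Matrix.zero_apply] at n00 a00 a01 a10 a11 b00 b01 b10 b11
  rcases hu with hu | hu
  · obtain ⟨u, hu⟩ := hu
    refine ⟨X 0 1 * ↑u⁻¹, ?_⟩
    have hinv : (↑u⁻¹ : A) * N 0 1 = 1 := by rw [← hu]; exact u.inv_mul
    ext i j
    fin_cases i <;> fin_cases j <;> simp <;> grind
  · obtain ⟨u, hu⟩ := hu
    refine ⟨X 1 0 * ↑u⁻¹, ?_⟩
    have hinv : (↑u⁻¹ : A) * N 1 0 = 1 := by rw [← hu]; exact u.inv_mul
    ext i j
    fin_cases i <;> fin_cases j <;> simp <;> grind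

/-- Facts about the matrices of determinant one over `ZMod 2`. -/
lemma det_one_cases : ∀ g : Mat (ZMod 2), g.det = 1 →
    (g * torusGen = torusGen * g → vec g = 0) ∧
    (g * g = 1 → g ≠ 1 → g.adjugate = g ∧ g *ᵥ vec g = vec g ∧ (g + 1) 0 0 = (g + 1) 1 1 ∧
      ((g + 1) 0 1 = 1 ∨ (g + 1) 1 0 = 1) ∧ vec g ≠ 0 ∧ g * torusGen ≠ torusGen * g) := by
  intro g hg
  obtain ⟨a, b, c, d, rfl⟩ : ∃ a b c d, g = !![a, b; c, d] :=
    ⟨g 0 0, g 0 1, g 1 0, g 1 1, (Matrix.eta_fin_two g)⟩
  have key : ∀ x : ZMod 2, x = 0 ∨ x = 1 := by decide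
  rcases key a with rfl | rfl <;> rcases key b with rfl | rfl <;> rcases key c with rfl | rfl <;>
    rcases key d with rfl | rfl <;>
    first
    | (exfalso; revert hg; decide)
    | (simp [vec, torusGen, Matrix.adjugate_fin_two, ← Matrix.ext_iff, Matrix.mul_apply, Fin.forall_fin_two, Matrix.mulVec, dotProduct, Fin.sum_univ_two, funext_iff] <;> decide)

end Fermat.Agent.Residual.Dihedral
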