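import Mathlib.RingTheory.Artinian.Module
import Mathlib.Algebra.CharP.Lemmas
import Fermat.Agent.Residual.DihedralBasic

/-!
# Representations of dihedral type over finite local rings of characteristic two

Let `ρ` be a two dimensional representation over a finite local ring `A` of characteristic two
with residual image all matrices of determinant one, of special (Steinberg) type at a family of
subgroups, and such that every residual cocycle with values in the fixed lines at these subgroups
is a coboundary.  Then `ρ` is dihedral: it is conjugate into the normaliser of the torus algebra,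
the torus part is scalar at the given subgroups, and its size bounds the ring of traces.
-/

set_option autoImplicit false

namespace Fermat.Agent.Residual.Dihedral

open Matrix

variable {G : Type*} [Group G] {A : Type*} [CommRing A]

/-- Residual matrices. -/
def resMat (π : A →+* ZMod 2) (ρ : G →* Mat A) : G →* Mat (ZMod 2) :=
  (π.mapMatrix (m := Fin 2)).toMonoidHom.comp ρ

lemma resMat_apply (π : A →+* ZMod 2) (ρ : G →* Mat A) (g : G) :
    resMat π ρ g = (ρ g).map π := rfl

/-- The subgroup of elements acting residually through the cyclic group of order three. -/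
def evenSubgroup (π : A →+* ZMod 2) (ρ : G →* Mat A) : Subgroup G where
  carrier := {g | resMat π ρ g * torusGen = torusGen * resMat π ρ g}
  one_mem' := by simp
  mul_mem' := by
    intro a b ha hb
    simp only [Set.mem_ofPred_eq, map_mul] at *
    rw [mul_assoc, hb, ← mul_assoc, ha, mul_assoc]
  inv_mem' := by
    intro a ha
    simp only [Set.mem_ofPred_eq] at *
    calc resMat π ρ a⁻¹ * torusGen
        = resMat π ρ a⁻¹ * (torusGen * resMat π ρ a) * resMat π ρ a⁻¹ := by
          rw [mul_assoc, mul_assoc, ← map_mul, mul_inv_cancel, map_one, mul_one]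
      _ = resMat π ρ a⁻¹ * resMat π ρ a * torusGen * resMat π ρ a⁻¹ := by
          rw [← ha, ← mul_assoc]
      _ = torusGen * resMat π ρ a⁻¹ := by
          rw [← map_mul, inv_mul_cancel, map_one, one_mul]

/-- The cocycle condition of the vanishing hypothesis, and its conclusion. -/
def SelmerVanishes (π : A →+* ZMod 2) (ρ : G →* Mat A) {κ : Type*} (D : κ → Subgroup G) : Prop :=
  ∀ c : G → Fin 2 → ZMod 2,
    (∀ g h, c (g * h) = c g + resMat π ρ g *ᵥ c h) →
    (∀ g g', ρ g = ρ g' → c g = c g') →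
    (∀ v, ∀ g ∈ D v, ∀ g' ∈ D v, resMat π ρ g' *ᵥ c g = c g) →
    ∃ u, ∀ g, c g = resMat π ρ g *ᵥ u - u

section Main

variable [IsLocalRing A] [CharP A 2] (π : A →+* ZMod 2) (ρ : G →* Mat A)

/-- The canonical lift of the prime field. -/
local notation "ι" => ZMod.castHom (dvd_refl 2) A

lemma isUnit_of_map_eq_one {a : A} (h : π a = 1) : IsUnit a := by
  rcases IsLocalRing.isUnit_or_isUnit_one_sub_self a with ha | ha
  · exact ha
  · have h' := ha.map π
    rw [map_sub, map_one, h, sub_self] at h'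
    exact absurd h' not_isUnit_zero

lemma map_eq_zero_iff_mem {a : A} : π a = 0 ↔ a ∈ IsLocalRing.maximalIdeal A := by
  rw [IsLocalRing.mem_maximalIdeal, mem_nonunits_iff]
  refine ⟨fun h hu => ?_, fun h => ?_⟩
  · exact not_isUnit_zero (h ▸ hu.map π)
  · have key : ∀ x : ZMod 2, x = 0 ∨ x = 1 := by decide
    exact (key (π a)).resolve_right fun h1 => h (isUnit_of_map_eq_one π h1)

lemma map_lift (x : ZMod 2) : π (ι x) = x := by
  have : (π.comp (ZMod.castHom (dvd_refl 2) A)) = RingHom.id (ZMod 2) := RingHom.ext_zmod _ _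
  exact RingHom.congr_fun this x

/-- Lift of the residual inverse. -/
def liftInv (g : G) : Mat A := (resMat π ρ g).adjugate.map ι

/-- Lift of the residual matrix. -/
def liftRes (g : G) : Mat A := (resMat π ρ g).map ι

/-- Conjugated representation. -/
def conjRep (P : (Mat A)ˣ) (g : G) : Mat A := ↑P * ρ g * ↑P⁻¹

/-- The normalised matrices. -/
def normMat (P : (Mat A)ˣ) (g : G) : Mat A := conjRep ρ P g * liftInv π ρ g

variable {π ρ}

lemma det_resMat (hdet : ∀ g, (ρ g).det = 1) (g : G) : (resMat π ρ g).det = 1 := by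
  rw [resMat_apply, ← RingHom.mapMatrix_apply, ← RingHom.map_det, hdet, map_one]

lemma liftInv_mul_liftRes (hdet : ∀ g, (ρ g).det = 1) (g : G) :
    liftInv π ρ g * liftRes π ρ g = 1 := by
  rw [liftInv, liftRes, ← Matrix.map_mul, Matrix.adjugate_mul, det_resMat hdet, one_smul,
    Matrix.map_one _ (map_zero _) (map_one _)]

lemma liftInv_mul (g h : G) : liftInv π ρ (g * h) = liftInv π ρ h * liftInv π ρ g := by
  rw [liftInv, liftInv, liftInv, map_mul, Matrix.adjugate_mul_distrib, Matrix.map_mul]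

lemma conjRep_mul (P : (Mat A)ˣ) (g h : G) :
    conjRep ρ P (g * h) = conjRep ρ P g * conjRep ρ P h := by
  simp only [conjRep, map_mul, mul_assoc, Units.inv_mul_cancel_left]

lemma normMat_mul (hdet : ∀ g, (ρ g).det = 1) (P : (Mat A)ˣ) (g h : G) :
    normMat π ρ P (g * h)
      = normMat π ρ P g * (liftRes π ρ g * normMat π ρ P h * liftInv π ρ g) := by
  rw [normMat, normMat, normMat, conjRep_mul, liftInv_mul]
  have := liftInv_mul_liftRes (π := π) hdet g
  simp only [mul_assoc]
  rw [← mul_assoc (liftInv π ρ g) (liftRes π ρ g), this, one_mul]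

lemma map_conjRep {P : (Mat A)ˣ} (hP : (↑P : Mat A).map π = 1) (g : G) :
    (conjRep ρ P g).map π = resMat π ρ g := by
  have hinv : (↑P⁻¹ : Mat A).map π = 1 := by
    have h := congrArg (fun M : Mat A => M.map π) P.mul_inv
    simp only [Matrix.map_mul, hP, one_mul] at h
    rw [h, Matrix.map_one _ (map_zero _) (map_one _)]
  rw [conjRep, Matrix.map_mul, Matrix.map_mul, hP, hinv, one_mul, mul_one, resMat_apply]

lemma map_normMat (hdet : ∀ g, (ρ g).det = 1) {P : (Mat A)ˣ} (hP : (↑P : Mat A).map π = 1)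
    (g : G) : (normMat π ρ P g).map π = 1 := by
  rw [normMat, Matrix.map_mul, map_conjRep hP, liftInv, Matrix.map_map]
  have : (⇑π ∘ ⇑(ZMod.castHom (dvd_refl 2) A)) = id := funext (map_lift π)
  rw [this, Matrix.map_id, Matrix.mul_adjugate, det_resMat hdet, one_smul]

lemma vec_liftConj (hdet : ∀ g, (ρ g).det = 1) (g : G) (M : Mat A) :
    vec (liftRes π ρ g * M * liftInv π ρ g) = liftRes π ρ g *ᵥ vec M :=
  vec_conj _ _ (det_resMat hdet g) M

lemma mem_maximal_of_map_one {M : Mat A} (hM : M.map π = 1) (i j : Fin 2) :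
    (M - 1) i j ∈ IsLocalRing.maximalIdeal A := by
  rw [← map_eq_zero_iff_mem π, Matrix.sub_apply, map_sub]
  have h := congrFun (congrFun hM i) j
  rw [Matrix.map_apply] at h
  rw [h]
  rcases eq_or_ne i j with rfl | hne <;> simp [*]

lemma vec_sub_one (M : Mat A) : vec (M - 1) = vec M := by
  have h := vec_add (M - 1) 1
  rw [sub_add_cancel, vec_one, add_zero] at h
  exact h.symm

/-- The coordinates of a product of two matrices congruent to one. -/
lemma vec_mul_congr {I I' : Ideal A} (hmI : ∀ a ∈ IsLocalRing.maximalIdeal A, ∀ x ∈ I, a * x ∈ I')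
    {X Y : Mat A} (hX : X.map π = 1) (hY : Y.map π = 1) (hXv : ∀ i, vec X i ∈ I)
    (hYv : ∀ i, vec Y i ∈ I) (i : Fin 2) :
    Ideal.Quotient.mk I' (vec (X * Y) i)
      = Ideal.Quotient.mk I' (vec X i) + Ideal.Quotient.mk I' (vec Y i) := by
  have e : X * Y = (X - 1) * (Y - 1) + (X - 1) + (Y - 1) + 1 := by noncomm_ring
  have hmem := vec_mul_mem hmI (mem_maximal_of_map_one hX) (mem_maximal_of_map_one hY)
    (by intro k; rw [vec_sub_one]; exact hXv k) (by intro k; rw [vec_sub_one]; exact hYv k) i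
  rw [e, vec_add, vec_add, vec_add, vec_one, vec_sub_one, vec_sub_one, add_zero, Pi.add_apply,
    Pi.add_apply, map_add, map_add, Ideal.Quotient.eq_zero_iff_mem.mpr hmem, zero_add]

lemma lift_mulVec_mem {I : Ideal A} (g : Mat (ZMod 2)) {v : Fin 2 → A} (hv : ∀ j, v j ∈ I)
    (i : Fin 2) : (g.map ι *ᵥ v) i ∈ I := by
  simp only [Matrix.mulVec, dotProduct]
  exact Ideal.sum_mem _ fun j _ => I.mul_mem_left _ (hv j)

variable {κ : Type*} {D : κ → Subgroup G} {δ : κ → G → A}

/-- The type condition survives conjugation. -/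
lemma conjRep_equation
    (heq : ∀ v, ∀ g ∈ D v, ∀ h ∈ D v, (ρ g - δ v g • 1) * (ρ h - δ v h • 1) = 0)
    (P : (Mat A)ˣ) {v : κ} {g h : G} (hg : g ∈ D v) (hh : h ∈ D v) :
    (conjRep ρ P g - δ v g • 1) * (conjRep ρ P h - δ v h • 1) = 0 := by
  have key : ∀ (x : G) (a : A),
      conjRep ρ P x - a • 1 = ↑P * (ρ x - a • 1) * ↑P⁻¹ := by
    intro x a
    rw [conjRep, Matrix.mul_sub, Matrix.sub_mul, Matrix.mul_smul, Matrix.smul_mul, mul_one,
      Units.mul_inv]
  rw [key, key]
  calc ↑P * (ρ g - δ v g • 1) * ↑P⁻¹ * (↑P * (ρ h - δ v h • 1) * ↑P⁻¹)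
      = ↑P * ((ρ g - δ v g • 1) * (ρ h - δ v h • 1)) * ↑P⁻¹ := by
        simp only [mul_assoc, Units.inv_mul_cancel_left]
    _ = 0 := by rw [heq v g hg h hh, mul_zero, zero_mul]

/-- Residual images at the given subgroups. -/
lemma resMat_eq_one_or (hdet : ∀ g, (ρ g).det = 1)
    (heq : ∀ v, ∀ g ∈ D v, ∀ h ∈ D v, (ρ g - δ v g • 1) * (ρ h - δ v h • 1) = 0)
    (hδ : ∀ v, ∀ g ∈ D v, δ v g * δ v g = 1) {v : κ} {g g₀ : G} (hg : g ∈ D v) (hg₀ : g₀ ∈ D v)
    (h0 : resMat π ρ g₀ ≠ 1) :
    (resMat π ρ g₀ * resMat π ρ g₀ = 1) ∧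
      (resMat π ρ g = 1 ∨ resMat π ρ g = resMat π ρ g₀) := by
  have hπ : ∀ x ∈ D v, π (δ v x) = 1 := by
    intro x hx
    have h := congrArg π (hδ v x hx)
    rw [map_mul, map_one] at h
    revert h
    generalize π (δ v x) = y
    revert y
    decide
  have key : ∀ x ∈ D v, ∀ y ∈ D v, (resMat π ρ x - 1) * (resMat π ρ y - 1) = 0 := by
    intro x hx y hy
    have h := congrArg (fun M : Mat A => M.map π) (heq v x hx y hy)
    simp only [Matrix.map_mul, Matrix.map_zero _ (map_zero π)] at h
    rw [← h]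
    congr 1 <;>
    · rw [Matrix.map_sub _ (map_sub π), resMat_apply]
      congr 1
      ext i j
      rcases eq_or_ne i j with rfl | hne <;> simp [*]
  have fin : ∀ a b c d : ZMod 2, ∀ a' b' c' d' : ZMod 2,
      a * d - b * c = 1 → a' * d' - b' * c' = 1 →
      (!![a, b; c, d] - 1) * (!![a', b'; c', d'] - 1) = 0 →
      (!![a', b'; c', d'] - 1) * (!![a, b; c, d] - 1) = 0 →
      (!![a', b'; c', d'] - 1) * (!![a', b'; c', d'] - 1) = 0 →
      (!![a, b; c, d] - 1) * (!![a, b; c, d] - 1) = 0 →
      !![a', b'; c', d'] ≠ 1 →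
      !![a', b'; c', d'] * !![a', b'; c', d'] = 1 ∧
        (!![a, b; c, d] = 1 ∨ !![a, b; c, d] = !![a', b'; c', d']) := by
    intro a b c d a' b' c' d'
    have key : ∀ x : ZMod 2, x = 0 ∨ x = 1 := by decide
    rcases key a with rfl | rfl <;> rcases key b with rfl | rfl <;>
      rcases key c with rfl | rfl <;> rcases key d with rfl | rfl <;>
      first
      | (intro h; exfalso; revert h; decide)
      | (rcases key a' with rfl | rfl <;> rcases key b' with rfl | rfl <;>
          rcases key c' with rfl | rfl <;> rcases key d' with rfl | rfl <;>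
          first
          | (intro _ h; exfalso; revert h; decide)
          | decide)
  have d1 := det_resMat (π := π) hdet g
  have d2 := det_resMat (π := π) hdet g₀
  have e1 := Matrix.eta_fin_two (resMat π ρ g)
  have e2 := Matrix.eta_fin_two (resMat π ρ g₀)
  have k1 := key g hg g₀ hg₀
  have k2 := key g₀ hg₀ g hg
  have k3 := key g₀ hg₀ g₀ hg₀
  have k4 := key g hg g hg
  rw [Matrix.det_fin_two] at d1 d2
  rw [e1] at k1 k2 k4 ⊢
  rw [e2] at k1 k2 k3 h0 ⊢
  exact fin _ _ _ _ _ _ _ _ d1 d2 k1 k2 k3 k4 h0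

/-- The nilpotent generator at a subgroup, and the shape of every matrix there. -/
lemma exists_smul_eq (hdet : ∀ g, (ρ g).det = 1)
    (heq : ∀ v, ∀ g ∈ D v, ∀ h ∈ D v, (ρ g - δ v g • 1) * (ρ h - δ v h • 1) = 0)
    (hδ : ∀ v, ∀ g ∈ D v, δ v g * δ v g = 1)
    {P : (Mat A)ˣ} (hP : (↑P : Mat A).map π = 1)
    {v : κ} {g g₀ : G} (hg : g ∈ D v) (hg₀ : g₀ ∈ D v) (h0 : resMat π ρ g₀ ≠ 1) :
    ∃ x : A, conjRep ρ P g - δ v g • 1 = x • (δ v g₀ • conjRep ρ P g₀ - 1) := by
  obtain ⟨hsq, -⟩ := resMat_eq_one_or (π := π) hdet heq hδ hg₀ hg₀ h0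
  obtain ⟨-, hrest⟩ := det_one_cases _ (det_resMat (π := π) hdet g₀)
  obtain ⟨-, -, hres, hunit, -, -⟩ := hrest hsq h0
  set N := δ v g₀ • conjRep ρ P g₀ - 1 with hNdef
  have hN : N = δ v g₀ • (conjRep ρ P g₀ - δ v g₀ • 1) := by
    rw [hNdef, smul_sub, smul_smul, hδ v g₀ hg₀, one_smul]
  have hπδ : π (δ v g₀) = 1 := by
    have h := congrArg π (hδ v g₀ hg₀)
    rw [map_mul, map_one] at h
    revert h
    generalize π (δ v g₀) = y
    revert y
    decide
  have hNN : N * N = 0 := by
    rw [hN, smul_mul_assoc, mul_smul_comm, conjRep_equation heq P hg₀ hg₀, smul_zero, smul_zero]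
  have hNres : ∀ i j, π (N i j) = (resMat π ρ g₀ + 1) i j := by
    intro i j
    have hc := congrFun (congrFun (map_conjRep (ρ := ρ) hP g₀) i) j
    rw [Matrix.map_apply] at hc
    simp only [hNdef, Matrix.sub_apply, Matrix.smul_apply, smul_eq_mul, map_sub, map_mul, hπδ,
      one_mul, hc, Matrix.add_apply]
    rcases eq_or_ne i j with rfl | hne
    · simp [CharTwo.sub_eq_add]
    · simp [hne]
  have htr : N 0 0 = N 1 1 := by
    have h2 : (2 : A) = 0 := CharTwo.two_eq_zero
    have b01 := congrFun (congrFun hNN 0) 1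
    have b10 := congrFun (congrFun hNN 1) 0
    simp only [Matrix.mul_apply, Fin.sum_univ_two, Matrix.zero_apply] at b01 b10
    rcases hunit with h | h
    · have hu : IsUnit (N 0 1) := isUnit_of_map_eq_one π (by rw [hNres, h])
      have : N 0 1 * (N 0 0 + N 1 1) = 0 := by linear_combination b01
      have := hu.mul_right_eq_zero.mp this
      linear_combination this - N 1 1 * h2
    · have hu : IsUnit (N 1 0) := isUnit_of_map_eq_one π (by rw [hNres, h])
      have : N 1 0 * (N 0 0 + N 1 1) = 0 := by linear_combination b10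
      have := hu.mul_right_eq_zero.mp this
      linear_combination this - N 1 1 * h2
  refine eq_smul_of_mul_eq_zero hNN htr ?_ ?_ ?_
  · rcases hunit with h | h
    · exact Or.inl (isUnit_of_map_eq_one π (by rw [hNres, h]))
    · exact Or.inr (isUnit_of_map_eq_one π (by rw [hNres, h]))
  · rw [hN, smul_mul_assoc, conjRep_equation heq P hg₀ hg, smul_zero]
  · rw [hN, mul_smul_comm, conjRep_equation heq P hg hg₀, smul_zero]

/-- One step of the successive conjugation. -/
lemma mono_step (hdet : ∀ g, (ρ g).det = 1)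
    (heq : ∀ v, ∀ g ∈ D v, ∀ h ∈ D v, (ρ g - δ v g • 1) * (ρ h - δ v h • 1) = 0)
    (hδ : ∀ v, ∀ g ∈ D v, δ v g * δ v g = 1)
    (hram : ∀ v, ∃ g ∈ D v, resMat π ρ g ≠ 1)
    (hS : SelmerVanishes π ρ D)
    {I I' : Ideal A} (hI'I : I' ≤ I) (hIm : I ≤ IsLocalRing.maximalIdeal A)
    (hmI : ∀ a ∈ IsLocalRing.maximalIdeal A, ∀ x ∈ I, a * x ∈ I')
    {t : A} (htI : t ∈ I) (htI' : t ∉ I') (hI : ∀ x ∈ I, x ∈ I' ∨ x - t ∈ I')
    {P : (Mat A)ˣ} (hP : (↑P : Mat A).map π = 1)
    (hmono : ∀ g i, vec (normMat π ρ P g) i ∈ I) :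
    ∃ P' : (Mat A)ˣ, (↑P' : Mat A).map π = 1 ∧ ∀ g i, vec (normMat π ρ P' g) i ∈ I' := by
  classical
  set f := Ideal.Quotient.mk I' with hf
  let emb : ZMod 2 → A ⧸ I' := fun a => f (ι a) * f t
  have emb_add : ∀ a b, emb (a + b) = emb a + emb b := by
    intro a b; simp only [emb, map_add, add_mul]
  have emb_mul : ∀ a b, f (ι a) * emb b = emb (a * b) := by
    intro a b; simp only [emb, map_mul, mul_assoc]
  have emb_inj : Function.Injective emb := by
    intro a b h
    have key : ∀ x : ZMod 2, x = 0 ∨ x = 1 := by decide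
    have ht : f t ≠ 0 := fun h0 => htI' (Ideal.Quotient.eq_zero_iff_mem.mp h0)
    rcases key a with rfl | rfl <;> rcases key b with rfl | rfl <;> simp [emb] at h ⊢ <;>
      first
      | exact ht h
      | exact ht h.symm
  have exists_coord : ∀ x ∈ I, ∃ a, f x = emb a := by
    intro x hx
    rcases hI x hx with h | h
    · exact ⟨0, by simp only [emb, map_zero, zero_mul]; exact Ideal.Quotient.eq_zero_iff_mem.mpr h⟩
    · refine ⟨1, ?_⟩
      simp only [emb, map_one, one_mul]
      exact Ideal.Quotient.eq.mpr h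
  choose c hc using fun g i => exists_coord _ (hmono g i)
  have f_mulVec : ∀ (M : Mat (ZMod 2)) (w : Fin 2 → A) (a : Fin 2 → ZMod 2),
      (∀ j, f (w j) = emb (a j)) → ∀ i, f ((M.map ι *ᵥ w) i) = emb ((M *ᵥ a) i) := by
    intro M w a hw i
    simp only [Matrix.mulVec, dotProduct, Fin.sum_univ_two, map_add, map_mul, Matrix.map_apply,
      hw, emb_mul, emb_add]
  have hcocycle : ∀ g h, c (g * h) = c g + resMat π ρ g *ᵥ c h := by
    intro g h
    funext i
    apply emb_inj
    rw [← hc, normMat_mul hdet, Pi.add_apply, emb_add, ← hc]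
    have hY : (liftRes π ρ g * normMat π ρ P h * liftInv π ρ g).map π = 1 := by
      rw [Matrix.map_mul, Matrix.map_mul, map_normMat hdet hP, mul_one, ← Matrix.map_mul]
      rw [liftRes, liftInv, ← Matrix.map_mul, Matrix.mul_adjugate, det_resMat hdet, one_smul]
      simp
    rw [vec_mul_congr hmI (map_normMat hdet hP g) hY (hmono g)
      (by intro k; rw [vec_liftConj hdet]; exact lift_mulVec_mem _ (hmono h) k) i,
      vec_liftConj hdet, liftRes, f_mulVec _ _ _ (hc h)]
  have hfactor : ∀ g g', ρ g = ρ g' → c g = c g' := by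
    intro g g' hgg
    funext i
    apply emb_inj
    rw [← hc, ← hc]
    simp only [normMat, conjRep, liftInv, resMat_apply, hgg]
  have hlocal : ∀ v, ∀ g ∈ D v, ∀ g' ∈ D v, resMat π ρ g' *ᵥ c g = c g := by
    intro v
    obtain ⟨g₀, hg₀, h0⟩ := hram v
    obtain ⟨hsq, -⟩ := resMat_eq_one_or (π := π) hdet heq hδ hg₀ hg₀ h0
    obtain ⟨-, hrest⟩ := det_one_cases _ (det_resMat (π := π) hdet g₀)
    obtain ⟨hadj, hfix, -, -, hvec, -⟩ := hrest hsq h0
    have hc0 : resMat π ρ g₀ *ᵥ c g₀ = c g₀ := by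
      have h1 : conjRep ρ P (g₀ * g₀) = 1 := by
        rw [conjRep_mul]
        have h' : conjRep ρ P g₀ * conjRep ρ P g₀ - δ v g₀ • conjRep ρ P g₀
            - δ v g₀ • conjRep ρ P g₀ + 1 = 0 := by
          rw [← conjRep_equation heq P hg₀ hg₀]
          simp only [sub_mul, mul_sub, smul_mul_assoc, mul_smul_comm, one_mul, mul_one, smul_smul,
            smul_sub, hδ v g₀ hg₀, one_smul]
          abel
        ext i j
        have hij := congrFun (congrFun h' i) j
        simp only [Matrix.add_apply, Matrix.sub_apply, Matrix.smul_apply, smul_eq_mul,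
          Matrix.zero_apply] at hij
        have h2' : (2 : A) = 0 := CharTwo.two_eq_zero
        linear_combination hij + (δ v g₀ * conjRep ρ P g₀ i j - (1 : Mat A) i j) * h2'
      have h2 : c (g₀ * g₀) = 0 := by
        funext i
        apply emb_inj
        rw [← hc, normMat, h1, liftInv, map_mul, hsq, Matrix.adjugate_one,
          Matrix.map_one _ (map_zero _) (map_one _), one_mul, vec_one]
        simp [emb]
      rw [hcocycle] at h2
      funext i
      have h3 := congrFun h2 i
      simp only [Pi.add_apply, Pi.zero_apply] at h3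
      exact (CharTwo.add_eq_zero.mp h3).symm
    have heven : ∀ g ∈ D v, resMat π ρ g = 1 → resMat π ρ g₀ *ᵥ c g = c g := by
      intro g hg hg1
      obtain ⟨x, hx⟩ := exists_smul_eq hdet heq hδ hP hg hg₀ h0
      have hZ : normMat π ρ P g = conjRep ρ P g := by
        rw [normMat, liftInv, hg1, Matrix.adjugate_one,
          Matrix.map_one _ (map_zero _) (map_one _), mul_one]
      have hv : ∀ i, vec (normMat π ρ P g) i = x * (δ v g₀ * vec (conjRep ρ P g₀) i) := by
        intro i
        have h := congrArg (fun M : Mat A => vec M i) hx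
        have e1 : vec (conjRep ρ P g - δ v g • 1) = vec (conjRep ρ P g) := by
          have h := vec_add (conjRep ρ P g - δ v g • 1) (δ v g • 1)
          rw [sub_add_cancel, vec_smul, vec_one, smul_zero, add_zero] at h
          exact h.symm
        simp only [e1, vec_smul, vec_sub_one, Pi.smul_apply, smul_eq_mul] at h
        rw [hZ, h]
      have hres : ∀ i, π (δ v g₀ * vec (conjRep ρ P g₀) i) = vec (resMat π ρ g₀) i := by
        intro i
        have h := congrFun (map_vec π (conjRep ρ P g₀)) i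
        rw [map_conjRep hP] at h
        rw [map_mul, h, Function.comp_apply]
        have hd := congrArg π (hδ v g₀ hg₀)
        rw [map_mul, map_one] at hd
        have : ∀ y : ZMod 2, y * y = 1 → y = 1 := by decide
        rw [this _ hd, one_mul]
      obtain ⟨i₀, hi₀⟩ := Function.ne_iff.mp hvec
      have key : ∀ y : ZMod 2, y ≠ 0 → y = 1 := by decide
      have hu : IsUnit (δ v g₀ * vec (conjRep ρ P g₀) i₀) :=
        isUnit_of_map_eq_one π (by rw [hres]; exact key _ hi₀)
      have hxI : x ∈ I := by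
        obtain ⟨w, hw⟩ := hu.exists_left_inv
        have := hmono g i₀
        rw [hv] at this
        have := I.mul_mem_left w this
        rwa [← mul_assoc, mul_comm w x, mul_assoc, hw, mul_one] at this
      obtain ⟨a, ha⟩ := exists_coord x hxI
      have hcg : c g = a • vec (resMat π ρ g₀) := by
        funext i
        apply emb_inj
        rw [← hc, hv, Pi.smul_apply, smul_eq_mul, map_mul, ha]
        have hdiff : δ v g₀ * vec (conjRep ρ P g₀) i - ι (vec (resMat π ρ g₀) i)
            ∈ IsLocalRing.maximalIdeal A := by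
          rw [← map_eq_zero_iff_mem π, map_sub, hres, map_lift, sub_self]
        have hz : f ((δ v g₀ * vec (conjRep ρ P g₀) i - ι (vec (resMat π ρ g₀) i)) * t) = 0 :=
          Ideal.Quotient.eq_zero_iff_mem.mpr (hmI _ hdiff t htI)
        rw [map_mul, map_sub, sub_mul, sub_eq_zero] at hz
        simp only [map_mul] at hz
        simp only [emb, map_mul]
        linear_combination f (ι a) * hz
      rw [hcg, Matrix.mulVec_smul, hfix]
    have hall : ∀ g ∈ D v, resMat π ρ g₀ *ᵥ c g = c g := by
      intro g hg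
      rcases (resMat_eq_one_or (π := π) hdet heq hδ hg hg₀ h0).2 with h1 | h1
      · exact heven g hg h1
      · have h2 : resMat π ρ (g * g₀) = 1 := by rw [map_mul, h1, hsq]
        have h3 := heven _ (mul_mem hg hg₀) h2
        rw [hcocycle, h1, hc0, Matrix.mulVec_add, hc0] at h3
        exact add_right_cancel h3
    intro g hg g' hg'
    rcases (resMat_eq_one_or (π := π) hdet heq hδ hg' hg₀ h0).2 with h1 | h1
    · rw [h1, Matrix.one_mulVec]
    · rw [h1, hall g hg]
  obtain ⟨u, hu⟩ := hS c hcocycle hfactor hlocal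
  let U : Mat A := wmat fun i => ι (u i) * t
  have hUI : ∀ i j, U i j ∈ I := by
    intro i j
    fin_cases i <;> fin_cases j <;> simp [U, wmat] <;>
      first
      | exact I.mul_mem_left _ htI
      | exact I.add_mem (I.mul_mem_left _ htI) (I.mul_mem_left _ htI)
  have hUmap : (1 + U).map π = 1 := by
    ext i j
    have := (map_eq_zero_iff_mem π).mpr (hIm (hUI i j))
    rw [Matrix.map_apply, Matrix.add_apply, map_add, this, add_zero]
    rcases eq_or_ne i j with rfl | hne <;> simp [*]
  have hQ : IsUnit (1 + U) := by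
    rw [Matrix.isUnit_iff_isUnit_det]
    apply isUnit_of_map_eq_one π
    rw [RingHom.map_det, RingHom.mapMatrix_apply, hUmap, Matrix.det_one]
  obtain ⟨Q, hQ⟩ := hQ
  have hQmap : (↑Q : Mat A).map π = 1 := by rw [hQ, hUmap]
  have hQinv : (↑Q⁻¹ : Mat A).map π = 1 := by
    have h := congrArg (fun M : Mat A => M.map π) Q.mul_inv
    simp only [Matrix.map_mul, hQmap, one_mul] at h
    rw [h, Matrix.map_one _ (map_zero _) (map_one _)]
  have hU' : ∀ i, f (vec (↑Q⁻¹ : Mat A) i) = emb (u i) := by
    have e : (↑Q⁻¹ : Mat A) = 1 - U + U * (1 - ↑Q⁻¹) := by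
      have h := Q.mul_inv
      rw [hQ, Matrix.add_mul, one_mul] at h
      rw [Matrix.mul_sub, mul_one]
      calc (↑Q⁻¹ : Mat A) = (↑Q⁻¹ + U * ↑Q⁻¹) - U * ↑Q⁻¹ := by abel
        _ = 1 - U * ↑Q⁻¹ := by rw [h]
        _ = 1 - U + (U - U * ↑Q⁻¹) := by abel
    have hent : ∀ i j, (U * (1 - (↑Q⁻¹ : Mat A))) i j ∈ I' := by
      intro i j
      rw [Matrix.mul_apply]
      refine Ideal.sum_mem _ fun k _ => ?_
      rw [mul_comm]
      refine hmI _ ?_ _ (hUI i k)
      have := mem_maximal_of_map_one (π := π) hQinv k j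
      rw [← Ideal.neg_mem_iff]
      simpa [Matrix.sub_apply] using this
    intro i
    have hv1 : f (vec (U * (1 - (↑Q⁻¹ : Mat A))) i) = 0 := by
      rw [Ideal.Quotient.eq_zero_iff_mem]
      fin_cases i <;> exact I'.add_mem (I'.add_mem (hent _ _) (hent _ _)) (hent _ _)
    have hv2 : vec (1 - U) = fun i => ι (u i) * t := by
      rw [show (1 - U) = 1 + U from ?_, vec_add, vec_one, zero_add, vec_wmat]
      ext a b
      simp [CharTwo.sub_eq_add]
    rw [e, vec_add, Pi.add_apply, map_add, hv1, add_zero, hv2]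
    simp [emb]
  refine ⟨Q * P, ?_, fun g i => ?_⟩
  · rw [Units.val_mul, Matrix.map_mul, hQmap, hP, one_mul]
  · rw [← Ideal.Quotient.eq_zero_iff_mem]
    have e : normMat π ρ (Q * P) g
        = ↑Q * (normMat π ρ P g * (liftRes π ρ g * ↑Q⁻¹ * liftInv π ρ g)) := by
      simp only [normMat, conjRep, _root_.mul_inv_rev, Units.val_mul]
      simp only [mul_assoc]
      rw [← mul_assoc (liftInv π ρ g) (liftRes π ρ g), liftInv_mul_liftRes hdet, one_mul]
    have hZ := map_normMat hdet hP g
    have hR : (liftRes π ρ g * (↑Q⁻¹ : Mat A) * liftInv π ρ g).map π = 1 := by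
      rw [Matrix.map_mul, Matrix.map_mul, hQinv, mul_one, ← Matrix.map_mul]
      rw [liftRes, liftInv, ← Matrix.map_mul, Matrix.mul_adjugate, det_resMat hdet, one_smul]
      simp
    have hQv : ∀ k, f (vec (↑Q : Mat A) k) = emb (u k) := by
      intro k
      rw [hQ, vec_add, vec_one, zero_add, vec_wmat]
      simp [emb]
    have hemb_mem : ∀ {z : A} {a : ZMod 2}, f z = emb a → z ∈ I := by
      intro z a hz
      have : z - ι a * t ∈ I' := Ideal.Quotient.eq.mp (by rw [hz, map_mul])
      simpa using I.add_mem (hI'I this) (I.mul_mem_left (ι a) htI)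
    have hRv : ∀ k, vec (liftRes π ρ g * (↑Q⁻¹ : Mat A) * liftInv π ρ g) k ∈ I := by
      intro k
      rw [vec_liftConj hdet]
      exact lift_mulVec_mem _ (fun j => hemb_mem (hU' j)) k
    have hprod : (normMat π ρ P g * (liftRes π ρ g * ↑Q⁻¹ * liftInv π ρ g)).map π = 1 := by
      rw [Matrix.map_mul, hZ, hR, one_mul]
    have hprodv : ∀ k, f (vec (normMat π ρ P g * (liftRes π ρ g * ↑Q⁻¹ * liftInv π ρ g)) k)
        = emb (c g k + (resMat π ρ g *ᵥ u) k) := by
      intro k
      rw [vec_mul_congr hmI hZ hR (hmono g) hRv k, vec_liftConj hdet, liftRes,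
        f_mulVec _ _ _ hU', emb_add, hc]
    rw [e, vec_mul_congr hmI hQmap hprod (fun k => hemb_mem (hQv k))
      (fun k => hemb_mem (hprodv k)) i, hQv, hprodv, ← emb_add, hu, Pi.sub_apply]
    have : ∀ a b : ZMod 2, a + (b - a + b) = 0 := by decide
    rw [this]
    simp [emb]

variable [Finite A]

/-- Successive conjugation into dihedral form. -/
lemma exists_dihedral (hdet : ∀ g, (ρ g).det = 1)
    (heq : ∀ v, ∀ g ∈ D v, ∀ h ∈ D v, (ρ g - δ v g • 1) * (ρ h - δ v h • 1) = 0)
    (hδ : ∀ v, ∀ g ∈ D v, δ v g * δ v g = 1)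
    (hram : ∀ v, ∃ g ∈ D v, resMat π ρ g ≠ 1)
    (hS : SelmerVanishes π ρ D) :
    ∃ P : (Mat A)ˣ, (↑P : Mat A).map π = 1 ∧ ∀ g, vec (normMat π ρ P g) = 0 := by
  classical
  haveI := Fintype.ofFinite A
  haveI : WellFoundedLT (Ideal A) := inferInstance
  suffices h : ∀ I : Ideal A, I ≤ IsLocalRing.maximalIdeal A →
      (∃ P : (Mat A)ˣ, (↑P : Mat A).map π = 1 ∧ ∀ g i, vec (normMat π ρ P g) i ∈ I) →
      ∃ P : (Mat A)ˣ, (↑P : Mat A).map π = 1 ∧ ∀ g, vec (normMat π ρ P g) = 0 by
    refine h _ le_rfl ⟨1, by simp, fun g i => ?_⟩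
    have h := congrFun (map_vec π (normMat π ρ 1 g)) i
    rw [map_normMat hdet (by simp), vec_one, Function.comp_apply] at h
    exact (map_eq_zero_iff_mem π).mp h.symm
  intro I
  induction I using WellFoundedLT.induction with
  | _ I ih =>
    rintro hIm ⟨P, hP, hmono⟩
    rcases eq_or_ne I ⊥ with rfl | hI0
    · exact ⟨P, hP, fun g => funext fun i => by simpa using hmono g i⟩
    have hfin : {J : Ideal A | J < I}.Finite := Set.toFinite _
    obtain ⟨I', hlt' : I' < I, hmax'⟩ := hfin.exists_maximal ⟨⊥, bot_lt_iff_ne_bot.mpr hI0⟩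
    have hlt : I' < I := hlt'
    have hmax : ∀ J, I' ≤ J → J < I → J = I' := fun J h1 h2 => le_antisymm (hmax' h2 h1) h1
    obtain ⟨t, htI, htI'⟩ := SetLike.exists_of_lt hlt
    have hmI : ∀ a ∈ IsLocalRing.maximalIdeal A, ∀ x ∈ I, a * x ∈ I' := by
      by_contra hcon
      simp only [not_forall] at hcon
      obtain ⟨a, ha, x, hx, hax⟩ := hcon
      have hsup : I' ⊔ IsLocalRing.maximalIdeal A * I = I := by
        refine le_antisymm (sup_le hlt.le (Ideal.mul_le.mpr fun r _ s hs => I.mul_mem_left r hs)) ?_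
        by_contra hne
        apply hax
        have := hmax (I' ⊔ IsLocalRing.maximalIdeal A * I) le_sup_left
          (lt_of_le_not_ge (sup_le hlt.le (Ideal.mul_le.mpr fun r _ s hs => I.mul_mem_left r hs)) hne)
        exact this ▸ Ideal.mem_sup_right (Ideal.mul_mem_mul ha hx)
      have := Submodule.le_of_le_smul_of_le_jacobson_bot (R := A) (M := A) (N := I') (N' := I)
        (IsNoetherian.noetherian I) (IsLocalRing.jacobson_eq_maximalIdeal (⊥ : Ideal A) bot_ne_top).ge
        (by rw [← smul_eq_mul] at hsup; rw [hsup])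
      exact hlt.not_ge this
    have hI : ∀ x ∈ I, x ∈ I' ∨ x - t ∈ I' := by
      intro x hx
      have hsup : I' ⊔ Ideal.span {t} = I := by
        refine le_antisymm (sup_le hlt.le ((Ideal.span_singleton_le_iff_mem I).mpr htI)) ?_
        by_contra hne
        have := hmax (I' ⊔ Ideal.span {t}) le_sup_left
          (lt_of_le_not_ge (sup_le hlt.le ((Ideal.span_singleton_le_iff_mem I).mpr htI)) hne)
        exact htI' (this ▸ Ideal.mem_sup_right (Ideal.mem_span_singleton_self t))
      rw [← hsup, Submodule.mem_sup] at hx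
      obtain ⟨y, hy, z, hz, rfl⟩ := hx
      obtain ⟨a, rfl⟩ := Ideal.mem_span_singleton'.mp hz
      have key : ∀ b : ZMod 2, b = 0 ∨ b = 1 := by decide
      rcases key (π a) with h | h
      · exact Or.inl (I'.add_mem hy (hmI a ((map_eq_zero_iff_mem π).mp h) t htI))
      · refine Or.inr ?_
        have : a - 1 ∈ IsLocalRing.maximalIdeal A :=
          (map_eq_zero_iff_mem π).mp (by rw [map_sub, map_one, h, sub_self])
        have e : y + a * t - t = y + (a - 1) * t := by ring
        rw [e]
        exact I'.add_mem hy (hmI _ this t htI)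
    exact ih I' hlt (hlt.le.trans hIm)
      (mono_step hdet heq hδ hram hS hlt.le hIm hmI htI htI' hI hP hmono)

end Main

end Fermat.Agent.Residual.Dihedral
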