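import Mathlib.RingTheory.Artinian.Ring
import Mathlib.LinearAlgebra.Matrix.CharP
import Fermat.Agent.Residual.Dihedral

/-!
# The torus character of a dihedral deformation and the bound on the trace ring
-/

set_option autoImplicit false

namespace Fermat.Agent.Residual.Dihedral

open Matrix

variable {G : Type*} [Group G] {A : Type*} [CommRing A]

lemma pow_entry_mem {m : Ideal A} {M : Mat A} (hM : ∀ i j, M i j ∈ m) :
    ∀ (k : ℕ) (i j : Fin 2), (M ^ k) i j ∈ m ^ k := by
  intro k
  induction k with
  | zero => intro i j; simp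
  | succ k ih =>
    intro i j
    rw [pow_succ M, Matrix.mul_apply]
    refine Ideal.sum_mem _ fun l _ => ?_
    rw [pow_succ m]
    exact Ideal.mul_mem_mul (ih i l) (hM l j)

variable [IsLocalRing A] [CharP A 2] [Finite A] {π : A →+* ZMod 2} {ρ : G →* Mat A}

local notation "ι" => ZMod.castHom (dvd_refl 2) A

lemma torus_two_power {X : Mat A} (hX : X.map π = 1) : ∃ n : ℕ, X ^ 2 ^ n = 1 := by
  obtain ⟨k, hk⟩ := IsArtinianRing.isNilpotent_jacobson_bot (R := A)
  refine ⟨k, ?_⟩
  have hle : k ≤ 2 ^ k := k.lt_two_pow_self.le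
  have hzero : (X - 1) ^ 2 ^ k = 0 := by
    ext i j
    have h := pow_entry_mem (mem_maximal_of_map_one hX) (2 ^ k) i j
    have hj : IsLocalRing.maximalIdeal A = Ideal.jacobson ⊥ :=
      (IsLocalRing.jacobson_eq_maximalIdeal (⊥ : Ideal A) bot_ne_top).symm
    rw [hj] at h
    have := Ideal.pow_le_pow_right (I := Ideal.jacobson (⊥ : Ideal A)) hle h
    rw [hk] at this
    simpa using this
  have e : X = (X - 1) + 1 := (sub_add_cancel X 1).symm
  rw [e, add_pow_char_pow_of_commute 2 _ (Commute.one_right (X - 1)), hzero, one_pow,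
    zero_add]

/-- Torus generator lies in the torus. -/
lemma vec_torusGen : vec (torusGen : Mat A) = 0 := by
  funext i; fin_cases i <;> simp [vec, torusGen, CharTwo.add_self_eq_zero]

lemma odd_residual : ∀ g : Mat (ZMod 2), g.det = 1 → g * torusGen ≠ torusGen * g →
    g 0 0 + g 1 1 = 0 ∧ (torusGen * g : Mat (ZMod 2)) 0 0 + (torusGen * g : Mat (ZMod 2)) 1 1 = 0 := by
  intro g
  obtain ⟨a, b, c, d, rfl⟩ : ∃ a b c d, g = !![a, b; c, d] :=
    ⟨g 0 0, g 0 1, g 1 0, g 1 1, (Matrix.eta_fin_two g)⟩
  revert a b c d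
  decide

/-- **The dihedral lemma.**  A representation over a finite local ring of characteristic two, of
special type at the subgroups `D v` and with vanishing residual Selmer cocycles, yields a
character `φ` of the even subgroup with finite image of two-power exponent, scalar at the `D v`,
such that the number of values bounds the ring generated by the traces. -/
theorem exists_torus_character {κ : Type*} {D : κ → Subgroup G} {δ : κ → G → A}
    (hdet : ∀ g, (ρ g).det = 1)
    (heq : ∀ v, ∀ g ∈ D v, ∀ h ∈ D v, (ρ g - δ v g • 1) * (ρ h - δ v h • 1) = 0)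
    (hδ : ∀ v, ∀ g ∈ D v, δ v g * δ v g = 1)
    (hram : ∀ v, ∃ g ∈ D v, resMat π ρ g ≠ 1)
    (hS : SelmerVanishes π ρ D) :
    ∃ φ : evenSubgroup π ρ →* Mat A,
      (∀ h h', φ h * φ h' = φ h' * φ h) ∧
      (∀ h, ∃ n : ℕ, φ h ^ 2 ^ n = 1) ∧
      (∀ h h' : evenSubgroup π ρ, ρ h = ρ h' → φ h = φ h') ∧
      (∀ v, ∀ h : evenSubgroup π ρ, (h : G) ∈ D v → φ h = δ v h • 1) ∧
      (∀ v, ∀ h : evenSubgroup π ρ, (h : G) ∈ D v → ρ h = δ v h • 1) ∧
      (Subring.closure (Set.range fun g => (ρ g).trace) = ⊤ →
        Nat.card A ≤ 2 ^ Nat.card (Set.range φ)) := by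
  classical
  obtain ⟨P, hP, hmono⟩ := exists_dihedral hdet heq hδ hram hS
  haveI := Fintype.ofFinite A
  -- residual matrices of even elements lie in the torus
  have hRes : ∀ h : evenSubgroup π ρ, vec (liftRes π ρ h) = 0 := by
    intro h
    have h0 := (det_one_cases _ (det_resMat (π := π) hdet h)).1 h.2
    rw [liftRes, map_vec, h0]
    funext i; simp
  have hInv : ∀ h : evenSubgroup π ρ, vec (liftInv π ρ h) = 0 := by
    intro h
    have hh : (h : G)⁻¹ ∈ evenSubgroup π ρ := inv_mem h.2
    have h0 := hRes ⟨_, hh⟩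
    have e : liftInv π ρ h = liftRes π ρ (h : G)⁻¹ := by
      rw [liftInv, liftRes]
      congr 1
      calc (resMat π ρ h).adjugate
          = (resMat π ρ h).adjugate * (resMat π ρ h * resMat π ρ (h : G)⁻¹) := by
            rw [← map_mul, mul_inv_cancel, map_one, mul_one]
        _ = resMat π ρ (h : G)⁻¹ := by
            rw [← mul_assoc, Matrix.adjugate_mul, det_resMat hdet, one_smul, one_mul]
    rw [e]; exact h0
  have hconjInv : ∀ g h : G, conjRep ρ P g = normMat π ρ P g * liftRes π ρ g := by
    intro g _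
    rw [normMat, mul_assoc, liftInv_mul_liftRes hdet, mul_one]
  have hConj : ∀ h : evenSubgroup π ρ, vec (conjRep ρ P h) = 0 := by
    intro h
    rw [hconjInv h 1]
    exact vec_mul_of_vec_eq_zero (hmono h) (hRes h)
  let φ : evenSubgroup π ρ →* Mat A :=
    { toFun := fun h => normMat π ρ P h
      map_one' := by
        simp [normMat, conjRep, liftInv, Matrix.adjugate_one,
          Matrix.map_one _ (map_zero (ZMod.castHom (dvd_refl 2) A))
            (map_one (ZMod.castHom (dvd_refl 2) A))]
      map_mul' := by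
        intro g h
        show normMat π ρ P ((g : G) * h) = _
        rw [normMat_mul hdet]
        congr 1
        have hYv := vec_mul_of_vec_eq_zero (hmono h) (hInv g)
        calc liftRes π ρ g * normMat π ρ P h * liftInv π ρ g
            = (normMat π ρ P h * liftInv π ρ g) * liftRes π ρ g := by
              rw [mul_assoc]; exact mul_comm_of_vec_eq_zero (hRes g) hYv
          _ = normMat π ρ P h := by rw [mul_assoc, liftInv_mul_liftRes hdet, mul_one] }
  have hφ : ∀ h : evenSubgroup π ρ, φ h = normMat π ρ P h := fun h => rfl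
  -- scalar at the given subgroups
  have hscalar : ∀ v, ∀ h : evenSubgroup π ρ, (h : G) ∈ D v →
      ρ h = δ v h • 1 ∧ φ h = δ v h • 1 := by
    intro v h hh
    obtain ⟨g₀, hg₀, h0⟩ := hram v
    obtain ⟨hsq, hcases⟩ := resMat_eq_one_or (π := π) hdet heq hδ hh hg₀ h0
    obtain ⟨-, hrest⟩ := det_one_cases _ (det_resMat (π := π) hdet g₀)
    obtain ⟨-, -, -, -, hvec, hodd⟩ := hrest hsq h0
    have h1 : resMat π ρ h = 1 := hcases.resolve_right fun e => hodd (e ▸ h.2)
    obtain ⟨x, hx⟩ := exists_smul_eq hdet heq hδ hP hh hg₀ h0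
    have hπδ : π (δ v g₀) = 1 := by
      have hd := congrArg π (hδ v g₀ hg₀)
      rw [map_mul, map_one] at hd
      revert hd
      generalize π (δ v g₀) = y
      revert y
      decide
    have hv : vec (conjRep ρ P h) = x • (δ v g₀ • vec (conjRep ρ P g₀)) := by
      have h2 := congrArg vec hx
      have h3 := vec_add (conjRep ρ P h - δ v h • 1) (δ v h • 1)
      rw [sub_add_cancel, vec_smul, vec_one, smul_zero, add_zero] at h3
      rw [h3, h2, vec_smul, vec_sub_one, vec_smul]
    obtain ⟨i₀, hi₀⟩ := Function.ne_iff.mp hvec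
    have hu : IsUnit (δ v g₀ * vec (conjRep ρ P g₀) i₀) := by
      apply isUnit_of_map_eq_one π
      have h2 := congrFun (map_vec π (conjRep ρ P g₀)) i₀
      rw [map_conjRep hP, Function.comp_apply] at h2
      rw [map_mul, hπδ, one_mul, ← h2]
      have key : ∀ y : ZMod 2, y ≠ 0 → y = 1 := by decide
      exact key _ hi₀
    have hx0 : x = 0 := by
      have h2 := congrFun (hv.symm.trans (hConj h)) i₀
      simp only [Pi.smul_apply, smul_eq_mul, Pi.zero_apply] at h2
      exact hu.mul_left_eq_zero.mp h2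
    rw [hx0, zero_smul, sub_eq_zero] at hx
    refine ⟨?_, ?_⟩
    · have h2 : (↑P⁻¹ : Mat A) * conjRep ρ P h * ↑P = ρ h := by
        simp [conjRep, mul_assoc]
      rw [← h2, hx, Matrix.mul_smul, mul_one, Matrix.smul_mul, Units.inv_mul]
    · rw [hφ, normMat, hx, liftInv, h1, Matrix.adjugate_one,
        Matrix.map_one _ (map_zero _) (map_one _), mul_one]
  refine ⟨φ, fun h h' => mul_comm_of_vec_eq_zero (hmono h) (hmono h'),
    fun h => torus_two_power (π := π) (by rw [hφ]; exact map_normMat hdet hP h),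
    fun h h' e => by simp only [hφ, normMat, conjRep, liftInv, resMat_apply, e],
    fun v h hh => (hscalar v h hh).2, fun v h hh => (hscalar v h hh).1, fun htr => ?_⟩
  -- the bound
  haveI : Fintype (Set.range φ) := Fintype.ofFinite _
  let Φ : (Set.range φ → ZMod 2) × (Set.range φ → ZMod 2) →+ Mat A :=
    { toFun := fun p => (∑ r : Set.range φ, ι (p.1 r) • (r : Mat A))
        + torusGen * ∑ r : Set.range φ, ι (p.2 r) • (r : Mat A)
      map_zero' := by simp
      map_add' := by
        intro p q
        simp only [Prod.fst_add, Prod.snd_add, Pi.add_apply, map_add, add_smul,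
          Finset.sum_add_distrib, Matrix.mul_add]
        abel }
  let S := Φ.range
  have hR : ∀ r : Set.range φ, (r : Mat A) ∈ S ∧ torusGen * (r : Mat A) ∈ S := by
    intro r
    refine ⟨⟨(fun s => if s = r then 1 else 0, 0), ?_⟩, ⟨(0, fun s => if s = r then 1 else 0), ?_⟩⟩
    all_goals
      simp [Φ, apply_ite, ite_smul]
  have hφS : ∀ h, φ h ∈ S ∧ torusGen * φ h ∈ S := fun h => hR ⟨φ h, h, rfl⟩
  have hgen : (torusGen : Mat A) * torusGen = 1 + torusGen := by
    ext i j; fin_cases i <;> fin_cases j <;> simp [torusGen, Matrix.mul_apply, Fin.sum_univ_two]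
  have hsmul : ∀ (a : ZMod 2) {M : Mat A}, M ∈ S → ι a • M ∈ S := by
    intro a M hM
    have key : ∀ x : ZMod 2, x = 0 ∨ x = 1 := by decide
    rcases key a with rfl | rfl
    · simp [S.zero_mem]
    · simpa using hM
  have hTmul : ∀ M ∈ S, torusGen * M ∈ S := by
    rintro M ⟨⟨p, q⟩, rfl⟩
    show torusGen * ((∑ r : Set.range φ, ι (p r) • (r : Mat A))
      + torusGen * ∑ r : Set.range φ, ι (q r) • (r : Mat A)) ∈ S
    rw [Matrix.mul_add, ← mul_assoc, hgen, Matrix.add_mul, one_mul, Matrix.mul_sum]
    simp only [Matrix.mul_smul, Matrix.mul_sum]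
    refine S.add_mem (S.sum_mem fun r _ => hsmul _ (hR r).2) (S.add_mem ?_ ?_)
    · exact S.sum_mem fun r _ => hsmul _ (hR r).1
    · exact S.sum_mem fun r _ => hsmul _ (hR r).2
  have hmul : ∀ M ∈ S, ∀ N ∈ S, M * N ∈ S := by
    have hφmul : ∀ r : Set.range φ, ∀ N ∈ S, (r : Mat A) * N ∈ S := by
      rintro ⟨_, h, rfl⟩ N ⟨⟨p, q⟩, rfl⟩
      show φ h * ((∑ r : Set.range φ, ι (p r) • (r : Mat A))
        + torusGen * ∑ r : Set.range φ, ι (q r) • (r : Mat A)) ∈ S
      rw [Matrix.mul_add, ← mul_assoc,
        mul_comm_of_vec_eq_zero (M := φ h) (by rw [hφ]; exact hmono h) vec_torusGen, mul_assoc,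
        Matrix.mul_sum, Matrix.mul_sum]
      refine S.add_mem (S.sum_mem ?_) (hTmul _ (S.sum_mem ?_)) <;>
      · rintro ⟨_, h', rfl⟩ _
        rw [Matrix.mul_smul, ← map_mul]
        exact hsmul _ (hφS _).1
    rintro M ⟨⟨p, q⟩, rfl⟩ N hN
    show ((∑ r : Set.range φ, ι (p r) • (r : Mat A))
        + torusGen * ∑ r : Set.range φ, ι (q r) • (r : Mat A)) * N ∈ S
    rw [Matrix.add_mul, mul_assoc, Matrix.sum_mul, Matrix.sum_mul]
    refine S.add_mem (S.sum_mem ?_) (hTmul _ (S.sum_mem ?_)) <;>
    · intro r _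
      rw [Matrix.smul_mul]
      exact hsmul _ (hφmul r N hN)
  have hone : (1 : Mat A) ∈ S := by simpa using (hφS 1).1
  have hgenS : (torusGen : Mat A) ∈ S := by simpa using hTmul 1 hone
  -- conjugated even matrices lie in `S`
  have hconjS : ∀ h : evenSubgroup π ρ, conjRep ρ P h ∈ S := by
    intro h
    rw [hconjInv h 1]
    have e : liftRes π ρ h = ι (resMat π ρ h 0 0) • (1 : Mat A)
        + ι (resMat π ρ h 0 1) • torusGen := by
      have := eq_of_vec_eq_zero (hRes h)
      simpa [liftRes] using this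
    rw [e]
    exact hmul _ (hφS h).1 _ (S.add_mem (hsmul _ hone) (hsmul _ hgenS))
  have htrace : ∀ g, (ρ g).trace = (conjRep ρ P g).trace := by
    intro g
    rw [conjRep, Matrix.trace_units_conj]
  let B : Subring A :=
    { carrier := {a | a • (1 : Mat A) ∈ S}
      mul_mem' := fun {a b} ha hb => by
        have := hmul _ ha _ hb
        rw [Set.mem_ofPred_eq]
        simpa [smul_smul, mul_comm b a] using this
      one_mem' := by simpa using hone
      add_mem' := fun {a b} ha hb => by
        rw [Set.mem_ofPred_eq, add_smul]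
        exact S.add_mem ha hb
      zero_mem' := by simp [S.zero_mem]
      neg_mem' := fun {a} ha => by
        rw [Set.mem_ofPred_eq, neg_smul]
        exact S.neg_mem ha }
  have hB : ∀ g, (ρ g).trace ∈ B := by
    intro g
    show (ρ g).trace • (1 : Mat A) ∈ S
    by_cases hg : g ∈ evenSubgroup π ρ
    · have hinv := hconjS ⟨g⁻¹, inv_mem hg⟩
      have hdetc : (conjRep ρ P g).det = 1 := by
        rw [conjRep, Matrix.det_units_conj, hdet]
      have hadj : conjRep ρ P g⁻¹ = (conjRep ρ P g).adjugate := by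
        calc conjRep ρ P g⁻¹ = (conjRep ρ P g).adjugate * conjRep ρ P g * conjRep ρ P g⁻¹ := by
              rw [Matrix.adjugate_mul, hdetc, one_smul, one_mul]
          _ = (conjRep ρ P g).adjugate := by
              rw [mul_assoc, ← conjRep_mul, mul_inv_cancel]
              simp [conjRep]
      have e : (ρ g).trace • (1 : Mat A) = conjRep ρ P g + conjRep ρ P g⁻¹ := by
        rw [htrace, hadj, Matrix.adjugate_fin_two, Matrix.trace_fin_two]
        ext i j
        fin_cases i <;> fin_cases j <;> simp [CharTwo.neg_eq, CharTwo.add_self_eq_zero, add_comm]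
      rw [e]
      exact S.add_mem (hconjS ⟨g, hg⟩) hinv
    · obtain ⟨t1, t2⟩ := odd_residual _ (det_resMat (π := π) hdet g) hg
      have e := eq_of_vec_eq_zero (hmono g)
      have e2 : (ρ g).trace = 0 := by
        rw [htrace, hconjInv g 1, e, Matrix.add_mul, Matrix.smul_mul, Matrix.smul_mul, one_mul,
          Matrix.trace_add, Matrix.trace_smul, Matrix.trace_smul, Matrix.trace_fin_two,
          Matrix.trace_fin_two]
        have q1 := congrArg (ZMod.castHom (dvd_refl 2) A) t1
        have q2 : (torusGen * liftRes π ρ g : Mat A) 0 0 + (torusGen * liftRes π ρ g : Mat A) 1 1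
            = 0 := by
          have := congrArg (ZMod.castHom (dvd_refl 2) A) t2
          simpa [liftRes, torusGen, Matrix.mul_apply, Fin.sum_univ_two] using this
        rw [q2]
        simp only [map_add, map_zero] at q1
        simp only [liftRes, Matrix.map_apply]
        rw [q1]
        simp
      rw [e2, zero_smul]
      exact S.zero_mem
  have hall : ∀ a : A, a • (1 : Mat A) ∈ S := by
    intro a
    have : Subring.closure (Set.range fun g => (ρ g).trace) ≤ B :=
      Subring.closure_le.mpr (by rintro _ ⟨g, rfl⟩; exact hB g)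
    exact this (htr ▸ Subring.mem_top a)
  have hinj : Nat.card (A × A) ≤ Nat.card S := by
    refine Nat.card_le_card_of_injective
      (fun p => ⟨p.1 • (1 : Mat A) + p.2 • torusGen, S.add_mem (hall p.1) ?_⟩) ?_
    · have := hmul _ (hall p.2) _ hgenS
      simpa using this
    · intro p q e
      have e := congrArg Subtype.val e
      refine Prod.ext ?_ ?_
      · simpa [torusGen] using congrFun (congrFun e 0) 0
      · simpa [torusGen] using congrFun (congrFun e 0) 1
  have hS' : Nat.card S ≤ Nat.card ((Set.range φ → ZMod 2) × (Set.range φ → ZMod 2)) :=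
    Nat.card_le_card_of_surjective Φ.rangeRestrict Φ.rangeRestrict_surjective
  have h2 := hinj.trans hS'
  rw [Nat.card_prod, Nat.card_prod, Nat.card_fun, Nat.card_zmod] at h2
  exact Nat.mul_self_le_mul_self_iff.mp h2

end Fermat.Agent.Residual.Dihedral
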