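import Mathlib.RingTheory.Adjoin.Basic
import Mathlib.RingTheory.Nakayama
import Fermat.Agent.Residual.DihedralBound

/-!
# From special representations over a local ring to the dihedral lemma modulo two

`A` is a local ring embedded in a ring `R` (in practice `T × ZMod (2 ^ M)`), `ρ` a representation
over `A` which is special at each `D v` after mapping to `R`, with unramified sign `ε v`.  The
signs then lie in `A`, the reduction modulo `2` satisfies the hypotheses of
`exists_torus_character`, and the two algebraic lemmas at the end turn the resulting bound into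
the injectivity of `A → T` and decide the product of the signs.
-/

set_option autoImplicit false

namespace Fermat.Agent.Residual.Dihedral

open Matrix

variable {G : Type*} [Group G] {A : Type*} [CommRing A] [IsLocalRing A]
  {π : A →+* ZMod 2} {ρ : G →* Mat A} {κ : Type*} {D : κ → Subgroup G} {χ : G → A}

/-- An element with residue one is a unit. -/
lemma isUnit_of_residue_one {a : A} (h : π a = 1) : IsUnit a := by
  rcases IsLocalRing.isUnit_or_isUnit_one_sub_self a with ha | ha
  · exact ha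
  · have h' := ha.map π
    rw [map_sub, map_one, h, sub_self] at h'
    exact absurd h' not_isUnit_zero

/-- The signs of a special representation lie in the ring of definition. -/
theorem exists_local_signs {R : Type*} [CommRing R] {f : A →+* R} (hf : Function.Injective f)
    {ε : κ → G → R} (hχ : ∀ g, π (χ g) = 1)
    (hε : ∀ v, ∀ g ∈ D v, ε v g * ε v g = 1)
    (hsp : ∀ v, ∀ g ∈ D v, ∀ h ∈ D v,
      ((ρ g).map f - (f (χ g) * ε v g) • 1) * ((ρ h).map f - ε v h • 1) = 0)
    (hin : ∀ v, ∃ σ ∈ D v, ε v σ = 1 ∧ resMat π ρ σ ≠ 1) :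
    ∃ δ : κ → G → A, (∀ v, ∀ g ∈ D v, f (δ v g) = ε v g) ∧
      (∀ v, ∀ g ∈ D v, δ v g * δ v g = 1) ∧
      (∀ v, ∀ g ∈ D v, ∀ h ∈ D v, (ρ g - (χ g * δ v g) • 1) * (ρ h - δ v h • 1) = 0) := by
  classical
  have hex : ∀ v g, ∃ d : A, g ∈ D v → f d = ε v g := by
    intro v g
    by_cases hg : g ∈ D v
    · obtain ⟨σ, hσ, hεσ, hres⟩ := hin v
      obtain ⟨i, j, hij⟩ : ∃ i j, π ((ρ σ - χ σ • 1) i j) = 1 := by
        by_contra hcon
        simp only [not_exists] at hcon
        apply hres
        ext i j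
        have key : ∀ x y : ZMod 2, x - y ≠ 1 → x = y := by decide
        apply key
        have := hcon i j
        rw [Matrix.sub_apply, Matrix.smul_apply, map_sub, smul_eq_mul, map_mul, hχ, one_mul] at this
        rw [resMat_apply, Matrix.map_apply]
        rcases eq_or_ne i j with rfl | hne
        · simpa using this
        · simpa [hne] using this
      obtain ⟨u, hu⟩ := isUnit_of_residue_one hij
      refine ⟨((ρ σ - χ σ • 1) * ρ g) i j * ↑u⁻¹, fun _ => ?_⟩
      have h := hsp v σ hσ g hg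
      rw [hεσ, mul_one, Matrix.mul_sub, Matrix.mul_smul, mul_one, sub_eq_zero] at h
      have e : (ρ σ - χ σ • 1).map f = (ρ σ).map f - f (χ σ) • 1 := by
        ext a b
        rcases eq_or_ne a b with rfl | hne <;> simp [*]
      have h' := congrFun (congrFun h i) j
      rw [← e, ← Matrix.map_mul, Matrix.map_apply, Matrix.smul_apply, Matrix.map_apply,
        ← hu, smul_eq_mul] at h'
      rw [map_mul, h', mul_assoc, ← map_mul, Units.mul_inv, map_one, mul_one]
    · exact ⟨0, fun h => absurd h hg⟩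
  choose δ hδ using hex
  refine ⟨δ, hδ, fun v g hg => hf (by rw [map_mul, hδ v g hg, map_one, hε v g hg]),
    fun v g hg h hh => ?_⟩
  apply Matrix.map_injective hf
  show ((ρ g - (χ g * δ v g) • 1) * (ρ h - δ v h • 1) : Mat A).map f = (0 : Mat A).map f
  have e : ∀ (M : Mat A) (a : A), (M - a • 1).map f = M.map f - f a • 1 := by
    intro M a
    ext i j
    rcases eq_or_ne i j with rfl | hne <;> simp [*]
  rw [Matrix.map_mul, e, e, map_mul, hδ v g hg, hδ v h hh, hsp v g hg h hh]
  exact (Matrix.map_zero _ (map_zero f)).symm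

/-- Reduction modulo two of a representation. -/
def modTwo (ρ : G →* Mat A) : G →* Mat (A ⧸ Ideal.span {(2 : A)}) :=
  ((Ideal.Quotient.mk (Ideal.span {(2 : A)})).mapMatrix (m := Fin 2)).toMonoidHom.comp ρ

omit [IsLocalRing A] in
lemma modTwo_apply (g : G) :
    modTwo ρ g = (ρ g).map (Ideal.Quotient.mk (Ideal.span {(2 : A)})) := rfl

/-- The residue map of the quotient by two. -/
def piTwo (π : A →+* ZMod 2) : A ⧸ Ideal.span {(2 : A)} →+* ZMod 2 :=
  Ideal.Quotient.lift _ π fun a ha => by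
    obtain ⟨b, rfl⟩ := Ideal.mem_span_singleton'.mp ha
    rw [map_mul, map_ofNat, show (2 : ZMod 2) = 0 from rfl, mul_zero]

omit [IsLocalRing A] in
lemma resMat_modTwo (g : G) : resMat (piTwo π) (modTwo ρ) g = resMat π ρ g := by
  rw [resMat_apply, resMat_apply, modTwo_apply, Matrix.map_map]
  rfl

omit [IsLocalRing A] in
lemma evenSubgroup_modTwo : evenSubgroup (piTwo π) (modTwo ρ) = evenSubgroup π ρ := by
  ext g
  show _ = _ ↔ _ = _
  rw [resMat_modTwo]

omit [IsLocalRing A] in
lemma two_eq_zero_modTwo : ((2 : ℕ) : A ⧸ Ideal.span {(2 : A)}) = 0 := by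
  rw [← map_natCast (Ideal.Quotient.mk _), Ideal.Quotient.eq_zero_iff_mem, Nat.cast_ofNat]
  exact Ideal.mem_span_singleton_self _

/-- **The dihedral lemma modulo two.** -/
theorem exists_torus_character_modTwo [Finite (A ⧸ Ideal.span {(2 : A)})] {δ : κ → G → A}
    (hdet : ∀ g, (ρ g).det = χ g)
    (hχ : ∀ g, χ g - 1 ∈ Ideal.span {(2 : A)})
    (heq : ∀ v, ∀ g ∈ D v, ∀ h ∈ D v, (ρ g - (χ g * δ v g) • 1) * (ρ h - δ v h • 1) = 0)
    (hδ : ∀ v, ∀ g ∈ D v, δ v g * δ v g = 1)
    (hram : ∀ v, ∃ g ∈ D v, resMat π ρ g ≠ 1)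
    (hS : ∀ c : G → Fin 2 → ZMod 2,
      (∀ g h, c (g * h) = c g + resMat π ρ g *ᵥ c h) →
      (∀ g g', modTwo ρ g = modTwo ρ g' → c g = c g') →
      (∀ v, ∀ g ∈ D v, ∀ g' ∈ D v, resMat π ρ g' *ᵥ c g = c g) →
      ∃ u, ∀ g, c g = resMat π ρ g *ᵥ u - u) :
    ∃ φ : evenSubgroup π ρ →* Mat (A ⧸ Ideal.span {(2 : A)}),
      (∀ h h', φ h * φ h' = φ h' * φ h) ∧
      (∀ h, ∃ n : ℕ, φ h ^ 2 ^ n = 1) ∧
      (∀ h h' : evenSubgroup π ρ, modTwo ρ h = modTwo ρ h' → φ h = φ h') ∧
      (∀ v, ∀ h : evenSubgroup π ρ, (h : G) ∈ D v →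
        φ h = Ideal.Quotient.mk (Ideal.span {(2 : A)}) (δ v h) • 1) ∧
      (∀ v, ∀ h : evenSubgroup π ρ, (h : G) ∈ D v →
        modTwo ρ h = Ideal.Quotient.mk (Ideal.span {(2 : A)}) (δ v h) • 1) ∧
      (Subring.closure (Set.range fun g => (modTwo ρ g).trace) = ⊤ →
        Nat.card (A ⧸ Ideal.span {(2 : A)}) ≤ 2 ^ Nat.card (Set.range φ)) := by
  haveI : Nontrivial (A ⧸ Ideal.span {(2 : A)}) := RingHom.domain_nontrivial (piTwo π)
  haveI : CharP (A ⧸ Ideal.span {(2 : A)}) 2 :=
    CharP.charP_iff_prime_eq_zero Nat.prime_two |>.mpr two_eq_zero_modTwo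
  haveI : IsLocalRing (A ⧸ Ideal.span {(2 : A)}) :=
    IsLocalRing.of_surjective' (Ideal.Quotient.mk _) Ideal.Quotient.mk_surjective
  have hχ' : ∀ g, Ideal.Quotient.mk (Ideal.span {(2 : A)}) (χ g) = 1 := fun g =>
    (Ideal.Quotient.eq.mpr (hχ g)).trans (map_one _)
  have hS' : SelmerVanishes (piTwo π) (modTwo ρ) D := fun c h1 h2 h3 => by
    obtain ⟨u, hu⟩ := hS c (fun g h => by rw [h1, resMat_modTwo]) h2
      (fun v g hg g' hg' => by rw [← resMat_modTwo]; exact h3 v g hg g' hg')
    exact ⟨u, fun g => by rw [hu, resMat_modTwo]⟩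
  obtain ⟨φ, h1, h2, h3, h4, h5, h6⟩ := exists_torus_character (π := piTwo π) (ρ := modTwo ρ)
    (D := D) (δ := fun v g => Ideal.Quotient.mk (Ideal.span {(2 : A)}) (δ v g))
    (fun g => by rw [modTwo_apply, ← RingHom.mapMatrix_apply, ← RingHom.map_det, hdet, hχ'])
    (fun v g hg h hh => by
      have e : ∀ (M : Mat A) (a : A),
          (M - a • 1).map (Ideal.Quotient.mk (Ideal.span {(2 : A)}))
            = M.map (Ideal.Quotient.mk (Ideal.span {(2 : A)}))
              - Ideal.Quotient.mk (Ideal.span {(2 : A)}) a • 1 := by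
        intro M a
        ext i j
        rcases eq_or_ne i j with rfl | hne <;> simp [*]
      have h0 := congrArg (fun M : Mat A => M.map (Ideal.Quotient.mk (Ideal.span {(2 : A)})))
        (heq v g hg h hh)
      simp only [Matrix.map_mul, e, map_mul, hχ', one_mul] at h0
      rw [modTwo_apply, modTwo_apply, h0]
      exact Matrix.map_zero _ (map_zero _))
    (fun v g hg => by rw [← map_mul, hδ v g hg, map_one])
    (fun v => by
      obtain ⟨g, hg, h⟩ := hram v
      exact ⟨g, hg, by rwa [resMat_modTwo]⟩)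
    hS'
  let e : evenSubgroup π ρ ≃* evenSubgroup (piTwo π) (modTwo ρ) :=
    MulEquiv.subgroupCongr (evenSubgroup_modTwo).symm
  refine ⟨φ.comp e.toMonoidHom, fun h h' => h1 _ _, fun h => h2 _, fun h h' hh => h3 _ _ hh,
    fun v h hh => h4 v _ hh, fun v h hh => h5 v _ hh, fun htr => (h6 htr).trans ?_⟩
  refine Nat.pow_le_pow_right two_pos (le_of_eq ?_)
  rw [show Set.range (φ.comp e.toMonoidHom) = Set.range φ from
    e.surjective.range_comp φ]

omit [IsLocalRing A] in
/-- Traces generating over a coefficient ring generate modulo two. -/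
lemma closure_trace_modTwo {S : Type*} [CommRing S] [Algebra S A]
    (hS : ∀ s : S, ∃ n : ℤ, algebraMap S A s - n ∈ Ideal.span {(2 : A)})
    (h : Algebra.adjoin S (Set.range fun g => (ρ g).trace) = ⊤) :
    Subring.closure (Set.range fun g => (modTwo ρ g).trace) = ⊤ := by
  rw [eq_top_iff]
  rintro x -
  obtain ⟨a, rfl⟩ := Ideal.Quotient.mk_surjective x
  have ha : a ∈ Algebra.adjoin S (Set.range fun g => (ρ g).trace) := h ▸ Algebra.mem_top
  induction ha using Algebra.adjoin_induction with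
  | mem x hx =>
    obtain ⟨g, rfl⟩ := hx
    refine Subring.subset_closure ⟨g, ?_⟩
    simp [modTwo_apply, Matrix.trace_fin_two]
  | algebraMap s =>
    obtain ⟨n, hn⟩ := hS s
    rw [Ideal.Quotient.eq.mpr hn, map_intCast]
    exact intCast_mem _ _
  | add x y _ _ hx hy => rw [map_add]; exact add_mem hx hy
  | mul x y _ _ hx hy => rw [map_mul]; exact mul_mem hx hy

/-- **Counting form of `A = T`.**  A surjection onto a ring without two-torsion is injective as
soon as it does not decrease the number of classes modulo two. -/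
theorem injective_of_card_quotient_two_le [IsNoetherianRing A] {T : Type*} [CommRing T]
    (p : A →+* T) (hp : Function.Surjective p) (htf : ∀ x : T, 2 * x = 0 → x = 0)
    (hm : (2 : A) ∈ IsLocalRing.maximalIdeal A) [Finite (A ⧸ Ideal.span {(2 : A)})]
    (hcard : Nat.card (A ⧸ Ideal.span {(2 : A)}) ≤ Nat.card (T ⧸ Ideal.span {(2 : T)})) :
    Function.Injective p := by
  let q : A ⧸ Ideal.span {(2 : A)} →+* T ⧸ Ideal.span {(2 : T)} :=
    Ideal.Quotient.lift _ ((Ideal.Quotient.mk _).comp p) fun a ha => by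
      obtain ⟨b, rfl⟩ := Ideal.mem_span_singleton'.mp ha
      rw [RingHom.comp_apply, map_mul, map_ofNat, Ideal.Quotient.eq_zero_iff_mem]
      exact Ideal.mul_mem_left _ _ (Ideal.mem_span_singleton_self _)
  have hq : Function.Surjective q := fun y => by
    obtain ⟨t, rfl⟩ := Ideal.Quotient.mk_surjective y
    obtain ⟨a, rfl⟩ := hp t
    exact ⟨Ideal.Quotient.mk _ a, by simp [q]⟩
  have hqi : Function.Injective q :=
    (hq.bijective_of_nat_card_le hcard).1
  have hK : RingHom.ker p ≤ Ideal.span {(2 : A)} • RingHom.ker p := by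
    intro x hx
    have : q (Ideal.Quotient.mk _ x) = 0 := by simp [q, RingHom.mem_ker.mp hx]
    have hx2 : x ∈ Ideal.span {(2 : A)} :=
      Ideal.Quotient.eq_zero_iff_mem.mp (hqi (this.trans (map_zero q).symm))
    obtain ⟨b, rfl⟩ := Ideal.mem_span_singleton'.mp hx2
    have hb : p b = 0 := htf _ (by
      rw [← map_ofNat p 2, ← map_mul, mul_comm]; exact RingHom.mem_ker.mp hx)
    rw [mul_comm]
    exact Submodule.smul_mem_smul (Ideal.mem_span_singleton_self _) (RingHom.mem_ker.mpr hb)
  rw [RingHom.injective_iff_ker_eq_bot]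
  refine Submodule.eq_bot_of_le_smul_of_le_jacobson_bot _ _ (IsNoetherian.noetherian _) hK ?_
  rw [IsLocalRing.jacobson_eq_maximalIdeal (⊥ : Ideal A) bot_ne_top,
    Ideal.span_singleton_le_iff_mem]
  exact hm

omit [IsLocalRing A] in
/-- In `ZMod (2 ^ M)` an element `x` with `2 * (x + 1) = 0` is a unit. -/
lemma isUnit_of_add_one_mul_two {M : ℕ} (hM : 2 ≤ M) {x : ZMod (2 ^ M)} (h : (x + 1) * 2 = 0) :
    IsUnit x := by
  obtain ⟨k, rfl⟩ := Nat.exists_eq_add_of_le hM
  obtain ⟨n, rfl⟩ : ∃ n : ℕ, (n : ZMod (2 ^ (2 + k))) = x := ⟨x.val, by simp⟩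
  rw [ZMod.isUnit_iff_coprime, Nat.coprime_pow_right_iff (by omega), Nat.coprime_two_right]
  rw [show ((n : ZMod (2 ^ (2 + k))) + 1) * 2 = (((n + 1) * 2 : ℕ) : ZMod (2 ^ (2 + k))) by
    push_cast; rfl, ZMod.natCast_eq_zero_iff] at h
  have h2 : 2 ∣ n + 1 := by
    have : 2 ^ 2 ∣ (n + 1) * 2 := (pow_dvd_pow 2 (Nat.le_add_right 2 k)).trans h
    omega
  rw [Nat.odd_iff]
  omega

/-- **The sign lemma.**  If a sign of the local ring `A ⊆ T × ZMod (2 ^ M)` is congruent to one
modulo two in `A`, its two components are the same sign. -/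
theorem sign_eq_of_sub_one_mem {T : Type*} [CommRing T] [Nontrivial T] {M : ℕ} (hM : 2 ≤ M)
    (p : A →+* T) (hp : Function.Surjective p) (htf : ∀ x : T, 2 * x = 0 → x = 0)
    (p' : A →+* ZMod (2 ^ M)) {a : A} {e e' : ℤˣ} (ha : a - 1 ∈ Ideal.span {(2 : A)})
    (h : p a = (e : ℤ)) (h' : p' a = (e' : ℤ)) : e = e' := by
  haveI : Fact (1 < 2 ^ M) := ⟨Nat.one_lt_two_pow (by omega)⟩
  obtain ⟨b, hb⟩ := Ideal.mem_span_singleton'.mp ha
  have hloc : IsLocalHom p := IsLocalHom.of_surjective p hp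
  have hunit : IsUnit (p b) → IsUnit (p' b) := fun hu => (hloc.map_nonunit b hu).map p'
  have hnunit : ¬ IsUnit (p b) → ¬ IsUnit (p' b) := by
    intro hu hu'
    apply hu
    rcases IsLocalRing.isUnit_or_isUnit_one_sub_self b with hb1 | hb1
    · exact hb1.map p
    · exfalso
      have h1 := hb1.map p'
      let r := ZMod.castHom (dvd_pow_self 2 (by omega : M ≠ 0)) (ZMod 2)
      have h2 := h1.map r
      have h3 := hu'.map r
      revert h2 h3
      rw [map_sub, map_one, map_sub, map_one]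
      generalize r (p' b) = y
      intro h2 h3
      have key : ∀ z : ZMod 2, z = 0 ∨ z = 1 := by decide
      rcases key y with rfl | rfl
      · exact not_isUnit_zero h3
      · simp at h2
  have eqT : p b * 2 = (e : ℤ) - 1 := by
    rw [← h, ← map_ofNat p 2, ← map_mul, hb, map_sub, map_one]
  have eqZ : p' b * 2 = (e' : ℤ) - 1 := by
    rw [← h', ← map_ofNat p' 2, ← map_mul, hb, map_sub, map_one]
  rcases Int.units_eq_one_or e with rfl | rfl <;> rcases Int.units_eq_one_or e' with rfl | rfl <;>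
    first
    | rfl
    | exfalso
  · -- `p b = 0` but `2 * p' b = -2`
    simp only [Units.val_one, Int.cast_one, sub_self] at eqT
    have hb0 : p b = 0 := htf _ (by rw [mul_comm]; exact eqT)
    refine hnunit (by rw [hb0]; exact not_isUnit_zero (M₀ := T)) ?_
    rw [Units.val_neg, Units.val_one, Int.cast_neg, Int.cast_one] at eqZ
    have h2 : (p' b + 1) * 2 = 0 := by linear_combination eqZ
    exact isUnit_of_add_one_mul_two hM h2
  · simp only [Units.val_one, Int.cast_one, sub_self] at eqZ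
    rw [Units.val_neg, Units.val_one, Int.cast_neg, Int.cast_one] at eqT
    have hb1 : p b = -1 := by
      have : 2 * (p b + 1) = 0 := by linear_combination eqT
      linear_combination htf _ this
    have hu : IsUnit (p' b) := hunit (by rw [hb1]; exact isUnit_one.neg)
    obtain ⟨u, hu⟩ := hu
    rw [← hu] at eqZ
    have h20 : (2 : ZMod (2 ^ M)) = 0 := by
      have := congrArg (fun z => (↑u⁻¹ : ZMod (2 ^ M)) * z) eqZ
      simpa [← mul_assoc] using this
    have := Nat.le_of_dvd two_pos ((ZMod.natCast_eq_zero_iff _ _).mp (by simpa using h20))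
    have h4 : 2 ^ 2 ≤ 2 ^ M := Nat.pow_le_pow_right two_pos hM
    omega

end Fermat.Agent.Residual.Dihedral
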