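import Fermat.Agent.Residual.Defs
import Fermat.Agent.Residual.Artin
import Fermat.Agent.Residual.DihedralLift
import Fermat.Agent.Galois.Frobenius
import Mathlib.RingTheory.RootsOfUnity.AlgebraicallyClosed

/-!
# The torus character of a special lift as a character of the class group
-/

set_option autoImplicit false

noncomputable section

open Matrix NumberField

namespace Fermat.Agent.Residual

local notation "Qbar" => AlgebraicClosure ℚ
local notation "Γℚ" => (AlgebraicClosure ℚ ≃ₐ[ℚ] AlgebraicClosure ℚ)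

variable {D : Datum} {Q : Finset ℕ}

/-- The places over the primes where the lifts are special. -/
def SpecialPlace (D : Datum) (Q : Finset ℕ) : Type :=
  {v : ℕ × ValuationSubring Qbar // v.1 ∈ D.B ∪ Q ∧ v.2.LiesOverPrime v.1}

namespace SpecialPlace

/-- The decomposition subgroup at a special place. -/
def dec (v : SpecialPlace D Q) : Subgroup Γℚ := v.1.2.decompositionSubgroup ℚ

/-- The inertia subgroup at a special place. -/
def inertia (v : SpecialPlace D Q) : Subgroup Γℚ := v.1.2.inertiaSubgroupIn ℚ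

theorem inertia_le_dec (v : SpecialPlace D Q) : v.inertia ≤ v.dec :=
  fun _ h => by
    obtain ⟨x, -, rfl⟩ := Subgroup.mem_map.mp h
    exact x.2

/-- The special place of a prime of `B`. -/
def ofB {b : ℕ} (hb : b ∈ D.B) {A : ValuationSubring Qbar} (hA : A.LiesOverPrime b) :
    SpecialPlace D Q :=
  ⟨(b, A), Finset.mem_union_left _ hb, hA⟩

end SpecialPlace

theorem commute_torusGen_iff : ∀ g : Dihedral.Mat (ZMod 2), g.det = 1 →
    (g * Dihedral.torusGen = Dihedral.torusGen * g ↔ g ^ 3 = 1) := by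
  intro g hg
  obtain ⟨a, b, c, d, rfl⟩ : ∃ a b c d, g = !![a, b; c, d] :=
    ⟨g 0 0, g 0 1, g 1 0, g 1 1, (Matrix.eta_fin_two g)⟩
  revert a b c d
  decide

/-- The reduced representation as a homomorphism to matrices. -/
def Datum.resHom (D : Datum) : Γℚ →* Matrix (Fin 2) (Fin 2) (ZMod 2) :=
  (Units.coeHom _).comp D.ρbar

theorem Datum.det_resHom (D : Datum) (σ : Γℚ) : (D.resHom σ).det = 1 := by
  have h : IsUnit (D.resHom σ).det := (Matrix.isUnit_iff_isUnit_det _).mp (D.ρbar σ).isUnit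
  revert h
  generalize (D.resHom σ).det = x
  revert x
  decide

theorem Datum.pow_three_eq_one_iff (D : Datum) (σ : Γℚ) :
    D.ρbar σ ^ 3 = 1 ↔
      D.resHom σ * Dihedral.torusGen = Dihedral.torusGen * D.resHom σ := by
  rw [commute_torusGen_iff _ (D.det_resHom σ)]
  constructor
  · intro h
    simpa [Datum.resHom] using congrArg (Units.val (α := Matrix (Fin 2) (Fin 2) (ZMod 2))) h
  · intro h
    exact Units.ext (by simpa [Datum.resHom] using h)

/-- **The class group form of the dihedral lemma.**  A special lift with vanishing Selmer group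
gives a character of the class group of `ℚ(√-N)` with values in torus matrices modulo two, whose
value at a ramified prime is the sign there and whose size bounds the ring of traces modulo two. -/
theorem exists_classGroup_torus (hQ : IsAuxSet D Q) (hS : SelVanishes D Q)
    (hfix : ∀ σ : Γℚ, σ ∈ D.field.fixingSubgroup ↔ D.ρbar σ ^ 3 = 1)
    (hcplx : ∀ v : InfinitePlace D.field, v.IsComplex)
    {A : Type*} [CommRing A] [IsLocalRing A] [Finite A] (f : A →+* ZMod 2)
    (ρ : Γℚ →* Matrix (Fin 2) (Fin 2) A)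
    (hcont : ∃ L : IntermediateField ℚ Qbar, FiniteDimensional ℚ L ∧
      ∀ σ ∈ L.fixingSubgroup, ρ σ = 1)
    (hdet : ∀ σ, (ρ σ).det - 1 ∈ Ideal.span {(2 : A)})
    (hres : ∀ σ, (ρ σ).map f = D.resHom σ)
    (hunram : ∀ p : ℕ, p.Prime → p ∉ D.B ∪ Q → ∀ P : ValuationSubring Qbar, P.LiesOverPrime p →
      ∀ σ ∈ P.inertiaSubgroupIn ℚ, ρ σ = 1)
    (δ : SpecialPlace D Q → Γℚ → A)
    (hδ : ∀ v : SpecialPlace D Q, ∀ g ∈ v.dec, δ v g * δ v g = 1)
    (hδI : ∀ v : SpecialPlace D Q, ∀ g ∈ v.inertia, δ v g = 1)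
    (heq : ∀ v : SpecialPlace D Q, ∀ g ∈ v.dec, ∀ h ∈ v.dec,
      (ρ g - ((ρ g).det * δ v g) • 1) * (ρ h - δ v h • 1) = 0) :
    ∃ F : ClassGroup (𝓞 D.field) →*
        (Matrix (Fin 2) (Fin 2) (A ⧸ Ideal.span {(2 : A)}))ˣ,
      (∀ h : F.range, ∃ n : ℕ, h ^ 2 ^ n = 1) ∧
      (∀ (b : ℕ) (hb : b ∈ D.B) (P : ValuationSubring Qbar) (hP : P.LiesOverPrime b) (τ : Γℚ),
        P.IsFrobeniusAt τ b → τ ∈ D.field.fixingSubgroup →
          (F (ClassGroup.mk0 (CFT.placeNZ D.field (D.prime_mem b hb) hP)) :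
              Matrix (Fin 2) (Fin 2) (A ⧸ Ideal.span {(2 : A)})) =
            Ideal.Quotient.mk (Ideal.span {(2 : A)}) (δ (SpecialPlace.ofB hb hP) τ) • 1) ∧
      (Subring.closure (Set.range fun σ => (ρ σ).trace) = ⊤ →
        Nat.card (A ⧸ Ideal.span {(2 : A)}) ≤ 2 ^ Nat.card F.range) := by
  classical
  let q := Ideal.Quotient.mk (Ideal.span {(2 : A)})
  have hresMat : ∀ σ, Dihedral.resMat f ρ σ = D.resHom σ := hres
  -- a transposition in every decomposition group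
  have hram : ∀ v : SpecialPlace D Q, ∃ g ∈ v.dec, Dihedral.resMat f ρ g ≠ 1 := by
    rintro ⟨⟨p, P⟩, hp, hP⟩
    rcases Finset.mem_union.mp hp with hb | hq
    · obtain ⟨σ₀, hσ₀, hne, -⟩ := D.transp p hb P hP
      refine ⟨σ₀, SpecialPlace.inertia_le_dec ⟨⟨p, P⟩, hp, hP⟩ hσ₀, ?_⟩
      rw [hresMat]
      exact fun h => hne (Units.ext h)
    · obtain ⟨hpp, -, hfr⟩ := hQ p hq
      obtain ⟨τ, hτ⟩ := Galois.exists_isFrobeniusAt hpp hP
      refine ⟨τ, hτ.mem_decompositionSubgroup, ?_⟩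
      rw [hresMat]
      exact fun h => (hfr P hP τ hτ).1 (Units.ext h)
  -- the Selmer hypothesis
  have hS' : ∀ c : Γℚ → Fin 2 → ZMod 2,
      (∀ g h, c (g * h) = c g + Dihedral.resMat f ρ g *ᵥ c h) →
      (∀ g g', Dihedral.modTwo ρ g = Dihedral.modTwo ρ g' → c g = c g') →
      (∀ v : SpecialPlace D Q, ∀ g ∈ v.dec, ∀ g' ∈ v.dec,
        Dihedral.resMat f ρ g' *ᵥ c g = c g) →
      ∃ u, ∀ g, c g = Dihedral.resMat f ρ g *ᵥ u - u := by
    intro c h1 h2 h3
    have hc1 : c 1 = 0 := by simpa using h1 1 1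
    have hone : ∀ σ, ρ σ = 1 → c σ = 0 := fun σ hσ => by
      rw [h2 σ 1 (by rw [Dihedral.modTwo_apply, Dihedral.modTwo_apply, hσ, map_one]), hc1]
    obtain ⟨L, hL, hL1⟩ := hcont
    have hx : IsSelmer D Q c :=
      { cocycle := fun σ τ => by rw [h1, hresMat]; rfl
        cont := ⟨L, hL, fun σ hσ => hone σ (hL1 σ hσ)⟩
        unram := fun p hp hpB P hP σ hσ => hone σ (hunram p hp hpB P hP σ hσ)
        local_ := fun p hp P hP => ⟨0, fun σ hσ τ hτ => by
          simp only [Matrix.mulVec_zero, sub_zero]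
          have h4 := h3 ⟨(p, P), hp, hP⟩ σ hσ τ hτ
          rw [hresMat] at h4
          exact h4⟩ }
    obtain ⟨u, hu⟩ := hS c hx
    exact ⟨u, fun g => by rw [hu g, hresMat]; rfl⟩
  haveI : Finite (A ⧸ Ideal.span {(2 : A)}) := Finite.of_surjective q Ideal.Quotient.mk_surjective
  obtain ⟨φ, hcomm, hpow, hfac, hloc, -, hbound⟩ :=
    Dihedral.exists_torus_character_modTwo (π := f) (ρ := ρ) (D := SpecialPlace.dec (Q := Q))
      (δ := δ) (χ := fun σ => (ρ σ).det) (fun _ => rfl) hdet heq hδ hram hS'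
  -- transport to the fixing subgroup
  have heven : D.field.fixingSubgroup = Dihedral.evenSubgroup f ρ := by
    ext σ
    rw [hfix, Datum.pow_three_eq_one_iff, ← hresMat]
    rfl
  let e : D.field.fixingSubgroup ≃* Dihedral.evenSubgroup f ρ := MulEquiv.subgroupCongr heven
  let ψ₀ := (φ.comp e.toMonoidHom).toHomUnits
  letI : CommGroup ψ₀.range :=
    { (inferInstance : Group ψ₀.range) with
      mul_comm := by
        rintro ⟨_, a, rfl⟩ ⟨_, b, rfl⟩
        exact Subtype.ext (Units.ext (hcomm (e a) (e b))) }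
  let ψ : D.field.fixingSubgroup →* ψ₀.range := ψ₀.rangeRestrict
  have hψ : ∀ σ, ((ψ σ : (Matrix (Fin 2) (Fin 2) (A ⧸ Ideal.span {(2 : A)}))ˣ) :
      Matrix (Fin 2) (Fin 2) (A ⧸ Ideal.span {(2 : A)})) = φ (e σ) := fun σ => rfl
  have hG : IsPGroup 2 ψ₀.range := by
    rintro ⟨_, a, rfl⟩
    obtain ⟨n, hn⟩ := hpow (e a)
    refine ⟨n, ?_⟩
    apply Subtype.ext
    apply Units.ext
    rw [SubmonoidClass.coe_pow, Units.val_pow_eq_pow_val]
    exact hn
  have hψone : ∀ σ : D.field.fixingSubgroup, ρ σ = 1 → ψ σ = 1 := fun σ hσ => by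
    refine Subtype.ext (Units.ext ?_)
    rw [hψ, hfac (e σ) 1 (by
      show Dihedral.modTwo ρ (σ : Γℚ) = Dihedral.modTwo ρ 1
      rw [Dihedral.modTwo_apply, Dihedral.modTwo_apply, hσ, map_one]), map_one]
    rfl
  obtain ⟨F, hFr, hF⟩ := exists_artin_unramified D.field hcplx hG ψ
    (by
      obtain ⟨L, hL, hL1⟩ := hcont
      exact ⟨L, hL, fun σ hσ => hψone σ (hL1 σ hσ)⟩)
    (by
      intro ℓ hℓ P hP σ hσ
      by_cases hℓB : ℓ ∈ D.B ∪ Q
      · let v : SpecialPlace D Q := ⟨(ℓ, P), hℓB, hP⟩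
        refine Subtype.ext (Units.ext ?_)
        rw [hψ, hloc v (e σ) (v.inertia_le_dec hσ), show δ v ((e σ : Γℚ)) = 1 from hδI v _ hσ,
          map_one, one_smul]
        rfl
      · exact hψone σ (hunram ℓ hℓ hℓB P hP σ hσ))
  refine ⟨ψ₀.range.subtype.comp F, ?_, ?_, fun htr => ?_⟩
  · rintro ⟨_, x, rfl⟩
    obtain ⟨n, hn⟩ := hG (F x)
    refine ⟨n, ?_⟩
    apply Subtype.ext
    rw [SubmonoidClass.coe_pow]
    show ψ₀.range.subtype (F x) ^ 2 ^ n = 1
    rw [← map_pow, hn, map_one]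
  · intro b hb P hP τ hτ hτK
    have h2 : ψ ⟨τ, hτK⟩ ^ 2 = 1 := by
      refine Subtype.ext (Units.ext ?_)
      rw [SubmonoidClass.coe_pow, Units.val_pow_eq_pow_val, hψ, pow_two,
        hloc (SpecialPlace.ofB hb hP) (e ⟨τ, hτK⟩) hτ.mem_decompositionSubgroup,
        smul_mul_smul_comm, one_mul, ← map_mul]
      rw [show δ (SpecialPlace.ofB hb hP) ((e ⟨τ, hτK⟩ : Γℚ)) *
          δ (SpecialPlace.ofB hb hP) ((e ⟨τ, hτK⟩ : Γℚ)) = 1 from
        hδ _ _ hτ.mem_decompositionSubgroup, map_one, one_smul]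
      rfl
    rw [MonoidHom.comp_apply, hF b (D.prime_mem b hb) P hP ⟨τ, hτK⟩ hτ fun _ => h2]
    exact (hψ _).trans (hloc (SpecialPlace.ofB hb hP) _ hτ.mem_decompositionSubgroup)
  · refine (hbound ?_).trans (Nat.pow_le_pow_right two_pos ?_)
    · rw [eq_top_iff, ← RingHom.range_eq_top.mpr (Ideal.Quotient.mk_surjective
        (I := Ideal.span {(2 : A)})), RingHom.range_eq_map, ← htr, RingHom.map_closure]
      refine Subring.closure_mono ?_
      rintro _ ⟨_, ⟨σ, rfl⟩, rfl⟩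
      exact ⟨σ, by simp [Dihedral.modTwo_apply, Matrix.trace_fin_two, q]⟩
    · have hr : (ψ₀.range.subtype.comp F).range = ψ₀.range := by
        rw [MonoidHom.range_comp, hFr, MonoidHom.range_eq_top.mpr ψ₀.rangeRestrict_surjective,
          ← MonoidHom.range_eq_map, Subgroup.range_subtype]
      rw [hr]
      refine Nat.card_le_card_of_surjective
        (fun u => ⟨((u : (Matrix (Fin 2) (Fin 2) (A ⧸ Ideal.span {(2 : A)}))ˣ) :
          Matrix (Fin 2) (Fin 2) (A ⧸ Ideal.span {(2 : A)})), by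
            obtain ⟨a, ha⟩ := u.2
            exact ⟨e a, congrArg Units.val ha⟩⟩) ?_
      rintro ⟨_, a, rfl⟩
      refine ⟨⟨ψ₀ (e.symm a), _, rfl⟩, Subtype.ext ?_⟩
      show φ (e (e.symm a)) = φ a
      rw [MulEquiv.apply_symm_apply]


/-- The signs of a lift at the special places. -/
theorem IsLift.exists_signs {A : Type*} [CommRing A] {ε : ℕ → ℤ} {ρ : Γℚ →* GL (Fin 2) A}
    (h : IsLift D Q ε ρ) :
    ∃ δ : SpecialPlace D Q → Γℚ → A,
      (∀ v : SpecialPlace D Q, ∀ g ∈ v.dec, δ v g = 1 ∨ δ v g = -1) ∧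
      (∀ v : SpecialPlace D Q, ∀ g ∈ v.inertia, δ v g = 1) ∧
      (∀ v : SpecialPlace D Q, ∀ g : Γℚ, v.1.2.IsFrobeniusAt g v.1.1 → δ v g = (ε v.1.1 : A)) ∧
      (∀ v : SpecialPlace D Q, ∀ g ∈ v.dec, ∀ g' ∈ v.dec,
        ((ρ g : Matrix (Fin 2) (Fin 2) A) -
            ((ρ g : Matrix (Fin 2) (Fin 2) A).det * δ v g) • 1) *
          ((ρ g' : Matrix (Fin 2) (Fin 2) A) - δ v g' • 1) = 0) := by
  classical
  choose c hc using fun v : SpecialPlace D Q => h.local_ v.1.1 v.2.1 v.1.2 v.2.2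
  let C : SpecialPlace D Q → Γℚ → Matrix (Fin 2) (Fin 2) A :=
    fun v g => ((c v * ρ g * (c v)⁻¹ : GL (Fin 2) A) : Matrix (Fin 2) (Fin 2) A)
  refine ⟨fun v g => C v g 1 1, fun v g hg => (hc v g hg).2.1,
    fun v g hg => (hc v g (v.inertia_le_dec hg)).2.2.1 hg,
    fun v g hg => (hc v g hg.mem_decompositionSubgroup).2.2.2 hg, fun v g hg g' hg' => ?_⟩
  have hconj : ∀ x, (ρ x : Matrix (Fin 2) (Fin 2) A) = (c v)⁻¹.val *
      C v x * (c v).val := fun x => by
    simp only [C, Units.val_mul]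
    simp [mul_assoc]
  have hdet : (ρ g : Matrix (Fin 2) (Fin 2) A).det = C v g 0 0 * C v g 1 1 := by
    rw [hconj g, Matrix.det_units_conj', Matrix.det_fin_two, show C v g 1 0 = 0 from (hc v g hg).1,
      mul_zero, sub_zero]
  have hsq : C v g 1 1 * C v g 1 1 = 1 := by
    rcases (hc v g hg).2.1 with e | e <;> simp only [C, e] <;> ring
  have key : ∀ (x : Γℚ) (a : A), (ρ x : Matrix (Fin 2) (Fin 2) A) - a • 1 =
      (c v)⁻¹.val * (C v x - a • 1) * (c v).val := fun x a => by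
    rw [hconj x, Matrix.mul_sub, Matrix.sub_mul, Matrix.mul_smul, mul_one, Matrix.smul_mul,
      Units.inv_mul]
  have hzero : (C v g - ((ρ g : Matrix (Fin 2) (Fin 2) A).det * C v g 1 1) • 1) *
      (C v g' - C v g' 1 1 • 1) = 0 := by
    rw [hdet, mul_assoc, hsq, mul_one]
    have e1 : C v g 1 0 = 0 := (hc v g hg).1
    have e2 : C v g' 1 0 = 0 := (hc v g' hg').1
    ext i j
    fin_cases i <;> fin_cases j <;> simp [Matrix.mul_apply, Fin.sum_univ_two, e1, e2]
  rw [key, key]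
  calc _ = (c v)⁻¹.val *
        ((C v g - ((ρ g : Matrix (Fin 2) (Fin 2) A).det * C v g 1 1) • 1) *
          (C v g' - C v g' 1 1 • 1)) * (c v).val := by
        simp only [mul_assoc, Units.mul_inv_cancel_left]
    _ = 0 := by rw [hzero, Matrix.mul_zero, Matrix.zero_mul]

/-- The determinant of lifts is given by one odd natural number for each automorphism. -/
theorem exists_odd_det (σ : Γℚ) {n : ℕ} (hn : n ≠ 0) :
    ∃ a : ℕ, Odd a ∧ ∀ {A : Type*} [CommRing A], (2 : A) ^ n = 0 →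
      ∀ {ε : ℕ → ℤ} {ρ : Γℚ →* GL (Fin 2) A}, IsLift D Q ε ρ →
        (ρ σ : Matrix (Fin 2) (Fin 2) A).det = (a : A) := by
  haveI : NeZero (2 ^ n) := ⟨pow_ne_zero n two_ne_zero⟩
  obtain ⟨ζ, hζ⟩ := HasEnoughRootsOfUnity.exists_primitiveRoot Qbar (2 ^ n)
  have hσ := hζ.map_of_injective (f := σ.toRingHom) σ.injective
  obtain ⟨a, -, ha, he⟩ := (hζ.isPrimitiveRoot_iff).mp hσ
  exact ⟨a, Nat.coprime_two_right.mp ((Nat.coprime_pow_right_iff (Nat.pos_of_ne_zero hn) a 2).mp ha),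
    fun h2 _ _ hρ => hρ.det_eq n h2 σ ζ hζ a he.symm⟩

/-- The determinant of a lift over a local ring with residue field of two elements is one modulo
two. -/
theorem IsLift.det_sub_one_mem {A : Type*} [CommRing A] [IsLocalRing A] [Finite A]
    (f : A →+* ZMod 2) {ε : ℕ → ℤ} {ρ : Γℚ →* GL (Fin 2) A} (h : IsLift D Q ε ρ) (σ : Γℚ) :
    (ρ σ : Matrix (Fin 2) (Fin 2) A).det - 1 ∈ Ideal.span {(2 : A)} := by
  have h2 : (2 : A) ∈ IsLocalRing.maximalIdeal A := by
    rw [IsLocalRing.mem_maximalIdeal]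
    intro hu
    have h0 := hu.map f
    rw [map_ofNat] at h0
    exact not_isUnit_zero (M₀ := ZMod 2) h0
  obtain ⟨n, hn⟩ := IsArtinianRing.isNilpotent_jacobson_bot (R := A)
  rw [IsLocalRing.jacobson_eq_maximalIdeal (⊥ : Ideal A) bot_ne_top] at hn
  have h3 : (2 : A) ^ (n + 1) = 0 := by
    have := Ideal.pow_le_pow_right (Nat.le_succ n) (Ideal.pow_mem_pow h2 (n + 1))
    rwa [hn, Ideal.zero_eq_bot, Ideal.mem_bot] at this
  obtain ⟨a, ⟨k, rfl⟩, ha⟩ := exists_odd_det (D := D) (Q := Q) σ (Nat.succ_ne_zero n)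
  rw [ha h3 h, Ideal.mem_span_singleton']
  exact ⟨k, by push_cast; ring⟩

end Fermat.Agent.Residual

end
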