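/-
Residual modularity at three: lifts are dihedral modulo two.
-/
import Fermat.Agent.Residual.Defs
import Fermat.Agent.Residual.DihedralGalois
import Fermat.Agent.Residual.DihedralField
import Fermat.Agent.CFTCyclic.Quadratic

set_option autoImplicit false

noncomputable section

open Matrix

namespace Fermat.Agent.Residual

open NumberField

local notation "Γℚ" => (AlgebraicClosure ℚ ≃ₐ[ℚ] AlgebraicClosure ℚ)

variable {D : Datum} {Q : Finset ℕ} {ε : ℕ → ℤ}

/-- When the Selmer group vanishes, a lift generated by its traces has at most `c'` dimensions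
modulo two. -/
theorem natCard_quotient_two_le (hQ : IsAuxSet D Q) (hS : SelVanishes D Q) (hε : IsPattern ε)
    {A : Type*} [CommRing A] [IsLocalRing A] [Finite A] (f : A →+* ZMod 2)
    {ρ : Γℚ →* GL (Fin 2) A} (h : IsLift D Q ε ρ)
    (hgen : Subring.closure (Set.range fun σ => ((ρ σ : Matrix (Fin 2) (Fin 2) A)).trace) = ⊤) :
    Nat.card (A ⧸ Ideal.span {(2 : A)}) ≤ 2 ^ D.cprime := by
  classical
  haveI : Finite (A ⧸ Ideal.span {(2 : A)}) := Quotient.finite _
  let ρ' : Γℚ →* Matrix (Fin 2) (Fin 2) A := (Units.coeHom _).comp ρ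
  obtain ⟨δ, hsign, hI, hfr, heq⟩ := h.exists_signs
  obtain ⟨L, hL, hL1⟩ := h.cont
  obtain ⟨F, hpow, hval, hbound⟩ := exists_classGroup_torus hQ hS
    D.mem_fixingSubgroup_field_iff D.isComplex_field f ρ'
    ⟨L, hL, fun σ hσ => by simp [ρ', hL1 σ hσ]⟩
    (fun σ => h.det_sub_one_mem f σ)
    (fun σ => by show _ = ((D.ρbar σ : GL (Fin 2) (ZMod 2)) : Matrix (Fin 2) (Fin 2) (ZMod 2)); rw [← h.residual f σ]; rfl)
    (fun p hp hpB P hP σ hσ => by simp [ρ', h.unram p hp hpB P hP σ hσ])
    δ (fun v g hg => by rcases hsign v g hg with e | e <;> simp [e]) hI heq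
  refine (hbound hgen).trans (Nat.pow_le_pow_right two_pos ?_)
  -- places and Frobenius elements at the primes of `B`
  choose P hP using fun b : D.B => Galois.exists_liesOverPrime (D.prime_mem b b.2)
  have hτ : ∀ b : D.B, ∃ τ : Γℚ, (P b).IsFrobeniusAt τ b ∧ τ ∈ D.field.fixingSubgroup := by
    intro b
    refine CFTCyclic.exists_frobenius_fix_of_ramified D.finrank_field (D.prime_mem b b.2) (hP b) ?_
    intro hle
    obtain ⟨σ₀, hσ₀, hne, hdec⟩ := D.transp b b.2 (P b) (hP b)
    have hmem : σ₀ ∈ (P b).decompositionSubgroup ℚ :=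
      (SpecialPlace.ofB (Q := Q) b.2 (hP b)).inertia_le_dec hσ₀
    have h3 := (D.mem_fixingSubgroup_field_iff σ₀).mp (hle hσ₀)
    rcases hdec (σ₀ * σ₀) (mul_mem hmem hmem) with e | e <;> rw [map_mul] at e
    · rw [pow_succ, pow_two, e, one_mul] at h3
      exact hne h3
    · exact hne (mul_eq_left.mp e)
  choose τ hτ hτK using hτ
  let H := Subgroup.closure (Set.range fun b : D.B =>
    ClassGroup.mk0 (CFT.placeNZ D.field (D.prime_mem b b.2) (hP b)))
  have hH : H ≤ F.ker := by
    rw [Subgroup.closure_le]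
    rintro _ ⟨b, rfl⟩
    apply Units.ext
    rw [hval b b.2 (P b) (hP b) (τ b) (hτ b) (hτK b),
      hfr (SpecialPlace.ofB b.2 (hP b)) (τ b) (hτ b), Units.val_one]
    have hone : Ideal.Quotient.mk (Ideal.span {(2 : A)}) (ε b : A) = 1 := by
      rw [← map_one (Ideal.Quotient.mk (Ideal.span {(2 : A)})), Ideal.Quotient.eq,
        Ideal.mem_span_singleton']
      rcases hε b with e | e
      · exact ⟨0, by simp [e]⟩
      · exact ⟨-1, by simp [e]; ring⟩
    simp only [SpecialPlace.ofB]
    rw [hone, one_smul]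
  have hdvd : Nat.card F.range ∣ H.index := by
    rw [← Subgroup.index_ker]
    exact Subgroup.index_dvd_of_le hH
  have hp : IsPGroup 2 F.range := hpow
  haveI : Fact (Nat.Prime 2) := ⟨Nat.prime_two⟩
  obtain ⟨n, hn⟩ := IsPGroup.iff_card.mp hp
  rw [hn] at hdvd ⊢
  exact D.padicVal_index_le P hP n hdvd

end Fermat.Agent.Residual

end
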