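/-
Residual modularity at three: lifts over the ring of traces.
-/
import Fermat.Agent.Residual.Defs
import Fermat.Agent.RepLemmas.TraceRing
import Fermat.Agent.Galois.Frobenius
import Mathlib.RingTheory.LocalRing.Basic
import Mathlib.RingTheory.AdicCompletion.Noetherian
import Mathlib.RingTheory.RootsOfUnity.AlgebraicallyClosed

set_option autoImplicit false

noncomputable section

open Matrix

namespace Fermat.Agent.Residual

local notation "Qbar" => AlgebraicClosure ℚ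
local notation "Γℚ" => (AlgebraicClosure ℚ ≃ₐ[ℚ] AlgebraicClosure ℚ)

variable {D : Datum} {Q : Finset ℕ} {ε : ℕ → ℤ}

namespace LiftSubring

theorem span_range_eq_top {G : Type*} (r : G → GL (Fin 2) (ZMod 2)) (hr : Function.Surjective r) :
    Submodule.span (ZMod 2) (Set.range fun g => (r g : Matrix (Fin 2) (Fin 2) (ZMod 2))) = ⊤ := by
  rw [eq_top_iff]
  intro X _
  have hmem : ∀ M N : Matrix (Fin 2) (Fin 2) (ZMod 2), M * N = 1 → M ∈ Submodule.span (ZMod 2)
      (Set.range fun g => (r g : Matrix (Fin 2) (Fin 2) (ZMod 2))) := fun M N h => by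
    obtain ⟨g, hg⟩ := hr ⟨M, N, h, mul_eq_one_comm.mp h⟩
    exact Submodule.subset_span ⟨g, by simp [hg]⟩
  have h1 := hmem 1 1 (by decide)
  have ha := hmem !![1, 1; 0, 1] !![1, 1; 0, 1] (by decide)
  have hb := hmem !![1, 0; 1, 1] !![1, 0; 1, 1] (by decide)
  have hc := hmem !![1, 1; 1, 0] !![0, 1; 1, 1] (by decide)
  have key : ∀ X : Matrix (Fin 2) (Fin 2) (ZMod 2),
      X = (X 0 1 + X 1 0 + X 1 1) • (1 : Matrix (Fin 2) (Fin 2) (ZMod 2)) +
        (X 0 0 + X 0 1 + X 1 1) • !![1, 1; 0, 1] + (X 0 0 + X 1 0 + X 1 1) • !![1, 0; 1, 1] +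
        (X 0 0 + X 1 1) • !![1, 1; 1, 0] := by decide
  rw [key X]
  exact add_mem (add_mem (add_mem (Submodule.smul_mem _ _ h1) (Submodule.smul_mem _ _ ha))
    (Submodule.smul_mem _ _ hb)) (Submodule.smul_mem _ _ hc)

/-- A common eigen-row defined over a larger ring descends once one of the matrices is residually
different from its eigenvalue. -/
theorem exists_descend_row {G A P : Type*} [CommRing A] [IsLocalRing A] [CommRing P]
    (f : A →+* P) (hf : Function.Injective f) (H : Set G) (r : G → Matrix (Fin 2) (Fin 2) A)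
    (g : GL (Fin 2) P) (χ : G → A) {s : G} (hs : s ∈ H)
    (hs' : ∃ i j, IsUnit ((r s - χ s • 1) i j))
    (h : ∀ σ ∈ H, ((g : Matrix (Fin 2) (Fin 2) P) * (r σ).map f *
        ((g⁻¹ : GL (Fin 2) P) : Matrix (Fin 2) (Fin 2) P)) 1 0 = 0 ∧
      ((g : Matrix (Fin 2) (Fin 2) P) * (r σ).map f *
        ((g⁻¹ : GL (Fin 2) P) : Matrix (Fin 2) (Fin 2) P)) 1 1 = f (χ σ)) :
    ∃ gA : GL (Fin 2) A, ∀ σ ∈ H,
      ((gA : Matrix (Fin 2) (Fin 2) A) * r σ *
        ((gA⁻¹ : GL (Fin 2) A) : Matrix (Fin 2) (Fin 2) A)) 1 0 = 0 ∧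
      ((gA : Matrix (Fin 2) (Fin 2) A) * r σ *
        ((gA⁻¹ : GL (Fin 2) A) : Matrix (Fin 2) (Fin 2) A)) 1 1 = χ σ := by
  have hrow : ∀ σ ∈ H, ∀ j, ((g : Matrix (Fin 2) (Fin 2) P) * (r σ).map f) 1 j =
      f (χ σ) * (g : Matrix (Fin 2) (Fin 2) P) 1 j := by
    intro σ hσ j
    have e : (g : Matrix (Fin 2) (Fin 2) P) * (r σ).map f = ((g : Matrix (Fin 2) (Fin 2) P) *
        (r σ).map f * ((g⁻¹ : GL (Fin 2) P) : Matrix (Fin 2) (Fin 2) P)) *
          (g : Matrix (Fin 2) (Fin 2) P) := by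
      rw [mul_assoc _ _ (g : Matrix (Fin 2) (Fin 2) P), Units.inv_mul, mul_one]
    obtain ⟨h10, h11⟩ := h σ hσ
    rw [e, Matrix.mul_apply, Fin.sum_univ_two, h10, h11, zero_mul, zero_add]
  have hunit : IsUnit ((g : Matrix (Fin 2) (Fin 2) P) 0 0 * (g : Matrix (Fin 2) (Fin 2) P) 1 1 -
      (g : Matrix (Fin 2) (Fin 2) P) 0 1 * (g : Matrix (Fin 2) (Fin 2) P) 1 0) := by
    rw [← Matrix.det_fin_two]; exact (Matrix.isUnit_iff_isUnit_det _).mp g.isUnit
  -- it is enough to find a proportional row over `A`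
  suffices ∃ (gA : GL (Fin 2) A) (d : P), IsUnit d ∧
      ∀ j, f ((gA : Matrix (Fin 2) (Fin 2) A) 1 j) * d = (g : Matrix (Fin 2) (Fin 2) P) 1 j by
    obtain ⟨gA, d, hd, hgd⟩ := this
    refine ⟨gA, fun σ hσ => ?_⟩
    have hA : ∀ j, ((gA : Matrix (Fin 2) (Fin 2) A) * r σ) 1 j =
        χ σ * (gA : Matrix (Fin 2) (Fin 2) A) 1 j := fun j => hf (hd.mul_right_cancel (by
      have e := hrow σ hσ j
      simp only [Matrix.mul_apply, Fin.sum_univ_two, Matrix.map_apply] at e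
      simp only [Matrix.mul_apply, Fin.sum_univ_two, map_add, map_mul]
      linear_combination e + f (r σ 0 j) * hgd 0 + f (r σ 1 j) * hgd 1 - f (χ σ) * hgd j))
    have hk : ∀ k, ((gA : Matrix (Fin 2) (Fin 2) A) * r σ *
        ((gA⁻¹ : GL (Fin 2) A) : Matrix (Fin 2) (Fin 2) A)) 1 k =
        χ σ * ((gA : Matrix (Fin 2) (Fin 2) A) *
          ((gA⁻¹ : GL (Fin 2) A) : Matrix (Fin 2) (Fin 2) A)) 1 k := fun k => by
      rw [Matrix.mul_apply, Matrix.mul_apply, Fin.sum_univ_two, Fin.sum_univ_two, hA, hA]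
      ring
    refine ⟨?_, ?_⟩ <;> rw [hk, Units.mul_inv] <;> simp
  obtain ⟨i, j, hij⟩ := hs'
  obtain ⟨v, hv⟩ := hij.exists_left_inv
  set M := r s - χ s • (1 : Matrix (Fin 2) (Fin 2) A) with hM
  have hz : (g : Matrix (Fin 2) (Fin 2) P) 1 0 * f (M 0 j) +
      (g : Matrix (Fin 2) (Fin 2) P) 1 1 * f (M 1 j) = 0 := by
    have e := hrow s hs j
    simp only [Matrix.mul_apply, Fin.sum_univ_two, Matrix.map_apply] at e
    fin_cases j <;> simp [hM, map_sub] at e ⊢ <;> linear_combination e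
  have hfv : f v * f (M i j) = 1 := by rw [← map_mul, hv, map_one]
  fin_cases i <;> simp only [Fin.zero_eta, Fin.mk_one, Fin.isValue] at hfv
  · let a := v * M 1 j
    have hd : (g : Matrix (Fin 2) (Fin 2) P) 1 0 = -f a * (g : Matrix (Fin 2) (Fin 2) P) 1 1 := by
      rw [map_mul]
      linear_combination f v * hz - (g : Matrix (Fin 2) (Fin 2) P) 1 0 * hfv
    rw [show (g : Matrix (Fin 2) (Fin 2) P) 0 0 * (g : Matrix (Fin 2) (Fin 2) P) 1 1 -
        (g : Matrix (Fin 2) (Fin 2) P) 0 1 * (g : Matrix (Fin 2) (Fin 2) P) 1 0 =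
        ((g : Matrix (Fin 2) (Fin 2) P) 0 0 + (g : Matrix (Fin 2) (Fin 2) P) 0 1 * f a) *
          (g : Matrix (Fin 2) (Fin 2) P) 1 1 by rw [hd]; ring] at hunit
    refine ⟨⟨!![1, 0; -a, 1], !![1, 0; a, 1], ?_, ?_⟩, _, isUnit_of_mul_isUnit_right hunit,
      Fin.forall_fin_two.mpr ⟨?_, ?_⟩⟩
    · simp [Matrix.one_fin_two]
    · simp [Matrix.one_fin_two]
    · simp [hd]
    · simp
  · let a := v * M 0 j
    have hd : (g : Matrix (Fin 2) (Fin 2) P) 1 1 = -f a * (g : Matrix (Fin 2) (Fin 2) P) 1 0 := by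
      rw [map_mul]
      linear_combination f v * hz - (g : Matrix (Fin 2) (Fin 2) P) 1 1 * hfv
    rw [show (g : Matrix (Fin 2) (Fin 2) P) 0 0 * (g : Matrix (Fin 2) (Fin 2) P) 1 1 -
        (g : Matrix (Fin 2) (Fin 2) P) 0 1 * (g : Matrix (Fin 2) (Fin 2) P) 1 0 =
        (-((g : Matrix (Fin 2) (Fin 2) P) 0 0 * f a) - (g : Matrix (Fin 2) (Fin 2) P) 0 1) *
          (g : Matrix (Fin 2) (Fin 2) P) 1 0 by rw [hd]; ring] at hunit
    refine ⟨⟨!![0, 1; 1, -a], !![a, 1; 1, 0], ?_, ?_⟩, _, isUnit_of_mul_isUnit_right hunit,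
      Fin.forall_fin_two.mpr ⟨?_, ?_⟩⟩
    · simp [Matrix.one_fin_two]
    · simp [Matrix.one_fin_two]
    · simp
    · simp [hd]

end LiftSubring

open LiftSubring in
/-- A lift is defined over the ring generated by its traces, which is local. -/
theorem exists_isLift_subring {P : Type*} [CommRing P] [Finite P] [Nontrivial P]
    (hP : ∀ p : Ideal P, p.IsMaximal → Nat.card (P ⧸ p) = 2) (hε : IsPattern ε)
    (hQ : IsAuxSet D Q) {ρ : Γℚ →* GL (Fin 2) P} (h : IsLift D Q ε ρ) :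
    ∃ (A : Subring P) (_ : IsLocalRing A) (ρA : Γℚ →* GL (Fin 2) A), IsLift D Q ε ρA ∧
      Subring.closure (Set.range fun σ => ((ρA σ : Matrix (Fin 2) (Fin 2) A)).trace) = ⊤ ∧
      ∀ σ, ((((ρA σ : Matrix (Fin 2) (Fin 2) A)).trace : A) : P) =
        ((ρ σ : Matrix (Fin 2) (Fin 2) P)).trace := by
  classical
  -- the residual maps
  have hres : ∀ p : Ideal P, p.IsMaximal → ∃ f : P →+* ZMod 2, RingHom.ker f = p := by
    intro p hp
    have : Finite (P ⧸ p) := Finite.of_surjective _ Ideal.Quotient.mk_surjective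
    have := Fintype.ofFinite (P ⧸ p)
    let e := ZMod.ringEquivOfPrime (P ⧸ p) Nat.prime_two (by rw [← Nat.card_eq_fintype_card, hP p hp])
    refine ⟨e.symm.toRingHom.comp (Ideal.Quotient.mk p), ?_⟩
    ext x
    simp [RingHom.mem_ker, Ideal.Quotient.eq_zero_iff_mem]
  have hbit : ∀ p : Ideal P, p.IsMaximal → ∀ x : P, x ∈ p ∨ x - 1 ∈ p := by
    intro p hp x
    obtain ⟨f, hf⟩ := hres p hp
    rw [← hf, RingHom.mem_ker, RingHom.mem_ker, map_sub, map_one, sub_eq_zero]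
    exact (show ∀ y : ZMod 2, y = 0 ∨ y = 1 by decide) (f x)
  obtain ⟨p₀, hp₀⟩ := Ideal.exists_maximal P
  obtain ⟨f₀, -⟩ := hres p₀ hp₀
  -- the ring of traces
  let t : Γℚ → P := fun σ => ((ρ σ : Matrix (Fin 2) (Fin 2) P)).trace
  let A : Subring P := Subring.closure (Set.range t)
  let ι : A →+* P := A.subtype
  have hι : Function.Injective ι := Subtype.val_injective
  let φ : A →+* ZMod 2 := f₀.comp ι
  have hagree : ∀ (f : P →+* ZMod 2), Set.EqOn f f₀ A := by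
    intro f
    refine RingHom.eqOn_set_closure ?_
    rintro _ ⟨σ, rfl⟩
    simp only [t, AddMonoidHom.map_trace]
    change ((Matrix.GeneralLinearGroup.map f (ρ σ) : GL (Fin 2) (ZMod 2)) :
      Matrix (Fin 2) (Fin 2) (ZMod 2)).trace = ((Matrix.GeneralLinearGroup.map f₀ (ρ σ) :
      GL (Fin 2) (ZMod 2)) : Matrix (Fin 2) (Fin 2) (ZMod 2)).trace
    rw [h.residual f σ, h.residual f₀ σ]
  have hunit : ∀ a : A, φ a ≠ 0 → IsUnit a := by
    intro a ha
    have hu : IsUnit (a : P) := by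
      by_contra hno
      obtain ⟨p, hp, hap⟩ := exists_max_ideal_of_mem_nonunits hno
      obtain ⟨f, hf⟩ := hres p hp
      rw [← hf, RingHom.mem_ker, hagree f a.2] at hap
      exact ha hap
    have hinj : Function.Injective (a * ·) := fun x y hxy => hι (hu.mul_left_cancel
      (congrArg ι hxy))
    obtain ⟨b, hb⟩ := (Finite.injective_iff_surjective.mp hinj) 1
    exact IsUnit.of_mul_eq_one b hb
  have : IsLocalRing A := IsLocalRing.of_isUnit_or_isUnit_one_sub_self fun a => by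
    rcases (show ∀ y : ZMod 2, y = 0 ∨ y ≠ 0 by decide) (φ a) with ha | ha
    · exact Or.inr (hunit _ (by rw [map_sub, ha, map_one, sub_zero]; exact one_ne_zero))
    · exact Or.inl (hunit _ ha)
  have hφm : ∀ a : A, φ a = 0 ↔ a ∈ IsLocalRing.maximalIdeal A := by
    intro a
    refine ⟨fun ha hu => ?_, fun ha => ?_⟩
    · exact not_isUnit_zero (ha ▸ hu.map φ)
    · by_contra hne; exact ha (hunit a hne)
  have huniq : ∀ f : A →+* ZMod 2, f = φ := by
    intro f
    ext a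
    rcases (show ∀ y : ZMod 2, y = 0 ∨ y = 1 by decide) (φ a) with ha | ha
    · have hmem := (hφm a).mp ha
      rw [ha]
      by_contra hne
      have hmax := RingHom.ker_isMaximal_of_surjective f (fun y => ⟨(y.val : A), by simp⟩)
      exact hne ((RingHom.mem_ker).mp ((IsLocalRing.eq_maximalIdeal hmax).symm ▸ hmem))
    · rw [ha]
      have hu := (hunit a (by rw [ha]; exact one_ne_zero)).map f
      exact (show ∀ y : ZMod 2, y ≠ 0 → y = 1 by decide) _ hu.ne_zero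
  -- the residue field
  let ψ : IsLocalRing.ResidueField A →+* ZMod 2 :=
    Ideal.Quotient.lift _ φ fun a ha => (hφm a).mpr ha
  have hψ : Function.Bijective ψ := ⟨ψ.injective, fun y =>
    ⟨(y.val : IsLocalRing.ResidueField A), by simp⟩⟩
  let e : IsLocalRing.ResidueField A ≃+* ZMod 2 := RingEquiv.ofBijective ψ hψ
  have hψe : ∀ a : A, IsLocalRing.residue A a = e.symm (φ a) := fun a =>
    (e.symm_apply_eq.mpr rfl).symm
  let rbar : Γℚ →* Matrix (Fin 2) (Fin 2) (IsLocalRing.ResidueField A) :=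
    (e.symm.toRingHom.mapMatrix.toMonoidHom.comp (Units.coeHom _)).comp D.ρbar
  let r : Γℚ →* Matrix (Fin 2) (Fin 2) P := (Units.coeHom _).comp ρ
  -- nilpotence of two
  obtain ⟨n, hn⟩ : ∃ n : ℕ, (2 : P) ^ n = 0 := by
    obtain ⟨n, hn⟩ := IsArtinianRing.isNilpotent_jacobson_bot (R := P)
    refine ⟨n, ?_⟩
    have h2 : (2 : P) ∈ Ideal.jacobson (⊥ : Ideal P) := Ideal.mem_sInf.mpr fun {p} hp => by
      obtain ⟨f, hf⟩ := hres p hp.2
      rw [← hf, RingHom.mem_ker, map_ofNat]; rfl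
    simpa [hn] using Ideal.pow_mem_pow h2 n
  have hdetA : ∀ σ, ∃ a : A, ι a = (r σ).det := by
    intro σ
    have : NeZero ((2 ^ n : ℕ) : Qbar) := ⟨Nat.cast_ne_zero.mpr (by positivity)⟩
    obtain ⟨ζ, hζ⟩ := HasEnoughRootsOfUnity.exists_primitiveRoot Qbar (2 ^ n)
    obtain ⟨a, -, ha⟩ := hζ.eq_pow_of_pow_eq_one (ξ := σ ζ)
      (by rw [← map_pow, hζ.pow_eq_one, map_one])
    exact ⟨(a : A), (map_natCast ι a).trans (h.det_eq n hn σ ζ hζ a ha.symm).symm⟩
  have hentry : ∀ (σ : Γℚ) i j, f₀ (r σ i j) = (D.ρbar σ : Matrix (Fin 2) (Fin 2) (ZMod 2)) i j :=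
    fun σ i j => congrArg (fun g : GL (Fin 2) (ZMod 2) =>
      (g : Matrix (Fin 2) (Fin 2) (ZMod 2)) i j) (h.residual f₀ σ)
  have hspan : Submodule.span (IsLocalRing.ResidueField A) (Set.range rbar) = ⊤ :=
    RepLemmas.map_span_eq_top e.symm.toRingHom
      (fun σ => (D.ρbar σ : Matrix (Fin 2) (Fin 2) (ZMod 2))) (span_range_eq_top _ D.surj)
  obtain ⟨r', P₀, hr'⟩ := RepLemmas.exists_conj_map_of_trace_mem_two ι hι hbit r rbar hspan
    (fun σ => ⟨⟨t σ, Subring.subset_closure ⟨σ, rfl⟩⟩, rfl, by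
      rw [hψe]
      simp [rbar, φ, ι, t, Matrix.trace_fin_two, ← hentry, r]⟩)
    (fun σ => by
      obtain ⟨a, ha⟩ := hdetA σ
      refine ⟨a, ha, ?_⟩
      rw [hψe]
      simp [rbar, φ, ha, Matrix.det_fin_two, hentry])
  -- normalise the reduction
  let Qt : Matrix (Fin 2) (Fin 2) A := Matrix.of fun i j =>
    (((f₀ ((P₀ : Matrix (Fin 2) (Fin 2) P) i j)).val : ℕ) : A)
  have hQt : Qt.map φ = (P₀ : Matrix (Fin 2) (Fin 2) P).map f₀ := by
    ext i j; simp [Qt]
  obtain ⟨Qu, hQu⟩ : IsUnit Qt := (Matrix.isUnit_iff_isUnit_det _).mpr (hunit _ (by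
    rw [RingHom.map_det, RingHom.mapMatrix_apply, hQt, ← RingHom.mapMatrix_apply]
    exact ((Matrix.isUnit_iff_isUnit_det _).mp (P₀.isUnit.map f₀.mapMatrix)).ne_zero))
  let ρ' : Γℚ →* GL (Fin 2) A := (MulAut.conj Qu).toMonoidHom.comp r'.toHomUnits
  let C : GL (Fin 2) P := Matrix.GeneralLinearGroup.map ι Qu * P₀⁻¹
  have hC : ∀ σ, Matrix.GeneralLinearGroup.map ι (ρ' σ) = C * ρ σ * C⁻¹ := by
    intro σ
    have e : ρ σ = P₀ * Matrix.GeneralLinearGroup.map ι (r'.toHomUnits σ) * P₀⁻¹ :=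
      Units.ext (hr' σ)
    simp only [ρ', C, MonoidHom.comp_apply, MulEquiv.coe_toMonoidHom, MulAut.conj_apply, map_mul,
      map_inv, e]
    group
  have hresidual : ∀ σ, Matrix.GeneralLinearGroup.map φ (ρ' σ) = D.ρbar σ := by
    intro σ
    have h1 := congrArg (Matrix.GeneralLinearGroup.map f₀) (hC σ)
    have h2 : Matrix.GeneralLinearGroup.map f₀ C = 1 := by
      simp only [C, map_mul, map_inv, mul_inv_eq_one]
      refine Units.ext ?_
      change ((Qu : Matrix (Fin 2) (Fin 2) A).map ι).map f₀ = _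
      rw [hQu, Matrix.map_map]
      exact hQt
    rw [map_mul, map_mul, map_inv, h2, one_mul, inv_one, mul_one, h.residual f₀ σ] at h1
    refine Eq.trans ?_ h1
    exact Units.ext (Matrix.map_map (M := (ρ' σ : Matrix (Fin 2) (Fin 2) A))).symm
  have htr : ∀ σ, ι ((ρ' σ : Matrix (Fin 2) (Fin 2) A)).trace = t σ := by
    intro σ
    rw [AddMonoidHom.map_trace]
    change ((Matrix.GeneralLinearGroup.map ι (ρ' σ) : GL (Fin 2) P) :
      Matrix (Fin 2) (Fin 2) P).trace = _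
    rw [hC, Units.val_mul, Units.val_mul, Matrix.trace_units_conj]
  have hinjG : Function.Injective (Matrix.GeneralLinearGroup.map (n := Fin 2) ι) :=
    fun x y hxy => Units.ext (Matrix.map_injective hι (congrArg Units.val hxy))
  refine ⟨A, inferInstance, ρ', ⟨?_, ?_, ?_, ?_, ?_⟩, ?_, htr⟩
  · obtain ⟨L, hL, hL'⟩ := h.cont
    refine ⟨L, hL, fun σ hσ => hinjG ?_⟩
    rw [hC, hL' σ hσ, map_one, mul_one, mul_inv_cancel]
  · intro m hm σ ζ hζ a ha
    apply hι
    rw [RingHom.map_det, map_natCast]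
    change ((Matrix.GeneralLinearGroup.map ι (ρ' σ) : GL (Fin 2) P) :
      Matrix (Fin 2) (Fin 2) P).det = _
    rw [hC, Units.val_mul, Units.val_mul, Matrix.det_units_conj]
    exact h.det_eq m (by simpa [map_ofNat] using congrArg ι hm) σ ζ hζ a ha
  · intro f σ
    rw [huniq f]
    exact hresidual σ
  · intro p hp hpS V hV σ hσ
    apply hinjG
    rw [hC, h.unram p hp hpS V hV σ hσ, map_one, mul_one, mul_inv_cancel]
  · intro p hp V hV
    obtain ⟨g, hg⟩ := h.local_ p hp V hV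
    let T : Γℚ → Matrix (Fin 2) (Fin 2) P := fun σ => ((g * ρ σ * g⁻¹ : GL (Fin 2) P) : _)
    let χ : Γℚ → A := fun σ => if T σ 1 1 = 1 then 1 else -1
    have hχ : ∀ σ ∈ V.decompositionSubgroup ℚ, ι (χ σ) = T σ 1 1 := by
      intro σ hσ
      simp only [χ]
      split_ifs with h1
      · rw [map_one, h1]
      · rw [map_neg, map_one]
        exact (((hg σ hσ).2.1).resolve_left h1).symm
    obtain ⟨s, hs, hsρ, hsχ⟩ : ∃ s ∈ V.decompositionSubgroup ℚ,
        D.ρbar s ≠ 1 ∧ φ (χ s) = 1 := by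
      have hpm : ∀ s : Γℚ, φ (χ s) = 1 := fun s => by
        simp only [χ]
        split_ifs <;> simp
      rcases Finset.mem_union.mp hp with hb | hq
      · obtain ⟨s, hs, hs1, -⟩ := D.transp p hb V hV
        exact ⟨s, (Subgroup.map_subtype_le _ hs : _), hs1, hpm s⟩
      · obtain ⟨hpr, -, hfr⟩ := hQ p hq
        obtain ⟨τ, hτ⟩ := Galois.exists_isFrobeniusAt hpr hV
        exact ⟨τ, hτ.mem_decompositionSubgroup, (hfr V hV τ hτ).1, hpm τ⟩
    have hsM : ∃ i j, IsUnit (((ρ' s : Matrix (Fin 2) (Fin 2) A) - χ s • 1) i j) := by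
      by_contra hno
      push Not at hno
      refine hsρ (Units.ext (Matrix.ext fun i j => ?_))
      have h1 := (hφm _).mpr (hno i j)
      rw [Matrix.sub_apply, map_sub, sub_eq_zero] at h1
      rw [← hresidual]
      change φ _ = _
      rw [h1]
      fin_cases i <;> fin_cases j <;> simp [hsχ]
    have hconj : ∀ σ, ((g * C⁻¹ : GL (Fin 2) P) : Matrix (Fin 2) (Fin 2) P) *
        ((ρ' σ : Matrix (Fin 2) (Fin 2) A)).map ι *
        (((g * C⁻¹)⁻¹ : GL (Fin 2) P) : Matrix (Fin 2) (Fin 2) P) = T σ := by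
      intro σ
      change ((g * C⁻¹ * Matrix.GeneralLinearGroup.map ι (ρ' σ) * (g * C⁻¹)⁻¹ : GL (Fin 2) P) :
        Matrix (Fin 2) (Fin 2) P) = _
      rw [hC]
      congr 1
      group
    obtain ⟨gA, hgA⟩ := exists_descend_row ι hι (H := (V.decompositionSubgroup ℚ : Set Γℚ))
      (fun σ => (ρ' σ : Matrix (Fin 2) (Fin 2) A)) (g * C⁻¹) χ hs hsM fun σ hσ => by
        rw [hconj]
        exact ⟨(hg σ hσ).1, (hχ σ hσ).symm⟩
    refine ⟨gA, fun σ hσ => ?_⟩
    obtain ⟨h10, h11⟩ := hgA σ hσ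
    simp only [Units.val_mul]
    refine ⟨h10, ?_, fun hin => ?_, fun hfr => ?_⟩
    · rw [h11]; simp only [χ]; split_ifs <;> simp
    · exact h11.trans (hι (by rw [hχ σ hσ, map_one]; exact (hg σ hσ).2.2.1 hin))
    · exact h11.trans (hι (by rw [hχ σ hσ, map_intCast]; exact (hg σ hσ).2.2.2 hfr))
  · have h0 : Set.range (fun σ => ((ρ' σ : Matrix (Fin 2) (Fin 2) A)).trace) =
        (((↑) : A → P) ⁻¹' Set.range t) := by
      ext a
      constructor
      · rintro ⟨σ, rfl⟩; exact ⟨σ, (htr σ).symm⟩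
      · rintro ⟨σ, hσ⟩; exact ⟨σ, Subtype.ext ((htr σ).trans hσ)⟩
    rw [h0, eq_top_iff]
    rintro ⟨x, hx⟩ -
    induction hx using Subring.closure_induction with
    | mem y hy => exact Subring.subset_closure hy
    | zero => exact zero_mem _
    | one => exact one_mem _
    | add y z _ _ hy hz => exact add_mem hy hz
    | neg y _ hy => exact neg_mem hy
    | mul y z _ _ hy hz => exact mul_mem hy hz

end Fermat.Agent.Residual

end
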