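/-
Residual modularity at three: operations on lifts.
-/
import Fermat.Agent.Residual.Defs
import Fermat.Agent.Galois.TamePlace
import Fermat.Agent.Datum.Roots
import Mathlib.RingTheory.LocalRing.Basic

set_option autoImplicit false

noncomputable section

open Matrix

namespace Fermat.Agent.Residual

local notation "Qbar" => AlgebraicClosure ℚ
local notation "Γℚ" => (AlgebraicClosure ℚ ≃ₐ[ℚ] AlgebraicClosure ℚ)

variable {D : Datum} {Q : Finset ℕ} {ε : ℕ → ℤ}

/-- The matrix with the given pair of components. -/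
private def pairMat {A A' : Type*} (M : Matrix (Fin 2) (Fin 2) A) (M' : Matrix (Fin 2) (Fin 2) A') :
    Matrix (Fin 2) (Fin 2) (A × A') := Matrix.of fun i j => (M i j, M' i j)

private theorem pairMat_mul {A A' : Type*} [CommRing A] [CommRing A']
    (M N : Matrix (Fin 2) (Fin 2) A) (M' N' : Matrix (Fin 2) (Fin 2) A') :
    pairMat M M' * pairMat N N' = pairMat (M * N) (M' * N') := by
  ext i j <;> simp [pairMat, Matrix.mul_apply, Fin.sum_univ_two]

private theorem pairMat_one {A A' : Type*} [CommRing A] [CommRing A'] :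
    pairMat (1 : Matrix (Fin 2) (Fin 2) A) (1 : Matrix (Fin 2) (Fin 2) A') = 1 := by
  ext i j <;> fin_cases i <;> fin_cases j <;> simp [pairMat]

/-- The pair of two invertible matrices. -/
private def pairGL {A A' : Type*} [CommRing A] [CommRing A'] :
    GL (Fin 2) A × GL (Fin 2) A' →* GL (Fin 2) (A × A') :=
  MonoidHom.toHomUnits
    { toFun := fun g => pairMat (g.1 : Matrix (Fin 2) (Fin 2) A) (g.2 : Matrix (Fin 2) (Fin 2) A')
      map_one' := pairMat_one
      map_mul' := fun g h => (pairMat_mul _ _ _ _).symm }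

private theorem pairGL_apply {A A' : Type*} [CommRing A] [CommRing A'] (g : GL (Fin 2) A)
    (g' : GL (Fin 2) A') (i j : Fin 2) :
    (pairGL (g, g') : Matrix (Fin 2) (Fin 2) (A × A')) i j =
      ((g : Matrix (Fin 2) (Fin 2) A) i j, (g' : Matrix (Fin 2) (Fin 2) A') i j) := rfl

private theorem exists_root_lift {n m : ℕ} {ζ : Qbar} (hζ : IsPrimitiveRoot ζ (2 ^ n)) :
    ∃ η : Qbar, IsPrimitiveRoot η (2 ^ (n + m)) ∧ η ^ 2 ^ m = ζ := by
  obtain ⟨η, hη⟩ := HasEnoughRootsOfUnity.exists_primitiveRoot Qbar (2 ^ (n + m))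
  have hη' : IsPrimitiveRoot (η ^ 2 ^ m) (2 ^ n) :=
    hη.pow (pow_pos two_pos _) (by rw [pow_add, mul_comm])
  obtain ⟨i, hi, hico, hζi⟩ := (hη'.isPrimitiveRoot_iff).mp hζ
  rcases eq_or_ne n 0 with rfl | hn
  · refine ⟨η, hη, ?_⟩
    rw [pow_zero, IsPrimitiveRoot.one_right_iff] at hζ hη'
    rw [hη', hζ]
  · refine ⟨η ^ i, hη.pow_of_coprime i ?_, ?_⟩
    · exact ((Nat.coprime_pow_right_iff (Nat.pos_of_ne_zero hn) i 2).mp hico).pow_right _
    · rw [← pow_mul, mul_comm, pow_mul, hζi]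

private theorem mem_fixing_of_eqOn {L : IntermediateField ℚ Qbar} {σ τ : Γℚ}
    (h : ∀ x ∈ L, σ x = τ x) : τ⁻¹ * σ ∈ L.fixingSubgroup := by
  rw [IntermediateField.mem_fixingSubgroup_iff]
  intro x hx
  rw [AlgEquiv.mul_apply, h x hx, ← AlgEquiv.mul_apply, inv_mul_cancel, AlgEquiv.one_apply]

/-- On a layer, the decomposition group is generated by a Frobenius element modulo inertia. -/
private theorem exists_layer_eq {p : ℕ} (hp : p.Prime) {P : ValuationSubring Qbar}
    (hP : P.LiesOverPrime p) {τ : Γℚ} (hτ : P.IsFrobeniusAt τ p) (L : IntermediateField ℚ Qbar)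
    [FiniteDimensional ℚ L] {σ : Γℚ} (hσ : σ ∈ P.decompositionSubgroup ℚ) :
    ∃ j : ℕ, ∃ i ∈ P.inertiaSubgroupIn ℚ, (τ ^ j * i)⁻¹ * σ ∈ L.fixingSubgroup := by
  let F := IntermediateField.normalClosure ℚ L Qbar
  have : FiniteDimensional ℚ F := normalClosure.is_finiteDimensional ℚ _ _
  have : IsGalois ℚ F := IsGalois.normalClosure ℚ _ _
  obtain ⟨j, i, hi, hji⟩ := Galois.exists_decomposition_eq (L := F) hp hP hτ hσ
  exact ⟨j, i, hi, mem_fixing_of_eqOn fun x hx => hji x (L.le_normalClosure hx)⟩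

/-- The quotient character at a prime of `B ∪ Q` takes the value `ε p ^ j` on the class of the
`j`-th power of Frobenius. -/
private theorem quot_value {A : Type*} [CommRing A] {ρ : Γℚ →* GL (Fin 2) A} {p : ℕ}
    {P : ValuationSubring Qbar} {L : IntermediateField ℚ Qbar}
    (hL : ∀ σ ∈ L.fixingSubgroup, ρ σ = 1) {g : GL (Fin 2) A} {u : A}
    (h0 : ∀ σ ∈ P.decompositionSubgroup ℚ, (g * ρ σ * g⁻¹ : GL (Fin 2) A).val 1 0 = 0)
    (hI : ∀ σ ∈ P.decompositionSubgroup ℚ, σ ∈ P.inertiaSubgroupIn ℚ →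
      (g * ρ σ * g⁻¹ : GL (Fin 2) A).val 1 1 = 1)
    {τ : Γℚ} (hτ : P.IsFrobeniusAt τ p) (hu : (g * ρ τ * g⁻¹ : GL (Fin 2) A).val 1 1 = u)
    {σ i : Γℚ} {j : ℕ} (hi : i ∈ P.inertiaSubgroupIn ℚ)
    (hσ : (τ ^ j * i)⁻¹ * σ ∈ L.fixingSubgroup) :
    (g * ρ σ * g⁻¹ : GL (Fin 2) A).val 1 1 = u ^ j := by
  have hiD : i ∈ P.decompositionSubgroup ℚ := by
    obtain ⟨⟨y, hy⟩, -, rfl⟩ := hi
    exact hy
  have hσ' : ρ σ = ρ (τ ^ j * i) := by
    have h := hL _ hσ
    rwa [map_mul, map_inv, inv_mul_eq_one, eq_comm] at h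
  have hmul : ∀ a b : GL (Fin 2) A, a.val 1 0 = 0 → (a * b).val 1 1 = a.val 1 1 * b.val 1 1 :=
    fun a b ha => by
      rw [Units.val_mul, Matrix.mul_apply, Fin.sum_univ_two, ha, zero_mul, zero_add]
  let c : Γℚ → GL (Fin 2) A := fun x => g * ρ x * g⁻¹
  have hc : ∀ x y : Γℚ, c (x * y) = c x * c y := fun x y => by
    simp only [c, map_mul]; group
  have hpow : ∀ n : ℕ, (c (τ ^ n)).val 1 1 = u ^ n := by
    intro n
    induction n with
    | zero => simp [c]
    | succ n ih =>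
      rw [pow_succ, hc, hmul (c (τ ^ n)) (c τ) (h0 _ (pow_mem hτ.mem_decompositionSubgroup n)), ih,
        pow_succ, show (c τ).val 1 1 = u from hu]
  rw [hσ']
  show (c (τ ^ j * i)).val 1 1 = u ^ j
  rw [hc, hmul (c (τ ^ j)) (c i) (h0 _ (pow_mem hτ.mem_decompositionSubgroup j)), hpow,
    show (c i).val 1 1 = 1 from hI i hiD hi, mul_one]

theorem IsLift.map {A A' : Type*} [CommRing A] [CommRing A'] {ρ : Γℚ →* GL (Fin 2) A}
    (h : IsLift D Q ε ρ) (f : A →+* A') (hA : ∃ n : ℕ, (2 : A) ^ n = 0) :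
    IsLift D Q ε ((Matrix.GeneralLinearGroup.map f).comp ρ) := by
  obtain ⟨m, hm⟩ := hA
  refine ⟨?_, ?_, fun f' σ => ?_, fun p hp hpQ P hP σ hσ => ?_, fun p hp P hP => ?_⟩
  · obtain ⟨L, hL, hLρ⟩ := h.cont
    exact ⟨L, hL, fun σ hσ => by rw [MonoidHom.comp_apply, hLρ σ hσ, map_one]⟩
  · intro n hn σ ζ hζ a ha
    obtain ⟨η, hη, hηζ⟩ := exists_root_lift (m := m) hζ
    have hσmem : σ η ^ 2 ^ (n + m) = 1 := by rw [← map_pow, hη.pow_eq_one, map_one]
    obtain ⟨b, -, hb⟩ := hη.eq_pow_of_pow_eq_one hσmem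
    have hdet := h.det_eq (n + m) (by rw [pow_add, hm, mul_zero]) σ η hη b hb.symm
    have hab : ζ ^ a = ζ ^ b := by
      rw [← ha, ← hηζ, map_pow, ← hb, pow_right_comm]
    have hab' : a ≡ b [MOD 2 ^ n] := by
      rw [hζ.eq_orderOf]
      exact (hζ.isOfFinOrder (pow_ne_zero _ two_ne_zero)).pow_eq_pow_iff_modEq.mp hab
    have hcast : (a : A') = (b : A') := by
      obtain ⟨k, hk⟩ := (Nat.modEq_iff_dvd.mp hab')
      have h' := congrArg (Int.cast : ℤ → A') hk
      push_cast at h'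
      rw [hn, zero_mul] at h'
      exact (sub_eq_zero.mp h').symm
    calc (((Matrix.GeneralLinearGroup.map f).comp ρ σ : GL (Fin 2) A') :
          Matrix (Fin 2) (Fin 2) A').det
        = f ((ρ σ : Matrix (Fin 2) (Fin 2) A)).det := (f.map_det _).symm
      _ = (a : A') := by rw [hdet, map_natCast, hcast]
  · exact (Units.ext (Matrix.ext fun i j => rfl) : _ = Matrix.GeneralLinearGroup.map (f'.comp f) (ρ σ)).trans
      (h.residual (f'.comp f) σ)
  · rw [MonoidHom.comp_apply, h.unram p hp hpQ P hP σ hσ, map_one]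
  · obtain ⟨g, hg⟩ := h.local_ p hp P hP
    refine ⟨Matrix.GeneralLinearGroup.map f g, fun σ hσ => ?_⟩
    obtain ⟨h0, h1, hI, hF⟩ := hg σ hσ
    have e : ∀ i j, (Matrix.GeneralLinearGroup.map f g *
          (Matrix.GeneralLinearGroup.map f).comp ρ σ * (Matrix.GeneralLinearGroup.map f g)⁻¹ :
            GL (Fin 2) A').val i j = f ((g * ρ σ * g⁻¹ : GL (Fin 2) A).val i j) := fun i j => by
      rw [MonoidHom.comp_apply, ← map_inv, ← map_mul, ← map_mul]
      rfl
    refine ⟨by rw [e, h0, map_zero], h1.imp (fun h => by rw [e, h, map_one])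
      (fun h => by rw [e, h, map_neg, map_one]), fun hs => by rw [e, hI hs, map_one],
      fun hs => by rw [e, hF hs, map_intCast]⟩

theorem IsLift.exists_prod {A A' : Type*} [CommRing A] [CommRing A']
    {ρ : Γℚ →* GL (Fin 2) A} {ρ' : Γℚ →* GL (Fin 2) A'}
    (h : IsLift D Q ε ρ) (h' : IsLift D Q ε ρ') (hQ : ∀ q ∈ Q, q.Prime)
    (hε : IsPattern ε) :
    ∃ ρ'' : Γℚ →* GL (Fin 2) (A × A'), IsLift D Q ε ρ'' ∧
      (∀ σ, Matrix.GeneralLinearGroup.map (RingHom.fst A A') (ρ'' σ) = ρ σ) ∧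
      ∀ σ, Matrix.GeneralLinearGroup.map (RingHom.snd A A') (ρ'' σ) = ρ' σ := by
  refine ⟨pairGL.comp (ρ.prod ρ'), ⟨?_, ?_, ?_, ?_, ?_⟩,
    fun σ => Units.ext (by ext i j; rfl), fun σ => Units.ext (by ext i j; rfl)⟩
  · obtain ⟨L, hL, hLρ⟩ := h.cont
    obtain ⟨L', hL', hLρ'⟩ := h'.cont
    refine ⟨L ⊔ L', inferInstance, fun σ hσ => ?_⟩
    rw [MonoidHom.comp_apply, MonoidHom.prod_apply,
      hLρ σ (IntermediateField.fixingSubgroup_antitone le_sup_left hσ),
      hLρ' σ (IntermediateField.fixingSubgroup_antitone le_sup_right hσ)]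
    exact map_one pairGL
  · intro n hn σ ζ hζ a ha
    refine Prod.ext ?_ ?_
    · have e := (RingHom.fst A A').map_det (pairGL (ρ σ, ρ' σ) : Matrix (Fin 2) (Fin 2) (A × A'))
      refine e.trans ?_
      rw [Prod.fst_natCast]
      exact h.det_eq n (congrArg Prod.fst hn) σ ζ hζ a ha
    · have e := (RingHom.snd A A').map_det (pairGL (ρ σ, ρ' σ) : Matrix (Fin 2) (Fin 2) (A × A'))
      refine e.trans ?_
      rw [Prod.snd_natCast]
      exact h'.det_eq n (congrArg Prod.snd hn) σ ζ hζ a ha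
  · intro f σ
    have hsum : f (1, 0) + f (0, 1) = 1 := by rw [← map_add]; simp [← Prod.one_eq_mk]
    have hmul : f (1, 0) * f (0, 1) = 0 := by rw [← map_mul]; simp [← Prod.zero_eq_mk]
    have hsplit : ∀ x : A × A', f x = f (1, 0) * f x + f (0, 1) * f x := fun x => by
      rw [← add_mul, hsum, one_mul]
    rcases (show ∀ e : ZMod 2, e = 0 ∨ e = 1 by decide) (f (1, 0)) with he | he
    · have he' : f (0, 1) = 1 := by rwa [he, zero_add] at hsum
      let g : A' →+* ZMod 2 :=
        { toFun := fun a => f (0, a)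
          map_one' := he'
          map_mul' := fun a b => by rw [← map_mul]; simp
          map_zero' := map_zero f
          map_add' := fun a b => by rw [← map_add]; simp }
      rw [← h'.residual g σ]
      refine Units.ext (Matrix.ext fun i j => ?_)
      refine (hsplit _).trans ?_
      rw [he, he', zero_mul, zero_add]
      rw [← he', ← map_mul]
      exact congrArg f (Prod.ext (zero_mul _) (one_mul _))
    · have he' : f (0, 1) = 0 := by rwa [he, one_mul] at hmul
      let g : A →+* ZMod 2 :=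
        { toFun := fun a => f (a, 0)
          map_one' := he
          map_mul' := fun a b => by rw [← map_mul]; simp
          map_zero' := map_zero f
          map_add' := fun a b => by rw [← map_add]; simp }
      rw [← h.residual g σ]
      refine Units.ext (Matrix.ext fun i j => ?_)
      refine (hsplit _).trans ?_
      rw [he, he', zero_mul, add_zero]
      rw [← he, ← map_mul]
      exact congrArg f (Prod.ext (one_mul _) (zero_mul _))
  · intro p hp hpQ P hP σ hσ
    rw [MonoidHom.comp_apply, MonoidHom.prod_apply, h.unram p hp hpQ P hP σ hσ,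
      h'.unram p hp hpQ P hP σ hσ]
    exact map_one pairGL
  · intro p hp P hP
    obtain ⟨g, hg⟩ := h.local_ p hp P hP
    obtain ⟨g', hg'⟩ := h'.local_ p hp P hP
    refine ⟨pairGL (g, g'), fun σ hσ => ?_⟩
    obtain ⟨h0, h1, hI, hF⟩ := hg σ hσ
    obtain ⟨h0', h1', hI', hF'⟩ := hg' σ hσ
    have e : ∀ i j, (pairGL (g, g') * pairGL.comp (ρ.prod ρ') σ * (pairGL (g, g'))⁻¹ :
        GL (Fin 2) (A × A')).val i j =
        ((g * ρ σ * g⁻¹ : GL (Fin 2) A).val i j, (g' * ρ' σ * g'⁻¹ : GL (Fin 2) A').val i j) :=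
      fun i j => by
        rw [MonoidHom.comp_apply, MonoidHom.prod_apply, ← map_inv, ← map_mul, ← map_mul]
        rfl
    refine ⟨by rw [e, h0, h0']; rfl, ?_,
      fun hs => by rw [e, hI hs, hI' hs]; rfl,
      fun hs => by rw [e, hF hs, hF' hs]; ext <;> simp⟩
    have hp' : p.Prime := (Finset.mem_union.mp hp).elim (D.prime_mem p) (hQ p)
    obtain ⟨τ, hτ⟩ := Galois.exists_isFrobeniusAt hp' hP
    obtain ⟨L, hL, hLρ⟩ := h.cont
    obtain ⟨L', hL', hLρ'⟩ := h'.cont
    obtain ⟨j, i, hi, hji⟩ := exists_layer_eq hp' hP hτ (L ⊔ L') hσ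
    have v := quot_value hLρ (fun x hx => (hg x hx).1) (fun x hx => (hg x hx).2.2.1) hτ
      ((hg τ hτ.mem_decompositionSubgroup).2.2.2 hτ) hi
      (IntermediateField.fixingSubgroup_antitone le_sup_left hji)
    have v' := quot_value hLρ' (fun x hx => (hg' x hx).1) (fun x hx => (hg' x hx).2.2.1) hτ
      ((hg' τ hτ.mem_decompositionSubgroup).2.2.2 hτ) hi
      (IntermediateField.fixingSubgroup_antitone le_sup_right hji)
    rw [e, v, v']
    have hz : (ε p) ^ j = 1 ∨ (ε p) ^ j = -1 := by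
      rcases hε p with h | h
      · exact Or.inl (by rw [h, one_pow])
      · exact h ▸ neg_one_pow_eq_or ℤ j
    rcases hz with hz | hz
    · left; rw [← Int.cast_pow, ← Int.cast_pow, hz, Int.cast_one, Int.cast_one]; rfl
    · right; rw [← Int.cast_pow, ← Int.cast_pow, hz, Int.cast_neg, Int.cast_neg, Int.cast_one,
        Int.cast_one]; rfl

/-- A lift unramified at the auxiliary primes, with trace `1 + q` on Frobenius there, is a lift
with sign one at these primes. -/
theorem IsLift.extend {A : Type*} [CommRing A] [IsLocalRing A] [Finite A] (f : A →+* ZMod 2)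
    {ρ : Γℚ →* GL (Fin 2) A} (h : IsLift D ∅ ε ρ) (hQ : IsAuxSet D Q)
    (htr : ∀ q ∈ Q, ∀ P : ValuationSubring Qbar, P.LiesOverPrime q → ∀ τ : Γℚ,
      P.IsFrobeniusAt τ q → ((ρ τ : Matrix (Fin 2) (Fin 2) A)).trace = 1 + (q : A)) :
    IsLift D Q (fun p => if p ∈ Q then 1 else ε p) ρ := by
  have h2f : f 2 = 0 := by rw [map_ofNat]; rfl
  have hker : ∀ x : A, f x = 1 → IsUnit x := fun x hx => by
    rcases IsLocalRing.isUnit_or_isUnit_of_add_one (add_sub_cancel x 1) with h | h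
    · exact h
    · exact absurd (h.map f) (by rw [map_sub, map_one, hx, sub_self]; exact not_isUnit_zero)
  have hnil : ∃ n : ℕ, (2 : A) ^ n = 0 := by
    obtain ⟨a, b, hne, hab⟩ := Finite.exists_ne_map_eq_of_infinite (fun n : ℕ => (2 : A) ^ n)
    wlog hlt : a < b generalizing a b
    · exact this b a hne.symm hab.symm (lt_of_le_of_ne (not_lt.mp hlt) hne.symm)
    refine ⟨a, (hker (1 - 2 ^ (b - a)) ?_).mul_left_eq_zero.mp ?_⟩
    · rw [map_sub, map_one, map_pow, h2f, zero_pow (Nat.sub_ne_zero_of_lt hlt), sub_zero]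
    · rw [mul_sub, mul_one, ← pow_add, Nat.add_sub_cancel' hlt.le, sub_eq_zero]
      exact hab
  refine ⟨h.cont, h.det_eq, h.residual, fun p hp hpQ => ?_, fun p hp P hP => ?_⟩
  · exact h.unram p hp (fun h' => hpQ (by rw [Finset.union_empty] at h'; exact Finset.mem_union_left _ h'))
  by_cases hpQ : p ∈ Q
  · obtain ⟨hp', hpB, hfrob⟩ := hQ p hpQ
    obtain ⟨τ, hτ⟩ := Galois.exists_isFrobeniusAt hp' hP
    obtain ⟨L, hL, hLρ⟩ := h.cont
    obtain ⟨n, hn⟩ := hnil
    have hp2 : Nat.Coprime p 2 := (Nat.coprime_primes hp' Nat.prime_two).mpr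
      fun h => hpB (h ▸ D.two_mem)
    obtain ⟨ζ, hζ⟩ := HasEnoughRootsOfUnity.exists_primitiveRoot Qbar (2 ^ n)
    have hdet : (ρ τ : Matrix (Fin 2) (Fin 2) A).det = (p : A) :=
      h.det_eq n hn τ ζ hζ p (Datum.frobenius_apply_root hP hτ (hp2.pow_right n)
        (pow_ne_zero _ two_ne_zero) hζ.pow_eq_one)
    have htrace : (ρ τ : Matrix (Fin 2) (Fin 2) A).trace = 1 + (p : A) := htr p hpQ P hP τ hτ
    set M : Matrix (Fin 2) (Fin 2) A := (ρ τ : Matrix (Fin 2) (Fin 2) A) with hM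
    rw [Matrix.trace_fin_two] at htrace
    rw [Matrix.det_fin_two] at hdet
    have hw : ∀ i : Fin 2, (M - (p : A) • 1) i ᵥ* M = (M - (p : A) • 1) i := by
      intro i
      ext k
      fin_cases i <;> fin_cases k <;>
        simp [Matrix.vecMul, dotProduct, Fin.sum_univ_two]
      · linear_combination M 0 0 * htrace - hdet
      · linear_combination M 0 1 * htrace
      · linear_combination M 1 0 * htrace
      · linear_combination M 1 1 * htrace - hdet
    obtain ⟨i, k, hik⟩ : ∃ i k, IsUnit ((M - (p : A) • 1) i k) := by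
      by_contra hne
      push Not at hne
      apply (hfrob P hP τ hτ).1
      rw [← h.residual f τ]
      refine Units.ext (Matrix.ext fun i k => ?_)
      have h0 : f ((M - (p : A) • 1) i k) = 0 :=
        ((show ∀ e : ZMod 2, e = 0 ∨ e = 1 by decide) _).resolve_right fun h1 => hne i k (hker _ h1)
      have hp1 : f (p : A) = 1 := by
        rw [map_natCast]
        exact ZMod.natCast_eq_one_iff_odd.mpr (Nat.coprime_two_right.mp hp2)
      rw [Matrix.sub_apply, Matrix.smul_apply, map_sub, smul_eq_mul, map_mul, hp1, one_mul,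
        sub_eq_zero] at h0
      show f (M i k) = _
      rw [h0]
      fin_cases i <;> fin_cases k <;> simp
    set w := (M - (p : A) • 1) i with hwdef
    obtain ⟨g, hg⟩ : ∃ g : GL (Fin 2) A, g.val 1 = w := by
      let N : Matrix (Fin 2) (Fin 2) A := !![if k = 0 then 0 else 1, if k = 0 then 1 else 0; w 0, w 1]
      have hu : IsUnit N.det := by
        fin_cases k
        · simpa [N, Matrix.det_fin_two] using hik.neg
        · simpa [N, Matrix.det_fin_two] using hik
      exact ⟨Matrix.GeneralLinearGroup.mk'' N hu, by ext j; fin_cases j <;> rfl⟩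
    refine ⟨g, fun σ hσ => ?_⟩
    obtain ⟨j, x, hx, hjx⟩ := exists_layer_eq hp' hP hτ L hσ
    have hx1 : ρ x = 1 := h.unram p hp' (by rw [Finset.union_empty]; exact hpB) P hP x hx
    have hσ' : ρ σ = ρ τ ^ j := by
      have h1 := hLρ _ hjx
      rw [map_mul, map_inv, inv_mul_eq_one, map_mul, hx1, mul_one, map_pow] at h1
      exact h1.symm
    have hfix : ∀ n : ℕ, w ᵥ* ((ρ τ ^ n : GL (Fin 2) A) : Matrix (Fin 2) (Fin 2) A) = w := by
      intro n
      induction n with
      | zero => simp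
      | succ n ih => rw [pow_succ, Units.val_mul, ← Matrix.vecMul_vecMul, ih, ← hM, hw i]
    have hrow : ∀ l, ((g * ρ σ * g⁻¹ : GL (Fin 2) A) : Matrix (Fin 2) (Fin 2) A) 1 l =
        (1 : Matrix (Fin 2) (Fin 2) A) 1 l := by
      intro l
      rw [← Units.mul_inv g, Units.val_mul, Units.val_mul, hσ']
      rw [Matrix.mul_apply_eq_vecMul, Matrix.mul_apply_eq_vecMul, hg, hfix j,
        Matrix.mul_apply_eq_vecMul, hg]
    refine ⟨(hrow 0).trans (Matrix.one_apply_ne (by decide)),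
      Or.inl ((hrow 1).trans (Matrix.one_apply_eq _)),
      fun _ => (hrow 1).trans (Matrix.one_apply_eq _),
      fun _ => ((hrow 1).trans (Matrix.one_apply_eq _)).trans (by simp [hpQ])⟩
  · simp only [hpQ, if_false]
    exact h.local_ p (by
      rw [Finset.union_empty]; exact (Finset.mem_union.mp hp).resolve_right hpQ) P hP

end Fermat.Agent.Residual

end
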