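/-
Residual modularity at three: small algebra used by the assembly.
-/
import Fermat.Agent.Residual.Defs
import Mathlib.RingTheory.Artinian.Ring
import Mathlib.RingTheory.Artinian.Module
import Mathlib.NumberTheory.Padics.RingHoms
import Mathlib.Algebra.CharP.Lemmas

set_option autoImplicit false

noncomputable section

namespace Fermat.Agent.Residual

/-- A torsion point of exact order `2 ^ m` gives one of each smaller exact order. -/
theorem HasEigenTorsion.mono {L m m' : ℕ} {S : ℕ → Prop} {a : ℕ → ℤ}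
    (h : HasEigenTorsion L m S a) (h1 : 1 ≤ m') (hle : m' ≤ m) : HasEigenTorsion L m' S a := by
  obtain ⟨_, x, hx, hx', hT⟩ := h
  refine ⟨‹_›, (2 ^ (m - m') : ℕ) • x, ?_, ?_, fun ℓ hℓ hS => ?_⟩
  · rw [← mul_nsmul', ← pow_add, show m' + (m - m') = m by omega]
    exact hx
  · rw [← mul_nsmul', ← pow_add, show m' - 1 + (m - m') = m - 1 by omega]
    exact hx'
  · rw [map_nsmul, hT ℓ hℓ hS, smul_comm]

theorem HasEigenTorsion.of_imp {L m : ℕ} {S S' : ℕ → Prop} {a : ℕ → ℤ}
    (h : HasEigenTorsion L m S a) (hS : ∀ ℓ, S' ℓ → S ℓ) : HasEigenTorsion L m S' a := by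
  obtain ⟨_, x, hx, hx', hT⟩ := h
  exact ⟨‹_›, x, hx, hx', fun ℓ hℓ hS' => hT ℓ hℓ (hS _ hS')⟩

/-- A ring killed by `2 ^ M` is bounded by its quotient modulo two. -/
theorem natCard_le_pow_of_two_pow_eq_zero {A : Type*} [CommRing A] [Finite A] {M : ℕ}
    (h : (2 : A) ^ M = 0) :
    Nat.card A ≤ Nat.card (A ⧸ Ideal.span {(2 : A)}) ^ M := by
  classical
  set I : Ideal A := Ideal.span {(2 : A)}
  let s : A ⧸ I → A := Function.surjInv Ideal.Quotient.mk_surjective
  have hs : ∀ y, Ideal.Quotient.mk I (s y) = y :=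
    Function.surjInv_eq Ideal.Quotient.mk_surjective
  have key : ∀ k : ℕ, ∀ a : A, ∃ v : Fin k → A ⧸ I, ∃ b : A,
      a = (∑ i : Fin k, (2 : A) ^ (i : ℕ) * s (v i)) + (2 : A) ^ k * b := by
    intro k
    induction k with
    | zero => exact fun a => ⟨Fin.elim0, a, by simp⟩
    | succ k ih =>
      intro a
      obtain ⟨v, b, hb⟩ := ih a
      have hmem : b - s (Ideal.Quotient.mk I b) ∈ I := by
        rw [← Ideal.Quotient.eq, hs]
      obtain ⟨c, hc⟩ := Ideal.mem_span_singleton'.1 hmem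
      refine ⟨Fin.snoc v (Ideal.Quotient.mk I b), c, ?_⟩
      rw [Fin.sum_univ_castSucc, hb]
      simp only [Fin.snoc_castSucc, Fin.snoc_last, Fin.val_castSucc, Fin.val_last]
      rw [pow_succ]
      linear_combination -((2 : A) ^ k) * hc
  have hsurj : Function.Surjective
      (fun v : Fin M → A ⧸ I => ∑ i : Fin M, (2 : A) ^ (i : ℕ) * s (v i)) := fun a => by
    obtain ⟨v, b, hb⟩ := key M a
    exact ⟨v, by rw [hb, h, zero_mul, add_zero]⟩
  have : Finite (A ⧸ I) := Finite.of_surjective _ Ideal.Quotient.mk_surjective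
  calc Nat.card A ≤ Nat.card (Fin M → A ⧸ I) := Nat.card_le_card_of_surjective _ hsurj
    _ = Nat.card (A ⧸ I) ^ M := by rw [Nat.card_fun, Nat.card_fin]

/-- In a finite local ring with residue field `𝔽₂` every `x ^ 2 - x` is nilpotent. -/
theorem isNilpotent_sq_sub_self {R : Type*} [CommRing R] [IsLocalRing R] [Finite R]
    (f : R →+* ZMod 2) (x : R) : IsNilpotent (x ^ 2 - x) := by
  have hnu : ¬ IsUnit (x ^ 2 - x) := fun hu => by
    have h := hu.map f
    rw [map_sub, map_pow] at h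
    revert h
    generalize f x = y
    revert y
    decide
  have hmem : x ^ 2 - x ∈ IsLocalRing.maximalIdeal R := hnu
  obtain ⟨n, hn⟩ := IsArtinianRing.isNilpotent_jacobson_bot (R := R)
  refine ⟨n, ?_⟩
  have hp := Ideal.pow_mem_pow hmem n
  rw [← IsLocalRing.jacobson_eq_maximalIdeal (⊥ : Ideal R) bot_ne_top] at hp
  rw [Ideal.zero_eq_bot] at hn
  rw [hn] at hp
  simpa using hp

/-- Maximal ideals have residue field `𝔽₂` when every `x ^ 2 - x` is nilpotent. -/
theorem natCard_quotient_eq_two {P : Type*} [CommRing P] (h : ∀ x : P, IsNilpotent (x ^ 2 - x))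
    (p : Ideal P) [p.IsMaximal] : Nat.card (P ⧸ p) = 2 := by
  rw [Nat.card_eq_two_iff]
  refine ⟨0, 1, zero_ne_one, Set.eq_univ_of_forall fun y => ?_⟩
  obtain ⟨x, rfl⟩ := Ideal.Quotient.mk_surjective y
  obtain ⟨n, hn⟩ := h x
  have hp : p.IsPrime := Ideal.IsMaximal.isPrime inferInstance
  have hmem : x * (x - 1) ∈ p := by
    rw [show x * (x - 1) = x ^ 2 - x by ring]
    exact hp.mem_of_pow_mem n (by rw [hn]; exact p.zero_mem)
  rcases hp.mem_or_mem hmem with h' | h'
  · exact Or.inl (Ideal.Quotient.eq_zero_iff_mem.2 h')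
  · exact Or.inr (by rw [← map_one (Ideal.Quotient.mk p)]; exact Ideal.Quotient.eq.2 h')

instance isLocalRing_zmod_two_pow (M : ℕ) [NeZero M] : IsLocalRing (ZMod (2 ^ M)) := by
  have hM : M ≠ 0 := NeZero.ne M
  have : Fact (1 < 2 ^ M) := ⟨Nat.one_lt_two_pow hM⟩
  refine IsLocalRing.of_nonunits_add fun a b ha hb => ?_
  have key : ∀ c : ZMod (2 ^ M), ¬ IsUnit c ↔ 2 ∣ c.val := fun c => by
    conv_lhs => rw [← ZMod.natCast_zmod_val c, ZMod.isUnit_iff_coprime,
      Nat.coprime_pow_right_iff (Nat.pos_of_ne_zero hM)]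
    rw [Nat.coprime_comm, Nat.prime_two.coprime_iff_not_dvd, not_not]
  simp only [mem_nonunits_iff, key] at *
  rw [ZMod.val_add]
  exact Nat.dvd_mod_iff (dvd_pow_self 2 hM) |>.2 (dvd_add ha hb)

theorem exists_castHom_two_pow {A : Type*} [CommRing A] {M : ℕ} (h : (2 : A) ^ M = 0) :
    Nonempty (ZMod (2 ^ M) →+* A) := by
  have hdvd : ringChar A ∣ 2 ^ M := by rw [← ringChar.spec, Nat.cast_pow, Nat.cast_ofNat, h]
  exact ⟨ZMod.castHom hdvd A⟩

/-- Every two-adic integer is congruent to a natural number modulo `2 ^ M`. -/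
theorem exists_natCast_dvd_sub (M : ℕ) (z : ℤ_[2]) :
    ∃ n : ℕ, (2 : ℤ_[2]) ^ M ∣ z - n :=
  ⟨z.appr M, by simpa using Ideal.mem_span_singleton.1 (PadicInt.appr_spec M z)⟩

end Fermat.Agent.Residual

end
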