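/-
Residual modularity at three: the ring of integers of an algebraic closure of `ℚ₂`.
-/
import Fermat.Agent.Residual.PatternHecke
import Fermat.Agent.RepLemmas.DVRExtension
import Mathlib.RingTheory.Filtration

set_option autoImplicit false

noncomputable section

namespace Fermat.Agent.Residual

/-- The integers of a subfield of `ℚ̄₂`, inside those of `ℚ̄₂`. -/
def subIntHom (K : IntermediateField ℚ_[2] Q2bar) : integralClosure ℤ_[2] K →ₐ[ℤ_[2]] Q2int :=
  AlgHom.mapIntegralClosure (K.val.restrictScalars ℤ_[2])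

theorem coe_subIntHom (K : IntermediateField ℚ_[2] Q2bar) (x : integralClosure ℤ_[2] K) :
    ((subIntHom K x : Q2int) : Q2bar) = ((x : K) : Q2bar) :=
  rfl

theorem isIntegral_sub_iff (K : IntermediateField ℚ_[2] Q2bar) (x : K) :
    IsIntegral ℤ_[2] x ↔ IsIntegral ℤ_[2] (x : Q2bar) :=
  (isIntegral_algHom_iff (K.val.restrictScalars ℤ_[2]) Subtype.val_injective).symm

/-- The integers of a finite extension of `ℚ₂` form a complete discrete valuation ring. -/
theorem subInt_facts (K : IntermediateField ℚ_[2] Q2bar) [FiniteDimensional ℚ_[2] K] :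
    ∃ _ : IsDiscreteValuationRing (integralClosure ℤ_[2] K),
      Module.Finite ℤ_[2] (integralClosure ℤ_[2] K) ∧
      IsFractionRing (integralClosure ℤ_[2] K) K := by
  obtain ⟨hdvr, hfin, -, -, hfrac, -, -⟩ := RepLemmas.integralClosure_isDVR ℤ_[2] ℚ_[2] K
  exact ⟨hdvr, hfin, hfrac⟩

instance isLocalRing_Q2int : IsLocalRing Q2int := by
  refine IsLocalRing.of_isUnit_or_isUnit_one_sub_self fun x => ?_
  let K : IntermediateField ℚ_[2] Q2bar := IntermediateField.adjoin ℚ_[2] {(x : Q2bar)}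
  have : FiniteDimensional ℚ_[2] K :=
    IntermediateField.adjoin.finiteDimensional (Algebra.IsIntegral.isIntegral _)
  obtain ⟨hdvr, -, -⟩ := subInt_facts K
  have hx : (x : Q2bar) ∈ K := IntermediateField.mem_adjoin_simple_self _ _
  let y : integralClosure ℤ_[2] K := ⟨⟨x, hx⟩, (isIntegral_sub_iff K _).2 x.2⟩
  have hy : subIntHom K y = x := Subtype.ext rfl
  rcases IsLocalRing.isUnit_or_isUnit_one_sub_self y with h | h
  · exact Or.inl (hy ▸ h.map (subIntHom K))
  · have h' := h.map (subIntHom K)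
    rw [map_sub, map_one, hy] at h'
    exact Or.inr h'

theorem twoMax_le_maximalIdeal : twoMax ≤ IsLocalRing.maximalIdeal Q2int :=
  IsLocalRing.le_maximalIdeal twoMax_ne_top

theorem two_mem_maximalIdeal_Q2int : (2 : Q2int) ∈ IsLocalRing.maximalIdeal Q2int :=
  twoMax_le_maximalIdeal two_mem_twoMax

/-- An element of `ℚ̄₂` or its inverse is integral. -/
theorem isIntegral_or_inv_Q2bar (r : Q2bar) : IsIntegral ℤ_[2] r ∨ IsIntegral ℤ_[2] r⁻¹ := by
  let K : IntermediateField ℚ_[2] Q2bar := IntermediateField.adjoin ℚ_[2] {r}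
  have : FiniteDimensional ℚ_[2] K :=
    IntermediateField.adjoin.finiteDimensional (Algebra.IsIntegral.isIntegral _)
  obtain ⟨hdvr, -, hfrac⟩ := subInt_facts K
  let z : K := ⟨r, IntermediateField.mem_adjoin_simple_self _ _⟩
  rcases ValuationRing.isInteger_or_isInteger (integralClosure ℤ_[2] K) z with ⟨y, hy⟩ | ⟨y, hy⟩
  · exact Or.inl ((isIntegral_sub_iff K z).1 (hy ▸ y.2))
  · refine Or.inr ?_
    have h := (isIntegral_sub_iff K z⁻¹).1 (hy ▸ y.2)
    simpa [z] using h

/-- A non-zero vector of `ℚ̄₂²` is a multiple of a primitive integral vector. -/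
theorem exists_primitive_vector (v : Fin 2 → Q2bar) (hv : v ≠ 0) :
    ∃ (c : Q2bar) (w : Fin 2 → Q2int), c ≠ 0 ∧ (∃ i, IsUnit (w i)) ∧
      ∀ i, v i = c * (w i : Q2bar) := by
  by_cases h0 : v 0 = 0
  · have h1 : v 1 ≠ 0 := fun h => hv (funext fun i => by fin_cases i <;> assumption)
    refine ⟨v 1, ![0, 1], h1, ⟨1, by simp⟩, fun i => ?_⟩
    fin_cases i <;> simp [h0]
  rcases isIntegral_or_inv_Q2bar (v 1 / v 0) with h | h
  · refine ⟨v 0, ![1, ⟨v 1 / v 0, h⟩], h0, ⟨0, by simp⟩, fun i => ?_⟩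
    fin_cases i <;> simp [mul_div_cancel₀, h0]
  · have h1 : v 1 / v 0 ≠ 0 ∨ v 1 = 0 := by
      by_cases h1 : v 1 = 0
      · exact Or.inr h1
      · exact Or.inl (div_ne_zero h1 h0)
    rcases h1 with h1 | h1
    · have h1' : v 1 ≠ 0 := fun e => h1 (by simp [e])
      refine ⟨v 1, ![⟨(v 1 / v 0)⁻¹, h⟩, 1], h1', ⟨1, by simp⟩, fun i => ?_⟩
      fin_cases i <;> simp [h1', mul_div_cancel₀]
    · refine ⟨v 0, ![1, 0], h0, ⟨0, by simp⟩, fun i => ?_⟩
      fin_cases i <;> simp [h1]

/-- Only zero is divisible by every power of two. -/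
theorem eq_zero_of_forall_two_pow_dvd {x : Q2int} (h : ∀ n : ℕ, (2 : Q2int) ^ n ∣ x) : x = 0 := by
  let K : IntermediateField ℚ_[2] Q2bar := IntermediateField.adjoin ℚ_[2] {(x : Q2bar)}
  have : FiniteDimensional ℚ_[2] K :=
    IntermediateField.adjoin.finiteDimensional (Algebra.IsIntegral.isIntegral _)
  obtain ⟨hdvr, -, -⟩ := subInt_facts K
  have hx : (x : Q2bar) ∈ K := IntermediateField.mem_adjoin_simple_self _ _
  let y : integralClosure ℤ_[2] K := ⟨⟨x, hx⟩, (isIntegral_sub_iff K _).2 x.2⟩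
  have hy : ∀ n : ℕ, y ∈ Ideal.span {(2 : integralClosure ℤ_[2] K)} ^ n := fun n => by
    obtain ⟨t, ht⟩ := h n
    have ht' : (x : Q2bar) = 2 ^ n * (t : Q2bar) := by
      rw [ht]
      push_cast
      rfl
    have htK : (t : Q2bar) ∈ K := by
      have : (t : Q2bar) = x * ((2 : Q2bar) ^ n)⁻¹ := by
        rw [ht', mul_comm ((2 : Q2bar) ^ n), mul_assoc, mul_inv_cancel₀ (pow_ne_zero _ two_ne_zero),
          mul_one]
      rw [this]
      exact mul_mem hx (inv_mem (pow_mem (by simp) _))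
    rw [Ideal.span_singleton_pow, Ideal.mem_span_singleton]
    refine ⟨⟨⟨t, htK⟩, (isIntegral_sub_iff K _).2 t.2⟩, Subtype.ext (Subtype.ext ?_)⟩
    push_cast
    exact ht'
  have hne : Ideal.span {(2 : integralClosure ℤ_[2] K)} ≠ ⊤ := by
    rw [Ne, Ideal.span_singleton_eq_top]
    intro hu
    have := hu.map (subIntHom K)
    rw [map_ofNat] at this
    exact two_mem_maximalIdeal_Q2int this
  have : y ∈ (⊥ : Ideal (integralClosure ℤ_[2] K)) := by
    rw [← Ideal.iInf_pow_eq_bot_of_isDomain _ hne, Ideal.mem_iInf]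
    exact hy
  exact Subtype.ext (congrArg (fun z : integralClosure ℤ_[2] K => ((z : K) : Q2bar))
    (Ideal.mem_bot.1 this))

end Fermat.Agent.Residual

end
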