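/-
Residual modularity at three: lines with unramified quotient at a place, from the traces of the
Frobenius elements at an odd prime.
-/
import Fermat.Agent.Residual.PatternRing
import Fermat.Agent.Galois.TameGenerator

set_option autoImplicit false

noncomputable section

open scoped Matrix

namespace Fermat.Agent.Residual

local notation "Qbar" => AlgebraicClosure ℚ
local notation "Γℚ" => (AlgebraicClosure ℚ ≃ₐ[ℚ] AlgebraicClosure ℚ)

/-- Inertia and the Frobenius elements at `P` fix a line on whose quotient inertia acts trivially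
and Frobenius through `a`. -/
def IsLineAt {R : Type*} [CommRing R] (ρ : Γℚ →* Matrix (Fin 2) (Fin 2) R)
    (P : ValuationSubring Qbar) (p : ℕ) (a : R) : Prop :=
  ∃ v : Fin 2 → R, (∃ i, IsUnit (v i)) ∧
    (∀ σ ∈ P.inertiaSubgroupIn ℚ, ∃ c : R, ρ σ *ᵥ v = c • v ∧ (ρ σ).trace = c + 1) ∧
    ∀ σ : Γℚ, P.IsFrobeniusAt σ p → ∃ c : R, ρ σ *ᵥ v = c • v ∧ (ρ σ).trace = c + a

/-- A vector with a unit coordinate stays one after an invertible change of coordinates. -/
theorem exists_isUnit_mulVec {R : Type*} [CommRing R] [IsLocalRing R]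
    (g : (Matrix (Fin 2) (Fin 2) R)ˣ) {v : Fin 2 → R} (hv : ∃ i, IsUnit (v i)) :
    ∃ i, IsUnit (((g : Matrix (Fin 2) (Fin 2) R) *ᵥ v) i) := by
  by_contra h
  push Not at h
  obtain ⟨i, hi⟩ := hv
  have h1 : v i ∈ IsLocalRing.maximalIdeal R := by
    have e : v = ((g⁻¹ : (Matrix (Fin 2) (Fin 2) R)ˣ) : Matrix (Fin 2) (Fin 2) R) *ᵥ
        ((g : Matrix (Fin 2) (Fin 2) R) *ᵥ v) := by
      rw [Matrix.mulVec_mulVec, Units.inv_mul, Matrix.one_mulVec]
    rw [e, Matrix.mulVec, dotProduct]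
    exact Ideal.sum_mem (IsLocalRing.maximalIdeal R) fun j _ =>
      Ideal.mul_mem_left (IsLocalRing.maximalIdeal R) _ ((IsLocalRing.mem_maximalIdeal _).2 (h j))
  exact h1 hi

theorem IsLineAt.conj {R : Type*} [CommRing R] [IsLocalRing R]
    {ρ : Γℚ →* Matrix (Fin 2) (Fin 2) R} {P : ValuationSubring Qbar} {p : ℕ} {a : R}
    (h : IsLineAt ρ P p a) (g : (Matrix (Fin 2) (Fin 2) R)ˣ)
    {ρ' : Γℚ →* Matrix (Fin 2) (Fin 2) R}
    (hρ' : ∀ σ, ρ' σ = (g : Matrix (Fin 2) (Fin 2) R) * ρ σ *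
      ((g⁻¹ : (Matrix (Fin 2) (Fin 2) R)ˣ) : Matrix (Fin 2) (Fin 2) R)) :
    IsLineAt ρ' P p a := by
  obtain ⟨v, hv, hI, hF⟩ := h
  have key : ∀ σ (c : R), ρ σ *ᵥ v = c • v →
      ρ' σ *ᵥ ((g : Matrix (Fin 2) (Fin 2) R) *ᵥ v) = c • ((g : Matrix (Fin 2) (Fin 2) R) *ᵥ v) :=
    fun σ c hc => by
      rw [hρ', Matrix.mulVec_mulVec, Matrix.mul_assoc, Units.inv_mul, Matrix.mul_one,
        ← Matrix.mulVec_mulVec, hc, Matrix.mulVec_smul]
  refine ⟨_, exists_isUnit_mulVec g hv, fun σ hσ => ?_, fun σ hσ => ?_⟩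
  · obtain ⟨c, hc, ht⟩ := hI σ hσ
    exact ⟨c, key σ c hc, by rw [hρ', Matrix.trace_units_conj, ht]⟩
  · obtain ⟨c, hc, ht⟩ := hF σ hσ
    exact ⟨c, key σ c hc, by rw [hρ', Matrix.trace_units_conj, ht]⟩

/-- Two Frobenius elements at a place differ by inertia. -/
theorem frob_inv_mul_mem_inertia {A : ValuationSubring Qbar} {q : ℕ} {φ φ' : Γℚ}
    (h : A.IsFrobeniusAt φ q) (h' : A.IsFrobeniusAt φ' q) :
    φ'⁻¹ * φ ∈ A.inertiaSubgroupIn ℚ := by
  have h1 := h.mem_decompositionSubgroup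
  have h2 := h'.mem_decompositionSubgroup
  refine Subgroup.mem_map.2 ⟨⟨φ', h2⟩⁻¹ * ⟨φ, h1⟩,
    MonoidHom.mem_ker.2 (RingEquiv.ext fun x => ?_), rfl⟩
  show ((⟨φ', h2⟩⁻¹ * ⟨φ, h1⟩ : A.decompositionSubgroup ℚ)) • x = x
  rw [mul_smul, inv_smul_eq_iff]
  exact (h.smul_residue_eq x).trans (h'.smul_residue_eq x).symm

/-- A Frobenius element times inertia is a Frobenius element. -/
theorem isFrobeniusAt_mul_inertia {A : ValuationSubring Qbar} {q : ℕ} {φ i : Γℚ}
    (h : A.IsFrobeniusAt φ q) (hi : i ∈ A.inertiaSubgroupIn ℚ) :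
    A.IsFrobeniusAt (φ * i) q := by
  obtain ⟨hφ, hx⟩ := h
  obtain ⟨j, hj, rfl⟩ := hi
  refine ⟨mul_mem hφ j.2, fun x => ?_⟩
  have hji : j • x = x := RingEquiv.congr_fun (MonoidHom.mem_ker.1 hj) x
  show ((⟨φ, hφ⟩ : A.decompositionSubgroup ℚ) * j) • x = x ^ q
  rw [mul_smul, hji, hx]

/-- The algebra behind the Frobenius traces: inertia is unipotent with a common line. -/
theorem upper_or_lower_of_relations {K ι : Type*} [Field K] (q : K) (hq : q ≠ 0)
    (hq1 : q ≠ 1) (hq2 : q ^ 2 ≠ 1) (hqq : q ≠ -1) (N : ι → Matrix (Fin 2) (Fin 2) K)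
    (m : ι → ι → ι) (hmul : ∀ i j, N (m i j) = N i * N j)
    (c : ι → ι) (hc : ∀ i, N (c i) 0 0 = N i 0 0 ∧ N (c i) 1 1 = N i 1 1 ∧
      N (c i) 0 1 = q * N i 0 1 ∧ q * N (c i) 1 0 = N i 1 0)
    (hrel : ∀ i, q * (N i 0 0 - 1) + (N i 1 1 - 1) = 0) :
    (∀ i, N i 0 0 = 1 ∧ N i 1 1 = 1) ∧ ((∀ i, N i 0 1 = 0) ∨ ∀ i, N i 1 0 = 0) := by
  have main : ∀ i j, q * (1 + q) * ((N i 0 0 - 1) * (N j 0 0 - 1)) + q * (N i 0 1 * N j 1 0) +
      N i 1 0 * N j 0 1 = 0 := fun i j => by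
    have h := hrel (m i j)
    rw [hmul, Matrix.mul_apply, Matrix.mul_apply, Fin.sum_univ_two, Fin.sum_univ_two] at h
    have h1 := hrel i
    have h2 := hrel j
    linear_combination h - h1 * N j 1 1 - h2 + (q * (N i 0 0 - 1)) * h2
  have hA : ∀ i j, N i 0 1 * N j 1 0 = 0 ∧ N i 1 0 * N j 0 1 = 0 := fun i j => by
    have e0 := main i j
    have e1 := main i (c j)
    have e2 := main i (c (c j))
    obtain ⟨a0, -, a2, a3⟩ := hc j
    obtain ⟨b0, -, b2, b3⟩ := hc (c j)
    set A := N i 0 1 * N j 1 0 with hAdef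
    set B := N i 1 0 * N j 0 1 with hBdef
    set X := q * (1 + q) * ((N i 0 0 - 1) * (N j 0 0 - 1)) with hX
    have f1 : X + A + q * B = 0 := by
      rw [a0, a2] at e1
      rw [hX, hAdef, hBdef]
      linear_combination e1 - N i 0 1 * a3
    have f2 : q * X + A + q ^ 3 * B = 0 := by
      rw [b0, a0, b2, a2] at e2
      rw [hX, hAdef, hBdef]
      linear_combination q * e2 - q * N i 0 1 * b3 - N i 0 1 * a3
    have f0 : X + q * A + B = 0 := by rw [hX, hAdef, hBdef]; linear_combination e0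
    have hAB : A = B := by
      have : (q - 1) * (A - B) = 0 := by linear_combination f0 - f1
      exact sub_eq_zero.1 ((mul_eq_zero.1 this).resolve_left (sub_ne_zero.2 hq1))
    have hA0 : A = 0 := by
      have h3 : (q - 1) * (q ^ 2 - 1) * A = 0 := by
        rw [← hAB] at f0 f1 f2
        linear_combination f2 - q * f1
      rcases mul_eq_zero.1 h3 with h3 | h3
      · rcases mul_eq_zero.1 h3 with h3 | h3
        · exact absurd (sub_eq_zero.1 h3) hq1
        · exact absurd (sub_eq_zero.1 h3) hq2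
      · exact h3
    exact ⟨hA0, hAB ▸ hA0⟩
  refine ⟨fun i => ?_, ?_⟩
  · have h := main i i
    rw [(hA i i).1, (hA i i).2, mul_zero, add_zero, add_zero] at h
    rcases mul_eq_zero.1 h with h' | h'
    · rcases mul_eq_zero.1 h' with h' | h'
      · exact absurd h' hq
      · exact absurd (eq_neg_of_add_eq_zero_right h') hqq
    · have h0 : N i 0 0 = 1 := sub_eq_zero.1 (mul_self_eq_zero.1 h')
      have h1 := hrel i
      rw [h0, sub_self, mul_zero, zero_add] at h1
      exact ⟨h0, sub_eq_zero.1 h1⟩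
  · by_contra hne
    push Not at hne
    obtain ⟨⟨i, hi⟩, j, hj⟩ := hne
    exact (mul_eq_zero.1 (hA i j).1).elim hi hj

/-- An invertible matrix diagonalising a matrix with two given distinct eigenvalues. -/
theorem exists_diagonalize {K : Type*} [Field K] (T : Matrix (Fin 2) (Fin 2) K) {α β : K}
    (hne : α ≠ β) (htr : T.trace = α + β) (hdet : T.det = α * β) :
    ∃ U : (Matrix (Fin 2) (Fin 2) K)ˣ,
      T * (U : Matrix (Fin 2) (Fin 2) K) =
        (U : Matrix (Fin 2) (Fin 2) K) * Matrix.diagonal ![α, β] := by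
  have hev : ∀ γ, (γ - α) * (γ - β) = 0 → ∃ v, v ≠ 0 ∧ T *ᵥ v = γ • v := fun γ hγ => by
    have h0 : (T - Matrix.scalar (Fin 2) γ).det = 0 := by
      rw [Matrix.det_fin_two] at hdet ⊢
      rw [Matrix.trace_fin_two] at htr
      simp
      linear_combination hdet - γ * htr + hγ
    obtain ⟨v, hv, he⟩ := Matrix.exists_mulVec_eq_zero_iff.2 h0
    refine ⟨v, hv, ?_⟩
    rw [Matrix.sub_mulVec, sub_eq_zero] at he
    rw [he]
    funext i
    simp [Matrix.mulVec_diagonal]
  obtain ⟨e0, he0, hT0⟩ := hev α (by simp)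
  obtain ⟨e1, he1, hT1⟩ := hev β (by simp)
  let U : Matrix (Fin 2) (Fin 2) K := Matrix.of fun i j => ![e0, e1] j i
  have hU : ∀ w, U *ᵥ w = w 0 • e0 + w 1 • e1 := fun w => funext fun i => by
    simp [U, Matrix.mulVec, dotProduct, mul_comm]
  have hdetU : IsUnit U.det := by
    rw [isUnit_iff_ne_zero]
    intro h
    obtain ⟨w, hw, hw0⟩ := Matrix.exists_mulVec_eq_zero_iff.2 h
    rw [hU] at hw0
    have h1 := congrArg (fun x => T *ᵥ x) hw0
    simp only [Matrix.mulVec_add, Matrix.mulVec_smul, Matrix.mulVec_zero, hT0, hT1] at h1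
    have h2 : ((α - β) * w 0) • e0 = 0 := by
      calc ((α - β) * w 0) • e0 = (w 0 • α • e0 + w 1 • β • e1) - β • (w 0 • e0 + w 1 • e1) := by
            module
        _ = 0 := by rw [h1, hw0, smul_zero, sub_zero]
    rcases smul_eq_zero.1 h2 with h2 | h2
    · have hw00 : w 0 = 0 := (mul_eq_zero.1 h2).resolve_left (sub_ne_zero.2 hne)
      rw [hw00, zero_smul, zero_add] at hw0
      rcases smul_eq_zero.1 hw0 with h3 | h3
      · exact hw (funext fun i => by fin_cases i <;> assumption)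
      · exact he1 h3
    · exact he0 h2
  refine ⟨((Matrix.isUnit_iff_isUnit_det _).2 hdetU).unit, ?_⟩
  show T * U = U * Matrix.diagonal ![α, β]
  ext i j
  rw [Matrix.mul_diagonal]
  have h1 : (T * U) i j = (T *ᵥ ![e0, e1] j) i := by simp [U, Matrix.mul_apply, Matrix.mulVec, dotProduct]
  rw [h1]
  fin_cases j <;> simp [hT0, hT1, U, mul_comm]

/-- Powers of a unipotent element of square zero. -/
theorem one_add_pow_of_sq_zero {R : Type*} [Ring R] {x : R} (hx : x * x = 0) (n : ℕ) :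
    (1 + x) ^ n = 1 + n • x := by
  induction n with
  | zero => simp
  | succ n ih =>
    rw [pow_succ, ih, mul_add, mul_one, add_mul, one_mul, smul_mul_assoc, hx, smul_zero, add_zero,
      succ_nsmul, add_assoc]

/-- The tame relation for unipotent images of inertia. -/
theorem tame_unipotent {R : Type*} [CommRing R] (r : Γℚ →* Matrix (Fin 2) (Fin 2) R) {q n : ℕ}
    (hq : q.Prime) (hq2 : q ≠ 2) {P : ValuationSubring Qbar} (hP : P.LiesOverPrime q)
    (hn : ((2 ^ n : ℕ) : R) = 0)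
    (hf : ∃ L : IntermediateField ℚ Qbar, FiniteDimensional ℚ L ∧
      ∀ g : Γℚ, (∀ x ∈ L, g x = x) → r g = 1)
    (hsq : ∀ g ∈ P.inertiaSubgroupIn ℚ, (r g - 1) * (r g - 1) = 0)
    {σ : Γℚ} (hσ : P.IsFrobeniusAt σ q) {τ : Γℚ} (hτI : τ ∈ P.inertiaSubgroupIn ℚ)
    (hτ : ∀ (L : IntermediateField ℚ Qbar) [FiniteDimensional ℚ L] [IsGalois ℚ L],
      Galois.GeneratesLayer P q L τ) :
    r (σ * τ * σ⁻¹) - 1 = q • (r τ - 1) ∧
      (r τ = 1 → ∀ g ∈ P.inertiaSubgroupIn ℚ, r g = 1) := by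
  obtain ⟨L, hL, hLr⟩ := hf
  have hR : ∀ g : Γℚ, Units.val (r.toHomUnits g) = r g := fun g => rfl
  obtain ⟨hrel, hgen, -⟩ := Galois.tame_relations Nat.prime_two hq hq2 hP hτI hτ hσ r.toHomUnits
    ⟨L, hL, fun g hg => Units.ext (by rw [hR, Units.val_one]; exact hLr g hg)⟩
    fun g hg => ⟨n, Units.ext (by
      rw [Units.val_pow_eq_pow_val, hR, Units.val_one, ← add_sub_cancel 1 (r g),
        one_add_pow_of_sq_zero (hsq g hg), add_eq_left]
      ext i j
      rw [Matrix.smul_apply, nsmul_eq_mul, hn, zero_mul, Matrix.zero_apply])⟩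
  constructor
  · have h1 := congrArg Units.val hrel
    simp only [← map_inv, ← map_mul, hR, Units.val_pow_eq_pow_val] at h1
    rw [h1]
    conv_lhs => rw [← add_sub_cancel 1 (r τ)]
    rw [one_add_pow_of_sq_zero (hsq τ hτI), add_sub_cancel_left]
  · intro h1 g hg
    obtain ⟨k, hk⟩ := Subgroup.mem_zpowers_iff.1 (hgen g hg)
    have hu : r.toHomUnits τ = 1 := Units.ext h1
    rw [hu, one_zpow] at hk
    exact (congrArg Units.val hk).symm

/-- At an odd prime the traces of the Frobenius elements give a line with unramified quotient. -/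
theorem isLineAt_of_frobenius_traces (ρ : Γℚ →* Matrix (Fin 2) (Fin 2) Q2int) {q : ℕ}
    (hq : q.Prime) (hq2 : q ≠ 2) {P : ValuationSubring Qbar} (hP : P.LiesOverPrime q)
    (hcont : ∀ n : ℕ, ∃ L : IntermediateField ℚ Qbar, FiniteDimensional ℚ L ∧
      ∀ σ : Γℚ, (∀ x ∈ L, σ x = x) → ∀ i j, (2 : Q2int) ^ n ∣ (ρ σ - 1) i j)
    {a : Q2int} (ha : a = 1 ∨ a = -1)
    (hfrob : ∀ σ : Γℚ, P.IsFrobeniusAt σ q →
      (ρ σ).trace = a * ((q : Q2int) + 1) ∧ (ρ σ).det = (q : Q2int)) :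
    IsLineAt ρ P q a := by
  classical
  obtain ⟨σ₀, hσ₀⟩ := Galois.exists_isFrobeniusAt hq hP
  let e : Q2int →+* Q2bar := Q2int.val.toRingHom
  have he : Function.Injective e := Subtype.val_injective
  let M : Γℚ →* Matrix (Fin 2) (Fin 2) Q2bar := e.mapMatrix.toMonoidHom.comp ρ
  set A : Q2bar := (a : Q2bar) with hAdef
  have hA2 : A * A = 1 := by rcases ha with rfl | rfl <;> simp [hAdef]
  have hA0 : A ≠ 0 := fun h => by simp [h] at hA2
  have hqn : ∀ n : ℕ, n ≠ q → (q : Q2bar) ≠ (n : Q2bar) := fun n h h' =>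
    h (Nat.cast_injective h').symm
  have hq0 : (q : Q2bar) ≠ 0 := Nat.cast_ne_zero.2 hq.ne_zero
  have hq1 : (q : Q2bar) ≠ 1 := by simpa using hqn 1 hq.one_lt.ne
  have hqq : (q : Q2bar) ≠ -1 := fun h => by
    have h0 : ((q + 1 : ℕ) : Q2bar) = 0 := by push_cast; rw [h]; ring
    exact Nat.cast_ne_zero.2 (Nat.succ_ne_zero q) h0
  have hqsq : (q : Q2bar) ^ 2 ≠ 1 := fun h => by
    rcases mul_eq_zero.1 (show ((q : Q2bar) - 1) * (q + 1) = 0 by linear_combination h) with h | h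
    · exact hq1 (sub_eq_zero.1 h)
    · exact hqq (eq_neg_of_add_eq_zero_left h)
  have htrM : ∀ σ : Γℚ, P.IsFrobeniusAt σ q →
      (M σ).trace = A * (q : Q2bar) + A ∧ (M σ).det = (q : Q2bar) := fun σ hσ => by
    obtain ⟨h1, h2⟩ := hfrob σ hσ
    constructor
    · show (e.mapMatrix (ρ σ)).trace = _
      rw [RingHom.mapMatrix_apply, ← AddMonoidHom.map_trace, h1]
      simp [e, hAdef]
      ring
    · show (e.mapMatrix (ρ σ)).det = _
      rw [← RingHom.map_det, h2]
      simp [e]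
  obtain ⟨U, hU⟩ := exists_diagonalize (M σ₀) (α := A * q) (β := A)
    (fun h => hq1 (mul_left_cancel₀ hA0 (h.trans (mul_one A).symm)))
    (htrM σ₀ hσ₀).1 (by rw [(htrM σ₀ hσ₀).2]; linear_combination (-(q : Q2bar)) * hA2)
  set Ui : Matrix (Fin 2) (Fin 2) Q2bar :=
    ((U⁻¹ : (Matrix (Fin 2) (Fin 2) Q2bar)ˣ) : Matrix (Fin 2) (Fin 2) Q2bar) with hUidef
  have hUUi : (U : Matrix (Fin 2) (Fin 2) Q2bar) * Ui = 1 := U.mul_inv
  have hUiU : Ui * (U : Matrix (Fin 2) (Fin 2) Q2bar) = 1 := U.inv_mul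
  let N : Γℚ →* Matrix (Fin 2) (Fin 2) Q2bar :=
    { toFun := fun σ => Ui * M σ * U
      map_one' := by rw [map_one, Matrix.mul_one, hUiU]
      map_mul' := fun x y => by
        rw [map_mul]
        simp only [Matrix.mul_assoc]
        rw [← Matrix.mul_assoc (U : Matrix (Fin 2) (Fin 2) Q2bar) Ui, hUUi, Matrix.one_mul] }
  have hN : ∀ σ, M σ = (U : Matrix (Fin 2) (Fin 2) Q2bar) * N σ * Ui := fun σ => by
    show _ = (U : Matrix (Fin 2) (Fin 2) Q2bar) * (Ui * M σ * U) * Ui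
    simp only [Matrix.mul_assoc]
    rw [hUUi, Matrix.mul_one, ← Matrix.mul_assoc, hUUi, Matrix.one_mul]
  have hNσ : N σ₀ = Matrix.diagonal ![A * q, A] := by
    show Ui * M σ₀ * U = _
    rw [Matrix.mul_assoc, hU, ← Matrix.mul_assoc, hUiU, Matrix.one_mul]
  have hNtr : ∀ σ, (N σ).trace = (M σ).trace := fun σ => by
    show (Ui * M σ * U).trace = _
    rw [Matrix.trace_mul_comm, ← Matrix.mul_assoc, hUUi, Matrix.one_mul]
  -- inertia, with its products and conjugates
  let I := {i : Γℚ // i ∈ P.inertiaSubgroupIn ℚ}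
  let cI : I → I := fun i => ⟨σ₀ * i.1 * σ₀⁻¹,
    Galois.conj_mem_inertia hσ₀.mem_decompositionSubgroup i.2⟩
  have hcI : ∀ i : I, N (cI i).1 * N σ₀ = N σ₀ * N i.1 := fun i => by
    rw [← map_mul, ← map_mul]
    congr 1
    simp [cI]
  have hrel : ∀ i : I, (q : Q2bar) * (N i.1 0 0 - 1) + (N i.1 1 1 - 1) = 0 := fun i => by
    have h := (htrM _ (isFrobeniusAt_mul_inertia hσ₀ i.2)).1
    rw [← hNtr, map_mul, hNσ, Matrix.trace_fin_two] at h
    simp [Matrix.diagonal_mul] at h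
    have h' : A * ((q : Q2bar) * (N i.1 0 0 - 1) + (N i.1 1 1 - 1)) = 0 := by linear_combination h
    exact (mul_eq_zero.1 h').resolve_left hA0
  have hcc : ∀ i : I, N (cI i).1 0 0 = N i.1 0 0 ∧ N (cI i).1 1 1 = N i.1 1 1 ∧
      N (cI i).1 0 1 = (q : Q2bar) * N i.1 0 1 ∧
      (q : Q2bar) * N (cI i).1 1 0 = N i.1 1 0 := fun i => by
    have h := hcI i
    rw [hNσ] at h
    have e00 := congrFun (congrFun h 0) 0
    have e01 := congrFun (congrFun h 0) 1
    have e10 := congrFun (congrFun h 1) 0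
    have e11 := congrFun (congrFun h 1) 1
    simp [Matrix.mul_diagonal, Matrix.diagonal_mul] at e00 e01 e10 e11
    refine ⟨mul_left_cancel₀ (mul_ne_zero hA0 hq0) ?_, mul_left_cancel₀ hA0 ?_,
      mul_left_cancel₀ hA0 ?_, mul_left_cancel₀ hA0 ?_⟩
    · linear_combination e00
    · linear_combination e11
    · linear_combination e01
    · linear_combination e10
  obtain ⟨hdiag, halt⟩ := upper_or_lower_of_relations (ι := I) (q : Q2bar) hq0 hq1 hqsq hqq
    (fun i => N i.1) (fun i j => ⟨i.1 * j.1, mul_mem i.2 j.2⟩) (fun i j => map_mul N i.1 j.1)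
    cI hcc hrel
  -- inertia is unipotent
  have hsq : ∀ i : I, (ρ i.1 - 1) * (ρ i.1 - 1) = 0 := fun i => by
    apply Matrix.map_injective he
    have h1 : (ρ i.1 - 1).map e = (U : Matrix (Fin 2) (Fin 2) Q2bar) * (N i.1 - 1) * Ui := by
      rw [Matrix.mul_sub, Matrix.sub_mul, ← hN, Matrix.mul_one, hUUi,
        Matrix.map_sub _ (map_sub e), Matrix.map_one _ (map_zero e) (map_one e)]
      rfl
    have h2 : (N i.1 - 1) * (N i.1 - 1) = 0 := by
      obtain ⟨d0, d1⟩ := hdiag i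
      rcases halt with h | h <;>
        (ext r s; fin_cases r <;> fin_cases s <;>
          simp [Matrix.mul_apply, Fin.sum_univ_two, d0, d1, h i])
    show ((ρ i.1 - 1) * (ρ i.1 - 1)).map e = (0 : Matrix (Fin 2) (Fin 2) Q2int).map e
    rw [Matrix.map_mul, h1, Matrix.map_zero _ (map_zero e)]
    calc (U : Matrix (Fin 2) (Fin 2) Q2bar) * (N i.1 - 1) * Ui *
        ((U : Matrix (Fin 2) (Fin 2) Q2bar) * (N i.1 - 1) * Ui)
        = (U : Matrix (Fin 2) (Fin 2) Q2bar) *
          ((N i.1 - 1) * (Ui * (U : Matrix (Fin 2) (Fin 2) Q2bar)) * (N i.1 - 1)) * Ui := by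
          simp only [Matrix.mul_assoc]
      _ = 0 := by rw [hUiU, Matrix.mul_one, h2, Matrix.mul_zero, Matrix.zero_mul]
  -- the lower case is excluded by the tame relation
  have hlow : ∀ i : I, N i.1 1 0 = 0 := by
    rcases halt with hup | hlo
    swap
    · exact hlo
    obtain ⟨τ, hτI, hτ⟩ := Galois.exists_generatesLayer hq hP
    let t : I := ⟨τ, hτI⟩
    -- exactly, conjugation by Frobenius divides `N - 1` by `q`
    have hexact : (q : Q2int) • (ρ (cI t).1 - 1) = ρ t.1 - 1 := by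
      apply Matrix.map_injective he
      obtain ⟨d0, d1⟩ := hdiag t
      obtain ⟨c0, c1⟩ := hdiag (cI t)
      have hn : (q : Q2bar) • (N (cI t).1 - 1) = N t.1 - 1 := by
        ext r s
        fin_cases r <;> fin_cases s <;> simp [d0, d1, c0, c1, hup t, hup (cI t), (hcc t).2.2.2]
      have hm : ∀ σ, (ρ σ - 1).map e = (U : Matrix (Fin 2) (Fin 2) Q2bar) * (N σ - 1) * Ui :=
        fun σ => by
          rw [Matrix.mul_sub, Matrix.sub_mul, ← hN, Matrix.mul_one, hUUi,
            Matrix.map_sub _ (map_sub e), Matrix.map_one _ (map_zero e) (map_one e)]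
          rfl
      show ((q : Q2int) • (ρ (cI t).1 - 1)).map e = (ρ t.1 - 1).map e
      rw [hm t.1, ← hn, Matrix.mul_smul, Matrix.smul_mul, ← hm]
      ext r s
      simp [e]
    -- the images modulo `2 ^ n`
    have hmod : ∀ (n : ℕ) (π : Q2int →+* Q2int ⧸ Ideal.span {(2 : Q2int) ^ n}),
        π = Ideal.Quotient.mk _ →
        (π.mapMatrix (ρ (cI t).1) - 1 = q • (π.mapMatrix (ρ τ) - 1)) ∧
          (π.mapMatrix (ρ τ) = 1 → ∀ i : I, π.mapMatrix (ρ i.1) = 1) := fun n π hπ => by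
      obtain ⟨L, hL, hLc⟩ := hcont n
      have h := tame_unipotent (π.mapMatrix.toMonoidHom.comp ρ) (n := n) hq hq2 hP
        (by rw [← map_natCast π, hπ, Ideal.Quotient.eq_zero_iff_mem,
              Ideal.mem_span_singleton]; push_cast; exact dvd_rfl)
        ⟨L, hL, fun g hg => by
          show π.mapMatrix (ρ g) = 1
          rw [← map_one π.mapMatrix, ← sub_eq_zero, ← map_sub]
          refine Matrix.ext fun r s => ?_
          rw [RingHom.mapMatrix_apply, Matrix.map_apply, hπ, Matrix.zero_apply]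
          exact Ideal.Quotient.eq_zero_iff_mem.2 (Ideal.mem_span_singleton.2 (hLc g hg r s))⟩
        (fun g hg => by
          show (π.mapMatrix (ρ g) - 1) * (π.mapMatrix (ρ g) - 1) = 0
          rw [← map_one π.mapMatrix, ← map_sub, ← map_mul, hsq ⟨g, hg⟩, map_zero])
        hσ₀ hτI (fun L' => hτ L')
      exact ⟨h.1, fun h1 i => h.2 h1 i.1 i.2⟩
    have hτ0 : ρ τ - 1 = 0 := by
      refine Matrix.ext fun r s => ?_
      have hz : ((1 - (q : Q2int) ^ 2) * (ρ τ - 1) r s) = 0 := by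
        refine eq_zero_of_forall_two_pow_dvd fun n => ?_
        rw [← Ideal.mem_span_singleton, ← Ideal.Quotient.eq_zero_iff_mem]
        have h1 := congrFun (congrFun (hmod n _ rfl).1 r) s
        have h2 := congrArg (Ideal.Quotient.mk (Ideal.span {(2 : Q2int) ^ n}))
          (congrFun (congrFun hexact r) s)
        rw [← map_one (Ideal.Quotient.mk (Ideal.span {(2 : Q2int) ^ n})).mapMatrix, ← map_sub,
          ← map_sub] at h1
        simp only [RingHom.mapMatrix_apply, Matrix.map_apply, Matrix.smul_apply, smul_eq_mul,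
          nsmul_eq_mul, map_mul, map_natCast] at h1 h2
        rw [h1] at h2
        rw [map_mul, map_sub, map_one, map_pow, map_natCast]
        linear_combination -h2
      refine (mul_eq_zero.1 hz).resolve_left fun h => hqsq ?_
      have := congrArg e h
      simp only [map_sub, map_one, map_pow, map_natCast, map_zero] at this
      exact (sub_eq_zero.1 this).symm
    intro i
    have hi0 : ρ i.1 - 1 = 0 := by
      refine Matrix.ext fun r s => ?_
      refine eq_zero_of_forall_two_pow_dvd fun n => ?_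
      rw [← Ideal.mem_span_singleton, ← Ideal.Quotient.eq_zero_iff_mem]
      have h := (hmod n _ rfl).2 (by rw [sub_eq_zero.1 hτ0, map_one]) i
      rw [← sub_eq_zero, ← map_one (Ideal.Quotient.mk (Ideal.span {(2 : Q2int) ^ n})).mapMatrix,
        ← map_sub] at h
      have h' := congrFun (congrFun h r) s
      exact h'
    show (Ui * (ρ i.1).map e * (U : Matrix (Fin 2) (Fin 2) Q2bar)) 1 0 = 0
    rw [sub_eq_zero.1 hi0, Matrix.map_one _ (map_zero e) (map_one e), Matrix.mul_one, hUiU]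
    simp
  -- the line of the first eigenvector
  set e0 : Fin 2 → Q2bar := (U : Matrix (Fin 2) (Fin 2) Q2bar) *ᵥ Pi.single 0 1 with he0
  have he0ne : e0 ≠ 0 := fun h => by
    have h' := congrArg (fun v => Ui *ᵥ v) h
    simp only [he0, Matrix.mulVec_mulVec, hUiU, Matrix.one_mulVec, Matrix.mulVec_zero] at h'
    simpa using congrFun h' 0
  obtain ⟨c, w, hc, hw, hcw⟩ := exists_primitive_vector e0 he0ne
  have hMe0 : ∀ σ (z : Q2bar), (N σ *ᵥ Pi.single 0 1 = z • Pi.single 0 1) → M σ *ᵥ e0 = z • e0 :=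
    fun σ z hz => by
      rw [he0, hN σ, Matrix.mulVec_mulVec, Matrix.mul_assoc, hUiU, Matrix.mul_one,
        ← Matrix.mulVec_mulVec, hz, Matrix.mulVec_smul]
  have hdown : ∀ σ (z : Q2int), M σ *ᵥ e0 = (z : Q2bar) • e0 → ρ σ *ᵥ w = z • w := fun σ z hz => by
    funext r
    refine he (mul_left_cancel₀ hc ?_)
    have h1 := congrFun hz r
    rw [RingHom.map_mulVec]
    simp only [Matrix.mulVec, dotProduct, Pi.smul_apply, smul_eq_mul, hcw, Fin.sum_univ_two] at h1 ⊢
    simp only [M, MonoidHom.comp_apply, RingHom.toMonoidHom_eq_coe, MonoidHom.coe_coe,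
      RingHom.mapMatrix_apply, Matrix.map_apply] at h1
    simp only [e, map_mul, Matrix.map_apply, Function.comp_apply, AlgHom.toRingHom_eq_coe,
      RingHom.coe_coe, Subalgebra.coe_val] at h1 ⊢
    linear_combination h1
  have hIline : ∀ i : I, ρ i.1 *ᵥ w = w := fun i => by
    have h := hdown i.1 1 (hMe0 i.1 _ (funext fun r => by
      obtain ⟨d0, -⟩ := hdiag i
      fin_cases r <;> simp [Matrix.mulVec_single, d0, hlow i]))
    rwa [one_smul] at h
  refine ⟨w, hw, fun σ hσ => ⟨1, by rw [hIline ⟨σ, hσ⟩, one_smul], he ?_⟩, fun σ hσ => ?_⟩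
  · rw [AddMonoidHom.map_trace]
    show (M σ).trace = e (1 + 1)
    obtain ⟨d0, d1⟩ := hdiag ⟨σ, hσ⟩
    rw [← hNtr, Matrix.trace_fin_two, d0, d1, map_add, map_one]
  · obtain ⟨i, hiI, rfl⟩ : ∃ i ∈ P.inertiaSubgroupIn ℚ, σ = σ₀ * i :=
      ⟨σ₀⁻¹ * σ, frob_inv_mul_mem_inertia hσ hσ₀, (mul_inv_cancel_left _ _).symm⟩
    refine ⟨a * q, ?_, ?_⟩
    · have h0 := hdown σ₀ (a * q) (hMe0 σ₀ _ (funext fun r => by
        rw [hNσ]
        fin_cases r <;> simp [Matrix.mulVec_diagonal, hAdef]))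
      rw [map_mul, ← Matrix.mulVec_mulVec, hIline ⟨i, hiI⟩, h0]
    · rw [(hfrob _ hσ).1]
      ring

end Fermat.Agent.Residual

end
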