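/-
Residual modularity at three: lines at a place descend to the ring of traces.
-/
import Fermat.Agent.Residual.PatternLine
import Fermat.Agent.Galois.TamePlace
import Fermat.Agent.Galois.Frobenius

set_option autoImplicit false

noncomputable section

namespace Fermat.Agent.Residual

local notation "Qbar" => AlgebraicClosure ℚ
local notation "Γℚ" => (AlgebraicClosure ℚ ≃ₐ[ℚ] AlgebraicClosure ℚ)

open scoped Matrix

namespace PatternLocal

variable {R : Type*} [CommRing R]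

/-- A vector with a unit coordinate is the first column of an invertible matrix. -/
theorem exists_gl_first_col (v : Fin 2 → R) (hv : ∃ i, IsUnit (v i)) :
    ∃ h : GL (Fin 2) R, (h : Matrix (Fin 2) (Fin 2) R) *ᵥ Pi.single 0 1 = v := by
  obtain ⟨i, hi⟩ := hv
  fin_cases i
  · have hdet : IsUnit (!![v 0, 0; v 1, 1] : Matrix (Fin 2) (Fin 2) R).det := by
      simpa [Matrix.det_fin_two] using hi
    refine ⟨((Matrix.isUnit_iff_isUnit_det _).2 hdet).unit, ?_⟩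
    rw [IsUnit.unit_spec]
    funext k
    fin_cases k <;> simp
  · have hdet : IsUnit (!![v 0, 1; v 1, 0] : Matrix (Fin 2) (Fin 2) R).det := by
      simpa [Matrix.det_fin_two] using hi
    refine ⟨((Matrix.isUnit_iff_isUnit_det _).2 hdet).unit, ?_⟩
    rw [IsUnit.unit_spec]
    funext k
    fin_cases k <;> simp

/-- In a basis starting with an eigenvector, a matrix is upper triangular. -/
theorem upper_of_eigen (h : GL (Fin 2) R) {v : Fin 2 → R}
    (hv : (h : Matrix (Fin 2) (Fin 2) R) *ᵥ Pi.single 0 1 = v)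
    {X : Matrix (Fin 2) (Fin 2) R} {c b : R} (hX : X *ᵥ v = c • v) (ht : X.trace = c + b) :
    ((h⁻¹ : GL (Fin 2) R) : Matrix (Fin 2) (Fin 2) R) * X * (h : Matrix (Fin 2) (Fin 2) R)
      = !![c, (((h⁻¹ : GL (Fin 2) R) : Matrix (Fin 2) (Fin 2) R) * X *
          (h : Matrix (Fin 2) (Fin 2) R)) 0 1; 0, b] := by
  set Y := ((h⁻¹ : GL (Fin 2) R) : Matrix (Fin 2) (Fin 2) R) * X *
    (h : Matrix (Fin 2) (Fin 2) R) with hY
  have h1 : Y *ᵥ Pi.single 0 1 = c • Pi.single 0 1 := by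
    rw [hY, ← Matrix.mulVec_mulVec, hv, ← Matrix.mulVec_mulVec, hX, Matrix.mulVec_smul, ← hv,
      Matrix.mulVec_mulVec, Units.inv_mul, Matrix.one_mulVec]
  have h00 : Y 0 0 = c := by simpa using congrFun h1 0
  have h10 : Y 1 0 = 0 := by simpa using congrFun h1 1
  have htr : Y.trace = c + b := by rw [hY, Matrix.trace_units_conj', ht]
  have h11 : Y 1 1 = b := by
    rw [Matrix.trace_fin_two, h00] at htr
    exact add_left_cancel htr
  ext k l
  fin_cases k <;> fin_cases l <;> simp [h00, h10, h11]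

/-- The image of `X - b` lies in the line of the eigenvector. -/
theorem exists_col_eq_smul {v : Fin 2 → R} (hv : ∃ i, IsUnit (v i))
    {X : Matrix (Fin 2) (Fin 2) R} {c b : R} (hX : X *ᵥ v = c • v) (ht : X.trace = c + b)
    (w : Fin 2 → R) : ∃ s : R, (X - b • 1) *ᵥ w = s • v := by
  obtain ⟨h, hh⟩ := exists_gl_first_col v hv
  have hY := upper_of_eigen h hh hX ht
  set Y := ((h⁻¹ : GL (Fin 2) R) : Matrix (Fin 2) (Fin 2) R) * X *
    (h : Matrix (Fin 2) (Fin 2) R)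
  have hXY : X - b • 1 = (h : Matrix (Fin 2) (Fin 2) R) * (Y - b • 1) *
      ((h⁻¹ : GL (Fin 2) R) : Matrix (Fin 2) (Fin 2) R) := by
    simp only [Y, Matrix.mul_sub, Matrix.sub_mul, ← Matrix.mul_assoc, Units.mul_inv, Matrix.one_mul,
      Matrix.mul_smul, Matrix.mul_one, Matrix.smul_mul]
    rw [Matrix.mul_assoc X, Units.mul_inv, Matrix.mul_one]
  set z := (Y - b • 1) *ᵥ (((h⁻¹ : GL (Fin 2) R) : Matrix (Fin 2) (Fin 2) R) *ᵥ w) with hz
  have hz1 : z 1 = 0 := by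
    rw [hz, hY]
    simp [Matrix.mulVec, dotProduct]
  refine ⟨z 0, ?_⟩
  have hz0 : z = z 0 • Pi.single 0 1 := by
    funext k
    fin_cases k <;> simp [hz1]
  rw [hXY, ← Matrix.mulVec_mulVec, ← Matrix.mulVec_mulVec, ← hz, hz0, Matrix.mulVec_smul, hh]
  simp

end PatternLocal

open PatternLocal

/-- A representation over a local ring which has a line with unramified quotient in each of
jointly injective specialisations has one itself, as soon as some inertia or Frobenius element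
differs residually from its value on the quotient. -/
theorem exists_gl_of_lines {A : Type*} [CommRing A] [IsLocalRing A] {ι : Type*} {R : ι → Type*}
    [∀ i, CommRing (R i)] [∀ i, IsLocalRing (R i)] (φ : ∀ i, A →+* R i)
    (hinj : ∀ x, (∀ i, φ i x = 0) → x = 0) (r : Γℚ →* GL (Fin 2) A)
    (hcont : ∃ L : IntermediateField ℚ Qbar, FiniteDimensional ℚ L ∧
      ∀ σ ∈ L.fixingSubgroup, r σ = 1)
    {p : ℕ} (hp : p.Prime) {P : ValuationSubring Qbar} (hP : P.LiesOverPrime p)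
    {a : A} (ha : a = 1 ∨ a = -1)
    (hlines : ∀ i, IsLineAt ((φ i).mapMatrix.toMonoidHom.comp
      ((Units.coeHom (Matrix (Fin 2) (Fin 2) A)).comp r)) P p (φ i a))
    (hne : ∃ σ : Γℚ,
      (σ ∈ P.inertiaSubgroupIn ℚ ∧
        ∃ i j, IsUnit (((r σ : Matrix (Fin 2) (Fin 2) A) - 1) i j)) ∨
      (P.IsFrobeniusAt σ p ∧
        ∃ i j, IsUnit (((r σ : Matrix (Fin 2) (Fin 2) A) - a • 1) i j))) :
    ∃ g : GL (Fin 2) A, ∀ σ ∈ P.decompositionSubgroup ℚ,
      ((g * r σ * g⁻¹ : GL (Fin 2) A) : Matrix (Fin 2) (Fin 2) A) 1 0 = 0 ∧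
      (((g * r σ * g⁻¹ : GL (Fin 2) A) : Matrix (Fin 2) (Fin 2) A) 1 1 = 1 ∨
        ((g * r σ * g⁻¹ : GL (Fin 2) A) : Matrix (Fin 2) (Fin 2) A) 1 1 = -1) ∧
      (σ ∈ P.inertiaSubgroupIn ℚ →
        ((g * r σ * g⁻¹ : GL (Fin 2) A) : Matrix (Fin 2) (Fin 2) A) 1 1 = 1) ∧
      (P.IsFrobeniusAt σ p →
        ((g * r σ * g⁻¹ : GL (Fin 2) A) : Matrix (Fin 2) (Fin 2) A) 1 1 = a) := by
  classical
  obtain ⟨σ₀, hσ₀⟩ := hne
  -- the special element and its value on the quotient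
  obtain ⟨b, k, j, hkj, hb⟩ : ∃ (b : A) (k j : Fin 2),
      IsUnit (((r σ₀ : Matrix (Fin 2) (Fin 2) A) - b • 1) k j) ∧
      ∀ i, ∀ v : Fin 2 → R i,
        ((∀ σ ∈ P.inertiaSubgroupIn ℚ, ∃ c : R i,
          (φ i).mapMatrix (r σ : Matrix (Fin 2) (Fin 2) A) *ᵥ v = c • v ∧
            ((φ i).mapMatrix (r σ : Matrix (Fin 2) (Fin 2) A)).trace = c + 1) ∧
        ∀ σ : Γℚ, P.IsFrobeniusAt σ p → ∃ c : R i,
          (φ i).mapMatrix (r σ : Matrix (Fin 2) (Fin 2) A) *ᵥ v = c • v ∧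
            ((φ i).mapMatrix (r σ : Matrix (Fin 2) (Fin 2) A)).trace = c + φ i a) →
        ∃ c : R i, (φ i).mapMatrix (r σ₀ : Matrix (Fin 2) (Fin 2) A) *ᵥ v = c • v ∧
          ((φ i).mapMatrix (r σ₀ : Matrix (Fin 2) (Fin 2) A)).trace = c + φ i b := by
    rcases hσ₀ with ⟨hI, k, j, hkj⟩ | ⟨hF, k, j, hkj⟩
    · refine ⟨1, k, j, by rwa [one_smul], fun i v hv => ?_⟩
      simpa using hv.1 σ₀ hI
    · exact ⟨a, k, j, hkj, fun i v hv => hv.2 σ₀ hF⟩
  set u : Fin 2 → A := ((r σ₀ : Matrix (Fin 2) (Fin 2) A) - b • 1) *ᵥ Pi.single j 1 with hu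
  have huk : IsUnit (u k) := by simpa [hu] using hkj
  obtain ⟨h, hh⟩ := exists_gl_first_col u ⟨k, huk⟩
  -- upper triangularity on inertia and on Frobenius elements
  have main : ∀ (σ : Γℚ) (e : A),
      (∀ i, ∀ v : Fin 2 → R i,
        ((∀ σ ∈ P.inertiaSubgroupIn ℚ, ∃ c : R i,
          (φ i).mapMatrix (r σ : Matrix (Fin 2) (Fin 2) A) *ᵥ v = c • v ∧
            ((φ i).mapMatrix (r σ : Matrix (Fin 2) (Fin 2) A)).trace = c + 1) ∧
        ∀ σ : Γℚ, P.IsFrobeniusAt σ p → ∃ c : R i,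
          (φ i).mapMatrix (r σ : Matrix (Fin 2) (Fin 2) A) *ᵥ v = c • v ∧
            ((φ i).mapMatrix (r σ : Matrix (Fin 2) (Fin 2) A)).trace = c + φ i a) →
        ∃ c : R i, (φ i).mapMatrix (r σ : Matrix (Fin 2) (Fin 2) A) *ᵥ v = c • v ∧
          ((φ i).mapMatrix (r σ : Matrix (Fin 2) (Fin 2) A)).trace = c + φ i e) →
      ((h⁻¹ * r σ * h : GL (Fin 2) A) : Matrix (Fin 2) (Fin 2) A) 1 0 = 0 ∧
      ((h⁻¹ * r σ * h : GL (Fin 2) A) : Matrix (Fin 2) (Fin 2) A) 1 1 = e := by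
    intro σ e hσ
    have key : ∀ i, φ i (((h⁻¹ * r σ * h : GL (Fin 2) A) : Matrix (Fin 2) (Fin 2) A) 1 0) = 0 ∧
        φ i (((h⁻¹ * r σ * h : GL (Fin 2) A) : Matrix (Fin 2) (Fin 2) A) 1 1) = φ i e := by
      intro i
      obtain ⟨v, hv, hI, hF⟩ := hlines i
      obtain ⟨c₀, hc₀, ht₀⟩ := hb i v ⟨hI, hF⟩
      obtain ⟨s, hs⟩ := exists_col_eq_smul hv hc₀ ht₀ (Pi.single j 1)
      have hφu : (φ i : A → R i) ∘ u = s • v := by
        rw [← hs, hu]
        funext l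
        by_cases hlj : l = j <;> simp [RingHom.mapMatrix_apply, hlj]
      have hsu : IsUnit s := by
        have h1 : IsUnit ((s • v) k) := by rw [← hφu]; exact huk.map (φ i)
        exact isUnit_of_mul_isUnit_left h1
      obtain ⟨c, hc, htc⟩ := hσ i v ⟨hI, hF⟩
      have hcu : (φ i).mapMatrix (r σ : Matrix (Fin 2) (Fin 2) A) *ᵥ ((φ i : A → R i) ∘ u) =
          c • ((φ i : A → R i) ∘ u) := by
        rw [hφu, Matrix.mulVec_smul, hc, smul_comm]
      set hR : GL (Fin 2) (R i) := Matrix.GeneralLinearGroup.map (φ i) h with hhR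
      have hhR0 : (hR : Matrix (Fin 2) (Fin 2) (R i)) *ᵥ Pi.single 0 1 = (φ i : A → R i) ∘ u := by
        funext l
        rw [Function.comp_apply, ← hh]
        simp [hhR]
      have hY := upper_of_eigen hR hhR0 hcu htc
      have hconj : ∀ l m, φ i (((h⁻¹ * r σ * h : GL (Fin 2) A) : Matrix (Fin 2) (Fin 2) A) l m) =
          (((hR⁻¹ : GL (Fin 2) (R i)) : Matrix (Fin 2) (Fin 2) (R i)) *
            (φ i).mapMatrix (r σ : Matrix (Fin 2) (Fin 2) A) *
            (hR : Matrix (Fin 2) (Fin 2) (R i))) l m := by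
        intro l m
        have e1 : Matrix.GeneralLinearGroup.map (φ i) (h⁻¹ * r σ * h) =
            hR⁻¹ * Matrix.GeneralLinearGroup.map (φ i) (r σ) * hR := by
          rw [map_mul, map_mul, map_inv]
        have e2 := congrArg Units.val e1
        rw [Units.val_mul, Units.val_mul, Matrix.GeneralLinearGroup.map,
          Units.coe_map, Units.coe_map] at e2
        exact congrFun (congrFun e2 l) m
      refine ⟨?_, ?_⟩
      · rw [hconj, hY]; simp
      · rw [hconj, hY]; simp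
    refine ⟨hinj _ fun i => (key i).1, sub_eq_zero.1 (hinj _ fun i => ?_)⟩
    rw [map_sub, (key i).2, sub_self]
  have hI : ∀ σ ∈ P.inertiaSubgroupIn ℚ,
      ((h⁻¹ * r σ * h : GL (Fin 2) A) : Matrix (Fin 2) (Fin 2) A) 1 0 = 0 ∧
      ((h⁻¹ * r σ * h : GL (Fin 2) A) : Matrix (Fin 2) (Fin 2) A) 1 1 = 1 := fun σ hσ =>
    main σ 1 fun i v hv => by simpa using hv.1 σ hσ
  have hF : ∀ σ : Γℚ, P.IsFrobeniusAt σ p →
      ((h⁻¹ * r σ * h : GL (Fin 2) A) : Matrix (Fin 2) (Fin 2) A) 1 0 = 0 ∧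
      ((h⁻¹ * r σ * h : GL (Fin 2) A) : Matrix (Fin 2) (Fin 2) A) 1 1 = a := fun σ hσ =>
    main σ a fun i v hv => hv.2 σ hσ
  refine ⟨h⁻¹, fun σ hσ => ?_⟩
  rw [inv_inv]
  obtain ⟨φ₀, hφ₀⟩ := Galois.exists_isFrobeniusAt hp hP
  obtain ⟨L₀, hL₀, hfix⟩ := hcont
  let L : IntermediateField ℚ Qbar := IntermediateField.normalClosure ℚ L₀ Qbar
  have : IsGalois ℚ L := IsGalois.normalClosure ℚ _ _
  obtain ⟨n, i, hi, hni⟩ := Galois.exists_decomposition_eq (L := L) hp hP hφ₀ hσ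
  have hr : r σ = r φ₀ ^ n * r i := by
    have h1 : r ((φ₀ ^ n * i)⁻¹ * σ) = 1 := by
      refine hfix _ ((IntermediateField.mem_fixingSubgroup_iff _ _).2 fun x hx => ?_)
      rw [AlgEquiv.mul_apply, hni x (IntermediateField.le_normalClosure L₀ hx)]
      exact (φ₀ ^ n * i).symm_apply_apply x
    rw [map_mul, map_inv, inv_mul_eq_one, map_mul, map_pow] at h1
    exact h1.symm
  have hc : h⁻¹ * r σ * h = (h⁻¹ * r φ₀ * h) ^ n * (h⁻¹ * r i * h) := by
    have hp' : (h⁻¹ * r φ₀ * h) ^ n = h⁻¹ * r φ₀ ^ n * h := by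
      simpa only [inv_inv] using conj_pow (i := n) (a := h⁻¹) (b := r φ₀)
    rw [hp', hr]
    group
  obtain ⟨hF0, hF1⟩ := hF φ₀ hφ₀
  obtain ⟨hI0, hI1⟩ := hI i hi
  have hpow : ∀ m : ℕ,
      (((h⁻¹ * r φ₀ * h : GL (Fin 2) A) : Matrix (Fin 2) (Fin 2) A) ^ m) 1 0 = 0 ∧
      (((h⁻¹ * r φ₀ * h : GL (Fin 2) A) : Matrix (Fin 2) (Fin 2) A) ^ m) 1 1 = a ^ m := by
    intro m
    induction m with
    | zero => simp
    | succ m ih =>
      rw [pow_succ, Matrix.mul_apply, Fin.sum_univ_two, Matrix.mul_apply, Fin.sum_univ_two, ih.1,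
        ih.2, hF0, hF1, pow_succ]
      simp
  obtain ⟨hp0, hp1⟩ := hpow n
  have h10 : ((h⁻¹ * r σ * h : GL (Fin 2) A) : Matrix (Fin 2) (Fin 2) A) 1 0 = 0 := by
    rw [hc, Units.val_mul, Units.val_pow_eq_pow_val, Matrix.mul_apply, Fin.sum_univ_two, hp0, hI0]
    simp
  have h11 : ((h⁻¹ * r σ * h : GL (Fin 2) A) : Matrix (Fin 2) (Fin 2) A) 1 1 = a ^ n := by
    rw [hc, Units.val_mul, Units.val_pow_eq_pow_val, Matrix.mul_apply, Fin.sum_univ_two, hp0, hp1,
      hI1]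
    simp
  refine ⟨h10, ?_, fun hσI => (hI σ hσI).2, fun hσF => (hF σ hσF).2⟩
  rw [h11]
  rcases ha with rfl | rfl
  · exact Or.inl (one_pow n)
  · exact neg_one_pow_eq_or A n

end Fermat.Agent.Residual

end
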