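/-
Residual modularity at three: the two-adic representation of one form of a pattern.
-/
import Fermat.Agent.Residual.PatternLine
import Fermat.Agent.Residual.LiftSubring
import Fermat.Agent.NewformRep.Approx
import Fermat.Agent.GaloisAdic.Inputs
import Fermat.Agent.Density.Main
import Fermat.Agent.Integral.Main
import Fermat.Agent.RepLemmas.Carayol

set_option autoImplicit false

noncomputable section

open scoped Matrix
open Polynomial

namespace Fermat.Agent.Residual

open GaloisAdic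

local notation "Qbar" => AlgebraicClosure ℚ
local notation "Γℚ" => (AlgebraicClosure ℚ ≃ₐ[ℚ] AlgebraicClosure ℚ)

variable {D : Datum} {Q : Finset ℕ} {ε : ℕ → ℤ}

/-- The residue field of `Q2int`. -/
abbrev Q2res : Type := IsLocalRing.ResidueField Q2int

/-- The residual datum with coefficients in the residue field of `Q2int`. -/
def rhobarRes (D : Datum) (φ : ZMod 2 →+* Q2res) : Γℚ →* Matrix (Fin 2) (Fin 2) Q2res :=
  φ.mapMatrix.toMonoidHom.comp
    ((Units.coeHom (Matrix (Fin 2) (Fin 2) (ZMod 2))).comp D.ρbar)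

instance : CharP Q2res 2 := by
  refine (CharP.charP_iff_prime_eq_zero Nat.prime_two).2 ?_
  rw [← map_natCast (IsLocalRing.residue Q2int), IsLocalRing.residue_eq_zero_iff, Nat.cast_ofNat]
  exact two_mem_maximalIdeal_Q2int

/-- The prime field inside the residue field of `Q2int`. -/
def zmodRes : ZMod 2 →+* Q2res := ZMod.castHom (dvd_refl 2) Q2res

theorem zmodRes_val (a : ZMod 2) : zmodRes a = IsLocalRing.residue Q2int (a.val : Q2int) := by
  rw [map_natCast, ← map_natCast zmodRes, ZMod.natCast_zmod_val]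

/-- Powers of matrices with equal trace and determinant have equal trace. -/
theorem trace_pow_eq {R : Type*} [CommRing R] {X Y : Matrix (Fin 2) (Fin 2) R}
    (ht : X.trace = Y.trace) (hd : X.det = Y.det) (j : ℕ) : (X ^ j).trace = (Y ^ j).trace := by
  have h2 : ∀ Z : Matrix (Fin 2) (Fin 2) R, Z * Z = Z.trace • Z - Z.det • 1 := fun Z => by
    ext r s
    fin_cases r <;> fin_cases s <;>
      simp [Matrix.mul_apply, Matrix.trace_fin_two, Matrix.det_fin_two] <;> ring
  have step : ∀ (Z : Matrix (Fin 2) (Fin 2) R) (i : ℕ),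
      (Z ^ (i + 2)).trace = Z.trace * (Z ^ (i + 1)).trace - Z.det * (Z ^ i).trace := fun Z i => by
    rw [pow_add, pow_two, h2, mul_sub, mul_smul_comm, mul_smul_comm, mul_one, ← pow_succ,
      Matrix.trace_sub, Matrix.trace_smul, Matrix.trace_smul, smul_eq_mul, smul_eq_mul]
  induction j using Nat.twoStepInduction with
  | zero => simp
  | one => simpa using ht
  | more i ih ih' => rw [step, step, ih, ih', ht, hd]

/-- Two homomorphisms out of `ℤ₂` into `Q2int` agree. -/
theorem padicHom_eq (φ : ℤ_[2] →+* Q2int) (x : ℤ_[2]) : φ x = algebraMap ℤ_[2] Q2int x := by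
  refine sub_eq_zero.1 (eq_zero_of_forall_two_pow_dvd fun n => ?_)
  obtain ⟨k, hk⟩ := ZMod.intCast_surjective (PadicInt.toZModPow n x)
  have h : x - (k : ℤ_[2]) ∈ RingHom.ker (PadicInt.toZModPow (p := 2) n) := by
    rw [RingHom.mem_ker, map_sub, map_intCast, hk, sub_self]
  rw [PadicInt.ker_toZModPow, Ideal.mem_span_singleton] at h
  obtain ⟨t, ht⟩ := h
  have hx : x = (k : ℤ_[2]) + 2 ^ n * t := by
    rw [show ((2 : ℕ) : ℤ_[2]) = 2 from Nat.cast_ofNat] at ht
    linear_combination ht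
  refine ⟨φ t - algebraMap ℤ_[2] Q2int t, ?_⟩
  rw [hx, map_add, map_add, map_mul, map_mul, map_pow, map_pow, map_intCast, map_intCast,
    map_ofNat, map_ofNat]
  ring

/-- The data of the representation of one pattern form, together with its origin in `J₀`. -/
structure FormSource (D : Datum) (Q : Finset ℕ) (ε : ℕ → ℤ) [NeZero (D.auxLevel Q)]
    (f : patternForms D Q ε) {O : Type} [CommRing O] [IsDomain O] [IsDiscreteValuationRing O]
    [IsAdicComplete (IsLocalRing.maximalIdeal O) O] (e : O →+* Q2int)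
    (F : TorsionFrame (D.auxLevel Q) 2) (hp : ((2 : ℕ) : O) ∈ IsLocalRing.maximalIdeal O)
    (χ : CuspForm.heckeAlgebra (D.auxLevel Q) 2 (∅ : Set ℕ) →+* O) (ρ : GaloisRepAdic O) :
    Prop where
  injective : Function.Injective e
  isLocalHom : IsLocalHom e
  pow_mem : ∀ n : ℕ, ∃ m : ℕ, ∀ x ∈ IsLocalRing.maximalIdeal O ^ m, (2 : Q2int) ^ n ∣ e x
  eigen : ∀ t, e (χ t) = patternHom D Q ε t f
  charpoly : ∀ (ℓ : ℕ) (hℓ : ℓ.Prime) (h : ¬ ℓ ∣ D.auxLevel Q),
    ∀ A : ValuationSubring Qbar, A.LiesOverPrime ℓ → ∀ σ : Γℚ, A.IsFrobeniusAt σ ℓ →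
      LinearMap.charpoly (ρ.ρ σ) =
        X ^ 2 - C (χ (CuspForm.heckeAlgebra.T hℓ h (Set.notMem_empty ℓ))) * X + C ((ℓ : O))
  unram : ∀ q : ℕ, q.Prime → ¬ q ∣ D.auxLevel Q → ρ.IsUnramifiedAt q
  det_eq : ∀ σ, LinearMap.det (ρ.ρ σ) = padicIntHom O hp (padicCyclo 2 σ)
  residual : ∀ σ, IsLocalRing.residue Q2int (e (NewformRep.repMatrix ρ σ).trace) =
    zmodRes ((D.ρbar σ : Matrix (Fin 2) (Fin 2) (ZMod 2))).trace
  constituent : IsConstituent F hp χ ρ

/-- The congruence of a pattern form with the datum, on the residual traces at Frobenius. -/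
theorem residue_patternGen {ℓ : ℕ} (hℓ : ℓ.Prime) (h : ¬ ℓ ∣ D.auxLevel Q)
    (f : patternForms D Q ε) {A : ValuationSubring Qbar} (hA : A.LiesOverPrime ℓ) {τ : Γℚ}
    (hτ : A.IsFrobeniusAt τ ℓ) :
    IsLocalRing.residue Q2int (patternGen D Q ε ℓ f) =
      zmodRes ((D.ρbar τ : Matrix (Fin 2) (Fin 2) (ZMod 2))).trace := by
  have hcl := (f.2.1.2 ℓ hℓ (not_dvd_two_mul hℓ (two_dvd_auxLevel D Q) h)).2 A hA τ hτ
  have h0 := (IsLocalRing.residue_eq_zero_iff _).2 (twoMax_le_maximalIdeal hcl)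
  rw [map_sub, sub_eq_zero] at h0
  rw [zmodRes_val]
  exact h0

theorem det_rhobar (D : Datum) (σ : Γℚ) :
    ((D.ρbar σ : Matrix (Fin 2) (Fin 2) (ZMod 2))).det = 1 := by
  have h := (Matrix.isUnit_iff_isUnit_det _).1 (D.ρbar σ).isUnit
  generalize ((D.ρbar σ : Matrix (Fin 2) (Fin 2) (ZMod 2))).det = d at h
  revert d
  decide

/-- The residual representations spans the matrix algebra over the residue field. -/
theorem span_rhobarRes (D : Datum) :
    Submodule.span Q2res (Set.range (rhobarRes D zmodRes)) = ⊤ :=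
  RepLemmas.map_span_eq_top zmodRes
    (fun σ => (D.ρbar σ : Matrix (Fin 2) (Fin 2) (ZMod 2)))
    (LiftSubring.span_range_eq_top _ D.surj)

theorem exists_formSource (hQ : IsAuxSet D Q) [NeZero (D.auxLevel Q)] (f : patternForms D Q ε) :
    ∃ (O : Type) (_ : CommRing O) (_ : IsDomain O) (_ : IsDiscreteValuationRing O)
      (_ : IsAdicComplete (IsLocalRing.maximalIdeal O) O) (_ : CharZero O) (e : O →+* Q2int)
      (F : TorsionFrame (D.auxLevel Q) 2) (hp : ((2 : ℕ) : O) ∈ IsLocalRing.maximalIdeal O)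
      (χ : CuspForm.heckeAlgebra (D.auxLevel Q) 2 (∅ : Set ℕ) →+* O) (ρ : GaloisRepAdic O),
      FormSource D Q ε f e F hp χ ρ := by
  classical
  let T := CuspForm.heckeAlgebra (D.auxLevel Q) 2 (∅ : Set ℕ)
  let g : T →+* Q2int := (Pi.evalRingHom (fun _ => Q2int) f).comp (patternHom D Q ε)
  have := Integral.moduleFinite_heckeAlgebra (D.auxLevel Q) 2 (∅ : Set ℕ)
  obtain ⟨s, hs⟩ := Module.Finite.fg_top (R := ℤ) (M := T)
  let K : IntermediateField ℚ_[2] Q2bar :=
    IntermediateField.adjoin ℚ_[2] ((s.image fun t => (g t : Q2bar) : Finset Q2bar) : Set Q2bar)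
  have : FiniteDimensional ℚ_[2] K :=
    IntermediateField.finiteDimensional_adjoin fun x _ => Algebra.IsIntegral.isIntegral x
  have hgK : ∀ t, (g t : Q2bar) ∈ K := fun t => by
    have ht : t ∈ Submodule.span ℤ (s : Set T) := hs ▸ Submodule.mem_top
    induction ht using Submodule.span_induction with
    | mem x hx =>
      exact IntermediateField.subset_adjoin _ _ (Finset.mem_coe.2 (Finset.mem_image_of_mem _ hx))
    | zero => simp
    | add x y _ _ hx hy => rw [map_add]; exact add_mem hx hy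
    | smul a x _ hx =>
      rw [map_zsmul]
      exact zsmul_mem hx a
  obtain ⟨hdvr, hfin, hloc, hinj, -, hcomp, hres⟩ :=
    RepLemmas.integralClosure_isDVR ℤ_[2] ℚ_[2] K
  let O' := integralClosure ℤ_[2] K
  have : Finite (IsLocalRing.ResidueField ℤ_[2]) :=
    Finite.of_equiv _ (PadicInt.residueField (p := 2)).symm.toEquiv
  have : Finite (IsLocalRing.ResidueField O') := hres inferInstance
  have : CharZero O' := charZero_of_injective_ringHom (f := algebraMap ℤ_[2] O') hinj
  have hincl : Function.Injective (subIntHom K) := fun x y h =>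
    Subtype.ext (Subtype.ext (congrArg (fun z : Q2int => (z : Q2bar)) h :))
  let χ' : T →+* O' :=
    { toFun := fun t => ⟨⟨g t, hgK t⟩, (isIntegral_sub_iff K _).2 (g t).2⟩
      map_one' := hincl (Subtype.ext (by rw [map_one (subIntHom K)]; simp [coe_subIntHom]))
      map_mul' := fun x y => hincl (Subtype.ext (by rw [map_mul (subIntHom K)]; simp [coe_subIntHom]))
      map_zero' := hincl (Subtype.ext (by rw [map_zero (subIntHom K)]; simp [coe_subIntHom]))
      map_add' := fun x y =>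
        hincl (Subtype.ext (by rw [map_add (subIntHom K)]; simp [coe_subIntHom])) }
  have hχ' : ∀ t, subIntHom K (χ' t) = g t := fun t => Subtype.ext rfl
  have hp' : ((2 : ℕ) : O') ∈ IsLocalRing.maximalIdeal O' := by
    have h2 : ((2 : ℕ) : ℤ_[2]) ∈ IsLocalRing.maximalIdeal ℤ_[2] := by
      rw [PadicInt.maximalIdeal_eq_span_p]
      exact Ideal.mem_span_singleton_self _
    have h := map_nonunit (algebraMap ℤ_[2] O') _ h2
    rwa [map_natCast] at h
  obtain ⟨F⟩ := nonempty_torsionFrame (D.auxLevel Q) 2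
  obtain ⟨O, i1, i2, i3, i4, i5, i6, i7, i8, i9, hinjO, hp, ρ, hchar, hunr, hdet, halt⟩ :=
    exists_galoisRepAdic F (torsionFacts (D.auxLevel Q) 2) (∅ : Set ℕ) ∅
      (fun _ _ h => h.elim) O' hp' χ'
  -- the embedding
  have : IsScalarTower ℤ_[2] O' Q2bar :=
    IsScalarTower.of_algebraMap_eq fun x => ((Q2int.val.comp (subIntHom K)).commutes x).symm
  have hfsO : FaithfulSMul O' O := (faithfulSMul_iff_algebraMap_injective O' O).2 hinjO
  have hfsQ : FaithfulSMul O' Q2bar := (faithfulSMul_iff_algebraMap_injective O' Q2bar).2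
    fun x y h => hincl (Subtype.ext h)
  have : Algebra.IsIntegral O' O := Algebra.IsIntegral.of_finite O' O
  have : Algebra.IsAlgebraic O' O := Algebra.IsIntegral.isAlgebraic
  let j : O →ₐ[O'] Q2bar := IsAlgClosed.lift
  have hjmem : ∀ x, j x ∈ Q2int := fun x => by
    have h1 : IsIntegral O' (j x) := (Algebra.IsIntegral.isIntegral x).map j
    exact isIntegral_trans (R := ℤ_[2]) (A := O') (j x) h1
  let e : O →+* Q2int := j.toRingHom.codRestrict Q2int.toSubring hjmem
  have he : ∀ x : O', e (algebraMap O' O x) = subIntHom K x := fun x =>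
    Subtype.ext (j.commutes x)
  have heinj : Function.Injective e := by
    rw [RingHom.injective_iff_ker_eq_bot]
    refine Ideal.eq_bot_of_comap_eq_bot (R := O') ?_
    rw [eq_bot_iff]
    intro x hx
    rw [Ideal.mem_comap, RingHom.mem_ker, he] at hx
    exact Ideal.mem_bot.2 (hincl (hx.trans (map_zero (subIntHom K)).symm))
  let a : ℤ_[2] →+* O := (algebraMap O' O).comp (algebraMap ℤ_[2] O')
  have hea : e.comp a = algebraMap ℤ_[2] Q2int := RingHom.ext fun x => padicHom_eq _ x
  have heloc : IsLocalHom e := by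
    have hint : (e.comp a).IsIntegral := by
      rw [hea]
      exact fun y => IsIntegralClosure.isIntegral ℤ_[2] Q2bar y
    exact (RingHom.IsIntegral.tower_top a e hint).isLocalHom heinj
  have hpow : ∀ n : ℕ, ∃ m : ℕ, ∀ x ∈ IsLocalRing.maximalIdeal O ^ m,
      (2 : Q2int) ^ n ∣ e x := by
    intro n
    obtain ⟨ϖ, hϖ⟩ := IsDiscreteValuationRing.exists_irreducible O
    have h0 : Ideal.span {((2 : ℕ) : O) ^ n} ≠ ⊥ := by
      rw [Ne, Ideal.span_singleton_eq_bot]
      exact pow_ne_zero _ (Nat.cast_ne_zero.2 two_ne_zero)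
    obtain ⟨m, hm⟩ := IsDiscreteValuationRing.ideal_eq_span_pow_irreducible h0 hϖ
    refine ⟨m, fun x hx => ?_⟩
    rw [hϖ.maximalIdeal_eq, Ideal.span_singleton_pow, ← hm, Ideal.mem_span_singleton] at hx
    obtain ⟨t, rfl⟩ := hx
    refine ⟨e t, ?_⟩
    rw [map_mul, map_pow, map_natCast, Nat.cast_ofNat]
  have hdetQ : ∀ σ, e (NewformRep.repMatrix ρ σ).det = algebraMap ℤ_[2] Q2int (padicCyclo 2 σ) :=
    fun σ => by
      rw [NewformRep.det_repMatrix, hdet]
      exact padicHom_eq (e.comp (padicIntHom O hp)) _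
  have hne2 : ∀ {ℓ : ℕ}, ¬ ℓ ∣ D.auxLevel Q → ℓ ≠ 2 := fun h h2 =>
    h (h2 ▸ two_dvd_auxLevel D Q)
  have heigen : ∀ t, e (((algebraMap O' O).comp χ') t) = patternHom D Q ε t f := fun t => by
    rw [RingHom.comp_apply, he, hχ']
    rfl
  have htr : ∀ (ℓ : ℕ) (hℓ : ℓ.Prime) (h : ¬ ℓ ∣ D.auxLevel Q),
      ∀ A : ValuationSubring Qbar, A.LiesOverPrime ℓ → ∀ σ : Γℚ, A.IsFrobeniusAt σ ℓ →
        e (NewformRep.repMatrix ρ σ).trace = patternGen D Q ε ℓ f := fun ℓ hℓ h A hA σ hσ => by
    have h1 := (NewformRep.charpoly_repMatrix ρ σ).trans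
      (hchar ℓ hℓ h (Set.notMem_empty ℓ) (hne2 h) A hA σ hσ)
    rw [(NewformRep.trace_det_of_charpoly_eq h1).1, ← RingHom.comp_apply (algebraMap O' O) χ',
      heigen, congrFun (patternGen_eq_patternHom (ε := ε) hℓ h) f]
  -- residual traces
  let R : Γℚ →* Matrix (Fin 2) (Fin 2) Q2res :=
    ((IsLocalRing.residue Q2int).comp e).mapMatrix.toMonoidHom.comp (NewformRep.repMatrix ρ)
  have hRtr : ∀ σ, (R σ).trace =
      IsLocalRing.residue Q2int (e (NewformRep.repMatrix ρ σ).trace) := fun σ =>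
    (AddMonoidHom.map_trace ((IsLocalRing.residue Q2int).comp e).toAddMonoidHom _).symm
  have hres : ∀ σ, (R σ).trace = (rhobarRes D zmodRes σ).trace := by
    intro σ
    obtain ⟨m, hm⟩ := hpow 1
    obtain ⟨L₁, hL₁, h1⟩ := NewformRep.repMatrix_continuous ρ m
    obtain ⟨L₂, hL₂, h2⟩ := D.cont
    have := IntermediateField.finiteDimensional_sup L₁ L₂
    obtain ⟨ℓ, hℓ, hℓS, A, hA, τ, hτ, ⟨k, hk⟩, -⟩ :=
      Density.exists_frobenius_pow σ (L₁ ⊔ L₂) (D.auxLevel Q).primeFactors
    have hℓN : ¬ ℓ ∣ D.auxLevel Q := fun h =>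
      hℓS (Nat.mem_primeFactors.2 ⟨hℓ, h, NeZero.ne _⟩)
    have hfix : ∀ x ∈ L₁ ⊔ L₂, ((τ ^ k)⁻¹ * σ) x = x := fun x hx => by
      rw [AlgEquiv.mul_apply, hk x hx]
      exact (τ ^ k).symm_apply_apply x
    have hR1 : R ((τ ^ k)⁻¹ * σ) = 1 := by
      refine Matrix.ext fun i j => ?_
      have h := hm _ (h1 _ (fun x hx => hfix x (SetLike.le_def.1 le_sup_left hx)) i j)
      rw [pow_one] at h
      have h' := (IsLocalRing.residue_eq_zero_iff _).2
        (Ideal.mem_of_dvd _ h two_mem_maximalIdeal_Q2int)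
      rw [Matrix.sub_apply, map_sub, map_sub, sub_eq_zero] at h'
      refine Eq.trans h' ?_
      by_cases hij : i = j <;> simp [Matrix.one_apply, hij]
    have hB1 : rhobarRes D zmodRes ((τ ^ k)⁻¹ * σ) = 1 := by
      have : D.ρbar ((τ ^ k)⁻¹ * σ) = 1 :=
        h2 _ ((IntermediateField.mem_fixingSubgroup_iff _ _).2 fun x hx =>
          hfix x (SetLike.le_def.1 le_sup_right hx))
      simp [rhobarRes, this]
    have hσ : σ = τ ^ k * ((τ ^ k)⁻¹ * σ) := (mul_inv_cancel_left _ _).symm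
    have e1 : R σ = R τ ^ k := by
      conv_lhs => rw [hσ]
      rw [map_mul, hR1, mul_one, map_pow]
    have e2 : rhobarRes D zmodRes σ = rhobarRes D zmodRes τ ^ k := by
      conv_lhs => rw [hσ]
      rw [map_mul, hB1, mul_one, map_pow]
    rw [e1, e2]
    refine trace_pow_eq ?_ ?_ k
    · rw [hRtr, htr ℓ hℓ hℓN A hA τ hτ, residue_patternGen hℓ hℓN f hA hτ]
      exact AddMonoidHom.map_trace zmodRes.toAddMonoidHom _
    · show (((IsLocalRing.residue Q2int).comp e).mapMatrix _).det = (zmodRes.mapMatrix _).det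
      rw [← RingHom.map_det, ← RingHom.map_det]
      simp only [Units.coeHom_apply, MonoidHom.comp_apply]
      rw [det_rhobar, map_one, RingHom.comp_apply, hdetQ, padicCyclo_frobenius 2 hℓ (hne2 hℓN) hA hτ,
        map_natCast, map_natCast]
      obtain ⟨c, hc⟩ := hℓ.odd_of_ne_two (hne2 hℓN)
      rw [hc, Nat.cast_add, Nat.cast_mul, Nat.cast_one,
        CharP.cast_eq_zero Q2res 2, zero_mul, zero_add]
  refine ⟨O, i1, i2, i3, i4, i6, e, F, hp, (algebraMap O' O).comp χ', ρ,
    ⟨heinj, heloc, hpow, heigen, fun ℓ hℓ h A hA σ hσ => ?_, fun q hq h => hunr q hq h (hne2 h),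
      hdet, fun σ => ?_, ?_⟩⟩
  · exact hchar ℓ hℓ h (Set.notMem_empty ℓ) (hne2 h) A hA σ hσ
  · rw [← hRtr, hres]
    exact (AddMonoidHom.map_trace zmodRes.toAddMonoidHom _).symm
  · refine halt.resolve_right ?_
    rintro ⟨v, hv, hline⟩
    obtain ⟨P, hP⟩ := RepLemmas.exists_conj_of_trace_eq (rhobarRes D zmodRes) R
      (span_rhobarRes D) fun σ => (hres σ).symm
    let b := Module.finBasisOfFinrankEq O ρ.V ρ.finrank_eq
    let w : Fin 2 → Q2res := fun i => IsLocalRing.residue Q2int (e (b.repr v i))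
    have hw : ∀ σ, ∃ c, R σ *ᵥ w = c • w := fun σ => by
      obtain ⟨c, hc⟩ := Submodule.mem_span_singleton.1 (hline σ)
      refine ⟨IsLocalRing.residue Q2int (e c), ?_⟩
      have h1 : NewformRep.repMatrix ρ σ *ᵥ b.repr v = b.repr (ρ.ρ σ v) :=
        LinearMap.toMatrix_mulVec_repr b b (ρ.ρ σ) v
      rw [← hc, map_smul, Finsupp.coe_smul] at h1
      funext i
      have h2 := congrArg ((IsLocalRing.residue Q2int).comp e) (congrFun h1 i)
      rw [RingHom.map_mulVec] at h2
      simpa [R, w, Function.comp_def] using h2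
    let u := ((P⁻¹ : (Matrix (Fin 2) (Fin 2) Q2res)ˣ) : Matrix (Fin 2) (Fin 2) Q2res) *ᵥ w
    have hu : ∀ X : Matrix (Fin 2) (Fin 2) Q2res, ∃ c, X *ᵥ u = c • u := fun X => by
      have hX : X ∈ Submodule.span Q2res (Set.range (rhobarRes D zmodRes)) :=
        span_rhobarRes D ▸ Submodule.mem_top
      induction hX using Submodule.span_induction with
      | mem x hx =>
        obtain ⟨σ, rfl⟩ := hx
        obtain ⟨c, hc⟩ := hw σ
        refine ⟨c, ?_⟩
        rw [hP σ] at hc
        have h3 := congrArg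
          (fun z => ((P⁻¹ : (Matrix (Fin 2) (Fin 2) Q2res)ˣ) : Matrix (Fin 2) (Fin 2) Q2res) *ᵥ z) hc
        simp only [Matrix.mulVec_mulVec, ← Matrix.mul_assoc, Units.inv_mul, Matrix.one_mul,
          Matrix.mulVec_smul] at h3
        rw [← Matrix.mulVec_mulVec] at h3
        exact h3
      | zero => exact ⟨0, by simp⟩
      | add x y _ _ hx hy =>
        obtain ⟨c, hc⟩ := hx
        obtain ⟨d, hd⟩ := hy
        exact ⟨c + d, by rw [Matrix.add_mulVec, hc, hd, add_smul]⟩
      | smul a x _ hx =>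
        obtain ⟨c, hc⟩ := hx
        exact ⟨a * c, by rw [Matrix.smul_mulVec, hc, smul_smul]⟩
    have hu0 : u ≠ 0 := fun h => by
      have hw0 : w = 0 := by
        have := congrArg (fun z => (P : Matrix (Fin 2) (Fin 2) Q2res) *ᵥ z) h
        simp only [u, Matrix.mulVec_mulVec, Units.mul_inv, Matrix.one_mulVec,
          Matrix.mulVec_zero] at this
        exact this
      apply hv
      rw [← b.sum_repr v]
      refine Submodule.sum_mem _ fun i _ => Submodule.smul_mem_smul ?_ Submodule.mem_top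
      have h2 := (IsLocalRing.residue_eq_zero_iff _).1 (congrFun hw0 i)
      exact fun hunit => h2 (hunit.map e)
    obtain ⟨c, hc⟩ := hu !![0, 1; 0, 0]
    obtain ⟨d, hd⟩ := hu !![0, 0; 1, 0]
    have c0 : u 1 = c * u 0 := by simpa [Matrix.mulVec, dotProduct] using congrFun hc 0
    have c1 : 0 = c * u 1 := by simpa [Matrix.mulVec, dotProduct] using congrFun hc 1
    have d0 : 0 = d * u 0 := by simpa [Matrix.mulVec, dotProduct] using congrFun hd 0
    have d1 : u 0 = d * u 1 := by simpa [Matrix.mulVec, dotProduct] using congrFun hd 1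
    have u1 : u 1 = 0 := by
      rcases mul_eq_zero.1 c1.symm with h | h
      · rw [c0, h, zero_mul]
      · exact h
    exact hu0 (funext fun i => by fin_cases i <;> simp [u1, d1])

end Fermat.Agent.Residual

end
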