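/-
The Atkin-Lehner involution `w_d` of `ℂ(j, j_D)`, `d ∣ D`, as composition with an Atkin-Lehner
matrix: `j ↦ j(d τ)`, `j(D τ) ↦ j((D/d) τ)`, and its descent to `ℚ̄`.
-/
import Fermat.Agent.Residual.MobiusModular
import Fermat.Agent.Residual.CMFixMatrix

set_option autoImplicit false

noncomputable section

open UpperHalfPlane CongruenceSubgroup ModularCurve Fermat.Agent.ModFun
open scoped MatrixGroups

namespace Fermat.Agent.Residual

open Fermat.Agent CMFix

variable {D d : ℕ} [NeZero D] {W : IMat}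

/-- `j(e τ)` as an element of `ℂ(j, j_D)`. -/
def jdC (D e : ℕ) [NeZero D] [NeZero e] (he : e ∣ D) : modularFunctionFieldC ℂ D :=
  ⟨qExpand ℂ e (jqModC ℂ), qExpand_jqModC_mem D ℂ he⟩

theorem toFun_jdC {e : ℕ} [NeZero e] (he : e ∣ D) :
    EqPunct (toFun (jdC D e he)) (jNfun e) :=
  toFun_eqPunct _ (isModularFun_jNfun he) (hasQExp_jNfun e)

theorem IsAL.normalises (hW : IsAL D d W) (hd : d ∣ D) : Normalises D W := by
  have hd0 : 0 < d := Nat.pos_of_dvd_of_pos hd (NeZero.pos D)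
  refine ⟨by rw [hW.det_eq]; exact_mod_cast hd0, fun γ hγ => ?_⟩
  obtain ⟨r, hr⟩ := (ZMod.intCast_zmod_eq_zero_iff_dvd _ _).1 (Gamma0_mem.1 hγ)
  obtain ⟨D', hD'⟩ := hd
  obtain ⟨a, ha⟩ := hW.dvd00
  obtain ⟨e, he⟩ := hW.dvd11
  obtain ⟨c, hc⟩ := hW.dvd10
  have hdet := hW.det_eq
  have hγd : γ.1 0 0 * γ.1 1 1 - γ.1 0 1 * γ.1 1 0 = 1 := by
    rw [← Matrix.det_fin_two]; exact γ.2
  have hDz : (D : ℤ) = d * D' := by exact_mod_cast hD'
  rw [Matrix.det_fin_two, ha, he, hc] at hdet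
  rw [hr] at hγd
  set p := γ.1 0 0 with hp
  set q := γ.1 0 1 with hq
  set s := γ.1 1 1 with hs
  set b := W 0 1 with hb
  have h1 : (d : ℤ) * a * e - D' * b * c = 1 := by
    apply mul_left_cancel₀ (show (d : ℤ) ≠ 0 by omega)
    rw [hDz] at hdet
    linear_combination hdet
  refine ⟨⟨!![(d : ℤ) * a * e * p + b * e * D * r - (D : ℤ) * a * c * q - D' * b * c * s,
      -(a * b * p) - D' * b ^ 2 * r + d * a ^ 2 * q + a * b * s;
      (D : ℤ) * c * e * p + D * d * e ^ 2 * r - D * D' * c ^ 2 * q - D * c * e * s,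
      -(D' * b * c * p) - D * b * e * r + D * a * c * q + d * a * e * s], ?_⟩, ?_, ?_⟩
  · rw [Matrix.det_fin_two_of, hDz]
    rw [hDz] at hγd
    linear_combination ((d : ℤ) * a * e - D' * b * c) ^ 2 * hγd +
      ((d : ℤ) * a * e - D' * b * c + 1) * h1
  · rw [Gamma0_mem, ZMod.intCast_zmod_eq_zero_iff_dvd]
    refine ⟨c * e * p + d * e ^ 2 * r - D' * c ^ 2 * q - c * e * s, ?_⟩
    simp
    ring
  · ext i j
    fin_cases i <;> fin_cases j <;>
      simp [Matrix.mul_apply, Fin.sum_univ_two, ha, he, hc, hr, ← hp, ← hq, ← hs, ← hb, hDz]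
    all_goals grind

/-- The involution `w_d` of `ℂ(j, j_D)` attached to an Atkin-Lehner matrix. -/
def alHom (hW : IsAL D d W) (hd : d ∣ D) :
    modularFunctionFieldC ℂ D →ₐ[ℂ] modularFunctionFieldC ℂ D :=
  mobiusHom (IsAL.normalises hW hd)

theorem toFun_alHom (hW : IsAL D d W) (hd : d ∣ D) (x : modularFunctionFieldC ℂ D) :
    EqPunct (toFun (alHom hW hd x)) fun τ => toFun x (Newform.atkinGL W • τ) :=
  toFun_mobiusHom _ x

theorem IsAL.sq_smul (hW : IsAL D d W) (hd : d ∣ D) :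
    ∃ γ ∈ Gamma0 D, ∀ τ : ℍ,
      Newform.atkinGL W • Newform.atkinGL W • τ = γ • τ := by
  have hd0 : 0 < d := Nat.pos_of_dvd_of_pos hd (NeZero.pos D)
  obtain ⟨D', hD'⟩ := hd
  obtain ⟨a, ha⟩ := hW.dvd00
  obtain ⟨e, he⟩ := hW.dvd11
  obtain ⟨c, hc⟩ := hW.dvd10
  have hdet := hW.det_eq
  have hDz : (D : ℤ) = d * D' := by exact_mod_cast hD'
  rw [Matrix.det_fin_two, ha, he, hc] at hdet
  have h1 : (d : ℤ) * a * e - D' * W 0 1 * c = 1 := by
    apply mul_left_cancel₀ (show (d : ℤ) ≠ 0 by omega)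
    rw [hDz] at hdet
    linear_combination hdet
  refine ⟨⟨!![(d : ℤ) * a ^ 2 + D' * W 0 1 * c, W 0 1 * (a + e);
      (D : ℤ) * c * (a + e), D' * W 0 1 * c + d * e ^ 2], ?_⟩, ?_, fun τ => ?_⟩
  · rw [Matrix.det_fin_two_of, hDz]
    linear_combination ((d : ℤ) * a * e - D' * W 0 1 * c + 1) * h1
  · rw [Gamma0_mem, ZMod.intCast_zmod_eq_zero_iff_dvd]
    exact ⟨c * (a + e), by simp [mul_assoc]⟩
  · have hdp : 0 < W.det := by rw [hW.det_eq]; exact_mod_cast hd0
    rw [← mul_smul, ← Newform.atkinGL_mul hdp.ne' hdp.ne']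
    apply UpperHalfPlane.ext
    rw [coe_atkinGL_smul (by simpa using mul_pos hdp hdp), coe_specialLinearGroup_apply]
    have hd' : (d : ℂ) ≠ 0 := Nat.cast_ne_zero.2 hd0.ne'
    conv_rhs => rw [← mul_div_mul_left _ _ hd']
    simp [Matrix.mul_apply, Fin.sum_univ_two, ha, he, hc, hDz]
    congr 1 <;> ring

theorem alHom_alHom (hW : IsAL D d W) (hd : d ∣ D) (x : modularFunctionFieldC ℂ D) :
    alHom hW hd (alHom hW hd x) = x := by
  obtain ⟨γ, hγ, hsq⟩ := IsAL.sq_smul hW hd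
  refine toFun_injective ((toFun_alHom hW hd _).trans ?_)
  refine (eqPunct_comp_gl (toFun_alHom hW hd x) (IsAL.normalises hW hd).det_pos).trans ?_
  refine Places.eqPunct_of_eq (funext fun τ => ?_)
  rw [hsq, (isModularFun_toFun x).smul_eq γ hγ]

/-- The Atkin-Lehner involution of `ℂ(j, j_D)`. -/
def alC (hW : IsAL D d W) (hd : d ∣ D) :
    modularFunctionFieldC ℂ D ≃ₐ[ℂ] modularFunctionFieldC ℂ D :=
  AlgEquiv.ofAlgHom (alHom hW hd) (alHom hW hd) (AlgHom.ext (alHom_alHom hW hd))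
    (AlgHom.ext (alHom_alHom hW hd))

theorem alC_apply (hW : IsAL D d W) (hd : d ∣ D) (x : modularFunctionFieldC ℂ D) :
    alC hW hd x = alHom hW hd x := rfl

theorem alC_alC (hW : IsAL D d W) (hd : d ∣ D) (x : modularFunctionFieldC ℂ D) :
    alC hW hd (alC hW hd x) = x := alHom_alHom hW hd x

theorem jNfun_eq_of_mul_eq {e e' : ℕ} [NeZero e] [NeZero e'] {X : IMat} (hX : 0 < X.det)
    (η : SL(2, ℤ)) (k : ℕ) (hk : k ≠ 0)
    (h : !![(e : ℤ), 0; 0, 1] * X =
      (k : ℤ) • ((η : IMat) * !![(e' : ℤ), 0; 0, 1]))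
    (τ : ℍ) : jNfun e (Newform.atkinGL X • τ) = jNfun e' τ := by
  have key : ModularForm.heckeDiagMatrix e • Newform.atkinGL X • τ =
      η • ModularForm.heckeDiagMatrix e' • τ := by
    have e00 := congrArg (fun M : IMat => (M 0 0 : ℂ)) h
    have e01 := congrArg (fun M : IMat => (M 0 1 : ℂ)) h
    have e10 := congrArg (fun M : IMat => (M 1 0 : ℂ)) h
    have e11 := congrArg (fun M : IMat => (M 1 1 : ℂ)) h
    simp [Matrix.mul_apply, Fin.sum_univ_two] at e00 e01 e10 e11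
    apply UpperHalfPlane.ext
    rw [ModularForm.coe_heckeDiagMatrix_smul (NeZero.ne e), coe_atkinGL_smul hX,
      coe_specialLinearGroup_apply, ModularForm.coe_heckeDiagMatrix_smul (NeZero.ne e')]
    have hk' : (k : ℂ) ≠ 0 := Nat.cast_ne_zero.2 hk
    conv_rhs => rw [← mul_div_mul_left _ _ hk']
    simp only [algebraMap_int_eq, eq_intCast, Complex.ofReal_intCast]
    rw [← mul_div_assoc]
    congr 1
    · linear_combination (τ : ℂ) * e00 + e01
    · linear_combination (τ : ℂ) * e10 + e11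
  rw [jNfun, key, jfun_smul]
  rfl

/-- `w_d` sends `j` to `j(d τ)`. -/
theorem alC_jq (hW : IsAL D d W) (hd : d ∣ D) [NeZero d] :
    alC hW hd ⟨jqModC ℂ, jqModC_mem ℂ D⟩ = jdC D d hd := by
  refine toFun_injective ((toFun_alHom hW hd _).trans ((eqPunct_comp_gl toFun_jq
    (IsAL.normalises hW hd).det_pos).trans ?_))
  refine (Places.eqPunct_of_eq (funext fun τ => ?_)).trans (toFun_jdC hd).symm
  obtain ⟨a, ha⟩ := hW.dvd00
  obtain ⟨e, he⟩ := hW.dvd11
  obtain ⟨D', hD'⟩ := hd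
  obtain ⟨c, hc⟩ := hW.dvd10
  have hdet := hW.det_eq
  have hDz : (D : ℤ) = d * D' := by exact_mod_cast hD'
  rw [Matrix.det_fin_two, ha, he, hc] at hdet
  have hdp : 0 < W.det := by rw [hW.det_eq]; exact_mod_cast NeZero.pos d
  have hdz : (d : ℤ) ≠ 0 := by exact_mod_cast NeZero.ne d
  have h1 : (d : ℤ) * a * e - D' * W 0 1 * c = 1 := by
    apply mul_left_cancel₀ hdz
    rw [hDz] at hdet
    linear_combination hdet
  have := jNfun_eq_of_mul_eq (e := 1) (e' := d) hdp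
    ⟨!![a, W 0 1; D' * c, (d : ℤ) * e], by rw [Matrix.det_fin_two_of]; linear_combination h1⟩
    1 one_ne_zero (by
      ext i j
      fin_cases i <;> fin_cases j <;>
        simp [Matrix.mul_apply, Fin.sum_univ_two, ha, he, hc, hDz]
      all_goals ring) τ
  have hone : ∀ z : ℍ, jNfun 1 z = jfun z := fun z => by
    have hz : ModularForm.heckeDiagMatrix 1 • z = z := by
      apply UpperHalfPlane.ext
      rw [ModularForm.coe_heckeDiagMatrix_smul one_ne_zero]
      simp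
    rw [jNfun, hz]
  rw [hone] at this
  exact this

/-- `w_d` sends `j(D τ)` to `j((D/d) τ)`. -/
theorem alC_jqN (hW : IsAL D d W) (hd : d ∣ D) [NeZero (D / d)] :
    alC hW hd ⟨jqNModC ℂ D, jqNModC_mem ℂ D⟩ = jdC D (D / d) (Nat.div_dvd_of_dvd hd) := by
  refine toFun_injective ((toFun_alHom hW hd _).trans ((eqPunct_comp_gl toFun_jqN
    (IsAL.normalises hW hd).det_pos).trans ?_))
  refine (Places.eqPunct_of_eq (funext fun τ => ?_)).trans
    (toFun_jdC (Nat.div_dvd_of_dvd hd)).symm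
  have hd0 : 0 < d := Nat.pos_of_dvd_of_pos hd (NeZero.pos D)
  obtain ⟨a, ha⟩ := hW.dvd00
  obtain ⟨e, he⟩ := hW.dvd11
  obtain ⟨c, hc⟩ := hW.dvd10
  have hdet := hW.det_eq
  have hDz : (D : ℤ) = d * (D / d : ℕ) := by exact_mod_cast (Nat.mul_div_cancel' hd).symm
  rw [Matrix.det_fin_two, ha, he, hc] at hdet
  have hdp : 0 < W.det := by rw [hW.det_eq]; exact_mod_cast hd0
  have hdz : (d : ℤ) ≠ 0 := by exact_mod_cast hd0.ne'
  have h1 : (d : ℤ) * a * e - (D / d : ℕ) * W 0 1 * c = 1 := by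
    apply mul_left_cancel₀ hdz
    rw [hDz] at hdet
    linear_combination hdet
  refine jNfun_eq_of_mul_eq hdp
    ⟨!![(d : ℤ) * a, (D / d : ℕ) * W 0 1; c, e], by
      rw [Matrix.det_fin_two_of]; linear_combination h1⟩
    d hd0.ne' ?_ τ
  generalize (D / d : ℕ) = D' at hDz h1 ⊢
  ext i j
  fin_cases i <;> fin_cases j <;>
    simp [Matrix.mul_apply, Fin.sum_univ_two, ha, he, hc, hDz]
  all_goals ring

/-- The involution does not depend on the matrix. -/
theorem alC_eq {W' : IMat} (hW : IsAL D d W) (hW' : IsAL D d W') (hd : d ∣ D) :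
    alC hW hd = alC hW' hd := by
  haveI : NeZero d := ⟨(Nat.pos_of_dvd_of_pos hd (NeZero.pos D)).ne'⟩
  haveI : NeZero (D / d) := ⟨(Nat.div_pos (Nat.le_of_dvd (NeZero.pos D) hd) (NeZero.pos d)).ne'⟩
  apply AlgEquiv.coe_toAlgHom_injective
  exact algHom_ext_gens ((alC_jq hW hd).trans (alC_jq hW' hd).symm)
    ((alC_jqN hW hd).trans (alC_jqN hW' hd).symm)

/-- A non-trivial divisor moves `j`. -/
theorem alC_ne_refl (hW : IsAL D d W) (hd : d ∣ D) (h1 : 1 < d) :
    alC hW hd ≠ AlgEquiv.refl := by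
  intro h
  haveI : NeZero d := ⟨by omega⟩
  have h2 := alC_jq hW hd
  rw [h, AlgEquiv.coe_refl, id_eq] at h2
  have h3 : jqModC ℂ = qExpand ℂ d (jqModC ℂ) := congrArg Subtype.val h2
  have h4 : (jqModC ℂ).coeff (-1) = (qExpand ℂ d (jqModC ℂ)).coeff (-1) := by rw [← h3]
  rw [coeff_jqModC_neg_one, qExpand_coeff_of_not_dvd d _ (by
    rw [Int.dvd_neg]
    intro h5
    have := Int.le_of_dvd one_pos h5
    omega)] at h4
  exact one_ne_zero h4

end Fermat.Agent.Residual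

end
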