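/-
The Atkin-Lehner involution `w_d` of the function field of `X₀(D)` over `ℚ̄`: the restriction of
the one of `ℂ(j, j_D)` along every embedding of `ℚ̄`.
-/
import Fermat.Agent.Residual.ALInvolution
import Fermat.Agent.Torsion.Char

set_option autoImplicit false

noncomputable section

open UpperHalfPlane CongruenceSubgroup ModularCurve Fermat.Agent.ModFun IntermediateField
open scoped MatrixGroups

namespace Fermat.Agent.Residual

open Fermat.Agent CMFix

local notation "ℚbar" => AlgebraicClosure ℚ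

variable {D d : ℕ} [NeZero D] {W : IMat}

/-- A standard Atkin-Lehner matrix. -/
def alMat (D d : ℕ) : IMat :=
  !![(d : ℤ) * Nat.gcdA d (D / d), -Nat.gcdB d (D / d); (D : ℤ), (d : ℤ)]

omit [NeZero D] in
theorem isAL_alMat (hd : d ∣ D) (h : Nat.Coprime d (D / d)) : IsAL D d (alMat D d) := by
  refine ⟨?_, ?_, ?_, ?_⟩
  · have hb := Nat.gcd_eq_gcd_ab d (D / d)
    rw [h.gcd_eq_one, Nat.cast_one] at hb
    have hD : (D : ℤ) = d * (D / d : ℕ) := by exact_mod_cast (Nat.mul_div_cancel' hd).symm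
    rw [alMat, Matrix.det_fin_two_of, hD]
    generalize (D / d : ℕ) = D' at hb ⊢
    linear_combination -(d : ℤ) * hb
  all_goals simp [alMat]

theorem jqd_mem_bar {e : ℕ} [NeZero e] (he : e ∣ D) :
    qExpand ℚbar e (jqModC ℚbar) ∈ modularFunctionFieldBar D := by
  rw [show modularFunctionFieldBar D = modularFunctionFieldC ℚbar D from
    laurentBaseChange_full_eq D ℚbar]
  exact qExpand_jqModC_mem D ℚbar he

/-- `j(e τ)` over `ℚ̄`. -/
def jdQ (D e : ℕ) [NeZero D] [NeZero e] (he : e ∣ D) : modularFunctionFieldBar D :=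
  ⟨qExpand ℚbar e (jqModC ℚbar), jqd_mem_bar he⟩

theorem barToC_jdQ (ι : ℚbar →+* ℂ) {e : ℕ} [NeZero e] (he : e ∣ D) :
    barToC D ι (jdQ D e he) = jdC D e he :=
  Subtype.ext (coeffMap_qExpand_jqModC ι e)

theorem barToC_const (ι : ℚbar →+* ℂ) (a : ℚbar) :
    barToC D ι (algebraMap ℚbar (modularFunctionFieldBar D) a) =
      algebraMap ℂ (modularFunctionFieldC ℂ D) (ι a) := by
  refine Subtype.ext ?_
  show coeffMap ι (algebraMap ℚbar (LaurentSeries ℚbar) a) = algebraMap ℂ (LaurentSeries ℂ) _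
  rw [algebraMap_laurentSeries_eq_single, algebraMap_laurentSeries_eq_single, coeffMap_single]

theorem exists_alC_barToC (ι : ℚbar →+* ℂ) (hW : IsAL D d W) (hd : d ∣ D)
    (x : modularFunctionFieldBar D) : ∃ y, barToC D ι y = alC hW hd (barToC D ι x) := by
  haveI : NeZero d := ⟨(Nat.pos_of_dvd_of_pos hd (NeZero.pos D)).ne'⟩
  haveI : NeZero (D / d) :=
    ⟨(Nat.div_pos (Nat.le_of_dvd (NeZero.pos D) hd) (NeZero.pos d)).ne'⟩
  obtain ⟨x, hx⟩ := x
  have hx' : x ∈ modularFunctionFieldC ℚbar D := by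
    rw [← show modularFunctionFieldBar D = modularFunctionFieldC ℚbar D from
      laurentBaseChange_full_eq D ℚbar]
    exact hx
  induction hx' using IntermediateField.adjoin_induction with
  | mem y hy =>
    rcases hy with rfl | rfl
    · refine ⟨jdQ D d hd, ?_⟩
      rw [barToC_jdQ, ← alC_jq hW hd]
      exact congrArg _ (Subtype.ext (ModFun.coeffMap_jqModC ι).symm)
    · refine ⟨jdQ D (D / d) (Nat.div_dvd_of_dvd hd), ?_⟩
      rw [barToC_jdQ, ← alC_jqN hW hd]
      exact congrArg _ (Subtype.ext (coeffMap_jqNModC ι D).symm)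
  | algebraMap c =>
    refine ⟨algebraMap ℚbar (modularFunctionFieldBar D) c, ?_⟩
    rw [show (⟨algebraMap ℚbar _ c, hx⟩ : modularFunctionFieldBar D) =
      algebraMap ℚbar (modularFunctionFieldBar D) c from rfl, barToC_const, AlgEquiv.commutes]
  | add a b ha hb iha ihb =>
    have ha' : a ∈ modularFunctionFieldBar D := by
      rw [modularFunctionFieldBar, laurentBaseChange_full_eq]; exact ha
    have hb' : b ∈ modularFunctionFieldBar D := by
      rw [modularFunctionFieldBar, laurentBaseChange_full_eq]; exact hb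
    obtain ⟨u, hu⟩ := iha ha'
    obtain ⟨v, hv⟩ := ihb hb'
    exact ⟨u + v, by rw [map_add, hu, hv, ← map_add, ← map_add]; rfl⟩
  | inv a ha iha =>
    have ha' : a ∈ modularFunctionFieldBar D := by
      rw [modularFunctionFieldBar, laurentBaseChange_full_eq]; exact ha
    obtain ⟨u, hu⟩ := iha ha'
    exact ⟨u⁻¹, by rw [map_inv₀, hu, ← map_inv₀, ← map_inv₀]; rfl⟩
  | mul a b ha hb iha ihb =>
    have ha' : a ∈ modularFunctionFieldBar D := by
      rw [modularFunctionFieldBar, laurentBaseChange_full_eq]; exact ha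
    have hb' : b ∈ modularFunctionFieldBar D := by
      rw [modularFunctionFieldBar, laurentBaseChange_full_eq]; exact hb
    obtain ⟨u, hu⟩ := iha ha'
    obtain ⟨v, hv⟩ := ihb hb'
    exact ⟨u * v, by rw [map_mul, hu, hv, ← map_mul, ← map_mul]; rfl⟩

/-- `w_d` over `ℚ̄`, as a function. -/
def alBarFun (hW : IsAL D d W) (hd : d ∣ D) (x : modularFunctionFieldBar D) :
    modularFunctionFieldBar D :=
  (exists_alC_barToC Torsion.qbarToC hW hd x).choose

theorem barToC_alBarFun' (hW : IsAL D d W) (hd : d ∣ D) (x : modularFunctionFieldBar D) :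
    barToC D Torsion.qbarToC (alBarFun hW hd x) = alC hW hd (barToC D Torsion.qbarToC x) :=
  (exists_alC_barToC Torsion.qbarToC hW hd x).choose_spec

theorem alBarFun_alBarFun (hW : IsAL D d W) (hd : d ∣ D) (x : modularFunctionFieldBar D) :
    alBarFun hW hd (alBarFun hW hd x) = x :=
  barToC_injective D Torsion.qbarToC (by rw [barToC_alBarFun', barToC_alBarFun', alC_alC])

/-- The Atkin-Lehner involution of the function field of `X₀(D)` over `ℚ̄`. -/
def alBar (hW : IsAL D d W) (hd : d ∣ D) :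
    modularFunctionFieldBar D ≃ₐ[ℚbar] modularFunctionFieldBar D where
  toFun := alBarFun hW hd
  invFun := alBarFun hW hd
  left_inv := alBarFun_alBarFun hW hd
  right_inv := alBarFun_alBarFun hW hd
  map_mul' x y := barToC_injective D Torsion.qbarToC (by
    rw [map_mul, barToC_alBarFun', barToC_alBarFun', barToC_alBarFun', map_mul, map_mul])
  map_add' x y := barToC_injective D Torsion.qbarToC (by
    rw [map_add, barToC_alBarFun', barToC_alBarFun', barToC_alBarFun', map_add, map_add])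
  commutes' a := barToC_injective D Torsion.qbarToC (by
    rw [barToC_alBarFun', barToC_const, AlgEquiv.commutes])

theorem alBar_alBar (hW : IsAL D d W) (hd : d ∣ D) (x : modularFunctionFieldBar D) :
    alBar hW hd (alBar hW hd x) = x :=
  alBarFun_alBarFun hW hd x

theorem alBar_jq (hW : IsAL D d W) (hd : d ∣ D) [NeZero d] :
    alBar hW hd (jdQ D 1 (one_dvd D)) = jdQ D d hd := by
  refine barToC_injective D Torsion.qbarToC ((barToC_alBarFun' hW hd _).trans ?_)
  rw [barToC_jdQ, barToC_jdQ, ← alC_jq hW hd]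
  exact congrArg _ (Subtype.ext (qExpand_one_apply _))

theorem alBar_jqN (hW : IsAL D d W) (hd : d ∣ D) [NeZero (D / d)] :
    alBar hW hd (jdQ D D dvd_rfl) = jdQ D (D / d) (Nat.div_dvd_of_dvd hd) := by
  refine barToC_injective D Torsion.qbarToC ((barToC_alBarFun' hW hd _).trans ?_)
  rw [barToC_jdQ, barToC_jdQ, ← alC_jqN hW hd]
  rfl

/-- Ring maps out of the function field over `ℚ̄` agree when they agree on constants, `j` and
`j(D τ)`. -/
theorem ringHom_ext_bar {L : Type*} [Field L] {φ ψ : modularFunctionFieldBar D →+* L}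
    (hc : ∀ a, φ (algebraMap ℚbar _ a) = ψ (algebraMap ℚbar _ a))
    (h1 : φ (jdQ D 1 (one_dvd D)) = ψ (jdQ D 1 (one_dvd D)))
    (h2 : φ (jdQ D D dvd_rfl) = ψ (jdQ D D dvd_rfl)) : φ = ψ := by
  let E : IntermediateField ℚbar (LaurentSeries ℚbar) :=
    IntermediateField.map (modularFunctionFieldBar D).val
      { Subfield.copy (φ.eqLocusField ψ) {z | φ z = ψ z} rfl with algebraMap_mem' := hc }
  have hle : modularFunctionFieldBar D ≤ E := by
    rw [modularFunctionFieldBar, laurentBaseChange_full_eq, modularFunctionFieldC,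
      IntermediateField.adjoin_le_iff]
    rintro _ (rfl | rfl)
    · exact ⟨jdQ D 1 (one_dvd D), h1, qExpand_one_apply _⟩
    · exact ⟨jdQ D D dvd_rfl, h2, rfl⟩
  refine RingHom.ext fun x => ?_
  obtain ⟨y, hy, hyx⟩ := hle x.2
  exact (Subtype.ext hyx : y = x) ▸ hy

/-- The compatibility with the analytic involution holds along every embedding. -/
theorem barToC_alBar (ι : ℚbar →+* ℂ) (hW : IsAL D d W) (hd : d ∣ D)
    (x : modularFunctionFieldBar D) :
    barToC D ι (alBar hW hd x) = alC hW hd (barToC D ι x) := by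
  haveI : NeZero d := ⟨(Nat.pos_of_dvd_of_pos hd (NeZero.pos D)).ne'⟩
  haveI : NeZero (D / d) :=
    ⟨(Nat.div_pos (Nat.le_of_dvd (NeZero.pos D) hd) (NeZero.pos d)).ne'⟩
  refine RingHom.congr_fun (ringHom_ext_bar
    (φ := (barToC D ι).comp (alBar hW hd).toRingEquiv.toRingHom)
    (ψ := (alC hW hd).toRingEquiv.toRingHom.comp (barToC D ι)) (fun a => ?_) ?_ ?_) x
  · show barToC D ι (alBar hW hd (algebraMap ℚbar _ a)) =
      alC hW hd (barToC D ι (algebraMap ℚbar _ a))
    rw [AlgEquiv.commutes, barToC_const, AlgEquiv.commutes]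
  · show barToC D ι (alBar hW hd (jdQ D 1 _)) = alC hW hd (barToC D ι (jdQ D 1 _))
    rw [alBar_jq, barToC_jdQ, barToC_jdQ, ← alC_jq hW hd]
    exact congrArg _ (Subtype.ext (qExpand_one_apply _).symm)
  · show barToC D ι (alBar hW hd (jdQ D D _)) = alC hW hd (barToC D ι (jdQ D D _))
    rw [alBar_jqN, barToC_jdQ, barToC_jdQ, ← alC_jqN hW hd]
    rfl

theorem alBar_ne_refl (hW : IsAL D d W) (hd : d ∣ D) (h1 : 1 < d) :
    alBar hW hd ≠ AlgEquiv.refl := by
  intro h
  haveI : NeZero d := ⟨by omega⟩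
  refine alC_ne_refl hW hd h1 (AlgEquiv.coe_toAlgHom_injective ?_)
  haveI : NeZero (D / d) :=
    ⟨(Nat.div_pos (Nat.le_of_dvd (NeZero.pos D) hd) (NeZero.pos d)).ne'⟩
  refine algHom_ext_gens ?_ ?_
  · have := barToC_alBar Torsion.qbarToC hW hd (jdQ D 1 (one_dvd D))
    rw [h, barToC_jdQ] at this
    have h2 : jdC D 1 (one_dvd D) = ⟨jqModC ℂ, jqModC_mem ℂ D⟩ :=
      Subtype.ext (qExpand_one_apply _)
    rw [h2] at this
    show alC hW hd _ = _
    rw [← this]
    exact (barToC_jdQ _ _).trans h2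
  · have := barToC_alBar Torsion.qbarToC hW hd (jdQ D D dvd_rfl)
    rw [h, barToC_jdQ] at this
    show alC hW hd ⟨jqNModC ℂ D, jqNModC_mem ℂ D⟩ = _
    exact (this.symm.trans (barToC_jdQ _ dvd_rfl))

/-- The involution does not depend on the matrix. -/
theorem alBar_eq {W' : IMat} (hW : IsAL D d W) (hW' : IsAL D d W') (hd : d ∣ D) :
    alBar hW hd = alBar hW' hd :=
  AlgEquiv.ext fun x => barToC_injective D Torsion.qbarToC (by
    rw [barToC_alBar, barToC_alBar, alC_eq hW hW' hd])

end Fermat.Agent.Residual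

end
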