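/-
An involution of a function field: Hilbert 90, fixed places, invariant and anti-invariant divisors.
-/
import Fermat.Agent.Curve.RiemannRochFunctions

set_option autoImplicit false

noncomputable section

open AlgebraicCurve

namespace Fermat.Agent.Residual

variable {K F : Type*} [Field K] [Field F] [Algebra K F] (w : F ≃ₐ[K] F)

/-- The fixed places of an automorphism. -/
def fixedPlaces : Set (Place K F) := {v | w • v = v}

theorem mem_fixedPlaces {v : Place K F} : v ∈ fixedPlaces w ↔ w • v = v := Iff.rfl

variable {w} (hw : ∀ f, w (w f) = f)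

include hw

theorem mul_self_eq_one : w * w = 1 := AlgEquiv.ext hw

theorem smul_smul_place (v : Place K F) : w • w • v = v := by
  rw [smul_smul, mul_self_eq_one hw, one_smul]

theorem smul_smul_divisor (D : Divisor K F) : w • w • D = D := by
  rw [smul_smul, mul_self_eq_one hw, one_smul]

theorem smul_divisor_apply (D : Divisor K F) (v : Place K F) : (w • D) v = D (w • v) := by
  conv_lhs => rw [← smul_smul_place hw v]
  rw [Divisor.smul_apply_smul]

/-- Hilbert 90 for an involution. -/
theorem exists_mul_apply_eq_self (hne : w ≠ AlgEquiv.refl) {f : F} (hf : f * w f = 1) :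
    ∃ g : F, g ≠ 0 ∧ f * w g = g := by
  by_cases h : 1 + f = 0
  · obtain ⟨a, ha⟩ : ∃ a, w a ≠ a := by
      by_contra hall
      push Not at hall
      exact hne (AlgEquiv.ext hall)
    refine ⟨a - w a, sub_ne_zero.mpr (Ne.symm ha), ?_⟩
    rw [map_sub, hw, eq_neg_of_add_eq_zero_right h]
    ring
  · refine ⟨1 + f, h, ?_⟩
    rw [map_add, map_one, mul_add, mul_one, hf, add_comm]

omit hw in
theorem ord_apply (v : Place K F) (f : F) : (w • v).ord (w f) = v.ord f := Place.ord_smul w v f

theorem ord_apply' (v : Place K F) (f : F) : v.ord (w f) = (w • v).ord f := by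
  conv_lhs => rw [← smul_smul_place hw v]
  rw [ord_apply]

/-- An invariant divisor is the sum of a norm and a divisor supported on fixed places. -/
theorem exists_eq_add_smul_add {D : Divisor K F} (hD : w • D = D) :
    ∃ E S : Divisor K F, (∀ v ∈ S.support, v ∈ fixedPlaces w) ∧ D = E + w • E + S := by
  classical
  suffices key : ∀ (n : ℕ) (D : Divisor K F), D.support.card ≤ n → w • D = D →
      ∃ E S : Divisor K F, (∀ v ∈ S.support, v ∈ fixedPlaces w) ∧ D = E + w • E + S from
    key _ D le_rfl hD
  intro n
  induction n with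
  | zero =>
    intro D hn _
    refine ⟨0, 0, by simp, ?_⟩
    rw [Nat.le_zero, Finset.card_eq_zero, Finsupp.support_eq_empty] at hn
    simp [hn]
  | succ n ih =>
    intro D hn hD
    by_cases h : ∀ v ∈ D.support, v ∈ fixedPlaces w
    · exact ⟨0, D, h, by simp⟩
    push Not at h
    obtain ⟨v, hv, hfix⟩ := h
    have hne : w • v ≠ v := hfix
    set a := D v
    set T : Divisor K F := Finsupp.single v a + Finsupp.single (w • v) a with hT
    have hwv : D (w • v) = a := by rw [← smul_divisor_apply hw, hD]
    have hsub : (D - T).support ⊂ D.support := by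
      refine Finset.ssubset_iff_subset_ne.mpr ⟨fun u hu => ?_, fun he => ?_⟩
      · rw [Finsupp.mem_support_iff] at hu ⊢
        intro h0
        apply hu
        rcases eq_or_ne u v with rfl | huv
        · simp [T, a, Finsupp.single_eq_of_ne hne.symm]
        rcases eq_or_ne u (w • v) with rfl | huw
        · simp [T, hwv, Finsupp.single_eq_of_ne hne]
        simp [T, h0, Finsupp.single_eq_of_ne huv, Finsupp.single_eq_of_ne huw]
      · have : v ∈ (D - T).support := he ▸ hv
        simp [T, a, Finsupp.single_eq_of_ne hne.symm] at this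
    have hwT : w • T = T := by
      rw [hT, smul_add, Divisor.smul_single, Divisor.smul_single, smul_smul_place hw, add_comm]
    obtain ⟨E, S, hS, hDE⟩ := ih (D - T)
      (by have := Finset.card_lt_card hsub; omega) (by rw [smul_sub, hD, hwT])
    refine ⟨E + Finsupp.single v a, S, hS, ?_⟩
    rw [smul_add, Divisor.smul_single]
    have hDT : D = E + w • E + S + T := by rw [← hDE, sub_add_cancel]
    rw [hDT, hT]
    abel

/-- An anti-invariant divisor is of the form `E - w E`. -/
theorem exists_eq_sub_smul {D : Divisor K F} (hD : w • D = -D) :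
    ∃ E : Divisor K F, D = E - w • E := by
  classical
  suffices key : ∀ (n : ℕ) (D : Divisor K F), D.support.card ≤ n → w • D = -D →
      ∃ E : Divisor K F, D = E - w • E from key _ D le_rfl hD
  intro n
  induction n with
  | zero =>
    intro D hn _
    refine ⟨0, ?_⟩
    rw [Nat.le_zero, Finset.card_eq_zero, Finsupp.support_eq_empty] at hn
    simp [hn]
  | succ n ih =>
    intro D hn hD
    rcases D.support.eq_empty_or_nonempty with h | ⟨v, hv⟩
    · exact ⟨0, by simp [Finsupp.support_eq_empty.mp h]⟩
    set a := D v
    have hwv : D (w • v) = -a := by rw [← smul_divisor_apply hw, hD]; rfl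
    have hne : w • v ≠ v := fun h0 => by
      rw [h0] at hwv
      rw [Finsupp.mem_support_iff] at hv
      omega
    set T : Divisor K F := Finsupp.single v a - Finsupp.single (w • v) a with hT
    have hsub : (D - T).support ⊂ D.support := by
      refine Finset.ssubset_iff_subset_ne.mpr ⟨fun u hu => ?_, fun he => ?_⟩
      · rw [Finsupp.mem_support_iff] at hu ⊢
        intro h0
        apply hu
        rcases eq_or_ne u v with rfl | huv
        · simp [T, a, Finsupp.single_eq_of_ne hne.symm]
        rcases eq_or_ne u (w • v) with rfl | huw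
        · simp [T, hwv, Finsupp.single_eq_of_ne hne]
        simp [T, h0, Finsupp.single_eq_of_ne huv, Finsupp.single_eq_of_ne huw]
      · have : v ∈ (D - T).support := he ▸ hv
        simp [T, a, Finsupp.single_eq_of_ne hne.symm] at this
    have hwT : w • T = -T := by
      rw [hT, smul_sub, Divisor.smul_single, Divisor.smul_single, smul_smul_place hw, neg_sub]
    obtain ⟨E, hDE⟩ := ih (D - T)
      (by have := Finset.card_lt_card hsub; omega) (by rw [smul_sub, hD, hwT]; abel)
    refine ⟨E + Finsupp.single v a, ?_⟩
    rw [smul_add, Divisor.smul_single]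
    have hDT : D = E - w • E + T := by rw [← hDE, sub_add_cancel]
    rw [hDT, hT]
    abel

/-- A divisor supported on fixed places is invariant. -/
theorem smul_eq_self_of_fixed {S : Divisor K F} (hS : ∀ v ∈ S.support, v ∈ fixedPlaces w) :
    w • S = S := by
  ext v
  rw [smul_divisor_apply hw]
  by_cases hv : v ∈ S.support
  · rw [(hS v hv : w • v = v)]
  · by_cases hv' : w • v ∈ S.support
    · have h : w • w • v = w • v := hS _ hv'
      rw [smul_smul_place hw] at h
      rw [← h]
    · rw [Finsupp.notMem_support_iff.mp hv, Finsupp.notMem_support_iff.mp hv']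

variable [Curve.IsFunctionFieldOne K F]

theorem smul_divisorOf (f : F) :
    w • Curve.divisorOf K f = Curve.divisorOf K (w f) := by
  ext v
  rw [smul_divisor_apply hw, Curve.divisorOf_apply, Curve.divisorOf_apply, ord_apply' hw]

variable [IsAlgClosed K]

omit hw in
theorem exists_algebraMap_eq_of_divisorOf_eq {f g : F} (hf : f ≠ 0) (hg : g ≠ 0)
    (h : Curve.divisorOf K f = Curve.divisorOf K g) :
    ∃ c : K, c ≠ 0 ∧ g = algebraMap K F c * f := by
  have hmem : g / f ∈ riemannRochSpace (0 : Divisor K F) :=
    Curve.mem_riemannRochSpace_iff'.mpr (Or.inr fun v => by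
      have hv := congrArg (fun E : Divisor K F => E v) h
      simp only [Curve.divisorOf_apply] at hv
      rw [Curve.ord_div v hg hf, Finsupp.zero_apply]
      omega)
  obtain ⟨c, hc⟩ := Curve.exists_eq_algebraMap_of_mem_riemannRochSpace_zero hmem
  refine ⟨c, ?_, by rw [hc, div_mul_cancel₀ _ hf]⟩
  rintro rfl
  rw [map_zero] at hc
  exact div_ne_zero hg hf hc.symm

/-- A function with invariant divisor is invariant or anti-invariant. -/
theorem apply_eq_or_eq_neg {f : F} (hf : f ≠ 0)
    (h : w • Curve.divisorOf K f = Curve.divisorOf K f) : w f = f ∨ w f = -f := by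
  rw [smul_divisorOf hw] at h
  obtain ⟨c, hc0, hc⟩ := exists_algebraMap_eq_of_divisorOf_eq hf
    (fun h0 => hf (w.injective (h0.trans (map_zero w).symm))) h.symm
  have h2 := congrArg w hc
  rw [hw, map_mul, w.commutes, hc, ← mul_assoc, ← map_mul] at h2
  have hcc : c * c = 1 :=
    (algebraMap K F).injective (by
      rw [map_one]
      exact mul_right_cancel₀ hf (h2.symm.trans (one_mul f).symm))
  rcases mul_self_eq_one_iff.mp hcc with rfl | rfl
  · exact Or.inl (by rw [hc, map_one, one_mul])
  · exact Or.inr (by rw [hc, map_neg, map_one, neg_one_mul])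

omit hw in
/-- A regular element is congruent to a constant. -/
theorem exists_const_ord_pos (v : Place K F) {f : F} (hf : f ∈ v.toValuationSubring) :
    ∃ c : K, f - algebraMap K F c = 0 ∨ 0 < v.ord (f - algebraMap K F c) := by
  have : Module.Finite K v.ResidueField := Curve.finite_residueField v
  obtain ⟨c, hc⟩ := IsAlgClosed.algebraMap_bijective_of_isIntegral (k := K)
    (K := v.ResidueField) |>.surjective (IsLocalRing.residue _ ⟨f, hf⟩)
  refine ⟨c, ?_⟩
  have h : IsLocalRing.residue v.toValuationSubring
      (⟨f, hf⟩ - algebraMap K v.toValuationSubring c) = 0 := by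
    rw [map_sub, ← hc, sub_eq_zero]
    rfl
  exact (Curve.residue_eq_zero_iff v _).mp h

/-- At a fixed place an anti-invariant function has odd order. -/
theorem odd_ord_of_apply_eq_neg [NeZero (2 : K)] {v : Place K F} (hv : v ∈ fixedPlaces w) {f : F}
    (hf0 : f ≠ 0) (hf : w f = -f) : Odd (v.ord f) := by
  have hv' : w • v = v := hv
  by_contra hodd
  obtain ⟨k, hk⟩ := Int.not_odd_iff_even.mp hodd
  obtain ⟨t, ht0, ht⟩ := Curve.exists_ord_eq v 1
  have hwt : w t ≠ 0 := fun h0 => ht0 (w.injective (h0.trans (map_zero w).symm))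
  have hs0 : (t * w t) ^ k ≠ 0 := zpow_ne_zero _ (mul_ne_zero ht0 hwt)
  have hws : w ((t * w t) ^ k) = (t * w t) ^ k := by
    rw [map_zpow₀, map_mul, hw, mul_comm]
  set u := f / (t * w t) ^ k with hu
  have hu0 : u ≠ 0 := div_ne_zero hf0 hs0
  have hordu : v.ord u = 0 := by
    have h1 : v.ord (w t) = 1 := by rw [ord_apply' hw, hv', ht]
    rw [hu, Curve.ord_div v hf0 hs0, v.ord_zpow, v.ord_mul ht0 hwt, ht, h1, hk]
    ring
  have hwu : w u = -u := by rw [hu, map_div₀, hf, hws, neg_div]
  obtain ⟨c, hc⟩ := exists_const_ord_pos v (Curve.mem_of_ord_nonneg v hordu.ge)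
  have h2 : (2 : F) * algebraMap K F c =
      -((u - algebraMap K F c) + w (u - algebraMap K F c)) := by
    rw [map_sub, hwu, w.commutes]
    ring
  rcases eq_or_ne c 0 with rfl | hc0
  · rw [map_zero, sub_zero] at hc
    rcases hc with h | h
    · exact hu0 h
    · omega
  have h2c : (2 : F) * algebraMap K F c = algebraMap K F (2 * c) := by
    rw [map_mul, map_ofNat]
  have hne : (u - algebraMap K F c) + w (u - algebraMap K F c) ≠ 0 := by
    intro h0
    rw [h0, neg_zero, h2c, ← map_zero (algebraMap K F)] at h2
    exact mul_ne_zero (NeZero.ne (2 : K)) hc0 ((algebraMap K F).injective h2)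
  have h3 : 1 ≤ v.ord ((u - algebraMap K F c) + w (u - algebraMap K F c)) := by
    refine Curve.le_ord_add v 1 hne (fun h => ?_) (fun h => ?_)
    · have := hc.resolve_left h; omega
    · have h' : u - algebraMap K F c ≠ 0 := fun h0 => h (by rw [h0, map_zero])
      have := hc.resolve_left h'
      rw [ord_apply' hw, hv']
      omega
  rw [show (u - algebraMap K F c) + w (u - algebraMap K F c) = -((2 : F) * algebraMap K F c) by
    rw [h2, neg_neg], Curve.ord_neg, h2c, Curve.ord_algebraMap] at h3
  omega

end Fermat.Agent.Residual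

end
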