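/-
Tsen's theorem for the quadratic extension cut out by an involution of a function field of one
variable over an algebraically closed field: every invariant function is a norm `g * w g`.
-/
import Fermat.Agent.Curve.RiemannRochDuality
import Fermat.Agent.Curve.BasicInstances
import Mathlib.RingTheory.Ideal.KrullsHeightTheorem
import Mathlib.RingTheory.Nullstellensatz
import Mathlib.RingTheory.Ideal.Height

set_option autoImplicit false

noncomputable section

namespace Fermat.Agent.Residual

open AlgebraicCurve Fermat.Agent.Curve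

/-- Setting the first `i` variables to zero. -/
def killVars {K : Type*} [CommRing K] {n : ℕ} (i : ℕ) :
    MvPolynomial (Fin n) K →ₐ[K] MvPolynomial (Fin n) K :=
  MvPolynomial.aeval fun j => if (j : ℕ) < i then 0 else MvPolynomial.X j

/-- The maximal ideal at the origin of affine `n`-space has height at least `n`. -/
theorem le_height_vanishingIdeal_zero {K : Type*} [Field K] (n : ℕ) :
    (n : ℕ∞) ≤ (MvPolynomial.vanishingIdeal K {(0 : Fin n → K)}).height := by
  classical
  set P : ℕ → Ideal (MvPolynomial (Fin n) K) := fun i => RingHom.ker (killVars (K := K) i)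
  have hP : ∀ i, (P i).IsPrime := fun i => RingHom.ker_isPrime _
  have hmono : ∀ i, i < n → P i < P (i + 1) := by
    intro i hi
    refine lt_of_le_of_ne (fun p hp => ?_) fun e => ?_
    · have hc : ((killVars (i + 1)).comp (killVars i) :
          MvPolynomial (Fin n) K →ₐ[K] MvPolynomial (Fin n) K) = killVars (i + 1) := by
        refine MvPolynomial.algHom_ext fun j => ?_
        simp only [killVars, AlgHom.comp_apply, MvPolynomial.aeval_X]
        by_cases h1 : (j : ℕ) < i
        · rw [if_pos h1, map_zero, if_pos (Nat.lt_succ_of_lt h1)]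
        · rw [if_neg h1, MvPolynomial.aeval_X]
      have := DFunLike.congr_fun hc p
      simp only [P, RingHom.mem_ker] at hp ⊢
      rw [← this, AlgHom.comp_apply, hp, map_zero]
    · have h1 : (MvPolynomial.X ⟨i, hi⟩ : MvPolynomial (Fin n) K) ∈ P (i + 1) := by
        simp [P, RingHom.mem_ker, killVars]
      rw [← e] at h1
      simp [P, RingHom.mem_ker, killVars] at h1
  have hht : ∀ i, i ≤ n → (i : ℕ∞) ≤ (P i).height := by
    intro i hi
    induction i with
    | zero => exact bot_le
    | succ i ih =>
        have := hP i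
        have := hP (i + 1)
        rcases eq_or_ne (P (i + 1)).height ⊤ with htop | hfin
        · rw [htop]; exact le_top
        · have : (P (i + 1)).FiniteHeight := (P (i + 1)).finiteHeight_iff.mpr (Or.inr hfin)
          have hlt := Ideal.height_strict_mono_of_isPrime_of_isPrime (hmono i (by omega))
          have h3 := Order.add_one_le_of_lt (lt_of_le_of_lt (ih (by omega)) hlt)
          exact_mod_cast h3
  refine (hht n le_rfl).trans (Ideal.height_mono fun p hp => ?_)
  rw [MvPolynomial.mem_vanishingIdeal_singleton_iff]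
  have hc : (MvPolynomial.aeval (R := K) (0 : Fin n → K)).comp (killVars (K := K) (n := n) n) =
      MvPolynomial.aeval (0 : Fin n → K) := by
    refine MvPolynomial.algHom_ext fun j => ?_
    simp [killVars]
  have := DFunLike.congr_fun hc p
  simp only [P, RingHom.mem_ker] at hp
  rw [AlgHom.comp_apply, hp, map_zero] at this
  exact this.symm

/-- A quadratic map to a smaller space over an algebraically closed field has an isotropic
vector. -/
theorem exists_isotropic {K V W : Type*} [Field K] [IsAlgClosed K] [AddCommGroup V] [Module K V]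
    [AddCommGroup W] [Module K W] [Module.Finite K V] [Module.Finite K W]
    (β : V →ₗ[K] V →ₗ[K] W) (h : Module.finrank K W < Module.finrank K V) :
    ∃ v : V, v ≠ 0 ∧ β v v = 0 := by
  classical
  by_contra hcon
  push Not at hcon
  set n := Module.finrank K V with hn
  set b := Module.finBasis K V
  set c := Module.finBasis K W
  let Q : Fin (Module.finrank K W) → MvPolynomial (Fin n) K := fun k =>
    ∑ i, ∑ j, MvPolynomial.C (c.repr (β (b i) (b j)) k) * MvPolynomial.X i * MvPolynomial.X j
  have hQ : ∀ (x : Fin n → K) k, MvPolynomial.aeval x (Q k) =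
      c.repr (β (∑ i, x i • b i) (∑ j, x j • b j)) k := by
    intro x k
    simp only [Q, map_sum, map_mul, MvPolynomial.aeval_C, MvPolynomial.aeval_X,
      Algebra.algebraMap_self, RingHom.id_apply, map_smul, LinearMap.sum_apply,
      LinearMap.smul_apply, Finsupp.coe_finsetSum, Finset.sum_apply, Finsupp.smul_apply,
      smul_eq_mul, Finset.mul_sum]
    rw [Finset.sum_comm]
    exact Finset.sum_congr rfl fun i _ => Finset.sum_congr rfl fun j _ => by ring
  set I : Ideal (MvPolynomial (Fin n) K) := Ideal.span (Finset.univ.image Q : Finset _)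
  have hzero : MvPolynomial.zeroLocus K I = {0} := by
    ext x
    simp only [I, MvPolynomial.zeroLocus_span, Finset.coe_image, Finset.coe_univ,
      Set.image_univ, Set.mem_ofPred_eq, Set.forall_mem_range, Set.mem_singleton_iff]
    constructor
    · intro hx
      by_contra hx0
      refine hcon (∑ i, x i • b i) ?_ ?_
      · intro e
        exact hx0 (funext fun i => by
          simpa using Fintype.linearIndependent_iff.1 b.linearIndependent x e i)
      · refine c.ext_elem fun k => ?_
        rw [map_zero, Finsupp.zero_apply, ← hQ, hx k]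
    · rintro rfl k
      rw [hQ]
      simp
  set m := MvPolynomial.vanishingIdeal K {(0 : Fin n → K)} with hm
  have hrad : I.radical = m := by
    rw [hm, ← hzero, MvPolynomial.vanishingIdeal_zeroLocus_eq_radical]
  have hmin : m ∈ (Ideal.span (↑(Finset.univ.image Q) : Set (MvPolynomial (Fin n) K))).minimalPrimes := by
    refine ⟨⟨inferInstance, hrad ▸ Ideal.le_radical⟩, fun J hJ _ => ?_⟩
    rw [← hrad]
    exact hJ.1.radical_le_iff.2 hJ.2
  have h1 := Ideal.height_le_card_of_mem_minimalPrimes_span_finset hmin
  have h2 := (le_height_vanishingIdeal_zero (K := K) n).trans h1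
  have h3 : (Finset.univ.image Q).card ≤ Module.finrank K W :=
    Finset.card_image_le.trans (by simp)
  have : n ≤ (Finset.univ.image Q).card := by exact_mod_cast h2
  omega

variable {K F : Type*} [Field K] [Field F] [Algebra K F]

/-- Invariant functions of the Riemann-Roch space, and anti-invariant ones. -/
def eigenSpace (w : F ≃ₐ[K] F) (D : Divisor K F) (ε : K) : Submodule K F :=
  riemannRochSpace D ⊓ LinearMap.ker (w.toLinearMap - ε • LinearMap.id)

theorem mem_eigenSpace {w : F ≃ₐ[K] F} {D : Divisor K F} {ε : K} {f : F} :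
    f ∈ eigenSpace w D ε ↔ f ∈ riemannRochSpace D ∧ w f = ε • f := by
  rw [eigenSpace, Submodule.mem_inf, LinearMap.mem_ker, LinearMap.sub_apply, sub_eq_zero]
  rfl

theorem ord_apply_involution {w : F ≃ₐ[K] F} (hw : ∀ x, w (w x) = x) (v : Place K F) (f : F) :
    v.ord (w f) = (w • v).ord f := by
  have := Place.ord_smul w v (w f)
  rw [hw] at this
  exact this.symm

theorem apply_mem_riemannRochSpace {w : F ≃ₐ[K] F} (hw : ∀ x, w (w x) = x) {D : Divisor K F}
    (hD : ∀ v, D (w • v) = D v) {f : F} (hf : f ∈ riemannRochSpace D) :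
    w f ∈ riemannRochSpace D := by
  rw [mem_riemannRochSpace_iff] at hf ⊢
  intro v
  rcases hf (w • v) with h | h
  · exact Or.inl (by rw [h, map_zero])
  · refine Or.inr ?_
    rw [ord_apply_involution hw, ← hD]
    exact h

theorem mul_mem_riemannRochSpace_add {D E : Divisor K F} {f g : F} (hf : f ∈ riemannRochSpace D)
    (hg : g ∈ riemannRochSpace E) : f * g ∈ riemannRochSpace (D + E) := by
  rw [mem_riemannRochSpace_iff] at hf hg ⊢
  intro v
  rcases eq_or_ne f 0 with rfl | hf0
  · exact Or.inl (zero_mul g)
  rcases eq_or_ne g 0 with rfl | hg0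
  · exact Or.inl (mul_zero f)
  refine Or.inr ?_
  rw [v.ord_mul hf0 hg0, Finsupp.add_apply]
  rcases hf v with h | h
  · exact absurd h hf0
  rcases hg v with h' | h'
  · exact absurd h' hg0
  linarith

variable [IsAlgClosed K] [IsFunctionFieldOne K F]

/-- Tsen: every function fixed by an involution is a norm `g * w g`. -/
theorem exists_mul_involution_eq (h2 : (2 : K) ≠ 0) {w : F ≃ₐ[K] F} (hw : ∀ x, w (w x) = x)
    (hne : w ≠ 1) {f : F} (hf : w f = f) : ∃ g : F, g * w g = f := by
  classical
  rcases eq_or_ne f 0 with rfl | hf0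
  · exact ⟨0, zero_mul _⟩
  -- an anti-invariant function
  obtain ⟨s, hs0, hs⟩ : ∃ s : F, s ≠ 0 ∧ w s = -s := by
    obtain ⟨x, hx⟩ : ∃ x, w x ≠ x := by
      by_contra h
      push Not at h
      exact hne (AlgEquiv.ext h)
    exact ⟨x - w x, sub_ne_zero.2 fun e => hx e.symm, by rw [map_sub, hw]; ring⟩
  have h2F : (2 : F) ≠ 0 := by
    rw [← map_ofNat (algebraMap K F) 2]; exact (map_ne_zero _).2 h2
  have hst : Transcendental K s := by
    intro halg
    obtain ⟨c, hc⟩ := minpoly.degree_eq_one_iff.1
      (IsAlgClosed.degree_eq_one_of_irreducible K (minpoly.irreducible halg.isIntegral))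
    rw [← hc, w.commutes] at hs
    refine hs0 (hc ▸ ?_)
    have : (2 : F) * algebraMap K F c = 0 := by linear_combination hs
    exact (mul_eq_zero.1 this).resolve_left h2F
  set S := poleDivisor K s with hS
  set P := poleDivisor K f with hP
  have hSinv : ∀ v, S (w • v) = S v := fun v => by
    rw [hS, poleDivisor_apply, poleDivisor_apply, ← ord_apply_involution hw, hs, ord_neg]
  have hPinv : ∀ v, P (w • v) = P v := fun v => by
    rw [hP, poleDivisor_apply, poleDivisor_apply, ← ord_apply_involution hw, hf]
  have hS0 : 0 ≤ S := Finsupp.le_def.2 fun v => by simp [hS]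
  have hdeg : 1 ≤ Divisor.degree S := by
    rw [hS, degree_poleDivisor hst]
    exact_mod_cast finrank_adjoin_pos hst
  have hsS : s ∈ riemannRochSpace S := mem_riemannRochSpace_iff.2 fun v => Or.inr (by
    rw [hS, poleDivisor_apply]; omega)
  have hfP : f ∈ riemannRochSpace P := mem_riemannRochSpace_iff.2 fun v => Or.inr (by
    rw [hP, poleDivisor_apply]; omega)
  -- multiplication by `s` exchanges the eigenspaces
  have hswap : ∀ (D : Divisor K F) (ε : K), Module.finrank K (eigenSpace w D ε) ≤
      Module.finrank K (eigenSpace w (D + S) (-ε)) := by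
    intro D ε
    have hmap : ∀ a ∈ eigenSpace w D ε, LinearMap.mulRight K s a ∈ eigenSpace w (D + S) (-ε) := by
      intro a ha
      rw [mem_eigenSpace] at ha ⊢
      refine ⟨mul_mem_riemannRochSpace_add ha.1 hsS, ?_⟩
      simp only [LinearMap.mulRight_apply, map_mul, ha.2, hs, neg_smul, mul_neg, smul_mul_assoc]
    have : Module.Finite K (eigenSpace w (D + S) (-ε)) :=
      Submodule.finiteDimensional_of_le (inf_le_left : _ ≤ riemannRochSpace (D + S))
    refine LinearMap.finrank_le_finrank_of_injective
      (f := (LinearMap.mulRight K s).restrict hmap) fun a b e => Subtype.ext ?_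
    exact mul_right_cancel₀ hs0 (congrArg Subtype.val e)
  -- the two eigenspaces make up the whole space
  have hsplit : ∀ (D : Divisor K F), (∀ v, D (w • v) = D v) →
      Module.finrank K (eigenSpace w D 1) + Module.finrank K (eigenSpace w D (-1)) =
        ellDim D := by
    intro D hD
    have : Module.Finite K (eigenSpace w D 1) :=
      Submodule.finiteDimensional_of_le (inf_le_left : _ ≤ riemannRochSpace D)
    have : Module.Finite K (eigenSpace w D (-1)) :=
      Submodule.finiteDimensional_of_le (inf_le_left : _ ≤ riemannRochSpace D)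
    rw [← Submodule.finrank_sup_add_finrank_inf_eq,
      show eigenSpace w D 1 ⊔ eigenSpace w D (-1) = riemannRochSpace D from ?_,
      show eigenSpace w D 1 ⊓ eigenSpace w D (-1) = ⊥ from ?_, finrank_bot, add_zero]
    · refine (Submodule.eq_bot_iff _).2 fun a ha => ?_
      rw [Submodule.mem_inf, mem_eigenSpace, mem_eigenSpace, one_smul, neg_one_smul] at ha
      have : (2 : F) * a = 0 := by linear_combination ha.2.2 - ha.1.2
      exact (mul_eq_zero.1 this).resolve_left h2F
    · refine le_antisymm (sup_le inf_le_left inf_le_left) fun a ha => ?_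
      have hwa := apply_mem_riemannRochSpace hw hD ha
      refine Submodule.mem_sup.2 ⟨(2 : K)⁻¹ • (a + w a), ?_, (2 : K)⁻¹ • (a - w a), ?_, ?_⟩
      · rw [mem_eigenSpace, one_smul, map_smul, map_add, hw, add_comm (w a)]
        exact ⟨Submodule.smul_mem _ _ (add_mem ha hwa), rfl⟩
      · rw [mem_eigenSpace, neg_one_smul, map_smul, map_sub, hw, ← smul_neg, neg_sub]
        exact ⟨Submodule.smul_mem _ _ (sub_mem ha hwa), rfl⟩
      · rw [← smul_add, show a + w a + (a - w a) = (2 : K) • a by
          rw [two_smul]; abel, smul_smul, inv_mul_cancel₀ h2, one_smul]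
  -- dimension count
  set g := genusFF K F
  obtain ⟨m, hm⟩ : ∃ m : ℕ, m = 6 * g + 3 * (Divisor.degree P).toNat +
    10 * (Divisor.degree S).toNat + 8 := ⟨_, rfl⟩
  set D := (m : ℤ) • S with hD
  have hDinv : ∀ v, D (w • v) = D v := fun v => by
    simp only [hD, Finsupp.smul_apply, hSinv]
  set T := D + D + P with hT
  have hTinv : ∀ v, T (w • v) = T v := fun v => by
    simp only [hT, Finsupp.add_apply, hDinv, hPinv]
  have hdD : Divisor.degree D = m * Divisor.degree S := by
    rw [hD, map_zsmul, smul_eq_mul]
  have hdT : Divisor.degree T = 2 * (m * Divisor.degree S) + Divisor.degree P := by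
    rw [hT, map_add, map_add, hdD]; ring
  have hP0 : 0 ≤ P := Finsupp.le_def.2 fun v => by simp [hP]
  have hdP : 0 ≤ Divisor.degree P := degree_nonneg hP0
  -- lower bound for the invariant part of `L(D)`
  have e1 := hsplit (D - S) (fun v => by simp only [Finsupp.sub_apply, hDinv, hSinv])
  have e2 := hswap (D - S) (-1)
  rw [neg_neg, sub_add_cancel] at e2
  have e3 : Module.finrank K (eigenSpace w (D - S) 1) ≤ Module.finrank K (eigenSpace w D 1) := by
    have : Module.Finite K (eigenSpace w D 1) :=
      Submodule.finiteDimensional_of_le (inf_le_left : _ ≤ riemannRochSpace D)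
    refine Submodule.finrank_mono (inf_le_inf_right _ (riemannRochSpace_mono ?_))
    exact Finsupp.le_def.2 fun v => by
      have := Finsupp.le_def.1 hS0 v
      simp only [Finsupp.zero_apply, Finsupp.sub_apply] at this ⊢
      omega
  -- upper bound for the invariant part of `L(T)`
  have e4 := hsplit T hTinv
  have e5 := hswap (T - S) 1
  rw [sub_add_cancel] at e5
  have e6 := hsplit (T - S - S) (fun v => by simp only [Finsupp.sub_apply, hTinv, hSinv])
  have e7 := hswap (T - S - S) (-1)
  rw [neg_neg, sub_add_cancel] at e7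
  have e8 : Module.finrank K (eigenSpace w (T - S - S) 1) ≤
      Module.finrank K (eigenSpace w (T - S) 1) := by
    have : Module.Finite K (eigenSpace w (T - S) 1) :=
      Submodule.finiteDimensional_of_le (inf_le_left : _ ≤ riemannRochSpace (T - S))
    refine Submodule.finrank_mono (inf_le_inf_right _ (riemannRochSpace_mono ?_))
    exact Finsupp.le_def.2 fun v => by
      have := Finsupp.le_def.1 hS0 v
      simp only [Finsupp.zero_apply, Finsupp.sub_apply] at this ⊢
      omega
  have r1 := riemann_inequality D
  have r2 := riemann_inequality (D - S)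
  have r3 := riemann_inequality (T - S - S)
  have hT0 : 0 ≤ T := by
    have : (0 : Divisor K F) ≤ D := Finsupp.le_def.2 fun v => by
      have := Finsupp.le_def.1 hS0 v
      simp only [Finsupp.zero_apply, hD, Finsupp.smul_apply, smul_eq_mul] at this ⊢
      positivity
    exact add_nonneg (add_nonneg this this) hP0
  have r4 := ellDim_le_of_nonneg hT0
  rw [ellDim_zero] at r4
  have hlt : Module.finrank K (eigenSpace w T 1) <
      Module.finrank K (riemannRochSpace D) + Module.finrank K (eigenSpace w D 1) := by
    simp only [map_sub, hdD, hdT] at r1 r2 r3 r4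
    have : (0 : ℤ) ≤ g := Int.natCast_nonneg _
    have hmS : (m : ℤ) ≤ m * Divisor.degree S := le_mul_of_one_le_right (by positivity) hdeg
    simp only [ellDim] at *
    omega
  -- an isotropic vector
  have hV : Module.Finite K (eigenSpace w D 1) :=
    Submodule.finiteDimensional_of_le (inf_le_left : _ ≤ riemannRochSpace D)
  have hW : Module.Finite K (eigenSpace w T 1) :=
    Submodule.finiteDimensional_of_le (inf_le_left : _ ≤ riemannRochSpace T)
  obtain ⟨π, hπ⟩ := LinearMap.exists_extend (LinearMap.id : eigenSpace w T 1 →ₗ[K] eigenSpace w T 1)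
  set ι₁ : riemannRochSpace D × eigenSpace w D 1 →ₗ[K] F :=
    (riemannRochSpace D).subtype.comp (LinearMap.fst K _ _)
  set ι₂ : riemannRochSpace D × eigenSpace w D 1 →ₗ[K] F :=
    (eigenSpace w D 1).subtype.comp (LinearMap.snd K _ _)
  set β := ((LinearMap.mul K F).compl₁₂ ι₁ (w.toLinearMap.comp ι₁) -
    f • (LinearMap.mul K F).compl₁₂ ι₂ ι₂).compr₂ π with hβ
  obtain ⟨⟨a, e⟩, hne0, hae⟩ := exists_isotropic β (by rw [Module.finrank_prod]; exact hlt)
  have hmem : (a : F) * w a - f * ((e : F) * e) ∈ eigenSpace w T 1 := by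
    have he := mem_eigenSpace.1 e.2
    rw [one_smul] at he
    rw [mem_eigenSpace, one_smul]
    refine ⟨sub_mem ?_ ?_, ?_⟩
    · exact riemannRochSpace_mono (le_add_of_nonneg_right hP0)
        (mul_mem_riemannRochSpace_add a.2 (apply_mem_riemannRochSpace hw hDinv a.2))
    · rw [hT, add_comm (D + D)]
      exact mul_mem_riemannRochSpace_add hfP (mul_mem_riemannRochSpace_add he.1 he.1)
    · rw [map_sub, map_mul, map_mul, map_mul, hw, hf, he.2]; ring
  have hzero : (a : F) * w a - f * ((e : F) * e) = 0 := by
    have h1 : π ((a : F) * w a - f * ((e : F) * e)) = ⟨_, hmem⟩ :=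
      DFunLike.congr_fun hπ ⟨_, hmem⟩
    have h2 : π ((a : F) * w a - f * ((e : F) * e)) = 0 := by
      simpa [hβ, ι₁, ι₂] using hae
    exact congrArg Subtype.val (h1.symm.trans h2)
  have he0 : (e : F) ≠ 0 := fun e0 => hne0 (by
    rw [e0, mul_zero, mul_zero, sub_zero] at hzero
    rcases mul_eq_zero.1 hzero with h | h
    · exact Prod.ext (Subtype.ext h) (Subtype.ext e0)
    · exact Prod.ext (Subtype.ext (by simpa using h)) (Subtype.ext e0))
  refine ⟨(a : F) / e, ?_⟩
  have hwe : w (e : F) = e := by
    have := (mem_eigenSpace.1 e.2).2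
    rwa [one_smul] at this
  rw [map_div₀, hwe, div_mul_div_comm, div_eq_iff (mul_ne_zero he0 he0)]
  exact sub_eq_zero.1 hzero

/-- The form used by the invariant classes. -/
theorem exists_mul_apply_eq [CharZero K] (w : F ≃ₐ[K] F) (hw : ∀ f, w (w f) = f)
    (hne : w ≠ AlgEquiv.refl) {f : F} (hf : w f = f) : ∃ g : F, g * w g = f :=
  exists_mul_involution_eq two_ne_zero hw hne hf

end Fermat.Agent.Residual
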