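/-
An involution of a function field acting on divisor classes of degree zero: invariant classes are
norms up to classes supported on fixed places; anti-invariant classes are differences.
-/
import Fermat.Agent.Residual.AlinvInvolution
import Fermat.Agent.Residual.AlinvTsen

set_option autoImplicit false

noncomputable section

open AlgebraicCurve

namespace Fermat.Agent.Residual

variable {K F : Type*} [Field K] [Field F] [Algebra K F]

/-- Every invariant function is a norm. -/
def NormSurjective (w : F ≃ₐ[K] F) : Prop := ∀ f : F, w f = f → ∃ g : F, g * w g = f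

theorem mk_eq_mk_iff {D D' : Divisor.degZero (K := K) (F := F)} :
    Pic0.mk D = Pic0.mk D' ↔
      (D : Divisor K F) - (D' : Divisor K F) ∈ Divisor.principal (K := K) (F := F) := by
  rw [Pic0.mk, Pic0.mk, QuotientAddGroup.eq, AddSubgroup.mem_addSubgroupOf, ← neg_mem_iff]
  simp [sub_eq_add_neg, add_comm]

theorem mk_eq_of_eq {D D' : Divisor.degZero (K := K) (F := F)}
    (h : (D : Divisor K F) = (D' : Divisor K F)) : Pic0.mk D = Pic0.mk D' :=
  congrArg Pic0.mk (Subtype.ext h)

theorem smul_mk_degZero (w : F ≃ₐ[K] F) (D : Divisor.degZero (K := K) (F := F)) :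
    w • Pic0.mk D =
      Pic0.mk ⟨w • (D : Divisor K F), Divisor.smul_mem_degZero w D.2⟩ := rfl

/-- Classes of degree zero divisors supported on fixed places. -/
def fixedClasses (w : F ≃ₐ[K] F) : AddSubgroup (Pic0 K F) where
  carrier := {x | ∃ S : Divisor.degZero (K := K) (F := F),
    (∀ v ∈ (S : Divisor K F).support, v ∈ fixedPlaces w) ∧ Pic0.mk S = x}
  zero_mem' := ⟨0, by simp, rfl⟩
  add_mem' := by
    classical
    rintro _ _ ⟨S, hS, rfl⟩ ⟨S', hS', rfl⟩
    refine ⟨S + S', fun v hv => ?_, Pic0.mk_add S S'⟩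
    rcases Finset.mem_union.mp (Finsupp.support_add hv) with h | h
    exacts [hS v h, hS' v h]
  neg_mem' := by
    rintro _ ⟨S, hS, rfl⟩
    refine ⟨-S, fun v hv => hS v (by simpa using hv), rfl⟩

variable [Curve.IsFunctionFieldOne K F] [IsAlgClosed K] {w : F ≃ₐ[K] F}
  (hw : ∀ f, w (w f) = f)

include hw

omit [Curve.IsFunctionFieldOne K F] [IsAlgClosed K] in
theorem smul_smul_class (x : Pic0 K F) : w • w • x = x := by
  rw [smul_smul, mul_self_eq_one hw, one_smul]

omit hw [IsAlgClosed K] in
theorem exists_divisorOf_of_mem_principal {D : Divisor K F}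
    (h : D ∈ Divisor.principal (K := K) (F := F)) :
    ∃ f : F, f ≠ 0 ∧ D = Curve.divisorOf K f := by
  obtain ⟨f, hf, hD⟩ := h
  exact ⟨f, hf, Finsupp.ext fun v => by rw [Curve.divisorOf_apply, hD v]⟩

omit hw [IsAlgClosed K] in
theorem divisorOf_mem_principal {f : F} (hf : f ≠ 0) :
    Curve.divisorOf K f ∈ Divisor.principal (K := K) (F := F) :=
  ⟨f, hf, Curve.divisorOf_apply f⟩

/-- An invariant class has an invariant divisor. -/
theorem exists_invariant_representative (hne : w ≠ AlgEquiv.refl) {x : Pic0 K F}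
    (hx : w • x = x) :
    ∃ D : Divisor.degZero (K := K) (F := F), Pic0.mk D = x ∧
      w • (D : Divisor K F) = (D : Divisor K F) := by
  obtain ⟨D, rfl⟩ := Pic0.mk_surjective x
  rw [smul_mk_degZero, mk_eq_mk_iff] at hx
  obtain ⟨f, hf0, hD⟩ := exists_divisorOf_of_mem_principal hx
  change w • (D : Divisor K F) - (D : Divisor K F) = Curve.divisorOf K f at hD
  have hwf : w f ≠ 0 := fun h0 => hf0 (w.injective (h0.trans (map_zero w).symm))
  have hdiv : Curve.divisorOf K (f * w f) = Curve.divisorOf K f + w • Curve.divisorOf K f := by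
    rw [smul_divisorOf hw]
    ext v
    simp [v.ord_mul hf0 hwf]
  have hzero : Curve.divisorOf K (f * w f) = Curve.divisorOf K (1 : F) := by
    rw [hdiv, ← hD, smul_sub, smul_smul_divisor hw]
    ext v
    simp
  obtain ⟨c, hc0, hc⟩ := exists_algebraMap_eq_of_divisorOf_eq one_ne_zero
    (mul_ne_zero hf0 hwf) hzero.symm
  obtain ⟨u, hu⟩ := IsAlgClosed.exists_eq_mul_self c
  rw [mul_one] at hc
  have hu0 : u ≠ 0 := fun h0 => hc0 (by rw [hu, h0, mul_zero])
  have hu' : algebraMap K F u ≠ 0 := by simpa using hu0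
  obtain ⟨g, hg0, hg⟩ := exists_mul_apply_eq_self hw hne (f := f / algebraMap K F u) (by
    rw [map_div₀, w.commutes, div_mul_div_comm, hc, hu, map_mul,
      div_self (mul_ne_zero hu' hu')])
  refine ⟨⟨(D : Divisor K F) + Curve.divisorOf K g, by
    rw [Divisor.mem_degZero, map_add, Divisor.mem_degZero.mp D.2, Curve.degree_divisorOf,
      add_zero]⟩, ?_, ?_⟩
  · rw [mk_eq_mk_iff]
    simpa using divisorOf_mem_principal (K := K) hg0
  · show w • ((D : Divisor K F) + Curve.divisorOf K g) = (D : Divisor K F) + Curve.divisorOf K g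
    have hwg : w g ≠ 0 := fun h0 => hg0 (w.injective (h0.trans (map_zero w).symm))
    have h1 : Curve.divisorOf K g = Curve.divisorOf K f + Curve.divisorOf K (w g) := by
      ext v
      conv_lhs => rw [← hg]
      simp [v.ord_mul (div_ne_zero hf0 hu') hwg, Curve.ord_div v hf0 hu', Curve.ord_algebraMap]
    rw [smul_add, smul_divisorOf hw, h1, ← hD]
    abel

/-- An invariant class is a norm plus a class supported on fixed places. -/
theorem exists_add_smul_add_fixed (hne : w ≠ AlgEquiv.refl) {x : Pic0 K F} (hx : w • x = x) :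
    ∃ y : Pic0 K F, ∃ φ ∈ fixedClasses w, x = y + w • y + φ := by
  classical
  obtain ⟨D, rfl, hD⟩ := exists_invariant_representative hw hne hx
  obtain ⟨E, S, hS, hDE⟩ := exists_eq_add_smul_add hw hD
  have hdeg : 2 * Divisor.degree E + Divisor.degree S = 0 := by
    have h := Divisor.mem_degZero.mp D.2
    rw [hDE, map_add, map_add, Divisor.degree_smul] at h
    omega
  obtain ⟨v₀, hv₀⟩ : ∃ v₀ : Place K F, (∃ v, v ∈ S.support) → v₀ ∈ fixedPlaces w := by
    by_cases h : ∃ v, v ∈ S.support
    · exact ⟨h.choose, fun _ => hS _ h.choose_spec⟩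
    · obtain ⟨v, -⟩ := Curve.exists_place (K := K) (F := F)
      exact ⟨v, fun h' => absurd h' h⟩
  set e := Divisor.degree E with he
  by_cases hS0 : S = 0
  · have he0 : e = 0 := by rw [hS0, map_zero] at hdeg; omega
    refine ⟨Pic0.mk ⟨E, he0⟩, 0, zero_mem _, ?_⟩
    rw [add_zero, smul_mk_degZero, ← Pic0.mk_add]
    refine mk_eq_of_eq ?_
    show (D : Divisor K F) = E + w • E
    rw [hDE, hS0, add_zero]
  · have hfix : v₀ ∈ fixedPlaces w := hv₀ (Finsupp.support_nonempty_iff.mpr hS0)
    have hfix' : w • v₀ = v₀ := hfix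
    have hE' : E - Finsupp.single v₀ e ∈ Divisor.degZero (K := K) (F := F) := by
      rw [Divisor.mem_degZero, map_sub, Divisor.degree_single, Curve.deg_eq_one]
      simp [he]
    have hS' : S + Finsupp.single v₀ (2 * e) ∈ Divisor.degZero (K := K) (F := F) := by
      rw [Divisor.mem_degZero, map_add, Divisor.degree_single, Curve.deg_eq_one]
      push_cast
      omega
    refine ⟨Pic0.mk ⟨_, hE'⟩, Pic0.mk ⟨_, hS'⟩, ⟨⟨_, hS'⟩, fun v hv => ?_, rfl⟩, ?_⟩
    · rcases Finset.mem_union.mp (Finsupp.support_add hv) with h | h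
      · exact hS v h
      · rw [Finset.mem_singleton.mp (Finsupp.support_single_subset h)]
        exact hfix
    · rw [smul_mk_degZero, ← Pic0.mk_add, ← Pic0.mk_add]
      refine mk_eq_of_eq ?_
      show (D : Divisor K F) = E - Finsupp.single v₀ e + w • (E - Finsupp.single v₀ e) +
        (S + Finsupp.single v₀ (2 * e))
      rw [hDE, smul_sub, Divisor.smul_single, hfix', two_mul, Finsupp.single_add]
      abel

/-- Without fixed places every invariant class is a norm. -/
theorem exists_add_smul_of_fixedPlaces_empty (hne : w ≠ AlgEquiv.refl)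
    (h0 : fixedPlaces w = ∅) {x : Pic0 K F} (hx : w • x = x) :
    ∃ y : Pic0 K F, x = y + w • y := by
  obtain ⟨y, φ, ⟨S, hS, rfl⟩, h⟩ := exists_add_smul_add_fixed hw hne hx
  refine ⟨y, ?_⟩
  have hS0 : S = 0 := by
    refine Subtype.ext (Finsupp.support_eq_empty.mp (Finset.eq_empty_of_forall_notMem
      fun v hv => ?_))
    have := hS v hv
    rw [h0] at this
    exact this
  rwa [hS0, Pic0.mk_zero, add_zero] at h

/-- With a fixed place every anti-invariant class is a difference. -/
theorem exists_sub_smul_of_fixedPlaces_nonempty [NeZero (2 : K)] (hN : NormSurjective w)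
    {P : Place K F} (hP : P ∈ fixedPlaces w) {x : Pic0 K F} (hx : x + w • x = 0) :
    ∃ y : Pic0 K F, x = y - w • y := by
  classical
  obtain ⟨D, rfl⟩ := Pic0.mk_surjective x
  rw [smul_mk_degZero, ← Pic0.mk_add, ← Pic0.mk_zero, mk_eq_mk_iff] at hx
  obtain ⟨f, hf0, hD⟩ := exists_divisorOf_of_mem_principal hx
  simp only [AddSubgroup.coe_add, ZeroMemClass.coe_zero, sub_zero] at hD
  have hfix' : w • P = P := hP
  have hinv : w • Curve.divisorOf K f = Curve.divisorOf K f := by
    rw [← hD, smul_add, smul_smul_divisor hw, add_comm]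
  have hwf : w f = f := by
    refine (apply_eq_or_eq_neg hw hf0 hinv).resolve_right fun hneg => ?_
    have hodd := odd_ord_of_apply_eq_neg hw hP hf0 hneg
    rw [← Curve.divisorOf_apply (K := K) f P, ← hD, Finsupp.add_apply,
      smul_divisor_apply hw, hfix'] at hodd
    obtain ⟨k, hk⟩ := hodd
    omega
  obtain ⟨g, hg⟩ := hN f hwf
  have hg0 : g ≠ 0 := fun h0 => hf0 (by rw [← hg, h0, zero_mul])
  have hwg : w g ≠ 0 := fun h0 => hg0 (w.injective (h0.trans (map_zero w).symm))
  have hfg : Curve.divisorOf K f = Curve.divisorOf K g + w • Curve.divisorOf K g := by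
    rw [smul_divisorOf hw]
    ext v
    rw [← hg]
    simp [v.ord_mul hg0 hwg]
  set D' : Divisor K F := (D : Divisor K F) - Curve.divisorOf K g with hD'
  have hanti : w • D' = -D' := by
    rw [eq_neg_iff_add_eq_zero, hD', smul_sub]
    have h := hD.trans hfg
    calc w • (D : Divisor K F) - w • Curve.divisorOf K g +
          ((D : Divisor K F) - Curve.divisorOf K g)
        = ((D : Divisor K F) + w • (D : Divisor K F)) -
          (Curve.divisorOf K g + w • Curve.divisorOf K g) := by abel
      _ = 0 := by rw [h, sub_self]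
  obtain ⟨E, hE⟩ := exists_eq_sub_smul hw hanti
  set e := Divisor.degree E with he
  have hE' : E - Finsupp.single P e ∈ Divisor.degZero (K := K) (F := F) := by
    rw [Divisor.mem_degZero, map_sub, Divisor.degree_single, Curve.deg_eq_one]
    simp [he]
  refine ⟨Pic0.mk ⟨_, hE'⟩, ?_⟩
  rw [smul_mk_degZero, eq_sub_iff_add_eq, ← Pic0.mk_add, mk_eq_mk_iff]
  show (D : Divisor K F) + w • (E - Finsupp.single P e) - (E - Finsupp.single P e) ∈ _
  rw [smul_sub, Divisor.smul_single, hfix',
    show (D : Divisor K F) = D' + Curve.divisorOf K g by rw [hD', sub_add_cancel], hE]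
  convert divisorOf_mem_principal (K := K) hg0 using 1
  abel

omit hw in
/-- Tsen: the norm is surjective. -/
theorem normSurjective [CharZero K] (hw : ∀ f, w (w f) = f) (hne : w ≠ AlgEquiv.refl) :
    NormSurjective w :=
  fun _ hf => exists_mul_apply_eq w hw hne hf

end Fermat.Agent.Residual

end
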