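/-
Conjugation of `Γ₀(D)` by the Atkin–Lehner matrices.
-/
import Fermat.Agent.Residual.CMFixMatrix
import Fermat.Agent.ParHom.Defs
import Mathlib.NumberTheory.ModularForms.CongruenceSubgroups

set_option autoImplicit false

noncomputable section

namespace Fermat.Agent.Residual.CMFix.IsAL

open CongruenceSubgroup
open scoped MatrixGroups

variable {D d : ℕ} {X : IMat}

/-- `X γ adj(X) / d`, as an integer matrix. -/
def conjMat (X : IMat) (d : ℕ) (γ : IMat) : IMat :=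
  (X * γ * X.adjugate).map fun z => z / (d : ℤ)

theorem conjMat_spec (h : IsAL D d X) (hd : d ∣ D) {γ : IMat} (hγ : (D : ℤ) ∣ γ 1 0) :
    (d : ℤ) • conjMat X d γ = X * γ * X.adjugate ∧
      ((d : ℤ) * D) ∣ (X * γ * X.adjugate) 1 0 := by
  obtain ⟨x, hx⟩ := h.dvd00
  obtain ⟨w, hw⟩ := h.dvd11
  obtain ⟨z, hz⟩ := h.dvd10
  obtain ⟨m, hm⟩ := hγ
  obtain ⟨D', hD'⟩ := hd
  have hD : (D : ℤ) = d * D' := by exact_mod_cast hD'
  have key : ∀ i j, (d : ℤ) ∣ (X * γ * X.adjugate) i j := by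
    intro i j
    fin_cases i <;> fin_cases j <;>
      simp [Matrix.mul_apply, Fin.sum_univ_two, Matrix.adjugate_fin_two, hx, hw, hz, hm, hD] <;>
      ring_nf
    · exact ⟨x * γ 0 0 * d * w + X 0 1 * D' * m * d * w - x * γ 0 1 * d * D' * z
        - X 0 1 * γ 1 1 * D' * z, by ring⟩
    · exact ⟨-(x * γ 0 0 * X 0 1) - X 0 1 * D' * m * X 0 1 + x * γ 0 1 * d * x
        + X 0 1 * γ 1 1 * x, by ring⟩
    · exact ⟨D' * z * γ 0 0 * d * w + w * d * D' * m * d * w - D' * z * γ 0 1 * d * D' * z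
        - w * γ 1 1 * d * D' * z, by ring⟩
    · exact ⟨-(D' * z * γ 0 0 * X 0 1) - w * d * D' * m * X 0 1 + D' * z * γ 0 1 * d * x
        + w * γ 1 1 * d * x, by ring⟩
  refine ⟨?_, ?_⟩
  · ext i j
    simp only [conjMat, Matrix.smul_apply, Matrix.map_apply, smul_eq_mul]
    exact Int.mul_ediv_cancel' (key i j)
  · simp [Matrix.mul_apply, Fin.sum_univ_two, Matrix.adjugate_fin_two, hx, hw, hz, hm, hD]
    exact ⟨z * γ 0 0 * w + w * d * m * w - D' * z * γ 0 1 * z - w * γ 1 1 * z, by ring⟩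

theorem conjMat_det (h : IsAL D d X) (hd : d ∣ D) (hd0 : d ≠ 0) (γ : Gamma0 D) :
    (conjMat X d ((γ : SL(2, ℤ)) : IMat)).det = 1 := by
  have h1 := congrArg Matrix.det (conjMat_spec h hd
    ((ZMod.intCast_zmod_eq_zero_iff_dvd _ _).mp (Gamma0_mem.mp γ.2))).1
  rw [Matrix.det_smul, Fintype.card_fin, Matrix.det_mul, Matrix.det_mul, Matrix.det_adjugate,
    Fintype.card_fin, h.det_eq, (γ : SL(2, ℤ)).det_coe] at h1
  have hd2 : (d : ℤ) ^ 2 ≠ 0 := pow_ne_zero _ (by exact_mod_cast hd0)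
  exact mul_left_cancel₀ hd2 (by rw [h1]; ring)

/-- Conjugation `γ ↦ X γ X⁻¹` of `Γ₀(D)` by an Atkin–Lehner matrix. -/
def conj (h : IsAL D d X) (hd : d ∣ D) (hd0 : d ≠ 0) : Gamma0 D →* Gamma0 D :=
  MonoidHom.mk'
    (fun γ => ⟨⟨conjMat X d ((γ : SL(2, ℤ)) : IMat), conjMat_det h hd hd0 γ⟩, by
      obtain ⟨h1, h2⟩ := conjMat_spec h hd
        ((ZMod.intCast_zmod_eq_zero_iff_dvd _ _).mp (Gamma0_mem.mp γ.2))
      rw [← h1, Matrix.smul_apply, smul_eq_mul] at h2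
      exact Gamma0_mem.mpr ((ZMod.intCast_zmod_eq_zero_iff_dvd _ _).mpr
        ((mul_dvd_mul_iff_left (by exact_mod_cast hd0)).mp h2))⟩)
    fun γ δ => by
      have hs := fun γ : Gamma0 D => (conjMat_spec h hd
        ((ZMod.intCast_zmod_eq_zero_iff_dvd _ _).mp (Gamma0_mem.mp γ.2))).1
      refine Subtype.ext (Subtype.ext ?_)
      show conjMat X d ((γ * δ : Gamma0 D) : SL(2, ℤ))
        = conjMat X d ((γ : SL(2, ℤ)) : IMat) * conjMat X d ((δ : SL(2, ℤ)) : IMat)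
      have hd2 : (d : ℤ) * d ≠ 0 :=
        mul_ne_zero (by exact_mod_cast hd0) (by exact_mod_cast hd0)
      have e := hs (γ * δ)
      have e' : ((d : ℤ) • conjMat X d ((γ : SL(2, ℤ)) : IMat))
            * ((d : ℤ) • conjMat X d ((δ : SL(2, ℤ)) : IMat))
          = (d : ℤ) • (X * (((γ : SL(2, ℤ)) : IMat) * ((δ : SL(2, ℤ)) : IMat)) * X.adjugate) := by
        rw [hs γ, hs δ]
        calc _ = X * ((γ : SL(2, ℤ)) : IMat) * (X.adjugate * X)
              * ((δ : SL(2, ℤ)) : IMat) * X.adjugate := by simp only [mul_assoc]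
          _ = _ := by
            rw [Matrix.adjugate_mul, h.det_eq]
            simp only [Matrix.mul_smul, Matrix.smul_mul, mul_one, mul_assoc]
      refine smul_right_injective IMat hd2 ?_
      simp only
      rw [← smul_smul, e, ← smul_mul_smul_comm, e']
      rfl

theorem coe_conj (h : IsAL D d X) (hd : d ∣ D) (hd0 : d ≠ 0) (γ : Gamma0 D) :
    ((conj h hd hd0 γ : SL(2, ℤ)) : IMat) = conjMat X d ((γ : SL(2, ℤ)) : IMat) := rfl

theorem smul_conj (h : IsAL D d X) (hd : d ∣ D) (hd0 : d ≠ 0) (γ : Gamma0 D) :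
    (d : ℤ) • ((conj h hd hd0 γ : SL(2, ℤ)) : IMat)
      = X * ((γ : SL(2, ℤ)) : IMat) * X.adjugate := by
  rw [coe_conj]
  exact (conjMat_spec h hd ((ZMod.intCast_zmod_eq_zero_iff_dvd _ _).mp (Gamma0_mem.mp γ.2))).1

theorem tr_conj (h : IsAL D d X) (hd : d ∣ D) (hd0 : d ≠ 0) (γ : Gamma0 D) :
    ParHom.tr (conj h hd hd0 γ : SL(2, ℤ)) = ParHom.tr (γ : SL(2, ℤ)) := by
  have h1 := congrArg Matrix.trace (smul_conj h hd hd0 γ)
  rw [Matrix.trace_smul, Matrix.trace_mul_comm, ← mul_assoc, Matrix.adjugate_mul, h.det_eq,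
    Matrix.smul_mul, one_mul, Matrix.trace_smul] at h1
  exact mul_left_cancel₀ (by exact_mod_cast hd0 : (d : ℤ) ≠ 0) h1

/-- Pullback by the conjugation preserves parabolic-elliptic homomorphisms. -/
theorem isParEllHom_comp_conj (h : IsAL D d X) (hd : d ∣ D) (hd0 : d ≠ 0) {A : Type*}
    [AddCommGroup A] {φ : Additive (Gamma0 D) →+ A} (hφ : ParHom.IsParEllHom (Gamma0 D) φ) :
    ParHom.IsParEllHom (Gamma0 D) (φ.comp (MonoidHom.toAdditive (conj h hd hd0))) :=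
  fun γ hγ => hφ (conj h hd hd0 γ) (by rwa [tr_conj])

/-- The Atkin–Lehner operator on `H¹_par(Γ₀(D), A)`. -/
def pull (h : IsAL D d X) (hd : d ∣ D) (hd0 : d ≠ 0) (A : Type*) [AddCommGroup A] :
    Module.End ℤ (ParHom.parEllHoms (Gamma0 D) ℤ A) where
  toFun φ := ⟨(φ : Additive (Gamma0 D) →+ A).comp (MonoidHom.toAdditive (conj h hd hd0)),
    isParEllHom_comp_conj h hd hd0 φ.2⟩
  map_add' _ _ := rfl
  map_smul' _ _ := rfl

end Fermat.Agent.Residual.CMFix.IsAL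

end
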