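/-
Atkin–Lehner operators on weight two cusp forms for every `d ∣ D` with `(d, D/d) = 1`, and their
effect on periods.
-/
import Fermat.Agent.Residual.CountConj
import Fermat.Agent.Newform.AtkinForms
import Fermat.Agent.Ribet.OldEigen
import Fermat.Agent.HeckeCohom.Periods

set_option autoImplicit false

noncomputable section

namespace Fermat.Agent.Residual

open CongruenceSubgroup UpperHalfPlane ModularCurve
open Fermat.Agent.Newform (atkinGL atkinGL_mul atkinGL_coe_SL val_atkinGL atkinGL_det_pos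
  atkinInvariant_coe isZeroAt_slash_atkinGL exists_atkinData levelInclusion coe_levelInclusion)
open CMFix (IMat IsAL)
open scoped MatrixGroups ModularForm

namespace CMFix.IsAL

variable {D D' d e : ℕ} {X Y : IMat}

theorem det_ne (h : IsAL D d X) (hd0 : d ≠ 0) : X.det ≠ 0 := by
  rw [h.det_eq]; exact_mod_cast hd0

theorem mul (hX : IsAL D d X) (hY : IsAL D e Y) (hde : d * e ∣ D) : IsAL D (d * e) (X * Y) := by
  obtain ⟨x, hx⟩ := hX.dvd00
  obtain ⟨w, hw⟩ := hX.dvd11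
  obtain ⟨z, hz⟩ := hX.dvd10
  obtain ⟨x', hx'⟩ := hY.dvd00
  obtain ⟨w', hw'⟩ := hY.dvd11
  obtain ⟨z', hz'⟩ := hY.dvd10
  obtain ⟨c, hc⟩ := hde
  have hD : (D : ℤ) = (d : ℤ) * e * c := by exact_mod_cast hc
  refine ⟨by rw [Matrix.det_mul, hX.det_eq, hY.det_eq, Nat.cast_mul], ?_, ?_, ?_⟩
  · refine ⟨x * x' + X 0 1 * (c * z'), ?_⟩
    rw [Matrix.mul_apply, Fin.sum_univ_two, hx, hx', hz', hD]; push_cast; ring
  · refine ⟨w * w' + c * z * Y 0 1, ?_⟩
    rw [Matrix.mul_apply, Fin.sum_univ_two, hw, hw', hz, hD]; push_cast; ring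
  · refine ⟨z * e * x' + d * w * z', ?_⟩
    rw [Matrix.mul_apply, Fin.sum_univ_two, hw, hx', hz, hz']; ring

theorem of_dvd (h : IsAL D d X) (hD : D' ∣ D) : IsAL D' d X :=
  ⟨h.det_eq, h.dvd00, h.dvd11, (Int.natCast_dvd_natCast.mpr hD).trans h.dvd10⟩

/-- Two matrices for the same `(D, d)` differ by an element of `Γ₀(D)` on the left. -/
theorem exists_eq_mul (hX : IsAL D d X) (hY : IsAL D d Y) (hd : d ∣ D) (hd0 : d ≠ 0) :
    ∃ γ : IMat, γ.det = 1 ∧ (D : ℤ) ∣ γ 1 0 ∧ Y = γ * X := by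
  obtain ⟨x, hx⟩ := hX.dvd00
  obtain ⟨w, hw⟩ := hX.dvd11
  obtain ⟨z, hz⟩ := hX.dvd10
  obtain ⟨x', hx'⟩ := hY.dvd00
  obtain ⟨w', hw'⟩ := hY.dvd11
  obtain ⟨z', hz'⟩ := hY.dvd10
  obtain ⟨c, hc⟩ := hd
  have hD : (D : ℤ) = (d : ℤ) * c := by exact_mod_cast hc
  have hdz : (d : ℤ) ≠ 0 := by exact_mod_cast hd0
  set γ : IMat := !![(d : ℤ) * x' * w - Y 0 1 * (c * z), -(x' * X 0 1) + Y 0 1 * x;
    (D : ℤ) * (z' * w - w' * z), -((c : ℤ) * z' * X 0 1) + d * w' * x] with hγ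
  have hmul : (d : ℤ) • γ = Y * X.adjugate := by
    ext i j
    fin_cases i <;> fin_cases j <;>
      simp [hγ, Matrix.mul_apply, Fin.sum_univ_two, Matrix.adjugate_fin_two, hx, hw, hz, hx', hw',
        hz', hD] <;> ring
  have hdet : γ.det = 1 := by
    have h1 := congrArg Matrix.det hmul
    rw [Matrix.det_smul, Fintype.card_fin, Matrix.det_mul, Matrix.det_adjugate, Fintype.card_fin,
      hX.det_eq, hY.det_eq] at h1
    exact mul_left_cancel₀ (pow_ne_zero 2 hdz) (by rw [h1]; ring)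
  refine ⟨γ, hdet, by rw [hγ]; exact ⟨z' * w - w' * z, by simp⟩, ?_⟩
  refine smul_right_injective IMat hdz ?_
  show (d : ℤ) • Y = (d : ℤ) • (γ * X)
  rw [← Matrix.smul_mul, hmul, mul_assoc, Matrix.adjugate_mul, hX.det_eq, Matrix.mul_smul, mul_one]

/-- The square is `d` times an element of `Γ₀(D)`. -/
theorem exists_sq (hX : IsAL D d X) (hd : d ∣ D) (hd0 : d ≠ 0) :
    ∃ γ : IMat, γ.det = 1 ∧ (D : ℤ) ∣ γ 1 0 ∧ X * X = γ * !![(d : ℤ), 0; 0, (d : ℤ)] := by
  obtain ⟨x, hx⟩ := hX.dvd00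
  obtain ⟨w, hw⟩ := hX.dvd11
  obtain ⟨z, hz⟩ := hX.dvd10
  obtain ⟨c, hc⟩ := hd
  have hD : (D : ℤ) = (d : ℤ) * c := by exact_mod_cast hc
  have hdz : (d : ℤ) ≠ 0 := by exact_mod_cast hd0
  set γ : IMat := !![(d : ℤ) * x * x + X 0 1 * (c * z), X 0 1 * (x + w);
    (D : ℤ) * (z * (x + w)), (c : ℤ) * z * X 0 1 + d * w * w] with hγ
  have hmul : X * X = γ * !![(d : ℤ), 0; 0, (d : ℤ)] := by
    ext i j
    fin_cases i <;> fin_cases j <;>
      simp [hγ, Matrix.mul_apply, Fin.sum_univ_two, hx, hw, hz, hD] <;> ring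
  refine ⟨γ, ?_, by rw [hγ]; exact ⟨z * (x + w), by simp⟩, hmul⟩
  have h1 := congrArg Matrix.det hmul
  rw [Matrix.det_mul, Matrix.det_mul, hX.det_eq] at h1
  have hZ : (!![(d : ℤ), 0; 0, (d : ℤ)] : IMat).det = d * d := by simp [Matrix.det_fin_two_of]
  rw [hZ] at h1
  exact mul_right_cancel₀ (mul_ne_zero hdz hdz) (by linear_combination -h1)

/-- `conj γ * X = X * γ`. -/
theorem conj_mul (h : IsAL D d X) (hd : d ∣ D) (hd0 : d ≠ 0) (γ : Gamma0 D) :
    ((h.conj hd hd0 γ : SL(2, ℤ)) : IMat) * X = X * ((γ : SL(2, ℤ)) : IMat) := by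
  refine smul_right_injective IMat (show (d : ℤ) ≠ 0 by exact_mod_cast hd0) ?_
  show (d : ℤ) • _ = (d : ℤ) • _
  rw [← Matrix.smul_mul, smul_conj h hd hd0 γ, mul_assoc, Matrix.adjugate_mul, h.det_eq,
    Matrix.mul_smul, mul_one]

end CMFix.IsAL

open CMFix.IsAL

/-- Existence of Atkin–Lehner matrices. -/
theorem exists_isAL {D d : ℕ} (hd : d ∣ D) (hcop : Nat.Coprime d (D / d)) :
    ∃ X : IMat, IsAL D d X := by
  obtain ⟨u, v, huv⟩ : ∃ u v : ℤ, u * d + v * (D / d : ℕ) = 1 :=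
    Nat.isCoprime_iff_coprime.mpr hcop
  have hD : (D : ℤ) = d * (D / d : ℕ) := by exact_mod_cast (Nat.mul_div_cancel' hd).symm
  refine ⟨!![(d : ℤ), -v; (D : ℤ), d * u], ⟨?_, ?_, ?_, ?_⟩⟩
  · rw [Matrix.det_fin_two_of, hD]; linear_combination (d : ℤ) * huv
  · simp
  · simp
  · simp

variable {D d e : ℕ} {X Y : IMat}

/-- The Atkin–Lehner operator `f ↦ f ∣ X` in weight two. -/
def alLin [NeZero D] (h : IsAL D d X) (hd : d ∣ D) (hd0 : d ≠ 0) :
    Module.End ℂ (CuspForm (Gamma0 D) 2) where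
  toFun f :=
    { toFun := ⇑f ∣[(2 : ℤ)] atkinGL X
      slash_action_eq' := fun g hg => by
        obtain ⟨γ, hγ, rfl⟩ := hg
        have e1 : atkinGL X * (Matrix.SpecialLinearGroup.mapGL ℝ γ : GL (Fin 2) ℝ)
            = Matrix.SpecialLinearGroup.mapGL ℝ (h.conj hd hd0 ⟨γ, hγ⟩ : SL(2, ℤ)) * atkinGL X := by
          rw [← atkinGL_coe_SL, ← atkinGL_coe_SL, ← atkinGL_mul (h.det_ne hd0) (by simp),
            ← atkinGL_mul (by simp) (h.det_ne hd0), conj_mul]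
        show (⇑f ∣[(2 : ℤ)] atkinGL X) ∣[(2 : ℤ)] _ = ⇑f ∣[(2 : ℤ)] atkinGL X
        rw [← SlashAction.slash_mul, e1, SlashAction.slash_mul,
          SlashInvariantFormClass.slash_action_eq f _
            (Subgroup.mem_map_of_mem _ (h.conj hd hd0 ⟨γ, hγ⟩).2)]
      holo' := (CuspFormClass.holo f).slash 2 _
      zero_at_cusps' := fun hc => isZeroAt_slash_atkinGL f (h.det_ne hd0) hc }
  map_add' f g := DFunLike.coe_injective <|
    show (⇑(f + g)) ∣[(2 : ℤ)] atkinGL X = ⇑f ∣[(2 : ℤ)] atkinGL X + ⇑g ∣[(2 : ℤ)] atkinGL X by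
      rw [FunLike.coe_add, SlashAction.add_slash]
  map_smul' c f := DFunLike.coe_injective <|
    show (⇑(c • f)) ∣[(2 : ℤ)] atkinGL X = c • (⇑f ∣[(2 : ℤ)] atkinGL X) by
      rw [FunLike.coe_smul, ModularForm.smul_slash, UpperHalfPlane.σ,
        if_pos (atkinGL_det_pos (by rw [h.det_eq]; exact_mod_cast Nat.pos_of_ne_zero hd0))]
      rfl

@[simp] theorem coe_alLin [NeZero D] (h : IsAL D d X) (hd : d ∣ D) (hd0 : d ≠ 0)
    (f : CuspForm (Gamma0 D) 2) : ⇑(alLin h hd hd0 f) = ⇑f ∣[(2 : ℤ)] atkinGL X := rfl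

variable [NeZero D]

/-- The operator does not depend on the matrix. -/
theorem alLin_eq (hX : IsAL D d X) (hY : IsAL D d Y) (hd : d ∣ D) (hd0 : d ≠ 0) :
    alLin hX hd hd0 = alLin hY hd hd0 := by
  obtain ⟨γ, hγ1, hγ2, rfl⟩ := exists_eq_mul hX hY hd hd0
  refine LinearMap.ext fun f => DFunLike.coe_injective ?_
  rw [coe_alLin, coe_alLin,
    (atkinInvariant_coe f).slash_atkinGL_mul hγ1 hγ2 (hX.det_ne hd0)]

theorem alLin_comp (hX : IsAL D d X) (hY : IsAL D e Y) (hd : d ∣ D) (hd0 : d ≠ 0) (he : e ∣ D)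
    (he0 : e ≠ 0) (hde : d * e ∣ D) :
    alLin hY he he0 * alLin hX hd hd0
      = alLin (hX.mul hY hde) hde (mul_ne_zero hd0 he0) :=
  LinearMap.ext fun f => DFunLike.coe_injective <| by
    show (⇑f ∣[(2 : ℤ)] atkinGL X) ∣[(2 : ℤ)] atkinGL Y = ⇑f ∣[(2 : ℤ)] atkinGL (X * Y)
    rw [← SlashAction.slash_mul, atkinGL_mul (hX.det_ne hd0) (hY.det_ne he0)]

/-- The operator is an involution. -/
theorem alLin_alLin (hX : IsAL D d X) (hd : d ∣ D) (hd0 : d ≠ 0) (f : CuspForm (Gamma0 D) 2) :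
    alLin hX hd hd0 (alLin hX hd hd0 f) = f := by
  refine DFunLike.coe_injective ?_
  obtain ⟨γ, hγ1, hγ2, hsq⟩ := exists_sq hX hd hd0
  show (⇑f ∣[(2 : ℤ)] atkinGL X) ∣[(2 : ℤ)] atkinGL X = ⇑f
  rw [← SlashAction.slash_mul, ← atkinGL_mul (hX.det_ne hd0) (hX.det_ne hd0), hsq,
    (atkinInvariant_coe f).slash_atkinGL_mul hγ1 hγ2
      (by rw [Matrix.det_fin_two_of]; simp [hd0]),
    Fermat.Agent.Ribet.slash_scalar_two _ hd0]

theorem alLin_one (hX : IsAL D 1 X) : alLin hX (one_dvd D) one_ne_zero = 1 :=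
  LinearMap.ext fun f => DFunLike.coe_injective <| by
    show ⇑f ∣[(2 : ℤ)] atkinGL X = ⇑f
    exact (atkinInvariant_coe f).slash_atkinGL (by simpa using hX.det_eq) hX.dvd10

/-- Compatibility with the inclusion of a lower level. -/
theorem alLin_levelInclusion {D' : ℕ} [NeZero D'] (hX : IsAL D d X) (hD : D' ∣ D) (hd : d ∣ D)
    (hd' : d ∣ D') (hd0 : d ≠ 0) (f : CuspForm (Gamma0 D') 2) :
    alLin hX hd hd0 (levelInclusion 2 hD f)
      = levelInclusion 2 hD (alLin (hX.of_dvd hD) hd' hd0 f) :=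
  DFunLike.coe_injective <| by rw [coe_alLin, coe_levelInclusion, coe_levelInclusion, coe_alLin]

/-- At a prime `q` with `D = q * M`, the operator is `W_q`. -/
theorem alLin_eq_wLin {q M : ℕ} (A : Fermat.Agent.Newform.AtkinData q M) (hD : D = q * M)
    (hX : IsAL D q X) (hq : q ∣ D) (hq0 : q ≠ 0) : alLin hX hq hq0 = A.wLin 2 hD := by
  have hW : IsAL D q A.W := by
    refine ⟨A.det_W, ?_, ?_, ?_⟩ <;>
      simp [Fermat.Agent.Newform.AtkinData.W, hD]
  rw [alLin_eq hX hW hq hq0]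
  exact LinearMap.ext fun f => DFunLike.coe_injective rfl

/-- For squarefree level the operators commute with the good Hecke operators. -/
theorem alLin_heckeT (hD : Squarefree D) (hX : IsAL D d X) (hd : d ∣ D) (hd0 : d ≠ 0) {ℓ : ℕ}
    (hℓ : ℓ.Prime) (hℓD : ¬ ℓ ∣ D) (f : CuspForm (Gamma0 D) 2) :
    CuspForm.heckeTLin 2 hℓ hℓD (alLin hX hd hd0 f)
      = alLin hX hd hd0 (CuspForm.heckeTLin 2 hℓ hℓD f) := by
  induction d using Nat.strong_induction_on generalizing X f with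
  | _ d ih =>
    rcases eq_or_ne d 1 with rfl | hd1
    · rw [alLin_one hX]; rfl
    obtain ⟨q, hq, hqd⟩ := Nat.exists_prime_and_dvd hd1
    obtain ⟨c, rfl⟩ := hqd
    have hc0 : c ≠ 0 := right_ne_zero_of_mul hd0
    have hqD : q ∣ D := dvd_of_mul_right_dvd hd
    have hcD : c ∣ D := dvd_of_mul_left_dvd hd
    have hcop : ∀ {k : ℕ}, k ∣ D → Nat.Coprime k (D / k) := fun {k} hk =>
      Nat.coprime_of_squarefree_mul ((Nat.mul_div_cancel' hk).symm ▸ hD)
    obtain ⟨Xq, hXq⟩ := exists_isAL hqD (hcop hqD)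
    obtain ⟨Xc, hXc⟩ := exists_isAL hcD (hcop hcD)
    have hlt : c < q * c := lt_mul_left (Nat.pos_of_ne_zero hc0) hq.one_lt
    rw [alLin_eq hX (hXq.mul hXc hd) hd hd0, ← alLin_comp hXq hXc hqD hq.ne_zero hcD hc0 hd]
    simp only [Module.End.mul_apply]
    rw [ih c hlt hXc hcD hc0]
    obtain ⟨M, hM⟩ := hqD
    have hqM : ¬ q ∣ M := fun h => hq.ne_one
      (Nat.isUnit_iff.mp (hD q (by rw [hM]; exact mul_dvd_mul_left q h)))
    obtain ⟨A⟩ := exists_atkinData hq hqM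
    rw [alLin_eq_wLin A hM hXq (hM ▸ dvd_mul_right q M) hq.ne_zero, A.wLin_heckeT 2 hM hℓ hℓD f]

/-- Periods turn `f ∣ X` into the pullback by conjugation. -/
theorem periodMap_alLin (hX : IsAL D d X) (hd : d ∣ D) (hd0 : d ≠ 0)
    (f : CuspForm (Gamma0 D) 2) :
    periodMap D (alLin hX hd hd0 f)
      = (periodMap D f).comp (MonoidHom.toAdditive (hX.conj hd hd0)) := by
  obtain ⟨F, hF⟩ := Periods.exists_hasEquivariantPrimitive f
  have hdet : 0 < X.det := by rw [hX.det_eq]; exact_mod_cast Nat.pos_of_ne_zero hd0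
  have hpos : 0 < ((atkinGL X).det : ℝ) := atkinGL_det_pos hdet
  have hG : Periods.IsPrimitive (alLin hX hd hd0 f) (fun w => F (atkinGL X • w)) := by
    intro τ
    have h := HeckeCohom.hasDerivAt_comp_smul hF.1 (atkinGL X)
      (by simpa [Matrix.GeneralLinearGroup.val_det_apply] using hpos) τ
    refine h.congr_deriv ?_
    rw [coe_alLin, ModularForm.slash_apply, UpperHalfPlane.σ, if_pos hpos,
      ContinuousAlgEquiv.refl_apply, Matrix.GeneralLinearGroup.val_det_apply,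
      abs_of_pos (by simpa [Matrix.GeneralLinearGroup.val_det_apply] using hpos)]
    simp [zpow_neg, zpow_ofNat, div_eq_mul_inv, mul_assoc]
  refine AddMonoidHom.ext fun a => ?_
  obtain ⟨γ, rfl⟩ := Additive.ofMul.surjective a
  rw [Periods.periodMap_apply _ hG γ UpperHalfPlane.I]
  show _ = periodMap D f (Additive.ofMul (hX.conj hd hd0 γ))
  rw [Periods.periodMap_apply f hF.1 _ (atkinGL X • UpperHalfPlane.I)]
  have key : ∀ z : ℍ, atkinGL X • ((γ : SL(2, ℤ)) • z)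
      = (hX.conj hd hd0 γ : SL(2, ℤ)) • (atkinGL X • z) := by
    intro z
    show atkinGL X • (Matrix.SpecialLinearGroup.mapGL ℝ (γ : SL(2, ℤ)) • z)
      = Matrix.SpecialLinearGroup.mapGL ℝ (hX.conj hd hd0 γ : SL(2, ℤ)) • (atkinGL X • z)
    rw [← mul_smul, ← mul_smul, ← atkinGL_coe_SL, ← atkinGL_coe_SL,
      ← atkinGL_mul (hX.det_ne hd0) (by simp), ← atkinGL_mul (by simp) (hX.det_ne hd0), conj_mul]
  simp only [key]

/-- The pullback commutes with `charInvolution` on homomorphisms to an abelian group. -/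
theorem charInvolution_comp_conj (hX : IsAL D d X) (hd : d ∣ D) (hd0 : d ≠ 0)
    (φ : Additive (Gamma0 D) →+ ℂ) :
    Period.charInvolution D ℂ ℂ (φ.comp (MonoidHom.toAdditive (hX.conj hd hd0)))
      = (Period.charInvolution D ℂ ℂ φ).comp (MonoidHom.toAdditive (hX.conj hd hd0)) := by
  have hX' : IsAL D d (Period.jConjMat X) := by
    refine ⟨?_, ?_, ?_, ?_⟩
    · rw [Period.jConjMat_det, hX.det_eq]
    · rw [Period.jConjMat_apply_zero_zero]; exact hX.dvd00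
    · rw [Period.jConjMat_apply_one_one]; exact hX.dvd11
    · rw [Period.jConjMat_apply_one_zero]; exact dvd_neg.mpr hX.dvd10
  obtain ⟨δ, hδ1, hδ2, hδ⟩ := exists_eq_mul hX hX' hd hd0
  let δ' : Gamma0 D := ⟨⟨δ, hδ1⟩, Gamma0_mem.mpr ((ZMod.intCast_zmod_eq_zero_iff_dvd _ _).mpr hδ2)⟩
  refine AddMonoidHom.ext fun a => ?_
  obtain ⟨γ, rfl⟩ := Additive.ofMul.surjective a
  show φ (Additive.ofMul (hX.conj hd hd0 (Period.jConjGamma0 D γ)))
    = φ (Additive.ofMul (Period.jConjGamma0 D (hX.conj hd hd0 γ)))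
  set x := hX.conj hd hd0 (Period.jConjGamma0 D γ) with hx
  set y := Period.jConjGamma0 D (hX.conj hd hd0 γ) with hy
  have hrel : δ' * x = y * δ' := by
    refine Subtype.ext (Subtype.ext ?_)
    show δ * ((x : SL(2, ℤ)) : IMat) = ((y : SL(2, ℤ)) : IMat) * δ
    refine smul_right_injective IMat (show (d : ℤ) ≠ 0 by exact_mod_cast hd0) ?_
    show (d : ℤ) • _ = (d : ℤ) • _
    have e1 : δ * ((x : SL(2, ℤ)) : IMat) * X = ((y : SL(2, ℤ)) : IMat) * δ * X := by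
      rw [mul_assoc, hx, conj_mul, ← mul_assoc, ← hδ, mul_assoc, ← hδ, hy]
      show Period.jConjMat X * Period.jConjMat _ = Period.jConjMat _ * Period.jConjMat X
      rw [← Period.jConjMat_mul, ← Period.jConjMat_mul, conj_mul]
    have e2 := congrArg (fun Z : IMat => Z * X.adjugate) e1
    simp only [mul_assoc _ X, Matrix.mul_adjugate, hX.det_eq, Matrix.mul_smul, mul_one] at e2
    exact e2
  have h := congrArg (fun z => φ (Additive.ofMul z)) hrel
  simp only [ofMul_mul, map_add] at h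
  rw [add_comm] at h
  exact add_right_cancel h

/-- The period pairing intertwines `f ↦ f ∣ X` with the pullback. -/
theorem periodHomPair_alLin (hX : IsAL D d X) (hd : d ∣ D) (hd0 : d ≠ 0)
    (x : CuspForm (Gamma0 D) 2 × CuspForm (Gamma0 D) 2) :
    periodHomPair D (alLin hX hd hd0 x.1, alLin hX hd hd0 x.2)
      = (periodHomPair D x).comp (MonoidHom.toAdditive (hX.conj hd hd0)) := by
  obtain ⟨f, g⟩ := x
  simp only [Periods.periodHomPair_apply, periodMap_alLin, charInvolution_comp_conj]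
  rfl

end Fermat.Agent.Residual

end
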