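/-
Residual modularity at 3, counting step: the systems of eigenvalues modulo a prime over `2`, the
part of `J₀(D)[2^∞]` at such a system, and what is needed about the Atkin–Lehner involutions on it.
-/
import Fermat.Agent.Residual.CountConj
import Fermat.Agent.Torsion.Main
import Fermat.Prelude.Def_CuspForm_Newforms

set_option autoImplicit false

noncomputable section

namespace Fermat.Agent.Residual

open ModularCurve CongruenceSubgroup ModularFormClass

/-- The form `f` has eigenvalues congruent to `a` modulo `𝔪` at the primes not dividing `R`. -/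
def InSys (𝔪 : Ideal (integralClosure ℤ ℂ)) (a : ℕ → ℤ) (R : ℕ) {M : ℕ}
    (f : CuspForm (Gamma0 M) 2) : Prop :=
  ∀ ℓ : ℕ, ℓ.Prime → ¬ ℓ ∣ R →
    ∃ z : integralClosure ℤ ℂ, (z : ℂ) = qCoeff f ℓ ∧ z - (a ℓ : integralClosure ℤ ℂ) ∈ 𝔪

/-- The newforms of level `M` in the system whose Atkin–Lehner signs are `s`
(`a_q = - s q` at the primes of the level). -/
def newformsIn (M : ℕ) (𝔪 : Ideal (integralClosure ℤ ℂ)) (a : ℕ → ℤ) (R : ℕ) (s : ℕ → ℤ) :
    Set (CuspForm (Gamma0 M) 2) :=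
  {f | f.IsNewform ∧ InSys 𝔪 a R f ∧ ∀ q ∈ M.primeFactors, qCoeff f q = -(s q : ℂ)}

/-- The `2`-power torsion of `J₀(D)` on which every `T_ℓ - a ℓ`, `ℓ ∤ R`, is locally nilpotent. -/
def sysPart (D : ℕ) [NeZero D] (a : ℕ → ℤ) (R : ℕ) : Submodule ℤ (JZero D) :=
  (⨅ (ℓ : Nat.Primes) (_ : ¬ (ℓ : ℕ) ∣ R),
      Module.End.maxGenEigenspace (heckeOperatorBar D ℓ) (a ℓ)) ⊓
    Module.End.maxGenEigenspace ((2 : ℤ) • (1 : Module.End ℤ (JZero D))) 0

/-- `w` acts on the torsion of `J₀(D)` as the Atkin–Lehner involution attached to `d`. -/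
def IsALAction (D d : ℕ) [NeZero D] (w : JZero D →+ JZero D) : Prop :=
  ∃ (X : CMFix.IMat) (hX : CMFix.IsAL D d X) (hd : d ∣ D) (hd0 : d ≠ 0),
    ∀ (n : ℕ) [NeZero n] (φ : Torsion.CharMod D n),
      w (Torsion.torsionEquiv D n φ : JZero D)
        = (Torsion.torsionEquiv D n (hX.pull hd hd0 (ZMod n) φ) : JZero D)

/-- `M = sysPart D a R` is induced for the involution attached to `d`: its fixed elements of
order two lie in `(1 + w) M` and in `(1 - w) M`. -/
def Balanced (D d : ℕ) [NeZero D] (a : ℕ → ℤ) (R : ℕ) : Prop :=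
  ∃ w : JZero D →+ JZero D, IsALAction D d w ∧
    ∀ x ∈ sysPart D a R, 2 • x = 0 → w x = x →
      (∃ y ∈ sysPart D a R, x = y + w y) ∧ ∃ y ∈ sysPart D a R, x = y - w y

/-- The `- 1` part of the involution attached to `d` on `M = sysPart D a R` exceeds the `+ 1`
part by at least `2 h`: `x ∈ (1 - w) M` for fixed `x` of order two, and `M^w / (1 + w) M` has at
least `2 ^ (2 h)` elements. -/
def Excess (D d : ℕ) [NeZero D] (a : ℕ → ℤ) (R h : ℕ) : Prop :=
  ∃ w : JZero D →+ JZero D, IsALAction D d w ∧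
    (∀ x ∈ sysPart D a R, 2 • x = 0 → w x = x → ∃ y ∈ sysPart D a R, x = y - w y) ∧
    ∃ F : Fin (2 ^ (2 * h)) → JZero D, (∀ i, F i ∈ sysPart D a R ∧ w (F i) = F i) ∧
      ∀ i j, ∀ y ∈ sysPart D a R, F i - F j = y + w y → i = j

end Fermat.Agent.Residual

end
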