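/-
The Atkin-Lehner involution of `J₀(D)` on torsion classes: pullback of the character by the
conjugation with an Atkin-Lehner matrix.
-/
import Fermat.Agent.Residual.ALBar
import Fermat.Agent.Residual.AlinvClasses
import Fermat.Agent.Residual.CountAL
import Fermat.Agent.Residual.CountDefs
import Fermat.Agent.Torsion.Main

set_option autoImplicit false

noncomputable section

open UpperHalfPlane CongruenceSubgroup ModularCurve AlgebraicCurve Filter
open scoped MatrixGroups Topology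

namespace Fermat.Agent.Residual

open Fermat.Agent CMFix

local notation "ℚbar" => AlgebraicClosure ℚ

variable {D d : ℕ} [NeZero D] {W : IMat}

/-- The involution `w_d` of `J₀(D)`. -/
def alJZero (hW : IsAL D d W) (hd : d ∣ D) : JZero D →+ JZero D :=
  AddMonoidHom.mk' (fun x => alBar hW hd • x) (fun x y => smul_add _ x y)

theorem alJZero_apply (hW : IsAL D d W) (hd : d ∣ D) (x : JZero D) :
    alJZero hW hd x = alBar hW hd • x :=
  rfl

/-- The Möbius map of `W` on `ℂ` (relevant on the upper half plane). -/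
def glMap (W : IMat) (z : ℂ) : ℂ := ((Newform.atkinGL W • ofComplex z : ℍ) : ℂ)

/-- A root of `f` gives a root of `f ∘ W`. -/
theorem isRoot_comp_glMap {n : ℕ} {F g : ℂ → ℂ} (hW : 0 < W.det)
    (hg : Multiplier.IsRoot n F g) :
    Multiplier.IsRoot n (F ∘ glMap W) (g ∘ glMap W) := by
  have hdet := Newform.atkinGL_det_pos hW
  have han : ∀ τ : ℍ, AnalyticAt ℂ (glMap W) (τ : ℂ) :=
    fun τ => UpperHalfPlane.analyticAt_smul hdet τ
  have hderiv : ∀ τ : ℍ, deriv (glMap W) (τ : ℂ) ≠ 0 :=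
    fun τ => UpperHalfPlane.deriv_smul_ne_zero hdet τ
  refine ⟨fun z hz => ?_, fun z hz => ?_, fun z hz => ?_⟩
  · obtain ⟨τ, rfl⟩ : ∃ τ : ℍ, (τ : ℂ) = z := ⟨⟨z, hz⟩, rfl⟩
    exact (meromorphicNFAt_comp_iff_of_deriv_ne_zero (han τ) (hderiv τ)).2
      (hg.meromorphicNFOn (Newform.atkinGL W • ofComplex (τ : ℂ)).im_pos)
  · obtain ⟨τ, rfl⟩ : ∃ τ : ℍ, (τ : ℂ) = z := ⟨⟨z, hz⟩, rfl⟩
    have ht : Tendsto (glMap W) (𝓝[≠] (τ : ℂ)) (𝓝[≠] (glMap W τ)) := by
      refine tendsto_nhdsWithin_iff.2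
        ⟨(han τ).continuousAt.tendsto.mono_left nhdsWithin_le_nhds, ?_⟩
      filter_upwards [self_mem_nhdsWithin,
        mem_nhdsWithin_of_mem_nhds (isOpen_upperHalfPlaneSet.mem_nhds τ.im_pos)] with w hw hw' he
      rw [glMap, Set.mem_singleton_iff, glMap, UpperHalfPlane.coe_inj, smul_left_cancel_iff,
        ofComplex_apply] at he
      apply hw
      rw [Set.mem_singleton_iff, ← he, ofComplex_apply_of_im_pos hw']
    exact (hg.pow_eq _ (Newform.atkinGL W • ofComplex (τ : ℂ)).im_pos).comp_tendsto ht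
  · obtain ⟨τ, rfl⟩ : ∃ τ : ℍ, (τ : ℂ) = z := ⟨⟨z, hz⟩, rfl⟩
    rw [meromorphicOrderAt_comp_of_deriv_ne_zero (han τ) (hderiv τ)]
    exact hg.order_ne_top _ (Newform.atkinGL W • ofComplex (τ : ℂ)).im_pos

theorem atkinGL_smul_conj (hW : IsAL D d W) (hd : d ∣ D) (hd0 : d ≠ 0) (γ : Gamma0 D) (τ : ℍ) :
    Newform.atkinGL W • (γ : SL(2, ℤ)) • τ =
      (hW.conj hd hd0 γ : SL(2, ℤ)) • Newform.atkinGL W • τ := by
  have hdet : W.det ≠ 0 := by rw [hW.det_eq]; exact_mod_cast hd0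
  rw [atkinGL_smul_smul hdet]
  refine atkinGL_smul_SL_eq hdet ?_ τ
  refine smul_right_injective IMat (show (d : ℤ) ≠ 0 by exact_mod_cast hd0) ?_
  show (d : ℤ) • (W * ((γ : SL(2, ℤ)) : IMat)) =
    (d : ℤ) • (((hW.conj hd hd0 γ : SL(2, ℤ)) : IMat) * W)
  rw [← Matrix.smul_mul (d : ℤ) ((hW.conj hd hd0 γ : SL(2, ℤ)) : IMat) W,
    hW.smul_conj hd hd0 γ, Matrix.mul_assoc, Matrix.adjugate_mul, hW.det_eq,
    Matrix.mul_smul, Matrix.mul_one]

/-- The character of `w_d x` is the character of `x` pulled back by the conjugation. -/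
theorem isTorsionChar_alJZero (hW : IsAL D d W) (hd : d ∣ D) (hd0 : d ≠ 0) {n : ℕ} [NeZero n]
    {x : JZero D} {χ : Additive (Gamma0 D) →+ ZMod n} (h : Torsion.IsTorsionChar n x χ) :
    Torsion.IsTorsionChar n (alJZero hW hd x)
      (χ.comp (MonoidHom.toAdditive (hW.conj hd hd0))) := by
  obtain ⟨E, f, g, hx, hf, hE, hg, he⟩ := h
  have hdet : 0 < W.det := by rw [hW.det_eq]; exact_mod_cast Nat.pos_of_ne_zero hd0
  refine ⟨⟨alBar hW hd • (E : Divisor ℚbar (modularFunctionFieldBar D)),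
    Divisor.smul_mem_degZero _ E.2⟩, alBar hW hd f, g ∘ glMap W, ?_, ?_, ?_, ?_, ?_⟩
  · rw [← hx, alJZero_apply, smul_mk_degZero]
  · exact (map_ne_zero_iff _ (alBar hW hd).injective).2 hf
  · intro v
    show (n : ℤ) * (alBar hW hd • (E : Divisor ℚbar (modularFunctionFieldBar D))) v = _
    rw [smul_divisor_apply (alBar_alBar hW hd), hE, ord_apply' (alBar_alBar hW hd)]
  · obtain ⟨hnf, hpow, hne⟩ := isRoot_comp_glMap hdet hg
    refine ⟨hnf, fun z hz => (hpow z hz).trans ?_, hne⟩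
    obtain ⟨τ, rfl⟩ : ∃ τ : ℍ, (τ : ℂ) = z := ⟨⟨z, hz⟩, rfl⟩
    refine (Filter.EventuallyEq.trans (Filter.Eventually.of_forall fun w => ?_)
      ((toFun_alHom hW hd (ModFun.barToC D Torsion.qbarToC f)) τ).symm).trans ?_
    · show Torsion.evBar f (glMap W w) =
        ((fun z => ModFun.toFun (ModFun.barToC D Torsion.qbarToC f) (Newform.atkinGL W • z)) ∘
          ofComplex) w
      simp [Torsion.evBar, glMap, ofComplex_apply]
    · rw [Torsion.evBar, barToC_alBar Torsion.qbarToC hW hd f, alC_apply]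
  · intro γ z hz
    have h1 : glMap W (Multiplier.act γ z) =
        Multiplier.act (hW.conj hd hd0 γ : SL(2, ℤ)) (glMap W z) := by
      rw [glMap, glMap, Multiplier.ofComplex_act _ hz, atkinGL_smul_conj hW hd hd0,
        Multiplier.coe_smul_eq_act]
    show g (glMap W (Multiplier.act γ z)) = _ * g (glMap W z)
    have him : glMap W z ∈ Multiplier.H := (Newform.atkinGL W • ofComplex z).im_pos
    rw [h1, he (hW.conj hd hd0 γ) (glMap W z) him]
    rfl

/-- The Fricke conjugation carries the conjugation by one Atkin-Lehner matrix to that by another,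
so on homomorphisms to abelian groups they commute. -/
theorem comp_conj_comp_frickeConj (hW : IsAL D d W) (hd : d ∣ D) (hd0 : d ≠ 0) {A : Type*}
    [AddCommGroup A] (φ : Additive (Gamma0 D) →+ A) :
    (φ.comp (MonoidHom.toAdditive (hW.conj hd hd0))).comp
        (MonoidHom.toAdditive (Torsion.frickeConj D)) =
      (φ.comp (MonoidHom.toAdditive (Torsion.frickeConj D))).comp
        (MonoidHom.toAdditive (hW.conj hd hd0)) := by
  have hD0 : (D : ℤ) ≠ 0 := by exact_mod_cast NeZero.ne D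
  have hdz : (d : ℤ) ≠ 0 := by exact_mod_cast hd0
  obtain ⟨c, hc⟩ := hW.dvd10
  set P : IMat := !![0, -1; (D : ℤ), 0] with hP
  have hPdet : P.det ≠ 0 := by rw [hP, Matrix.det_fin_two_of]; simpa using hD0
  set X : IMat := !![W 1 1, -c; -((D : ℤ) * W 0 1), W 0 0] with hX
  have hXW : X * P = P * W := by
    ext i j
    fin_cases i <;> fin_cases j <;> simp [hX, hP, Matrix.mul_apply, Fin.sum_univ_two, hc] <;> ring
  have hXW' : X.adjugate * P = P * W.adjugate := by
    ext i j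
    fin_cases i <;> fin_cases j <;>
      simp [hX, hP, Matrix.mul_apply, Fin.sum_univ_two, Matrix.adjugate_fin_two, hc] <;> ring
  have hXAL : IsAL D d X := by
    refine ⟨?_, ?_, ?_, ?_⟩
    · have h := hW.det_eq
      rw [Matrix.det_fin_two, hc] at h
      rw [hX, Matrix.det_fin_two_of]
      linear_combination h
    · simpa [hX] using hW.dvd11
    · simpa [hX] using hW.dvd00
    · simp [hX]
  have hfr : ∀ γ : Gamma0 D, ((Torsion.frickeConj D γ : SL(2, ℤ)) : IMat) * P =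
      P * ((γ : SL(2, ℤ)) : IMat) := by
    intro γ
    obtain ⟨k, hk⟩ := (ZMod.intCast_zmod_eq_zero_iff_dvd _ _).mp (Gamma0_mem.mp γ.2)
    ext i j
    fin_cases i <;> fin_cases j <;>
      simp [hP, Torsion.frickeConj, Torsion.frickeConjSL, Matrix.mul_apply, Fin.sum_univ_two, hk,
        Int.mul_ediv_cancel_left _ hD0] <;> ring
  have hcomm : ∀ γ : Gamma0 D, Torsion.frickeConj D (hW.conj hd hd0 γ) =
      hXAL.conj hd hd0 (Torsion.frickeConj D γ) := by
    intro γ
    refine Subtype.ext (Subtype.ext ?_)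
    refine smul_right_injective IMat hdz ?_
    show (d : ℤ) • ((Torsion.frickeConj D (hW.conj hd hd0 γ) : SL(2, ℤ)) : IMat) =
      (d : ℤ) • ((hXAL.conj hd hd0 (Torsion.frickeConj D γ) : SL(2, ℤ)) : IMat)
    have h1 : ((d : ℤ) • ((Torsion.frickeConj D (hW.conj hd hd0 γ) : SL(2, ℤ)) : IMat)) * P =
        ((d : ℤ) • ((hXAL.conj hd hd0 (Torsion.frickeConj D γ) : SL(2, ℤ)) : IMat)) * P := by
      rw [Matrix.smul_mul, hfr, ← Matrix.mul_smul, hW.smul_conj hd hd0 γ, hXAL.smul_conj hd hd0,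
        Matrix.mul_assoc (X * _) X.adjugate P, hXW']
      simp only [← Matrix.mul_assoc]
      rw [Matrix.mul_assoc X _ P, hfr, ← Matrix.mul_assoc X P, hXW]
    have h2 := congrArg (· * P.adjugate) h1
    simp only [Matrix.mul_assoc, Matrix.mul_adjugate, Matrix.mul_smul, Matrix.mul_one] at h2
    exact smul_right_injective IMat hPdet h2
  obtain ⟨η, hη1, hη2, hη⟩ := CMFix.IsAL.exists_eq_mul hW hXAL hd hd0
  set ηΓ : Gamma0 D := ⟨⟨η, hη1⟩, by
    rw [Gamma0_mem, ZMod.intCast_zmod_eq_zero_iff_dvd]; exact hη2⟩ with hηΓ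
  have hinner : ∀ δ : Gamma0 D, hXAL.conj hd hd0 δ = ηΓ * hW.conj hd hd0 δ * ηΓ⁻¹ := by
    intro δ
    refine Subtype.ext (Subtype.ext ?_)
    refine smul_right_injective IMat hdz ?_
    show (d : ℤ) • ((hXAL.conj hd hd0 δ : SL(2, ℤ)) : IMat) =
      (d : ℤ) • (η * ((hW.conj hd hd0 δ : SL(2, ℤ)) : IMat) * Matrix.adjugate η)
    rw [hXAL.smul_conj hd hd0, hη, Matrix.adjugate_mul_distrib, ← Matrix.smul_mul,
      ← Matrix.mul_smul, hW.smul_conj hd hd0 δ]
    simp only [Matrix.mul_assoc]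
  refine AddMonoidHom.ext fun a => ?_
  obtain ⟨γ, rfl⟩ := Additive.ofMul.surjective a
  show φ (Additive.ofMul (hW.conj hd hd0 (Torsion.frickeConj D γ))) =
    φ (Additive.ofMul (Torsion.frickeConj D (hW.conj hd hd0 γ)))
  rw [hcomm, hinner, ofMul_mul, ofMul_mul, map_add, map_add, ofMul_inv, map_neg]
  abel

/-- `w_d` acts on torsion as the conjugation by its matrix. -/
theorem alJZero_torsionEquiv (hW : IsAL D d W) (hd : d ∣ D) (hd0 : d ≠ 0) (n : ℕ) [NeZero n]
    (φ : Torsion.CharMod D n) :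
    alJZero hW hd (Torsion.torsionEquiv D n φ : JZero D) =
      (Torsion.torsionEquiv D n (hW.pull hd hd0 (ZMod n) φ) : JZero D) := by
  refine (isTorsionChar_alJZero hW hd hd0 (Torsion.isTorsionChar_torsionEquiv D n φ)).congr_unique
    ?_
  rw [← comp_conj_comp_frickeConj hW hd hd0]
  exact Torsion.isTorsionChar_torsionEquiv D n (hW.pull hd hd0 (ZMod n) φ)

theorem isALAction_alJZero (hW : IsAL D d W) (hd : d ∣ D) (hd0 : d ≠ 0) :
    IsALAction D d (alJZero hW hd) :=
  ⟨W, hW, hd, hd0, fun n _ φ => alJZero_torsionEquiv hW hd hd0 n φ⟩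

end Fermat.Agent.Residual

end
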