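/-
Correspondences commuting with an involution: they send invariant classes to norms when they
send fixed places to evenly counted fixed places, and their squares send anti-invariant classes
to differences when their degree is even.
-/
import Fermat.Agent.Residual.AlinvClasses

set_option autoImplicit false

noncomputable section

open AlgebraicCurve

namespace Fermat.Agent.Residual

variable (K F : Type*) [Field K] [Field F] [Algebra K F] [Curve.IsFunctionFieldOne K F]

/-- A correspondence of a function field with itself, acting on divisors, with its norm map. -/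
structure Correspondence where
  /-- the action on divisors -/
  toDiv : Divisor K F →+ Divisor K F
  /-- the degree -/
  deg : ℕ
  degree_toDiv : ∀ D, Divisor.degree (toDiv D) = deg * Divisor.degree D
  /-- the action on functions -/
  norm : F → F
  norm_ne_zero : ∀ f, f ≠ 0 → norm f ≠ 0
  norm_neg : ∀ f, norm (-f) = (-1) ^ deg * norm f
  toDiv_divisorOf : ∀ f, f ≠ 0 → toDiv (Curve.divisorOf K f) = Curve.divisorOf K (norm f)

variable {K F}

namespace Correspondence

variable (T : Correspondence K F)

theorem toDiv_mem_degZero {D : Divisor K F} (h : D ∈ Divisor.degZero (K := K) (F := F)) :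
    T.toDiv D ∈ Divisor.degZero (K := K) (F := F) := by
  rw [Divisor.mem_degZero] at h ⊢
  rw [T.degree_toDiv, h, mul_zero]

theorem toDiv_mem_principal {D : Divisor K F} (h : D ∈ Divisor.principal (K := K) (F := F)) :
    T.toDiv D ∈ Divisor.principal (K := K) (F := F) := by
  obtain ⟨f, hf, rfl⟩ := exists_divisorOf_of_mem_principal h
  rw [T.toDiv_divisorOf f hf]
  exact divisorOf_mem_principal (T.norm_ne_zero f hf)

/-- The action on classes of degree zero. -/
def pic : Pic0 K F →+ Pic0 K F :=
  QuotientAddGroup.map _ _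
    ((T.toDiv.comp (Divisor.degZero (K := K) (F := F)).subtype).codRestrict _
      fun D => T.toDiv_mem_degZero D.2)
    fun D hD => by
      rw [AddSubgroup.mem_addSubgroupOf] at hD
      exact T.toDiv_mem_principal hD

theorem pic_mk (D : Divisor.degZero (K := K) (F := F)) :
    T.pic (Pic0.mk D) = Pic0.mk ⟨T.toDiv D, T.toDiv_mem_degZero D.2⟩ := rfl

/-- The correspondence commutes with an automorphism. -/
structure CommutesWith (w : F ≃ₐ[K] F) : Prop where
  smul_toDiv : ∀ D : Divisor K F, T.toDiv (w • D) = w • T.toDiv D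
  apply_norm : ∀ f, T.norm (w f) = w (T.norm f)

variable {T} {w : F ≃ₐ[K] F}

theorem CommutesWith.pic_smul (hT : T.CommutesWith w) (x : Pic0 K F) :
    T.pic (w • x) = w • T.pic x := by
  obtain ⟨D, rfl⟩ := Pic0.mk_surjective x
  rw [smul_mk_degZero, pic_mk, pic_mk, smul_mk_degZero]
  exact mk_eq_of_eq (hT.smul_toDiv D)

variable [IsAlgClosed K] (hw : ∀ f, w (w f) = f) (hne : w ≠ AlgEquiv.refl)

include hw hne

omit hne in
theorem toDiv_eq_add_smul_of_even (hT : T.CommutesWith w)
    (heven : ∀ P ∈ fixedPlaces w, ∀ Q ∈ fixedPlaces w, Even (T.toDiv (Finsupp.single P 1) Q))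
    {S : Divisor K F} (hS : ∀ v ∈ S.support, v ∈ fixedPlaces w) :
    ∃ E : Divisor K F, T.toDiv S = E + w • E := by
  classical
  obtain ⟨E, S', hS', hE⟩ := exists_eq_add_smul_add hw (D := T.toDiv S)
    (by rw [← hT.smul_toDiv, smul_eq_self_of_fixed hw hS])
  have hev : ∀ Q, Even (S' Q) := by
    intro Q
    by_cases hQ : Q ∈ S'.support
    · have hQf : w • Q = Q := hS' Q hQ
      have h1 : Even (T.toDiv S Q) := by
        conv => arg 1; rw [← Finsupp.sum_single S, map_finsuppSum, Finsupp.sum,
          Finsupp.finsetSum_apply]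
        refine Finset.sum_induction _ Even (fun a b ha hb => ha.add hb) Even.zero fun P hP => ?_
        rw [show Finsupp.single P (S P) = S P • Finsupp.single P (1 : ℤ) by simp, map_zsmul,
          Finsupp.smul_apply, smul_eq_mul]
        exact (heven P (hS P hP) Q (hS' Q hQ)).mul_left _
      rw [hE, Finsupp.add_apply, Finsupp.add_apply, smul_divisor_apply hw, hQf] at h1
      obtain ⟨k, hk⟩ := h1
      exact ⟨k - E Q, by omega⟩
    · rw [Finsupp.notMem_support_iff.mp hQ]
      exact Even.zero
  let H : Divisor K F := S'.mapRange (fun n => n / 2) (by norm_num)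
  have hH : S' = H + H := by
    ext Q
    obtain ⟨k, hk⟩ := hev Q
    simp [H, hk, ← two_mul]
  have hwH : w • H = H := smul_eq_self_of_fixed hw fun v hv =>
    hS' v (Finsupp.support_mapRange hv)
  refine ⟨E + H, ?_⟩
  rw [hE, hH, smul_add, hwH]
  abel

/-- A correspondence counting fixed places evenly over fixed places maps invariant classes to
norms. -/
theorem exists_pic_eq_add_smul (hT : T.CommutesWith w)
    (heven : ∀ P ∈ fixedPlaces w, ∀ Q ∈ fixedPlaces w, Even (T.toDiv (Finsupp.single P 1) Q))
    {x : Pic0 K F} (hx : w • x = x) : ∃ y : Pic0 K F, T.pic x = y + w • y := by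
  obtain ⟨y, φ, ⟨S, hS, rfl⟩, rfl⟩ := exists_add_smul_add_fixed hw hne hx
  obtain ⟨E, hE⟩ := toDiv_eq_add_smul_of_even hw hT heven hS
  have hdeg : E ∈ Divisor.degZero (K := K) (F := F) := by
    have h := Divisor.mem_degZero.mp (T.toDiv_mem_degZero S.2)
    rw [hE, map_add, Divisor.degree_smul] at h
    rw [Divisor.mem_degZero]
    omega
  refine ⟨T.pic y + Pic0.mk ⟨E, hdeg⟩, ?_⟩
  have h2 : T.pic (Pic0.mk S) = Pic0.mk ⟨E, hdeg⟩ + w • Pic0.mk ⟨E, hdeg⟩ := by
    rw [pic_mk, smul_mk_degZero, ← Pic0.mk_add]
    exact mk_eq_of_eq hE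
  rw [map_add, map_add, h2, hT.pic_smul, smul_add]
  abel

omit hne in
/-- The square of a correspondence of even degree maps anti-invariant classes to differences. -/
theorem exists_pic_pic_eq_sub_smul (hN : NormSurjective w) (hT : T.CommutesWith w)
    (hd : Even T.deg) {x : Pic0 K F} (hx : x + w • x = 0) :
    ∃ y : Pic0 K F, T.pic (T.pic x) = y - w • y := by
  classical
  obtain ⟨D, rfl⟩ := Pic0.mk_surjective x
  rw [smul_mk_degZero, ← Pic0.mk_add, ← Pic0.mk_zero, mk_eq_mk_iff] at hx
  obtain ⟨f, hf0, hD⟩ := exists_divisorOf_of_mem_principal hx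
  simp only [AddSubgroup.coe_add, ZeroMemClass.coe_zero, sub_zero] at hD
  have hNf : w (T.norm f) = T.norm f := by
    rw [← hT.apply_norm]
    rcases apply_eq_or_eq_neg hw hf0 (by rw [← hD, smul_add, smul_smul_divisor hw, add_comm])
      with h | h
    · rw [h]
    · rw [h, T.norm_neg, hd.neg_one_pow, one_mul]
  obtain ⟨g, hg⟩ := hN _ hNf
  have hNf0 := T.norm_ne_zero f hf0
  have hg0 : g ≠ 0 := fun h0 => hNf0 (by rw [← hg, h0, zero_mul])
  have hwg : w g ≠ 0 := fun h0 => hg0 (w.injective (h0.trans (map_zero w).symm))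
  set D' : Divisor K F := T.toDiv D - Curve.divisorOf K g with hD'
  have hanti : w • D' = -D' := by
    have h := congrArg T.toDiv hD
    rw [map_add, hT.smul_toDiv, T.toDiv_divisorOf f hf0] at h
    have hfg : Curve.divisorOf K (T.norm f) =
        Curve.divisorOf K g + w • Curve.divisorOf K g := by
      rw [smul_divisorOf hw]
      ext v
      rw [← hg]
      simp [v.ord_mul hg0 hwg]
    rw [eq_neg_iff_add_eq_zero, hD', smul_sub]
    calc w • T.toDiv D - w • Curve.divisorOf K g + (T.toDiv D - Curve.divisorOf K g)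
        = (T.toDiv D + w • T.toDiv D) -
          (Curve.divisorOf K g + w • Curve.divisorOf K g) := by abel
      _ = 0 := by rw [h, hfg, sub_self]
  obtain ⟨E, hE⟩ := exists_eq_sub_smul hw hanti
  obtain ⟨P, -⟩ := Curve.exists_place (K := K) (F := F)
  obtain ⟨k, hk⟩ := hd
  set e := Divisor.degree E with he
  set c : ℤ := (k : ℤ) * e with hc
  have hB : T.toDiv E - Finsupp.single P c - Finsupp.single (w • P) c ∈
      Divisor.degZero (K := K) (F := F) := by
    rw [Divisor.mem_degZero, map_sub, map_sub, T.degree_toDiv, Divisor.degree_single,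
      Divisor.degree_single, Curve.deg_eq_one, Curve.deg_eq_one, ← he, hc, hk]
    push_cast
    ring
  refine ⟨Pic0.mk ⟨_, hB⟩, ?_⟩
  rw [pic_mk, pic_mk, smul_mk_degZero, eq_sub_iff_add_eq, ← Pic0.mk_add, mk_eq_mk_iff]
  show T.toDiv (T.toDiv D) + w • (T.toDiv E - Finsupp.single P c - Finsupp.single (w • P) c)
    - (T.toDiv E - Finsupp.single P c - Finsupp.single (w • P) c) ∈ _
  have h1 : T.toDiv D = E - w • E + Curve.divisorOf K g := by rw [← hE, hD', sub_add_cancel]
  rw [h1, map_add, map_sub, hT.smul_toDiv, T.toDiv_divisorOf g hg0, smul_sub, smul_sub,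
    Divisor.smul_single, Divisor.smul_single, smul_smul_place hw]
  convert divisorOf_mem_principal (K := K) (T.norm_ne_zero g hg0) using 1
  abel

end Correspondence

end Fermat.Agent.Residual

end
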