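/-
The correspondence attached to a pair of degeneracy maps, and the Hecke correspondences `T_ℓ` on
the function field of `X₀(N)` as instances of it.
-/
import Fermat.Agent.Residual.AlinvCorr
import Fermat.Agent.HeckeJ.Norm
import Fermat.Agent.HeckeJ.Degree
import Fermat.Agent.BadReduction.X0Components
import Fermat.Agent.Galois.QbarInstances
import Fermat.Agent.Curve.BasicModular

set_option autoImplicit false
set_option linter.style.haveILetI false

noncomputable section

namespace Fermat.Agent.Residual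

open AlgebraicCurve

section Generic

variable {K F F' : Type*} [Field K] [Field F] [Field F'] [Algebra K F] [Algebra K F']
  [Curve.IsFunctionFieldOne K F] [Curve.IsFunctionFieldOne K F']

theorem isIntegralAlong (φ : F →ₐ[K] F') : φ.toRingHom.IsIntegral :=
  Curve.isIntegral_of_finiteAlong φ (Curve.finiteAlong φ)

/-- `Norm_α (β f)`. -/
def normFun (α β : F →ₐ[K] F') (f : F) : F :=
  letI := algebraAlong α
  Algebra.norm F (β f)

theorem normFun_ne_zero (α β : F →ₐ[K] F') {f : F} (hf : f ≠ 0) : normFun α β f ≠ 0 := by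
  letI := algebraAlong α
  haveI : FiniteDimensional F F' := Curve.finiteAlong α
  exact Algebra.norm_ne_zero_iff.2 ((map_ne_zero_iff _ β.toRingHom.injective).2 hf)

omit [Curve.IsFunctionFieldOne K F] [Curve.IsFunctionFieldOne K F'] in
theorem normFun_neg (α β : F →ₐ[K] F') (f : F) :
    normFun α β (-f) = (-1) ^ finrankAlong K α * normFun α β f := by
  letI := algebraAlong α
  show Algebra.norm F (β (-f)) = (-1) ^ Module.finrank F F' * Algebra.norm F (β f)
  rw [map_neg, ← neg_one_mul, map_mul, show (-1 : F') = algebraMap F F' (-1) by simp,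
    Algebra.norm_algebraMap]

/-- The correspondence `α_* ∘ β^*` of two maps of the same degree. -/
def ofDegeneracy (α β : F →ₐ[K] F') (hdeg : finrankAlong K α = finrankAlong K β) :
    Correspondence K F where
  toDiv := Divisor.correspondence β α (isIntegralAlong β) (isIntegralAlong α)
  deg := finrankAlong K β
  degree_toDiv D := Divisor.degree_correspondence _ _ _ _
    (Curve.fundamentalIdentityAlong β _ (Curve.finiteAlong β)) D
  norm := normFun α β
  norm_ne_zero _ hf := normFun_ne_zero α β hf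
  norm_neg f := by rw [normFun_neg, hdeg]
  toDiv_divisorOf f hf := Finsupp.ext fun v => by
    rw [Curve.divisorOf_apply]
    exact ES.correspondence_apply_principal β α _ _ (Curve.finiteAlong α)
      (Curve.normFormulaAlong α _) hf (Curve.divisorOf_apply f) v

theorem ofDegeneracy_toDiv (α β : F →ₐ[K] F') (hdeg : finrankAlong K α = finrankAlong K β)
    (D : Divisor K F) : (ofDegeneracy α β hdeg).toDiv D =
      Divisor.correspondence β α (isIntegralAlong β) (isIntegralAlong α) D :=
  rfl

theorem ofDegeneracy_deg (α β : F →ₐ[K] F') (hdeg : finrankAlong K α = finrankAlong K β) :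
    (ofDegeneracy α β hdeg).deg = finrankAlong K β :=
  rfl

omit [Curve.IsFunctionFieldOne K F] in
theorem ofAlgAut_smul_place (w : F ≃ₐ[K] F) (v : Place K F) :
    SemilinearAut.ofAlgAut w • v = w • v :=
  Place.ext (SetLike.ext fun _ => Iff.rfl)

omit [Curve.IsFunctionFieldOne K F] in
theorem ofAlgAut_smul_divisor (w : F ≃ₐ[K] F) (D : Divisor K F) :
    SemilinearAut.ofAlgAut w • D = w • D := by
  rw [SemilinearAut.divisor_smul_def, Divisor.smul_def]
  exact congrArg (fun g => Finsupp.mapDomain g D) (funext (ofAlgAut_smul_place w))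

/-- A correspondence commutes with an automorphism lifting along both maps. -/
theorem commutesWith_ofDegeneracy (α β : F →ₐ[K] F')
    (hdeg : finrankAlong K α = finrankAlong K β) {w : F ≃ₐ[K] F} {w' : F' ≃ₐ[K] F'}
    (hα : ∀ x, w' (α x) = α (w x)) (hβ : ∀ x, w' (β x) = β (w x)) :
    (ofDegeneracy α β hdeg).CommutesWith w where
  smul_toDiv D := by
    rw [← ofAlgAut_smul_divisor, ← ofAlgAut_smul_divisor]
    exact HeckeJ.correspondence_smul (φ := β) (ψ := α) (g := SemilinearAut.ofAlgAut w)
      (g' := SemilinearAut.ofAlgAut w') _ _ (fun x => hβ x) (fun x => hα x) D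
  apply_norm f := by
    letI := algebraAlong α
    show Algebra.norm F (β (w f)) = w (Algebra.norm F (β f))
    have he : (algebraMap F F').comp (RingEquiv.toRingHom (w : F ≃+* F)) =
        (RingEquiv.toRingHom (w' : F' ≃+* F')).comp (algebraMap F F') :=
      RingHom.ext fun x => (hα x).symm
    rw [Algebra.norm_eq_of_equiv_equiv (w : F ≃+* F) (w' : F' ≃+* F') he (β f)]
    rw [show ((w' : F' ≃+* F') (β f)) = β (w f) from hβ f]
    exact (w.apply_symm_apply _).symm

end Generic

section Hecke

open ModularCurve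

local notation "Qbar" => AlgebraicClosure ℚ

variable (N ℓ : ℕ) [NeZero N] [hℓ : Fact ℓ.Prime]

local instance neZero_heckePrime : NeZero ℓ := ⟨hℓ.out.ne_zero⟩

variable {ℓ} in
/-- The Atkin–Lehner involution at `ℓ` of `X₀(Nℓ)` exchanges the degeneracy maps. -/
theorem finrankAlong_alpha_eq_beta (hN : ¬ ℓ ∣ N) :
    finrankAlong Qbar (heckeAlphaBar Qbar N ℓ) = finrankAlong Qbar (heckeBetaBar Qbar N ℓ) := by
  let e := BadReduction.atkinLehner (M := N) (q := ℓ) hN
  have h1 : finrankAlong Qbar (heckeAlphaBar Qbar N ℓ) =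
      @Module.finrank _ _ _ _ (algebraAlong (heckeAlphaBar Qbar N ℓ)).toModule := rfl
  rw [h1]
  refine @Algebra.finrank_eq_of_equiv_equiv _ _ _ _ (algebraAlong (heckeAlphaBar Qbar N ℓ)) _ _ _ _
    (algebraAlong (heckeBetaBar Qbar N ℓ)) (RingEquiv.refl _) (e : _ ≃+* _) ?_
  exact RingHom.ext fun x => (BadReduction.atkinLehner_alpha hN x).symm

variable {ℓ} in
/-- The correspondence `T_ℓ` on the function field of `X₀(N)`, `ℓ ∤ N`. -/
def heckeCorr (hN : ¬ ℓ ∣ N) : Correspondence Qbar (modularFunctionFieldBar N) :=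
  ofDegeneracy (heckeAlphaBar Qbar N ℓ) (heckeBetaBar Qbar N ℓ) (finrankAlong_alpha_eq_beta N hN)

variable {ℓ}

theorem heckeCorr_deg (hN : ¬ ℓ ∣ N) : (heckeCorr N hN).deg = ℓ + 1 := by
  rw [heckeCorr, ofDegeneracy_deg, ← finrankAlong_alpha_eq_beta N hN,
    HeckeJ.finrankAlong_heckeAlphaBar_of_not_dvd Qbar N hℓ.out hN]

theorem even_heckeCorr_deg (hN : ¬ ℓ ∣ N) (h2 : ℓ ≠ 2) : Even (heckeCorr N hN).deg := by
  rw [heckeCorr_deg]
  exact (hℓ.out.odd_of_ne_two h2).add_one

theorem heckeCorr_toDiv (hN : ¬ ℓ ∣ N) (D : Divisor Qbar (modularFunctionFieldBar N)) :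
    (heckeCorr N hN).toDiv D = HeckeJ.heckeDiv Qbar N ℓ D :=
  rfl

/-- On divisor classes the correspondence is the Hecke operator. -/
theorem heckeCorr_pic (hN : ¬ ℓ ∣ N) (x : JZero N) :
    (heckeCorr N hN).pic x = heckeOperatorBar N ⟨ℓ, hℓ.out⟩ x := by
  obtain ⟨D, rfl⟩ := Pic0.mk_surjective x
  rw [Correspondence.pic_mk, HeckeJ.heckeOperatorBar_mk]
  rfl

/-- `T_ℓ` commutes with an automorphism of the function field of `X₀(N)` lifting to that of
`X₀(Nℓ)` along both degeneracy maps. -/
theorem heckeCorr_commutesWith (hN : ¬ ℓ ∣ N)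
    {w : modularFunctionFieldBar N ≃ₐ[Qbar] modularFunctionFieldBar N}
    {w' : modularFunctionFieldBar (N * ℓ) ≃ₐ[Qbar] modularFunctionFieldBar (N * ℓ)}
    (hα : ∀ x, w' (heckeAlphaBar Qbar N ℓ x) = heckeAlphaBar Qbar N ℓ (w x))
    (hβ : ∀ x, w' (heckeBetaBar Qbar N ℓ x) = heckeBetaBar Qbar N ℓ (w x)) :
    (heckeCorr N hN).CommutesWith w :=
  commutesWith_ofDegeneracy _ _ _ hα hβ

end Hecke

end Fermat.Agent.Residual

end
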