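/-
Residual modularity at three: the sign of the Frobenius trace of a newform at a prime `q` exactly
dividing the level.  Where both degeneracy push-forwards vanish `σ² + (q + 1) w σ + q = 0`, and
after a Hecke element not killing `g` the involution `w` is `- a_q(g)`.
-/
import Fermat.Agent.BadReduction.X0FrobeniusAtkin
import Fermat.Agent.BadReduction.X0Conductor
import Fermat.Agent.Residual.ALTorsion
import Fermat.Agent.Residual.AlinvHecke
import Fermat.Agent.Residual.NewformALSign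
import Fermat.Agent.NewformRep.Core
import Fermat.Agent.Integral.Main
import Fermat.Agent.Eigen.EigenHom

set_option autoImplicit false
set_option linter.style.haveILetI false
set_option synthInstance.maxHeartbeats 400000
set_option maxHeartbeats 1000000

noncomputable section

open scoped Matrix
open Polynomial ModularCurve AlgebraicCurve CongruenceSubgroup

namespace Fermat.Agent.Residual

open GaloisAdic
open Fermat.Agent.BadReduction (atkinLehner X0F)
open CMFix (IMat IsAL)

local notation "ℚbar" => AlgebraicClosure ℚ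
local notation "Γℚ" => AlgebraicClosure ℚ ≃ₐ[ℚ] AlgebraicClosure ℚ

section Atkin

variable {M q : ℕ} [NeZero M] [hq : Fact q.Prime]

local instance neZero_primeNS : NeZero q := ⟨hq.out.ne_zero⟩

/-- The action of the Atkin–Lehner involution `w_q` on `J₀(M q)`. -/
def atkinJ (hqM : ¬ q ∣ M) : JZero (M * q) →+ JZero (M * q) :=
  DistribSMul.toAddMonoidHom (JZero (M * q)) (SemilinearAut.ofAlgAut (atkinLehner hqM))

theorem atkinLehner_jdQ (hqM : ¬ q ∣ M) {e e' : ℕ} [NeZero e] [NeZero e'] (he : e ∣ M * q)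
    (he' : e' ∣ M * q) (h : BadReduction.swapDiv M q e = e') :
    atkinLehner hqM (jdQ (M * q) e he) = jdQ (M * q) e' he' := by
  have key : ∀ {d : ℕ} [NeZero d] (hd : d ∣ M * q),
      jdQ (M * q) d hd = ⟨BadReduction.jdBar ⟨d, Nat.mem_divisors.2 ⟨hd, NeZero.ne _⟩⟩,
        BadReduction.jdBar_mem _⟩ :=
    fun _ => Subtype.ext (Curve.coeffEmb_qExpand_jq ℚbar _).symm
  rw [key he, key he', BadReduction.atkinLehner_apply, BadReduction.atkinHom_jdBar]
  exact Subtype.ext (congrArg BadReduction.jdBar (Subtype.ext h))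

theorem atkinLehner_eq_alBar (hqM : ¬ q ∣ M) {W : IMat} (hW : IsAL (M * q) q W)
    (hd : q ∣ M * q) : atkinLehner hqM = alBar hW hd := by
  haveI : NeZero ((M * q) / q) := by
    rw [Nat.mul_div_cancel _ hq.out.pos]; infer_instance
  refine AlgEquiv.ext fun x => RingHom.congr_fun (ringHom_ext_bar
    (φ := (atkinLehner hqM).toRingEquiv.toRingHom)
    (ψ := (alBar hW hd).toRingEquiv.toRingHom) (fun a => ?_) ?_ ?_) x
  · show atkinLehner hqM (algebraMap ℚbar _ a) = alBar hW hd (algebraMap ℚbar _ a)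
    rw [AlgEquiv.commutes, AlgEquiv.commutes]
  · show atkinLehner hqM (jdQ (M * q) 1 _) = alBar hW hd (jdQ (M * q) 1 _)
    rw [alBar_jq hW hd]
    refine atkinLehner_jdQ hqM _ _ ?_
    rw [BadReduction.swapDiv, if_neg (Nat.Prime.not_dvd_one hq.out), one_mul]
  · show atkinLehner hqM (jdQ (M * q) (M * q) _) = alBar hW hd (jdQ (M * q) (M * q) _)
    rw [alBar_jqN hW hd]
    refine atkinLehner_jdQ hqM _ _ ?_
    rw [BadReduction.swapDiv, if_pos hd]

theorem isALAction_atkinJ (hqM : ¬ q ∣ M) : IsALAction (M * q) q (atkinJ hqM) := by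
  have hd : q ∣ M * q := dvd_mul_left q M
  have hc : Nat.Coprime q ((M * q) / q) := by
    rw [Nat.mul_div_cancel _ hq.out.pos]; exact BadReduction.coprime_of_not_dvd hqM
  have hW := isAL_alMat hd hc
  convert isALAction_alJZero hW hd hq.out.ne_zero using 1
  refine AddMonoidHom.ext fun x => ?_
  obtain ⟨E, rfl⟩ := Pic0.mk_surjective x
  show SemilinearAut.ofAlgAut (atkinLehner hqM) • Pic0.mk E = alBar hW hd • Pic0.mk E
  rw [atkinLehner_eq_alBar hqM hW hd, SemilinearAut.pic0_smul_mk, smul_mk_degZero]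
  exact congrArg Pic0.mk (Subtype.ext (ofAlgAut_smul_divisor _ _))

/-- On torsion killed by both degeneracy push-forwards, where `w_q = - a`:
`σ² - a (q + 1) σ + q = 0`. -/
theorem frobenius_relation_sign (hqM : ¬ q ∣ M) (A : ValuationSubring ℚbar)
    (hA : A.LiesOverPrime q) {σ : Γℚ} (hσ : A.IsFrobeniusAt σ q) {n : ℕ} (hn : ¬ q ∣ n) (a : ℤ)
    {x : JZero (M * q)} (hx : n • x = 0) (hα : NewformRep.pushAlpha M q x = 0)
    (hβ : NewformRep.pushBeta M q x = 0) (hw : atkinJ hqM x = -(a • x)) :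
    σ • σ • x - (a * ((q : ℤ) + 1)) • (σ • x) + (q : ℤ) • x = 0 := by
  haveI := BadReduction.charP_residue_of_liesOverPrime hq.out hA
  haveI := (BadReduction.x0Reduction hqM A hA).isAlgClosed_residue
  obtain ⟨B, h1, h2, h3⟩ := BadReduction.exists_conductor_proof hqM A hA
  have h := BadReduction.frobenius_atkin_relation_of_conductor A hqM hA hσ B h1 h2 h3 hn hx hα hβ
  change σ • σ • x + (q + 1) • (σ • atkinJ hqM x) + q • x = 0 at h
  have hs : σ • (a • x) = a • (σ • x) :=
    map_zsmul (DistribSMul.toAddMonoidHom (JZero (M * q)) σ) a x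
  have hc : (q + 1) • (a • (σ • x)) = (a * ((q : ℤ) + 1)) • (σ • x) := by
    rw [← natCast_zsmul, smul_smul]
    congr 1
    push_cast
    ring
  rw [hw, smul_neg, hs, neg_nsmul, hc, ← natCast_zsmul x q] at h
  rw [sub_eq_add_neg]
  exact h

end Atkin

section Matrices

variable {N : ℕ} [NeZero N] {p : ℕ} [Fact p.Prime]

/-- A quadratic relation on the image of a Hecke element holds for the matrices. -/
theorem galMatrix_quadratic (F : TorsionFrame N p) (c d : ℤ) (σ : Γℚ)
    (t : CuspForm.heckeAlgebra N 2 (∅ : Set ℕ))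
    (h : ∀ (n : ℕ) (v : Fin F.H.r → ZMod (p ^ n)),
      let x := F.e n (NewformRep.heckeMod F n t *ᵥ v)
      σ • σ • x - c • (σ • x) + d • x = 0) :
    (F.galMatrix σ * F.galMatrix σ - (c : Matrix _ _ ℤ_[p]) * F.galMatrix σ
      + (d : Matrix _ _ ℤ_[p])) * F.heckeMatrix t = 0 := by
  refine TorsionFrame.padicMatrix_ext fun n => matrix_eq_of_forall_mulVec fun v => ?_
  apply (F.isTorsionIso n).injective
  have hh := h n v
  dsimp only at hh
  simp only [← RingHom.mapMatrix_apply, map_mul, map_sub, map_add, map_intCast, map_zero]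
  simp only [RingHom.mapMatrix_apply, F.map_galMatrix, NewformRep.map_heckeMatrix]
  rw [Matrix.zero_mulVec, map_zero]
  simp only [← Matrix.mulVec_mulVec, Matrix.sub_mulVec, Matrix.add_mulVec, Matrix.intCast_mulVec,
    map_sub, map_add, F.e_galMatrixMod,
    show ∀ (k : ℤ) (u : Fin F.H.r → ZMod (p ^ n)), ((k : ℤ) : ZMod (p ^ n)) • u = k • u from
      fun k u => Int.cast_smul_eq_zsmul _ _ _, map_zsmul]
  exact hh

/-- A quadratic killed by an invertible Hecke eigenvalue fixes the trace on a constituent. -/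
theorem trace_eq_of_constituent {O : Type} [CommRing O] [IsDomain O] [IsDiscreteValuationRing O]
    [IsAdicComplete (IsLocalRing.maximalIdeal O) O] {F : TorsionFrame N p}
    {hp : (p : O) ∈ IsLocalRing.maximalIdeal O} {S : Set ℕ}
    {χ : CuspForm.heckeAlgebra N 2 S →+* O} {ρ : GaloisRepAdic O}
    (hρ : IsConstituent F hp χ ρ) (c d : ℤ) (σ : Γℚ) (t : CuspForm.heckeAlgebra N 2 S)
    (ht : χ t ≠ 0)
    (hrel : (F.galMatrix σ * F.galMatrix σ - (c : Matrix _ _ ℤ_[p]) * F.galMatrix σ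
      + (d : Matrix _ _ ℤ_[p])) * F.heckeMatrix
        (Subalgebra.inclusion (CuspForm.heckeAlgebra_mono (Set.empty_subset S)) t) = 0)
    (hdet : LinearMap.det (ρ.ρ σ) = (d : O)) (hd : (d : O) ≠ 0) :
    (NewformRep.repMatrix ρ σ).trace = (c : O) := by
  obtain ⟨f, hf, -, hfG, hfT⟩ := hρ
  set G := (F.galMatrix σ).map (padicIntHom O hp) with hG
  set T := (F.heckeMatrix
    (Subalgebra.inclusion (CuspForm.heckeAlgebra_mono (Set.empty_subset S)) t)).map
      (padicIntHom O hp) with hT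
  have hTv : ∀ v, T *ᵥ f v = χ t • f v := fun v => by
    rw [← hfT t v, hT]
    congr 1
    ext i j
    simp [TorsionFrame.heckeMatrix]
  have h1 := congrArg (padicIntHom O hp).mapMatrix hrel
  simp only [map_mul, map_sub, map_add, map_intCast, map_zero] at h1
  simp only [RingHom.mapMatrix_apply, ← hG, ← hT] at h1
  have hGv : ∀ v, G *ᵥ f v = f (ρ.ρ σ v) := fun v => (hfG σ v).symm
  have hquad : ∀ v, ρ.ρ σ (ρ.ρ σ v) - (c : O) • ρ.ρ σ v + (d : O) • v = 0 := fun v => by
    refine (smul_eq_zero.1 (?_ : χ t • (ρ.ρ σ (ρ.ρ σ v) - (c : O) • ρ.ρ σ v + (d : O) • v) = 0)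
      ).resolve_left ht
    apply hf
    have h2 := congrArg (fun X => X *ᵥ f v) h1
    simp only [← Matrix.mulVec_mulVec, hTv, Matrix.mulVec_smul, Matrix.zero_mulVec,
      Matrix.sub_mulVec, Matrix.add_mulVec, Matrix.intCast_mulVec, hGv] at h2
    rw [map_smul, map_zero, map_add, map_sub, map_smul, map_smul]
    exact h2
  set R := NewformRep.repMatrix ρ σ with hR
  let b := Module.finBasisOfFinrankEq O ρ.V ρ.finrank_eq
  have hRR : R * R - (c : O) • R + (d : O) • (1 : Matrix (Fin 2) (Fin 2) O) = 0 := by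
    have : ρ.ρ σ * ρ.ρ σ - (c : O) • ρ.ρ σ + (d : O) • 1 = 0 := LinearMap.ext hquad
    have h3 := congrArg (LinearMap.toMatrix b b) this
    simp only [map_add, map_sub, map_smul, map_zero, LinearMap.toMatrix_mul,
      LinearMap.toMatrix_one] at h3
    exact h3
  have hdetR : R.det = (d : O) := by rw [hR, NewformRep.det_repMatrix, hdet]
  have hCH : R * R - R.trace • R + R.det • (1 : Matrix (Fin 2) (Fin 2) O) = 0 := by
    ext i j
    fin_cases i <;> fin_cases j <;>
      simp [Matrix.mul_apply, Matrix.trace_fin_two, Matrix.det_fin_two] <;> ring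
  have h4 : (R.trace - (c : O)) • R = 0 := by
    rw [hdetR] at hCH
    rw [sub_smul]
    linear_combination (norm := abel) hRR - hCH
  refine sub_eq_zero.1 (by_contra fun hne => hd ?_)
  rw [← hdetR, (smul_eq_zero.1 h4).resolve_left hne, Matrix.det_zero]

end Matrices

/-- At a prime `q` exactly dividing a squarefree level, the Frobenius trace of a constituent at
the system of a newform `g` is `a_q(g) (q + 1)`. -/
theorem trace_frobenius_newform {N : ℕ} [NeZero N] (hN : Squarefree N)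
    {g : CuspForm (Gamma0 N) 2} (hg : g.IsNewform) {q : ℕ} (hq : q.Prime) (hqN : q ∣ N)
    (a : ℤ) (ha : (a : ℂ) = ModularFormClass.qCoeff g q) (p : ℕ) [Fact p.Prime] (hqp : q ≠ p)
    (F : TorsionFrame N p) {O : Type} [CommRing O] [IsDomain O] [IsDiscreteValuationRing O]
    [IsAdicComplete (IsLocalRing.maximalIdeal O) O] [CharZero O]
    {hp : (p : O) ∈ IsLocalRing.maximalIdeal O}
    {χ : CuspForm.heckeAlgebra N 2 (∅ : Set ℕ) →+* O}
    (hχ : ∀ t, χ t = 0 → Eigen.eigenChar g hg.isNormalizedEigenform ∅ t = 0)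
    {ρ : GaloisRepAdic O} (hρ : IsConstituent F hp χ ρ) {A : ValuationSubring ℚbar}
    (hA : A.LiesOverPrime q) {σ : Γℚ} (hσ : A.IsFrobeniusAt σ q)
    (hdet : LinearMap.det (ρ.ρ σ) = padicIntHom O hp (padicCyclo p σ)) :
    (NewformRep.repMatrix ρ σ).trace = (a : O) * ((q : O) + 1) := by
  classical
  obtain ⟨M, rfl⟩ : ∃ M, N = M * q := ⟨N / q, (Nat.div_mul_cancel hqN).symm⟩
  haveI : NeZero M := ⟨fun h => NeZero.ne (M * q) (by rw [h, zero_mul])⟩
  haveI := Fact.mk hq
  haveI : NeZero q := ⟨hq.ne_zero⟩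
  have hqM : ¬ q ∣ M := fun h =>
    hq.not_isUnit (hN q (Nat.mul_dvd_mul_right h q))
  have hne : M ≠ M * q := fun h => hq.one_lt.ne
    (mul_left_cancel₀ (NeZero.ne M) ((mul_one M).trans h))
  let S : Finset ℕ := insert p (M * q).primeFactors
  have hS : ∀ r : ℕ, r.Prime → r ∣ M * q → r ∈ (↑S : Set ℕ) := fun r hr h =>
    Finset.mem_insert_of_mem (Nat.mem_primeFactors.2 ⟨hr, h, NeZero.ne _⟩)
  have hS' : ∀ r : ℕ, r.Prime → r ∣ M → r ∈ (↑S : Set ℕ) := fun r hr h =>
    hS r hr (h.trans (dvd_mul_right M q))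
  have hpS : p ∈ (↑S : Set ℕ) := Finset.mem_insert_self _ _
  let chig := Eigen.eigenChar g hg.isNormalizedEigenform (↑S : Set ℕ)
  have hchig : ∀ (ℓ : ℕ) (hℓ : ℓ.Prime) (hℓN : ¬ ℓ ∣ M * q) (hℓS : ℓ ∉ (↑S : Set ℕ)),
      chig (CuspForm.heckeAlgebra.T hℓ hℓN hℓS) = ModularFormClass.qCoeff g ℓ :=
    fun ℓ hℓ hℓN hℓS => Eigen.eigenChar_T _ hℓ hℓN hℓS
  obtain ⟨t₁, ht₁, htg₁⟩ := NewformRep.exists_goodPoly (Integral.hasIntegralStructure M 2) hg
    (dvd_mul_right M q) hne S hS chig hchig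
  obtain ⟨t₂, htg₂, ht₂⟩ :=
    NewformAL.exists_goodPoly_frame hN hg hq hqN a ha S hS chig hchig
  obtain ⟨F'⟩ := nonempty_torsionFrame M p
  have hF := torsionFacts (M * q) p
  have hF' := torsionFacts M p
  set tf := NewformRep.goodEvalFull (M * q) hS (t₂ * t₁) with htf
  have hχt : χ tf ≠ 0 := fun h => by
    have h2 : chig (NewformRep.goodEval (M * q) hS (t₂ * t₁)) = 0 := hχ tf h
    rw [map_mul, map_mul] at h2
    exact (mul_ne_zero htg₂ htg₁) h2
  have hrel : (F.galMatrix σ * F.galMatrix σ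
      - ((a * ((q : ℤ) + 1) : ℤ) : Matrix _ _ ℤ_[p]) * F.galMatrix σ
      + ((q : ℤ) : Matrix _ _ ℤ_[p])) * F.heckeMatrix tf = 0 := by
    refine galMatrix_quadratic F _ _ σ tf fun n v => ?_
    have e1 : NewformRep.heckeMod F n tf *ᵥ v =
        NewformRep.heckeMod F n (NewformRep.goodEvalFull (M * q) hS t₁) *ᵥ
          (NewformRep.heckeMod F n (NewformRep.goodEvalFull (M * q) hS t₂) *ᵥ v) := by
      rw [htf, mul_comm t₂ t₁, map_mul, map_mul, Matrix.mulVec_mulVec]
    have e2 : NewformRep.heckeMod F n tf *ᵥ v =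
        NewformRep.heckeMod F n (NewformRep.goodEvalFull (M * q) hS t₂) *ᵥ
          (NewformRep.heckeMod F n (NewformRep.goodEvalFull (M * q) hS t₁) *ᵥ v) := by
      rw [htf, map_mul, map_mul, Matrix.mulVec_mulVec]
    show σ • σ • F.e n _ - _ • (σ • F.e n _) + _ • F.e n _ = 0
    refine frobenius_relation_sign hqM A hA hσ (n := p ^ n)
      (fun h => hqp ((Nat.prime_dvd_prime_iff_eq hq (Fact.out (p := p.Prime))).1
        (hq.dvd_of_dvd_pow h))) a (((F.isTorsionIso n).mem_range_iff _).1 ⟨_, rfl⟩) ?_ ?_ ?_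
    · rw [e1]
      exact NewformRep.map_goodEval_eq_zero F F' hF hF' hS hS' hpS _
        (NewformRep.pushAlpha_galois_smul M q) ht₁ n _
    · rw [e1]
      exact NewformRep.map_goodEval_eq_zero F F' hF hF' hS hS' hpS _
        (NewformRep.pushBeta_galois_smul M q) ht₁ n _
    · rw [e2]
      exact ht₂ _ (isALAction_atkinJ hqM) p F n _
  have hdetσ : LinearMap.det (ρ.ρ σ) = ((q : ℤ) : O) := by
    rw [hdet, padicCyclo_frobenius p hq hqp hA hσ, map_natCast, Int.cast_natCast]
  rw [trace_eq_of_constituent hρ _ _ σ tf hχt (by exact hrel) hdetσ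
    (by simpa using hq.ne_zero)]
  push_cast
  ring

end Fermat.Agent.Residual

end
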