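/-
Residual modularity at three: the Frobenius trace of the representation of a pattern form at an
odd prime of the level.
-/
import Fermat.Agent.Residual.PatternForm
import Fermat.Agent.Residual.NewformSign
import Fermat.Agent.Residual.EigenSystem

set_option autoImplicit false

noncomputable section

namespace Fermat.Agent.Residual

open GaloisAdic

local notation "Qbar" => AlgebraicClosure ℚ
local notation "Γℚ" => (AlgebraicClosure ℚ ≃ₐ[ℚ] AlgebraicClosure ℚ)

variable {D : Datum} {Q : Finset ℕ} {ε : ℕ → ℤ}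

/-- At an odd prime `q` of the level the trace of Frobenius is the sign times `q + 1`. -/
theorem trace_frobenius_formSource (hQ : IsAuxSet D Q) (hε : IsPattern ε)
    [NeZero (D.auxLevel Q)] (f : patternForms D Q ε) {O : Type} [CommRing O] [IsDomain O]
    [IsDiscreteValuationRing O] [IsAdicComplete (IsLocalRing.maximalIdeal O) O] [CharZero O]
    {e : O →+* Q2int} {F : TorsionFrame (D.auxLevel Q) 2}
    {hp : ((2 : ℕ) : O) ∈ IsLocalRing.maximalIdeal O}
    {χ : CuspForm.heckeAlgebra (D.auxLevel Q) 2 (∅ : Set ℕ) →+* O} {ρ : GaloisRepAdic O}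
    (h : FormSource D Q ε f e F hp χ ρ) {q : ℕ} (hq : q ∈ D.B ∪ Q) (hq2 : q ≠ 2)
    {P : ValuationSubring Qbar} (hP : P.LiesOverPrime q) {σ : Γℚ}
    (hσ : P.IsFrobeniusAt σ q) :
    e (NewformRep.repMatrix ρ σ).trace = (ε q : Q2int) * ((q : Q2int) + 1) := by
  have : Fact q.Prime := ⟨(Finset.mem_union.1 hq).elim (D.prime_mem q) fun h => (hQ q h).1⟩
  have hχ : ∀ t, χ t = 0 → Eigen.eigenChar f.1 f.2.1.1.isNormalizedEigenform ∅ t = 0 :=
    fun t ht => by
      have h1 := h.eigen t
      rw [ht, map_zero] at h1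
      exact congrArg Subtype.val (twoEmb_injective (h1.symm.trans (map_zero twoEmb).symm))
  rw [trace_frobenius_newform (Eigen2.squarefree_auxLevel hQ) f.2.1.1 (Fact.out (p := q.Prime))
    (Eigen2.dvd_auxLevel_of_mem hq) (ε q) (f.2.2 q hq).symm 2 hq2 F hχ h.constituent hP hσ (h.det_eq σ)]
  rw [map_mul, map_add, map_intCast, map_natCast, map_one]

end Fermat.Agent.Residual

end
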