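/-
Formal part of the ordinary functional at `2`: logarithmic derivatives of Laurent series over a
ring, the norm `N(y)(q²) = y(q) y(-q)`, and the Dwork congruence for iterated norms.
-/
import Fermat.Agent.ES.IdentitySeries
import Mathlib.RingTheory.Nilpotent.Basic
import Mathlib.RingTheory.PowerSeries.Inverse

set_option autoImplicit false
set_option linter.style.haveILetI false

noncomputable section

open ModularCurve HahnSeries
open Fermat.Agent.EichlerShimura (twist twist_coeff coeffMap_twist)

namespace Fermat.Agent.Residual.Ord2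

variable {R S : Type*} [CommRing R] [CommRing S]

section Theta

/-- `θ = q d/dq` on Laurent series. -/
def theta : LaurentSeries R →+ LaurentSeries R where
  toFun x :=
    { coeff := fun n => n • x.coeff n
      isPWO_support' := x.isPWO_support'.mono fun n hn h0 => hn (by simp [h0]) }
  map_zero' := by ext n; simp
  map_add' x y := by ext n; simp [mul_add]

theorem theta_coeff (x : LaurentSeries R) (n : ℤ) : (theta x).coeff n = n • x.coeff n := rfl

theorem coeffMap_theta (f : R →+* S) (x : LaurentSeries R) :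
    coeffMap f (theta x) = theta (coeffMap f x) := by
  ext n
  simp [theta_coeff]

theorem theta_mul (x y : LaurentSeries R) : theta (x * y) = theta x * y + x * theta y := by
  classical
  have hx : (theta x).support ⊆ x.support := fun n hn h0 => hn (by simp [theta_coeff, h0])
  have hy : (theta y).support ⊆ y.support := fun n hn h0 => hn (by simp [theta_coeff, h0])
  ext n
  rw [theta_coeff, HahnSeries.coeff_add, HahnSeries.coeff_mul,
    HahnSeries.coeff_mul_left' x.isPWO_support hx,
    HahnSeries.coeff_mul_right' y.isPWO_support hy, ← Finset.sum_add_distrib, Finset.smul_sum]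
  refine Finset.sum_congr rfl fun ij hij => ?_
  simp only [Finset.mem_antidiagonal] at hij
  simp only [theta_coeff, zsmul_eq_mul, ← hij.2.2]
  push_cast
  ring

theorem theta_one : theta (1 : LaurentSeries R) = 0 := by
  ext n
  rcases eq_or_ne n 0 with rfl | hn
  · simp [theta_coeff]
  · simp [theta_coeff, HahnSeries.coeff_one, hn]

theorem theta_single_zero (c : R) : theta (HahnSeries.single (0 : ℤ) c) = 0 := by
  ext n
  rcases eq_or_ne n 0 with rfl | hn
  · simp [theta_coeff]
  · simp [theta_coeff, HahnSeries.coeff_single_of_ne hn]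

theorem theta_twist (u : Rˣ) (x : LaurentSeries R) : theta (twist u x) = twist u (theta x) := by
  ext n
  simp [theta_coeff, twist_coeff]
  ring

theorem theta_qExpand (d : ℕ) [NeZero d] (x : LaurentSeries R) :
    theta (qExpand R d x) = d • qExpand R d (theta x) := by
  ext n
  rw [theta_coeff, HahnSeries.coeff_smul]
  by_cases hn : (d : ℤ) ∣ n
  · obtain ⟨m, rfl⟩ := hn
    simp [theta_coeff, mul_assoc]
  · simp [qExpand_coeff_of_not_dvd d _ hn]

end Theta

section DLog

/-- The logarithmic derivative `θ y / y` of a unit. -/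
def dlog (y : LaurentSeries R) : LaurentSeries R := theta y * Ring.inverse y

theorem mul_dlog {y : LaurentSeries R} (hy : IsUnit y) : y * dlog y = theta y := by
  rw [dlog, mul_left_comm, Ring.mul_inverse_cancel y hy, mul_one]

theorem dlog_eq_of_mul_eq {y w : LaurentSeries R} (hy : IsUnit y) (h : y * w = theta y) :
    dlog y = w :=
  hy.mul_left_cancel ((mul_dlog hy).trans h.symm)

theorem dlog_mul {y z : LaurentSeries R} (hy : IsUnit y) (hz : IsUnit z) :
    dlog (y * z) = dlog y + dlog z := by
  refine dlog_eq_of_mul_eq (hy.mul hz) ?_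
  rw [theta_mul]
  calc y * z * (dlog y + dlog z) = (y * dlog y) * z + y * (z * dlog z) := by ring
    _ = theta y * z + y * theta z := by rw [mul_dlog hy, mul_dlog hz]

theorem dlog_one : dlog (1 : LaurentSeries R) = 0 :=
  dlog_eq_of_mul_eq isUnit_one (by rw [theta_one, mul_zero])

theorem dlog_pow {y : LaurentSeries R} (hy : IsUnit y) (n : ℕ) : dlog (y ^ n) = n • dlog y := by
  induction n with
  | zero => simp [dlog_one]
  | succ n ih => rw [pow_succ, dlog_mul (hy.pow n) hy, ih, succ_nsmul]

theorem dlog_single_zero {c : R} (hc : IsUnit c) :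
    dlog (HahnSeries.single (0 : ℤ) c) = 0 :=
  dlog_eq_of_mul_eq (hc.map HahnSeries.C) (by rw [theta_single_zero, mul_zero])

theorem dlog_prod {ι : Type*} (s : Finset ι) {y : ι → LaurentSeries R}
    (hy : ∀ i ∈ s, IsUnit (y i)) : dlog (∏ i ∈ s, y i) = ∑ i ∈ s, dlog (y i) := by
  classical
  induction s using Finset.induction_on with
  | empty => simp [dlog_one]
  | insert i s hi ih =>
    have hu : IsUnit (∏ j ∈ s, y j) :=
      Finset.prod_induction _ IsUnit (fun _ _ => IsUnit.mul) isUnit_one
        fun j hj => hy j (Finset.mem_insert_of_mem hj)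
    rw [Finset.prod_insert hi, Finset.sum_insert hi, dlog_mul (hy i (Finset.mem_insert_self i s)) hu,
      ih fun j hj => hy j (Finset.mem_insert_of_mem hj)]

theorem coeffMap_dlog (f : R →+* S) {y : LaurentSeries R} (hy : IsUnit y) :
    coeffMap f (dlog y) = dlog (coeffMap f y) :=
  (dlog_eq_of_mul_eq (hy.map (coeffMap f))
    (by rw [← map_mul, mul_dlog hy, coeffMap_theta])).symm

theorem dlog_twist (u : Rˣ) {y : LaurentSeries R} (hy : IsUnit y) :
    dlog (twist u y) = twist u (dlog y) :=
  dlog_eq_of_mul_eq (hy.map (twist u)) (by rw [← map_mul, mul_dlog hy, theta_twist])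

theorem dlog_qExpand (d : ℕ) [NeZero d] {y : LaurentSeries R} (hy : IsUnit y) :
    dlog (qExpand R d y) = d • qExpand R d (dlog y) :=
  dlog_eq_of_mul_eq (hy.map (qExpand R d)) (by
    rw [mul_smul_comm, ← map_mul, mul_dlog hy, theta_qExpand])

end DLog

section Units

/-- A series whose reduction at a residue map with nil kernel is non-zero is a unit. -/
theorem isUnit_of_coeffMap_ne_zero {k : Type*} [Field k] (π : R →+* k)
    (hunit : ∀ a : R, π a ≠ 0 → IsUnit a) (hnil : ∀ a : R, π a = 0 → IsNilpotent a)
    {y : LaurentSeries R} (hy : coeffMap π y ≠ 0) : IsUnit y := by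
  classical
  set m := (coeffMap π y).order with hm
  have hlead : π (y.coeff m) ≠ 0 := fun h => hy (HahnSeries.coeff_order_eq_zero.1 h)
  let p : PowerSeries R := PowerSeries.mk fun i => y.coeff (m + i)
  let hi : LaurentSeries R := HahnSeries.single m 1 * HahnSeries.ofPowerSeries ℤ R p
  have hhi : IsUnit hi := by
    refine IsUnit.mul ⟨⟨HahnSeries.single m 1, HahnSeries.single (-m) 1, by simp, by simp⟩, rfl⟩
      ((PowerSeries.isUnit_iff_constantCoeff.2 ?_).map (HahnSeries.ofPowerSeries ℤ R))
    simpa [p] using hunit _ hlead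
  have hcoeff : ∀ j, hi.coeff j = if m ≤ j then y.coeff j else 0 := fun j => by
    rw [HahnSeries.coeff_single_mul, one_mul]
    split_ifs with hj
    · obtain ⟨i, hi'⟩ := Int.le.dest hj
      rw [show j - m = (i : ℤ) by omega, HahnSeries.ofPowerSeries_apply_coeff]
      simp [p, hi']
    · exact ofPowerSeries_coeff_of_neg _ (by omega)
  have hlow : y - hi = ∑ j ∈ Finset.Ico y.order m, HahnSeries.single j (y.coeff j) := by
    ext i
    rw [HahnSeries.coeff_sub, hcoeff, HahnSeries.coeff_sum]
    simp only [HahnSeries.coeff_single]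
    by_cases hmem : i ∈ Finset.Ico y.order m
    · rw [Finset.sum_eq_single i]
      · simp [not_le.2 (Finset.mem_Ico.1 hmem).2]
      · intro x _ hx
        simp [Ne.symm hx]
      · exact fun h => absurd hmem h
    · rw [Finset.sum_eq_zero]
      · rw [Finset.mem_Ico, not_and_or, not_le, not_lt] at hmem
        rcases hmem with h | h
        · simp [HahnSeries.coeff_eq_zero_of_lt_order h]
        · simp [h]
      · intro x hx
        have : i ≠ x := fun h => hmem (by rw [h]; exact hx)
        simp [this]
  have hnil' : IsNilpotent (y - hi) := by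
    rw [hlow]
    refine isNilpotent_sum fun j hj => ?_
    obtain ⟨e, he⟩ := hnil (y.coeff j) (by
      have := HahnSeries.coeff_eq_zero_of_lt_order (x := coeffMap π y) (Finset.mem_Ico.1 hj).2
      simpa using this)
    exact ⟨e, by rw [HahnSeries.single_pow, he, HahnSeries.single_eq_zero]⟩
  have := hnil'.isUnit_add_left_of_commute hhi (Commute.all _ _)
  rwa [add_sub_cancel] at this

end Units

section Norm2

/-- The even part `E` with `y = E(q²) + q O(q²)`. -/
def evenPart : LaurentSeries R →+ LaurentSeries R where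
  toFun y := HahnSeries.ofSuppBddBelow (fun m => y.coeff (2 * m))
    ⟨min y.order 0, fun m hm => by
      by_contra h
      exact hm (HahnSeries.coeff_eq_zero_of_lt_order (by omega))⟩
  map_zero' := by ext m; simp
  map_add' x y := by ext m; simp

theorem evenPart_coeff (y : LaurentSeries R) (m : ℤ) : (evenPart y).coeff m = y.coeff (2 * m) := by
  simp [evenPart]

/-- The odd part `O` with `y = E(q²) + q O(q²)`. -/
def oddPart : LaurentSeries R →+ LaurentSeries R :=
  evenPart.comp (AddMonoidHom.mulLeft (HahnSeries.single (-1 : ℤ) (1 : R)))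

theorem oddPart_coeff (y : LaurentSeries R) (m : ℤ) :
    (oddPart y).coeff m = y.coeff (2 * m + 1) := by
  show (evenPart (HahnSeries.single (-1 : ℤ) (1 : R) * y)).coeff m = _
  rw [evenPart_coeff, HahnSeries.coeff_single_mul, one_mul, sub_neg_eq_add]

theorem evenPart_add_oddPart (y : LaurentSeries R) :
    qExpand R 2 (evenPart y) + HahnSeries.single (1 : ℤ) 1 * qExpand R 2 (oddPart y) = y := by
  ext n
  rw [HahnSeries.coeff_add, HahnSeries.coeff_single_mul, one_mul]
  obtain ⟨m, rfl | rfl⟩ := Int.even_or_odd' n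
  · rw [show (2 : ℤ) = ((2 : ℕ) : ℤ) from rfl, qExpand_coeff_mul, evenPart_coeff,
      qExpand_coeff_of_not_dvd 2 _ (by omega), add_zero]
    rfl
  · rw [qExpand_coeff_of_not_dvd 2 _ (by omega), zero_add, add_sub_cancel_right,
      show (2 : ℤ) * m = ((2 : ℕ) : ℤ) * m from rfl, qExpand_coeff_mul, oddPart_coeff]
    rfl

theorem evenPart_qExpand_add (X Y : LaurentSeries R) :
    evenPart (qExpand R 2 X + HahnSeries.single (1 : ℤ) 1 * qExpand R 2 Y) = X := by
  ext m
  rw [evenPart_coeff, HahnSeries.coeff_add, HahnSeries.coeff_single_mul, one_mul,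
    qExpand_coeff_of_not_dvd 2 Y (k := 2 * m - 1) (by omega), add_zero,
    show (2 : ℤ) * m = ((2 : ℕ) : ℤ) * m from rfl, qExpand_coeff_mul]

/-- `N(y) = E² - q O²`, so that `N(y)(q²) = y(q) y(-q)`. -/
def norm2 (y : LaurentSeries R) : LaurentSeries R :=
  evenPart y ^ 2 - HahnSeries.single (1 : ℤ) 1 * oddPart y ^ 2

theorem twist_neg_one_qExpand (X : LaurentSeries R) :
    twist (-1 : Rˣ) (qExpand R 2 X) = qExpand R 2 X := by
  rw [EichlerShimura.twist_qExpand, show ((-1 : Rˣ) ^ 2) = 1 by simp, EichlerShimura.twist_one]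

theorem twist_neg_one_single :
    twist (-1 : Rˣ) (HahnSeries.single (1 : ℤ) (1 : R)) = -HahnSeries.single (1 : ℤ) 1 := by
  ext n
  rcases eq_or_ne n 1 with rfl | hn
  · simp [twist_coeff]
  · simp [twist_coeff, HahnSeries.coeff_single_of_ne hn]

theorem qExpand_norm2 (y : LaurentSeries R) :
    qExpand R 2 (norm2 y) = y * twist (-1 : Rˣ) y := by
  conv_rhs => rw [← evenPart_add_oddPart y]
  rw [map_add, map_mul, twist_neg_one_qExpand, twist_neg_one_qExpand, twist_neg_one_single,
    norm2, map_sub, map_mul, map_pow, map_pow, qExpand_single,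
    show ((2 : ℕ) : ℤ) * 1 = 1 + 1 from rfl,
    show HahnSeries.single ((1 : ℤ) + 1) (1 : R)
      = HahnSeries.single (1 : ℤ) 1 * HahnSeries.single (1 : ℤ) 1 by
      rw [HahnSeries.single_mul_single, one_mul]]
  ring

theorem norm2_mul (y z : LaurentSeries R) : norm2 (y * z) = norm2 y * norm2 z :=
  qExpand_injective (R := R) 2 (by
    rw [qExpand_norm2, map_mul, map_mul, qExpand_norm2, qExpand_norm2]; ring)

theorem isUnit_norm2 {y : LaurentSeries R} (hy : IsUnit y) : IsUnit (norm2 y) := by
  obtain ⟨z, hz⟩ := isUnit_iff_exists_inv.1 hy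
  refine IsUnit.of_mul_eq_one (norm2 z) ?_
  rw [← norm2_mul, hz]
  exact qExpand_injective (R := R) 2 (by rw [qExpand_norm2, map_one, map_one, one_mul])

theorem coeffMap_evenPart (f : R →+* S) (y : LaurentSeries R) :
    coeffMap f (evenPart y) = evenPart (coeffMap f y) := by
  ext m; simp [evenPart_coeff]

theorem coeffMap_oddPart (f : R →+* S) (y : LaurentSeries R) :
    coeffMap f (oddPart y) = oddPart (coeffMap f y) := by
  ext m; simp [oddPart_coeff]

theorem coeffMap_norm2 (f : R →+* S) (y : LaurentSeries R) :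
    coeffMap f (norm2 y) = norm2 (coeffMap f y) := by
  rw [norm2, norm2, map_sub, map_mul, map_pow, map_pow, coeffMap_evenPart, coeffMap_oddPart,
    coeffMap_single, map_one]

theorem coeffMap_iterate_norm2 (f : R →+* S) (y : LaurentSeries R) (j : ℕ) :
    coeffMap f (norm2^[j] y) = norm2^[j] (coeffMap f y) := by
  induction j with
  | zero => rfl
  | succ j ih => simp only [Function.iterate_succ_apply', coeffMap_norm2, ih]

/-- `U₂ (dlog y) = dlog (N y)`, exactly, in any ring. -/
theorem dlog_norm2 {y : LaurentSeries R} (hy : IsUnit y) :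
    dlog (norm2 y) = evenPart (dlog y) := by
  refine dlog_eq_of_mul_eq (isUnit_norm2 hy) ?_
  set E := evenPart y
  set O := oddPart y
  set q : LaurentSeries R := HahnSeries.single (1 : ℤ) 1
  have hy' : qExpand R 2 E + q * qExpand R 2 O = y := evenPart_add_oddPart y
  have htq : theta q = q := by
    ext n
    rcases eq_or_ne n 1 with rfl | hn
    · simp [q, theta_coeff]
    · simp [q, theta_coeff, HahnSeries.coeff_single_of_ne hn]
  have hq2 : qExpand R 2 q = q * q := by
    rw [qExpand_single, HahnSeries.single_mul_single, one_mul]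
    rfl
  -- `qExpand 2 (norm2 y) * dlog y = θ y * y(-q)` and take even parts
  have hP : qExpand R 2 (norm2 y) * dlog y
      = qExpand R 2 (2 * theta E * E - q * (O + 2 * theta O) * O)
        + q * qExpand R 2 (O * E + 2 * theta O * E - 2 * theta E * O) := by
    rw [qExpand_norm2, mul_comm y, mul_assoc, mul_dlog hy]
    conv_lhs => rw [← hy']
    rw [map_add, map_mul, twist_neg_one_qExpand, twist_neg_one_qExpand, twist_neg_one_single,
      map_add, theta_mul, theta_qExpand, theta_qExpand, htq]
    simp only [map_sub, map_add, map_mul, map_ofNat, hq2, nsmul_eq_mul, Nat.cast_ofNat]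
    ring
  have heven := congrArg evenPart hP
  rw [evenPart_qExpand_add] at heven
  have hlin : evenPart (qExpand R 2 (norm2 y) * dlog y) = norm2 y * evenPart (dlog y) := by
    conv_lhs => rw [← evenPart_add_oddPart (dlog y)]
    rw [mul_add, mul_left_comm (qExpand R 2 (norm2 y)) (HahnSeries.single (1 : ℤ) 1), ← map_mul,
      ← map_mul, evenPart_qExpand_add]
  rw [← hlin, heven, norm2, map_sub, pow_two, pow_two, theta_mul, theta_mul, theta_mul, htq]
  ring

theorem coeff_dlog_iterate_norm2 {y : LaurentSeries R} (hy : IsUnit y) (j : ℕ) (m : ℤ) :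
    (dlog (norm2^[j] y)).coeff m = (dlog y).coeff (2 ^ j * m) := by
  induction j generalizing y with
  | zero => simp
  | succ j ih =>
    rw [Function.iterate_succ_apply, ih (isUnit_norm2 hy), dlog_norm2 hy, evenPart_coeff]
    congr 1
    ring

end Norm2

section Dwork

/-- All coefficients lie in the ideal. -/
def CoeffsIn (I : Ideal R) (x : LaurentSeries R) : Prop := ∀ n, x.coeff n ∈ I

theorem CoeffsIn.mul_left {I : Ideal R} {x : LaurentSeries R} (h : CoeffsIn I x)
    (y : LaurentSeries R) : CoeffsIn I (y * x) := fun n => by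
  rw [HahnSeries.coeff_mul]
  exact Ideal.sum_mem _ fun ij _ => I.mul_mem_left _ (h _)

theorem CoeffsIn.mul {I J : Ideal R} {x y : LaurentSeries R} (hx : CoeffsIn I x)
    (hy : CoeffsIn J y) : CoeffsIn (I * J) (x * y) := fun n => by
  rw [HahnSeries.coeff_mul]
  exact Ideal.sum_mem _ fun ij _ => Ideal.mul_mem_mul (hx _) (hy _)

theorem CoeffsIn.add {I : Ideal R} {x y : LaurentSeries R} (hx : CoeffsIn I x)
    (hy : CoeffsIn I y) : CoeffsIn I (x + y) := fun n => I.add_mem (hx n) (hy n)

theorem CoeffsIn.sub {I : Ideal R} {x y : LaurentSeries R} (hx : CoeffsIn I x)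
    (hy : CoeffsIn I y) : CoeffsIn I (x - y) := fun n => I.sub_mem (hx n) (hy n)

theorem coeffsIn_sq_sub_sq {I J : Ideal R} {x y : LaurentSeries R}
    (hI : CoeffsIn I (x - y)) (hJ : I ≤ J) :
    CoeffsIn (I * (J ⊔ Ideal.span {2})) (x ^ 2 - y ^ 2) := by
  have h : x ^ 2 - y ^ 2 = (x - y) * ((x - y) + 2 * y) := by ring
  rw [h]
  refine hI.mul (CoeffsIn.add (fun n => Ideal.mem_sup_left (hJ (hI n))) fun n => ?_)
  refine Ideal.mem_sup_right ?_
  rw [two_mul, HahnSeries.coeff_add, ← two_mul]
  exact Ideal.mul_mem_right _ _ (Ideal.mem_span_singleton_self 2)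

theorem coeffsIn_norm2_sub {I J : Ideal R} {x y : LaurentSeries R}
    (hI : CoeffsIn I (x - y)) (hJ : I ≤ J) :
    CoeffsIn (I * (J ⊔ Ideal.span {2})) (norm2 x - norm2 y) := by
  have hE : CoeffsIn I (evenPart x - evenPart y) := fun n => by
    rw [← map_sub, evenPart_coeff]; exact hI _
  have hO : CoeffsIn I (oddPart x - oddPart y) := fun n => by
    rw [← map_sub, oddPart_coeff]; exact hI _
  rw [show norm2 x - norm2 y = (evenPart x ^ 2 - evenPart y ^ 2)
      - HahnSeries.single (1 : ℤ) 1 * (oddPart x ^ 2 - oddPart y ^ 2) by rw [norm2, norm2]; ring]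
  exact (coeffsIn_sq_sub_sq hE hJ).sub ((coeffsIn_sq_sub_sq hO hJ).mul_left _)

/-- **Dwork congruence**: iterated norms of congruent series agree eventually. -/
theorem exists_iterate_norm2_eq {J : Ideal R} (hJ : IsNilpotent (J ⊔ Ideal.span {2}))
    {x y : LaurentSeries R} (h : CoeffsIn J (x - y)) :
    ∃ j₀, ∀ j, j₀ ≤ j → norm2^[j] x = norm2^[j] y := by
  have key : ∀ j, CoeffsIn (J * (J ⊔ Ideal.span {2}) ^ j) (norm2^[j] x - norm2^[j] y) := by
    intro j
    induction j with
    | zero => simpa using h
    | succ j ih =>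
      simp only [Function.iterate_succ_apply']
      rw [pow_succ, ← mul_assoc]
      exact coeffsIn_norm2_sub ih Ideal.mul_le_left
  obtain ⟨e, he⟩ := hJ
  refine ⟨e, fun j hj => sub_eq_zero.1 (HahnSeries.ext (funext fun n => ?_))⟩
  have hn := key j n
  rw [← Nat.add_sub_cancel' hj, pow_add, he, zero_mul, mul_zero] at hn
  replace hn := (Submodule.mem_bot R).1 hn
  rwa [HahnSeries.coeff_zero, ← Nat.add_sub_cancel' hj]

end Dwork

end Fermat.Agent.Residual.Ord2
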