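/-
The ordinary functional at `2`: the logarithmic derivative `ω` of expansions modulo `2^K`, its
behaviour under the decomposition group, and the determination of an eigen series by its first
coefficient.
-/
import Fermat.Agent.Residual.Ord2Series
import Fermat.Agent.BadReduction.X0Gauss
import Fermat.Agent.Flat.JacobianArith
import Fermat.Agent.ES.SpecialGalois

set_option autoImplicit false
set_option linter.style.haveILetI false

noncomputable section

open ModularCurve HahnSeries IsLocalRing
open Fermat.Agent.EichlerShimura (twist twist_coeff coeffMap_twist)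
open Fermat.Agent.Carayol (finCoeff IsFinCoeff finFrac exists_primitive coeffMap_subtype_injective)

namespace Fermat.Agent.Residual.Ord2

local notation "Qbar" => AlgebraicClosure ℚ

variable (A : ValuationSubring Qbar) (K : ℕ)

/-- `A / 2^K`. -/
abbrev Mod2 : Type := A ⧸ Ideal.span {((2 : A)) ^ K}

/-- Reduction modulo `2^K`. -/
def red : A →+* Mod2 A K := Ideal.Quotient.mk _

variable {A K}

theorem two_mem_maximalIdeal (hA : A.LiesOverPrime 2) : (2 : A) ∈ maximalIdeal A := by
  haveI : Fact (Nat.Prime 2) := ⟨Nat.prime_two⟩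
  simpa using FlatModel.JacArith.natCast_prime_mem_maximalIdeal (ℓ := 2) hA

theorem isNilpotent_red (hA : A.LiesOverPrime 2) {a : A} (ha : a ∈ maximalIdeal A) :
    IsNilpotent (red A K a) := by
  haveI : Fact (Nat.Prime 2) := ⟨Nat.prime_two⟩
  obtain ⟨e, he⟩ := FlatModel.JacArith.exists_pow_mem_span (ℓ := 2) hA ha
  refine ⟨e * K, ?_⟩
  rw [pow_mul, ← map_pow, ← map_pow, red, Ideal.Quotient.eq_zero_iff_mem,
    ← Ideal.span_singleton_pow]
  exact Ideal.pow_mem_pow (by simpa using he) K

theorem isUnit_red {a : A} (ha : residue A a ≠ 0) : IsUnit (red A K a) :=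
  ((residue_ne_zero_iff_isUnit a).1 ha).map _

/-- A series with non-zero residue becomes a unit modulo `2^K`. -/
theorem isUnit_coeffMap_red (hA : A.LiesOverPrime 2) {y : LaurentSeries A}
    (hy : coeffMap (residue A) y ≠ 0) : IsUnit (coeffMap (red A K) y) := by
  rcases Nat.eq_zero_or_pos K with rfl | hK
  · haveI : Subsingleton (Mod2 A 0) := Ideal.Quotient.subsingleton_iff.2 (by simp)
    have h1 : (coeffMap (red A 0) y) = 1 := HahnSeries.ext (funext fun n => Subsingleton.elim _ _)
    rw [h1]
    exact isUnit_one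
  let π : Mod2 A K →+* ResidueField A := Ideal.Quotient.lift _ (residue A) fun a ha => by
    obtain ⟨b, rfl⟩ := Ideal.mem_span_singleton'.1 ha
    rw [map_mul, map_pow, (residue_eq_zero_iff _).2 (two_mem_maximalIdeal hA), zero_pow hK.ne',
      mul_zero]
  refine isUnit_of_coeffMap_ne_zero π (fun a ha => ?_) (fun a ha => ?_) ?_
  · obtain ⟨b, rfl⟩ := Ideal.Quotient.mk_surjective a
    exact isUnit_red ha
  · obtain ⟨b, rfl⟩ := Ideal.Quotient.mk_surjective a
    exact isNilpotent_red hA ((residue_eq_zero_iff _).1 ha)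
  · rw [coeffMap_coeffMap, coeffMap_congr (f := π.comp (red A K)) (g := residue A)
      (RingHom.ext fun _ => rfl)]
    exact hy

variable (A) in
/-- `g = c · y₁ / y₂` with integral series of non-zero residue. -/
structure GaussRep (g : LaurentSeries Qbar) (c : Qbar) (y₁ y₂ : LaurentSeries A) : Prop where
  hc : c ≠ 0
  h₁ : coeffMap (residue A) y₁ ≠ 0
  h₂ : coeffMap (residue A) y₂ ≠ 0
  eq : g * coeffMap A.subtype y₂ = HahnSeries.single (0 : ℤ) c * coeffMap A.subtype y₁

namespace GaussRep

variable {g g' : LaurentSeries Qbar} {c c' : Qbar} {y₁ y₂ z₁ z₂ : LaurentSeries A}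

theorem mul (h : GaussRep A g c y₁ y₂) (h' : GaussRep A g' c' z₁ z₂) :
    GaussRep A (g * g') (c * c') (y₁ * z₁) (y₂ * z₂) where
  hc := mul_ne_zero h.hc h'.hc
  h₁ := by rw [map_mul]; exact mul_ne_zero h.h₁ h'.h₁
  h₂ := by rw [map_mul]; exact mul_ne_zero h.h₂ h'.h₂
  eq := by
    have hs : HahnSeries.single (0 : ℤ) (c * c')
        = HahnSeries.single (0 : ℤ) c * HahnSeries.single (0 : ℤ) c' := by
      rw [HahnSeries.single_mul_single, add_zero]
    rw [map_mul (coeffMap A.subtype), map_mul (coeffMap A.subtype), hs]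
    calc g * g' * (coeffMap A.subtype y₂ * coeffMap A.subtype z₂)
        = (g * coeffMap A.subtype y₂) * (g' * coeffMap A.subtype z₂) := by ring
      _ = _ := by rw [h.eq, h'.eq]; ring

/-- The logarithmic derivative of a representation does not depend on it. -/
theorem dlog_sub_eq (hA : A.LiesOverPrime 2) (h : GaussRep A g c y₁ y₂)
    (h' : GaussRep A g c' z₁ z₂) :
    dlog (coeffMap (red A K) y₁) - dlog (coeffMap (red A K) y₂)
      = dlog (coeffMap (red A K) z₁) - dlog (coeffMap (red A K) z₂) := by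
  have key : HahnSeries.single (0 : ℤ) c * coeffMap A.subtype (y₁ * z₂)
      = HahnSeries.single (0 : ℤ) c' * coeffMap A.subtype (z₁ * y₂) := by
    rw [map_mul, map_mul, ← mul_assoc, ← h.eq, ← mul_assoc, ← h'.eq]; ring
  -- the ratio of the constants is a unit of `A`
  have main : ∀ {d d' : Qbar} {u w : LaurentSeries A}, d' ≠ 0 → coeffMap (residue A) u ≠ 0 →
      coeffMap (residue A) w ≠ 0 →
      HahnSeries.single (0 : ℤ) d * coeffMap A.subtype u
        = HahnSeries.single (0 : ℤ) d' * coeffMap A.subtype w → d / d' ∈ A →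
      dlog (coeffMap (red A K) u) = dlog (coeffMap (red A K) w) := by
    intro d d' u w hd hu hw he hmem
    have hw' : w = HahnSeries.single (0 : ℤ) (⟨d / d', hmem⟩ : A) * u := by
      apply coeffMap_subtype_injective A
      have hs : HahnSeries.single (0 : ℤ) (d' : Qbar) ≠ 0 := HahnSeries.single_ne_zero hd
      apply mul_left_cancel₀ hs
      rw [map_mul, coeffMap_single, ← mul_assoc, HahnSeries.single_mul_single, add_zero,
        show d' * A.subtype (⟨d / d', hmem⟩ : A) = d from mul_div_cancel₀ d hd]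
      exact he.symm
    have hres : residue A (⟨d / d', hmem⟩ : A) ≠ 0 := fun h0 => hw (by
      rw [hw', map_mul, coeffMap_single, h0, map_zero, zero_mul])
    have hcu : IsUnit (red A K ⟨d / d', hmem⟩) := isUnit_red hres
    have hcu' : IsUnit (HahnSeries.single (0 : ℤ) (red A K ⟨d / d', hmem⟩)) :=
      hcu.map (HahnSeries.C (Γ := ℤ))
    rw [hw', map_mul, coeffMap_single,
      dlog_mul hcu' (isUnit_coeffMap_red hA hu), dlog_single_zero hcu, zero_add]
  have hu₁ : coeffMap (residue A) (y₁ * z₂) ≠ 0 := by rw [map_mul]; exact mul_ne_zero h.h₁ h'.h₂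
  have hu₂ : coeffMap (residue A) (z₁ * y₂) ≠ 0 := by rw [map_mul]; exact mul_ne_zero h'.h₁ h.h₂
  have e : dlog (coeffMap (red A K) (y₁ * z₂)) = dlog (coeffMap (red A K) (z₁ * y₂)) := by
    rcases A.mem_or_inv_mem (c / c') with hm | hm
    · exact main h'.hc hu₁ hu₂ key hm
    · rw [inv_div] at hm
      exact (main h.hc hu₂ hu₁ key.symm hm).symm
  rw [map_mul, map_mul, dlog_mul (isUnit_coeffMap_red hA h.h₁) (isUnit_coeffMap_red hA h'.h₂),
    dlog_mul (isUnit_coeffMap_red hA h'.h₁) (isUnit_coeffMap_red hA h.h₂)] at e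
  linear_combination e

end GaussRep

variable (A K) in
open Classical in
/-- `ω(g) = θ g / g` modulo `2^K`. -/
def omega (g : LaurentSeries Qbar) : LaurentSeries (Mod2 A K) :=
  if h : ∃ t : Qbar × LaurentSeries A × LaurentSeries A, GaussRep A g t.1 t.2.1 t.2.2 then
    dlog (coeffMap (red A K) h.choose.2.1) - dlog (coeffMap (red A K) h.choose.2.2)
  else 0

theorem omega_eq (hA : A.LiesOverPrime 2) {g : LaurentSeries Qbar} {c : Qbar}
    {y₁ y₂ : LaurentSeries A} (h : GaussRep A g c y₁ y₂) :
    omega A K g = dlog (coeffMap (red A K) y₁) - dlog (coeffMap (red A K) y₂) := by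
  classical
  have he : ∃ t : Qbar × LaurentSeries A × LaurentSeries A, GaussRep A g t.1 t.2.1 t.2.2 :=
    ⟨(c, y₁, y₂), h⟩
  rw [omega, dif_pos he]
  exact he.choose_spec.dlog_sub_eq hA h

theorem omega_mul (hA : A.LiesOverPrime 2) {g g' : LaurentSeries Qbar} {c c' : Qbar}
    {y₁ y₂ z₁ z₂ : LaurentSeries A} (h : GaussRep A g c y₁ y₂) (h' : GaussRep A g' c' z₁ z₂) :
    omega A K (g * g') = omega A K g + omega A K g' := by
  rw [omega_eq hA (h.mul h'), omega_eq hA h, omega_eq hA h', map_mul, map_mul,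
    dlog_mul (isUnit_coeffMap_red hA h.h₁) (isUnit_coeffMap_red hA h'.h₁),
    dlog_mul (isUnit_coeffMap_red hA h.h₂) (isUnit_coeffMap_red hA h'.h₂)]
  abel

theorem gaussRep_single_zero {c : Qbar} (hc : c ≠ 0) :
    GaussRep A (HahnSeries.single (0 : ℤ) c) c 1 1 where
  hc := hc
  h₁ := by rw [map_one]; exact one_ne_zero
  h₂ := by rw [map_one]; exact one_ne_zero
  eq := rfl

theorem omega_single_zero (hA : A.LiesOverPrime 2) {c : Qbar} (hc : c ≠ 0) :
    omega A K (HahnSeries.single (0 : ℤ) c) = 0 := by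
  rw [omega_eq hA (gaussRep_single_zero hc), sub_self]

theorem gaussRep_pow {g : LaurentSeries Qbar} {c : Qbar} {y₁ y₂ : LaurentSeries A}
    (h : GaussRep A g c y₁ y₂) (n : ℕ) : GaussRep A (g ^ n) (c ^ n) (y₁ ^ n) (y₂ ^ n) where
  hc := pow_ne_zero n h.hc
  h₁ := by rw [map_pow]; exact pow_ne_zero n h.h₁
  h₂ := by rw [map_pow]; exact pow_ne_zero n h.h₂
  eq := by
    rw [map_pow (coeffMap A.subtype), map_pow (coeffMap A.subtype), ← mul_pow, h.eq, mul_pow,
      HahnSeries.single_pow, smul_zero]

theorem omega_pow (hA : A.LiesOverPrime 2) {g : LaurentSeries Qbar} {c : Qbar}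
    {y₁ y₂ : LaurentSeries A} (h : GaussRep A g c y₁ y₂) (n : ℕ) :
    omega A K (g ^ n) = n • omega A K g := by
  rw [omega_eq hA (gaussRep_pow h n), omega_eq hA h, map_pow, map_pow,
    dlog_pow (isUnit_coeffMap_red hA h.h₁), dlog_pow (isUnit_coeffMap_red hA h.h₂), smul_sub]

theorem omega_pow_two_pow (hA : A.LiesOverPrime 2) {g : LaurentSeries Qbar} {c : Qbar}
    {y₁ y₂ : LaurentSeries A} (h : GaussRep A g c y₁ y₂) : omega A K (g ^ 2 ^ K) = 0 := by
  rw [omega_pow hA h]
  ext n
  rw [HahnSeries.coeff_smul, nsmul_eq_mul, HahnSeries.coeff_zero]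
  have h0 : ((2 ^ K : ℕ) : Mod2 A K) = red A K ((2 : A) ^ K) := by
    rw [map_pow, map_ofNat]; push_cast; rfl
  rw [h0, red, Ideal.Quotient.eq_zero_iff_mem.2 (Ideal.mem_span_singleton_self _), zero_mul]

/-- Elements of the fraction field of series with finitely generated coefficients have
representations with such series. -/
theorem exists_gaussRep {g : LaurentSeries Qbar} (hg : g ∈ finFrac Qbar) (hg0 : g ≠ 0) :
    ∃ c y₁ y₂, GaussRep A g c y₁ y₂ ∧ IsFinCoeff (coeffMap A.subtype y₁) ∧
      IsFinCoeff (coeffMap A.subtype y₂) := by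
  obtain ⟨a, ha, b, hb, hb0, e⟩ := Carayol.exists_eq_div_of_mem_finFrac hg
  have ha0 : a ≠ 0 := e ▸ mul_ne_zero hg0 hb0
  obtain ⟨s, hs, y, hy, hy0⟩ := exists_primitive A (residue A) ha ha0
  obtain ⟨t, ht, z, hz, hz0⟩ := exists_primitive A (residue A) hb hb0
  have hfin : ∀ {r : Qbar} {x : LaurentSeries Qbar}, x ∈ finCoeff Qbar →
      IsFinCoeff (HahnSeries.single (0 : ℤ) r * x) := fun hx =>
    Carayol.mem_finCoeff.1 ((finCoeff Qbar).mul_mem (Carayol.isFinCoeff_single _ _) hx)
  refine ⟨t / s, y, z, ⟨div_ne_zero ht hs, hy0, hz0, ?_⟩, hy ▸ hfin ha, hz ▸ hfin hb⟩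
  rw [hy, hz, ← mul_assoc (HahnSeries.single (0 : ℤ) (t / s)), HahnSeries.single_mul_single,
    add_zero, div_mul_cancel₀ t hs, mul_left_comm, e]

section Galois

variable {σ : Qbar ≃ₐ[ℚ] Qbar} (hσ : σ ∈ A.decompositionSubgroup ℚ)

variable (K) in
/-- The action of the decomposition group on `A / 2^K`. -/
def modAut : Mod2 A K →+* Mod2 A K :=
  Ideal.Quotient.lift _ ((red A K).comp (ES.decompRingHom A hσ)) fun a ha => by
    obtain ⟨b, rfl⟩ := Ideal.mem_span_singleton'.1 ha
    rw [RingHom.comp_apply, map_mul, map_pow, map_ofNat, red, Ideal.Quotient.eq_zero_iff_mem]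
    exact Ideal.mul_mem_left _ _ (Ideal.mem_span_singleton_self _)

theorem modAut_red (a : A) : modAut K hσ (red A K a) = red A K (ES.decompRingHom A hσ a) := rfl

theorem coeffMap_residue_decomp (y : LaurentSeries A) :
    coeffMap (residue A) (coeffMap (ES.decompRingHom A hσ) y)
      = coeffMap (ES.residueAut A hσ : ResidueField A →+* ResidueField A)
          (coeffMap (residue A) y) := by
  rw [coeffMap_coeffMap, coeffMap_coeffMap]
  exact coeffMap_congr (RingHom.ext fun a => rfl) y

theorem GaussRep.galois {g : LaurentSeries Qbar} {c : Qbar} {y₁ y₂ : LaurentSeries A}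
    (h : GaussRep A g c y₁ y₂) :
    GaussRep A (coeffMap (σ : Qbar →+* Qbar) g) (σ c)
      (coeffMap (ES.decompRingHom A hσ) y₁) (coeffMap (ES.decompRingHom A hσ) y₂) where
  hc := by simpa using h.hc
  h₁ := by
    rw [coeffMap_residue_decomp]
    intro h0
    refine h.h₁ (HahnSeries.ext (funext fun n => (ES.residueAut A hσ).injective ?_))
    simpa using congrArg (fun z : LaurentSeries (ResidueField A) => z.coeff n) h0
  h₂ := by
    rw [coeffMap_residue_decomp]
    intro h0
    refine h.h₂ (HahnSeries.ext (funext fun n => (ES.residueAut A hσ).injective ?_))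
    simpa using congrArg (fun z : LaurentSeries (ResidueField A) => z.coeff n) h0
  eq := by
    have hcomm : ∀ y : LaurentSeries A, coeffMap A.subtype (coeffMap (ES.decompRingHom A hσ) y)
        = coeffMap (σ : Qbar →+* Qbar) (coeffMap A.subtype y) := fun y => by
      rw [coeffMap_coeffMap, coeffMap_coeffMap]
      exact coeffMap_congr (RingHom.ext fun a => rfl) y
    rw [hcomm, hcomm, ← map_mul, h.eq, map_mul, coeffMap_single]
    rfl

/-- `ω (σ g) = σ (ω g)` coefficientwise. -/
theorem omega_galois (hA : A.LiesOverPrime 2) {g : LaurentSeries Qbar} {c : Qbar}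
    {y₁ y₂ : LaurentSeries A} (h : GaussRep A g c y₁ y₂) :
    omega A K (coeffMap (σ : Qbar →+* Qbar) g) = coeffMap (modAut K hσ) (omega A K g) := by
  have hcomm : ∀ y : LaurentSeries A, coeffMap (modAut K hσ) (coeffMap (red A K) y)
      = coeffMap (red A K) (coeffMap (ES.decompRingHom A hσ) y) := fun y => by
    rw [coeffMap_coeffMap, coeffMap_coeffMap]
    exact coeffMap_congr (RingHom.ext fun a => rfl) y
  rw [omega_eq hA (h.galois hσ), omega_eq hA h, map_sub,
    coeffMap_dlog _ (isUnit_coeffMap_red hA h.h₁), coeffMap_dlog _ (isUnit_coeffMap_red hA h.h₂),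
    hcomm, hcomm]

end Galois

section Dwork

theorem isFinCoeff_ofSuppBdd_comp {x : LaurentSeries Qbar} (hx : IsFinCoeff x)
    (y : LaurentSeries Qbar) (φ : ℤ → ℤ) (hy : ∀ n, y.coeff n = x.coeff (φ n)) : IsFinCoeff y := by
  obtain ⟨M, hM, h⟩ := hx
  exact ⟨M, hM, fun n => hy n ▸ h _⟩

theorem isFinCoeff_norm2 {x : LaurentSeries Qbar} (hx : IsFinCoeff x) : IsFinCoeff (norm2 x) := by
  have hE : evenPart x ∈ finCoeff Qbar :=
    isFinCoeff_ofSuppBdd_comp hx _ _ (evenPart_coeff x)
  have hO : oddPart x ∈ finCoeff Qbar :=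
    isFinCoeff_ofSuppBdd_comp hx _ _ (oddPart_coeff x)
  exact (finCoeff Qbar).sub_mem ((finCoeff Qbar).pow_mem hE 2)
    ((finCoeff Qbar).mul_mem (Carayol.isFinCoeff_single _ _) ((finCoeff Qbar).pow_mem hO 2))

theorem isFinCoeff_galois {x : LaurentSeries Qbar} (hx : IsFinCoeff x) (σ : Qbar →+* Qbar) :
    IsFinCoeff (coeffMap σ x) := by
  obtain ⟨M, hM, h⟩ := hx
  exact ⟨M.map σ.toIntAlgHom.toLinearMap, hM.map _, fun n => ⟨x.coeff n, h n, rfl⟩⟩

theorem isFinCoeff_sub {x y : LaurentSeries Qbar} (hx : IsFinCoeff x) (hy : IsFinCoeff y) :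
    IsFinCoeff (x - y) :=
  (finCoeff Qbar).sub_mem hx hy

/-- Coefficients in a finitely generated module and in the maximal ideal generate a nilpotent
ideal modulo `2^K`. -/
theorem exists_nilpotent_ideal (hA : A.LiesOverPrime 2) {w : LaurentSeries A}
    (hw : IsFinCoeff (coeffMap A.subtype w)) (hw0 : coeffMap (residue A) w = 0) :
    ∃ J : Ideal (Mod2 A K), IsNilpotent (J ⊔ Ideal.span {2}) ∧
      CoeffsIn J (coeffMap (red A K) w) := by
  classical
  obtain ⟨M, hM, hwM⟩ := hw
  haveI : IsNoetherian ℤ M := isNoetherian_of_fg_of_noetherian M hM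
  obtain ⟨T, hTsub, hT⟩ := (Submodule.fg_span_iff_fg_span_finset_subset _).mp
    (Submodule.FG.of_le_of_isNoetherian
      (show Submodule.span ℤ (Set.range (coeffMap A.subtype w).coeff) ≤ M from
        Submodule.span_le.2 (by rintro x ⟨n, rfl⟩; exact hwM n)))
  choose idx hidx using fun t : T => hTsub t.2
  let G : Finset (Mod2 A K) := insert 2 (Finset.univ.image fun t : T => red A K (w.coeff (idx t)))
  refine ⟨Ideal.span (G : Set (Mod2 A K)), ?_, fun n => ?_⟩
  · refine (Ideal.FG.isNilpotent_iff_le_nilradical ?_).2 (sup_le ?_ ?_)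
    · exact Submodule.FG.sup ⟨G, rfl⟩ ⟨{2}, by simp⟩
    · refine Ideal.span_le.2 fun a ha => ?_
      simp only [G, Finset.coe_insert, Set.mem_insert_iff, Finset.mem_coe, Finset.mem_image,
        Finset.mem_univ, true_and] at ha
      rcases ha with rfl | ⟨t, rfl⟩
      · rw [SetLike.mem_coe, mem_nilradical, ← map_ofNat (red A K) 2]
        exact isNilpotent_red hA (two_mem_maximalIdeal hA)
      · refine mem_nilradical.2 (isNilpotent_red hA ((residue_eq_zero_iff _).1 ?_))
        simpa using congrArg (fun z : LaurentSeries (ResidueField A) => z.coeff (idx t)) hw0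
    · rw [Ideal.span_singleton_le_iff_mem, mem_nilradical]
      rw [← map_ofNat (red A K) 2]
      exact isNilpotent_red hA (two_mem_maximalIdeal hA)
  · have hmem : (w.coeff n : Qbar) ∈ Submodule.span ℤ (Set.range (coeffMap A.subtype w).coeff) :=
      Submodule.subset_span ⟨n, rfl⟩
    rw [hT] at hmem
    suffices H : ∀ x ∈ Submodule.span ℤ (T : Set Qbar), ∀ hx : x ∈ A,
        red A K ⟨x, hx⟩ ∈ Ideal.span (G : Set (Mod2 A K)) from H _ hmem (w.coeff n).2
    have hA' : ∀ v ∈ Submodule.span ℤ (T : Set Qbar), v ∈ A := fun v hv => by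
      rw [← hT] at hv
      induction hv using Submodule.span_induction with
      | mem v hv => obtain ⟨m, rfl⟩ := hv; exact (w.coeff m).2
      | zero => exact zero_mem _
      | add a b _ _ ha hb => exact add_mem ha hb
      | smul m a _ ha => exact zsmul_mem ha m
    intro x hx
    induction hx using Submodule.span_induction with
    | mem y hy =>
      intro hyA
      refine Ideal.subset_span ?_
      simp only [G, Finset.coe_insert, Set.mem_insert_iff, Finset.mem_coe, Finset.mem_image,
        Finset.mem_univ, true_and]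
      exact Or.inr ⟨⟨y, hy⟩, congrArg (red A K) (Subtype.ext (hidx ⟨y, hy⟩))⟩
    | zero => intro h0; rw [show (⟨0, h0⟩ : A) = 0 from rfl, map_zero]; exact zero_mem _
    | add y z hy hz ihy ihz =>
      intro h
      rw [show (⟨y + z, h⟩ : A) = ⟨y, hA' y hy⟩ + ⟨z, hA' z hz⟩ from rfl, map_add]
      exact add_mem (ihy _) (ihz _)
    | smul m y hy ihy =>
      intro h
      rw [show (⟨m • y, h⟩ : A) = m • ⟨y, hA' y hy⟩ from rfl, map_zsmul]
      exact zsmul_mem (ihy _) m

theorem norm2_eq_frobenius {k : Type*} [CommRing k] [CharP k 2] (x : LaurentSeries k) :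
    norm2 x = coeffMap (frobenius k 2) x := by
  haveI : Fact (Nat.Prime 2) := ⟨Nat.prime_two⟩
  apply qExpand_injective (R := k) 2
  rw [qExpand_norm2, ← EichlerShimura.pow_char_eq_qExpand, pow_two,
    show ((-1 : kˣ)) = 1 from Units.ext (by simp [CharTwo.neg_eq]), EichlerShimura.twist_one]

theorem charP_residueField (hA : A.LiesOverPrime 2) : CharP (ResidueField A) 2 :=
  (CharP.charP_iff_prime_eq_zero Nat.prime_two).2 (by
    have h := (residue_eq_zero_iff _).2 (two_mem_maximalIdeal hA)
    rw [map_ofNat] at h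
    simpa using h)

/-- A series congruent modulo the maximal ideal to the `e`-th iterated norm has eventually the
same iterated logarithmic derivatives. -/
theorem exists_modAut_coeff_dlog (hA : A.LiesOverPrime 2) {σ : Qbar ≃ₐ[ℚ] Qbar}
    (hσ : σ ∈ A.decompositionSubgroup ℚ) {e : ℕ}
    (he : ∀ x : ResidueField A, ES.residueAut A hσ x = x ^ 2 ^ e) {y : LaurentSeries A}
    (hy : IsFinCoeff (coeffMap A.subtype y)) (hy0 : coeffMap (residue A) y ≠ 0) :
    ∃ j₀, ∀ j, j₀ ≤ j →
      modAut K hσ ((dlog (coeffMap (red A K) y)).coeff (2 ^ j))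
        = (dlog (coeffMap (red A K) y)).coeff (2 ^ (j + e)) := by
  haveI := charP_residueField hA
  set s := coeffMap (ES.decompRingHom A hσ) y
  have hres : coeffMap (residue A) (s - norm2^[e] y) = 0 := by
    rw [map_sub, sub_eq_zero, coeffMap_iterate_norm2, coeffMap_residue_decomp]
    have hit : ∀ (i : ℕ) (x : LaurentSeries (ResidueField A)) (n : ℤ),
        (norm2^[i] x).coeff n = x.coeff n ^ 2 ^ i := fun i => by
      induction i with
      | zero => intro x n; rw [Function.iterate_zero_apply, pow_zero, pow_one]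
      | succ i ih =>
        intro x n
        rw [Function.iterate_succ_apply', norm2_eq_frobenius, coeffMap_coeff, frobenius_def, ih,
          ← pow_mul, ← pow_succ]
    ext n
    rw [coeffMap_coeff, hit]
    exact he _
  have hfin : IsFinCoeff (coeffMap A.subtype (s - norm2^[e] y)) := by
    rw [map_sub]
    refine isFinCoeff_sub ?_ ?_
    · have : coeffMap A.subtype s = coeffMap (σ : Qbar →+* Qbar) (coeffMap A.subtype y) := by
        rw [coeffMap_coeffMap, coeffMap_coeffMap]
        exact coeffMap_congr (RingHom.ext fun a => rfl) y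
      rw [this]
      exact isFinCoeff_galois hy _
    · rw [coeffMap_iterate_norm2]
      clear hres he
      induction e with
      | zero => exact hy
      | succ i ih =>
        rw [Function.iterate_succ_apply']
        exact isFinCoeff_norm2 ih
  obtain ⟨J, hJ, hJw⟩ := exists_nilpotent_ideal (K := K) hA hfin hres
  rw [map_sub, coeffMap_iterate_norm2] at hJw
  obtain ⟨j₀, hj₀⟩ := exists_iterate_norm2_eq hJ hJw
  refine ⟨j₀, fun j hj => ?_⟩
  have hu := isUnit_coeffMap_red (K := K) hA hy0
  have hus : IsUnit (coeffMap (red A K) s) := by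
    have : coeffMap (red A K) s = coeffMap (modAut K hσ) (coeffMap (red A K) y) := by
      rw [coeffMap_coeffMap, coeffMap_coeffMap]
      exact coeffMap_congr (RingHom.ext fun a => rfl) y
    rw [this]
    exact hu.map _
  have h1 := congrArg (fun z => (dlog z).coeff 1) (hj₀ j hj)
  rw [← Function.iterate_add_apply, coeff_dlog_iterate_norm2 hus, coeff_dlog_iterate_norm2 hu,
    mul_one, mul_one] at h1
  rw [← h1, ← coeffMap_coeff, coeffMap_dlog _ hu]
  congr 2

/-- **The Dwork congruence for `ω`**: an element acting as `x ↦ x^(2^e)` on residues shifts the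
coefficients of index `2^j` by `e`, for `j` large. -/
theorem exists_modAut_coeff_omega (hA : A.LiesOverPrime 2) {σ : Qbar ≃ₐ[ℚ] Qbar}
    (hσ : σ ∈ A.decompositionSubgroup ℚ) {e : ℕ}
    (he : ∀ x : ResidueField A, ES.residueAut A hσ x = x ^ 2 ^ e) {g : LaurentSeries Qbar}
    (hg : g ∈ finFrac Qbar) (hg0 : g ≠ 0) :
    ∃ j₀, ∀ j, j₀ ≤ j → modAut K hσ ((omega A K g).coeff (2 ^ j))
        = (omega A K g).coeff (2 ^ (j + e)) := by
  obtain ⟨c, y₁, y₂, h, f₁, f₂⟩ := exists_gaussRep (A := A) hg hg0
  obtain ⟨i₁, hi₁⟩ := exists_modAut_coeff_dlog (K := K) hA hσ he f₁ h.h₁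
  obtain ⟨i₂, hi₂⟩ := exists_modAut_coeff_dlog (K := K) hA hσ he f₂ h.h₂
  refine ⟨max i₁ i₂, fun j hj => ?_⟩
  rw [omega_eq hA h, HahnSeries.coeff_sub, HahnSeries.coeff_sub, map_sub,
    hi₁ j (le_trans (le_max_left _ _) hj), hi₂ j (le_trans (le_max_right _ _) hj)]

end Dwork

section Eigen

variable {R : Type*} [CommRing R]

/-- The `m`-th coefficient of `T_l` (weight two) applied to the series `a`. -/
def heckeCoeff (l : ℕ) (a : ℤ → R) (m : ℤ) : R :=
  a (l * m) + if (l : ℤ) ∣ m then (l : R) * a (m / l) else 0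

/-- **An eigen series is determined by its first coefficient**, constant term and negative
coefficients included. -/
theorem eq_zero_of_coeff_one_eq_zero (w : LaurentSeries R) (N : ℕ) (ev : ℕ → R)
    (hgood : ∀ l : ℕ, l.Prime → ¬ l ∣ N → ∀ m, heckeCoeff l w.coeff m = ev l * w.coeff m)
    (hbad : ∀ q : ℕ, q.Prime → q ∣ N → ∀ m : ℤ, w.coeff (q * m) = ev q * w.coeff m)
    {l₀ : ℕ} (hl₀ : l₀.Prime) (hl₀N : ¬ l₀ ∣ N) (hunit : IsUnit (l₀ : R))
    (hneis : IsUnit (1 + (l₀ : R) - ev l₀)) (h1 : w.coeff 1 = 0) : w = 0 := by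
  have hpos : (0 : ℤ) < l₀ := by exact_mod_cast hl₀.pos
  have htwo : (2 : ℤ) ≤ l₀ := by exact_mod_cast hl₀.two_le
  -- negative indices
  have hneg : ∀ m : ℤ, m < 0 → w.coeff m = 0 := by
    intro m hm
    have key : ∀ d : ℕ, ∀ m : ℤ, m < 0 → m ≤ w.order + d → w.coeff m = 0 := by
      intro d
      induction d using Nat.strong_induction_on with
      | _ d ih =>
        intro m hm hd
        rcases lt_or_ge m w.order with h | h
        · exact HahnSeries.coeff_eq_zero_of_lt_order h
        have hlt : ∀ m' : ℤ, m' < m → w.coeff m' = 0 := fun m' h' => by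
          rcases lt_or_ge m' w.order with h'' | h''
          · exact HahnSeries.coeff_eq_zero_of_lt_order h''
          · exact ih (m' - w.order).toNat (by omega) m' (by omega) (by omega)
        have e1 : (l₀ : ℤ) * m < m := by nlinarith
        have e2 : (l₀ : ℤ) * (l₀ * m) < m := by nlinarith
        have h := hgood l₀ hl₀ hl₀N (l₀ * m)
        rw [heckeCoeff, if_pos (dvd_mul_right _ _), Int.mul_ediv_cancel_left m hpos.ne',
          hlt _ e2, hlt _ e1,
          zero_add, mul_zero] at h
        exact hunit.mul_right_eq_zero.1 h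
    exact key (m - w.order).toNat m hm (by omega)
  -- the constant term
  have h0 : w.coeff 0 = 0 := by
    have h := hgood l₀ hl₀ hl₀N 0
    rw [heckeCoeff, if_pos (dvd_zero _), mul_zero, Int.zero_ediv] at h
    refine hneis.mul_right_eq_zero.1 ?_
    linear_combination h
  -- positive indices
  have hposi : ∀ m : ℕ, w.coeff m = 0 := by
    intro m
    induction m using Nat.strong_induction_on with
    | _ m ih =>
      rcases m with _ | _ | m
      · exact_mod_cast h0
      · exact_mod_cast h1
      · set M := m + 2 with hM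
        obtain ⟨p, hp, m', hm'⟩ := Nat.exists_prime_and_dvd (show M ≠ 1 by omega)
        have hm'pos : 0 < m' := Nat.pos_of_ne_zero fun h => by rw [h, mul_zero] at hm'; omega
        have hlt : m' < M := by nlinarith [hp.two_le]
        show w.coeff (M : ℤ) = 0
        rw [hm', Nat.cast_mul]
        by_cases hpN : p ∣ N
        · rw [hbad p hp hpN, ih m' hlt, mul_zero]
        · have h := hgood p hp hpN m'
          rw [heckeCoeff, ih m' hlt, mul_zero] at h
          split_ifs at h with hd
          · rw [← Int.natCast_div, ih (m' / p) ((Nat.div_le_self m' p).trans_lt hlt), mul_zero,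
              add_zero] at h
            exact h
          · rwa [add_zero] at h
  ext m
  rcases lt_or_ge m 0 with hm | hm
  · exact hneg m hm
  · lift m to ℕ using hm
    exact hposi m

/-- Iterating the rule at `q`. -/
theorem coeff_pow_of_bad {w : LaurentSeries R} {q : ℕ} {ev : R}
    (h : ∀ m : ℤ, w.coeff (q * m) = ev * w.coeff m) (j : ℕ) :
    w.coeff ((q : ℤ) ^ j) = ev ^ j * w.coeff 1 := by
  induction j with
  | zero => simp
  | succ j ih => rw [pow_succ', h, ih, pow_succ', mul_assoc]

end Eigen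

/-- **Unramifiedness of the ordinary functional**: if `U₂ ω = ε ω` with `ε` a unit fixed by the
decomposition group, an element acting as `x ↦ x^(2^e)` on residues multiplies the first
coefficient by `ε^e`. -/
theorem modAut_coeff_one (hA : A.LiesOverPrime 2) {σ : Qbar ≃ₐ[ℚ] Qbar}
    (hσ : σ ∈ A.decompositionSubgroup ℚ) {e : ℕ}
    (he : ∀ x : ResidueField A, ES.residueAut A hσ x = x ^ 2 ^ e) {g : LaurentSeries Qbar}
    (hg : g ∈ finFrac Qbar) (hg0 : g ≠ 0) {ε : ℤ} (hε : IsUnit ((ε : Mod2 A K)))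
    (hU : ∀ m : ℤ, (omega A K g).coeff (2 * m) = (ε : Mod2 A K) * (omega A K g).coeff m) :
    modAut K hσ ((omega A K g).coeff 1) = (ε : Mod2 A K) ^ e * (omega A K g).coeff 1 := by
  obtain ⟨j, hj⟩ := exists_modAut_coeff_omega (K := K) hA hσ he hg hg0
  have h := hj j le_rfl
  have h2 : ∀ i : ℕ, (omega A K g).coeff (2 ^ i)
      = (ε : Mod2 A K) ^ i * (omega A K g).coeff 1 :=
    coeff_pow_of_bad (q := 2) hU
  rw [h2, h2, map_mul, map_pow, map_intCast, _root_.pow_add, mul_assoc] at h
  exact (hε.pow j).mul_left_cancel h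

end Fermat.Agent.Residual.Ord2
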