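/-
Hecke rules for `ω = θf/f` modulo `2^K`: the norms of conjugates on expansions.
-/
import Fermat.Agent.Residual.Ord2Omega
import Fermat.Agent.Residual.Ord2Degree
import Fermat.Agent.ES.IdentityNorm

set_option autoImplicit false
set_option linter.style.haveILetI false

noncomputable section

open ModularCurve AlgebraicCurve HahnSeries IsLocalRing
open Fermat.Agent.EichlerShimura (twist twist_coeff coeffMap_twist)
open Fermat.Agent.Carayol (finFrac coeffMap_subtype_injective)

namespace Fermat.Agent.Residual.Ord2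

local notation "Qbar" => AlgebraicClosure ℚ

variable {A : ValuationSubring Qbar} {K : ℕ}

namespace GaussRep

variable {g : LaurentSeries Qbar} {c : Qbar} {y₁ y₂ : LaurentSeries A}

theorem twist (h : GaussRep A g c y₁ y₂) (uA : Aˣ) :
    GaussRep A (EichlerShimura.twist (Units.map (A.subtype : A →* Qbar) uA) g) c
      (EichlerShimura.twist uA y₁) (EichlerShimura.twist uA y₂) where
  hc := h.hc
  h₁ := by
    rw [coeffMap_twist]
    exact fun h0 => h.h₁ (HahnSeries.ext (funext fun n => by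
      have := congrArg (fun z : LaurentSeries (ResidueField A) => z.coeff n) h0
      rw [twist_coeff, HahnSeries.coeff_zero, Units.mul_right_eq_zero] at this
      exact this))
  h₂ := by
    rw [coeffMap_twist]
    exact fun h0 => h.h₂ (HahnSeries.ext (funext fun n => by
      have := congrArg (fun z : LaurentSeries (ResidueField A) => z.coeff n) h0
      rw [twist_coeff, HahnSeries.coeff_zero, Units.mul_right_eq_zero] at this
      exact this))
  eq := by
    have hs : EichlerShimura.twist (Units.map (A.subtype : A →* Qbar) uA)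
        (HahnSeries.single (0 : ℤ) c) = HahnSeries.single (0 : ℤ) c := by
      ext n
      rcases eq_or_ne n 0 with rfl | hn
      · simp [twist_coeff]
      · simp [twist_coeff, HahnSeries.coeff_single_of_ne hn]
    rw [coeffMap_twist, coeffMap_twist, ← map_mul, h.eq, map_mul, hs]

theorem qExpand (h : GaussRep A g c y₁ y₂) (l : ℕ) [NeZero l] :
    GaussRep A (ModularCurve.qExpand Qbar l g) c (ModularCurve.qExpand A l y₁)
      (ModularCurve.qExpand A l y₂) where
  hc := h.hc
  h₁ := by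
    rw [coeffMap_qExpand, Ne, map_eq_zero_iff _ (qExpand_injective l)]
    exact h.h₁
  h₂ := by
    rw [coeffMap_qExpand, Ne, map_eq_zero_iff _ (qExpand_injective l)]
    exact h.h₂
  eq := by
    rw [coeffMap_qExpand, coeffMap_qExpand, ← map_mul, h.eq, map_mul, qExpand_single, mul_zero]

end GaussRep

theorem omega_twist (hA : A.LiesOverPrime 2) {g : LaurentSeries Qbar} {c : Qbar}
    {y₁ y₂ : LaurentSeries A} (h : GaussRep A g c y₁ y₂) (uA : Aˣ) :
    omega A K (twist (Units.map (A.subtype : A →* Qbar) uA) g)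
      = twist (Units.map (red A K : A →* Mod2 A K) uA) (omega A K g) := by
  rw [omega_eq hA (h.twist uA), omega_eq hA h, coeffMap_twist, coeffMap_twist,
    dlog_twist _ (isUnit_coeffMap_red hA h.h₁), dlog_twist _ (isUnit_coeffMap_red hA h.h₂), map_sub]

theorem omega_qExpand (hA : A.LiesOverPrime 2) {g : LaurentSeries Qbar} {c : Qbar}
    {y₁ y₂ : LaurentSeries A} (h : GaussRep A g c y₁ y₂) (l : ℕ) [NeZero l] :
    omega A K (qExpand Qbar l g) = l • qExpand (Mod2 A K) l (omega A K g) := by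
  rw [omega_eq hA (h.qExpand l), omega_eq hA h, coeffMap_qExpand, coeffMap_qExpand,
    dlog_qExpand _ (isUnit_coeffMap_red hA h.h₁), dlog_qExpand _ (isUnit_coeffMap_red hA h.h₂),
    map_sub, smul_sub]

theorem exists_gaussRep_prod (hA : A.LiesOverPrime 2) {ι : Type*} (s : Finset ι)
    (g : ι → LaurentSeries Qbar) (h : ∀ i ∈ s, ∃ c y₁ y₂, GaussRep A (g i) c y₁ y₂) :
    (∃ c y₁ y₂, GaussRep A (∏ i ∈ s, g i) c y₁ y₂) ∧
      omega A K (∏ i ∈ s, g i) = ∑ i ∈ s, omega A K (g i) := by
  classical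
  induction s using Finset.induction_on with
  | empty =>
    have h1 : GaussRep A (1 : LaurentSeries Qbar) 1 1 1 := by
      simpa using gaussRep_single_zero (A := A) (one_ne_zero (α := Qbar))
    refine ⟨⟨1, 1, 1, by simpa using h1⟩, ?_⟩
    rw [Finset.prod_empty, Finset.sum_empty, omega_eq hA h1, sub_self]
  | insert i s hi ih =>
    obtain ⟨⟨c, y₁, y₂, hs⟩, hsum⟩ := ih fun j hj => h j (Finset.mem_insert_of_mem hj)
    obtain ⟨d, z₁, z₂, hi'⟩ := h i (Finset.mem_insert_self i s)
    rw [Finset.prod_insert hi, Finset.sum_insert hi, omega_mul hA hi' hs, hsum]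
    exact ⟨⟨_, _, _, hi'.mul hs⟩, rfl⟩

theorem isUnit_natCast_mod2 (hA : A.LiesOverPrime 2) {l : ℕ} (hl : ¬ 2 ∣ l) :
    IsUnit (l : Mod2 A K) := by
  haveI := charP_residueField hA
  rw [← map_natCast (red A K)]
  refine isUnit_red ?_
  rw [map_natCast, Ne, CharP.cast_eq_zero_iff (ResidueField A) 2]
  exact hl

/-- A root of unity is a unit of every valuation subring. -/
theorem exists_unit_of_pow_eq_one (A : ValuationSubring Qbar) {l : ℕ} (hl : 0 < l) (u : Qbarˣ)
    (hu : u ^ l = 1) :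
    ∃ uA : Aˣ, Units.map (A.subtype : A →* Qbar) uA = u ∧ uA ^ l = 1 := by
  have hmem : (u : Qbar) ∈ A := by
    rcases A.mem_or_inv_mem (u : Qbar) with h | h
    · exact h
    · have hp1 : (u : Qbar)⁻¹ ^ (l - 1) = (u : Qbar) := by
        rw [inv_pow]
        refine inv_eq_of_mul_eq_one_left ?_
        rw [← pow_succ', Nat.sub_add_cancel hl, ← Units.val_pow_eq_pow_val, hu, Units.val_one]
      exact hp1 ▸ pow_mem h _
  have hp : (⟨(u : Qbar), hmem⟩ : A) ^ l = 1 :=
    Subtype.ext (by simpa using congrArg Units.val hu)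
  refine ⟨Units.ofPowEqOne _ l hp hl.ne', Units.ext ?_, Units.ext ?_⟩
  · rfl
  · simpa using hp

theorem coeff_nsmul_series {R : Type*} [CommRing R] (k : ℕ) (x : LaurentSeries R) (n : ℤ) :
    (k • x).coeff n = (k : R) * x.coeff n := by
  rw [HahnSeries.coeff_smul, nsmul_eq_mul]

variable {l : ℕ} [NeZero l]

theorem coeff_sum_omega_twist (hA : A.LiesOverPrime 2) {f : LaurentSeries Qbar} {c : Qbar}
    {y₁ y₂ : LaurentSeries A} (hf : GaussRep A f c y₁ y₂) (u : Qbarˣ) (hu : u ^ l = 1) :
    (∃ d z₁ z₂, GaussRep A (∏ a ∈ Finset.range l, twist (u ^ a) f) d z₁ z₂) ∧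
    ∀ m : ℤ, (omega A K (∏ a ∈ Finset.range l, twist (u ^ a) f)).coeff (l * m)
      = (l : Mod2 A K) * (omega A K f).coeff (l * m) := by
  obtain ⟨uA, rfl, huA⟩ := exists_unit_of_pow_eq_one A (NeZero.pos l) u hu
  have hrep : ∀ a : ℕ, GaussRep A (twist (Units.map (A.subtype : A →* Qbar) uA ^ a) f) c
      (twist (uA ^ a) y₁) (twist (uA ^ a) y₂) := fun a => by
    rw [← map_pow]
    exact hf.twist _
  obtain ⟨h1, h2⟩ := exists_gaussRep_prod (K := K) hA (Finset.range l)
    (fun a => twist (Units.map (A.subtype : A →* Qbar) uA ^ a) f) (fun a _ => ⟨_, _, _, hrep a⟩)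
  refine ⟨h1, fun m => ?_⟩
  rw [h2, HahnSeries.coeff_sum, Finset.sum_congr rfl (g := fun _ => (omega A K f).coeff (l * m))]
  · rw [Finset.sum_const, Finset.card_range, nsmul_eq_mul]
  · intro a _
    rw [← map_pow, omega_twist hA hf, twist_coeff, ← map_zpow, zpow_mul,
      show (uA ^ a) ^ (l : ℤ) = 1 by rw [zpow_natCast, ← pow_mul, mul_comm, pow_mul, huA, one_pow],
      one_zpow, map_one, Units.val_one, one_mul]

/-- The rule for `T_l`, `l` odd. -/
theorem coeff_omega_good (hA : A.LiesOverPrime 2) (hl : ¬ 2 ∣ l) (u : Qbarˣ) (hu : u ^ l = 1)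
    {f g : LaurentSeries Qbar} (hf : f ∈ finFrac Qbar) (hf0 : f ≠ 0) (hg : g ∈ finFrac Qbar)
    (hg0 : g ≠ 0)
    (h : qExpand Qbar l g
      = qExpand Qbar (l * l) f * ∏ a ∈ Finset.range l, twist (u ^ a) f) (m : ℤ) :
    (omega A K g).coeff m = heckeCoeff l (omega A K f).coeff m := by
  obtain ⟨c, y₁, y₂, hfr, -, -⟩ := exists_gaussRep (A := A) hf hf0
  obtain ⟨d, z₁, z₂, hgr, -, -⟩ := exists_gaussRep (A := A) hg hg0
  obtain ⟨⟨e, w₁, w₂, hP⟩, hsum⟩ := coeff_sum_omega_twist (K := K) hA hfr u hu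
  have hω := congrArg (omega A K) h
  rw [omega_qExpand hA hgr, omega_mul hA (hfr.qExpand (l * l)) hP, omega_qExpand hA hfr] at hω
  have hc := congrArg (fun z : LaurentSeries (Mod2 A K) => z.coeff (l * m)) hω
  simp only [HahnSeries.coeff_add, coeff_nsmul_series, qExpand_coeff_mul, hsum] at hc
  refine (isUnit_natCast_mod2 hA hl).mul_left_cancel ?_
  rw [hc, heckeCoeff, Nat.cast_mul]
  split_ifs with hm
  · obtain ⟨k, rfl⟩ := hm
    have hl0 : (l : ℤ) ≠ 0 := by exact_mod_cast NeZero.ne l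
    rw [Int.mul_ediv_cancel_left k hl0, show (l : ℤ) * (l * k) = ((l * l : ℕ) : ℤ) * k by push_cast; ring,
      qExpand_coeff_mul]
    ring
  · rw [qExpand_coeff_of_not_dvd]
    · ring
    · push_cast
      rwa [mul_dvd_mul_iff_left (by exact_mod_cast NeZero.ne l)]

/-- The rule for the transposed `U_l`, `l` odd. -/
theorem coeff_omega_bad (hA : A.LiesOverPrime 2) (hl : ¬ 2 ∣ l) (u : Qbarˣ) (hu : u ^ l = 1)
    {f g : LaurentSeries Qbar} (hf : f ∈ finFrac Qbar) (hf0 : f ≠ 0) (hg : g ∈ finFrac Qbar)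
    (hg0 : g ≠ 0) (h : qExpand Qbar l g = ∏ a ∈ Finset.range l, twist (u ^ a) f) (m : ℤ) :
    (omega A K g).coeff m = (omega A K f).coeff (l * m) := by
  obtain ⟨c, y₁, y₂, hfr, -, -⟩ := exists_gaussRep (A := A) hf hf0
  obtain ⟨d, z₁, z₂, hgr, -, -⟩ := exists_gaussRep (A := A) hg hg0
  obtain ⟨-, hsum⟩ := coeff_sum_omega_twist (K := K) hA hfr u hu
  have hω := congrArg (omega A K) h
  rw [omega_qExpand hA hgr] at hω
  have hc := congrArg (fun z : LaurentSeries (Mod2 A K) => z.coeff (l * m)) hω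
  simp only [coeff_nsmul_series, qExpand_coeff_mul, hsum] at hc
  exact (isUnit_natCast_mod2 hA hl).mul_left_cancel hc

/-- The rule for the transposed `U_2`: exact, by the norm of `q ↦ q²`. -/
theorem coeff_omega_two (hA : A.LiesOverPrime 2) {f g : LaurentSeries Qbar}
    (hf : f ∈ finFrac Qbar) (hf0 : f ≠ 0)
    (h : qExpand Qbar 2 g = f * twist (-1 : Qbarˣ) f) (m : ℤ) :
    (omega A K g).coeff m = (omega A K f).coeff (2 * m) := by
  haveI := charP_residueField hA
  obtain ⟨c, y₁, y₂, hfr, -, -⟩ := exists_gaussRep (A := A) hf hf0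
  have hne : ∀ {y : LaurentSeries A}, coeffMap (residue A) y ≠ 0 →
      coeffMap (residue A) (norm2 y) ≠ 0 := by
    intro y hy
    rw [coeffMap_norm2, norm2_eq_frobenius]
    intro h0
    refine hy (HahnSeries.ext (funext fun n => ?_))
    have := congrArg (fun z : LaurentSeries (ResidueField A) => z.coeff n) h0
    rw [coeffMap_coeff, HahnSeries.coeff_zero, frobenius_def] at this
    exact eq_zero_of_pow_eq_zero this
  have hgr : GaussRep A g (c ^ 2) (norm2 y₁) (norm2 y₂) := by
    refine ⟨pow_ne_zero 2 hfr.hc, hne hfr.h₁, hne hfr.h₂, qExpand_injective 2 ?_⟩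
    rw [map_mul, map_mul, qExpand_single, mul_zero, coeffMap_norm2, coeffMap_norm2, h,
      qExpand_norm2, qExpand_norm2]
    have hs : twist (-1 : Qbarˣ) (HahnSeries.single (0 : ℤ) c) = HahnSeries.single (0 : ℤ) c := by
      ext n
      rcases eq_or_ne n 0 with rfl | hn
      · simp [twist_coeff]
      · simp [twist_coeff, HahnSeries.coeff_single_of_ne hn]
    have h2 := congrArg (twist (-1 : Qbarˣ)) hfr.eq
    rw [map_mul, map_mul, hs] at h2
    calc f * twist (-1 : Qbarˣ) f
          * (coeffMap A.subtype y₂ * twist (-1 : Qbarˣ) (coeffMap A.subtype y₂))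
        = (f * coeffMap A.subtype y₂)
          * (twist (-1 : Qbarˣ) f * twist (-1 : Qbarˣ) (coeffMap A.subtype y₂)) := by ring
      _ = _ := by
        rw [hfr.eq, h2, pow_two,
          show HahnSeries.single (0 : ℤ) (c * c)
            = HahnSeries.single (0 : ℤ) c * HahnSeries.single (0 : ℤ) c by
            rw [HahnSeries.single_mul_single, add_zero]]
        ring
  rw [omega_eq hA hgr, omega_eq hA hfr, coeffMap_norm2, coeffMap_norm2,
    dlog_norm2 (isUnit_coeffMap_red hA hfr.h₁), dlog_norm2 (isUnit_coeffMap_red hA hfr.h₂),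
    ← map_sub, evenPart_coeff]

end Fermat.Agent.Residual.Ord2
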