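/-
The ordinary functional at `2` on classes of `J₀(N)` killed by `2^K`: the first coefficient of
`θf/f` modulo `2^K`, where `2^K D = div f`.
-/
import Fermat.Agent.Residual.Ord2Hecke
import Fermat.Agent.HeckeJ.Norm
import Fermat.Agent.Curve.RiemannRochFunctions
import Fermat.Agent.Curve.BasicModular
import Fermat.Agent.Residual.AlinvInvolution

set_option autoImplicit false
set_option linter.style.haveILetI false

noncomputable section

open ModularCurve AlgebraicCurve HahnSeries IsLocalRing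
open Fermat.Agent.EichlerShimura (twist)
open Fermat.Agent.Carayol (finFrac)

namespace Fermat.Agent.Residual.Ord2

local notation "Qbar" => AlgebraicClosure ℚ
local notation "Γℚ" => (AlgebraicClosure ℚ ≃ₐ[ℚ] AlgebraicClosure ℚ)

section Transpose

variable (N l : ℕ) [NeZero N] [NeZero l]

/-- The transposed operator `β_* α^*` on divisor classes. -/
def heckeT : JZero N →+ JZero N :=
  heckePic0BarTranspose (Curve.isIntegral_toRingHom (heckeAlphaBar Qbar N l))
    (Curve.isIntegral_toRingHom (heckeBetaBar Qbar N l))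
    (Curve.fundamentalIdentityAlong _ _ (Curve.finiteAlong _))
    (Curve.finiteAlong _) (Curve.normFormulaAlong _ (Curve.finiteAlong _))

/-- The norm along `β`. -/
def normBeta (z : modularFunctionFieldBar (N * l)) : modularFunctionFieldBar N :=
  letI := algebraAlong (heckeBetaBar Qbar N l)
  Algebra.norm (modularFunctionFieldBar N) z

variable {N l}

theorem normBeta_ne_zero {z : modularFunctionFieldBar (N * l)} (hz : z ≠ 0) :
    normBeta N l z ≠ 0 := by
  letI := algebraAlong (heckeBetaBar Qbar N l)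
  haveI : FiniteDimensional (modularFunctionFieldBar N) (modularFunctionFieldBar (N * l)) :=
    Curve.finiteAlong (heckeBetaBar Qbar N l)
  exact HeckeJ.norm_ne_zero (K := modularFunctionFieldBar N) hz

/-- `N_β(f(τ)) (ℓτ) = ∏ f(τ + a/ℓ)` when `ℓ` divides the level. -/
theorem qExpand_normBeta (hl : l.Prime) (hN : l ∣ N) (u : Qbarˣ)
    (hu : IsPrimitiveRoot (u : Qbar) l) (x : modularFunctionFieldBar N) :
    qExpand Qbar l (normBeta N l (heckeAlphaBar Qbar N l x) : LaurentSeries Qbar)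
      = ∏ a ∈ Finset.range l, twist (u ^ a) (x : LaurentSeries Qbar) := by
  let ι₀ : modularFunctionFieldBar N →+* LaurentSeries Qbar :=
    (qExpand Qbar l).comp (modularFunctionFieldBar N).val.toRingHom
  let e : Fin l → (modularFunctionFieldBar (N * l) →+* LaurentSeries Qbar) := fun a =>
    (twist (u ^ (a : ℕ))).comp (modularFunctionFieldBar (N * l)).val.toRingHom
  have hul : u ^ l = 1 := Units.ext (by simpa using hu.pow_eq_one)
  have hcomm : ∀ a z, e a (heckeBetaBar Qbar N l z) = ι₀ z := fun a z => by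
    show twist (u ^ (a : ℕ)) ((heckeBetaBar Qbar N l z : modularFunctionFieldBar (N * l)) :
      LaurentSeries Qbar) = _
    rw [coe_heckeBetaBar, EichlerShimura.twist_qExpand, ← pow_mul, mul_comm, pow_mul, hul, one_pow,
      EichlerShimura.twist_one]
    rfl
  let z₀ : modularFunctionFieldBar N :=
    ⟨EichlerShimura.jd Qbar ⟨1, Nat.one_mem_divisors.2 (NeZero.ne N)⟩,
      EichlerShimura.jd_mem_bar Qbar _⟩
  have hz₀ : (z₀ : LaurentSeries Qbar) = jqModC Qbar := qExpand_one_apply _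
  have hval : ∀ a z, e a (heckeAlphaBar Qbar N l z)
      = twist (u ^ (a : ℕ)) (z : LaurentSeries Qbar) := fun a z =>
    congrArg (twist (u ^ (a : ℕ))) (coe_heckeAlphaBar N l z)
  have key := EichlerShimura.map_norm_along_eq_prod (heckeBetaBar Qbar N l)
    (Curve.finiteAlong (heckeBetaBar Qbar N l)) ι₀ e hcomm (heckeAlphaBar Qbar N l z₀)
    (fun a b h => by
      simp only [hval, hz₀] at h
      exact EichlerShimura.twist_pow_injective u hu h)
    (by rw [Fintype.card_fin]; exact finrankAlong_heckeBetaBar_le hl hN)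
    (heckeAlphaBar Qbar N l x)
  simp only [hval] at key
  rw [Fin.prod_univ_eq_prod_range (fun a => twist (u ^ a) (x : LaurentSeries Qbar)) l] at key
  exact key

end Transpose

section OmegaClass

variable (A : ValuationSubring Qbar) (K : ℕ) (N : ℕ) [NeZero N]

/-- `f` represents `x`: `2^K D = div f` for a divisor `D` of class `x`. -/
def IsRepOf (x : JZero N) (f : modularFunctionFieldBar N) : Prop :=
  f ≠ 0 ∧ ∃ D : Divisor.degZero (K := Qbar) (F := modularFunctionFieldBar N),
    Pic0.mk D = x ∧ ∀ v, (2 ^ K : ℤ) * (D : Divisor Qbar (modularFunctionFieldBar N)) v = v.ord f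

open Classical in
/-- `θf/f` modulo `2^K` for a class killed by `2^K`. -/
def omegaClass (x : JZero N) : LaurentSeries (Mod2 A K) :=
  if h : ∃ f, IsRepOf K N x f then omega A K (h.choose : LaurentSeries Qbar) else 0

variable {A K N}

theorem exists_isRepOf {x : JZero N} (hx : (2 ^ K : ℕ) • x = 0) : ∃ f, IsRepOf K N x f := by
  obtain ⟨D, rfl⟩ := Pic0.mk_surjective x
  have h : Pic0.mk ((2 ^ K : ℕ) • D) = 0 := by
    rw [← hx]
    exact map_nsmul (QuotientAddGroup.mk' _) _ _
  obtain ⟨f, hf, hD⟩ := (QuotientAddGroup.eq_zero_iff _).1 h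
  refine ⟨f, hf, D, rfl, fun v => ?_⟩
  rw [← hD v]
  simp

theorem mem_finFrac (f : modularFunctionFieldBar N) : (f : LaurentSeries Qbar) ∈ finFrac Qbar :=
  BadReduction.modularFunctionFieldBar_le_finFrac N f.2

theorem coe_ne_zero_of_ne_zero {f : modularFunctionFieldBar N} (hf : f ≠ 0) :
    (f : LaurentSeries Qbar) ≠ 0 := fun h => hf (Subtype.ext h)

theorem omega_coe_mul (hA : A.LiesOverPrime 2) {f g : modularFunctionFieldBar N} (hf : f ≠ 0)
    (hg : g ≠ 0) : omega A K ((f * g : modularFunctionFieldBar N) : LaurentSeries Qbar)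
      = omega A K (f : LaurentSeries Qbar) + omega A K (g : LaurentSeries Qbar) := by
  obtain ⟨_, _, _, h, -, -⟩ := exists_gaussRep (A := A) (mem_finFrac f) (coe_ne_zero_of_ne_zero hf)
  obtain ⟨_, _, _, h', -, -⟩ :=
    exists_gaussRep (A := A) (mem_finFrac g) (coe_ne_zero_of_ne_zero hg)
  exact omega_mul hA h h'

/-- The logarithmic derivative does not depend on the representative. -/
theorem IsRepOf.omega_eq_omega (hA : A.LiesOverPrime 2) {x : JZero N}
    {f g : modularFunctionFieldBar N} (hf : IsRepOf K N x f) (hg : IsRepOf K N x g) :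
    omega A K (f : LaurentSeries Qbar) = omega A K (g : LaurentSeries Qbar) := by
  obtain ⟨hf0, D, hD, hDf⟩ := hf
  obtain ⟨hg0, E, hE, hEg⟩ := hg
  obtain ⟨h, h0, hh⟩ := QuotientAddGroup.eq.1 (hD.trans hE.symm)
  have hp : h ^ 2 ^ K ≠ 0 := pow_ne_zero _ h0
  have hdiv : Curve.divisorOf Qbar (f * h ^ 2 ^ K) = Curve.divisorOf Qbar g := by
    ext v
    rw [Curve.divisorOf_apply, Curve.divisorOf_apply, v.ord_mul hf0 hp, Curve.ord_pow,
      ← hDf v, ← hEg v]
    have : -((D : Divisor Qbar (modularFunctionFieldBar N)) v)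
        + (E : Divisor Qbar (modularFunctionFieldBar N)) v = v.ord h := hh v
    rw [← this]
    push_cast
    ring
  obtain ⟨c, hc, hgc⟩ := exists_algebraMap_eq_of_divisorOf_eq (mul_ne_zero hf0 hp) hg0 hdiv
  have hc' : algebraMap Qbar (modularFunctionFieldBar N) c ≠ 0 := by simpa using hc
  rw [hgc, omega_coe_mul hA hc' (mul_ne_zero hf0 hp), omega_coe_mul hA hf0 hp]
  obtain ⟨_, _, _, hr, -, -⟩ := exists_gaussRep (A := A) (mem_finFrac h) (coe_ne_zero_of_ne_zero h0)
  have h1 : omega A K ((h ^ 2 ^ K : modularFunctionFieldBar N) : LaurentSeries Qbar) = 0 := by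
    rw [IntermediateField.coe_pow]
    exact omega_pow_two_pow hA hr
  have h2 : omega A K ((algebraMap Qbar (modularFunctionFieldBar N) c :
      modularFunctionFieldBar N) : LaurentSeries Qbar) = 0 := by
    rw [show ((algebraMap Qbar (modularFunctionFieldBar N) c : modularFunctionFieldBar N) :
        LaurentSeries Qbar) = algebraMap Qbar (LaurentSeries Qbar) c from rfl,
      algebraMap_laurentSeries_eq_single]
    exact omega_single_zero hA hc
  rw [h1, h2, add_zero, zero_add]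

theorem omegaClass_eq (hA : A.LiesOverPrime 2) {x : JZero N} {f : modularFunctionFieldBar N}
    (hf : IsRepOf K N x f) : omegaClass A K N x = omega A K (f : LaurentSeries Qbar) := by
  classical
  have h : ∃ g, IsRepOf K N x g := ⟨f, hf⟩
  rw [omegaClass, dif_pos h]
  exact h.choose_spec.omega_eq_omega hA hf

theorem IsRepOf.mul {x y : JZero N} {f g : modularFunctionFieldBar N} (hf : IsRepOf K N x f)
    (hg : IsRepOf K N y g) : IsRepOf K N (x + y) (f * g) := by
  obtain ⟨hf0, D, rfl, hDf⟩ := hf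
  obtain ⟨hg0, E, rfl, hEg⟩ := hg
  refine ⟨mul_ne_zero hf0 hg0, D + E, map_add (QuotientAddGroup.mk' _) _ _, fun v => ?_⟩
  rw [v.ord_mul hf0 hg0, ← hDf v, ← hEg v]
  simp [mul_add]

theorem omegaClass_add (hA : A.LiesOverPrime 2) {x y : JZero N} (hx : (2 ^ K : ℕ) • x = 0)
    (hy : (2 ^ K : ℕ) • y = 0) :
    omegaClass A K N (x + y) = omegaClass A K N x + omegaClass A K N y := by
  obtain ⟨f, hf⟩ := exists_isRepOf hx
  obtain ⟨g, hg⟩ := exists_isRepOf hy
  rw [omegaClass_eq hA hf, omegaClass_eq hA hg, omegaClass_eq hA (hf.mul hg),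
    omega_coe_mul hA hf.1 hg.1]

theorem omegaClass_zero (hA : A.LiesOverPrime 2) : omegaClass A K N 0 = 0 := by
  have h := omegaClass_add (A := A) (K := K) hA (x := (0 : JZero N)) (y := 0) (smul_zero _)
    (smul_zero _)
  rw [add_zero] at h
  exact left_eq_add.1 h

theorem omegaClass_zsmul (hA : A.LiesOverPrime 2) {x : JZero N} (hx : (2 ^ K : ℕ) • x = 0)
    (a : ℤ) : omegaClass A K N (a • x) = a • omegaClass A K N x := by
  have hz : ∀ b : ℤ, (2 ^ K : ℕ) • (b • x) = 0 := fun b => by rw [smul_comm, hx, smul_zero]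
  induction a using Int.induction_on with
  | zero => rw [zero_zsmul, zero_zsmul, omegaClass_zero hA]
  | succ b ih => rw [add_zsmul, add_zsmul, one_zsmul, one_zsmul, omegaClass_add hA (hz _) hx, ih]
  | pred b ih =>
    have h := omegaClass_add (A := A) hA (hz (-(b : ℤ) - 1)) hx
    rw [← add_one_zsmul, sub_add_cancel, ih] at h
    rw [show (-(b : ℤ) - 1) • omegaClass A K N x = -(b : ℤ) • omegaClass A K N x
        - omegaClass A K N x from by rw [sub_smul, one_smul], eq_sub_iff_add_eq]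
    exact h.symm

theorem coeff_zsmul_series {R : Type*} [CommRing R] (a : ℤ) (y : LaurentSeries R) (n : ℤ) :
    (a • y).coeff n = (a : R) * y.coeff n := by
  rw [HahnSeries.coeff_smul, zsmul_eq_mul]

theorem isRepOf_heckeOperatorBar (l : Nat.Primes) {x : JZero N} {f : modularFunctionFieldBar N}
    (hf : IsRepOf K N x f) :
    haveI : NeZero (l : ℕ) := ⟨l.2.ne_zero⟩
    IsRepOf K N (heckeOperatorBar N l x) (HeckeJ.heckeFun Qbar N l f) := by
  haveI : NeZero (l : ℕ) := ⟨l.2.ne_zero⟩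
  obtain ⟨hf0, D, rfl, hDf⟩ := hf
  refine ⟨HeckeJ.normA_ne_zero Qbar N l
    ((map_ne_zero_iff _ (heckeBetaBar Qbar N l).toRingHom.injective).2 hf0), _,
    (HeckeJ.heckeOperatorBar_mk N l D).symm, fun v => ?_⟩
  exact HeckeJ.mul_heckeDiv_apply Qbar N l hf0 (2 ^ K : ℤ) hDf v

theorem isRepOf_heckeT {l : ℕ} [NeZero l] {x : JZero N} {f : modularFunctionFieldBar N}
    (hf : IsRepOf K N x f) :
    IsRepOf K N (heckeT N l x) (normBeta N l (heckeAlphaBar Qbar N l f)) := by
  obtain ⟨hf0, D, rfl, hDf⟩ := hf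
  refine ⟨normBeta_ne_zero
    ((map_ne_zero_iff _ (heckeAlphaBar Qbar N l).toRingHom.injective).2 hf0), _,
    rfl, fun v => ?_⟩
  rw [Pic0.coe_degZeroCorrespondence]
  have h := ES.correspondence_apply_principal (heckeAlphaBar Qbar N l) (heckeBetaBar Qbar N l)
    (Curve.isIntegral_toRingHom _) (Curve.isIntegral_toRingHom _) (Curve.finiteAlong _)
    (Curve.normFormulaAlong _ (Curve.finiteAlong _)) hf0
    (D := (2 ^ K : ℤ) • (D : Divisor Qbar (modularFunctionFieldBar N)))
    (fun w => by simpa using hDf w) v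
  rw [map_zsmul] at h
  simpa [normBeta] using h

theorem isRepOf_galois (σ : Γℚ) {x : JZero N} {f : modularFunctionFieldBar N}
    (hf : IsRepOf K N x f) :
    IsRepOf K N (σ • x) (arithmeticGalois (modularFunctionFieldFull N) σ • f) := by
  obtain ⟨hf0, D, rfl, hDf⟩ := hf
  refine ⟨by simpa using hf0, SemilinearAut.degZeroSMulHom
    (arithmeticGalois (modularFunctionFieldFull N) σ) D, ?_, fun v => ?_⟩
  · rw [galois_smul_pic0_def, SemilinearAut.pic0_smul_mk]
  · rw [SemilinearAut.coe_degZeroSMulHom, SemilinearAut.divisor_smul_apply, hDf]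
    have h := SemilinearAut.ord_smul (arithmeticGalois (modularFunctionFieldFull N) σ)
      ((arithmeticGalois (modularFunctionFieldFull N) σ)⁻¹ • v) f
    rw [smul_inv_smul] at h
    exact h.symm

theorem omegaClass_galois (hA : A.LiesOverPrime 2) {σ : Γℚ}
    (hσ : σ ∈ A.decompositionSubgroup ℚ) {x : JZero N} (hx : (2 ^ K : ℕ) • x = 0) :
    omegaClass A K N (σ • x) = coeffMap (modAut K hσ) (omegaClass A K N x) := by
  obtain ⟨f, hf⟩ := exists_isRepOf hx
  rw [omegaClass_eq hA (isRepOf_galois σ hf), omegaClass_eq hA hf, coe_arithmeticGalois_smul]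
  obtain ⟨_, _, _, h, -, -⟩ := exists_gaussRep (A := A) (mem_finFrac f) (coe_ne_zero_of_ne_zero hf.1)
  exact omega_galois hσ hA h

/-- `T_l` on coefficients. -/
theorem coeff_omegaClass_heckeOperatorBar (hA : A.LiesOverPrime 2) (hN2 : 2 ∣ N)
    (l : Nat.Primes) (hl : ¬ (l : ℕ) ∣ N) {x : JZero N} (hx : (2 ^ K : ℕ) • x = 0) (m : ℤ) :
    (omegaClass A K N (heckeOperatorBar N l x)).coeff m
      = heckeCoeff (l : ℕ) (omegaClass A K N x).coeff m := by
  haveI : NeZero (l : ℕ) := ⟨l.2.ne_zero⟩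
  have hl2 : ¬ 2 ∣ (l : ℕ) := fun h =>
    hl (((Nat.prime_dvd_prime_iff_eq Nat.prime_two l.2).1 h) ▸ hN2)
  obtain ⟨f, hf⟩ := exists_isRepOf hx
  have hT := isRepOf_heckeOperatorBar l hf
  rw [omegaClass_eq hA hf, omegaClass_eq hA hT]
  obtain ⟨ζ, hζ⟩ := HasEnoughRootsOfUnity.exists_primitiveRoot (M := Qbar) (n := (l : ℕ))
  let u : Qbarˣ := (hζ.isUnit l.2.ne_zero).unit
  have hu : IsPrimitiveRoot (u : Qbar) l := hζ
  exact coeff_omega_good hA hl2 u (Units.ext (by simpa using hu.pow_eq_one)) (mem_finFrac f)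
    (coe_ne_zero_of_ne_zero hf.1) (mem_finFrac _) (coe_ne_zero_of_ne_zero hT.1)
    (EichlerShimura.qExpand_normAlpha_heckeBeta l.2 hl (Curve.finiteAlong _)
      (HeckeJ.finrankAlong_heckeAlphaBar_of_not_dvd Qbar N l.2 hl).le u hu f) m

/-- The transposed `U_q` on coefficients. -/
theorem coeff_omegaClass_heckeT (hA : A.LiesOverPrime 2) {q : ℕ} [NeZero q] (hq : q.Prime)
    (hqN : q ∣ N) {x : JZero N} (hx : (2 ^ K : ℕ) • x = 0) (m : ℤ) :
    (omegaClass A K N (heckeT N q x)).coeff m = (omegaClass A K N x).coeff (q * m) := by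
  obtain ⟨f, hf⟩ := exists_isRepOf hx
  have hT := isRepOf_heckeT (l := q) hf
  rw [omegaClass_eq hA hf, omegaClass_eq hA hT]
  obtain ⟨ζ, hζ⟩ := HasEnoughRootsOfUnity.exists_primitiveRoot (M := Qbar) (n := q)
  let u : Qbarˣ := (hζ.isUnit hq.ne_zero).unit
  have hu : IsPrimitiveRoot (u : Qbar) q := hζ
  have h := qExpand_normBeta hq hqN u hu f
  by_cases h2 : q = 2
  · subst h2
    have hu1 : u = -1 := Units.ext (by simpa using hu.eq_neg_one_of_two_right)
    rw [Finset.prod_range_succ, Finset.prod_range_one, pow_zero, pow_one, hu1,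
      EichlerShimura.twist_one] at h
    exact coeff_omega_two hA (mem_finFrac f) (coe_ne_zero_of_ne_zero hf.1) h m
  · exact coeff_omega_bad hA
      (fun h => h2 ((Nat.prime_dvd_prime_iff_eq Nat.prime_two hq).1 h).symm) u
      (Units.ext (by simpa using hu.pow_eq_one)) (mem_finFrac f) (coe_ne_zero_of_ne_zero hf.1)
      (mem_finFrac _) (coe_ne_zero_of_ne_zero hT.1) h m

end OmegaClass

section Functional

variable {A : ValuationSubring Qbar} {K : ℕ} {N : ℕ} [NeZero N]

variable (A K N) in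
/-- The functional: the first coefficient of `ω`. -/
def phi (x : JZero N) : Mod2 A K := (omegaClass A K N x).coeff 1

theorem phi_add (hA : A.LiesOverPrime 2) {x y : JZero N} (hx : (2 ^ K : ℕ) • x = 0)
    (hy : (2 ^ K : ℕ) • y = 0) : phi A K N (x + y) = phi A K N x + phi A K N y := by
  rw [phi, omegaClass_add hA hx hy, HahnSeries.coeff_add]
  rfl

theorem phi_zsmul (hA : A.LiesOverPrime 2) {x : JZero N} (hx : (2 ^ K : ℕ) • x = 0) (a : ℤ) :
    phi A K N (a • x) = (a : Mod2 A K) * phi A K N x := by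
  rw [phi, omegaClass_zsmul hA hx, coeff_zsmul_series]
  rfl

/-- The functional at `σ x`. -/
theorem phi_galois (hA : A.LiesOverPrime 2) {σ : Γℚ} (hσ : σ ∈ A.decompositionSubgroup ℚ)
    {x : JZero N} (hx : (2 ^ K : ℕ) • x = 0) :
    phi A K N (σ • x) = modAut K hσ (phi A K N x) := by
  rw [phi, omegaClass_galois hA hσ hx, coeffMap_coeff]
  rfl

/-- Where the transposed `U₂` is a unit `ε`, an element acting as `x ↦ x^(2^e)` on residues
multiplies the functional by `ε^e`. -/
theorem phi_smul_eq_pow (hA : A.LiesOverPrime 2) (hN2 : 2 ∣ N) {σ : Γℚ}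
    (hσ : σ ∈ A.decompositionSubgroup ℚ) {e : ℕ}
    (he : ∀ y : ResidueField A, ES.residueAut A hσ y = y ^ 2 ^ e) {ε : ℤ}
    (hε : IsUnit (ε : Mod2 A K)) {x : JZero N} (hx : (2 ^ K : ℕ) • x = 0)
    (hU : heckeT N 2 x = ε • x) :
    phi A K N (σ • x) = (ε : Mod2 A K) ^ e * phi A K N x := by
  obtain ⟨f, hf⟩ := exists_isRepOf hx
  rw [phi_galois hA hσ hx, phi, omegaClass_eq hA hf]
  refine modAut_coeff_one hA hσ he (mem_finFrac f) (coe_ne_zero_of_ne_zero hf.1) hε fun m => ?_
  have h := coeff_omegaClass_heckeT hA Nat.prime_two hN2 hx m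
  rw [hU, omegaClass_zsmul hA hx, coeff_zsmul_series, omegaClass_eq hA hf] at h
  exact h.symm

/-- Inertia fixes the functional. -/
theorem phi_inertia (hA : A.LiesOverPrime 2) (hN2 : 2 ∣ N) {σ : Γℚ}
    (hσ : σ ∈ A.inertiaSubgroupIn ℚ) {ε : ℤ}
    (hε : IsUnit (ε : Mod2 A K)) {x : JZero N} (hx : (2 ^ K : ℕ) • x = 0)
    (hU : heckeT N 2 x = ε • x) : phi A K N (σ • x) = phi A K N x := by
  obtain ⟨hd, h1⟩ := ES.residueAut_eq_one_of_mem_inertia A hσ
  have h := phi_smul_eq_pow (e := 0) hA hN2 hd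
    (fun y => by rw [h1, pow_zero, pow_one]; rfl) hε hx hU
  rwa [pow_zero, one_mul] at h

/-- Frobenius multiplies the functional by the eigenvalue of `U₂`. -/
theorem phi_frobenius (hA : A.LiesOverPrime 2) (hN2 : 2 ∣ N) {σ : Γℚ}
    (hσ : A.IsFrobeniusAt σ 2) {ε : ℤ} (hε : IsUnit (ε : Mod2 A K)) {x : JZero N}
    (hx : (2 ^ K : ℕ) • x = 0) (hU : heckeT N 2 x = ε • x) :
    phi A K N (σ • x) = (ε : Mod2 A K) * phi A K N x := by
  obtain ⟨hd, hf⟩ := hσ
  have h := phi_smul_eq_pow (e := 1) hA hN2 hd (fun y => by rw [pow_one]; exact hf y) hε hx hU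
  rwa [pow_one] at h

/-- **The functional is injective on `ω`**: an eigen class with zero first coefficient has
`ω = 0`. -/
theorem omegaClass_eq_zero_of_phi_eq_zero (hA : A.LiesOverPrime 2) (hN2 : 2 ∣ N) (ev : ℕ → ℤ)
    {x : JZero N} (hx : (2 ^ K : ℕ) • x = 0)
    (hgood : ∀ l : Nat.Primes, ¬ (l : ℕ) ∣ N → heckeOperatorBar N l x = ev l • x)
    (hbad : ∀ q : Nat.Primes, (q : ℕ) ∣ N →
      (haveI : NeZero (q : ℕ) := ⟨q.2.ne_zero⟩; heckeT N q x) = ev q • x)
    {l₀ : ℕ} (hl₀ : l₀.Prime) (hl₀N : ¬ l₀ ∣ N) (hneis : Odd (1 + (l₀ : ℤ) - ev l₀))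
    (h1 : phi A K N x = 0) : omegaClass A K N x = 0 := by
  haveI := charP_residueField hA
  have hunit : ∀ a : ℤ, Odd a → IsUnit (a : Mod2 A K) := fun a ha => by
    rw [← map_intCast (red A K)]
    refine isUnit_red ?_
    rw [map_intCast, Ne, CharP.intCast_eq_zero_iff (ResidueField A) 2]
    rw [Int.odd_iff] at ha
    omega
  have hl2 : ¬ 2 ∣ l₀ := fun h =>
    hl₀N (((Nat.prime_dvd_prime_iff_eq Nat.prime_two hl₀).1 h) ▸ hN2)
  refine eq_zero_of_coeff_one_eq_zero _ N (fun p => (ev p : Mod2 A K)) (fun l hl hlN m => ?_)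
    (fun q hq hqN m => ?_) hl₀ hl₀N (isUnit_natCast_mod2 hA hl2) ?_ h1
  · have h := coeff_omegaClass_heckeOperatorBar hA hN2 ⟨l, hl⟩ hlN hx m
    rw [hgood ⟨l, hl⟩ hlN, omegaClass_zsmul hA hx, coeff_zsmul_series] at h
    exact h.symm
  · haveI : NeZero q := ⟨hq.ne_zero⟩
    have h := coeff_omegaClass_heckeT hA hq hqN hx m
    rw [hbad ⟨q, hq⟩ hqN, omegaClass_zsmul hA hx, coeff_zsmul_series] at h
    exact h.symm
  · simpa using hunit _ hneis

end Functional

end Fermat.Agent.Residual.Ord2
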