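/-
The transposed `U_q` and the involution `w_q`: `N_α(w f) = w f · N_β(α f)`, so that on classes
killed by both push-forwards to level `M` the transposed `U_q` is `-w_q`.
-/
import Fermat.Agent.Residual.Ord2Functional
import Fermat.Agent.NewformRep.Degeneracy
import Fermat.Agent.BadReduction.X0Components

set_option autoImplicit false
set_option linter.style.haveILetI false

noncomputable section

open ModularCurve AlgebraicCurve HahnSeries
open Fermat.Agent.EichlerShimura (twist)
open Fermat.Agent.BadReduction (X0F atkinLehner atkinLehner_alpha atkinLehner_beta)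

namespace Fermat.Agent.Residual.Ord2

local notation "Qbar" => AlgebraicClosure ℚ

variable {M q : ℕ} [NeZero M] [hq : Fact q.Prime]

local instance neZero_prime_atkin : NeZero q := ⟨hq.out.ne_zero⟩

/-- The norm along `α : F_M → F_{Mq}`, back inside `F_{Mq}`. -/
def traceNorm (z : X0F M q) : X0F M q :=
  letI := algebraAlong (heckeAlphaBar Qbar M q)
  heckeAlphaBar Qbar M q (Algebra.norm (modularFunctionFieldBar M) z)

/-- `N_α(w f) = w f · N_β(α f)`: the `q + 1` conjugates of `w f` over level `M`. -/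
theorem traceNorm_atkinLehner (hqM : ¬ q ∣ M) (f : X0F M q) :
    traceNorm (atkinLehner hqM f)
      = atkinLehner hqM f * normBeta (M * q) q (heckeAlphaBar Qbar (M * q) q f) := by
  obtain ⟨ζ, hζ⟩ := HasEnoughRootsOfUnity.exists_primitiveRoot (M := Qbar) (n := q)
  let u : Qbarˣ := (hζ.isUnit hq.out.ne_zero).unit
  have hu : IsPrimitiveRoot (u : Qbar) q := hζ
  have hul : u ^ q = 1 := Units.ext (by simpa using hu.pow_eq_one)
  let ι₀ : modularFunctionFieldBar M →+* LaurentSeries Qbar :=
    (qExpand Qbar q).comp (modularFunctionFieldBar M).val.toRingHom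
  let coeF : X0F M q →+* LaurentSeries Qbar := (modularFunctionFieldBar (M * q)).val.toRingHom
  let e : Option (Fin q) → (X0F M q →+* LaurentSeries Qbar) := fun i =>
    match i with
    | none => (qExpand Qbar q).comp coeF
    | some a => ((twist (u ^ (a : ℕ))).comp coeF).comp
        (atkinLehner hqM : X0F M q ≃ₐ[Qbar] X0F M q).toRingEquiv.toRingHom
  have hcomm : ∀ i z, e i (heckeAlphaBar Qbar M q z) = ι₀ z := by
    rintro (_ | a) z
    · show qExpand Qbar q ((heckeAlphaBar Qbar M q z : X0F M q) : LaurentSeries Qbar) = _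
      rw [coe_heckeAlphaBar]
      rfl
    · show twist (u ^ (a : ℕ)) ((atkinLehner hqM (heckeAlphaBar Qbar M q z) : X0F M q) :
        LaurentSeries Qbar) = _
      rw [atkinLehner_alpha, coe_heckeBetaBar, EichlerShimura.twist_qExpand, ← pow_mul, mul_comm,
        pow_mul, hul, one_pow, EichlerShimura.twist_one]
      rfl
  let z₀ : modularFunctionFieldBar M :=
    ⟨EichlerShimura.jd Qbar ⟨1, Nat.one_mem_divisors.2 (NeZero.ne M)⟩,
      EichlerShimura.jd_mem_bar Qbar _⟩
  have hz₀ : (z₀ : LaurentSeries Qbar) = jqModC Qbar := qExpand_one_apply _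
  have hnone : e none (heckeBetaBar Qbar M q z₀)
      = qExpand Qbar q (qExpand Qbar q (jqModC Qbar)) := by
    show qExpand Qbar q ((heckeBetaBar Qbar M q z₀ : X0F M q) : LaurentSeries Qbar) = _
    rw [coe_heckeBetaBar, hz₀]
  have hsome : ∀ a : Fin q, e (some a) (heckeBetaBar Qbar M q z₀)
      = twist (u ^ (a : ℕ)) (jqModC Qbar) := fun a => by
    show twist (u ^ (a : ℕ)) ((atkinLehner hqM (heckeBetaBar Qbar M q z₀) : X0F M q) :
      LaurentSeries Qbar) = _
    rw [atkinLehner_beta, coe_heckeAlphaBar, hz₀]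
  have hne : ∀ a : Fin q, qExpand Qbar q (qExpand Qbar q (jqModC Qbar))
      ≠ twist (u ^ (a : ℕ)) (jqModC Qbar) := fun a h => by
    have h1 := congrArg (fun y => HahnSeries.coeff y (-1)) h
    simp only [EichlerShimura.coeff_twist_jq_neg_one] at h1
    rw [qExpand_coeff_of_not_dvd] at h1
    · exact Units.ne_zero _ h1.symm
    · exact fun hd => hq.out.one_lt.ne' (Nat.dvd_one.1 (by exact_mod_cast (dvd_neg.1 hd)))
  have hinj : Function.Injective fun i => e i (heckeBetaBar Qbar M q z₀) := by
    rintro (_ | a) (_ | b) h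
    · rfl
    · exact absurd (hnone.symm.trans (h.trans (hsome b))) (hne b)
    · exact absurd ((hnone.symm.trans (h.symm.trans (hsome a)))) (hne a)
    · exact congrArg some (EichlerShimura.twist_pow_injective u hu
        ((hsome a).symm.trans (h.trans (hsome b))))
  have key := EichlerShimura.map_norm_along_eq_prod (heckeAlphaBar Qbar M q)
    (Curve.finiteAlong (heckeAlphaBar Qbar M q)) ι₀ e hcomm (heckeBetaBar Qbar M q z₀) hinj
    (by
      rw [Fintype.card_option, Fintype.card_fin]
      exact (HeckeJ.finrankAlong_heckeAlphaBar_of_not_dvd Qbar M hq.out hqM).le)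
    (atkinLehner hqM f)
  rw [Fintype.prod_option] at key
  refine Subtype.ext ((qExpand Qbar q).injective ?_)
  show qExpand Qbar q ((heckeAlphaBar Qbar M q _ : X0F M q) : LaurentSeries Qbar) = _
  rw [coe_heckeAlphaBar, IntermediateField.coe_mul, map_mul,
    qExpand_normBeta hq.out (dvd_mul_left q M) u hu f, Finset.prod_range]
  refine key.trans ?_
  congr 1
  refine Finset.prod_congr rfl fun a _ => ?_
  show twist (u ^ (a : ℕ))
    ((atkinLehner hqM (atkinLehner hqM f) : X0F M q) : LaurentSeries Qbar) = _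
  rw [BadReduction.atkinLehner_atkinLehner]

section Classes

variable {N K : ℕ} [NeZero N]

omit [NeZero N] in
/-- A representative which is a constant times a `2^K`-th power gives the zero class. -/
theorem IsRepOf.eq_zero {x : JZero N} {f h : modularFunctionFieldBar N} (hf : IsRepOf K N x f)
    (hh : h ≠ 0) {c : Qbar}
    (e : f = algebraMap Qbar (modularFunctionFieldBar N) c * h ^ 2 ^ K) : x = 0 := by
  obtain ⟨hf0, D, rfl, hD⟩ := hf
  refine (QuotientAddGroup.eq_zero_iff _).2 ⟨h, hh, fun v => ?_⟩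
  have h1 := hD v
  rw [e, v.ord_mul (fun h0 => hf0 (by rw [e, h0, zero_mul])) (pow_ne_zero _ hh),
    Curve.ord_algebraMap, zero_add, Curve.ord_pow] at h1
  exact mul_left_cancel₀ (pow_ne_zero K (two_ne_zero : (2 : ℤ) ≠ 0)) (by exact_mod_cast h1)

omit [NeZero N] in
/-- Representatives of translates by automorphisms of the function field. -/
theorem isRepOf_ofAlgAut (w : modularFunctionFieldBar N ≃ₐ[Qbar] modularFunctionFieldBar N)
    {x : JZero N} {f : modularFunctionFieldBar N} (hf : IsRepOf K N x f) :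
    IsRepOf K N (SemilinearAut.ofAlgAut w • x) (w f) := by
  obtain ⟨hf0, D, rfl, hDf⟩ := hf
  refine ⟨(map_ne_zero_iff _ w.injective).2 hf0,
    SemilinearAut.degZeroSMulHom (SemilinearAut.ofAlgAut w) D, ?_, fun v => ?_⟩
  · rw [SemilinearAut.pic0_smul_mk]
  · rw [SemilinearAut.coe_degZeroSMulHom, SemilinearAut.divisor_smul_apply, hDf]
    have h := SemilinearAut.ord_smul (SemilinearAut.ofAlgAut w)
      ((SemilinearAut.ofAlgAut w)⁻¹ • v) f
    rw [smul_inv_smul, SemilinearAut.ofAlgAut_smul] at h
    exact h.symm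

end Classes

/-- **The transposed `U_q` is `-w_q`** on a `2^K`-torsion class whose translate by `w_q` is killed
by the push-forward to level `M`. -/
theorem heckeT_eq_neg {K : ℕ} (hqM : ¬ q ∣ M) {x : JZero (M * q)} (hx : (2 ^ K : ℕ) • x = 0)
    (hα : NewformRep.pushAlpha M q (SemilinearAut.ofAlgAut (atkinLehner hqM) • x) = 0) :
    heckeT (M * q) q x = -(SemilinearAut.ofAlgAut (atkinLehner hqM) • x) := by
  obtain ⟨f, hf⟩ := exists_isRepOf hx
  have hw := isRepOf_ofAlgAut (atkinLehner hqM) hf
  have hsum := hw.mul (isRepOf_heckeT (l := q) hf)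
  rw [← traceNorm_atkinLehner hqM f] at hsum
  obtain ⟨hw0, D, hD, hDw⟩ := hw
  rw [← hD, NewformRep.pushAlpha, NewformRep.picPushAlong_mk] at hα
  obtain ⟨h, h0, hh⟩ := (QuotientAddGroup.eq_zero_iff _).1 hα
  obtain ⟨c, hc⟩ : ∃ c : Qbar, traceNorm (atkinLehner hqM f)
      = heckeAlphaBar Qbar M q (algebraMap Qbar (modularFunctionFieldBar M) c * h ^ 2 ^ K) := by
    obtain ⟨g, hge, hg0, hg⟩ : ∃ g : modularFunctionFieldBar M,
        traceNorm (atkinLehner hqM f) = heckeAlphaBar Qbar M q g ∧ g ≠ 0 ∧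
          ∀ v : Place Qbar (modularFunctionFieldBar M), v.ord g = (2 ^ K : ℤ) * v.ord h := by
      letI := algebraAlong (heckeAlphaBar Qbar M q)
      haveI : FiniteDimensional (modularFunctionFieldBar M) (X0F M q) :=
        Curve.finiteAlong (heckeAlphaBar Qbar M q)
      refine ⟨_, rfl, HeckeJ.norm_ne_zero (K := modularFunctionFieldBar M) hw0, fun v => ?_⟩
      have hNF : NormFormulaAlong Qbar (heckeAlphaBar Qbar M q) (Curve.finiteAlong _) :=
        Curve.normFormulaAlong _ (Curve.finiteAlong _)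
      have h1 := hNF (atkinLehner hqM f) hw0
        ((2 ^ K : ℤ) • (D : Divisor Qbar (X0F M q))) (fun w => by simpa using hDw w) v
      rw [map_zsmul] at h1
      rw [← h1, ← hh v]
      simp [Divisor.pushforwardAlong]
    have hdiv : Curve.divisorOf Qbar (h ^ 2 ^ K) = Curve.divisorOf Qbar g := Finsupp.ext fun v => by
      rw [Curve.divisorOf_apply, Curve.divisorOf_apply, hg, Curve.ord_pow]
      push_cast
      rfl
    obtain ⟨c, -, he⟩ := exists_algebraMap_eq_of_divisorOf_eq (pow_ne_zero (2 ^ K) h0) hg0 hdiv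
    exact ⟨c, hge.trans (congrArg _ he)⟩
  rw [map_mul, map_pow, AlgHom.commutes] at hc
  have hzero := hsum.eq_zero
    ((map_ne_zero_iff _ (heckeAlphaBar Qbar M q).toRingHom.injective).2 h0) hc
  rw [eq_neg_iff_add_eq_zero, add_comm]
  exact hzero

/-- Where `w_q` is `-ε` and the push-forward to level `M` vanishes, the transposed `U_q` is
`ε`. -/
theorem heckeT_eq_smul {K : ℕ} (hqM : ¬ q ∣ M) {x : JZero (M * q)} (hx : (2 ^ K : ℕ) • x = 0)
    (hα : NewformRep.pushAlpha M q x = 0) {ε : ℤ}
    (hw : SemilinearAut.ofAlgAut (atkinLehner hqM) • x = -(ε • x)) :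
    heckeT (M * q) q x = ε • x := by
  rw [heckeT_eq_neg hqM hx (by rw [hw, map_neg, map_zsmul, hα, smul_zero, neg_zero]), hw, neg_neg]

end Fermat.Agent.Residual.Ord2
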