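/-
A class of order two with `ω = 0`, killed by the push-forward to level `M`, lies in the kernel
of reduction at `2`: its function reduces to a square on both components.
-/
import Fermat.Agent.Residual.Ord2Functional
import Fermat.Agent.NewformRep.Degeneracy
import Fermat.Agent.Strict.Geometry
import Fermat.Agent.BadReduction.X0Compat
import Fermat.Agent.Mazur.LocalRank

set_option autoImplicit false
set_option linter.style.haveILetI false
set_option synthInstance.maxHeartbeats 400000

noncomputable section

open ModularCurve AlgebraicCurve HahnSeries IsLocalRing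
open Fermat.Agent.EichlerShimura (twist)
open Fermat.Agent.BadReduction (X0F X0Res resFrob resPhi coe_resPhi resPhi_resFrob)

namespace Fermat.Agent.Residual.Ord2

local notation "Qbar" => AlgebraicClosure ℚ

section Square

variable (k : Type*) [Field k] [CharP k 2] [IsAlgClosed k] (M : ℕ) [NeZero M]

theorem theta_qExpand_two (y : LaurentSeries k) : theta (qExpand k 2 y) = 0 := by
  rw [theta_qExpand, two_nsmul]
  ext n
  rw [HahnSeries.coeff_add]
  exact CharTwo.add_self_eq_zero _

/-- In characteristic two a residual function with `θ = 0` is a square. -/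
theorem exists_sq_of_theta_eq_zero (u : modularFunctionFieldFullC k M)
    (h : theta (u : LaurentSeries k) = 0) : ∃ g : modularFunctionFieldFullC k M, u = g ^ 2 := by
  haveI : Fact (Nat.Prime 2) := ⟨Nat.prime_two⟩
  letI := algebraAlong (resPhi k 2 M)
  let S : Subalgebra (modularFunctionFieldFullC k M) (modularFunctionFieldFullC k M) :=
    { carrier := {x | theta (x : LaurentSeries k) = 0}
      mul_mem' := fun {x y} hx hy => by
        show theta ((x * y : modularFunctionFieldFullC k M) : LaurentSeries k) = 0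
        rw [IntermediateField.coe_mul, theta_mul, show theta (x : LaurentSeries k) = 0 from hx,
          show theta (y : LaurentSeries k) = 0 from hy, zero_mul, mul_zero, add_zero]
      add_mem' := fun {x y} hx hy => by
        show theta ((x + y : modularFunctionFieldFullC k M) : LaurentSeries k) = 0
        rw [IntermediateField.coe_add, map_add, show theta (x : LaurentSeries k) = 0 from hx,
          show theta (y : LaurentSeries k) = 0 from hy, add_zero]
      algebraMap_mem' := fun r => by
        show theta ((resPhi k 2 M r : modularFunctionFieldFullC k M) : LaurentSeries k) = 0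
        rw [coe_resPhi, theta_qExpand_two] }
  haveI : IsSimpleOrder (Subalgebra (modularFunctionFieldFullC k M)
      (modularFunctionFieldFullC k M)) :=
    Subalgebra.isSimpleOrder_of_finrank_prime _ _
      (by
        show Nat.Prime (finrankAlong k (resPhi k 2 M))
        rw [BadReduction.finrank_resPhi]
        exact Nat.prime_two)
  rcases IsSimpleOrder.eq_bot_or_eq_top S with hS | hS
  · have hu : u ∈ S := h
    rw [hS, Algebra.mem_bot] at hu
    obtain ⟨z, hz⟩ := hu
    refine ⟨(resFrob k 2 M).symm z, ?_⟩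
    rw [← resPhi_resFrob k 2 M, RingEquiv.apply_symm_apply]
    exact hz.symm
  · have hj : BadReduction.resJ k M ∈ S := hS ▸ Algebra.mem_top
    have h1 : (theta (jqModC k)).coeff (-1) = 0 := by
      rw [show theta (jqModC k) = 0 from hj]
      rfl
    rw [theta_coeff, ← EichlerShimura.twist_one (jqModC k),
      EichlerShimura.coeff_twist_jq_neg_one] at h1
    simp at h1

end Square

section Residue

variable {A : ValuationSubring Qbar}

/-- `ω = 0` modulo `2` at a representation forces `θ (ȳ₁ / ȳ₂) = 0`. -/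
theorem theta_div_eq_zero (hA : A.LiesOverPrime 2) {g : LaurentSeries Qbar} {c : Qbar}
    {y₁ y₂ : LaurentSeries A} (h : GaussRep A g c y₁ y₂) (hω : omega A 1 g = 0) :
    theta (coeffMap (residue A) y₁ / coeffMap (residue A) y₂) = 0 := by
  let π : Mod2 A 1 →+* ResidueField A := Ideal.Quotient.lift _ (residue A) fun a ha => by
    obtain ⟨b, rfl⟩ := Ideal.mem_span_singleton'.1 ha
    rw [map_mul, map_pow, (residue_eq_zero_iff _).2 (two_mem_maximalIdeal hA),
      zero_pow one_ne_zero, mul_zero]
  have hπ : ∀ y : LaurentSeries A,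
      coeffMap π (coeffMap (red A 1) y) = coeffMap (residue A) y := fun y => by
    rw [coeffMap_coeffMap]
    exact coeffMap_congr (RingHom.ext fun _ => rfl) _
  rw [omega_eq hA h, sub_eq_zero] at hω
  have hd := congrArg (coeffMap π) hω
  rw [coeffMap_dlog π (isUnit_coeffMap_red hA h.h₁), coeffMap_dlog π (isUnit_coeffMap_red hA h.h₂),
    hπ, hπ] at hd
  set a := coeffMap (residue A) y₁
  set b := coeffMap (residue A) y₂
  have e := theta_mul (a / b) b
  rw [div_mul_cancel₀ _ h.h₂, ← mul_dlog (isUnit_iff_ne_zero.2 h.h₁),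
    ← mul_dlog (isUnit_iff_ne_zero.2 h.h₂), hd, ← mul_assoc, div_mul_cancel₀ _ h.h₂] at e
  exact (mul_eq_zero.1 (add_right_cancel (b := a * dlog b) ((zero_add _).trans e)).symm).resolve_right
    h.h₂

variable {M : ℕ} [NeZero M] [Fact (Nat.Prime 2)]

/-- **A class of order two with `ω = 0`, killed by the push-forward to level `M`, is in the
kernel of reduction.** -/
theorem mem_kernelGroup_of_omegaClass_eq_zero (hqM : ¬ 2 ∣ M) (hA : A.LiesOverPrime 2)
    {x : JZero (M * 2)} (hx : 2 • x = 0) (hα : NewformRep.pushAlpha M 2 x = 0)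
    (hω : omegaClass A 1 (M * 2) x = 0) :
    x ∈ OrdinaryDatum.kernelGroup (BadReduction.x0Reduction hqM A hA) 2 := by
  haveI : CharP (ResidueField A) 2 := charP_residueField hA
  haveI : IsAlgClosed (ResidueField A) := Igusa.isAlgClosed_residueField hqM hA
  set R := BadReduction.x0Reduction hqM A hA with hR
  have hxt : x ∈ Pic0.torsion Qbar (modularFunctionFieldBar (M * 2)) 2 :=
    Pic0.mem_torsion.2 (by rw [natCast_zsmul]; exact hx)
  obtain ⟨D, f, h0, h1, hD, hf, hDf, h0', h1'⟩ := NewformRep.exists_uniform R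
    (Mazur.rankLeOne_of_liesOverPrime Nat.prime_two hA) (zero_ne_one : (0 : Fin 2) ≠ 1)
    two_pos hxt
  have hrep : IsRepOf 1 (M * 2) x f := ⟨hf, D, hD, fun v => by simpa using hDf v⟩
  obtain ⟨y₁, y₂, hy₂, e⟩ := (BadReduction.mem_gaussVal_iff _
    (BadReduction.modularFunctionFieldBar_le_finFrac (M * 2)) A).1 h0
  have hφ : (R.φ 0 ⟨f, h0⟩ : LaurentSeries (ResidueField A))
      = coeffMap (residue A) y₁ / coeffMap (residue A) y₂ :=
    (BadReduction.coe_compPhi_zero hqM A hA ⟨f, h0⟩).trans
      (BadReduction.infRed_eq A ⟨f, h0⟩ hy₂ e)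
  have hy₁ : coeffMap (residue A) y₁ ≠ 0 := fun hy =>
    h0' (Subtype.ext (hφ.trans (by rw [hy, zero_div]; rfl)))
  have hg : GaussRep A (f : LaurentSeries Qbar) 1 y₁ y₂ :=
    ⟨one_ne_zero, hy₁, hy₂, by rw [HahnSeries.single_zero_one, one_mul]; exact e⟩
  rw [omegaClass_eq hA hrep] at hω
  obtain ⟨g, hgu⟩ := exists_sq_of_theta_eq_zero (ResidueField A) M (R.φ 0 ⟨f, h0⟩)
    (by rw [hφ]; exact theta_div_eq_zero hA hg hω)
  have hg0 : g ≠ 0 := fun hz => h0' (hgu.trans (by rw [hz, zero_pow two_ne_zero]))
  obtain ⟨a, t, ha, ht, he⟩ := Strict.exists_norm_eq_pow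
    (BadReduction.degeneracyReduction_alpha hqM A hA) (BadReduction.baseReduction_x0 hqM A hA)
    (zero_ne_one : (0 : Fin 2) ≠ 1) _ _ _ D hf hDf h0 h1 h0' h1' (by rw [hD]; exact hα)
  obtain ⟨b, hb⟩ := IsAlgClosed.exists_pow_nat_eq a two_pos
  let c := resFrob (ResidueField A) 2 M
  have he' : g ^ 2 * c (R.φ 1 ⟨f, h1⟩)
      = algebraMap (ResidueField A) (X0Res M A) a * t ^ 2 := by
    rw [← hgu]
    exact he
  rw [← hb, map_pow] at he'
  have hv : R.φ 1 ⟨f, h1⟩
      = c.symm (algebraMap (ResidueField A) (X0Res M A) b * t / g) ^ 2 := by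
    rw [← map_pow, RingEquiv.eq_symm_apply, div_pow, mul_pow, eq_div_iff (pow_ne_zero 2 hg0),
      mul_comm]
    exact he'
  rw [← hD]
  refine Strict.mem_kernelGroup_of_forall_pow R D hf hDf fun i => ?_
  fin_cases i
  · exact ⟨h0, g, hg0, hgu⟩
  · exact ⟨h1, _, fun hz => h1' (hv.trans (by rw [hz, zero_pow two_ne_zero])), hv⟩

end Residue

end Fermat.Agent.Residual.Ord2
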