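/-
An infinitesimal group of functions at `2` has no pair of points exchanged by inertia through a
square root of a uniformiser: such a group of order four would have to be of multiplicative type.
-/
import Fermat.Agent.OrdinaryDatum.Infinitesimal

set_option autoImplicit false

noncomputable section

namespace Fermat.Agent.Residual.Ord2

open Fermat.Agent.OrdinaryDatum

universe uK uG uM

variable {K : Type uK} [Field K] {G : Type uG} [Group G] [MulSemiringAction G K]
  {A : ValuationSubring K}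

theorem div_mem_iff {x y : K} (hy : y ≠ 0) : x / y ∈ A ↔ A.valuation x ≤ A.valuation y := by
  rw [← A.valuation_le_one_iff, map_div₀,
    div_le_one₀ (zero_lt_iff.2 ((Valuation.ne_zero_iff _).2 hy))]

/-- `p + q r` small, with `p`, `q` fixed and `r` of half the valuation of `2`. -/
theorem half_bounds {r p q : K} (h2 : (2 : K) ≠ 0) (h2A : (2 : K) ∈ A.nonunits)
    (hval : ∀ c : K, c ≠ 0 → (∀ g : G, g • c = c) →
      ∃ m : ℤ, A.valuation c = A.valuation (2 : K) ^ m)
    (hrv : A.valuation r * A.valuation r = A.valuation (2 : K))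
    (hp : ∀ g : G, g • p = p) (hq : ∀ g : G, g • q = q)
    (h : A.valuation (p + q * r) < 1) : p / 2 ∈ A ∧ q ∈ A := by
  set v := A.valuation
  have hs1 : v r < 1 := by
    by_contra hcon
    rw [not_lt] at hcon
    have h1 : (1 : _) ≤ v r * v r := one_le_mul hcon hcon
    rw [hrv] at h1
    exact ((A.mem_nonunits_iff).1 h2A).not_ge h1
  have hs0 : 0 < v r := by
    refine zero_lt_iff.2 fun h0 => ?_
    rw [h0, mul_zero] at hrv
    exact h2 ((Valuation.zero_iff _).1 hrv.symm)
  have hanti := zpow_right_strictAnti₀ hs0 hs1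
  have hpow : ∀ c : K, c ≠ 0 → (∀ g : G, g • c = c) → ∃ m : ℤ, v c = v r ^ (2 * m) := by
    intro c hc hfix
    obtain ⟨m, hm⟩ := hval c hc hfix
    exact ⟨m, by rw [hm, ← hrv, ← pow_two, ← zpow_natCast, ← zpow_mul]; rfl⟩
  obtain ⟨hp1, hq1⟩ : v p < 1 ∧ v (q * r) < 1 := by
    rcases eq_or_ne p 0 with hp0 | hp0
    · rw [hp0, zero_add] at h
      exact ⟨by rw [hp0, map_zero]; exact zero_lt_one, h⟩
    rcases eq_or_ne q 0 with hq0 | hq0
    · rw [hq0, zero_mul, add_zero] at h
      exact ⟨h, by rw [hq0, zero_mul, map_zero]; exact zero_lt_one⟩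
    obtain ⟨i, hi⟩ := hpow p hp0 hp
    obtain ⟨j, hj⟩ := hpow q hq0 hq
    have hne : v p ≠ v (q * r) := by
      rw [map_mul, hi, hj, ← zpow_add_one₀ hs0.ne']
      intro he
      have := hanti.injective he
      omega
    rw [Valuation.map_add_of_distinct_val _ hne] at h
    exact max_lt_iff.1 h
  constructor
  · rcases eq_or_ne p 0 with rfl | hp0
    · rw [zero_div]; exact zero_mem A
    obtain ⟨i, hi⟩ := hpow p hp0 hp
    rw [div_mem_iff h2, ← hrv, ← pow_two, ← zpow_natCast, hi]
    refine hanti.antitone ?_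
    by_contra hcon
    rw [not_le] at hcon
    rw [hi, ← zpow_zero (v r)] at hp1
    have := hanti.lt_iff_gt.1 hp1
    omega
  · rcases eq_or_ne q 0 with rfl | hq0
    · exact zero_mem A
    obtain ⟨j, hj⟩ := hpow q hq0 hq
    rw [← A.valuation_le_one_iff]
    change v q ≤ 1
    rw [hj, ← zpow_zero (v r)]
    refine hanti.antitone ?_
    rw [map_mul, hj, ← zpow_add_one₀ hs0.ne', ← zpow_zero (v r)] at hq1
    have := hanti.lt_iff_gt.1 hq1
    omega

variable {M : Type uM} [AddCommGroup M] {act : G → M →+ M}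

/-- **No très ramifié transposition in an infinitesimal group of functions.** -/
theorem false_of_funOrder (O : FunOrder A G M act) (h2 : (2 : K) ≠ 0)
    (h2A : (2 : K) ∈ A.nonunits)
    (hval : ∀ c : K, c ≠ 0 → (∀ g : G, g • c = c) →
      ∃ m : ℤ, A.valuation c = A.valuation (2 : K) ^ m)
    {r : K} (hrv : A.valuation r * A.valuation r = A.valuation (2 : K))
    {e d : M} (he : e + e = 0) (hd : d + d = 0) (hd0 : d ≠ 0) (hdfix : ∀ g, act g d = d)
    (hact : ∀ g, (g • r = r ∧ act g e = e) ∨ (g • r = -r ∧ act g e = e + d)) : False := by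
  set v := A.valuation with hv
  have hfix2 : ∀ g : G, g • (2 : K) = 2 := fun g => map_ofNat (MulSemiringAction.toRingHom G K g) 2
  have hr0 : r ≠ 0 := fun h => h2 ((Valuation.zero_iff _).1 (by rw [← hrv, h, map_zero, zero_mul]))
  -- the coordinates of the two exchanged values
  let p : (M → K) → K := fun h => (h e + h (e + d)) / 2 - h 0
  let q : (M → K) → K := fun h => (h e - h (e + d)) / (2 * r)
  have hsplit : ∀ h : M → K, h e - h 0 = p h + q h * r ∧ h (e + d) - h 0 = p h - q h * r := by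
    intro h
    constructor <;> · simp only [p, q]; field_simp; ring
  have hsw : ∀ h ∈ O.alg, ∀ g : G,
      (g • r = r ∧ g • h e = h e ∧ g • h (e + d) = h (e + d)) ∨
      (g • r = -r ∧ g • h e = h (e + d) ∧ g • h (e + d) = h e) := by
    intro h hh g
    rcases hact g with ⟨hr, hge⟩ | ⟨hr, hge⟩
    · exact Or.inl ⟨hr, by rw [← O.equivariant h hh, hge],
        by rw [← O.equivariant h hh, map_add, hge, hdfix]⟩
    · exact Or.inr ⟨hr, by rw [← O.equivariant h hh, hge],
        by rw [← O.equivariant h hh, map_add, hge, hdfix, add_assoc, hd, add_zero]⟩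
  have hc0 : ∀ h ∈ O.alg, ∀ g : G, g • h 0 = h 0 := fun h hh g => by
    rw [← O.equivariant h hh, map_zero]
  have hpfix : ∀ h ∈ O.alg, ∀ g : G, g • p h = p h := fun h hh g => by
    simp only [p]
    rw [smul_sub, smul_div₀', smul_add, hfix2, hc0 h hh]
    rcases hsw h hh g with ⟨-, h1, h2'⟩ | ⟨-, h1, h2'⟩ <;> rw [h1, h2']
    rw [add_comm]
  have hqfix : ∀ h ∈ O.alg, ∀ g : G, g • q h = q h := fun h hh g => by
    simp only [q]
    rw [smul_div₀', smul_sub, smul_mul', hfix2]
    rcases hsw h hh g with ⟨hr, h1, h2'⟩ | ⟨hr, h1, h2'⟩ <;> rw [hr, h1, h2']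
    rw [mul_neg, div_neg, ← neg_div, neg_sub]
  have hpq : ∀ h ∈ O.alg, p h / 2 ∈ A ∧ q h ∈ A := fun h hh =>
    half_bounds h2 h2A hval hrv (hpfix h hh) (hqfix h hh) (by
      rw [← (hsplit h).1, ← A.mem_nonunits_iff]
      exact O.congruent h hh e)
  -- second differences
  have hsecond : ∀ h ∈ O.alg, ∃ (n : ℕ) (a b : Fin n → (M → K)), (∀ i, a i ∈ O.alg) ∧
      (∀ i, b i ∈ O.alg) ∧ ∀ x y, h (x + y) - h x - h y + h 0
        = ∑ i, (a i x - a i 0) * (b i y - b i 0) := by
    intro h hh
    obtain ⟨n, a, b, ha, hb, hab⟩ := O.translate h hh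
    refine ⟨n, a, b, ha, hb, fun x y => ?_⟩
    have h1 : h x = ∑ i, a i x * b i 0 := by rw [← hab, add_zero]
    have h2' : h y = ∑ i, a i 0 * b i y := by rw [← hab, zero_add]
    have h3 : h 0 = ∑ i, a i 0 * b i 0 := by rw [← hab, add_zero]
    rw [hab, h1, h2', h3, ← Finset.sum_sub_distrib, ← Finset.sum_sub_distrib,
      ← Finset.sum_add_distrib]
    exact Finset.sum_congr rfl fun i _ => by ring
  -- the difference at `d` is divisible by `2 r`
  have hbase : ∀ h ∈ O.alg, (h d - h 0) / (2 * r) ∈ A := by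
    intro h hh
    obtain ⟨n, a, b, ha, hb, hab⟩ := hsecond h hh
    have h1 := hab e e
    have h3 := hab e (e + d)
    rw [he] at h1
    rw [← add_assoc, he, zero_add] at h3
    have hS : ∑ i, (a i e - a i 0) * q (b i) ∈ A :=
      sum_mem fun i _ => mul_mem (sub_mem (O.integral _ (ha i) _) (O.integral _ (ha i) _))
        (hpq _ (hb i)).2
    have hdiff : (h d - h e - h (e + d) + h 0) - (h 0 - h e - h e + h 0)
        = -(2 * r) * ∑ i, (a i e - a i 0) * q (b i) := by
      rw [h1, h3, ← Finset.sum_sub_distrib, Finset.mul_sum]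
      refine Finset.sum_congr rfl fun i _ => ?_
      rw [(hsplit (b i)).1, (hsplit (b i)).2]
      ring
    have hkey : h d - h 0 = 2 * r * (-(q h) - ∑ i, (a i e - a i 0) * q (b i)) := by
      linear_combination hdiff - (hsplit h).1 + (hsplit h).2
    rw [hkey, mul_div_cancel_left₀ _ (mul_ne_zero h2 hr0)]
    exact sub_mem (neg_mem (hpq h hh).2) hS
  have hdfix' : ∀ h ∈ O.alg, ∀ g : G, g • (h d - h 0) = h d - h 0 := fun h hh g => by
    rw [smul_sub, ← O.equivariant h hh, hdfix, hc0 h hh]
  have h2lt : v (2 : K) < 1 := (A.mem_nonunits_iff).1 h2A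
  have h2pos : 0 < v (2 : K) := zero_lt_iff.2 ((Valuation.ne_zero_iff _).2 h2)
  have hanti := zpow_right_strictAnti₀ h2pos h2lt
  -- it is divisible by every power of `2`
  have hall : ∀ n : ℕ, ∀ h ∈ O.alg, (h d - h 0) / 2 ^ (n + 2) ∈ A := by
    intro n
    induction n with
    | zero =>
      intro h hh
      rcases eq_or_ne (h d - h 0) 0 with h0 | h0
      · rw [h0, zero_div]; exact zero_mem A
      obtain ⟨m, hm⟩ := hval _ h0 (hdfix' h hh)
      have hle := (div_mem_iff (mul_ne_zero h2 hr0)).1 (hbase h hh)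
      have hr1 : v r < 1 := by
        by_contra hcon
        rw [not_lt] at hcon
        exact h2lt.not_ge (hrv ▸ one_le_mul hcon hcon)
      rw [div_mem_iff (pow_ne_zero _ h2), map_pow, ← zpow_natCast]
      change v (h d - h 0) ≤ v (2 * r) at hle
      change v (h d - h 0) ≤ v (2 : K) ^ (((0 + 2 : ℕ)) : ℤ)
      rw [hm] at hle ⊢
      refine hanti.antitone ?_
      by_contra hcon
      rw [not_le] at hcon
      have h4 : v (2 : K) ^ (1 : ℤ) ≤ v (2 : K) ^ m := hanti.antitone (by omega)
      have h5 : v (2 * r) < v (2 : K) := by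
        rw [map_mul]
        exact mul_lt_of_lt_one_right h2pos hr1
      rw [zpow_one] at h4
      exact (h4.trans hle).not_gt h5
    | succ n ih =>
      intro h hh
      obtain ⟨k, a, b, ha, hb, hab⟩ := hsecond h hh
      have h1 := hab d d
      rw [hd] at h1
      have hkey : (h d - h 0) / 2 ^ (n + 1 + 2) = -2 ^ n *
          ∑ i, ((a i d - a i 0) / 2 ^ (n + 2)) * ((b i d - b i 0) / 2 ^ (n + 2)) := by
        rw [Finset.mul_sum]
        have hsum : ∑ i, -2 ^ n * (((a i d - a i 0) / 2 ^ (n + 2)) * ((b i d - b i 0) / 2 ^ (n + 2)))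
            = (∑ i, (a i d - a i 0) * (b i d - b i 0)) * (-2 ^ n / (2 ^ (n + 2) * 2 ^ (n + 2))) := by
          rw [Finset.sum_mul]
          exact Finset.sum_congr rfl fun i _ => by generalize (2 : K) ^ (n + 2) = Z; ring
        rw [hsum, ← h1]
        field_simp
        ring
      rw [hkey]
      exact mul_mem (neg_mem (pow_mem (A.nonunits_subset h2A) n))
        (sum_mem fun i _ => mul_mem (ih _ (ha i)) (ih _ (hb i)))
  -- hence zero
  refine hd0 (O.separates d 0 fun h hh => ?_)
  by_contra hne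
  have h0 : h d - h 0 ≠ 0 := sub_ne_zero.2 hne
  obtain ⟨m, hm⟩ := hval _ h0 (hdfix' h hh)
  have hle := (div_mem_iff (pow_ne_zero _ h2)).1 (hall m.toNat h hh)
  change v (h d - h 0) ≤ v (2 ^ (m.toNat + 2)) at hle
  rw [hm, map_pow, ← zpow_natCast] at hle
  have := hanti.le_iff_ge.1 hle
  omega

end Fermat.Agent.Residual.Ord2
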