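/-
The line at a place over two of a representation `ρ` on `R²` mapping to the two-new classes of
`J₀(2M)`: inertia and Frobenius fix the kernel of the first coefficient of `ω`.  That kernel is
proper because a transposition through a square root of twice an odd number cannot act inside
the kernel of reduction.
-/
import Fermat.Agent.Residual.Ord2Atkin
import Fermat.Agent.Residual.Ord2Residue
import Fermat.Agent.Residual.Ord2Tres
import Fermat.Agent.Residual.PatternLine
import Fermat.Agent.OrdinaryDatum.KernelX0FunOrder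
import Fermat.Agent.AtP.Inertia

set_option autoImplicit false
set_option linter.style.haveILetI false
set_option synthInstance.maxHeartbeats 400000

noncomputable section

open ModularCurve AlgebraicCurve HahnSeries IsLocalRing
open scoped Matrix

namespace Fermat.Agent.Residual.Ord2

local notation "Qbar" => AlgebraicClosure ℚ
local notation "Γℚ" => (AlgebraicClosure ℚ ≃ₐ[ℚ] AlgebraicClosure ℚ)

section ModTwo

variable {A : ValuationSubring Qbar} {N : ℕ} [NeZero N]

/-- `ω = 0` modulo `2^K` on a class of order two gives `ω = 0` modulo `2`. -/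
theorem omegaClass_one_eq_zero (hA : A.LiesOverPrime 2) {K : ℕ} {x : JZero N}
    (hx : 2 • x = 0) (h : omegaClass A (K + 1) N x = 0) : omegaClass A 1 N x = 0 := by
  obtain ⟨f, hf⟩ := exists_isRepOf (K := 1) (x := x) (by rw [pow_one]; exact hx)
  have hfK : IsRepOf (K + 1) N x (f ^ 2 ^ K) := by
    obtain ⟨hf0, D, hD, hDf⟩ := hf
    refine ⟨pow_ne_zero _ hf0, D, hD, fun v => ?_⟩
    rw [Curve.ord_pow, ← hDf v, pow_one, pow_succ]
    push_cast
    ring
  rw [omegaClass_eq hA hf]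
  rw [omegaClass_eq hA hfK, IntermediateField.coe_pow] at h
  obtain ⟨c, y₁, y₂, hg, -, -⟩ :=
    exists_gaussRep (A := A) (mem_finFrac f) (coe_ne_zero_of_ne_zero hf.1)
  rw [omega_pow hA hg, omega_eq hA hg] at h
  rw [omega_eq hA hg]
  let π : Mod2 A (K + 1) →+* Mod2 A 1 := Ideal.Quotient.factor
    (Ideal.span_singleton_le_span_singleton.2 (pow_dvd_pow _ (Nat.le_add_left 1 K)))
  have hπ : ∀ y : LaurentSeries A,
      coeffMap π (coeffMap (red A (K + 1)) y) = coeffMap (red A 1) y := fun y => by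
    rw [coeffMap_coeffMap]
    exact coeffMap_congr (RingHom.ext fun _ => rfl) _
  have key : coeffMap π (dlog (coeffMap (red A (K + 1)) y₁) - dlog (coeffMap (red A (K + 1)) y₂))
      = 0 := by
    ext n
    obtain ⟨a, ha⟩ := Ideal.Quotient.mk_surjective
      ((dlog (coeffMap (red A (K + 1)) y₁) - dlog (coeffMap (red A (K + 1)) y₂)).coeff n)
    have hn := congrArg (fun y => HahnSeries.coeff y n) h
    simp only [HahnSeries.coeff_smul, HahnSeries.coeff_zero, ← ha] at hn
    rw [← map_nsmul, Ideal.Quotient.eq_zero_iff_mem, Ideal.mem_span_singleton, nsmul_eq_mul,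
      Nat.cast_pow, pow_succ, Nat.cast_ofNat] at hn
    rw [coeffMap_coeff, ← ha, HahnSeries.coeff_zero]
    show Ideal.Quotient.mk _ a = 0
    rw [Ideal.Quotient.eq_zero_iff_mem, Ideal.mem_span_singleton, pow_one]
    exact (mul_dvd_mul_iff_left (pow_ne_zero K fun h0 =>
      two_ne_zero (α := Qbar) (congrArg Subtype.val h0))).1 hn
  rw [map_sub, coeffMap_dlog π (isUnit_coeffMap_red hA hg.h₁),
    coeffMap_dlog π (isUnit_coeffMap_red hA hg.h₂), hπ, hπ] at key
  exact key

/-- An odd integer has valuation one. -/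
theorem valuation_intCast_odd (hA : A.LiesOverPrime 2) {u : ℤ} (hu : Odd u) :
    A.valuation (u : Qbar) = 1 := by
  haveI := charP_residueField hA
  have h : IsUnit (u : A) := (residue_ne_zero_iff_isUnit (u : A)).1 (by
    rw [map_intCast, Ne, CharP.intCast_eq_zero_iff (ResidueField A) 2]
    rw [Int.odd_iff] at hu
    omega)
  have := (A.valuation_eq_one_iff (u : A)).1 h
  simpa using this

end ModTwo

section Algebra

variable {R : Type*} [CommRing R]

theorem exists_eq_smul_add_single {v : Fin 2 → R} {i j : Fin 2} (hij : j ≠ i) (hi : IsUnit (v i))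
    (z : Fin 2 → R) : ∃ c b : R, z = c • v + b • Pi.single j 1 := by
  obtain ⟨u, hu⟩ := hi
  refine ⟨z i * ↑u⁻¹, z j - z i * ↑u⁻¹ * v j, funext fun l => ?_⟩
  have hl : l = i ∨ l = j := by omega
  rcases hl with rfl | rfl
  · simp [Pi.single_eq_of_ne hij.symm, ← hu, mul_assoc]
  · simp

/-- A matrix fixing the line of `v` and acting by `a` on the quotient. -/
theorem exists_eigen_trace_of_forall_mem_line (A : Matrix (Fin 2) (Fin 2) R) (a : R)
    {v : Fin 2 → R} (hv : ∃ i, IsUnit (v i))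
    (h : ∀ z, ∃ c : R, A *ᵥ z - a • z = c • v) :
    ∃ c : R, A *ᵥ v = c • v ∧ A.trace = c + a := by
  obtain ⟨i, hi⟩ := hv
  obtain ⟨j, hij⟩ := exists_ne i
  obtain ⟨c, hc⟩ := h v
  obtain ⟨d, hd⟩ := h (Pi.single j 1)
  refine ⟨c + a, by rw [add_smul, ← hc, sub_add_cancel], ?_⟩
  have hsum : ∀ w : Fin 2 → R, w i + w j = w 0 + w 1 := fun w => by
    fin_cases i <;> fin_cases j <;> first | exact absurd rfl hij | rfl | exact add_comm _ _
  have h1 := congrFun hc i
  have h2 := congrFun hd i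
  have h3 := congrFun hd j
  simp only [Matrix.mulVec, dotProduct, Pi.sub_apply, Pi.smul_apply, smul_eq_mul,
    Fin.sum_univ_two] at h1 h2 h3
  rw [← hsum (fun l => A i l * v l)] at h1
  simp only [Pi.single_eq_of_ne hij.symm, Pi.single_eq_same, mul_one, mul_zero, sub_zero,
    ← hsum (fun l => A i l * Pi.single (M := fun _ => R) j 1 l),
    ← hsum (fun l => A j l * Pi.single (M := fun _ => R) j 1 l), zero_add] at h2 h3
  rw [Matrix.trace_fin_two, ← hsum (fun l => A l l)]
  refine hi.mul_left_cancel (a := v i) ?_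
  linear_combination h1 - v j * h2 + v i * h3

theorem mulVec_smul_eq_of_mem_maximalIdeal [IsLocalRing R] {s : R}
    (hs : ∀ x ∈ maximalIdeal R, x * s = 0) {A : Matrix (Fin 2) (Fin 2) R}
    (h : ∀ i j, (A - 1) i j ∈ maximalIdeal R) (z : Fin 2 → R) : A *ᵥ (s • z) = s • z := by
  have h0 : (A - 1) *ᵥ (s • z) = 0 := funext fun i =>
    show ∑ l, (A - 1) i l * (s * z l) = 0 from Finset.sum_eq_zero fun l _ => by
    rw [← mul_assoc, hs _ (h i l), zero_mul]
  rwa [Matrix.sub_mulVec, Matrix.one_mulVec, sub_eq_zero] at h0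

end Algebra

section Line

variable {M : ℕ} [NeZero M] [Fact (Nat.Prime 2)] {P : ValuationSubring Qbar}

/-- **The line at two.** -/
theorem isLineAt_two (hM : ¬ 2 ∣ M) (hP : P.LiesOverPrime 2) {R : Type*} [CommRing R]
    [IsLocalRing R] (h2 : (2 : R) ∈ maximalIdeal R) {s : R} (hs0 : s ≠ 0)
    (hsdvd : ∀ b : R, b ≠ 0 → b ∣ s) {ρ : Γℚ →* Matrix (Fin 2) (Fin 2) R}
    (ψ : (Fin 2 → R) →+ JZero (M * 2))
    (hequiv : ∀ σ ∈ P.decompositionSubgroup ℚ, ∀ z, σ • ψ z = ψ (ρ σ *ᵥ z))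
    (hfaith : ∀ z, z ≠ 0 → ∃ a : R, ψ (a • z) ≠ 0) {K : ℕ} (hK : ∀ z, 2 ^ K • ψ z = 0)
    (hα : ∀ z, NewformRep.pushAlpha M 2 (ψ z) = 0) {ε : ℤ} (hε : Odd ε)
    (hw : ∀ z, SemilinearAut.ofAlgAut (BadReduction.atkinLehner hM) • ψ z = -(ε • ψ z))
    (ev : ℕ → ℤ)
    (hgood : ∀ l : Nat.Primes, ¬ (l : ℕ) ∣ M * 2 → ∀ z,
      heckeOperatorBar (M * 2) l (ψ (s • z)) = ev l • ψ (s • z))
    (hbad : ∀ q : Nat.Primes, (q : ℕ) ∣ M * 2 → (q : ℕ) ≠ 2 → ∀ z,
      (haveI : NeZero (q : ℕ) := ⟨q.2.ne_zero⟩; heckeT (M * 2) q (ψ (s • z))) = ev q • ψ (s • z))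
    {l₀ : ℕ} (hl₀ : l₀.Prime) (hl₀N : ¬ l₀ ∣ M * 2) (hneis : Odd (1 + (l₀ : ℤ) - ev l₀))
    {r : Qbar} {u : ℤ} (hu : Odd u) (hr : r ^ 2 = ((2 * u : ℤ) : Qbar))
    (hfix : ∀ σ ∈ P.inertiaSubgroupIn ℚ, σ r = r → ∀ i j, (ρ σ - 1) i j ∈ maximalIdeal R)
    (hmove : ∃ σ ∈ P.inertiaSubgroupIn ℚ, σ r = -r ∧ ∃ i j, IsUnit ((ρ σ - 1) i j)) :
    IsLineAt ρ P 2 (ε : R) := by
  have hN2 : 2 ∣ M * 2 := dvd_mul_left 2 M
  have hI : ∀ σ ∈ P.inertiaSubgroupIn ℚ, σ ∈ P.decompositionSubgroup ℚ := fun σ hσ =>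
    (ES.residueAut_eq_one_of_mem_inertia P hσ).1
  -- the socle
  have hms : ∀ x ∈ maximalIdeal R, x * s = 0 := fun x hx => by
    by_contra h
    obtain ⟨t, ht⟩ := hsdvd _ h
    have h1 : (1 - x * t) * s = 0 := by linear_combination ht
    exact hs0 ((isUnit_one_sub_self_of_mem_nonunits _
      ((mem_maximalIdeal _).1 (Ideal.mul_mem_right t _ hx))).mul_right_eq_zero.1 h1)
  have h2s : ∀ z : Fin 2 → R, 2 • ψ (s • z) = 0 := fun z => by
    have h0 : (2 : ℕ) • (s • z) = 0 := funext fun i => by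
      show (2 : ℕ) • (s * z i) = 0
      rw [nsmul_eq_mul, Nat.cast_ofNat, ← mul_assoc, hms 2 h2, zero_mul]
    rw [← map_nsmul, h0, map_zero]
  obtain ⟨k, rfl⟩ : ∃ k, K = k + 1 := by
    refine Nat.exists_eq_succ_of_ne_zero fun h0 => ?_
    obtain ⟨a, ha⟩ := hfaith (fun _ => s) fun h => hs0 (congrFun h 0)
    exact ha (by simpa [h0] using hK (a • fun _ => s))
  -- the eigenvalue of the transposed `U₂`
  have hU : ∀ z, heckeT (M * 2) 2 (ψ z) = ε • ψ z := fun z =>
    heckeT_eq_smul hM (hK z) (hα z) (hw z)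
  have hεu : IsUnit (ε : Mod2 P (k + 1)) := by
    haveI := charP_residueField hP
    rw [← map_intCast (red P (k + 1))]
    refine isUnit_red ?_
    rw [map_intCast, Ne, CharP.intCast_eq_zero_iff (ResidueField P) 2]
    rw [Int.odd_iff] at hε
    omega
  -- the submodule where `phi` vanishes
  let C : Submodule R (Fin 2 → R) :=
    { carrier := {z | ∀ a : R, phi P (k + 1) (M * 2) (ψ (a • z)) = 0}
      zero_mem' := fun a => by
        rw [smul_zero, map_zero, phi, omegaClass_zero hP]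
        rfl
      add_mem' := fun {z w} hz hw a => by
        rw [smul_add, map_add, phi_add hP (hK _) (hK _), hz a, hw a, add_zero]
      smul_mem' := fun c z hz a => by rw [smul_smul]; exact hz _ }
  have hCI : ∀ σ ∈ P.inertiaSubgroupIn ℚ, ∀ z, ρ σ *ᵥ z - z ∈ C := fun σ hσ z a => by
    have e : σ • ψ (a • z) = ψ (a • (ρ σ *ᵥ z - z)) + ψ (a • z) := by
      rw [hequiv σ (hI σ hσ), Matrix.mulVec_smul, ← map_add, smul_sub, sub_add_cancel]
    have h := phi_inertia hP hN2 hσ hεu (hK (a • z)) (hU _)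
    rwa [e, phi_add hP (hK _) (hK _), add_eq_right] at h
  have hCF : ∀ σ, P.IsFrobeniusAt σ 2 → ∀ z, ρ σ *ᵥ z - (ε : R) • z ∈ C := fun σ hσ z a => by
    have e : σ • ψ (a • z) = ψ (a • (ρ σ *ᵥ z - (ε : R) • z)) + ε • ψ (a • z) := by
      rw [hequiv σ hσ.mem_decompositionSubgroup, Matrix.mulVec_smul, ← map_zsmul ψ, ← map_add,
        smul_sub, Int.cast_smul_eq_zsmul, smul_comm a ε, sub_add_cancel]
    have h := phi_frobenius hP hN2 hσ hεu (hK (a • z)) (hU _)
    rwa [e, phi_add hP (hK _) (by rw [smul_comm, hK, smul_zero]), phi_zsmul hP (hK _),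
      add_eq_right] at h
  obtain ⟨σ₀, hσ₀, hσ₀r, i, j, hij⟩ := hmove
  let v : Fin 2 → R := (ρ σ₀ - 1) *ᵥ Pi.single j 1
  have hvi : IsUnit (v i) := by
    show IsUnit (((ρ σ₀ - 1) *ᵥ Pi.single j 1) i)
    rwa [Matrix.mulVec_single_one]
  have hv_eq : ρ σ₀ *ᵥ Pi.single j 1 = Pi.single j 1 + v := by
    show _ = _ + (ρ σ₀ - 1) *ᵥ Pi.single j 1
    rw [Matrix.sub_mulVec, Matrix.one_mulVec, add_sub_cancel]
  have hvC : v ∈ C := by
    have h := hCI σ₀ hσ₀ (Pi.single j 1)
    rwa [hv_eq, add_sub_cancel_left] at h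
  -- nonvanishing on the socle
  have hnv : ¬ ∀ z, s • z ∈ C := by
    intro hall
    obtain ⟨a, ha⟩ := hfaith (s • v) fun h =>
      hs0 (hvi.mul_left_eq_zero.1 (by simpa using congrFun h i))
    have hker : ∀ z, ψ (s • z) ∈ OrdinaryDatum.x0Kernel hM P hP 1 := fun z => by
      have h1 : phi P (k + 1) (M * 2) (ψ (s • z)) = 0 := by simpa using hall z 1
      let ev' : ℕ → ℤ := Function.update ev 2 ε
      have hev : ∀ q : ℕ, q ≠ 2 → ev' q = ev q := fun q hq => Function.update_of_ne hq _ _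
      have h0 := omegaClass_eq_zero_of_phi_eq_zero (A := P) (K := k + 1) hP hN2 ev' (hK (s • z))
        (fun l hl => by
          rw [hev _ fun h => hl (by rw [h]; exact hN2)]
          exact hgood l hl z)
        (fun q hq => by
          haveI : NeZero (q : ℕ) := ⟨q.2.ne_zero⟩
          by_cases hq2 : (q : ℕ) = 2
          · obtain ⟨q', hq'⟩ := q
            simp only at hq2
            subst hq2
            show heckeT (M * 2) 2 _ = Function.update ev 2 ε 2 • _
            rw [Function.update_self]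
            exact hU _
          · rw [hev _ hq2]
            exact hbad q hq hq2 z)
        hl₀ hl₀N (by rwa [hev _ fun h => hl₀N (by rw [h]; exact hN2)]) h1
      have := mem_kernelGroup_of_omegaClass_eq_zero hM hP (h2s z) (hα _)
        (omegaClass_one_eq_zero hP (h2s z) h0)
      simpa [OrdinaryDatum.x0Kernel] using this
    obtain ⟨O⟩ := OrdinaryDatum.nonempty_funOrder hM P hP 1
    -- the action on the socle
    have hact0 : ∀ σ ∈ P.inertiaSubgroupIn ℚ, σ r = r → ∀ z, σ • ψ (s • z) = ψ (s • z) :=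
      fun σ hσ hσr z => by
        rw [hequiv σ (hI σ hσ), mulVec_smul_eq_of_mem_maximalIdeal hms (hfix σ hσ hσr)]
    have hneg : ∀ σ ∈ P.inertiaSubgroupIn ℚ, σ r = -r → ∀ z,
        σ • ψ (s • z) = σ₀ • ψ (s • z) := fun σ hσ hσr z => by
      have hinv : σ₀⁻¹ r = -r := σ₀.injective (by
        rw [map_neg, hσ₀r, neg_neg]; exact σ₀.apply_symm_apply r)
      have hτr : (σ₀⁻¹ * σ) r = r := by
        rw [AlgEquiv.mul_apply, hσr, map_neg, hinv, neg_neg]
      have h := hact0 _ (mul_mem (inv_mem hσ₀) hσ) hτr z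
      rwa [mul_smul, inv_smul_eq_iff] at h
    let e₀ : JZero (M * 2) := ψ (s • a • Pi.single j 1)
    let d₀ : JZero (M * 2) := ψ (s • a • v)
    have he₁ : σ₀ • e₀ = e₀ + d₀ := by
      show σ₀ • ψ _ = _
      rw [hequiv σ₀ (hI σ₀ hσ₀), Matrix.mulVec_smul, Matrix.mulVec_smul, hv_eq, smul_add, smul_add,
        map_add]
    have hd₁ : σ₀ • d₀ = d₀ := by
      have hsq : (σ₀ * σ₀) r = r := by rw [AlgEquiv.mul_apply, hσ₀r, map_neg, hσ₀r, neg_neg]
      have h := hact0 _ (mul_mem hσ₀ hσ₀) hsq (a • Pi.single j 1)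
      rw [mul_smul, he₁, smul_add, he₁] at h
      have h3 : d₀ + σ₀ • d₀ = 0 := by
        rw [add_assoc] at h
        exact add_eq_left.1 h
      rw [← neg_eq_of_add_eq_zero_right h3]
      exact neg_eq_of_add_eq_zero_right (by rw [← two_nsmul]; exact h2s _)
    have hrsq : ∀ σ : Γℚ, σ r = r ∨ σ r = -r := fun σ =>
      sq_eq_sq_iff_eq_or_eq_neg.1 (by rw [← map_pow, hr, map_intCast])
    have hcoe : ∀ (g : P.inertiaSubgroupIn ℚ) (x : OrdinaryDatum.x0Kernel hM P hP 1),
        ((OrdinaryDatum.kerAct (I := OrdinaryDatum.x0InertialAction hM P hP) (2 ^ 1) g x :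
          OrdinaryDatum.x0Kernel hM P hP 1) : JZero (M * 2))
          = (g : Γℚ) • (x : JZero (M * 2)) := fun g x => by
      rw [OrdinaryDatum.coe_kerAct, galois_smul_pic0_def]
      rfl
    refine false_of_funOrder O two_ne_zero ?_ (fun c hc hcfix => ?_) (r := r) ?_
      (e := ⟨e₀, hker _⟩) (d := ⟨d₀, hker _⟩) ?_ ?_ ?_ ?_ fun g => ?_
    · simpa [ValuationSubring.LiesOverPrime] using hP
    · simpa using AtP.exists_zpow_valuation_eq Nat.prime_two hP hc
        (fun σ hσ => hcfix ⟨σ, hσ⟩)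
    · rw [← map_mul, ← sq, hr, Int.cast_mul, map_mul, valuation_intCast_odd hP hu, mul_one,
        Int.cast_ofNat]
    · exact Subtype.ext (by simpa [two_nsmul] using h2s (a • Pi.single j 1))
    · exact Subtype.ext (by simpa [two_nsmul] using h2s (a • v))
    · refine fun h => ha ?_
      rw [smul_comm]
      exact congrArg Subtype.val h
    · intro g
      refine Subtype.ext ((hcoe g _).trans ?_)
      rcases hrsq g with h | h
      · exact hact0 _ g.2 h _
      · exact (hneg _ g.2 h _).trans hd₁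
    · rcases hrsq g with h | h
      · exact Or.inl ⟨h, Subtype.ext ((hcoe g _).trans (hact0 _ g.2 h _))⟩
      · exact Or.inr ⟨h, Subtype.ext ((hcoe g _).trans ((hneg _ g.2 h _).trans he₁))⟩
  obtain ⟨j', hj'⟩ := exists_ne i
  have hline : ∀ z ∈ C, ∃ c : R, z = c • v := fun z hz => by
    obtain ⟨c, b, rfl⟩ := exists_eq_smul_add_single hj' hvi z
    rcases eq_or_ne b 0 with rfl | hb
    · exact ⟨c, by rw [zero_smul, add_zero]⟩
    refine absurd (fun w => ?_) hnv
    have hbC : b • (Pi.single j' 1 : Fin 2 → R) ∈ C := by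
      simpa using C.sub_mem hz (C.smul_mem c hvC)
    obtain ⟨t, ht⟩ := hsdvd b hb
    obtain ⟨c', b', rfl⟩ := exists_eq_smul_add_single hj' hvi w
    have e : s • (c' • v + b' • (Pi.single j' 1 : Fin 2 → R))
        = (s * c') • v + (b' * t) • b • (Pi.single j' 1 : Fin 2 → R) := by
      rw [ht]
      module
    exact e ▸ C.add_mem (C.smul_mem _ hvC) (C.smul_mem _ hbC)
  refine ⟨v, ⟨i, hvi⟩, fun σ hσ => ?_, fun σ hσ => ?_⟩
  · exact exists_eigen_trace_of_forall_mem_line (ρ σ) 1 ⟨i, hvi⟩ fun z => by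
      rw [one_smul]
      exact hline _ (hCI σ hσ z)
  · exact exists_eigen_trace_of_forall_mem_line (ρ σ) _ ⟨i, hvi⟩ fun z =>
      hline _ (hCF σ hσ z)

end Line

end Fermat.Agent.Residual.Ord2
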