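/-
Residual modularity at three, the sign at a prime of the level: on the part of the torsion of
`J₀(D)` cut out by a newform `g`, the Atkin–Lehner involution `w_q` is `- a_q(g)`.

A Hecke element `t` with `χ_g(t) ≠ 0` and `(w_q + a_q) t = 0` on integral parabolic homomorphisms
exists: otherwise the integral image of `w_q + a_q` has an eigen functional for `χ_g`, which gives
a form in the system of `g` fixed by `a_q w_q`.
-/
import Fermat.Agent.Residual.CountEigen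
import Fermat.Agent.Residual.CountDefs
import Fermat.Agent.NewformRep.Transport
import Fermat.Agent.HeckeCohom.Faithful

set_option autoImplicit false

noncomputable section

namespace Fermat.Agent.Residual

open CongruenceSubgroup ModularCurve ModularFormClass CuspForm
open Fermat.Agent.HeckeCohom
open CMFix (IMat IsAL)

namespace NewformAL

variable {D : ℕ} [NeZero D]

/-- An operator on forms corresponds to the base change of its integral operator. -/
theorem periodHomPair_of_rel {t : Module.End ℂ (CuspForm (Gamma0 D) 2)}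
    {T : Module.End ℤ (ParHom.parEllHoms (Gamma0 D) ℤ ℤ)} (h : Rel t T)
    (x : CuspForm (Gamma0 D) 2 × CuspForm (Gamma0 D) 2)
    (φ : ParHom.parEllHoms (Gamma0 D) ℂ ℂ)
    (hx : periodHomPair D x = (φ : Additive (Gamma0 D) →+ ℂ)) :
    periodHomPair D (t x.1, t x.2) = (extendEnd ℂ ℂ T φ : Additive (Gamma0 D) →+ ℂ) := by
  choose y hy using fun i => exists_periodHomPair_eq_castHom (basisHom D i)
  have hxe : x = ∑ i, (φ : Additive (Gamma0 D) →+ ℂ) (Additive.ofMul (gen D i)) • y i := by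
    apply Periods.periodHomPair_injective D
    rw [map_sum, hx]
    refine (decomp φ.2).trans (Finset.sum_congr rfl fun i _ => ?_)
    rw [map_smul, hy]
    refine AddMonoidHom.ext fun a => ?_
    simp [castHom, mul_comm]
  show periodHomPair D (t.prodMap t x) = _
  conv_lhs => rw [hxe]
  rw [map_sum, map_sum, coe_extendEnd]
  refine Finset.sum_congr rfl fun i _ => ?_
  rw [map_smul, map_smul, LinearMap.prodMap_apply, h _ _ (hy i)]
  refine AddMonoidHom.ext fun a => ?_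
  simp [castHom, mul_comm]

section Pull

variable {d : ℕ} {X Y : IMat}

/-- The pullback by conjugation is the integral form of `f ↦ f ∣ X`. -/
theorem rel_alLin (hX : IsAL D d X) (hd : d ∣ D) (hd0 : d ≠ 0) :
    Rel (alLin hX hd hd0) (hX.pull hd hd0 ℤ) := by
  intro x φ h
  rw [periodHomPair_alLin, h]
  rfl

theorem pull_int_eq (hX : IsAL D d X) (hY : IsAL D d Y) (hd : d ∣ D) (hd0 : d ≠ 0) :
    hX.pull hd hd0 ℤ = hY.pull hd hd0 ℤ :=
  (alLin_eq hX hY hd hd0 ▸ rel_alLin hX hd hd0).unique (rel_alLin hY hd hd0)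

theorem pull_int_mul_self (hX : IsAL D d X) (hd : d ∣ D) (hd0 : d ≠ 0) :
    hX.pull hd hd0 ℤ * hX.pull hd hd0 ℤ = 1 := by
  have h1 : alLin hX hd hd0 * alLin hX hd hd0 = 1 :=
    LinearMap.ext fun f => alLin_alLin hX hd hd0 f
  exact (h1 ▸ (rel_alLin hX hd hd0).mul (rel_alLin hX hd hd0)).unique fun _ _ h => h

/-- Base change of the pullback is the pullback. -/
theorem extendEnd_pull (hX : IsAL D d X) (hd : d ∣ D) (hd0 : d ≠ 0) (A : Type*) [AddCommGroup A] :
    extendEnd ℤ A (hX.pull hd hd0 ℤ) = hX.pull hd hd0 A := by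
  refine LinearMap.ext fun φ => Subtype.ext ?_
  show _ = (φ : Additive (Gamma0 D) →+ A).comp (MonoidHom.toAdditive (hX.conj hd hd0))
  conv_rhs => rw [decomp φ.2]
  rw [coe_extendEnd]
  refine AddMonoidHom.ext fun a => ?_
  simp only [AddMonoidHom.finsetSum_apply, AddMonoidHom.comp_apply]
  rfl

/-- The pullback by `w_q`, `q` prime, commutes with the good Hecke operators. -/
theorem pull_int_commute (hD : Squarefree D) (hX : IsAL D d X) (hd : d ∣ D) (hd0 : d ≠ 0)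
    {S : Set ℕ} (hDS : ∀ r : ℕ, r.Prime → r ∣ D → r ∈ S) (t : CuspForm.heckeAlgebra D 2 S)
    (t' : CuspForm.heckeAlgebra D 2 (∅ : Set ℕ))
    (ht : (t' : Module.End ℂ (CuspForm (Gamma0 D) 2)) = t) :
    Commute (hX.pull hd hd0 ℤ) (heckeActZ D t') := by
  have hc : Commute (alLin hX hd hd0) (t' : Module.End ℂ (CuspForm (Gamma0 D) 2)) := by
    rw [ht]
    clear ht t'
    obtain ⟨t, hmem⟩ := t
    induction hmem using Algebra.adjoin_induction with
    | mem u hu =>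
      rcases hu with ⟨ℓ, hℓ, hℓN, -, rfl⟩ | ⟨r, hrN, hr, hrS, rfl⟩
      · exact LinearMap.ext fun f => (alLin_heckeT hD hX hd hd0 hℓ hℓN f).symm
      · exact absurd (hDS r hr hrN) hrS
    | algebraMap n => exact Algebra.commute_algebraMap_right _ _
    | add u v _ _ hu hv => exact hu.add_right hv
    | mul u v _ _ hu hv => exact hu.mul_right hv
  exact (hc.eq ▸ (rel_alLin hX hd hd0).mul (rel_heckeActZ D t')).unique
    ((rel_heckeActZ D t').mul (rel_alLin hX hd hd0))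

end Pull

/-- A commutative ring acting on a finite group has a `χ`-functional factoring through `E`, unless
an element outside the kernel of `χ` is killed by `E`. -/
theorem exists_functional_through {T₀ M : Type*} [CommRing T₀] [AddCommGroup M]
    [Module.Finite ℤ M] (f : T₀ →+* Module.End ℤ M) (E : Module.End ℤ M)
    (hE : ∀ t, Commute E (f t)) (χ : T₀ →+* ℂ) (h : ∀ t, E * f t = 0 → χ t = 0) :
    ∃ Ψ : M →+ ℂ, Ψ ≠ 0 ∧ (∀ t y, Ψ (f t y) = χ t * Ψ y) ∧
      ∀ (Z : Module.End ℤ M) (c : ℤ), E * Z = c • E → ∀ y, Ψ (Z y) = (c : ℂ) * Ψ y := by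
  letI : Module T₀ M := Module.compHom M f
  haveI : Module.Finite T₀ M := Module.Finite.of_restrictScalars_finite ℤ _ _
  let Ed : M →ₗ[T₀] M :=
    { toFun := E
      map_add' := map_add E
      map_smul' := fun t y => by
        show E (f t y) = f t (E y)
        rw [← Module.End.mul_apply, (hE t).eq, Module.End.mul_apply] }
  obtain ⟨ψ, hψ, hψt⟩ := exists_eigen_functional (M := LinearMap.range Ed) χ fun t ht => by
    refine RingHom.mem_ker.mpr (h t (LinearMap.ext fun e => ?_))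
    rw [(hE t).eq]
    exact congrArg Subtype.val (Module.mem_annihilator.mp ht ⟨E e, e, rfl⟩)
  refine ⟨ψ.comp Ed.rangeRestrict.toAddMonoidHom, fun h0 => hψ (AddMonoidHom.ext fun y => ?_),
    fun t y => ?_, fun Z c hZ y => ?_⟩
  · obtain ⟨z, rfl⟩ := Ed.surjective_rangeRestrict y
    exact DFunLike.congr_fun h0 z
  · show ψ (Ed.rangeRestrict (t • y)) = χ t * ψ (Ed.rangeRestrict y)
    rw [map_smul, hψt]
  · have e1 : Ed.rangeRestrict (Z y) = c • Ed.rangeRestrict y :=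
      Subtype.ext (LinearMap.congr_fun hZ y)
    show ψ (Ed.rangeRestrict (Z y)) = (c : ℂ) * ψ (Ed.rangeRestrict y)
    rw [e1, map_zsmul, zsmul_eq_mul]

/-- An element of a commutative ring of endomorphisms of the integral homomorphisms not in the
kernel of `χ` kills `E`, unless `χ` has an eigenvector in the image of the transpose of `E`. -/
theorem exists_eigen_of_forall {T₀ : Type*} [CommRing T₀]
    (f : T₀ →+* Module.End ℤ (ParHom.parEllHoms (Gamma0 D) ℤ ℤ))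
    (E : Module.End ℤ (ParHom.parEllHoms (Gamma0 D) ℤ ℤ)) (hE : ∀ t, Commute E (f t))
    (χ : T₀ →+* ℂ) (h : ∀ t, E * f t = 0 → χ t = 0) :
    ∃ φ : ParHom.parEllHoms (Gamma0 D) ℂ ℂ, φ ≠ 0 ∧
      (∀ t, extendEnd ℂ ℂ (f t) φ = χ t • φ) ∧
      ∀ (Z : Module.End ℤ (ParHom.parEllHoms (Gamma0 D) ℤ ℤ)) (c : ℤ),
        Z * E = c • E → extendEnd ℂ ℂ Z φ = (c : ℂ) • φ := by
  haveI := parEllHoms_int_finite D
  haveI : Module.Free ℤ (ParHom.parEllHoms (Gamma0 D) ℤ ℤ) :=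
    Module.Free.of_equiv (ParHom.parEquiv (ParHom.neg_one_mem_Gamma0 D) ℤ ℤ).symm
  let dual : T₀ →+* Module.End ℤ (Module.Dual ℤ (ParHom.parEllHoms (Gamma0 D) ℤ ℤ)) :=
    { toFun := fun t => (f t).dualMap
      map_one' := by rw [map_one]; rfl
      map_mul' := fun t s => by rw [mul_comm t s, map_mul]; rfl
      map_zero' := LinearMap.ext fun _ => LinearMap.ext fun _ => by simp
      map_add' := fun t s => LinearMap.ext fun _ => LinearMap.ext fun _ => by simp }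
  obtain ⟨Ψ, hΨ, hΨt, hΨZ⟩ := exists_functional_through dual E.dualMap
    (fun t => LinearMap.ext fun y => LinearMap.ext fun e =>
      congrArg y (LinearMap.congr_fun (hE t).eq.symm e)) χ fun t ht => by
    refine h t (LinearMap.ext fun e => ?_)
    have hz : ∀ i, ((E * f t) e : Additive (Gamma0 D) →+ ℤ) (Additive.ofMul (gen D i)) = 0 :=
      fun i => by
        rw [(hE t).eq]
        exact LinearMap.congr_fun (LinearMap.congr_fun ht (coordForm i)) e
    rw [decomp_int ((E * f t) e)]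
    simp only [hz, zero_smul, Finset.sum_const_zero]
    rfl
  let φ : ParHom.parEllHoms (Gamma0 D) ℂ ℂ :=
    (ParHom.parEquiv (ParHom.neg_one_mem_Gamma0 D) ℂ ℂ).symm fun i => Ψ (coordForm i)
  have hφ : ∀ i, (φ : Additive (Gamma0 D) →+ ℂ) (Additive.ofMul (gen D i)) = Ψ (coordForm i) :=
    fun i => congrFun ((ParHom.parEquiv (ParHom.neg_one_mem_Gamma0 D) ℂ ℂ).apply_symm_apply _) i
  have key : ∀ (Z : Module.End ℤ (ParHom.parEllHoms (Gamma0 D) ℤ ℤ)) (c : ℂ),
      (∀ y, Ψ (Z.dualMap y) = c * Ψ y) → extendEnd ℂ ℂ Z φ = c • φ := by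
    intro Z c hZ
    apply (ParHom.parEquiv (ParHom.neg_one_mem_Gamma0 D) ℂ ℂ).injective
    funext j
    show (extendEnd ℂ ℂ Z φ : Additive (Gamma0 D) →+ ℂ) (Additive.ofMul (gen D j))
      = c * (φ : Additive (Gamma0 D) →+ ℂ) (Additive.ofMul (gen D j))
    rw [hφ, ← hZ (coordForm j), coe_extendEnd, AddMonoidHom.finsetSum_apply,
      dual_decomp (Z.dualMap (coordForm j)), map_sum]
    refine Finset.sum_congr rfl fun i _ => ?_
    rw [AddMonoidHom.comp_apply, zmultiplesHom_apply, hφ, map_zsmul]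
    rfl
  refine ⟨φ, fun h0 => hΨ (AddMonoidHom.ext fun z => ?_), fun t => key _ _ (hΨt t),
    fun Z c hZ => key _ _ (hΨZ Z.dualMap c ?_)⟩
  · have hv : ∀ i, Ψ (coordForm i) = 0 := fun i => by rw [← hφ, h0]; rfl
    rw [dual_decomp z, map_sum]
    exact Finset.sum_eq_zero fun i _ => by rw [map_zsmul, hv i, smul_zero]
  · refine LinearMap.ext fun y => LinearMap.ext fun e => ?_
    show y ((Z * E) e) = c • y (E e)
    rw [hZ, LinearMap.smul_apply, map_zsmul]

variable {g : CuspForm (Gamma0 D) 2}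

/-- The eigenvalue at a prime exactly dividing the level is a sign. -/
theorem exists_int_sign (hD : Squarefree D) (hg : g.IsNewform) {q : ℕ} (hq : q.Prime)
    (hqD : q ∣ D) : ∃ a : ℤ, (a : ℂ) = qCoeff g q ∧ (a = 1 ∨ a = -1) := by
  rcases sq_eq_one_iff.mp (Fermat.Agent.Newform.qCoeff_sq_eq_one_of_not_sq_dvd hg hq hqD
    (not_sq_dvd_of_squarefree hD dvd_rfl hq)) with h | h
  · exact ⟨1, by simp [h], Or.inl rfl⟩
  · exact ⟨-1, by simp [h], Or.inr rfl⟩

/-- A form in the system of `g` on which `w_q` is `a_q(g)` vanishes. -/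
theorem eq_zero_of_sign (hD : Squarefree D) (hg : g.IsNewform) {q : ℕ} (hq : q.Prime)
    (hqD : q ∣ D) {a : ℤ} (ha : (a : ℂ) = qCoeff g q) {S : Finset ℕ} {X : IMat}
    (hX : IsAL D q X) {y : CuspForm (Gamma0 D) 2}
    (hy : ∀ (ℓ : ℕ) (hℓ : ℓ.Prime) (hℓD : ¬ ℓ ∣ D), ℓ ∉ S →
      CuspForm.heckeTLin 2 hℓ hℓD y = qCoeff g ℓ • y)
    (hwy : alLin hX hqD hq.ne_zero y = (a : ℂ) • y) : y = 0 := by
  classical
  set R := D * ∏ p ∈ S, (if p = 0 then 1 else p) with hR
  haveI : NeZero R := ⟨mul_ne_zero (NeZero.ne D)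
    (Finset.prod_ne_zero_iff.mpr fun p _ => by split_ifs with h <;> simp [h])⟩
  have hDR : D ∣ R := Dvd.intro _ rfl
  have hyR : y ∈ sysSpace D R hDR (qCoeff g) := (mem_sysSpace_iff hDR _ y).mpr fun ℓ hℓ hℓR =>
    hy ℓ hℓ _ fun h => hℓR (by
      have h1 : (if ℓ = 0 then 1 else ℓ) ∣ ∏ p ∈ S, (if p = 0 then 1 else p) :=
        Finset.dvd_prod_of_mem (fun p => if p = 0 then 1 else p) h
      rw [if_neg hℓ.ne_zero] at h1
      exact hR ▸ dvd_mul_of_dvd_right h1 D)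
  rw [sysSpace_eq hDR dvd_rfl hg.1] at hyR
  have h := alOp_new hD dvd_rfl hg hq hqD hyR
  rw [alOp_eq hX hqD hq.ne_zero, hwy, ← ha] at h
  have h2 : ((2 : ℂ) * a) • y = 0 := by
    rw [mul_smul, two_smul]
    nth_rewrite 2 [h]
    rw [neg_smul, add_neg_cancel]
  refine (smul_eq_zero.mp h2).resolve_left (mul_ne_zero two_ne_zero ?_)
  have hsq := Fermat.Agent.Newform.qCoeff_sq_eq_one_of_not_sq_dvd hg hq hqD
    (not_sq_dvd_of_squarefree hD dvd_rfl hq)
  intro h0
  rw [← ha, h0] at hsq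
  norm_num at hsq

/-- The inclusion in the full Hecke algebra. -/
def inclFull (S : Set ℕ) :
    CuspForm.heckeAlgebra D 2 S →+* CuspForm.heckeAlgebra D 2 (∅ : Set ℕ) :=
  (Subalgebra.inclusion (CuspForm.heckeAlgebra_mono (Set.empty_subset S))).toRingHom

theorem coe_inclFull (S : Set ℕ) (t : CuspForm.heckeAlgebra D 2 S) :
    (inclFull S t : Module.End ℂ (CuspForm (Gamma0 D) 2)) = t :=
  Subalgebra.coe_inclusion (CuspForm.heckeAlgebra_mono (Set.empty_subset S)) t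

theorem goodEvalFull_eq (S : Set ℕ) (hDS : ∀ r : ℕ, r.Prime → r ∣ D → r ∈ S)
    (t : NewformRep.GoodPoly S) :
    NewformRep.goodEvalFull D hDS t = inclFull S (NewformRep.goodEval D hDS t) := rfl

/-- An eigenvector of period homomorphisms gives eigen forms. -/
theorem eigen_of_periods {t : Module.End ℂ (CuspForm (Gamma0 D) 2)}
    {T : Module.End ℤ (ParHom.parEllHoms (Gamma0 D) ℤ ℤ)} (h : Rel t T) {c : ℂ}
    (x : CuspForm (Gamma0 D) 2 × CuspForm (Gamma0 D) 2) {φ : ParHom.parEllHoms (Gamma0 D) ℂ ℂ}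
    (hx : periodHomPair D x = (φ : Additive (Gamma0 D) →+ ℂ))
    (hφ : extendEnd ℂ ℂ T φ = c • φ) : t x.1 = c • x.1 ∧ t x.2 = c • x.2 := by
  have h1 := periodHomPair_of_rel h x φ hx
  rw [hφ, SetLike.val_smul, ← hx, ← map_smul] at h1
  exact Prod.ext_iff.mp (Periods.periodHomPair_injective D h1)

/-- A good Hecke element not killing `g` and killed by `w_q + a_q(g)` on integral homomorphisms. -/
theorem exists_mul_eq_zero (hD : Squarefree D) (hg : g.IsNewform) {q : ℕ} (hq : q.Prime)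
    (hqD : q ∣ D) {a : ℤ} (ha : (a : ℂ) = qCoeff g q) {S : Finset ℕ}
    (hDS : ∀ r : ℕ, r.Prime → r ∣ D → r ∈ (↑S : Set ℕ))
    {chig : CuspForm.heckeAlgebra D 2 (↑S : Set ℕ) →+* ℂ}
    (hchig : ∀ (ℓ : ℕ) (hℓ : ℓ.Prime) (hℓD : ¬ ℓ ∣ D) (hℓS : ℓ ∉ (↑S : Set ℕ)),
      chig (CuspForm.heckeAlgebra.T hℓ hℓD hℓS) = qCoeff g ℓ)
    {X : IMat} (hX : IsAL D q X) :
    ∃ τ, chig τ ≠ 0 ∧ (hX.pull hqD hq.ne_zero ℤ + a • 1) * heckeActZ D (inclFull _ τ) = 0 := by
  by_contra hcon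
  set P := hX.pull hqD hq.ne_zero ℤ with hP
  set f := (heckeActZ D).toRingHom.comp (inclFull (D := D) (↑S : Set ℕ)) with hf
  have hE : ∀ t, Commute (P + a • 1) (f t) := fun t =>
    (pull_int_commute hD hX hqD hq.ne_zero hDS t (inclFull _ t) (coe_inclFull _ t)).add_left
      ((Commute.one_left _).smul_left a)
  obtain ⟨φ, hφ0, hφt, hφZ⟩ := exists_eigen_of_forall f (P + a • 1) hE chig fun t ht => by
    by_contra h
    exact hcon ⟨t, h, ht⟩
  obtain ⟨x, hx⟩ := (range_periodHomPair D).ge (ParHom.mem_parEllHoms.mp φ.2).isParabolicHom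
  have hsq : a * a = 1 := by
    have h := Fermat.Agent.Newform.qCoeff_sq_eq_one_of_not_sq_dvd hg hq hqD
      (not_sq_dvd_of_squarefree hD dvd_rfl hq)
    rw [← ha, sq] at h
    exact_mod_cast h
  have hPE : P * (P + a • 1) = a • (P + a • 1) := by
    rw [mul_add, hP, pull_int_mul_self, mul_smul_comm, mul_one, smul_add, smul_smul, hsq, one_smul,
      add_comm]
  have hW := eigen_of_periods (rel_alLin hX hqD hq.ne_zero) x hx (hφZ P a hPE)
  have hT : ∀ (ℓ : ℕ) (hℓ : ℓ.Prime) (hℓD : ¬ ℓ ∣ D), ℓ ∉ S →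
      CuspForm.heckeTLin 2 hℓ hℓD x.1 = qCoeff g ℓ • x.1 ∧
      CuspForm.heckeTLin 2 hℓ hℓD x.2 = qCoeff g ℓ • x.2 := fun ℓ hℓ hℓD hℓS => by
    have hℓS' : ℓ ∉ (↑S : Set ℕ) := by simpa using hℓS
    rw [← hchig ℓ hℓ hℓD hℓS']
    exact eigen_of_periods (rel_heckeActZ D (inclFull _ (CuspForm.heckeAlgebra.T hℓ hℓD hℓS'))) x hx
      (hφt _)
  refine hφ0 (Subtype.ext (hx.symm.trans ?_))
  rw [show x = 0 from Prod.ext
    (eq_zero_of_sign hD hg hq hqD ha hX (fun ℓ hℓ hℓD hℓS => (hT ℓ hℓ hℓD hℓS).1) hW.1)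
    (eq_zero_of_sign hD hg hq hqD ha hX (fun ℓ hℓ hℓD hℓS => (hT ℓ hℓ hℓD hℓS).2) hW.2), map_zero]
  rfl

/-- The relation passes to every module of coefficients. -/
theorem pull_apply_of_mul_eq_zero {d : ℕ} {X Y : IMat} (hX : IsAL D d X) (hY : IsAL D d Y)
    (hd : d ∣ D) (hd0 : d ≠ 0) (a : ℤ) (u : CuspForm.heckeAlgebra D 2 (∅ : Set ℕ))
    (h : (hX.pull hd hd0 ℤ + a • 1) * heckeActZ D u = 0) (A : Type) [AddCommGroup A]
    (φ : ParHom.parEllHoms (Gamma0 D) ℤ A) :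
    hY.pull hd hd0 A (heckeAct D ℤ A u φ) = -(a • heckeAct D ℤ A u φ) := by
  have h1 := congrArg (extendHom (N := D) ℤ A) h
  rw [map_mul, map_zero, map_add, map_zsmul, map_one, pull_int_eq hX hY hd hd0] at h1
  have h2 : extendHom (N := D) ℤ A (hY.pull hd hd0 ℤ) = hY.pull hd hd0 A :=
    extendEnd_pull hY hd hd0 A
  rw [h2] at h1
  exact eq_neg_of_add_eq_zero_left (LinearMap.congr_fun h1 φ)

/-- A good Hecke element not killing `g` after which `w_q = - a_q(g)` on every module of parabolic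
homomorphisms. -/
theorem exists_goodPoly_pull (hD : Squarefree D) (hg : g.IsNewform) {q : ℕ} (hq : q.Prime)
    (hqD : q ∣ D) (a : ℤ) (ha : (a : ℂ) = qCoeff g q) (S : Finset ℕ)
    (hDS : ∀ r : ℕ, r.Prime → r ∣ D → r ∈ (↑S : Set ℕ))
    (chig : CuspForm.heckeAlgebra D 2 (↑S : Set ℕ) →+* ℂ)
    (hchig : ∀ (ℓ : ℕ) (hℓ : ℓ.Prime) (hℓD : ¬ ℓ ∣ D) (hℓS : ℓ ∉ (↑S : Set ℕ)),
      chig (CuspForm.heckeAlgebra.T hℓ hℓD hℓS) = qCoeff g ℓ) :
    ∃ t : NewformRep.GoodPoly (↑S : Set ℕ), chig (NewformRep.goodEval D hDS t) ≠ 0 ∧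
      ∀ (A : Type) [AddCommGroup A] (X : IMat) (hX : IsAL D q X) (hd : q ∣ D) (hd0 : q ≠ 0)
        (φ : ParHom.parEllHoms (Gamma0 D) ℤ A),
        hX.pull hd hd0 A (heckeAct D ℤ A (NewformRep.goodEvalFull D hDS t) φ)
          = -(a • heckeAct D ℤ A (NewformRep.goodEvalFull D hDS t) φ) := by
  obtain ⟨X₀, hX₀⟩ := exists_isAL hqD (coprime_div_of_squarefree hD hqD)
  obtain ⟨τ, hτ0, hτ⟩ := exists_mul_eq_zero hD hg hq hqD ha hDS hchig hX₀
  obtain ⟨t, rfl⟩ := NewformRep.goodEval_surjective D hDS τ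
  refine ⟨t, hτ0, fun A _ X hX hd hd0 φ => ?_⟩
  rw [goodEvalFull_eq]
  exact pull_apply_of_mul_eq_zero hX₀ hX hd hd0 a _ hτ A φ

/-- A relation on parabolic homomorphisms gives the relation on torsion. -/
theorem apply_torsionEquiv {d : ℕ} {X : IMat} (hX : IsAL D d X) (hd : d ∣ D) (hd0 : d ≠ 0)
    (w : JZero D →+ JZero D) (n : ℕ) [NeZero n]
    (hw : ∀ φ : Torsion.CharMod D n, w (Torsion.torsionEquiv D n φ : JZero D)
      = (Torsion.torsionEquiv D n (hX.pull hd hd0 (ZMod n) φ) : JZero D))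
    (a : ℤ) (ψ : Torsion.CharMod D n) (hψ : hX.pull hd hd0 (ZMod n) ψ = -(a • ψ)) :
    w (Torsion.torsionEquiv D n ψ : JZero D)
      = -(a • (Torsion.torsionEquiv D n ψ : JZero D)) := by
  rw [hw, hψ, map_neg (Torsion.torsionEquiv D n), AddSubgroup.coe_neg,
    map_zsmul (Torsion.torsionEquiv D n), AddSubgroup.coe_zsmul]

/-- On torsion, after a good Hecke element not killing `g`, the Atkin–Lehner involution at `q` is
`- a_q(g)`. -/
theorem exists_goodPoly_isALAction (hD : Squarefree D) (hg : g.IsNewform) {q : ℕ} (hq : q.Prime)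
    (hqD : q ∣ D) (a : ℤ) (ha : (a : ℂ) = qCoeff g q) (S : Finset ℕ)
    (hDS : ∀ r : ℕ, r.Prime → r ∣ D → r ∈ (↑S : Set ℕ))
    (chig : CuspForm.heckeAlgebra D 2 (↑S : Set ℕ) →+* ℂ)
    (hchig : ∀ (ℓ : ℕ) (hℓ : ℓ.Prime) (hℓD : ¬ ℓ ∣ D) (hℓS : ℓ ∉ (↑S : Set ℕ)),
      chig (CuspForm.heckeAlgebra.T hℓ hℓD hℓS) = qCoeff g ℓ) :
    ∃ t : NewformRep.GoodPoly (↑S : Set ℕ), chig (NewformRep.goodEval D hDS t) ≠ 0 ∧
      ∀ w : JZero D →+ JZero D, IsALAction D q w → ∀ (n : ℕ) [NeZero n] (x : Torsion.jTorsion D n),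
        w (Torsion.heckeRep D n (NewformRep.goodEvalFull D hDS t) x : JZero D)
          = -(a • (Torsion.heckeRep D n (NewformRep.goodEvalFull D hDS t) x : JZero D)) := by
  obtain ⟨t, ht0, ht⟩ := exists_goodPoly_pull hD hg hq hqD a ha S hDS chig hchig
  refine ⟨t, ht0, fun w ⟨X, hX, hd, hd0, hw⟩ n _ x => ?_⟩
  obtain ⟨φ, rfl⟩ := (Torsion.torsionEquiv D n).surjective x
  rw [Torsion.heckeRep_torsionEquiv]
  exact apply_torsionEquiv hX hd hd0 w n (hw n) a _ (ht (ZMod n) X hX hd hd0 φ)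

/-- The torsion point with the given coordinates. -/
def torsPt {p : ℕ} [Fact p.Prime] (F : GaloisAdic.TorsionFrame D p) (n : ℕ)
    (v : Fin F.H.r → ZMod (p ^ n)) : Torsion.jTorsion D (p ^ n) :=
  ⟨F.e n v, Torsion.mem_jTorsion.2 (((F.isTorsionIso n).mem_range_iff _).1 ⟨v, rfl⟩)⟩

theorem coe_torsPt {p : ℕ} [Fact p.Prime] (F : GaloisAdic.TorsionFrame D p) (n : ℕ)
    (v : Fin F.H.r → ZMod (p ^ n)) : (torsPt F n v : JZero D) = F.e n v := rfl

theorem heckeRep_heckeGenAt (n : ℕ) [NeZero n] (ℓ : Nat.Primes) :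
    Torsion.heckeRep D n (GaloisAdic.heckeGenAt D ℓ) = Torsion.heckeTors D n ℓ := by
  unfold GaloisAdic.heckeGenAt
  split_ifs with hℓ
  · exact Torsion.heckeRep_U D _ ℓ.2 hℓ
  · exact Torsion.heckeRep_T D _ ℓ.2 hℓ

/-- `torsPt` as a homomorphism. -/
def torsHom {p : ℕ} [Fact p.Prime] (F : GaloisAdic.TorsionFrame D p) (n : ℕ) :
    (Fin F.H.r → ZMod (p ^ n)) →+ Torsion.jTorsion D (p ^ n) :=
  AddMonoidHom.mk' (torsPt F n) fun u v => Subtype.ext (map_add (F.e n) u v)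

section Transfer

variable {R ι κ G : Type*} [NonAssocSemiring R] [CommRing κ] [Fintype ι] [DecidableEq ι]
  [AddCommGroup G] (f : R →+* Matrix ι ι κ) (g : R →+* AddMonoid.End G) (e : (ι → κ) →+ G)

theorem transfer_add (s u : R) (hs : ∀ v, e ((f s).mulVec v) = g s (e v))
    (hu : ∀ v, e ((f u).mulVec v) = g u (e v)) (v : ι → κ) :
    e ((f (s + u)).mulVec v) = g (s + u) (e v) := by
  rw [map_add f, map_add g, Matrix.add_mulVec, map_add e, hs v, hu v]
  rfl

theorem transfer_mul (s u : R) (hs : ∀ v, e ((f s).mulVec v) = g s (e v))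
    (hu : ∀ v, e ((f u).mulVec v) = g u (e v)) (v : ι → κ) :
    e ((f (s * u)).mulVec v) = g (s * u) (e v) := by
  rw [map_mul f, map_mul g, ← Matrix.mulVec_mulVec, hs, hu v]
  rfl

end Transfer

/-- In a torsion frame the Hecke matrices act as `heckeRep`. -/
theorem torsPt_heckeMod {p : ℕ} [Fact p.Prime] (F : GaloisAdic.TorsionFrame D p) (n : ℕ)
    [NeZero (p ^ n)] (t : CuspForm.heckeAlgebra D 2 (∅ : Set ℕ))
    (v : Fin F.H.r → ZMod (p ^ n)) :
    torsPt F n ((NewformRep.heckeMod F n t).mulVec v)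
      = Torsion.heckeRep D (p ^ n) t (torsPt F n v) := by
  induction t using GaloisAdic.TorsionFrame.heckeAlgebra_induction generalizing v with
  | hgen ℓ =>
    refine Subtype.ext ?_
    rw [heckeRep_heckeGenAt, Torsion.coe_heckeTors, coe_torsPt, coe_torsPt,
      NewformRep.e_heckeMod_gen]
  | hint c =>
    refine Subtype.ext ?_
    rw [eq_intCast, map_intCast, map_intCast, Matrix.intCast_mulVec,
      show ((c : ZMod (p ^ n)) • v) = c • v from Int.cast_smul_eq_zsmul _ c v, coe_torsPt, map_zsmul,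
      AddMonoid.End.intCast_apply, AddSubgroup.coe_zsmul, coe_torsPt]
  | hadd s u hs hu =>
    exact transfer_add (NewformRep.heckeMod F n) (Torsion.heckeRep D (p ^ n)) (torsHom F n) s u
      hs hu v
  | hmul s u hs hu =>
    exact transfer_mul (NewformRep.heckeMod F n) (Torsion.heckeRep D (p ^ n)) (torsHom F n) s u
      hs hu v

/-- The frame form of `exists_goodPoly_isALAction`. -/
theorem exists_goodPoly_frame (hD : Squarefree D) (hg : g.IsNewform) {q : ℕ} (hq : q.Prime)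
    (hqD : q ∣ D) (a : ℤ) (ha : (a : ℂ) = qCoeff g q) (S : Finset ℕ)
    (hDS : ∀ r : ℕ, r.Prime → r ∣ D → r ∈ (↑S : Set ℕ))
    (chig : CuspForm.heckeAlgebra D 2 (↑S : Set ℕ) →+* ℂ)
    (hchig : ∀ (ℓ : ℕ) (hℓ : ℓ.Prime) (hℓD : ¬ ℓ ∣ D) (hℓS : ℓ ∉ (↑S : Set ℕ)),
      chig (CuspForm.heckeAlgebra.T hℓ hℓD hℓS) = qCoeff g ℓ) :
    ∃ t : NewformRep.GoodPoly (↑S : Set ℕ), chig (NewformRep.goodEval D hDS t) ≠ 0 ∧
      ∀ w : JZero D →+ JZero D, IsALAction D q w →
        ∀ (p : ℕ) [Fact p.Prime] (F : GaloisAdic.TorsionFrame D p) (n : ℕ)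
          (v : Fin F.H.r → ZMod (p ^ n)),
          w (F.e n ((NewformRep.heckeMod F n (NewformRep.goodEvalFull D hDS t)).mulVec v))
            = -(a • F.e n ((NewformRep.heckeMod F n (NewformRep.goodEvalFull D hDS t)).mulVec v)) := by
  obtain ⟨t, ht0, ht⟩ := exists_goodPoly_isALAction hD hg hq hqD a ha S hDS chig hchig
  refine ⟨t, ht0, fun w hw p _ F n v => ?_⟩
  haveI : NeZero (p ^ n) := ⟨pow_ne_zero _ (Fact.out (p := p.Prime)).ne_zero⟩
  rw [← coe_torsPt F n (_ : Fin F.H.r → ZMod (p ^ n)), torsPt_heckeMod]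
  exact ht w hw (p ^ n) _

end NewformAL

end Fermat.Agent.Residual

end
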