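/-
Residual modularity at three: torsion points of `J₀(N)` cut out by a character of the coefficient
ring of an eigenvector of a torsion frame.
-/
import Fermat.Agent.GaloisAdic.Main
import Fermat.Agent.NewformRep.Transport
import Mathlib.Algebra.Module.CharacterModule
import Mathlib.Topology.Instances.AddCircle.Defs

set_option autoImplicit false

noncomputable section

open scoped Matrix
open ModularCurve

namespace Fermat.Agent.Residual.PatternTwo

open GaloisAdic

local notation "Qbar" => AlgebraicClosure ℚ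
local notation "Γℚ" => (AlgebraicClosure ℚ ≃ₐ[ℚ] AlgebraicClosure ℚ)

variable {p : ℕ} [Fact p.Prime]

/-- The integers in `ℚ/ℤ`, scaled by `p⁻ⁿ`. -/
def divPow (p n : ℕ) : ℤ →+ AddCircle (1 : ℚ) :=
  zmultiplesHom (AddCircle (1 : ℚ)) ((((p : ℚ) ^ n)⁻¹ : ℚ) : AddCircle (1 : ℚ))

theorem divPow_apply (n : ℕ) (k : ℤ) :
    divPow p n k = (((k : ℚ) * ((p : ℚ) ^ n)⁻¹ : ℚ) : AddCircle (1 : ℚ)) := by
  rw [divPow, zmultiplesHom_apply, ← AddCircle.coe_zsmul, zsmul_eq_mul]

theorem divPow_eq_zero_iff (n : ℕ) (k : ℤ) : divPow p n k = 0 ↔ ((p ^ n : ℕ) : ℤ) ∣ k := by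
  have hp : ((p : ℚ) ^ n) ≠ 0 := pow_ne_zero _ (Nat.cast_ne_zero.2 (Fact.out (p := p.Prime)).ne_zero)
  rw [divPow_apply, AddCircle.coe_eq_zero_iff]
  constructor
  · rintro ⟨m, hm⟩
    refine ⟨m, ?_⟩
    rw [zsmul_one, eq_mul_inv_iff_mul_eq₀ hp] at hm
    apply (Int.cast_injective (α := ℚ))
    push_cast
    rw [← hm]
    ring
  · rintro ⟨m, rfl⟩
    refine ⟨m, ?_⟩
    rw [zsmul_one]
    push_cast
    field_simp

/-- The embedding of `ℤ/pⁿ` in `ℚ/ℤ`. -/
def toCircle (p : ℕ) [Fact p.Prime] (n : ℕ) : ZMod (p ^ n) →+ AddCircle (1 : ℚ) :=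
  ZMod.lift (p ^ n) ⟨divPow p n, (divPow_eq_zero_iff n _).2 dvd_rfl⟩

theorem toCircle_intCast (n : ℕ) (k : ℤ) : toCircle p n (k : ZMod (p ^ n)) = divPow p n k :=
  ZMod.lift_coe _ _ k

theorem toCircle_injective (n : ℕ) : Function.Injective (toCircle p n) := by
  refine (injective_iff_map_eq_zero _).2 fun a ha => ?_
  obtain ⟨k, rfl⟩ := ZMod.intCast_surjective a
  rw [toCircle_intCast, divPow_eq_zero_iff] at ha
  exact (ZMod.intCast_zmod_eq_zero_iff_dvd k _).2 ha

theorem exists_toCircle_eq {n : ℕ} {x : AddCircle (1 : ℚ)} (hx : (p ^ n : ℕ) • x = 0) :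
    ∃ a, toCircle p n a = x := by
  induction x using QuotientAddGroup.induction_on with
  | H q =>
    obtain ⟨m, hm⟩ := (AddCircle.coe_eq_zero_iff (1 : ℚ)).1
      ((AddCircle.coe_nsmul (p := (1 : ℚ))).trans hx)
    refine ⟨(m : ZMod (p ^ n)), ?_⟩
    rw [toCircle_intCast, divPow_apply]
    have hp : ((p : ℚ) ^ n) ≠ 0 :=
      pow_ne_zero _ (Nat.cast_ne_zero.2 (Fact.out (p := p.Prime)).ne_zero)
    rw [zsmul_one, nsmul_eq_mul] at hm
    push_cast at hm
    rw [hm]
    congr 1
    field_simp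

/-- Multiplying by a power of `p` is reduction. -/
theorem pow_nsmul_toCircle (n k : ℕ) (a : ZMod (p ^ (n + k))) :
    (p ^ k : ℕ) • toCircle p (n + k) a =
      toCircle p n (ZMod.castHom (pow_dvd_pow p (n.le_add_right k)) (ZMod (p ^ n)) a) := by
  obtain ⟨j, rfl⟩ := ZMod.intCast_surjective a
  rw [toCircle_intCast, map_intCast, toCircle_intCast, ← map_nsmul, divPow_apply, divPow_apply]
  congr 1
  have hp : (p : ℚ) ≠ 0 := Nat.cast_ne_zero.2 (Fact.out (p := p.Prime)).ne_zero
  rw [nsmul_eq_mul]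
  push_cast
  rw [pow_add]
  field_simp

variable {N : ℕ} [NeZero N] (F : TorsionFrame N p)

theorem e_cast (n k : ℕ) (w : Fin F.H.r → ZMod (p ^ (n + k))) :
    (p ^ k : ℕ) • F.e (n + k) w =
      F.e n fun i => ZMod.castHom (pow_dvd_pow p (n.le_add_right k)) (ZMod (p ^ n)) (w i) := by
  induction k with
  | zero => simp [RingHom.ext_zmod (ZMod.castHom _ (ZMod (p ^ n))) (RingHom.id _)]
  | succ k ih =>
    rw [pow_succ, mul_smul]
    refine (congrArg (p ^ k • ·) (F.compat (n + k) w)).trans ((ih _).trans (congrArg (F.e n) (funext fun i => ?_)))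
    exact DFunLike.congr_fun (RingHom.ext_zmod
      ((ZMod.castHom (pow_dvd_pow p (n.le_add_right k)) (ZMod (p ^ n))).comp
        (ZMod.castHom (pow_dvd_pow p (n + k).le_succ) (ZMod (p ^ (n + k))))) _) (w i)

variable {O : Type} [CommRing O]

/-- A character of `O` which factors through `O/pⁿ`. -/
def KillsPow (p n : ℕ) (c : O →+ AddCircle (1 : ℚ)) : Prop := ∀ x, c ((p : O) ^ n * x) = 0

variable {n : ℕ} {c : O →+ AddCircle (1 : ℚ)} (hc : KillsPow p n c)

theorem exists_charCoord (hc : KillsPow p n c) (x : O) : ∃ a, toCircle p n a = c x :=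
  exists_toCircle_eq (by rw [← map_nsmul, nsmul_eq_mul, Nat.cast_pow, hc])

/-- A character as a map to `ℤ/pⁿ`. -/
def charCoord : O →+ ZMod (p ^ n) :=
  AddMonoidHom.mk' (fun x => (exists_charCoord hc x).choose) fun x y => by
    apply toCircle_injective n
    refine (exists_charCoord hc (x + y)).choose_spec.trans ((map_add c x y).trans ?_)
    rw [map_add, (exists_charCoord hc x).choose_spec, (exists_charCoord hc y).choose_spec]

theorem toCircle_charCoord (x : O) : toCircle p n (charCoord hc x) = c x :=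
  (exists_charCoord hc x).choose_spec

theorem charCoord_pow_mul (x : O) : charCoord hc ((p : O) ^ n * x) = 0 :=
  toCircle_injective n (by rw [toCircle_charCoord, hc, map_zero])

theorem charCoord_intCast_mul (k : ℤ) (x : O) :
    charCoord hc ((k : O) * x) = (k : ZMod (p ^ n)) * charCoord hc x := by
  rw [← zsmul_eq_mul, map_zsmul, zsmul_eq_mul]

/-- The torsion point of a vector over `O`. -/
def frameHom : (Fin F.H.r → O) →+ JZero N :=
  (F.e n).comp (AddMonoidHom.compLeft (charCoord hc) (Fin F.H.r))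

theorem frameHom_apply (y : Fin F.H.r → O) :
    frameHom F hc y = F.e n fun i => charCoord hc (y i) :=
  rfl

theorem pow_nsmul_frameHom (y : Fin F.H.r → O) : p ^ n • frameHom F hc y = 0 :=
  ((F.isTorsionIso n).mem_range_iff _).1 ⟨_, rfl⟩

theorem frameHom_pow_smul (y : Fin F.H.r → O) : frameHom F hc ((p : O) ^ n • y) = 0 := by
  rw [frameHom_apply, show (fun i => charCoord hc (((p : O) ^ n • y) i)) = 0 from
    funext fun i => charCoord_pow_mul hc (y i), map_zero]

/-- Integer matrices commute with taking coordinates. -/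
theorem charCoord_intMatrix (B : Matrix (Fin F.H.r) (Fin F.H.r) ℤ) (y : Fin F.H.r → O) :
    (fun i => charCoord hc ((B.map (Int.castRingHom O) *ᵥ y) i)) =
      B.map (Int.castRingHom (ZMod (p ^ n))) *ᵥ fun i => charCoord hc (y i) := by
  funext i
  simp only [Matrix.mulVec, dotProduct, map_sum, Matrix.map_apply, Int.coe_castRingHom,
    charCoord_intCast_mul]

/-- Hecke elements act through the integer matrices. -/
theorem frameHom_heckeMod (t : CuspForm.heckeAlgebra N 2 (∅ : Set ℕ)) (y : Fin F.H.r → O) :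
    frameHom F hc ((F.H.mat t).map (Int.castRingHom O) *ᵥ y) =
      F.e n (NewformRep.heckeMod F n t *ᵥ fun i => charCoord hc (y i)) :=
  congrArg (F.e n) (charCoord_intMatrix F hc (F.H.mat t) y)

theorem frameHom_hecke (q : Nat.Primes) (y : Fin F.H.r → O) :
    heckeOperatorBar N q (frameHom F hc y) =
      frameHom F hc ((F.H.mat (heckeGenAt N q)).map (Int.castRingHom O) *ᵥ y) := by
  rw [frameHom_heckeMod, NewformRep.e_heckeMod_gen]
  rfl

/-- If an eigenvalue `a` of a Hecke element divides `p^k`, maps killing the image of that element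
on torsion kill the points of the eigenvectors. -/
theorem map_frameHom_eq_zero {X : Type*} [AddCommGroup X] [IsDomain O] [CharZero O]
    (φ : JZero N →+ X)
    {t : CuspForm.heckeAlgebra N 2 (∅ : Set ℕ)}
    (hφ : ∀ (m : ℕ) (v : Fin F.H.r → ZMod (p ^ m)),
      φ (F.e m (NewformRep.heckeMod F m t *ᵥ v)) = 0)
    {a b : O} {k : ℕ} (hab : b * a = (p : O) ^ k) (y : Fin F.H.r → O)
    (hy : (F.H.mat t).map (Int.castRingHom O) *ᵥ y = a • y) : φ (frameHom F hc y) = 0 := by
  have hp0 : (p : O) ^ k ≠ 0 :=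
    pow_ne_zero _ (Nat.cast_ne_zero.2 (Fact.out (p := p.Prime)).ne_zero)
  obtain ⟨c', hck⟩ : ∃ c' : O →+ AddCircle (1 : ℚ), ∀ x, c' ((p : O) ^ k * x) = c x := by
    obtain ⟨c₁, hc₁⟩ := CharacterModule.dual_surjective_of_injective
      (LinearMap.mulLeft ℤ ((p : O) ^ k)) (mul_right_injective₀ hp0) c
    exact ⟨c₁, fun x => DFunLike.congr_fun hc₁ x⟩
  have hcm : KillsPow p (n + k) c' := fun x => by
    rw [pow_add, mul_comm ((p : O) ^ n), mul_assoc, hck, hc]
  have hkey : frameHom F hc y = frameHom F hcm ((F.H.mat t).map (Int.castRingHom O) *ᵥ (b • y)) := by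
    rw [Matrix.mulVec_smul, hy, smul_smul, hab, ← Nat.cast_pow, Nat.cast_smul_eq_nsmul, map_nsmul,
      frameHom_apply, frameHom_apply, e_cast]
    refine congrArg (F.e n) (funext fun i => toCircle_injective n ?_)
    rw [toCircle_charCoord, ← pow_nsmul_toCircle, toCircle_charCoord, ← map_nsmul, nsmul_eq_mul,
      Nat.cast_pow, hck]
  rw [hkey, frameHom_heckeMod]
  exact hφ _ _

section Padic

variable [IsLocalRing O] [IsAdicComplete (IsLocalRing.maximalIdeal O) O]
  (hp : ((p : ℕ) : O) ∈ IsLocalRing.maximalIdeal O)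

/-- An element of `ℤ_[p]` acts on `O/pⁿ` through its residue. -/
theorem charCoord_padicIntHom_mul (x : ℤ_[p]) (y : O) :
    charCoord hc (padicIntHom O hp x * y) = PadicInt.toZModPow n x * charCoord hc y := by
  obtain ⟨k, hk⟩ := ZMod.intCast_surjective (PadicInt.toZModPow n x)
  have h : x - (k : ℤ_[p]) ∈ RingHom.ker (PadicInt.toZModPow (p := p) n) := by
    rw [RingHom.mem_ker, map_sub, map_intCast, hk, sub_self]
  rw [PadicInt.ker_toZModPow, Ideal.mem_span_singleton] at h
  obtain ⟨u, hu⟩ := h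
  have hx : x = (k : ℤ_[p]) + (p : ℤ_[p]) ^ n * u := by linear_combination hu
  have hp' : padicIntHom O hp x * y = (k : O) * y + (p : O) ^ n * (padicIntHom O hp u * y) := by
    rw [hx, map_add, map_mul, map_pow, map_natCast, map_intCast]
    ring
  rw [hp', map_add, charCoord_pow_mul, charCoord_intCast_mul, add_zero, hk]

/-- The Galois matrices act as the Galois group. -/
theorem frameHom_galois (σ : Γℚ) (y : Fin F.H.r → O) :
    frameHom F hc ((F.galMatrix σ).map (padicIntHom O hp) *ᵥ y) = σ • frameHom F hc y := by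
  rw [frameHom_apply, frameHom_apply, ← F.e_galMatrix]
  refine congrArg (F.e n) (funext fun i => ?_)
  simp only [Matrix.mulVec, dotProduct, map_sum, Matrix.map_apply, charCoord_padicIntHom_mul]

end Padic

omit [Fact p.Prime] in
/-- A character of `O/pⁿ` which is non-zero at a given element. -/
theorem exists_killsPow {s : O} (hs : ¬ (p : O) ^ n ∣ s) :
    ∃ c : O →+ AddCircle (1 : ℚ), KillsPow p n c ∧ c s ≠ 0 := by
  obtain ⟨χ, hχ⟩ := CharacterModule.exists_character_apply_ne_zero_of_ne_zero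
    (A := O ⧸ Ideal.span {(p : O) ^ n}) (a := Ideal.Quotient.mk _ s)
    (fun h => hs (Ideal.mem_span_singleton.1 (Ideal.Quotient.eq_zero_iff_mem.1 h)))
  refine ⟨(χ : (O ⧸ Ideal.span {(p : O) ^ n}) →+ AddCircle (1 : ℚ)).comp
    (Ideal.Quotient.mk (Ideal.span {(p : O) ^ n})).toAddMonoidHom, fun x => ?_, hχ⟩
  show χ (Ideal.Quotient.mk _ ((p : O) ^ n * x)) = 0
  rw [Ideal.Quotient.eq_zero_iff_mem.2
    (Ideal.mem_span_singleton.2 (dvd_mul_right ((p : O) ^ n) x))]
  exact map_zero _

end Fermat.Agent.Residual.PatternTwo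

end
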