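/-
Residual modularity at three: the algebraic involution `w_q` of `J₀(M q)` is the Atkin–Lehner
action, and the degeneracy push-forwards and `w_q + a_q` kill the eigenvectors of a newform in a
torsion frame.
-/
import Fermat.Agent.Residual.PatternTwoFrame
import Fermat.Agent.Residual.NewformALSign
import Fermat.Agent.Residual.ALTorsion
import Fermat.Agent.BadReduction.X0Components
import Fermat.Agent.NewformRep.Degeneracy
import Fermat.Agent.NewformRep.Core
import Fermat.Agent.Integral.Main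

set_option autoImplicit false

noncomputable section

open scoped Matrix
open ModularCurve AlgebraicCurve

namespace Fermat.Agent.Residual.PatternTwo

open CMFix (IMat IsAL)

local notation "Qbar" => AlgebraicClosure ℚ

variable {M q : ℕ} [NeZero M] [hq : Fact q.Prime]

local instance neZero_prime_sign : NeZero q := ⟨hq.out.ne_zero⟩

theorem jdBar_eq_jdQ {e : ℕ} [NeZero e] (he : e ∣ M * q) (h : e ∈ (M * q).divisors) :
    (⟨BadReduction.jdBar ⟨e, h⟩, BadReduction.jdBar_mem _⟩ : modularFunctionFieldBar (M * q)) =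
      jdQ (M * q) e he :=
  Subtype.ext (Curve.coeffEmb_qExpand_jq Qbar e)

theorem atkinLehner_jdQ (hqM : ¬ q ∣ M) {e e' : ℕ} [NeZero e] [NeZero e'] (he : e ∣ M * q)
    (he' : e' ∣ M * q) (h : BadReduction.swapDiv M q e = e') :
    BadReduction.atkinLehner hqM (jdQ (M * q) e he) = jdQ (M * q) e' he' := by
  subst h
  have hm : e ∈ (M * q).divisors := Nat.mem_divisors.2 ⟨he, NeZero.ne _⟩
  rw [← jdBar_eq_jdQ he hm, BadReduction.atkinLehner_apply, BadReduction.atkinHom_jdBar]
  exact jdBar_eq_jdQ he' _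

/-- The algebraic involution is the analytic one. -/
theorem atkinLehner_eq_alBar (hqM : ¬ q ∣ M) {W : IMat} (hW : IsAL (M * q) q W) :
    BadReduction.atkinLehner hqM = alBar hW (dvd_mul_left q M) := by
  have hq' : q ≠ 0 := hq.out.ne_zero
  haveI : NeZero (M * q / q) := ⟨by rw [Nat.mul_div_cancel _ hq.out.pos]; exact NeZero.ne M⟩
  refine AlgEquiv.ext (RingHom.congr_fun (ringHom_ext_bar
    (φ := (BadReduction.atkinLehner hqM).toRingEquiv.toRingHom)
    (ψ := (alBar hW (dvd_mul_left q M)).toRingEquiv.toRingHom) (fun a => ?_) ?_ ?_))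
  · show BadReduction.atkinLehner hqM (algebraMap Qbar _ a) =
      alBar hW (dvd_mul_left q M) (algebraMap Qbar _ a)
    rw [AlgEquiv.commutes, AlgEquiv.commutes]
  · show BadReduction.atkinLehner hqM (jdQ (M * q) 1 _) =
      alBar hW (dvd_mul_left q M) (jdQ (M * q) 1 _)
    rw [alBar_jq hW (dvd_mul_left q M)]
    exact atkinLehner_jdQ hqM _ _ (by
      rw [BadReduction.swapDiv, if_neg hq.out.not_dvd_one, one_mul])
  · show BadReduction.atkinLehner hqM (jdQ (M * q) (M * q) _) =
      alBar hW (dvd_mul_left q M) (jdQ (M * q) (M * q) _)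
    rw [alBar_jqN hW (dvd_mul_left q M)]
    exact atkinLehner_jdQ hqM _ _ (by
      rw [BadReduction.swapDiv, if_pos (dvd_mul_left q M)])

variable (M q) in
/-- `w_q` as an additive map of `J₀(M q)`. -/
def alHom (hqM : ¬ q ∣ M) : JZero (M * q) →+ JZero (M * q) :=
  AddMonoidHom.mk' (fun x => SemilinearAut.ofAlgAut (BadReduction.atkinLehner hqM) • x)
    (fun x y => smul_add _ x y)

theorem alHom_apply (hqM : ¬ q ∣ M) (x : JZero (M * q)) :
    alHom M q hqM x = SemilinearAut.ofAlgAut (BadReduction.atkinLehner hqM) • x :=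
  rfl

theorem isALAction_alHom (hqM : ¬ q ∣ M) : IsALAction (M * q) q (alHom M q hqM) := by
  have hco : Nat.Coprime q (M * q / q) := by
    rw [Nat.mul_div_cancel _ hq.out.pos]
    exact hq.out.coprime_iff_not_dvd.2 hqM
  have hW := isAL_alMat (dvd_mul_left q M) hco
  have h : alHom M q hqM = alJZero hW (dvd_mul_left q M) := AddMonoidHom.ext fun x => by
    rw [alHom_apply, alJZero_apply, atkinLehner_eq_alBar hqM hW]
    rfl
  rw [h]
  exact isALAction_alJZero hW (dvd_mul_left q M) hq.out.ne_zero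

section Kills

variable {p : ℕ} [Fact p.Prime] {g : CuspForm (CongruenceSubgroup.Gamma0 (M * q)) 2}
  (F : GaloisAdic.TorsionFrame (M * q) p) {O : Type} [CommRing O] [IsDomain O] [CharZero O]
  {χ : CuspForm.heckeAlgebra (M * q) 2 (∅ : Set ℕ) →+* O}
  {n : ℕ} {c : O →+ AddCircle (1 : ℚ)}

/-- The push-forwards to level `M` and `w_q + a_q` kill the points of the eigenvectors of a
character which does not vanish on the good Hecke elements which do not vanish at `g`. -/
theorem kills_frameHom (hqM : ¬ q ∣ M) (hD : Squarefree (M * q)) (hg : g.IsNewform) {a : ℤ}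
    (ha : (a : ℂ) = ModularFormClass.qCoeff g q) (S : Finset ℕ) (hpS : p ∈ S)
    (hMS : ∀ r : ℕ, r.Prime → r ∣ M * q → r ∈ (↑S : Set ℕ))
    (chig : CuspForm.heckeAlgebra (M * q) 2 (↑S : Set ℕ) →+* ℂ)
    (hchig : ∀ (ℓ : ℕ) (hℓ : ℓ.Prime) (hℓM : ¬ ℓ ∣ M * q) (hℓS : ℓ ∉ (↑S : Set ℕ)),
      chig (CuspForm.heckeAlgebra.T hℓ hℓM hℓS) = ModularFormClass.qCoeff g ℓ)
    (hdvd : ∀ t : NewformRep.GoodPoly (↑S : Set ℕ), chig (NewformRep.goodEval (M * q) hMS t) ≠ 0 →
      ∃ (k : ℕ) (b : O), b * χ (NewformRep.goodEvalFull (M * q) hMS t) = (p : O) ^ k)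
    (hc : KillsPow p n c) (y : Fin F.H.r → O)
    (hy : ∀ t, (F.H.mat t).map (Int.castRingHom O) *ᵥ y = χ t • y) :
    NewformRep.pushAlpha M q (frameHom F hc y) = 0 ∧
      NewformRep.pushBeta M q (frameHom F hc y) = 0 ∧
      SemilinearAut.ofAlgAut (BadReduction.atkinLehner hqM) • frameHom F hc y =
        -(a • frameHom F hc y) := by
  have hne : M ≠ M * q := fun h => hq.out.one_lt.ne
    (mul_left_cancel₀ (NeZero.ne M) ((mul_one M).trans h))
  obtain ⟨t, ht0, htg⟩ := NewformRep.exists_goodPoly (Integral.hasIntegralStructure M 2) hg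
    (dvd_mul_right M q) hne S hMS chig hchig
  obtain ⟨F'⟩ := GaloisAdic.nonempty_torsionFrame M p
  obtain ⟨k, b, hb⟩ := hdvd t htg
  obtain ⟨s, hs0, hs⟩ := NewformAL.exists_goodPoly_frame hD hg hq.out (dvd_mul_left q M) a ha S
    hMS chig hchig
  obtain ⟨k', b', hb'⟩ := hdvd s hs0
  have hMS' : ∀ r : ℕ, r.Prime → r ∣ M → r ∈ (↑S : Set ℕ) :=
    fun r hr h => hMS r hr (h.trans (dvd_mul_right M q))
  have hF := GaloisAdic.torsionFacts (M * q) p
  refine ⟨map_frameHom_eq_zero F hc _ (fun m v => ?_) hb y (hy _),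
    map_frameHom_eq_zero F hc _ (fun m v => ?_) hb y (hy _), eq_neg_of_add_eq_zero_left ?_⟩
  · exact NewformRep.map_goodEval_eq_zero F F' hF (GaloisAdic.torsionFacts M p) hMS hMS'
      (by simpa using hpS) _ (NewformRep.pushAlpha_galois_smul M q) ht0 m v
  · exact NewformRep.map_goodEval_eq_zero F F' hF (GaloisAdic.torsionFacts M p) hMS hMS'
      (by simpa using hpS) _ (NewformRep.pushBeta_galois_smul M q) ht0 m v
  · refine map_frameHom_eq_zero F hc (alHom M q hqM + a • AddMonoidHom.id (JZero (M * q)))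
      (fun m v => ?_) hb' y (hy _)
    rw [AddMonoidHom.add_apply, hs _ (isALAction_alHom hqM) p F m v]
    exact neg_add_cancel _

end Kills

end Fermat.Agent.Residual.PatternTwo

end
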