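/-
Residual modularity at three: the torsion points attached to the representation of a pattern
form, with their Galois action, Hecke eigenvalues and signs.
-/
import Fermat.Agent.Residual.PatternTwoSign
import Fermat.Agent.Residual.PatternForm
import Fermat.Agent.Residual.EigenSystem
import Fermat.Agent.Residual.Ord2Atkin

set_option autoImplicit false
set_option maxHeartbeats 800000

noncomputable section

open scoped Matrix
open ModularCurve AlgebraicCurve

namespace Fermat.Agent.Residual.PatternTwo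

open GaloisAdic

local notation "Qbar" => AlgebraicClosure ℚ
local notation "Γℚ" => (AlgebraicClosure ℚ ≃ₐ[ℚ] AlgebraicClosure ℚ)

section Signs

/-- The character `χ` of the full Hecke algebra is, up to a divisor of a power of two, non-zero
wherever the eigencharacter of `g` is. -/
def Follows {N : ℕ} [NeZero N] {O : Type} [CommRing O] (g : CuspForm (CongruenceSubgroup.Gamma0 N) 2)
    (hg : g.IsNormalizedEigenform) (χ : CuspForm.heckeAlgebra N 2 (∅ : Set ℕ) →+* O) : Prop :=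
  ∀ t, Eigen.eigenChar g hg ∅ t ≠ 0 → ∃ (k : ℕ) (b : O), b * χ t = (2 : O) ^ k

variable {O : Type} [CommRing O] [IsDomain O] [CharZero O] {n : ℕ} {c : O →+ AddCircle (1 : ℚ)}

/-- Both push-forwards kill the points, and `w_q` is `-a_q` on them. -/
theorem kills_of_follows {M q : ℕ} [NeZero M] [hq : Fact q.Prime] [NeZero q]
    (hD : Squarefree (M * q)) (h2 : 2 ∣ M * q)
    {g : CuspForm (CongruenceSubgroup.Gamma0 (M * q)) 2} (hg : g.IsNewform)
    {χ : CuspForm.heckeAlgebra (M * q) 2 (∅ : Set ℕ) →+* O}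
    (hχ : Follows g hg.isNormalizedEigenform χ) (F : TorsionFrame (M * q) 2) {a : ℤ}
    (ha : (a : ℂ) = ModularFormClass.qCoeff g q) (hqM : ¬ q ∣ M) (hc : KillsPow 2 n c)
    (y : Fin F.H.r → O) (hy : ∀ t, (F.H.mat t).map (Int.castRingHom O) *ᵥ y = χ t • y) :
    NewformRep.pushAlpha M q (frameHom F hc y) = 0 ∧
      NewformRep.pushBeta M q (frameHom F hc y) = 0 ∧
      SemilinearAut.ofAlgAut (BadReduction.atkinLehner hqM) • frameHom F hc y =
        -(a • frameHom F hc y) := by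
  classical
  let S : Finset ℕ := (M * q).primeFactors
  have hMS : ∀ r : ℕ, r.Prime → r ∣ M * q → r ∈ (↑S : Set ℕ) := fun r hr h =>
    Finset.mem_coe.2 (Nat.mem_primeFactors.2 ⟨hr, h, NeZero.ne _⟩)
  have h1 := kills_frameHom F (χ := χ) hqM hD hg ha S
    (Nat.mem_primeFactors.2 ⟨Nat.prime_two, h2, NeZero.ne _⟩) hMS
    ((Eigen.eigenChar g hg.isNormalizedEigenform ∅).comp (NewformAL.inclFull (↑S : Set ℕ)))
    (fun ℓ hℓ hℓM _ => Eigen.eigenChar_T hg.isNormalizedEigenform hℓ hℓM (Set.notMem_empty ℓ))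
    (n := n) (c := c) (fun t ht => by
      obtain ⟨k, b, hb⟩ := hχ (NewformRep.goodEvalFull (M * q) hMS t) ht
      exact ⟨k, b, hb.trans (by rw [Nat.cast_ofNat])⟩)
  have h3 := h1 hc y
  exact h3 hy

variable {N : ℕ} [NeZero N] {g : CuspForm (CongruenceSubgroup.Gamma0 N) 2}
  {χ : CuspForm.heckeAlgebra N 2 (∅ : Set ℕ) →+* O}

/-- The transposed `U_q` is `a_q` on the points. -/
theorem heckeT_frameHom (hD : Squarefree N) (h2 : 2 ∣ N) (hg : g.IsNewform)
    (hχ : Follows g hg.isNormalizedEigenform χ) (F : TorsionFrame N 2) {q : ℕ} [NeZero q]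
    (hq : q.Prime) (hqN : q ∣ N) {a : ℤ} (ha : (a : ℂ) = ModularFormClass.qCoeff g q)
    (hc : KillsPow 2 n c) (y : Fin F.H.r → O)
    (hy : ∀ t, (F.H.mat t).map (Int.castRingHom O) *ᵥ y = χ t • y) :
    Ord2.heckeT N q (frameHom F hc y) = a • frameHom F hc y := by
  obtain ⟨M, rfl⟩ : ∃ M, N = M * q := ⟨N / q, (Nat.div_mul_cancel hqN).symm⟩
  have : NeZero M := ⟨fun h => NeZero.ne (M * q) (by rw [h, zero_mul])⟩
  have := Fact.mk hq
  have hqM : ¬ q ∣ M := hq.coprime_iff_not_dvd.1 (Nat.squarefree_mul_iff.1 hD).1.symm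
  obtain ⟨h1, -, h3⟩ := kills_of_follows hD h2 hg hχ F ha hqM hc y hy
  exact Ord2.heckeT_eq_smul hqM (pow_nsmul_frameHom F hc y) h1 h3

end Signs

/-- A line passes along a homomorphism of coefficient rings. -/
theorem isLineAt_map {R S : Type*} [CommRing R] [CommRing S] (φ : R →+* S)
    {ρ : Γℚ →* Matrix (Fin 2) (Fin 2) R} {P : ValuationSubring Qbar} {p : ℕ} {a : R}
    (h : IsLineAt ρ P p a) : IsLineAt (φ.mapMatrix.toMonoidHom.comp ρ) P p (φ a) := by
  obtain ⟨v, ⟨i, hi⟩, hI, hF⟩ := h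
  have key : ∀ (σ : Γℚ) (c b : R), ρ σ *ᵥ v = c • v → (ρ σ).trace = c + b →
      φ.mapMatrix.toMonoidHom.comp ρ σ *ᵥ (φ ∘ v) = φ c • (φ ∘ v) ∧
        (φ.mapMatrix.toMonoidHom.comp ρ σ).trace = φ c + φ b := fun σ c b h1 h2 => by
    refine ⟨funext fun j => ?_, ?_⟩
    · show ((ρ σ).map φ *ᵥ (φ ∘ v)) j = φ c * φ (v j)
      rw [← RingHom.map_mulVec, h1, Pi.smul_apply, smul_eq_mul, map_mul]
    · show ((ρ σ).map φ).trace = φ c + φ b
      rw [← map_add, ← h2]
      exact (AddMonoidHom.map_trace φ.toAddMonoidHom (ρ σ)).symm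
  refine ⟨φ ∘ v, ⟨i, hi.map φ⟩, fun σ hσ => ?_, fun σ hσ => ?_⟩
  · obtain ⟨c, h1, h2⟩ := hI σ hσ
    exact ⟨φ c, (key σ c 1 h1 h2).1, by rw [(key σ c 1 h1 h2).2, map_one]⟩
  · obtain ⟨c, h1, h2⟩ := hF σ hσ
    exact ⟨φ c, key σ c a h1 h2⟩

section Points

variable {O : Type} [CommRing O] [IsDomain O] [IsDiscreteValuationRing O]
  [IsAdicComplete (IsLocalRing.maximalIdeal O) O] [CharZero O]
  {hp : ((2 : ℕ) : O) ∈ IsLocalRing.maximalIdeal O} {ρ : GaloisRepAdic O}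

/-- The coordinates of a constituent in the frame. -/
theorem exists_coord {N : ℕ} [NeZero N] {F : TorsionFrame N 2}
    {χ : CuspForm.heckeAlgebra N 2 (∅ : Set ℕ) →+* O} (h : IsConstituent F hp χ ρ) :
    ∃ G : (Fin 2 → O) →ₗ[O] (Fin F.H.r → O),
      (∀ (n : ℕ) z, (∀ i, ((2 : ℕ) : O) ^ n ∣ G z i) → ∀ w, ((2 : ℕ) : O) ^ n ∣ z w) ∧
      (∀ σ z, G (NewformRep.repMatrix ρ σ *ᵥ z) =
        (F.galMatrix σ).map (padicIntHom O hp) *ᵥ G z) ∧
      ∀ z t, (F.H.mat t).map (Int.castRingHom O) *ᵥ G z = χ t • G z := by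
  obtain ⟨f₀, hinj, hsat, hgal, hhecke⟩ := h
  let b := Module.finBasisOfFinrankEq O ρ.V ρ.finrank_eq
  refine ⟨f₀.comp b.equivFun.symm.toLinearMap, fun n z hz w => ?_, fun σ z => ?_, fun z t => ?_⟩
  · choose y hy using hz
    have h0 : ((2 : ℕ) : O) ^ n ≠ 0 := pow_ne_zero _ (Nat.cast_ne_zero.2 two_ne_zero)
    have h1 : f₀ (b.equivFun.symm z) = ((2 : ℕ) : O) ^ n • y := funext hy
    obtain ⟨v, hv⟩ := hsat _ y h0 (h1 ▸ LinearMap.mem_range_self f₀ (b.equivFun.symm z))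
    have h2 : z = ((2 : ℕ) : O) ^ n • b.equivFun v :=
      b.equivFun.symm.injective (hinj (by
        rw [h1, map_smul, LinearEquiv.symm_apply_apply, map_smul, hv]))
    exact ⟨b.equivFun v w, congrFun h2 w⟩
  · show f₀ (b.equivFun.symm (NewformRep.repMatrix ρ σ *ᵥ z)) = _
    refine Eq.trans (congrArg f₀ (b.equivFun.injective ?_)) (hgal σ (b.equivFun.symm z))
    rw [LinearEquiv.apply_symm_apply]
    have h1 := LinearMap.toMatrix_mulVec_repr b b (ρ.ρ σ) (b.equivFun.symm z)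
    rw [show ⇑(b.repr (b.equivFun.symm z)) = z from b.equivFun.apply_symm_apply z] at h1
    exact h1
  · have h1 := hhecke t (b.equivFun.symm z)
    rw [show Subalgebra.inclusion (CuspForm.heckeAlgebra_mono (Set.empty_subset (∅ : Set ℕ))) t = t
      from Subtype.ext rfl] at h1
    exact h1

omit [IsAdicComplete (IsLocalRing.maximalIdeal O) O] in
/-- The socle of `O / 2 ^ n`. -/
theorem exists_socle (h2 : ((2 : ℕ) : O) ∈ IsLocalRing.maximalIdeal O) {n : ℕ} (hn : 1 ≤ n) :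
    ∃ s : O, ¬ ((2 : ℕ) : O) ^ n ∣ s ∧ (∀ b, ¬ ((2 : ℕ) : O) ^ n ∣ b →
      ∃ u, ((2 : ℕ) : O) ^ n ∣ u * b - s) ∧
      ∀ x ∈ IsLocalRing.maximalIdeal O, ((2 : ℕ) : O) ^ n ∣ x * s := by
  obtain ⟨π, hπ⟩ := IsDiscreteValuationRing.exists_irreducible O
  have h20 : ((2 : ℕ) : O) ^ n ≠ 0 := pow_ne_zero _ (Nat.cast_ne_zero.2 two_ne_zero)
  obtain ⟨d, w, hd⟩ := IsDiscreteValuationRing.eq_unit_mul_pow_irreducible h20 hπ
  have hdpos : d ≠ 0 := fun h => by
    rw [h, pow_zero, mul_one] at hd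
    exact (IsLocalRing.mem_maximalIdeal _).1
      (Ideal.pow_mem_of_mem (IsLocalRing.maximalIdeal O) h2 n hn) (hd ▸ w.isUnit)
  obtain ⟨j, rfl⟩ := Nat.exists_eq_succ_of_ne_zero hdpos
  rw [hd]
  refine ⟨π ^ j, fun h => ?_, fun b hb => ?_, fun x hx => ?_⟩
  · rw [Units.mul_left_dvd] at h
    exact absurd ((pow_dvd_pow_iff hπ.ne_zero hπ.not_isUnit).1 h) (by omega)
  · rcases eq_or_ne b 0 with rfl | hb0
    · exact absurd (dvd_zero _) hb
    obtain ⟨i, v, rfl⟩ := IsDiscreteValuationRing.eq_unit_mul_pow_irreducible hb0 hπ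
    rw [Units.mul_left_dvd] at hb
    have hij : i ≤ j := by
      by_contra hlt
      exact hb (dvd_mul_of_dvd_right (pow_dvd_pow π (by omega)) _)
    refine ⟨π ^ (j - i) * ↑v⁻¹, ⟨0, ?_⟩⟩
    rw [mul_zero, mul_assoc, Units.inv_mul_cancel_left, ← pow_add, Nat.sub_add_cancel hij, sub_self]
  · rw [hπ.maximalIdeal_eq, Ideal.mem_span_singleton] at hx
    obtain ⟨y, rfl⟩ := hx
    rw [Units.mul_left_dvd, pow_succ', mul_assoc, mul_comm y, ← mul_assoc]
    exact dvd_mul_right _ _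

end Points

end Fermat.Agent.Residual.PatternTwo

end
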