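/-
Residual modularity at three: at level `M · 2` the constituent of a newform modulo `2 ^ n` as
torsion points of the Jacobian, with everything the line at two needs.
-/
import Fermat.Agent.Residual.PatternTwoRep

set_option autoImplicit false
set_option maxHeartbeats 800000

noncomputable section

open scoped Matrix
open ModularCurve AlgebraicCurve

namespace Fermat.Agent.Residual.PatternTwo

open GaloisAdic

local notation "Qbar" => AlgebraicClosure ℚ
local notation "Γℚ" => (AlgebraicClosure ℚ ≃ₐ[ℚ] AlgebraicClosure ℚ)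

variable {O : Type} [CommRing O]

/-- The ideal generated by `2 ^ n`. -/
abbrev twoPow (O : Type) [CommRing O] (n : ℕ) : Ideal O := Ideal.span {((2 : ℕ) : O) ^ n}

theorem mk_eq_zero_iff_dvd {n : ℕ} (x : O) :
    Ideal.Quotient.mk (twoPow O n) x = 0 ↔ ((2 : ℕ) : O) ^ n ∣ x := by
  rw [Ideal.Quotient.eq_zero_iff_mem, Ideal.mem_span_singleton]

/-- A homomorphism on `O²` killing `2 ^ n` descends to `(O / 2 ^ n)²`. -/
theorem exists_descend {J : Type*} [AddCommGroup J] {n : ℕ} (ψ : (Fin 2 → O) →+ J)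
    (h : ∀ z, ψ (((2 : ℕ) : O) ^ n • z) = 0) :
    ∃ φ : (Fin 2 → O ⧸ twoPow O n) →+ J,
      ∀ z, φ (fun i => Ideal.Quotient.mk (twoPow O n) (z i)) = ψ z := by
  have wd : ∀ z z' : Fin 2 → O, (∀ i, Ideal.Quotient.mk (twoPow O n) (z i) =
      Ideal.Quotient.mk (twoPow O n) (z' i)) → ψ z = ψ z' := fun z z' hz => by
    have hd : ∀ i, ((2 : ℕ) : O) ^ n ∣ z i - z' i := fun i =>
      (mk_eq_zero_iff_dvd _).1 (by rw [map_sub, hz i, sub_self])
    choose y hy using hd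
    rw [← sub_eq_zero, ← map_sub, show z - z' = ((2 : ℕ) : O) ^ n • y from funext hy, h]
  choose lift hlift using fun a : O ⧸ twoPow O n => Ideal.Quotient.mk_surjective a
  refine ⟨AddMonoidHom.mk' (fun a => ψ fun i => lift (a i)) fun a b => ?_, fun z => wd _ _ fun i =>
    hlift _⟩
  rw [← map_add]
  exact wd _ _ fun i => by simp only [Pi.add_apply, map_add, hlift]

variable [IsDomain O] [IsDiscreteValuationRing O]
  [IsAdicComplete (IsLocalRing.maximalIdeal O) O] [CharZero O]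
  {hp : ((2 : ℕ) : O) ∈ IsLocalRing.maximalIdeal O} {ρ : GaloisRepAdic O}

/-- The representation modulo `2 ^ n`. -/
def repMod (ρ : GaloisRepAdic O) (n : ℕ) : Γℚ →* Matrix (Fin 2) (Fin 2) (O ⧸ twoPow O n) :=
  (Ideal.Quotient.mk (twoPow O n)).mapMatrix.toMonoidHom.comp (NewformRep.repMatrix ρ)

/-- The torsion points of the constituent at level `M · 2`. -/
theorem exists_points {M : ℕ} [NeZero M] [Fact (Nat.Prime 2)] (hM : ¬ 2 ∣ M)
    {g : CuspForm (CongruenceSubgroup.Gamma0 (M * 2)) 2} (hg : g.IsNewform)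
    (hsf : Squarefree (M * 2)) {F : TorsionFrame (M * 2) 2}
    {χ : CuspForm.heckeAlgebra (M * 2) 2 (∅ : Set ℕ) →+* O} (hconst : IsConstituent F hp χ ρ)
    (hfol : Follows g hg.isNormalizedEigenform χ) (sgn : ℕ → ℤ)
    (hsgn : ∀ q : ℕ, q.Prime → q ∣ M * 2 → (sgn q : ℂ) = ModularFormClass.qCoeff g q)
    (ev : ℕ → ℤ) (hev : ∀ l : Nat.Primes, ¬ (l : ℕ) ∣ M * 2 →
      χ (heckeGenAt (M * 2) l) - (ev l : O) ∈ IsLocalRing.maximalIdeal O)
    {n : ℕ} {s : O} (hs : ¬ ((2 : ℕ) : O) ^ n ∣ s)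
    (hsdvd : ∀ b, ¬ ((2 : ℕ) : O) ^ n ∣ b → ∃ u, ((2 : ℕ) : O) ^ n ∣ u * b - s)
    (hsm : ∀ x ∈ IsLocalRing.maximalIdeal O, ((2 : ℕ) : O) ^ n ∣ x * s) :
    ∃ ψ : (Fin 2 → O ⧸ twoPow O n) →+ JZero (M * 2),
      (∀ σ z, σ • ψ z = ψ (repMod ρ n σ *ᵥ z)) ∧
      (∀ z, z ≠ 0 → ∃ a : O ⧸ twoPow O n, ψ (a • z) ≠ 0) ∧
      (∀ z, 2 ^ n • ψ z = 0) ∧
      (∀ z, NewformRep.pushAlpha M 2 (ψ z) = 0) ∧
      (∀ z, SemilinearAut.ofAlgAut (BadReduction.atkinLehner hM) • ψ z = -(sgn 2 • ψ z)) ∧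
      (∀ l : Nat.Primes, ¬ (l : ℕ) ∣ M * 2 → ∀ z,
        heckeOperatorBar (M * 2) l (ψ (Ideal.Quotient.mk (twoPow O n) s • z)) =
          ev l • ψ (Ideal.Quotient.mk (twoPow O n) s • z)) ∧
      (∀ (q : ℕ) [NeZero q], q.Prime → q ∣ M * 2 → ∀ z,
        Ord2.heckeT (M * 2) q (ψ z) = sgn q • ψ z) := by
  obtain ⟨G, hdiv, hgal, heig⟩ := exists_coord hconst
  obtain ⟨c, hc, hcs⟩ := exists_killsPow hs
  obtain ⟨ψ, hψ⟩ := exists_descend ((frameHom F hc).comp G.toAddMonoidHom) fun z => by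
    show frameHom F hc (G (((2 : ℕ) : O) ^ n • z)) = 0
    rw [map_smul]
    exact frameHom_pow_smul F hc (G z)
  have hsurj : ∀ z : Fin 2 → O ⧸ twoPow O n, ∃ w : Fin 2 → O,
      (fun i => Ideal.Quotient.mk (twoPow O n) (w i)) = z := fun z => by
    choose w hw using fun i => Ideal.Quotient.mk_surjective (z i)
    exact ⟨w, funext hw⟩
  have hsmul : ∀ (a : O) (w : Fin 2 → O),
      Ideal.Quotient.mk (twoPow O n) a • (fun i => Ideal.Quotient.mk (twoPow O n) (w i)) =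
        fun i => Ideal.Quotient.mk (twoPow O n) ((a • w) i) := fun a w =>
    funext fun i => (map_mul (Ideal.Quotient.mk (twoPow O n)) a (w i)).symm
  have hψ' : ∀ w, ψ (fun i => Ideal.Quotient.mk (twoPow O n) (w i)) = frameHom F hc (G w) := hψ
  refine ⟨ψ, fun σ z => ?_, fun z hz => ?_, fun z => ?_, fun z => ?_, fun z => ?_,
    fun l hl z => ?_, fun q _ hq hqN z => ?_⟩
  all_goals obtain ⟨w, rfl⟩ := hsurj z
  · rw [hψ']
    show σ • frameHom F hc (G w) = ψ ((NewformRep.repMatrix ρ σ).map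
      (Ideal.Quotient.mk (twoPow O n)) *ᵥ (Ideal.Quotient.mk (twoPow O n) ∘ w))
    rw [← frameHom_galois F hc hp, ← hgal, ← hψ']
    exact congrArg ψ (funext fun i => RingHom.map_mulVec _ _ _ i)
  · by_contra hcon
    push Not at hcon
    refine hz (funext fun i => (mk_eq_zero_iff_dvd _).2 (hdiv n w (fun k => ?_) i))
    by_contra hk
    obtain ⟨u, y, hy⟩ := hsdvd _ hk
    have h1 := hcon (Ideal.Quotient.mk (twoPow O n) u)
    rw [hsmul, hψ', map_smul] at h1
    have h2 := congrFun ((F.isTorsionIso n).injective (h1.trans (map_zero (F.e n)).symm)) k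
    have h3 := congrArg (toCircle 2 n) h2
    change toCircle 2 n (charCoord hc (u * G w k)) = toCircle 2 n 0 at h3
    rw [toCircle_charCoord, map_zero,
      eq_add_of_sub_eq hy, map_add, hc y, zero_add] at h3
    exact hcs h3
  · rw [hψ']
    exact pow_nsmul_frameHom F hc _
  · rw [hψ']
    exact (kills_of_follows hsf (dvd_mul_left 2 M) hg hfol F
      (hsgn 2 Nat.prime_two (dvd_mul_left 2 M)) hM hc (G w) (heig w)).1
  · rw [hψ']
    exact (kills_of_follows hsf (dvd_mul_left 2 M) hg hfol F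
      (hsgn 2 Nat.prime_two (dvd_mul_left 2 M)) hM hc (G w) (heig w)).2.2
  · rw [hsmul, hψ', frameHom_hecke, heig, ← map_zsmul (frameHom F hc), ← map_smul G,
      ← map_zsmul G, ← hψ', ← hψ']
    refine congrArg ψ (funext fun i => ?_)
    rw [← sub_eq_zero, ← map_sub, mk_eq_zero_iff_dvd]
    have h1 := hsm _ (hev l hl)
    have h2 : (χ (heckeGenAt (M * 2) l) • s • w) i - (ev l • s • w) i =
        (χ (heckeGenAt (M * 2) l) - (ev l : O)) * s * w i := by
      simp only [Pi.smul_apply, smul_eq_mul, zsmul_eq_mul]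
      ring
    rw [h2]
    exact dvd_mul_of_dvd_left h1 _
  · rw [hψ']
    exact heckeT_frameHom hsf (dvd_mul_left 2 M) hg hfol F hq hqN (hsgn q hq hqN) hc (G w) (heig w)

end Fermat.Agent.Residual.PatternTwo

end
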