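/-
Residual modularity at three: what the line at two needs about the residual representation of a
pattern form: inertia at two moves a square root of `2 u`, and a good prime is not Eisenstein.
-/
import Fermat.Agent.Residual.PatternForm

set_option autoImplicit false

noncomputable section

open scoped Matrix

namespace Fermat.Agent.Residual.PatternTwo

open GaloisAdic

local notation "Qbar" => AlgebraicClosure ℚ
local notation "Γℚ" => (AlgebraicClosure ℚ ≃ₐ[ℚ] AlgebraicClosure ℚ)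

/-- The kernel of reduction of a quotient of a local ring by a proper ideal. -/
theorem mk_mem_maximalIdeal {R : Type*} [CommRing R] [IsLocalRing R] {I : Ideal R} (hI : I ≠ ⊤)
    [IsLocalRing (R ⧸ I)] {x : R} (hx : x ∈ IsLocalRing.maximalIdeal R) :
    Ideal.Quotient.mk I x ∈ IsLocalRing.maximalIdeal (R ⧸ I) := by
  intro hu
  obtain ⟨b, hb⟩ := isUnit_iff_exists_inv.1 hu
  obtain ⟨y, rfl⟩ := Ideal.Quotient.mk_surjective b
  rw [← map_mul, ← map_one (Ideal.Quotient.mk I), Ideal.Quotient.eq] at hb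
  have h1 : (1 : R) ∈ IsLocalRing.maximalIdeal R := by
    have := sub_mem (Ideal.mul_mem_right y _ hx) (IsLocalRing.le_maximalIdeal hI hb)
    rwa [sub_sub_cancel] at this
  exact (IsLocalRing.mem_maximalIdeal _).1 h1 isUnit_one

/-- A square root of `2 u`, `u` odd, which inertia at two moves exactly where the residual
representation is not trivial. -/
theorem exists_sqrt_two (D : Datum) {P : ValuationSubring Qbar} (hP : P.LiesOverPrime 2) :
    ∃ (r : Qbar) (u : ℤ), Odd u ∧ r ^ 2 = ((2 * u : ℤ) : Qbar) ∧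
      (∀ σ ∈ P.inertiaSubgroupIn ℚ, σ r = r → D.ρbar σ = 1) ∧
      ∃ σ ∈ P.inertiaSubgroupIn ℚ, σ r = -r ∧ D.ρbar σ ≠ 1 := by
  classical
  obtain ⟨σ₀, hσ₀, hne, hall⟩ := D.transp 2 D.two_mem P hP
  have hdec : ∀ σ ∈ P.inertiaSubgroupIn ℚ, σ ∈ P.decompositionSubgroup ℚ := fun σ hσ => by
    obtain ⟨j, -, rfl⟩ := hσ
    exact j.2
  have hsq : D.ρbar σ₀ * D.ρbar σ₀ = 1 := by
    rcases hall (σ₀ * σ₀) (mul_mem (hdec _ hσ₀) (hdec _ hσ₀)) with h | h <;> rw [map_mul] at h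
    · exact h
    · exact absurd (mul_right_cancel (h.trans (one_mul _).symm)) hne
  have hcube : ∀ σ ∈ P.inertiaSubgroupIn ℚ, D.ρbar σ ^ 3 = 1 → D.ρbar σ = 1 := fun σ hσ h => by
    rcases hall σ (hdec σ hσ) with h1 | h1
    · exact h1
    · rw [h1, pow_succ, pow_two, hsq, one_mul] at h
      exact absurd h hne
  have hr : D.sqrtNeg ^ 2 = -((∏ b ∈ D.B, b : ℕ) : Qbar) := D.sqrtNeg_sq
  refine ⟨D.sqrtNeg, -((∏ b ∈ D.B.erase 2, b : ℕ) : ℤ), ?_, ?_, fun σ hσ h => ?_,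
    σ₀, hσ₀, ?_, hne⟩
  · rw [odd_neg, Int.odd_coe_nat, Nat.odd_iff, ← Nat.two_dvd_ne_zero]
    intro h
    obtain ⟨b, hb, h2b⟩ := Nat.prime_two.prime.exists_mem_finset_dvd h
    obtain ⟨hb2, hbB⟩ := Finset.mem_erase.1 hb
    exact hb2 ((Nat.prime_dvd_prime_iff_eq Nat.prime_two (D.prime_mem b hbB)).1 h2b).symm
  · rw [hr, ← Finset.mul_prod_erase D.B (fun b => b) D.two_mem]
    push_cast
    ring
  · exact hcube σ hσ ((D.sqrt _ hr σ).1 h)
  · have h1 : (σ₀ D.sqrtNeg) ^ 2 = D.sqrtNeg ^ 2 := by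
      rw [← map_pow, hr, map_neg, map_natCast]
    exact (sq_eq_sq_iff_eq_or_eq_neg.1 h1).resolve_left fun h =>
      hne (hcube σ₀ hσ₀ ((D.sqrt _ hr σ₀).1 h))

theorem trace_eq_one_of_cube (m : Matrix (Fin 2) (Fin 2) (ZMod 2)) :
    m * m * m = 1 → m ≠ 1 → m.trace = 1 := by
  revert m
  decide

/-- A good prime with a Frobenius element of order three. -/
theorem exists_trace_one (D : Datum) (S : Finset ℕ) :
    ∃ ℓ : ℕ, ℓ.Prime ∧ ℓ ∉ S ∧ ∃ A : ValuationSubring Qbar, A.LiesOverPrime ℓ ∧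
      ∃ τ : Γℚ, A.IsFrobeniusAt τ ℓ ∧
        ((D.ρbar τ : Matrix (Fin 2) (Fin 2) (ZMod 2))).trace = 1 := by
  obtain ⟨g, hg⟩ : ∃ g : GL (Fin 2) (ZMod 2),
      (g : Matrix (Fin 2) (Fin 2) (ZMod 2)) = !![0, 1; 1, 1] :=
    ⟨Matrix.GeneralLinearGroup.mkOfDetNeZero !![0, 1; 1, 1] (by decide), rfl⟩
  have hg3 : g ^ 3 = 1 := Units.ext (by
    rw [Units.val_pow_eq_pow_val, hg, Units.val_one]
    decide)
  have hg1 : g ≠ 1 := fun h => by
    rw [h, Units.val_one] at hg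
    exact absurd hg (by decide)
  obtain ⟨σ, rfl⟩ := D.surj g
  obtain ⟨L, hL, hLc⟩ := D.cont
  obtain ⟨ℓ, hℓ, hℓS, A, hA, τ, hτ, ⟨k, hk⟩, k', hk'⟩ := Density.exists_frobenius_pow σ L S
  have hfix : ∀ x y : Γℚ, (∀ z ∈ L, x z = y z) → D.ρbar x = D.ρbar y := fun x y h => by
    have h1 : D.ρbar (y⁻¹ * x) = 1 := hLc _ ((IntermediateField.mem_fixingSubgroup_iff _ _).2
      fun z hz => by rw [AlgEquiv.mul_apply, h z hz]; exact y.symm_apply_apply z)
    rwa [map_mul, map_inv, inv_mul_eq_one, eq_comm] at h1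
  refine ⟨ℓ, hℓ, hℓS, A, hA, τ, hτ, trace_eq_one_of_cube _ ?_ fun h => hg1 ?_⟩
  · rw [hfix τ (σ ^ k') hk', map_pow, ← Units.val_mul, ← Units.val_mul, ← pow_add, ← pow_add,
      show k' + k' + k' = 3 * k' by ring, pow_mul, hg3, one_pow, Units.val_one]
  · rw [hfix σ (τ ^ k) hk, map_pow, show D.ρbar τ = 1 from Units.ext h, one_pow]

variable {D : Datum} {Q : Finset ℕ} {ε : ℕ → ℤ} [NeZero (D.auxLevel Q)] {f : patternForms D Q ε}
  {O : Type} [CommRing O] [IsDomain O] [IsDiscreteValuationRing O]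
  [IsAdicComplete (IsLocalRing.maximalIdeal O) O] {e : O →+* Q2int}
  {F : TorsionFrame (D.auxLevel Q) 2} {hp : ((2 : ℕ) : O) ∈ IsLocalRing.maximalIdeal O}
  {χ : CuspForm.heckeAlgebra (D.auxLevel Q) 2 (∅ : Set ℕ) →+* O} {ρ : GaloisRepAdic O}

theorem residue_eq_zero_iff_mem (h : FormSource D Q ε f e F hp χ ρ) (x : O) :
    IsLocalRing.residue Q2int (e x) = 0 ↔ x ∈ IsLocalRing.maximalIdeal O := by
  rw [IsLocalRing.residue_eq_zero_iff, IsLocalRing.mem_maximalIdeal, IsLocalRing.mem_maximalIdeal,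
    mem_nonunits_iff, mem_nonunits_iff]
  have := h.isLocalHom
  exact not_congr (isUnit_map_iff e x)

/-- The representation is trivial modulo the maximal ideal exactly where the residual one is. -/
theorem forall_sub_one_mem_iff (h : FormSource D Q ε f e F hp χ ρ) (σ : Γℚ) :
    (∀ i j, (NewformRep.repMatrix ρ σ - 1) i j ∈ IsLocalRing.maximalIdeal O) ↔
      D.ρbar σ = 1 := by
  let R : Γℚ →* Matrix (Fin 2) (Fin 2) Q2res :=
    ((IsLocalRing.residue Q2int).comp e).mapMatrix.toMonoidHom.comp (NewformRep.repMatrix ρ)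
  obtain ⟨U, hU⟩ := RepLemmas.exists_conj_of_trace_eq (rhobarRes D zmodRes) R
    (span_rhobarRes D) fun τ => by
      refine Eq.trans ?_ (AddMonoidHom.map_trace
        ((IsLocalRing.residue Q2int).comp e).toAddMonoidHom (NewformRep.repMatrix ρ τ))
      exact (AddMonoidHom.map_trace zmodRes.toAddMonoidHom _).symm.trans (h.residual τ).symm
  have h1 : (∀ i j, (NewformRep.repMatrix ρ σ - 1) i j ∈ IsLocalRing.maximalIdeal O) ↔
      R σ = 1 := by
    rw [← Matrix.ext_iff]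
    refine forall₂_congr fun i j => ?_
    show _ ↔ IsLocalRing.residue Q2int (e (NewformRep.repMatrix ρ σ i j)) = _
    rw [← residue_eq_zero_iff_mem h, Matrix.sub_apply, map_sub, map_sub, sub_eq_zero]
    by_cases hij : i = j
    · subst hij; simp
    · simp [Matrix.one_apply_ne hij]
  rw [h1, hU σ]
  constructor
  · intro h2
    have h3 : rhobarRes D zmodRes σ = 1 := by
      have := congrArg (fun X => ((U⁻¹ : (Matrix (Fin 2) (Fin 2) Q2res)ˣ) :
        Matrix (Fin 2) (Fin 2) Q2res) * X * (U : Matrix (Fin 2) (Fin 2) Q2res)) h2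
      simpa [Matrix.mul_assoc] using this
    refine Units.ext (Matrix.map_injective zmodRes.injective ?_)
    beta_reduce
    rw [Units.val_one, Matrix.map_one _ (map_zero _) (map_one _)]
    exact h3
  · intro h2
    simp [rhobarRes, h2]

/-- The eigenvalue at a good prime reduces to the residual trace. -/
theorem residue_char (h : FormSource D Q ε f e F hp χ ρ) {ℓ : Nat.Primes}
    (hℓ : ¬ (ℓ : ℕ) ∣ D.auxLevel Q) {A : ValuationSubring Qbar} (hA : A.LiesOverPrime ℓ)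
    {τ : Γℚ} (hτ : A.IsFrobeniusAt τ ℓ) :
    IsLocalRing.residue Q2int (e (χ (heckeGenAt (D.auxLevel Q) ℓ))) =
      zmodRes ((D.ρbar τ : Matrix (Fin 2) (Fin 2) (ZMod 2))).trace := by
  rw [← h.residual τ]
  have h1 := (NewformRep.charpoly_repMatrix ρ τ).trans (h.charpoly ℓ ℓ.2 hℓ A hA τ hτ)
  rw [(NewformRep.trace_det_of_charpoly_eq h1).1, heckeGenAt, dif_neg hℓ]

/-- The integers lifting the residual eigenvalues. -/
theorem exists_ev (hQ : IsAuxSet D Q) (h : FormSource D Q ε f e F hp χ ρ) :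
    ∃ ev : ℕ → ℤ,
      (∀ l : Nat.Primes, ¬ (l : ℕ) ∣ D.auxLevel Q →
        χ (heckeGenAt (D.auxLevel Q) l) - (ev l : O) ∈ IsLocalRing.maximalIdeal O) ∧
      ∃ l₀ : ℕ, l₀.Prime ∧ ¬ l₀ ∣ D.auxLevel Q ∧ Odd (1 + (l₀ : ℤ) - ev l₀) := by
  classical
  let ev : ℕ → ℤ := fun l => if hl : l.Prime then
    (if χ (heckeGenAt (D.auxLevel Q) ⟨l, hl⟩) ∈ IsLocalRing.maximalIdeal O then 0 else 1) else 0
  refine ⟨ev, fun l hl => ?_, ?_⟩
  · simp only [ev, dif_pos l.2]
    split_ifs with hm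
    · rw [Int.cast_zero, sub_zero]
      exact hm
    · obtain ⟨A, τ, hA, hτ⟩ := Galois.exists_valuationSubring_isFrobeniusAt l.2
      rw [← residue_eq_zero_iff_mem h, map_sub, map_sub, sub_eq_zero, Int.cast_one, map_one,
        map_one, residue_char h hl hA hτ]
      have h2 : ((D.ρbar τ : Matrix (Fin 2) (Fin 2) (ZMod 2))).trace ≠ 0 := fun h0 =>
        hm ((residue_eq_zero_iff_mem h _).1
          ((residue_char h hl hA hτ).trans (by rw [h0, map_zero])))
      rw [show ((D.ρbar τ : Matrix (Fin 2) (Fin 2) (ZMod 2))).trace = 1 from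
        Fin.eq_one_of_ne_zero _ h2, map_one]
  · obtain ⟨ℓ, hℓ, hℓS, A, hA, τ, hτ, htr⟩ := exists_trace_one D (D.auxLevel Q).primeFactors
    have hℓN : ¬ ℓ ∣ D.auxLevel Q := fun hd =>
      hℓS (Nat.mem_primeFactors.2 ⟨hℓ, hd, (auxLevel_pos hQ).ne'⟩)
    refine ⟨ℓ, hℓ, hℓN, ?_⟩
    have hm : χ (heckeGenAt (D.auxLevel Q) ⟨ℓ, hℓ⟩) ∉ IsLocalRing.maximalIdeal O := fun hm => by
      rw [← residue_eq_zero_iff_mem h, residue_char h (ℓ := ⟨ℓ, hℓ⟩) hℓN hA hτ, htr, map_one] at hm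
      exact one_ne_zero hm
    simp only [ev, dif_pos hℓ, if_neg hm]
    rw [add_sub_cancel_left, Int.odd_coe_nat]
    exact hℓ.odd_of_ne_two fun h2 => hℓN (h2 ▸ two_dvd_auxLevel D Q)

end Fermat.Agent.Residual.PatternTwo

end
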