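/-
Residual modularity at three: the line at the place above two of the representation of a pattern
form.
-/
import Fermat.Agent.Residual.PatternTwoLevel
import Fermat.Agent.Residual.PatternTwoResidual
import Fermat.Agent.Residual.Ord2Line

set_option autoImplicit false
set_option linter.style.haveILetI false

noncomputable section

namespace Fermat.Agent.Residual

open GaloisAdic

local notation "Qbar" => AlgebraicClosure ℚ
local notation "Γℚ" => (AlgebraicClosure ℚ ≃ₐ[ℚ] AlgebraicClosure ℚ)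

namespace PatternTwo

variable {O : Type} [CommRing O] [IsDomain O] [IsDiscreteValuationRing O]
  [IsAdicComplete (IsLocalRing.maximalIdeal O) O] [CharZero O]
  {hp : ((2 : ℕ) : O) ∈ IsLocalRing.maximalIdeal O} {ρ : GaloisRepAdic O}

/-- The line at two of the constituent of a newform of squarefree even level. -/
theorem isLineAt_of_constituent {N : ℕ} [NeZero N] (h2N : 2 ∣ N) (hsf : Squarefree N)
    {g : CuspForm (CongruenceSubgroup.Gamma0 N) 2} (hg : g.IsNewform) {F : TorsionFrame N 2}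
    {χ : CuspForm.heckeAlgebra N 2 (∅ : Set ℕ) →+* O} (hconst : IsConstituent F hp χ ρ)
    (hfol : Follows g hg.isNormalizedEigenform χ) (sgn : ℕ → ℤ) (hodd : Odd (sgn 2))
    (hsgn : ∀ q : ℕ, q.Prime → q ∣ N → (sgn q : ℂ) = ModularFormClass.qCoeff g q)
    (ev : ℕ → ℤ) (hev : ∀ l : Nat.Primes, ¬ (l : ℕ) ∣ N →
      χ (heckeGenAt N l) - (ev l : O) ∈ IsLocalRing.maximalIdeal O)
    {l₀ : ℕ} (hl₀ : l₀.Prime) (hl₀N : ¬ l₀ ∣ N) (hneis : Odd (1 + (l₀ : ℤ) - ev l₀))
    {P : ValuationSubring Qbar} (hP : P.LiesOverPrime 2)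
    {r : Qbar} {u : ℤ} (hu : Odd u) (hr : r ^ 2 = ((2 * u : ℤ) : Qbar))
    (hfix : ∀ σ ∈ P.inertiaSubgroupIn ℚ, σ r = r →
      ∀ i j, (NewformRep.repMatrix ρ σ - 1) i j ∈ IsLocalRing.maximalIdeal O)
    (hmove : ∃ σ ∈ P.inertiaSubgroupIn ℚ, σ r = -r ∧
      ∃ i j, (NewformRep.repMatrix ρ σ - 1) i j ∉ IsLocalRing.maximalIdeal O)
    {n : ℕ} (hn : 1 ≤ n) :
    IsLineAt (repMod ρ n) P 2 ((sgn 2 : ℤ) : O ⧸ twoPow O n) := by
  have : Fact (Nat.Prime 2) := ⟨Nat.prime_two⟩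
  obtain ⟨M, rfl⟩ : ∃ M, N = M * 2 := ⟨N / 2, (Nat.div_mul_cancel h2N).symm⟩
  have : NeZero M := ⟨fun h => NeZero.ne (M * 2) (by rw [h, zero_mul])⟩
  have hM : ¬ 2 ∣ M :=
    Nat.prime_two.coprime_iff_not_dvd.1 (Nat.squarefree_mul_iff.1 hsf).1.symm
  obtain ⟨s, hs, hsdvd, hsm⟩ := exists_socle hp hn
  have hI : twoPow O n ≠ ⊤ := fun h => by
    have h1 : (1 : O) ∈ twoPow O n := h ▸ Submodule.mem_top
    exact hs ((Ideal.mem_span_singleton.1 h1).trans (one_dvd s))
  have : Nontrivial (O ⧸ twoPow O n) := Ideal.Quotient.nontrivial_iff.2 hI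
  have : IsLocalRing (O ⧸ twoPow O n) :=
    IsLocalRing.of_surjective' (Ideal.Quotient.mk (twoPow O n)) Ideal.Quotient.mk_surjective
  obtain ⟨ψ, hequiv, hfaith, hK, hα, hw, hgood, hbad⟩ :=
    exists_points hM hg hsf hconst hfol sgn hsgn ev hev hs hsdvd hsm
  let ev' : ℕ → ℤ := fun q => if q ∣ M * 2 then sgn q else ev q
  have hentry : ∀ σ i j, (repMod ρ n σ - 1) i j =
      Ideal.Quotient.mk (twoPow O n) ((NewformRep.repMatrix ρ σ - 1) i j) := fun σ i j => by
    rw [Matrix.sub_apply, Matrix.sub_apply, map_sub]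
    by_cases hij : i = j
    · subst hij; simp [repMod]
    · simp [repMod, Matrix.one_apply_ne hij]
  refine Ord2.isLineAt_two hM hP ?_ (s := Ideal.Quotient.mk (twoPow O n) s) ?_ ?_ ψ
    (fun σ _ z => hequiv σ z) hfaith hK hα hodd hw ev' (fun l hl z => ?_) (fun q hq _ z => ?_)
    hl₀ hl₀N ?_ hu hr ?_ ?_
  · have h := mk_mem_maximalIdeal hI hp
    rwa [map_natCast, Nat.cast_ofNat] at h
  · exact fun h => hs ((mk_eq_zero_iff_dvd s).1 h)
  · intro b hb
    obtain ⟨b, rfl⟩ := Ideal.Quotient.mk_surjective b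
    obtain ⟨v, hv⟩ := hsdvd b fun h => hb ((mk_eq_zero_iff_dvd b).2 h)
    refine ⟨Ideal.Quotient.mk (twoPow O n) v, ?_⟩
    rw [← map_mul, eq_comm, ← sub_eq_zero, ← map_sub, mk_eq_zero_iff_dvd, mul_comm]
    exact hv
  · simp only [ev', if_neg hl]
    exact hgood l hl z
  · haveI : NeZero (q : ℕ) := ⟨q.2.ne_zero⟩
    simp only [ev', if_pos hq]
    exact hbad q q.2 hq _
  · simp only [ev', if_neg hl₀N]
    exact hneis
  · intro σ hσ h i j
    rw [hentry]
    exact mk_mem_maximalIdeal hI (hfix σ hσ h i j)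
  · obtain ⟨σ, hσ, hσr, i, j, hij⟩ := hmove
    exact ⟨σ, hσ, hσr, i, j, (hentry σ i j).symm ▸ (IsLocalRing.notMem_maximalIdeal.1 hij).map _⟩

section FormSource

variable {D : Datum} {Q : Finset ℕ} {ε : ℕ → ℤ}

theorem mem_union_of_dvd_auxLevel (hQ : IsAuxSet D Q) {p : ℕ} (hp : p.Prime)
    (h : p ∣ D.auxLevel Q) : p ∈ D.B ∪ Q := by
  rcases hp.dvd_mul.1 h with h | h <;> obtain ⟨b, hb, hpb⟩ := hp.prime.exists_mem_finset_dvd h
  · exact Finset.mem_union_left _
      ((Nat.prime_dvd_prime_iff_eq hp (D.prime_mem b hb)).1 hpb ▸ hb)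
  · exact Finset.mem_union_right _ ((Nat.prime_dvd_prime_iff_eq hp (hQ b hb).1).1 hpb ▸ hb)

/-- At the primes of the level the coefficients of a pattern form are the signs. -/
theorem qCoeff_eq_sign (hQ : IsAuxSet D Q) (f : patternForms D Q ε) {q : ℕ} (hq : q.Prime)
    (hqN : q ∣ D.auxLevel Q) :
    ((ε q : ℤ) : ℂ) = ModularFormClass.qCoeff
      (f : CuspForm (CongruenceSubgroup.Gamma0 (D.auxLevel Q)) 2) q :=
  (f.2.2 q (mem_union_of_dvd_auxLevel hQ hq hqN)).symm

/-- In a discrete valuation ring a non-zero element divides a power of an element of the maximal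
ideal. -/
theorem exists_mul_eq_pow {R : Type*} [CommRing R] [IsDomain R] [IsDiscreteValuationRing R]
    {x a : R} (hx : x ∈ IsLocalRing.maximalIdeal R) (ha : a ≠ 0) :
    ∃ (k : ℕ) (b : R), b * a = x ^ k := by
  obtain ⟨π, hπ⟩ := IsDiscreteValuationRing.exists_irreducible R
  obtain ⟨j, u, rfl⟩ := IsDiscreteValuationRing.eq_unit_mul_pow_irreducible ha hπ
  rw [hπ.maximalIdeal_eq, Ideal.mem_span_singleton] at hx
  obtain ⟨w, rfl⟩ := hx
  refine ⟨j, ↑u⁻¹ * w ^ j, ?_⟩
  rw [mul_pow, mul_mul_mul_comm, Units.inv_mul, one_mul, mul_comm]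

omit [CharZero O] in
/-- The character of a form source does not vanish where the eigencharacter does not. -/
theorem follows [NeZero (D.auxLevel Q)] {f : patternForms D Q ε} {e : O →+* Q2int}
    {F : TorsionFrame (D.auxLevel Q) 2}
    {χ : CuspForm.heckeAlgebra (D.auxLevel Q) 2 (∅ : Set ℕ) →+* O}
    (h : FormSource D Q ε f e F hp χ ρ) :
    Follows (f : CuspForm (CongruenceSubgroup.Gamma0 (D.auxLevel Q)) 2)
      f.2.1.1.isNormalizedEigenform χ := by
  intro t ht
  have h2 : (2 : O) ∈ IsLocalRing.maximalIdeal O := by rwa [Nat.cast_ofNat] at hp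
  refine exists_mul_eq_pow h2 fun h0 => ht ?_
  have h1 := h.eigen t
  rw [h0, map_zero] at h1
  exact congrArg Subtype.val ((map_eq_zero_iff twoEmb twoEmb_injective).1 h1.symm)

end FormSource

end PatternTwo

variable {D : Datum} {Q : Finset ℕ} {ε : ℕ → ℤ}

/-- At two the representation of a pattern form has, modulo every `2 ^ n`, an unramified quotient
on which Frobenius is the sign. -/
theorem isLineAt_two_formSource (hQ : IsAuxSet D Q) (hε : IsPattern ε) [NeZero (D.auxLevel Q)]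
    (f : patternForms D Q ε) {O : Type} [CommRing O] [IsDomain O] [IsDiscreteValuationRing O]
    [IsAdicComplete (IsLocalRing.maximalIdeal O) O] [CharZero O] {e : O →+* Q2int}
    {F : TorsionFrame (D.auxLevel Q) 2} {hp : ((2 : ℕ) : O) ∈ IsLocalRing.maximalIdeal O}
    {χ : CuspForm.heckeAlgebra (D.auxLevel Q) 2 (∅ : Set ℕ) →+* O} {ρ : GaloisRepAdic O}
    (h : FormSource D Q ε f e F hp χ ρ) {n : ℕ} (hn : 1 ≤ n)
    {P : ValuationSubring Qbar} (hP : P.LiesOverPrime 2) :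
    IsLineAt (((Ideal.Quotient.mk (Ideal.span {(2 : Q2int) ^ n})).comp e).mapMatrix.toMonoidHom.comp
      (NewformRep.repMatrix ρ)) P 2 ((ε 2 : ℤ) : Q2int ⧸ Ideal.span {(2 : Q2int) ^ n}) := by
  obtain ⟨ev, hev, l₀, hl₀, hl₀N, hneis⟩ := PatternTwo.exists_ev hQ h
  obtain ⟨r, u, hu, hr, hfix, σ, hσ, hσr, hσne⟩ := PatternTwo.exists_sqrt_two D hP
  have hodd : Odd (ε 2) := by
    rcases hε 2 with h2 | h2 <;> rw [h2] <;> decide
  have key := PatternTwo.isLineAt_of_constituent (two_dvd_auxLevel D Q) (Eigen2.squarefree_auxLevel hQ)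
    f.2.1.1 h.constituent (PatternTwo.follows h) ε hodd
    (fun q hq hqN => PatternTwo.qCoeff_eq_sign hQ f hq hqN) ev hev hl₀ hl₀N hneis hP hu hr
    (fun τ hτ hτr => (PatternTwo.forall_sub_one_mem_iff h τ).2 (hfix τ hτ hτr))
    ⟨σ, hσ, hσr, by
      by_contra hcon
      push Not at hcon
      exact hσne ((PatternTwo.forall_sub_one_mem_iff h σ).1 hcon)⟩ hn
  let I : Ideal Q2int := Ideal.span {(2 : Q2int) ^ n}
  let φ : O ⧸ PatternTwo.twoPow O n →+* Q2int ⧸ I :=
    Ideal.Quotient.lift (PatternTwo.twoPow O n) ((Ideal.Quotient.mk I).comp e) fun x hx => by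
      obtain ⟨y, rfl⟩ := Ideal.mem_span_singleton'.1 hx
      rw [RingHom.comp_apply, Ideal.Quotient.eq_zero_iff_mem, Ideal.mem_span_singleton, map_mul,
        map_pow, map_natCast, Nat.cast_ofNat]
      exact dvd_mul_left _ _
  have h2 := PatternTwo.isLineAt_map φ key
  rw [map_intCast] at h2
  exact h2

end Fermat.Agent.Residual

end
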