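/-
Residual modularity at three: the normalised representation of one pattern form, with its lines
at the primes of the level.
-/
import Fermat.Agent.Residual.PatternForm
import Fermat.Agent.Residual.PatternTwo
import Fermat.Agent.Residual.PatternSign

set_option autoImplicit false

noncomputable section

open scoped Matrix

namespace Fermat.Agent.Residual

open GaloisAdic

local notation "Qbar" => AlgebraicClosure ℚ
local notation "Γℚ" => (AlgebraicClosure ℚ ≃ₐ[ℚ] AlgebraicClosure ℚ)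

variable {D : Datum} {Q : Finset ℕ} {ε : ℕ → ℤ}

theorem IsLineAt.map {R S : Type*} [CommRing R] [CommRing S]
    {ρ : Γℚ →* Matrix (Fin 2) (Fin 2) R} {P : ValuationSubring Qbar} {p : ℕ} {a : R}
    (h : IsLineAt ρ P p a) (f : R →+* S) :
    IsLineAt (f.mapMatrix.toMonoidHom.comp ρ) P p (f a) := by
  obtain ⟨v, ⟨i, hi⟩, hI, hF⟩ := h
  have key : ∀ (σ : Γℚ) (c b : R), ρ σ *ᵥ v = c • v → (ρ σ).trace = c + b →
      ((f.mapMatrix.toMonoidHom.comp ρ) σ) *ᵥ (f ∘ v) = f c • (f ∘ v) ∧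
        ((f.mapMatrix.toMonoidHom.comp ρ) σ).trace = f c + f b := fun σ c b hc ht => by
    refine ⟨funext fun j => ?_, ?_⟩
    · have h1 := congrArg f (congrFun hc j)
      rw [RingHom.map_mulVec] at h1
      simpa [Function.comp_def] using h1
    · rw [← map_add, ← ht]
      exact (AddMonoidHom.map_trace f.toAddMonoidHom _).symm
  refine ⟨f ∘ v, ⟨i, hi.map f⟩, fun σ hσ => ?_, fun σ hσ => ?_⟩
  · obtain ⟨c, hc, ht⟩ := hI σ hσ
    obtain ⟨h1, h2⟩ := key σ c 1 hc ht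
    exact ⟨f c, h1, by rw [h2, map_one]⟩
  · obtain ⟨c, hc, ht⟩ := hF σ hσ
    exact ⟨f c, key σ c a hc ht⟩

/-- The properties of the normalised representation of a pattern form. -/
structure IsFormRep (D : Datum) (Q : Finset ℕ) (ε : ℕ → ℤ) (f : patternForms D Q ε)
    (r : Γℚ →* Matrix (Fin 2) (Fin 2) Q2int) : Prop where
  cont : ∀ n : ℕ, ∃ L : IntermediateField ℚ Qbar, FiniteDimensional ℚ L ∧
    ∀ σ : Γℚ, (∀ x ∈ L, σ x = x) → ∀ i j, (2 : Q2int) ^ n ∣ (r σ - 1) i j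
  det_eq : ∀ σ, (r σ).det = algebraMap ℤ_[2] Q2int (padicCyclo 2 σ)
  unram : ∀ p : ℕ, p.Prime → ¬ p ∣ D.auxLevel Q → ∀ P : ValuationSubring Qbar,
    P.LiesOverPrime p → ∀ σ ∈ P.inertiaSubgroupIn ℚ, r σ = 1
  trace_frob : ∀ ℓ : ℕ, ℓ.Prime → ¬ ℓ ∣ D.auxLevel Q → ∀ A : ValuationSubring Qbar,
    A.LiesOverPrime ℓ → ∀ τ : Γℚ, A.IsFrobeniusAt τ ℓ → (r τ).trace = patternGen D Q ε ℓ f
  residual : ∀ σ, (r σ).map (IsLocalRing.residue Q2int) = rhobarRes D zmodRes σ
  line : ∀ p ∈ D.B ∪ Q, ∀ P : ValuationSubring Qbar, P.LiesOverPrime p → ∀ n : ℕ, 1 ≤ n →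
    IsLineAt ((Ideal.Quotient.mk (Ideal.span {(2 : Q2int) ^ n})).mapMatrix.toMonoidHom.comp r)
      P p ((ε p : ℤ) : Q2int ⧸ Ideal.span {(2 : Q2int) ^ n})

theorem isLocalRing_quotient_two_pow {n : ℕ} (hn : 1 ≤ n) :
    IsLocalRing (Q2int ⧸ Ideal.span {(2 : Q2int) ^ n}) := by
  have : Nontrivial (Q2int ⧸ Ideal.span {(2 : Q2int) ^ n}) :=
    Ideal.Quotient.nontrivial_iff.2 fun h => by
      rw [Ideal.span_singleton_eq_top, isUnit_pow_iff (Nat.one_le_iff_ne_zero.1 hn)] at h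
      exact two_mem_maximalIdeal_Q2int h
  exact IsLocalRing.of_surjective' _ Ideal.Quotient.mk_surjective

theorem exists_formRep (hQ : IsAuxSet D Q) (hε : IsPattern ε) (f : patternForms D Q ε) :
    ∃ r : Γℚ →* Matrix (Fin 2) (Fin 2) Q2int, IsFormRep D Q ε f r := by
  classical
  have : NeZero (D.auxLevel Q) := ⟨(auxLevel_pos hQ).ne'⟩
  obtain ⟨O, i1, i2, i3, i4, i5, e, F, hp, χ, ρ, hS⟩ := exists_formSource hQ f
  let r₀ : Γℚ →* Matrix (Fin 2) (Fin 2) Q2int :=
    e.mapMatrix.toMonoidHom.comp (NewformRep.repMatrix ρ)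
  have hr₀tr : ∀ σ, (r₀ σ).trace = e (NewformRep.repMatrix ρ σ).trace := fun σ =>
    (AddMonoidHom.map_trace e.toAddMonoidHom _).symm
  let R : Γℚ →* Matrix (Fin 2) (Fin 2) Q2res :=
    (IsLocalRing.residue Q2int).mapMatrix.toMonoidHom.comp r₀
  have hRtr : ∀ σ, (rhobarRes D zmodRes σ).trace = (R σ).trace := fun σ => by
    have h1 : (R σ).trace = IsLocalRing.residue Q2int (r₀ σ).trace :=
      (AddMonoidHom.map_trace (IsLocalRing.residue Q2int).toAddMonoidHom _).symm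
    rw [h1, hr₀tr, hS.residual]
    exact (AddMonoidHom.map_trace zmodRes.toAddMonoidHom _).symm
  obtain ⟨P, hP⟩ := RepLemmas.exists_conj_of_trace_eq (rhobarRes D zmodRes) R (span_rhobarRes D) hRtr
  choose T hT using fun i j => IsLocalRing.residue_surjective ((P : Matrix (Fin 2) (Fin 2) Q2res) i j)
  have hTmap : (Matrix.of T).map (IsLocalRing.residue Q2int) = (P : Matrix (Fin 2) (Fin 2) Q2res) :=
    Matrix.ext fun i j => hT i j
  have hTu : IsUnit (Matrix.of T) := by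
    rw [Matrix.isUnit_iff_isUnit_det]
    refine isUnit_of_map_unit (IsLocalRing.residue Q2int) _ ?_
    rw [RingHom.map_det, RingHom.mapMatrix_apply, hTmap]
    exact (Matrix.isUnit_iff_isUnit_det _).1 P.isUnit
  obtain ⟨U, hU⟩ := hTu
  let r : Γℚ →* Matrix (Fin 2) (Fin 2) Q2int :=
    { toFun := fun σ => ((U⁻¹ : (Matrix (Fin 2) (Fin 2) Q2int)ˣ) : Matrix (Fin 2) (Fin 2) Q2int) *
        r₀ σ * (U : Matrix (Fin 2) (Fin 2) Q2int)
      map_one' := by rw [map_one, Matrix.mul_one, Units.inv_mul]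
      map_mul' := fun a b => by
        rw [map_mul]
        simp only [Matrix.mul_assoc, Units.mul_inv_cancel_left] }
  have hr : ∀ σ, r σ = ((U⁻¹ : (Matrix (Fin 2) (Fin 2) Q2int)ˣ) : Matrix (Fin 2) (Fin 2) Q2int) *
      r₀ σ * (((U⁻¹)⁻¹ : (Matrix (Fin 2) (Fin 2) Q2int)ˣ) : Matrix (Fin 2) (Fin 2) Q2int) :=
    fun σ => by rw [inv_inv]; rfl
  have htr : ∀ σ, (r σ).trace = e (NewformRep.repMatrix ρ σ).trace := fun σ => by
    rw [hr, Matrix.trace_units_conj, hr₀tr]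
  have hdet : ∀ σ, (r σ).det = algebraMap ℤ_[2] Q2int (padicCyclo 2 σ) := fun σ => by
    rw [hr, Matrix.det_units_conj]
    show (e.mapMatrix _).det = _
    rw [← RingHom.map_det, NewformRep.det_repMatrix, hS.det_eq]
    exact padicHom_eq (e.comp (padicIntHom O hp)) _
  have hcont : ∀ n : ℕ, ∃ L : IntermediateField ℚ Qbar, FiniteDimensional ℚ L ∧
      ∀ σ : Γℚ, (∀ x ∈ L, σ x = x) → ∀ i j, (2 : Q2int) ^ n ∣ (r σ - 1) i j := fun n => by
    obtain ⟨m, hm⟩ := hS.pow_mem n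
    obtain ⟨L, hL, hLc⟩ := NewformRep.repMatrix_continuous ρ m
    refine ⟨L, hL, fun σ hσ i j => ?_⟩
    have h0 : ∀ a b, (2 : Q2int) ^ n ∣ (r₀ σ - 1) a b := fun a b => by
      have h1 : (r₀ σ - 1) a b = e ((NewformRep.repMatrix ρ σ - 1) a b) := by
        show (e.mapMatrix (NewformRep.repMatrix ρ σ) - 1) a b = _
        rw [← map_one e.mapMatrix, ← map_sub]
        rfl
      rw [h1]
      exact hm _ (hLc σ hσ a b)
    have h2 : r σ - 1 = ((U⁻¹ : (Matrix (Fin 2) (Fin 2) Q2int)ˣ) : Matrix (Fin 2) (Fin 2) Q2int) *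
        (r₀ σ - 1) * (U : Matrix (Fin 2) (Fin 2) Q2int) := by
      rw [Matrix.mul_sub, Matrix.sub_mul, Matrix.mul_one, Units.inv_mul]
      rfl
    rw [h2, Matrix.mul_apply]
    refine Finset.dvd_sum fun x _ => Dvd.dvd.mul_right ?_ _
    rw [Matrix.mul_apply]
    exact Finset.dvd_sum fun y _ => (h0 y x).mul_left _
  refine ⟨r, hcont, hdet, fun p hp hpL P' hP' σ hσ => ?_, fun ℓ hℓ hℓL A hA τ hτ => ?_,
    fun σ => ?_, fun p hp P' hP' n hn => ?_⟩
  · have h1 : NewformRep.repMatrix ρ σ = 1 := by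
      show LinearMap.toMatrixAlgEquiv _ (ρ.ρ σ) = 1
      rw [hS.unram p hp hpL P' hP' σ hσ, map_one]
    rw [hr]
    show _ * e.mapMatrix (NewformRep.repMatrix ρ σ) * _ = _
    rw [h1, map_one, Matrix.mul_one, ← Units.val_mul, mul_inv_cancel, Units.val_one]
  · have h1 := (NewformRep.charpoly_repMatrix ρ τ).trans (hS.charpoly ℓ hℓ hℓL A hA τ hτ)
    rw [htr, (NewformRep.trace_det_of_charpoly_eq h1).1, hS.eigen,
      congrFun (patternGen_eq_patternHom (ε := ε) hℓ hℓL) f]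
  · show (IsLocalRing.residue Q2int).mapMatrix (r σ) = _
    let UP : (Matrix (Fin 2) (Fin 2) Q2res)ˣ :=
      Units.map (IsLocalRing.residue Q2int).mapMatrix.toMonoidHom U
    have hUP : UP = P := Units.ext (by
      show (IsLocalRing.residue Q2int).mapMatrix (U : Matrix (Fin 2) (Fin 2) Q2int) = _
      rw [hU]
      exact hTmap)
    rw [hr, inv_inv, map_mul, map_mul]
    show ((UP⁻¹ : (Matrix (Fin 2) (Fin 2) Q2res)ˣ) : Matrix (Fin 2) (Fin 2) Q2res) * R σ *
      (UP : Matrix (Fin 2) (Fin 2) Q2res) = _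
    rw [hUP, hP σ]
    simp only [← Matrix.mul_assoc, Units.inv_mul, Matrix.one_mul]
    rw [Matrix.mul_assoc, Units.inv_mul, Matrix.mul_one]
  · have := isLocalRing_quotient_two_pow hn
    set π := Ideal.Quotient.mk (Ideal.span {(2 : Q2int) ^ n}) with hπ
    rcases eq_or_ne p 2 with rfl | hp2
    · refine (isLineAt_two_formSource hQ hε f hS hn hP').conj
        (Units.map π.mapMatrix.toMonoidHom U⁻¹) fun σ => ?_
      show π.mapMatrix (r σ) = _
      rw [hr, map_mul, map_mul]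
      rfl
    · have hpp : p.Prime := by
        rcases Finset.mem_union.1 hp with h | h
        · exact D.prime_mem p h
        · exact (hQ p h).1
      have ha : ((ε p : ℤ) : Q2int) = 1 ∨ ((ε p : ℤ) : Q2int) = -1 := by
        rcases hε p with h | h <;> simp [h]
      have hline := (isLineAt_of_frobenius_traces r hpp hp2 hP' hcont ha fun σ hσ =>
        ⟨(htr σ).trans (trace_frobenius_formSource hQ hε f hS hp hp2 hP' hσ), by
          rw [hdet, padicCyclo_frobenius 2 hpp hp2 hP' hσ, map_natCast]⟩).map π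
      rwa [map_intCast] at hline

end Fermat.Agent.Residual

end
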