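/-
Residual modularity at three: functions on the pattern forms modulo `2 ^ N` which are residually
constant, and the image of the Hecke algebra among them.
-/
import Fermat.Agent.Residual.PatternRep
import Fermat.Agent.Residual.PatternFamily
import Mathlib.RingTheory.AdicCompletion.Noetherian

set_option autoImplicit false

noncomputable section

namespace Fermat.Agent.Residual

variable {D : Datum} {Q : Finset ℕ} {ε : ℕ → ℤ} {N : ℕ}

/-- The integers of `ℚ̄₂` modulo `2 ^ N`. -/
abbrev Q2mod (N : ℕ) : Type := Q2int ⧸ Ideal.span {(2 : Q2int) ^ N}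

/-- Reduction of `Q2mod N` to the residue field. -/
def q2modRes (hN : 1 ≤ N) : Q2mod N →+* Q2res :=
  Ideal.Quotient.lift _ (IsLocalRing.residue Q2int) fun a ha =>
    (IsLocalRing.residue_eq_zero_iff a).2 (by
      obtain ⟨t, rfl⟩ := Ideal.mem_span_singleton.1 ha
      exact Ideal.mul_mem_right _ _
        (Ideal.pow_mem_of_mem _ two_mem_maximalIdeal_Q2int _ hN))

theorem q2modRes_mk (hN : 1 ≤ N) (x : Q2int) :
    q2modRes hN (Ideal.Quotient.mk _ x) = IsLocalRing.residue Q2int x :=
  Ideal.Quotient.lift_mk ..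

theorem isUnit_of_q2modRes_ne_zero (hN : 1 ≤ N) {x : Q2mod N} (hx : q2modRes hN x ≠ 0) :
    IsUnit x := by
  obtain ⟨y, rfl⟩ := Ideal.Quotient.mk_surjective x
  rw [q2modRes_mk, IsLocalRing.residue_ne_zero_iff_isUnit] at hx
  exact hx.map _

/-- Functions on the pattern forms modulo `2 ^ N`, residually a common element of `𝔽₂`. -/
def coeffRing (D : Datum) (Q : Finset ℕ) (ε : ℕ → ℤ) (hN : 1 ≤ N) :
    Subring (patternForms D Q ε → Q2mod N) where
  carrier := {x | ∃ b : ZMod 2, ∀ f, q2modRes hN (x f) = zmodRes b}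
  mul_mem' := by
    rintro x y ⟨b, hb⟩ ⟨c, hc⟩
    exact ⟨b * c, fun f => by rw [Pi.mul_apply, map_mul, hb, hc, map_mul]⟩
  one_mem' := ⟨1, fun f => by rw [Pi.one_apply, map_one, map_one]⟩
  add_mem' := by
    rintro x y ⟨b, hb⟩ ⟨c, hc⟩
    exact ⟨b + c, fun f => by rw [Pi.add_apply, map_add, hb, hc, map_add]⟩
  zero_mem' := ⟨0, fun f => by rw [Pi.zero_apply, map_zero, map_zero]⟩
  neg_mem' := by
    rintro x ⟨b, hb⟩
    exact ⟨-b, fun f => by rw [Pi.neg_apply, map_neg, hb, map_neg]⟩

variable {hN : 1 ≤ N}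

/-- The common residual value. -/
def coeffRes (f₀ : patternForms D Q ε) : coeffRing D Q ε hN →+* ZMod 2 where
  toFun x := x.2.choose
  map_one' := zmodRes.injective
    (((1 : coeffRing D Q ε hN).2.choose_spec f₀).symm.trans (by simp))
  map_zero' := zmodRes.injective
    (((0 : coeffRing D Q ε hN).2.choose_spec f₀).symm.trans (by simp))
  map_mul' x y := zmodRes.injective (by
    rw [← (x * y).2.choose_spec f₀, map_mul, ← x.2.choose_spec f₀, ← y.2.choose_spec f₀]
    exact map_mul _ _ _)
  map_add' x y := zmodRes.injective (by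
    rw [← (x + y).2.choose_spec f₀, map_add, ← x.2.choose_spec f₀, ← y.2.choose_spec f₀]
    exact map_add _ _ _)

theorem coeffRes_spec (f₀ : patternForms D Q ε) (x : coeffRing D Q ε hN)
    (f : patternForms D Q ε) :
    q2modRes hN ((x : patternForms D Q ε → Q2mod N) f) = zmodRes (coeffRes f₀ x) :=
  x.2.choose_spec f

theorem coeffRes_eq_of_residue (f₀ : patternForms D Q ε) (x : coeffRing D Q ε hN) {b : ZMod 2}
    (h : q2modRes hN ((x : patternForms D Q ε → Q2mod N) f₀) = zmodRes b) : coeffRes f₀ x = b :=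
  zmodRes.injective ((coeffRes_spec f₀ x f₀).symm.trans h)

theorem zmod_two_eq (a : ZMod 2) : a = 0 ∨ a = 1 := by
  revert a; decide

theorem isUnit_coeffRing (f₀ : patternForms D Q ε) {x : coeffRing D Q ε hN}
    (hx : coeffRes f₀ x = 1) : IsUnit x := by
  have hu : ∀ f, IsUnit ((x : patternForms D Q ε → Q2mod N) f) := fun f =>
    isUnit_of_q2modRes_ne_zero hN (by rw [coeffRes_spec f₀, hx, map_one]; exact one_ne_zero)
  choose y hy using fun f => (hu f).exists_right_inv
  have hym : y ∈ coeffRing D Q ε hN := ⟨1, fun f => by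
    have h := congrArg (q2modRes hN) (hy f)
    rwa [map_mul, coeffRes_spec f₀, hx, map_one, one_mul, map_one, ← map_one zmodRes] at h⟩
  exact .of_mul_eq_one ⟨y, hym⟩ (Subtype.ext (funext hy))

theorem isLocalRing_coeffRing (f₀ : patternForms D Q ε) :
    IsLocalRing (coeffRing D Q ε hN) := by
  have : Nontrivial (coeffRing D Q ε hN) := (coeffRes (hN := hN) f₀).domain_nontrivial
  refine IsLocalRing.of_isUnit_or_isUnit_one_sub_self fun x => ?_
  rcases zmod_two_eq (coeffRes f₀ x) with h | h
  · exact Or.inr (isUnit_coeffRing f₀ (by rw [map_sub, map_one, h, sub_zero]))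
  · exact Or.inl (isUnit_coeffRing f₀ h)

theorem residueField_two_coeffRing (f₀ : patternForms D Q ε)
    (p : Ideal (coeffRing D Q ε hN)) (hp : p.IsMaximal) (x : coeffRing D Q ε hN) :
    x ∈ p ∨ x - 1 ∈ p := by
  have := isLocalRing_coeffRing (hN := hN) f₀
  rw [IsLocalRing.eq_maximalIdeal hp, IsLocalRing.mem_maximalIdeal, IsLocalRing.mem_maximalIdeal]
  rcases zmod_two_eq (coeffRes f₀ x) with h | h
  · refine Or.inl fun hu => ?_
    have := hu.map (coeffRes f₀)
    rw [h] at this
    exact not_isUnit_zero this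
  · refine Or.inr fun hu => ?_
    have := hu.map (coeffRes f₀)
    rw [map_sub, h, map_one, sub_self] at this
    exact not_isUnit_zero this

/-- The Hecke algebra of the pattern acting on the forms modulo `2 ^ N`. -/
def patternCoeff (D : Datum) (Q : Finset ℕ) (ε : ℕ → ℤ) (hN : 1 ≤ N) :
    patternAlgebra D Q ε →+* coeffRing D Q ε hN :=
  RingHom.codRestrict
    (RingHom.pi fun f => (Ideal.Quotient.mk _).comp
      ((Pi.evalRingHom (fun _ => Q2int) f).comp (patternAlgebra D Q ε).val.toRingHom))
    _ fun x => by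
      obtain ⟨n, hn⟩ := exists_residue_int x
      refine ⟨(n : ZMod 2), fun f => ?_⟩
      rw [map_intCast, ← map_intCast (IsLocalRing.residue Q2int)]
      refine (q2modRes_mk hN _).trans ?_
      rw [← sub_eq_zero, ← map_sub, IsLocalRing.residue_eq_zero_iff]
      exact twoMax_le_maximalIdeal (hn f)

theorem patternCoeff_apply (x : patternAlgebra D Q ε) (f : patternForms D Q ε) :
    ((patternCoeff D Q ε hN x : coeffRing D Q ε hN) : patternForms D Q ε → Q2mod N) f =
      Ideal.Quotient.mk _ ((x : patternForms D Q ε → Q2int) f) :=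
  rfl

/-- The image of the Hecke algebra of the pattern among the functions modulo `2 ^ N`. -/
abbrev coeffImage (D : Datum) (Q : Finset ℕ) (ε : ℕ → ℤ) (hN : 1 ≤ N) :
    Subring (coeffRing D Q ε hN) :=
  (patternCoeff D Q ε hN).range

/-- The residual value on the image. -/
def imageRes (f₀ : patternForms D Q ε) : coeffImage D Q ε hN →+* ZMod 2 :=
  (coeffRes f₀).comp (coeffImage D Q ε hN).subtype

theorem isLocalRing_coeffImage (hQ : IsAuxSet D Q) (f₀ : patternForms D Q ε) :
    IsLocalRing (coeffImage D Q ε hN) := by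
  have := isLocalRing_patternAlgebra hQ ⟨f₀.1, f₀.2⟩
  have : Nontrivial (coeffImage D Q ε hN) := (imageRes (hN := hN) f₀).domain_nontrivial
  exact IsLocalRing.of_surjective' _ (patternCoeff D Q ε hN).rangeRestrict_surjective

theorem finite_coeffImage (hQ : IsAuxSet D Q) : Finite (coeffImage D Q ε hN) := by
  have := finite_patternAlgebra_quotient (ε := ε) hQ N
  let u : PatternQuot D Q ε N →+* coeffImage D Q ε hN :=
    Ideal.Quotient.lift (Ideal.span {(2 : patternAlgebra D Q ε) ^ N})
      (patternCoeff D Q ε hN).rangeRestrict fun x hx => by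
        obtain ⟨t, rfl⟩ := Ideal.mem_span_singleton.1 hx
        refine Subtype.ext (Subtype.ext (funext fun f => ?_))
        show Ideal.Quotient.mk _ (((2 ^ N * t : patternAlgebra D Q ε) :
          patternForms D Q ε → Q2int) f) = 0
        refine Ideal.Quotient.eq_zero_iff_mem.2 (Ideal.mem_span_singleton.2 ?_)
        push_cast
        rw [Pi.mul_apply, Pi.pow_apply]
        exact dvd_mul_right _ _
  exact Finite.of_surjective u fun y => by
    obtain ⟨x, hx⟩ := (patternCoeff D Q ε hN).rangeRestrict_surjective y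
    exact ⟨Ideal.Quotient.mk _ x, hx⟩

theorem ker_imageRes (f₀ : patternForms D Q ε) [IsLocalRing (coeffImage D Q ε hN)] :
    RingHom.ker (imageRes (hN := hN) f₀) = IsLocalRing.maximalIdeal (coeffImage D Q ε hN) := by
  have := RingHom.ker_isMaximal_of_surjective (imageRes (hN := hN) f₀)
    (ZMod.ringHom_surjective _)
  exact IsLocalRing.eq_maximalIdeal this

theorem isUnit_coeffImage_iff (f₀ : patternForms D Q ε) [IsLocalRing (coeffImage D Q ε hN)]
    (x : coeffImage D Q ε hN) : IsUnit x ↔ imageRes f₀ x = 1 := by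
  rw [← IsLocalRing.notMem_maximalIdeal, ← ker_imageRes f₀, RingHom.mem_ker]
  rcases zmod_two_eq (imageRes f₀ x) with h | h <;> simp [h]

end Fermat.Agent.Residual

end
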