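/-
Residual modularity at three: the representation on all forms of a pattern modulo `2 ^ N`, and
its descent to the image of the Hecke algebra.
-/
import Fermat.Agent.Residual.PatternCoeff

set_option autoImplicit false

noncomputable section

open scoped Matrix

namespace Fermat.Agent.Residual

open GaloisAdic

local notation "Qbar" => AlgebraicClosure ℚ
local notation "Γℚ" => (AlgebraicClosure ℚ ≃ₐ[ℚ] AlgebraicClosure ℚ)

variable {D : Datum} {Q : Finset ℕ} {ε : ℕ → ℤ} {N : ℕ} {hN : 1 ≤ N}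

/-- Evaluation at a form. -/
def coeffEval (hN : 1 ≤ N) (f : patternForms D Q ε) : coeffRing D Q ε hN →+* Q2mod N :=
  (Pi.evalRingHom (fun _ => Q2mod N) f).comp (coeffRing D Q ε hN).subtype

theorem coeffEval_ext {x y : coeffRing D Q ε hN}
    (h : ∀ f, coeffEval hN f x = coeffEval hN f y) : x = y :=
  Subtype.ext (funext h)

theorem coeffEval_matrix_ext {X Y : Matrix (Fin 2) (Fin 2) (coeffRing D Q ε hN)}
    (h : ∀ f, (coeffEval hN f).mapMatrix X = (coeffEval hN f).mapMatrix Y) : X = Y :=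
  Matrix.ext fun i j => coeffEval_ext fun f => congrFun (congrFun (h f) i) j

theorem coeffEval_patternCoeff (x : patternAlgebra D Q ε) (f : patternForms D Q ε) :
    coeffEval hN f (patternCoeff D Q ε hN x) =
      Ideal.Quotient.mk _ ((x : patternForms D Q ε → Q2int) f) :=
  rfl

/-- Entrywise maps commute with the trace. -/
theorem trace_mapMatrix {R S : Type*} [CommRing R] [CommRing S] (φ : R →+* S)
    (X : Matrix (Fin 2) (Fin 2) R) : (φ.mapMatrix X).trace = φ X.trace :=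
  (AddMonoidHom.map_trace φ.toAddMonoidHom X).symm

theorem det_mapMatrix {R S : Type*} [CommRing R] [CommRing S] (φ : R →+* S)
    (X : Matrix (Fin 2) (Fin 2) R) : (φ.mapMatrix X).det = φ X.det :=
  (RingHom.map_det φ X).symm

theorem trace_pow_mem {R : Type*} [CommRing R] (S : Subring R) {X : Matrix (Fin 2) (Fin 2) R}
    (ht : X.trace ∈ S) (hd : X.det ∈ S) (j : ℕ) : (X ^ j).trace ∈ S := by
  have h2 : X * X = X.trace • X - X.det • 1 := by
    ext r s
    fin_cases r <;> fin_cases s <;>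
      simp [Matrix.mul_apply, Matrix.trace_fin_two, Matrix.det_fin_two] <;> ring
  induction j using Nat.twoStepInduction with
  | zero => simp [natCast_mem S 2]
  | one => simpa using ht
  | more i ih ih' =>
    rw [pow_add, pow_two, h2, mul_sub, mul_smul_comm, mul_smul_comm, mul_one, ← pow_succ,
      Matrix.trace_sub, Matrix.trace_smul, Matrix.trace_smul, smul_eq_mul, smul_eq_mul]
    exact sub_mem (mul_mem ht ih') (mul_mem hd ih)

theorem imageRes_mapMatrix (f₀ : patternForms D Q ε)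
    (X : Matrix (Fin 2) (Fin 2) (coeffImage D Q ε hN)) :
    (imageRes f₀).mapMatrix X =
      (coeffRes f₀).mapMatrix ((coeffImage D Q ε hN).subtype.mapMatrix X) :=
  rfl

/-- Conjugation data transported along a homomorphism. -/
theorem conj_transport {M M' : Type*} [Monoid M] [Monoid M'] (φ : M →* M') (U : Mˣ) (x : M)
    (C : M'ˣ) (y : M') (h : y = (C : M') * φ x * ((C⁻¹ : M'ˣ) : M')) :
    φ ((U : M) * x * ((U⁻¹ : Mˣ) : M)) =
      ((Units.map φ U * C⁻¹ : M'ˣ) : M') * y * (((Units.map φ U * C⁻¹)⁻¹ : M'ˣ) : M') := by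
  subst h
  simp [mul_assoc]

/-- The representation on all forms at once, modulo `2 ^ N`. -/
structure IsProductRep (D : Datum) (Q : Finset ℕ) (ε : ℕ → ℤ) (hN : 1 ≤ N)
    (f₀ : patternForms D Q ε) (rP : Γℚ →* Matrix (Fin 2) (Fin 2) (coeffRing D Q ε hN)) : Prop where
  cont : ∃ L : IntermediateField ℚ Qbar, FiniteDimensional ℚ L ∧
    ∀ σ ∈ L.fixingSubgroup, rP σ = 1
  det_eq : ∀ σ, (rP σ).det = patternCoeff D Q ε hN (algebraMap ℤ_[2] _ (padicCyclo 2 σ))
  unram : ∀ p : ℕ, p.Prime → ¬ p ∣ D.auxLevel Q → ∀ P : ValuationSubring Qbar,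
    P.LiesOverPrime p → ∀ σ ∈ P.inertiaSubgroupIn ℚ, rP σ = 1
  trace_frob : ∀ (ℓ : ℕ) (hℓ : ℓ.Prime) (h : ¬ ℓ ∣ D.auxLevel Q), ∀ A : ValuationSubring Qbar,
    A.LiesOverPrime ℓ → ∀ τ : Γℚ, A.IsFrobeniusAt τ ℓ →
      (rP τ).trace = patternCoeff D Q ε hN (patternT D Q ε hℓ h)
  trace_mem : ∀ σ, (rP σ).trace ∈ coeffImage D Q ε hN
  residual : ∀ σ, (coeffRes f₀).mapMatrix (rP σ) = (D.ρbar σ : Matrix (Fin 2) (Fin 2) (ZMod 2))
  line : ∀ p ∈ D.B ∪ Q, ∀ P : ValuationSubring Qbar, P.LiesOverPrime p → ∀ f,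
    IsLineAt ((coeffEval hN f).mapMatrix.toMonoidHom.comp rP) P p ((ε p : ℤ) : Q2mod N)

theorem exists_productRep (hQ : IsAuxSet D Q) (hε : IsPattern ε) (hN : 1 ≤ N)
    (f₀ : patternForms D Q ε) :
    ∃ rP : Γℚ →* Matrix (Fin 2) (Fin 2) (coeffRing D Q ε hN),
      IsProductRep D Q ε hN f₀ rP := by
  classical
  have hfin := finite_patternForms_of_basis (ε := ε) hQ
  choose rf hrf using fun f : patternForms D Q ε => exists_formRep hQ hε f
  have hmem : ∀ σ i j, (fun f => (Ideal.Quotient.mk _ (rf f σ i j) : Q2mod N)) ∈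
      coeffRing D Q ε hN := fun σ i j =>
    ⟨(D.ρbar σ : Matrix (Fin 2) (Fin 2) (ZMod 2)) i j, fun f =>
      (q2modRes_mk hN _).trans (congrFun (congrFun ((hrf f).residual σ) i) j)⟩
  let rP0 : Γℚ → Matrix (Fin 2) (Fin 2) (coeffRing D Q ε hN) := fun σ =>
    Matrix.of fun i j => ⟨_, hmem σ i j⟩
  have hev : ∀ f σ, (coeffEval hN f).mapMatrix (rP0 σ) =
      (Ideal.Quotient.mk (Ideal.span {(2 : Q2int) ^ N})).mapMatrix (rf f σ) := fun f σ => rfl
  let rP : Γℚ →* Matrix (Fin 2) (Fin 2) (coeffRing D Q ε hN) :=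
    { toFun := rP0
      map_one' := coeffEval_matrix_ext fun f => by rw [hev, map_one, map_one, map_one]
      map_mul' := fun a b => coeffEval_matrix_ext fun f => by
        rw [map_mul, hev, hev, hev, map_mul, map_mul] }
  have hevP : ∀ f σ, (coeffEval hN f).mapMatrix (rP σ) =
      (Ideal.Quotient.mk (Ideal.span {(2 : Q2int) ^ N})).mapMatrix (rf f σ) := hev
  have hdet : ∀ σ, (rP σ).det = patternCoeff D Q ε hN (algebraMap ℤ_[2] _ (padicCyclo 2 σ)) :=
    fun σ => coeffEval_ext fun f => by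
      rw [← det_mapMatrix, hevP, det_mapMatrix, (hrf f).det_eq, coeffEval_patternCoeff]
      rfl
  have htr : ∀ (ℓ : ℕ) (hℓ : ℓ.Prime) (h : ¬ ℓ ∣ D.auxLevel Q) (A : ValuationSubring Qbar),
      A.LiesOverPrime ℓ → ∀ τ : Γℚ, A.IsFrobeniusAt τ ℓ →
        (rP τ).trace = patternCoeff D Q ε hN (patternT D Q ε hℓ h) := fun ℓ hℓ h A hA τ hτ =>
    coeffEval_ext fun f => by
      rw [← trace_mapMatrix, hevP, trace_mapMatrix, (hrf f).trace_frob ℓ hℓ h A hA τ hτ,
        coeffEval_patternCoeff]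
      rfl
  choose Lf hLf hLfc using fun f => (hrf f).cont N
  have : FiniteDimensional ℚ (⨆ f, Lf f : IntermediateField ℚ Qbar) :=
    IntermediateField.finiteDimensional_iSup_of_finite
  set L : IntermediateField ℚ Qbar := ⨆ f, Lf f with hL
  have hP1 : ∀ σ : Γℚ, (∀ x ∈ L, σ x = x) → rP σ = 1 := fun σ hσ => coeffEval_matrix_ext fun f => by
    rw [hevP, map_one, ← sub_eq_zero,
      ← map_one (Ideal.Quotient.mk (Ideal.span {(2 : Q2int) ^ N})).mapMatrix, ← map_sub]
    refine Matrix.ext fun i j => Ideal.Quotient.eq_zero_iff_mem.2 (Ideal.mem_span_singleton.2 ?_)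
    exact hLfc f σ (fun x hx => hσ x (SetLike.le_def.1 (le_iSup Lf f) hx)) i j
  refine ⟨rP, ⟨⟨L, inferInstance, fun σ hσ =>
      hP1 σ ((IntermediateField.mem_fixingSubgroup_iff _ _).1 hσ)⟩, hdet,
    fun p hp hpN P hP σ hσ => coeffEval_matrix_ext fun f => by
      rw [hevP, (hrf f).unram p hp hpN P hP σ hσ, map_one, map_one],
    htr, fun σ => ?_, fun σ => Matrix.ext fun i j => ?_, fun p hp P hP f => ?_⟩⟩
  · obtain ⟨ℓ, hℓ, hℓS, A, hA, τ, hτ, ⟨j, hj⟩, -⟩ :=
      Density.exists_frobenius_pow σ L (D.auxLevel Q).primeFactors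
    have hℓN : ¬ ℓ ∣ D.auxLevel Q := fun h =>
      hℓS (Nat.mem_primeFactors.2 ⟨hℓ, h, (auxLevel_pos hQ).ne'⟩)
    have h1 := hP1 ((τ ^ j)⁻¹ * σ) fun x hx => by
      rw [AlgEquiv.mul_apply, hj x hx]
      exact (τ ^ j).symm_apply_apply x
    have h2 : rP σ = rP τ ^ j := by
      conv_lhs => rw [← mul_inv_cancel_left (τ ^ j) σ]
      rw [map_mul, h1, mul_one, map_pow]
    rw [h2]
    exact trace_pow_mem (coeffImage D Q ε hN)
      (RingHom.mem_range.2 ⟨_, (htr ℓ hℓ hℓN A hA τ hτ).symm⟩)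
      (RingHom.mem_range.2 ⟨_, (hdet τ).symm⟩) j
  · exact coeffRes_eq_of_residue f₀ _
      ((q2modRes_mk hN _).trans (congrFun (congrFun ((hrf f₀).residual σ) i) j))
  · have heq : (coeffEval hN f).mapMatrix.toMonoidHom.comp rP =
        (Ideal.Quotient.mk (Ideal.span {(2 : Q2int) ^ N})).mapMatrix.toMonoidHom.comp (rf f) :=
      MonoidHom.ext (hevP f)
    rw [heq]
    exact (hrf f).line p hp P hP N hN

/-- Descent of the representation to the image of the Hecke algebra. -/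
theorem exists_imageRep (hQ : IsAuxSet D Q) (f₀ : patternForms D Q ε)
    {rP : Γℚ →* Matrix (Fin 2) (Fin 2) (coeffRing D Q ε hN)}
    (h : IsProductRep D Q ε hN f₀ rP) :
    ∃ (r : Γℚ →* GL (Fin 2) (coeffImage D Q ε hN))
      (W : (Matrix (Fin 2) (Fin 2) (coeffRing D Q ε hN))ˣ),
      (∀ σ, (coeffImage D Q ε hN).subtype.mapMatrix
        (r σ : Matrix (Fin 2) (Fin 2) (coeffImage D Q ε hN)) =
          (W : Matrix (Fin 2) (Fin 2) (coeffRing D Q ε hN)) * rP σ *
            ((W⁻¹ : (Matrix (Fin 2) (Fin 2) (coeffRing D Q ε hN))ˣ) :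
              Matrix (Fin 2) (Fin 2) (coeffRing D Q ε hN))) ∧
      ∀ σ, (imageRes f₀).mapMatrix (r σ : Matrix (Fin 2) (Fin 2) (coeffImage D Q ε hN)) =
        (D.ρbar σ : Matrix (Fin 2) (Fin 2) (ZMod 2)) := by
  classical
  have := isLocalRing_coeffRing (hN := hN) f₀
  have hloc := isLocalRing_coeffImage (hN := hN) hQ f₀
  have hfin := finite_coeffImage (ε := ε) (hN := hN) hQ
  have : CharP (IsLocalRing.ResidueField (coeffImage D Q ε hN)) 2 := by
    refine (CharP.charP_iff_prime_eq_zero Nat.prime_two).2 ?_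
    rw [← map_natCast (IsLocalRing.residue (coeffImage D Q ε hN)),
      IsLocalRing.residue_eq_zero_iff, ← ker_imageRes f₀, RingHom.mem_ker, map_natCast,
      ZMod.natCast_self]
  let θ : ZMod 2 →+* IsLocalRing.ResidueField (coeffImage D Q ε hN) :=
    ZMod.castHom (dvd_refl 2) _
  have hθ : ∀ a, IsLocalRing.residue (coeffImage D Q ε hN) a = θ (imageRes f₀ a) := fun a => by
    rw [← ZMod.natCast_zmod_val (imageRes f₀ a), map_natCast,
      ← map_natCast (IsLocalRing.residue (coeffImage D Q ε hN)), ← sub_eq_zero, ← map_sub,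
      IsLocalRing.residue_eq_zero_iff, ← ker_imageRes f₀, RingHom.mem_ker, map_sub, map_natCast,
      ZMod.natCast_zmod_val, sub_self]
  let rbar : Γℚ →* Matrix (Fin 2) (Fin 2) (IsLocalRing.ResidueField (coeffImage D Q ε hN)) :=
    θ.mapMatrix.toMonoidHom.comp ((Units.coeHom (Matrix (Fin 2) (Fin 2) (ZMod 2))).comp D.ρbar)
  obtain ⟨r', C₀, hC₀⟩ := RepLemmas.exists_conj_map_of_trace_mem_two
    (coeffImage D Q ε hN).subtype Subtype.val_injective
    (residueField_two_coeffRing f₀) rP rbar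
    (RepLemmas.map_span_eq_top θ (fun σ => (D.ρbar σ : Matrix (Fin 2) (Fin 2) (ZMod 2)))
      (LiftSubring.span_range_eq_top _ D.surj))
    (fun σ => ⟨⟨_, h.trace_mem σ⟩, rfl, by
      rw [hθ]
      have h1 := congrArg Matrix.trace (h.residual σ)
      rw [trace_mapMatrix] at h1
      refine Eq.trans ?_ (trace_mapMatrix θ _).symm
      exact congrArg θ h1⟩)
    (fun σ => ⟨⟨_, _, (h.det_eq σ).symm⟩, rfl, by
      rw [hθ]
      have h1 := congrArg Matrix.det (h.residual σ)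
      rw [det_mapMatrix] at h1
      refine Eq.trans ?_ (det_mapMatrix θ _).symm
      exact congrArg θ h1⟩)
  -- correct the basis so that the residual representation is the datum
  let Pb : (Matrix (Fin 2) (Fin 2) (ZMod 2))ˣ :=
    Units.map (coeffRes (hN := hN) f₀).mapMatrix.toMonoidHom C₀
  let sec : ZMod 2 → coeffImage D Q ε hN := fun b => (b.val : coeffImage D Q ε hN)
  have hsec : ∀ b, imageRes f₀ (sec b) = b := fun b => by
    rw [map_natCast, ZMod.natCast_zmod_val]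
  let C : Matrix (Fin 2) (Fin 2) (coeffImage D Q ε hN) :=
    (Pb : Matrix (Fin 2) (Fin 2) (ZMod 2)).map sec
  have hCres : (imageRes f₀).mapMatrix C = (Pb : Matrix (Fin 2) (Fin 2) (ZMod 2)) :=
    Matrix.ext fun i j => hsec _
  have hCu : IsUnit C := by
    rw [Matrix.isUnit_iff_isUnit_det, isUnit_coeffImage_iff f₀, ← det_mapMatrix, hCres]
    have h := (Matrix.isUnit_iff_isUnit_det _).1 Pb.isUnit
    exact (zmod_two_eq _).resolve_left fun h0 => not_isUnit_zero (h0 ▸ h)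
  obtain ⟨U, hU⟩ := hCu
  let φ : Matrix (Fin 2) (Fin 2) (coeffImage D Q ε hN) →*
      Matrix (Fin 2) (Fin 2) (coeffRing D Q ε hN) :=
    (coeffImage D Q ε hN).subtype.mapMatrix.toMonoidHom
  let W : (Matrix (Fin 2) (Fin 2) (coeffRing D Q ε hN))ˣ := Units.map φ U * C₀⁻¹
  let r : Γℚ →* GL (Fin 2) (coeffImage D Q ε hN) :=
    (MulAut.conj U).toMonoidHom.comp r'.toHomUnits
  have hr : ∀ σ, φ (r σ : Matrix (Fin 2) (Fin 2) (coeffImage D Q ε hN)) =
      (W : Matrix (Fin 2) (Fin 2) (coeffRing D Q ε hN)) * rP σ *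
        ((W⁻¹ : (Matrix (Fin 2) (Fin 2) (coeffRing D Q ε hN))ˣ) :
          Matrix (Fin 2) (Fin 2) (coeffRing D Q ε hN)) :=
    fun σ => conj_transport φ U (r' σ) C₀ (rP σ) (hC₀ σ)
  have hWres : Units.map (coeffRes (hN := hN) f₀).mapMatrix.toMonoidHom W = 1 := by
    have hUP : Units.map (coeffRes (hN := hN) f₀).mapMatrix.toMonoidHom (Units.map φ U) = Pb :=
      Units.ext (by
        refine Eq.trans ?_ hCres
        rw [← hU]
        rfl)
    rw [map_mul, map_inv, hUP]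
    exact mul_inv_cancel Pb
  refine ⟨r, W, hr, fun σ => ?_⟩
  rw [imageRes_mapMatrix]
  have h1 := congrArg (coeffRes (hN := hN) f₀).mapMatrix (hr σ)
  rw [map_mul, map_mul, h.residual] at h1
  refine h1.trans ?_
  have hW1 : (coeffRes (hN := hN) f₀).mapMatrix
      (W : Matrix (Fin 2) (Fin 2) (coeffRing D Q ε hN)) = 1 := congrArg Units.val hWres
  have hW2 : (coeffRes (hN := hN) f₀).mapMatrix
      ((W⁻¹ : (Matrix (Fin 2) (Fin 2) (coeffRing D Q ε hN))ˣ) :
        Matrix (Fin 2) (Fin 2) (coeffRing D Q ε hN)) = 1 :=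
    congrArg (fun u : (Matrix (Fin 2) (Fin 2) (ZMod 2))ˣ =>
      ((u⁻¹ : (Matrix (Fin 2) (Fin 2) (ZMod 2))ˣ) : Matrix (Fin 2) (Fin 2) (ZMod 2))) hWres |>.trans
      (by simp)
  rw [hW1, hW2, one_mul, mul_one]

end Fermat.Agent.Residual

end
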