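/-
Residual modularity at three: the Hecke algebra of a pattern is saturated up to a bounded power
of two.
-/
import Fermat.Agent.Residual.PatternRing
import Mathlib.RingTheory.Filtration

set_option autoImplicit false

noncomputable section

namespace Fermat.Agent.Residual

variable {D : Datum} {Q : Finset ℕ} {ε : ℕ → ℤ}

/-- Divisibility by a large power of two at every form gives divisibility in the algebra. -/
theorem exists_dvd_bound (hQ : IsAuxSet D Q) (k : ℕ) :
    ∃ N : ℕ, k ≤ N ∧ ∀ x : patternAlgebra D Q ε,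
      (∀ f, (2 : Q2int) ^ N ∣ (x : patternForms D Q ε → Q2int) f) →
        (2 : patternAlgebra D Q ε) ^ k ∣ x := by
  classical
  have := moduleFinite_patternAlgebra (ε := ε) hQ
  have := finite_patternForms_of_basis (ε := ε) hQ
  obtain ⟨s, hs⟩ := Module.Finite.fg_top (R := ℤ_[2]) (M := patternAlgebra D Q ε)
  let V : Set Q2bar :=
    Set.range fun p : s × patternForms D Q ε => patternEval D Q ε p.2 (p.1 : patternAlgebra D Q ε)
  let K : IntermediateField ℚ_[2] Q2bar := IntermediateField.adjoin ℚ_[2] V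
  have : Finite V := Set.finite_range _
  have : FiniteDimensional ℚ_[2] K :=
    IntermediateField.finiteDimensional_adjoin fun x _ => Algebra.IsIntegral.isIntegral x
  obtain ⟨-, hfin, -⟩ := subInt_facts K
  let S : Submodule ℤ_[2] Q2bar := (K.toSubalgebra.restrictScalars ℤ_[2]).toSubmodule
  have hK : ∀ (x : patternAlgebra D Q ε) f, patternEval D Q ε f x ∈ S := by
    intro x f
    have hx : x ∈ Submodule.span ℤ_[2] (s : Set (patternAlgebra D Q ε)) := hs ▸ Submodule.mem_top
    induction hx using Submodule.span_induction with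
    | mem y hy => exact IntermediateField.subset_adjoin ℚ_[2] V ⟨(⟨y, hy⟩, f), rfl⟩
    | zero => rw [map_zero]; exact S.zero_mem
    | add y z _ _ hy hz => rw [map_add]; exact S.add_mem hy hz
    | smul c y _ hy => rw [map_smul]; exact S.smul_mem c hy
  let ψ : patternAlgebra D Q ε →ₗ[ℤ_[2]] (patternForms D Q ε → integralClosure ℤ_[2] K) :=
    { toFun := fun x f => ⟨⟨patternEval D Q ε f x, hK x f⟩,
        (isIntegral_sub_iff K _).2 ((x : patternForms D Q ε → Q2int) f).2⟩
      map_add' := fun x y => funext fun f => Subtype.ext (Subtype.ext (map_add _ x y))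
      map_smul' := fun c x => funext fun f => Subtype.ext (Subtype.ext (map_smul _ c x)) }
  have hψ : Function.Injective ψ := fun x y h => Subtype.ext (funext fun f => Subtype.ext
    (congrArg (fun z : integralClosure ℤ_[2] K => ((z : K) : Q2bar)) (congrFun h f)))
  obtain ⟨c, hc⟩ := Ideal.exists_pow_inf_eq_pow_smul (Ideal.span {(2 : ℤ_[2])}) (LinearMap.range ψ)
  refine ⟨k + c, Nat.le_add_right k c, fun x hx => ?_⟩
  choose t ht using hx
  have ht' : ∀ f, patternEval D Q ε f x = 2 ^ (k + c) * (t f : Q2bar) := fun f => by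
    show (((x : patternForms D Q ε → Q2int) f : Q2int) : Q2bar) = _
    rw [ht f]
    push_cast
    rfl
  have htK : ∀ f, (t f : Q2bar) ∈ K := fun f => by
    have h2 : (2 : Q2bar) ∈ K := by simp
    have e : (t f : Q2bar) = patternEval D Q ε f x * ((2 : Q2bar) ^ (k + c))⁻¹ := by
      rw [ht' f, mul_comm ((2 : Q2bar) ^ (k + c)), mul_assoc,
        mul_inv_cancel₀ (pow_ne_zero _ two_ne_zero), mul_one]
    rw [e]
    exact mul_mem (hK x f) (inv_mem (pow_mem h2 _))
  let u : patternForms D Q ε → integralClosure ℤ_[2] K := fun f =>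
    ⟨⟨t f, htK f⟩, (isIntegral_sub_iff K _).2 (t f).2⟩
  have hu : ψ x = (2 : ℤ_[2]) ^ (k + c) • u := funext fun f => by
    refine Subtype.ext (Subtype.ext ?_)
    show patternEval D Q ε f x = (2 : ℤ_[2]) ^ (k + c) • (t f : Q2bar)
    rw [ht' f, Algebra.smul_def, map_pow, map_ofNat]
  have hmem : ψ x ∈ Ideal.span {(2 : ℤ_[2])} ^ (k + c) •
      (⊤ : Submodule ℤ_[2] (patternForms D Q ε → integralClosure ℤ_[2] K)) ⊓ LinearMap.range ψ := by
    refine ⟨?_, LinearMap.mem_range_self _ _⟩
    rw [hu, SetLike.mem_coe]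
    exact Submodule.smul_mem_smul (Ideal.pow_mem_pow (Ideal.mem_span_singleton_self _) _)
      Submodule.mem_top
  rw [hc (k + c) (Nat.le_add_left c k), Nat.add_sub_cancel] at hmem
  have hmem' := Submodule.smul_mono le_rfl inf_le_right hmem
  rw [Ideal.span_singleton_pow, Submodule.ideal_span_singleton_smul] at hmem'
  obtain ⟨_, ⟨y, rfl⟩, hy⟩ := hmem'
  refine ⟨y, hψ ?_⟩
  rw [← hy]
  show (2 : ℤ_[2]) ^ k • ψ y = _
  rw [← map_smul]
  refine congrArg ψ ?_
  rw [Algebra.smul_def, map_pow, map_ofNat]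

end Fermat.Agent.Residual

end
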