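/-
Residual modularity at three: from the image modulo `2 ^ N` to the Hecke algebra of the pattern
modulo `2 ^ k`.
-/
import Fermat.Agent.Residual.PatternProduct
import Fermat.Agent.Residual.PatternSat
import Fermat.Agent.Residual.PatternLocal

set_option autoImplicit false

noncomputable section

open scoped Matrix

namespace Fermat.Agent.Residual

open GaloisAdic

local notation "Qbar" => AlgebraicClosure ℚ
local notation "Γℚ" => (AlgebraicClosure ℚ ≃ₐ[ℚ] AlgebraicClosure ℚ)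

variable {D : Datum} {Q : Finset ℕ} {ε : ℕ → ℤ} {N : ℕ} {hN : 1 ≤ N}

theorem le_of_two_pow_eq_zero (hQ : IsAuxSet D Q) (hne : (patternForms D Q ε).Nonempty) {k n : ℕ}
    (h : (2 : PatternQuot D Q ε k) ^ n = 0) : k ≤ n := by
  by_contra hlt
  push Not at hlt
  obtain ⟨g⟩ := exists_residue_patternAlgebra hQ hne
  rw [show (2 : PatternQuot D Q ε k) = patternMk D Q ε k 2 from (map_ofNat _ 2).symm, ← map_pow,
    patternMk_eq_zero_iff] at h
  obtain ⟨y, hy⟩ := h
  obtain ⟨d, rfl⟩ : ∃ d, k = n + (d + 1) := ⟨k - n - 1, by omega⟩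
  have h1 : (1 : patternAlgebra D Q ε) = 2 ^ (d + 1) * y := by
    refine Subtype.ext (funext fun f => ?_)
    have h2 := congrFun (congrArg Subtype.val hy) f
    push_cast at h2 ⊢
    simp only [Pi.mul_apply, Pi.pow_apply, Pi.one_apply] at h2 ⊢
    rw [pow_add, mul_assoc] at h2
    exact mul_left_cancel₀ (pow_ne_zero n fun h => by
      have := congrArg Subtype.val h
      push_cast at this
      exact two_ne_zero this) ((mul_one _).trans h2)
  have h3 := congrArg g h1
  rw [map_one, map_mul, map_pow, map_ofNat, show (2 : ZMod 2) = 0 from rfl,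
    zero_pow (Nat.succ_ne_zero d), zero_mul] at h3
  exact one_ne_zero h3

/-- Reduction from the image modulo `2 ^ N` to the algebra modulo `2 ^ k`. -/
def coeffToQuot (hN : 1 ≤ N) (k : ℕ)
    (hsat : ∀ x : patternAlgebra D Q ε,
      (∀ f, (2 : Q2int) ^ N ∣ (x : patternForms D Q ε → Q2int) f) →
        (2 : patternAlgebra D Q ε) ^ k ∣ x) :
    coeffImage D Q ε hN →+* PatternQuot D Q ε k :=
  (patternCoeff D Q ε hN).rangeRestrict.liftOfSurjective
    (patternCoeff D Q ε hN).rangeRestrict_surjective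
    ⟨patternMk D Q ε k, fun x hx => RingHom.mem_ker.2 (patternMk_eq_zero_iff.2
      (hsat x fun f => Ideal.mem_span_singleton.1 (Ideal.Quotient.eq_zero_iff_mem.1
        ((patternCoeff_apply x f).symm.trans
          (congrFun (congrArg Subtype.val (congrArg Subtype.val (RingHom.mem_ker.1 hx))) f)))))⟩

variable {k : ℕ} {hsat : ∀ x : patternAlgebra D Q ε,
      (∀ f, (2 : Q2int) ^ N ∣ (x : patternForms D Q ε → Q2int) f) →
        (2 : patternAlgebra D Q ε) ^ k ∣ x}

theorem coeffToQuot_apply (x : patternAlgebra D Q ε) :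
    coeffToQuot hN k hsat ((patternCoeff D Q ε hN).rangeRestrict x) = patternMk D Q ε k x :=
  RingHom.liftOfRightInverse_comp_apply _ _ _ _ x

/-- Every map of the algebra modulo `2 ^ k` to `𝔽₂` is the residual value. -/
theorem comp_coeffToQuot_eq (hQ : IsAuxSet D Q) (f₀ : patternForms D Q ε)
    (g : PatternQuot D Q ε k →+* ZMod 2) :
    g.comp (coeffToQuot hN k hsat) = imageRes f₀ := by
  have := isLocalRing_coeffImage (hN := hN) hQ f₀
  refine RingHom.ext fun x => ?_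
  have hk : RingHom.ker (g.comp (coeffToQuot hN k hsat)) =
      RingHom.ker (imageRes (hN := hN) f₀) := by
    rw [ker_imageRes]
    exact IsLocalRing.eq_maximalIdeal
      (RingHom.ker_isMaximal_of_surjective _ (ZMod.ringHom_surjective _))
  have hx : g.comp (coeffToQuot hN k hsat) x = 0 ↔ imageRes f₀ x = 0 := by
    rw [← RingHom.mem_ker, hk, RingHom.mem_ker]
  rcases zmod_two_eq (g.comp (coeffToQuot hN k hsat) x) with h | h <;>
    rcases zmod_two_eq (imageRes f₀ x) with h' | h' <;> rw [h, h'] at hx ⊢ <;> simp at hx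

/-- The local condition over the image. -/
theorem exists_gl_coeffImage (hQ : IsAuxSet D Q) (hε : IsPattern ε) (f₀ : patternForms D Q ε)
    {rP : Γℚ →* Matrix (Fin 2) (Fin 2) (coeffRing D Q ε hN)} (h : IsProductRep D Q ε hN f₀ rP)
    {r : Γℚ →* GL (Fin 2) (coeffImage D Q ε hN)}
    {W : (Matrix (Fin 2) (Fin 2) (coeffRing D Q ε hN))ˣ}
    (hW : ∀ σ, (coeffImage D Q ε hN).subtype.mapMatrix
      (r σ : Matrix (Fin 2) (Fin 2) (coeffImage D Q ε hN)) =
        (W : Matrix (Fin 2) (Fin 2) (coeffRing D Q ε hN)) * rP σ *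
          ((W⁻¹ : (Matrix (Fin 2) (Fin 2) (coeffRing D Q ε hN))ˣ) :
            Matrix (Fin 2) (Fin 2) (coeffRing D Q ε hN)))
    (hres : ∀ σ, (imageRes f₀).mapMatrix (r σ : Matrix (Fin 2) (Fin 2) (coeffImage D Q ε hN)) =
      (D.ρbar σ : Matrix (Fin 2) (Fin 2) (ZMod 2)))
    (hcont : ∃ L : IntermediateField ℚ Qbar, FiniteDimensional ℚ L ∧
      ∀ σ ∈ L.fixingSubgroup, r σ = 1)
    {p : ℕ} (hp : p ∈ D.B ∪ Q) {P : ValuationSubring Qbar} (hP : P.LiesOverPrime p) :
    ∃ g : GL (Fin 2) (coeffImage D Q ε hN), ∀ σ ∈ P.decompositionSubgroup ℚ,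
      ((g * r σ * g⁻¹ : GL (Fin 2) (coeffImage D Q ε hN)) :
        Matrix (Fin 2) (Fin 2) (coeffImage D Q ε hN)) 1 0 = 0 ∧
      (((g * r σ * g⁻¹ : GL (Fin 2) (coeffImage D Q ε hN)) :
          Matrix (Fin 2) (Fin 2) (coeffImage D Q ε hN)) 1 1 = 1 ∨
        ((g * r σ * g⁻¹ : GL (Fin 2) (coeffImage D Q ε hN)) :
          Matrix (Fin 2) (Fin 2) (coeffImage D Q ε hN)) 1 1 = -1) ∧
      (σ ∈ P.inertiaSubgroupIn ℚ →
        ((g * r σ * g⁻¹ : GL (Fin 2) (coeffImage D Q ε hN)) :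
          Matrix (Fin 2) (Fin 2) (coeffImage D Q ε hN)) 1 1 = 1) ∧
      (P.IsFrobeniusAt σ p →
        ((g * r σ * g⁻¹ : GL (Fin 2) (coeffImage D Q ε hN)) :
          Matrix (Fin 2) (Fin 2) (coeffImage D Q ε hN)) 1 1 =
            ((ε p : ℤ) : coeffImage D Q ε hN)) := by
  have := isLocalRing_coeffImage (hN := hN) hQ f₀
  have := isLocalRing_quotient_two_pow hN
  have hpp : p.Prime := by
    rcases Finset.mem_union.1 hp with h | h
    · exact D.prime_mem p h
    · exact (hQ p h).1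
  have hnz : ∀ {σ : Γℚ}, D.ρbar σ ≠ 1 →
      ∃ i j, ((D.ρbar σ : Matrix (Fin 2) (Fin 2) (ZMod 2)) - 1) i j = 1 := fun {σ} h => by
    by_contra hc
    push Not at hc
    exact h (Units.ext (sub_eq_zero.1 (Matrix.ext fun i j =>
      (zmod_two_eq _).resolve_right (hc i j))))
  have hunit : ∀ {σ : Γℚ}, D.ρbar σ ≠ 1 → ∀ δ : coeffImage D Q ε hN, imageRes f₀ δ = 1 →
      ∃ i j, IsUnit (((r σ : Matrix (Fin 2) (Fin 2) (coeffImage D Q ε hN)) - δ • 1) i j) :=
    fun {σ} h δ hδ => by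
      obtain ⟨i, j, hij⟩ := hnz h
      refine ⟨i, j, (isUnit_coeffImage_iff f₀ _).2 ?_⟩
      rw [← hij, ← hres σ]
      simp only [Matrix.sub_apply, Matrix.smul_apply, map_sub, smul_eq_mul, map_mul, hδ,
        one_mul, RingHom.mapMatrix_apply, Matrix.map_apply]
      congr 1
      by_cases hij' : i = j <;> simp [Matrix.one_apply, hij']
  have he : ((ε p : ℤ) : coeffImage D Q ε hN) = 1 ∨
      ((ε p : ℤ) : coeffImage D Q ε hN) = -1 := by
    rcases hε p with h | h <;> simp [h]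
  have heres : imageRes f₀ ((ε p : ℤ) : coeffImage D Q ε hN) = 1 := by
    rw [map_intCast]
    rcases hε p with h | h <;> rw [h] <;> decide
  have hnep : ∃ σ : Γℚ,
      (σ ∈ P.inertiaSubgroupIn ℚ ∧ ∃ i j,
        IsUnit (((r σ : Matrix (Fin 2) (Fin 2) (coeffImage D Q ε hN)) - 1) i j)) ∨
      (P.IsFrobeniusAt σ p ∧ ∃ i j, IsUnit (((r σ : Matrix (Fin 2) (Fin 2)
        (coeffImage D Q ε hN)) - ((ε p : ℤ) : coeffImage D Q ε hN) • 1) i j)) := by
    rcases Finset.mem_union.1 hp with h' | h'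
    · obtain ⟨σ₀, hσ₀, hne₀, -⟩ := D.transp p h' P hP
      refine ⟨σ₀, Or.inl ⟨hσ₀, ?_⟩⟩
      simpa using hunit hne₀ 1 (map_one _)
    · obtain ⟨τ, hτ⟩ := Galois.exists_isFrobeniusAt hpp hP
      exact ⟨τ, Or.inr ⟨hτ, hunit ((hQ p h').2.2 P hP τ hτ).1 _ heres⟩⟩
  refine exists_gl_of_lines (fun f => (coeffEval hN f).comp (coeffImage D Q ε hN).subtype)
    (fun x hx => Subtype.ext (coeffEval_ext fun f => (hx f).trans (map_zero (coeffEval hN f)).symm))
    r hcont hpp hP he (fun f => ?_) hnep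
  rw [map_intCast]
  refine (h.line p hp P hP f).conj (Units.map (coeffEval hN f).mapMatrix.toMonoidHom W) fun σ => ?_
  have h1 := congrArg (coeffEval hN f).mapMatrix (hW σ)
  rw [map_mul, map_mul] at h1
  exact h1

end Fermat.Agent.Residual

end
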