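/-
Residual modularity at three: the representation of the Hecke algebra of a pattern.
-/
import Fermat.Agent.Residual.Defs
import Fermat.Agent.Residual.PatternQuotMap

set_option autoImplicit false

noncomputable section

open Matrix

namespace Fermat.Agent.Residual

open GaloisAdic

local notation "Qbar" => AlgebraicClosure ℚ
local notation "Γℚ" => (AlgebraicClosure ℚ ≃ₐ[ℚ] AlgebraicClosure ℚ)

variable {D : Datum} {Q : Finset ℕ} {ε : ℕ → ℤ}

/-- The representation carried by the Hecke algebra of a pattern, modulo `2 ^ k`. -/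
theorem exists_patternLift (hQ : IsAuxSet D Q) (hε : IsPattern ε)
    (hne : (patternForms D Q ε).Nonempty) {k : ℕ} (hk : 1 ≤ k) :
    ∃ ρ : Γℚ →* GL (Fin 2) (PatternQuot D Q ε k),
      IsLift D Q ε ρ ∧
      ∀ (ℓ : ℕ) (hℓ : ℓ.Prime) (h : ¬ ℓ ∣ D.auxLevel Q),
        ∀ A : ValuationSubring Qbar, A.LiesOverPrime ℓ → ∀ τ : Γℚ, A.IsFrobeniusAt τ ℓ →
          ((ρ τ : Matrix (Fin 2) (Fin 2) (PatternQuot D Q ε k))).trace =
            patternTQuot D Q ε k hℓ h := by
  obtain ⟨N, hkN, hsat⟩ := exists_dvd_bound (ε := ε) hQ k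
  have hN : 1 ≤ N := hk.trans hkN
  obtain ⟨g₀, hg₀⟩ := hne
  let f₀ : patternForms D Q ε := ⟨g₀, hg₀⟩
  obtain ⟨rP, hP⟩ := exists_productRep hQ hε hN f₀
  obtain ⟨r, W, hW, hres⟩ := exists_imageRep hQ f₀ hP
  have hinj : Function.Injective fun X : Matrix (Fin 2) (Fin 2) (coeffImage D Q ε hN) =>
      (coeffImage D Q ε hN).subtype.mapMatrix X :=
    Matrix.map_injective Subtype.val_injective
  have hr1 : ∀ σ, rP σ = 1 → r σ = 1 := fun σ hσ => Units.ext (hinj ((hW σ).trans (by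
    rw [hσ, Matrix.mul_one, Units.mul_inv]
    exact (map_one (coeffImage D Q ε hN).subtype.mapMatrix).symm)))
  obtain ⟨L, hL, hLc⟩ := hP.cont
  let pr := coeffToQuot hN k hsat
  have hρ : ∀ σ, (((Matrix.GeneralLinearGroup.map pr).comp r) σ :
      Matrix (Fin 2) (Fin 2) (PatternQuot D Q ε k)) =
      pr.mapMatrix (r σ : Matrix (Fin 2) (Fin 2) (coeffImage D Q ε hN)) := fun σ => rfl
  refine ⟨(Matrix.GeneralLinearGroup.map pr).comp r, ⟨⟨L, hL, fun σ hσ => ?_⟩,
    fun n hn σ ζ hζ a ha => ?_, fun g σ => ?_,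
    fun p hp hpS P hPp σ hσ => ?_, fun p hp P hPp => ?_⟩, fun ℓ hℓ h A hA τ hτ => ?_⟩
  · rw [MonoidHom.comp_apply, hr1 σ (hLc σ hσ), map_one]
  · have hkn := le_of_two_pow_eq_zero hQ ⟨g₀, hg₀⟩ hn
    have hd : (r σ : Matrix (Fin 2) (Fin 2) (coeffImage D Q ε hN)).det =
        (patternCoeff D Q ε hN).rangeRestrict (algebraMap ℤ_[2] _ (padicCyclo 2 σ)) := by
      refine Subtype.ext ?_
      have h1 := congrArg Matrix.det (hW σ)
      rw [Matrix.det_units_conj, det_mapMatrix, hP.det_eq] at h1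
      exact h1
    rw [hρ, det_mapMatrix, hd, coeffToQuot_apply, ← map_natCast (patternMk D Q ε k), ← sub_eq_zero,
      ← map_sub, patternMk_eq_zero_iff, ← map_natCast (algebraMap ℤ_[2] (patternAlgebra D Q ε)),
      ← map_sub]
    have hc : PadicInt.toZModPow n (padicCyclo 2 σ) = (a : ZMod (2 ^ n)) :=
      toZModPow_padicCyclo_eq 2 σ fun t ht => by
        have : NeZero ((2 : ℕ) ^ n) := ⟨by positivity⟩
        obtain ⟨i, -, rfl⟩ := hζ.eq_pow_of_pow_eq_one ht
        rw [map_pow, ha, ← pow_mul, ← pow_mul, mul_comm]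
    have hm : padicCyclo 2 σ - (a : ℤ_[2]) ∈ RingHom.ker (PadicInt.toZModPow (p := 2) n) := by
      rw [RingHom.mem_ker, map_sub, map_natCast, hc, sub_self]
    rw [PadicInt.ker_toZModPow, Ideal.mem_span_singleton] at hm
    obtain ⟨t, ht⟩ := hm
    rw [ht, map_mul, map_pow, map_natCast, Nat.cast_ofNat]
    exact Dvd.dvd.mul_right (pow_dvd_pow _ hkn) _
  · refine Units.ext ?_
    show g.mapMatrix (pr.mapMatrix _) = _
    rw [← hres σ, ← comp_coeffToQuot_eq (hsat := hsat) hQ f₀ g]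
    rfl
  · have h1 := hP.unram p hp (fun h => hpS (mem_of_dvd_auxLevel hQ hp h)) P hPp σ hσ
    rw [MonoidHom.comp_apply, hr1 σ h1, map_one]
  · obtain ⟨g, hg⟩ := exists_gl_coeffImage hQ hε f₀ hP hW hres
      ⟨L, hL, fun σ hσ => hr1 σ (hLc σ hσ)⟩ hp hPp
    refine ⟨Matrix.GeneralLinearGroup.map pr g, fun σ hσ => ?_⟩
    obtain ⟨h10, h11, hI, hF⟩ := hg σ hσ
    rw [MonoidHom.comp_apply, ← map_inv, ← map_mul, ← map_mul]
    refine ⟨?_, ?_, fun hi => ?_, fun hf => ?_⟩
    · exact (congrArg pr h10).trans (map_zero pr)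
    · rcases h11 with h | h
      · exact Or.inl ((congrArg pr h).trans (map_one pr))
      · exact Or.inr ((congrArg pr h).trans ((map_neg pr 1).trans (congrArg _ (map_one pr))))
    · exact (congrArg pr (hI hi)).trans (map_one pr)
    · exact (congrArg pr (hF hf)).trans (map_intCast pr _)
  · have h1 : (r τ : Matrix (Fin 2) (Fin 2) (coeffImage D Q ε hN)).trace =
        (patternCoeff D Q ε hN).rangeRestrict (patternT D Q ε hℓ h) := by
      refine Subtype.ext ?_
      have h2 := congrArg Matrix.trace (hW τ)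
      rw [Matrix.trace_units_conj, trace_mapMatrix, hP.trace_frob ℓ hℓ h A hA τ hτ] at h2
      exact h2
    rw [hρ, trace_mapMatrix, h1, coeffToQuot_apply]
    rfl

end Fermat.Agent.Residual

end
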