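/-
Residual modularity at three: pairing two lifts over the same residual representation.
-/
import Fermat.Agent.Residual.DihedralLift
import Mathlib.LinearAlgebra.Matrix.GeneralLinearGroup.Defs

/-!
# The fibre product `A ×_{𝔽₂} A`

Two representations over `A` with the same residual representation give one over the fibre
product.  A pair of signs which is `1` modulo two there is a pair of equal signs.
-/

set_option autoImplicit false

noncomputable section

namespace Fermat.Agent.Residual.Pairing

open Matrix

variable {G : Type*} [Group G] {A : Type*} [CommRing A] (f : A →+* ZMod 2)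

/-- The fibre product of `A` with itself over its residue field. -/
def pairRing : Subring (A × A) :=
  RingHom.eqLocus (f.comp (RingHom.fst A A)) (f.comp (RingHom.snd A A))

theorem mem_pairRing {x : A × A} : x ∈ pairRing f ↔ f x.1 = f x.2 := Iff.rfl

/-- The residue map of the fibre product. -/
def pairPi : pairRing f →+* ZMod 2 :=
  (f.comp (RingHom.fst A A)).comp (pairRing f).subtype

@[simp] theorem pairPi_apply (x : pairRing f) : pairPi f x = f x.1.1 := rfl

theorem isLocalRing_pairRing [IsLocalRing A] : IsLocalRing (pairRing f) := by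
  have : Nontrivial (pairRing f) := RingHom.domain_nontrivial (pairPi f)
  have key : ∀ x : pairRing f, f x.1.1 = 1 → IsUnit x := by
    intro x hx
    obtain ⟨u, hu⟩ := Dihedral.isUnit_of_residue_one (π := f) hx
    obtain ⟨u', hu'⟩ := Dihedral.isUnit_of_residue_one (π := f)
      (show f x.1.2 = 1 from (x.2 : f x.1.1 = f x.1.2) ▸ hx)
    have h1 : f (↑u⁻¹ : A) = 1 := by
      have := congrArg f u.inv_mul
      rwa [map_mul, hu, hx, mul_one, map_one] at this
    have h2 : f (↑u'⁻¹ : A) = 1 := by
      have := congrArg f u'.inv_mul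
      rwa [map_mul, hu', show f x.1.2 = 1 from (x.2 : f x.1.1 = f x.1.2) ▸ hx, mul_one,
        map_one] at this
    refine IsUnit.of_mul_eq_one (⟨(↑u⁻¹, ↑u'⁻¹), h1.trans h2.symm⟩ : pairRing f) (Subtype.ext ?_)
    refine Prod.ext ?_ ?_
    · show x.1.1 * ↑u⁻¹ = 1
      rw [← hu, Units.mul_inv]
    · show x.1.2 * ↑u'⁻¹ = 1
      rw [← hu', Units.mul_inv]
  refine IsLocalRing.of_isUnit_or_isUnit_one_sub_self fun x => ?_
  have hcases : ∀ y : ZMod 2, y = 1 ∨ 1 - y = 1 := by decide
  rcases hcases (f x.1.1) with h | h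
  · exact Or.inl (key x h)
  · refine Or.inr (key _ ?_)
    simpa using h

variable {f}

/-- The representation over the fibre product. -/
def pairRep (ρ ρ' : G →* GL (Fin 2) A) (h : ∀ g i j, f ((ρ g).val i j) = f ((ρ' g).val i j)) :
    G →* Dihedral.Mat (pairRing f) where
  toFun g := Matrix.of fun i j => ⟨((ρ g).val i j, (ρ' g).val i j), h g i j⟩
  map_one' := by
    refine Matrix.ext fun i j => Subtype.ext ?_
    rcases eq_or_ne i j with rfl | hne
    · simp
    · simp [hne, Matrix.one_apply_ne hne]
  map_mul' g g' := by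
    refine Matrix.ext fun i j => Subtype.ext ?_
    simp [Matrix.mul_apply, Fin.sum_univ_two]

theorem pairRep_fst (ρ ρ' : G →* GL (Fin 2) A)
    (h : ∀ g i j, f ((ρ g).val i j) = f ((ρ' g).val i j)) (g : G) :
    (pairRep ρ ρ' h g).map (fun x : pairRing f => x.1.1) = (ρ g).val := rfl

theorem pairRep_snd (ρ ρ' : G →* GL (Fin 2) A)
    (h : ∀ g i j, f ((ρ g).val i j) = f ((ρ' g).val i j)) (g : G) :
    (pairRep ρ ρ' h g).map (fun x : pairRing f => x.1.2) = (ρ' g).val := rfl

/-- Equations over the fibre product are checked on the two factors. -/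
theorem ext_of_components {M N : Dihedral.Mat (pairRing f)}
    (h1 : M.map (fun x : pairRing f => x.1.1) = N.map (fun x : pairRing f => x.1.1))
    (h2 : M.map (fun x : pairRing f => x.1.2) = N.map (fun x : pairRing f => x.1.2)) : M = N :=
  Matrix.ext fun i j => Subtype.ext (Prod.ext (congrFun (congrFun h1 i) j)
    (congrFun (congrFun h2 i) j))

variable [IsLocalRing A]

/-- A pair of signs which is one modulo two in the fibre product is a pair of equal signs. -/
theorem sign_eq (hm : ∀ a : A, f a = 0 → 2 * a = 0) (h2 : (2 : A) ≠ 0) {x : pairRing f}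
    (hx : x - 1 ∈ Ideal.span {(2 : pairRing f)}) {e e' : ℤ} (he : e = 1 ∨ e = -1)
    (he' : e' = 1 ∨ e' = -1) (h1 : x.1.1 = (e : A)) (h1' : x.1.2 = (e' : A)) : e = e' := by
  obtain ⟨b, hb⟩ := Ideal.mem_span_singleton'.mp hx
  have eb : b.1.1 * 2 = (e : A) - 1 := by
    rw [← h1]; exact congrArg (fun y : pairRing f => y.1.1) hb
  have eb' : b.1.2 * 2 = (e' : A) - 1 := by
    rw [← h1']; exact congrArg (fun y : pairRing f => y.1.2) hb
  have hunit : ∀ a : A, a * 2 = 0 → f a = 0 := by
    intro a ha
    have key : ∀ y : ZMod 2, y = 0 ∨ y = 1 := by decide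
    refine (key (f a)).resolve_right fun h => h2 ?_
    obtain ⟨u, hu⟩ := Dihedral.isUnit_of_residue_one (π := f) h
    rw [← hu, Units.mul_right_eq_zero] at ha
    exact ha
  have hne : ∀ a : A, f a = 0 → a * 2 ≠ ((-1 : ℤ) : A) - 1 := by
    intro a ha h
    rw [mul_comm, hm a ha] at h
    exact h2 (by push_cast at h; linear_combination h)
  rcases he with rfl | rfl <;> rcases he' with rfl | rfl <;> try rfl
  · have hb0 := hunit _ (by rw [eb]; simp)
    exact absurd eb' (hne _ ((b.2 : f b.1.1 = f b.1.2) ▸ hb0))
  · have hb0 := hunit _ (by rw [eb']; simp)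
    exact absurd eb (hne _ ((b.2 : f b.1.1 = f b.1.2).symm ▸ hb0))

end Fermat.Agent.Residual.Pairing

end
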