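/-
Residual modularity at three: two lifts have the same parity of signs.
-/
import Fermat.Agent.Residual.Defs
import Fermat.Agent.Residual.Artin
import Fermat.Agent.Residual.DihedralGalois
import Fermat.Agent.Residual.DihedralField
import Fermat.Agent.Residual.SignParityPair

set_option autoImplicit false

noncomputable section

open Matrix

namespace Fermat.Agent.Residual

local notation "Qbar" => AlgebraicClosure ℚ
local notation "Γℚ" => (AlgebraicClosure ℚ ≃ₐ[ℚ] AlgebraicClosure ℚ)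

variable {D : Datum} {Q : Finset ℕ} {ε : ℕ → ℤ}
variable {ε' : ℕ → ℤ}

/-- A prime of the datum has a Frobenius element which is residually trivial. -/
theorem Datum.exists_frobenius_ker (D : Datum) {b : ℕ} (hb : b ∈ D.B)
    {A : ValuationSubring Qbar} (hA : A.LiesOverPrime b) :
    ∃ τ : Γℚ, A.IsFrobeniusAt τ b ∧ D.ρbar τ = 1 := by
  obtain ⟨τ, hτ⟩ := Galois.exists_isFrobeniusAt (D.prime_mem b hb) hA
  obtain ⟨σ₀, hσ₀, -, hD⟩ := D.transp b hb A hA
  rcases hD τ hτ.mem_decompositionSubgroup with h | h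
  · exact ⟨τ, hτ, h⟩
  obtain ⟨⟨c', hcD⟩, hker, rfl⟩ := Subgroup.mem_map.1 hσ₀
  refine ⟨c'⁻¹ * τ, ⟨mul_mem (inv_mem hcD) hτ.mem_decompositionSubgroup, fun x => ?_⟩, ?_⟩
  · show (⟨c', hcD⟩⁻¹ * ⟨τ, hτ.mem_decompositionSubgroup⟩ : A.decompositionSubgroup ℚ) • x = x ^ b
    have h1 : (⟨c', hcD⟩⁻¹ : A.decompositionSubgroup ℚ) • x ^ b = x ^ b :=
      RingEquiv.congr_fun (MonoidHom.mem_ker.1 (inv_mem hker)) (x ^ b)
    rw [mul_smul, hτ.smul_residue_eq, h1]
  · rw [map_mul, map_inv, h]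
    exact inv_mul_cancel _

/-- When the Selmer group vanishes, two lifts have the same product of signs over `B`. -/
theorem prod_sign_eq (hQ : IsAuxSet D Q) (hS : SelVanishes D Q) (hε : IsPattern ε)
    (hε' : IsPattern ε') {A : Type*} [CommRing A] [IsLocalRing A] [Finite A] (f : A →+* ZMod 2)
    (hm : ∀ a : A, f a = 0 → 2 * a = 0) (h2 : (2 : A) ≠ 0)
    {ρ ρ' : Γℚ →* GL (Fin 2) A} (h : IsLift D Q ε ρ) (h' : IsLift D Q ε' ρ') :
    ∏ b ∈ D.B, ε b = ∏ b ∈ D.B, ε' b := by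
  classical
  have h4 : (2 : A) ^ 2 = 0 := by
    rw [pow_two]; exact hm 2 (by rw [map_ofNat]; rfl)
  have hff : ∀ g i j, f ((ρ g).val i j) = f ((ρ' g).val i j) := fun g i j => by
    have e1 := h.residual f g
    rw [← h'.residual f g] at e1
    have e2 : (Matrix.GeneralLinearGroup.map f (ρ g) : Matrix (Fin 2) (Fin 2) (ZMod 2)) i j =
        (Matrix.GeneralLinearGroup.map f (ρ' g) : Matrix (Fin 2) (Fin 2) (ZMod 2)) i j := by rw [e1]
    exact e2
  set ρ₂ := Pairing.pairRep ρ ρ' hff with hρ₂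
  haveI := Pairing.isLocalRing_pairRing f
  haveI : Finite (Pairing.pairRing f) := Subtype.finite
  let p₁ : Pairing.pairRing f →+* A := (RingHom.fst A A).comp (Pairing.pairRing f).subtype
  let p₂ : Pairing.pairRing f →+* A := (RingHom.snd A A).comp (Pairing.pairRing f).subtype
  have hp₁ : ∀ σ, (ρ₂ σ).map p₁ = (ρ σ : Matrix (Fin 2) (Fin 2) A) := fun σ => rfl
  have hp₂ : ∀ σ, (ρ₂ σ).map p₂ = (ρ' σ : Matrix (Fin 2) (Fin 2) A) := fun σ => rfl
  have hd₁ : ∀ σ, p₁ (ρ₂ σ).det = (ρ σ : Matrix (Fin 2) (Fin 2) A).det := fun σ => by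
    rw [RingHom.map_det, RingHom.mapMatrix_apply, hp₁]
  have hd₂ : ∀ σ, p₂ (ρ₂ σ).det = (ρ' σ : Matrix (Fin 2) (Fin 2) A).det := fun σ => by
    rw [RingHom.map_det, RingHom.mapMatrix_apply, hp₂]
  have hdet : ∀ σ, (ρ₂ σ).det - 1 ∈ Ideal.span {(2 : Pairing.pairRing f)} := by
    intro σ
    obtain ⟨a, ⟨j, hj⟩, ha⟩ := exists_odd_det (D := D) (Q := Q) σ two_ne_zero
    refine Ideal.mem_span_singleton'.2 ⟨(j : Pairing.pairRing f), Subtype.ext (Prod.ext ?_ ?_)⟩
    · show p₁ (j * 2) = p₁ ((ρ₂ σ).det - 1)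
      rw [map_mul, map_natCast, map_ofNat, map_sub, map_one, hd₁, ha h4 h, hj]
      push_cast; ring
    · show p₂ (j * 2) = p₂ ((ρ₂ σ).det - 1)
      rw [map_mul, map_natCast, map_ofNat, map_sub, map_one, hd₂, ha h4 h', hj]
      push_cast; ring
  obtain ⟨s, hs, hsI, hsF, hsM⟩ := h.exists_signs
  obtain ⟨s', hs', hsI', hsF', hsM'⟩ := h'.exists_signs
  have hfpm : ∀ x : A, x = 1 ∨ x = -1 → f x = 1 := by
    rintro x (rfl | rfl)
    · exact map_one f
    · rw [map_neg, map_one]; rfl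
  let δ : SpecialPlace D Q → Γℚ → Pairing.pairRing f := fun v σ =>
    if hσ : σ ∈ v.dec then
      ⟨(s v σ, s' v σ), (hfpm _ (hs v σ hσ)).trans (hfpm _ (hs' v σ hσ)).symm⟩
    else 1
  have hδ1 : ∀ v : SpecialPlace D Q, ∀ σ ∈ v.dec, p₁ (δ v σ) = s v σ := fun v σ hσ => by
    simp only [δ, dif_pos hσ]; rfl
  have hδ2 : ∀ v : SpecialPlace D Q, ∀ σ ∈ v.dec, p₂ (δ v σ) = s' v σ := fun v σ hσ => by
    simp only [δ, dif_pos hσ]; rfl
  obtain ⟨F, -, hF, -⟩ := exists_classGroup_torus hQ hS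
    (fun σ => D.mem_fixingSubgroup_field_iff σ) D.isComplex_field (Pairing.pairPi f) ρ₂
    (by
      obtain ⟨L₁, hL₁f, hL₁⟩ := h.cont
      obtain ⟨L₂, hL₂f, hL₂⟩ := h'.cont
      refine ⟨L₁ ⊔ L₂, inferInstance, fun σ hσ => Pairing.ext_of_components ?_ ?_⟩
      · show (ρ₂ σ).map p₁ = (1 : Dihedral.Mat (Pairing.pairRing f)).map p₁
        rw [hp₁, hL₁ σ (IntermediateField.fixingSubgroup_le le_sup_left hσ),
          Matrix.map_one _ (map_zero _) (map_one _)]; rfl
      · show (ρ₂ σ).map p₂ = (1 : Dihedral.Mat (Pairing.pairRing f)).map p₂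
        rw [hp₂, hL₂ σ (IntermediateField.fixingSubgroup_le le_sup_right hσ),
          Matrix.map_one _ (map_zero _) (map_one _)]; rfl)
    hdet (fun σ => congrArg Units.val (h.residual f σ))
    (fun l hl hlS P hP σ hσ => Pairing.ext_of_components
      (by
        show (ρ₂ σ).map p₁ = (1 : Dihedral.Mat (Pairing.pairRing f)).map p₁
        rw [hp₁, h.unram l hl hlS P hP σ hσ, Matrix.map_one _ (map_zero _) (map_one _)]; rfl)
      (by
        show (ρ₂ σ).map p₂ = (1 : Dihedral.Mat (Pairing.pairRing f)).map p₂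
        rw [hp₂, h'.unram l hl hlS P hP σ hσ, Matrix.map_one _ (map_zero _) (map_one _)]; rfl))
    δ
    (fun v σ hσ => by
      refine Subtype.ext (Prod.ext ?_ ?_)
      · show p₁ (δ v σ * δ v σ) = p₁ 1
        rw [map_mul, hδ1 v σ hσ, map_one]
        rcases hs v σ hσ with e | e <;> simp [e]
      · show p₂ (δ v σ * δ v σ) = p₂ 1
        rw [map_mul, hδ2 v σ hσ, map_one]
        rcases hs' v σ hσ with e | e <;> simp [e])
    (fun v σ hσ => by
      refine Subtype.ext (Prod.ext ?_ ?_)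
      · show p₁ (δ v σ) = p₁ 1
        rw [hδ1 v σ (v.inertia_le_dec hσ), map_one, hsI v σ hσ]
      · show p₂ (δ v σ) = p₂ 1
        rw [hδ2 v σ (v.inertia_le_dec hσ), map_one, hsI' v σ hσ])
    (fun v σ hσ τ hτ => by
      have key : ∀ (p : Pairing.pairRing f →+* A) (M : Dihedral.Mat (Pairing.pairRing f))
          (c : Pairing.pairRing f), (M - c • 1).map p = M.map p - p c • 1 := by
        intro p M c
        ext i j
        rcases eq_or_ne i j with rfl | hne <;> simp [*]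
      refine Pairing.ext_of_components ?_ ?_
      · show ((ρ₂ σ - ((ρ₂ σ).det * δ v σ) • 1) * (ρ₂ τ - δ v τ • 1)).map p₁ =
          (0 : Dihedral.Mat (Pairing.pairRing f)).map p₁
        rw [Matrix.map_mul, key, key, hp₁, hp₁, map_mul, hd₁, hδ1 v σ hσ, hδ1 v τ hτ,
          hsM v σ hσ τ hτ, Matrix.map_zero _ (map_zero _)]
      · show ((ρ₂ σ - ((ρ₂ σ).det * δ v σ) • 1) * (ρ₂ τ - δ v τ • 1)).map p₂ =
          (0 : Dihedral.Mat (Pairing.pairRing f)).map p₂
        rw [Matrix.map_mul, key, key, hp₂, hp₂, map_mul, hd₂, hδ2 v σ hσ, hδ2 v τ hτ,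
          hsM' v σ hσ τ hτ, Matrix.map_zero _ (map_zero _)])
  choose P hP using fun b : D.B => Galois.exists_liesOverPrime (D.prime_mem b b.2)
  choose τ hτ hτ1 using fun b : D.B => D.exists_frobenius_ker b.2 (hP b)
  let x : D.B → Pairing.pairRing f := fun b => δ (SpecialPlace.ofB b.2 (hP b)) (τ b)
  have hscal : ∀ S : Finset D.B,
      ((F (∏ b ∈ S, ClassGroup.mk0 (CFT.placeNZ D.field (D.prime_mem b b.2) (hP b))) :
        (Dihedral.Mat (Pairing.pairRing f ⧸ Ideal.span {(2 : Pairing.pairRing f)}))ˣ) :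
        Dihedral.Mat (Pairing.pairRing f ⧸ Ideal.span {(2 : Pairing.pairRing f)})) =
        Ideal.Quotient.mk (Ideal.span {(2 : Pairing.pairRing f)}) (∏ b ∈ S, x b) • 1 := by
    intro S
    induction S using Finset.induction with
    | empty => simp
    | @insert b S hb ih =>
      rw [Finset.prod_insert hb, Finset.prod_insert hb, map_mul, Units.val_mul, ih,
        hF b b.2 (P b) (hP b) (τ b) (hτ b)
          ((D.mem_fixingSubgroup_field_iff _).2 (by rw [hτ1, one_pow])),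
        smul_mul_smul_comm, one_mul, ← map_mul]
  have hmod : ∏ b : D.B, x b - 1 ∈ Ideal.span {(2 : Pairing.pairRing f)} := by
    have h1 := hscal Finset.univ
    rw [D.prod_placeClass_eq_one P hP, map_one] at h1
    have h2 := congrFun (congrFun h1 0) 0
    simp at h2
    rw [← map_prod, eq_comm, ← map_one (Ideal.Quotient.mk _), Ideal.Quotient.eq] at h2
    exact h2
  have hpm : ∀ η : ℕ → ℤ, IsPattern η → ∏ b ∈ D.B, η b = 1 ∨ ∏ b ∈ D.B, η b = -1 := fun η hη =>
    Int.isUnit_iff.1 (IsUnit.prod_iff.2 fun b _ => Int.isUnit_iff.2 (hη b))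
  have hd : ∀ b : D.B, τ b ∈ (SpecialPlace.ofB (Q := Q) b.2 (hP b)).dec := fun b =>
    (hτ b).mem_decompositionSubgroup
  refine Pairing.sign_eq (f := f) hm h2 hmod (hpm ε hε) (hpm ε' hε') ?_ ?_
  · show p₁ (∏ b : D.B, x b) = _
    rw [map_prod, Int.cast_prod]
    conv_rhs => rw [← Finset.prod_coe_sort]
    exact Finset.prod_congr rfl fun b _ =>
      (hδ1 _ _ (hd b)).trans (hsF (SpecialPlace.ofB b.2 (hP b)) (τ b) (hτ b))
  · show p₂ (∏ b : D.B, x b) = _
    rw [map_prod, Int.cast_prod]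
    conv_rhs => rw [← Finset.prod_coe_sort]
    exact Finset.prod_congr rfl fun b _ =>
      (hδ2 _ _ (hd b)).trans (hsF' (SpecialPlace.ofB b.2 (hP b)) (τ b) (hτ b))

end Fermat.Agent.Residual

end
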