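/-
Residual modularity at three: the sign pattern of a lift modulo four is a major one.
-/
import Fermat.Agent.Residual.MainAlgebra
import Fermat.Agent.Residual.LiftOps
import Fermat.Agent.Residual.SignParity
import Fermat.Agent.Residual.PatternRep
import Fermat.Agent.Residual.PatternLift

set_option autoImplicit false

noncomputable section

open Matrix

namespace Fermat.Agent.Residual

local notation "Qbar" => AlgebraicClosure ℚ
local notation "Γℚ" => (AlgebraicClosure ℚ ≃ₐ[ℚ] AlgebraicClosure ℚ)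

variable {D : Datum} {Q : Finset ℕ} {ε ε₀ : ℕ → ℤ}

theorem patternAlgebra_two_mul_cancel {x : patternAlgebra D Q ε} (h : 2 * x = 0) : x = 0 := by
  refine Subtype.ext (funext fun f => ?_)
  have h' : ((2 : patternAlgebra D Q ε) * x).1 f = 0 := by rw [h]; rfl
  have h2 : (2 : Q2int) * x.1 f = 0 := h'
  have h3 : (2 : Q2bar) * ((x.1 f : Q2int) : Q2bar) = 0 := congrArg Subtype.val h2
  exact Subtype.ext ((mul_eq_zero.1 h3).resolve_left two_ne_zero)

theorem prod_sign_eq_of_residue (hQ : IsAuxSet D Q) (hS : SelVanishes D Q) (hε : IsPattern ε)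
    (hε₀ : IsPattern ε₀) {T P : Type*} [CommRing T] [CommRing P] [IsLocalRing T] [Finite P]
    (π : T →+* ZMod 2) (hT : ∀ x : T, 2 * x = 0 → x = 0)
    (mk : T →+* P) (hmk : Function.Surjective mk) (hker : ∀ x, mk x = 0 ↔ (2 : T) ^ 2 ∣ x)
    {ρT : Γℚ →* GL (Fin 2) P} (hρT : IsLift D Q ε₀ ρT) {M : ℕ} (hM : 2 ≤ M)
    {ρ : Γℚ →* GL (Fin 2) (ZMod (2 ^ M))} (hρ : IsLift D Q ε ρ) :
    ∏ b ∈ D.B, ε b = ∏ b ∈ D.B, ε₀ b := by
  have hπ2 : π 2 = 0 := by rw [map_ofNat]; rfl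
  set J : Ideal T := Ideal.span {(2 : T)} * RingHom.ker π with hJdef
  have h4J : (2 : T) ^ 2 ∈ J := by
    rw [sq]
    exact Ideal.mul_mem_mul (Ideal.mem_span_singleton_self _) (RingHom.mem_ker.2 hπ2)
  have hJker : ∀ x ∈ J, π x = 0 := fun x hx =>
    RingHom.mem_ker.1 ((Ideal.mul_le_right : J ≤ RingHom.ker π) hx)
  let toA : P →+* T ⧸ J := mk.liftOfSurjective hmk ⟨Ideal.Quotient.mk J, fun x hx => by
    obtain ⟨c, rfl⟩ := (hker x).1 (RingHom.mem_ker.1 hx)
    exact RingHom.mem_ker.2 (Ideal.Quotient.eq_zero_iff_mem.2 (J.mul_mem_right c h4J))⟩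
  have htoA : Function.Surjective toA := fun y => by
    obtain ⟨x, rfl⟩ := Ideal.Quotient.mk_surjective y
    exact ⟨mk x, RingHom.liftOfRightInverse_comp_apply _ _ _ _ _⟩
  have hfinA : Finite (T ⧸ J) := Finite.of_surjective _ htoA
  let f : T ⧸ J →+* ZMod 2 := Ideal.Quotient.lift J π hJker
  have hnt : Nontrivial (T ⧸ J) := f.domain_nontrivial
  have hlocA : IsLocalRing (T ⧸ J) := .of_surjective' _ Ideal.Quotient.mk_surjective
  have hm : ∀ a : T ⧸ J, f a = 0 → 2 * a = 0 := fun a ha => by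
    obtain ⟨x, rfl⟩ := Ideal.Quotient.mk_surjective a
    rw [← map_ofNat (Ideal.Quotient.mk J) 2, ← map_mul, Ideal.Quotient.eq_zero_iff_mem]
    exact Ideal.mul_mem_mul (Ideal.mem_span_singleton_self _) (RingHom.mem_ker.2 ha)
  have h2 : (2 : T ⧸ J) ≠ 0 := fun h => by
    rw [← map_ofNat (Ideal.Quotient.mk J) 2, Ideal.Quotient.eq_zero_iff_mem, hJdef,
      Ideal.mem_span_singleton_mul] at h
    obtain ⟨y, hy, hy2⟩ := h
    have h1 : (1 : T) - y = 0 := hT _ (by rw [mul_sub, mul_one, hy2, sub_self])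
    rw [← sub_eq_zero.1 h1, RingHom.mem_ker, map_one] at hy
    exact one_ne_zero hy
  have h4 : (2 : T ⧸ J) ^ 2 = 0 := by
    rw [← map_ofNat (Ideal.Quotient.mk J) 2, ← map_pow, Ideal.Quotient.eq_zero_iff_mem]
    exact h4J
  obtain ⟨toA'⟩ := exists_castHom_two_pow (A := T ⧸ J) (M := M)
    (by rw [← Nat.add_sub_cancel' hM, pow_add, h4, zero_mul])
  exact prod_sign_eq hQ hS hε hε₀ f hm h2
    (hρ.map toA' ⟨M, by exact_mod_cast ZMod.natCast_self (2 ^ M)⟩)
    (hρT.map toA ⟨2, by rw [← map_ofNat mk 2, ← map_pow, hker]⟩)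

/-- A lift modulo `2 ^ M` has the same parity of signs as any nonempty pattern. -/
theorem prod_sign_eq_of_forms (hQ : IsAuxSet D Q) (hS : SelVanishes D Q) (hε : IsPattern ε)
    (hε₀ : IsPattern ε₀) (hne : (patternForms D Q ε₀).Nonempty) {M : ℕ} (hM : 2 ≤ M)
    {ρ : Γℚ →* GL (Fin 2) (ZMod (2 ^ M))} (hρ : IsLift D Q ε ρ) :
    ∏ b ∈ D.B, ε b = ∏ b ∈ D.B, ε₀ b := by
  have hloc := isLocalRing_patternAlgebra hQ hne
  obtain ⟨π⟩ := exists_residue_patternAlgebra hQ hne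
  obtain ⟨ρT, hρT, -⟩ := exists_patternLift hQ hε₀ hne (k := 2) (by norm_num)
  have hfin2 : Finite (PatternQuot D Q ε₀ 2) := finite_patternAlgebra_quotient hQ 2
  exact prod_sign_eq_of_residue hQ hS hε hε₀ π (fun _ h => patternAlgebra_two_mul_cancel h)
    (patternMk D Q ε₀ 2) (patternMk_surjective D Q ε₀ 2) (fun _ => patternMk_eq_zero_iff)
    hρT hM hρ

end Fermat.Agent.Residual

end
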