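/-
Residual modularity at three: the Hecke algebra of a pattern is the ring of traces, so it maps
onto the traces of the curve modulo `2 ^ M`.
-/
import Fermat.Agent.Residual.MainParity
import Fermat.Agent.Residual.LiftSubring
import Fermat.Agent.Residual.DihedralMain
import Fermat.Agent.Galois.Frobenius

set_option autoImplicit false

noncomputable section

open Matrix

namespace Fermat.Agent.Residual

local notation "Qbar" => AlgebraicClosure ℚ
local notation "Γℚ" => (AlgebraicClosure ℚ ≃ₐ[ℚ] AlgebraicClosure ℚ)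

variable {D : Datum} {Q : Finset ℕ} {ε : ℕ → ℤ}

/-- Abstract form: a quotient generated by traces, paired with a lift modulo `2 ^ M`. -/
theorem exists_hom_of_lifts (hQ : IsAuxSet D Q) (hS : SelVanishes D Q) (hε : IsPattern ε)
    {T P : Type*} [CommRing T] [CommRing P] [IsLocalRing P] [Finite P] (π : P →+* ZMod 2)
    {M : ℕ} (hM : 1 ≤ M) (mk : T →+* P) (hmk : Function.Surjective mk)
    (hker : ∀ x, mk x = 0 ↔ (2 : T) ^ M ∣ x) (hP : 2 ^ (M * D.cprime) ≤ Nat.card P)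
    {ι : Type*} (t : ι → T) (hgen : ∀ S : Subring P, (∀ i, mk (t i) ∈ S) → S = ⊤)
    {ρT : Γℚ →* GL (Fin 2) P} (hρT : IsLift D Q ε ρT)
    {ρ : Γℚ →* GL (Fin 2) (ZMod (2 ^ M))} (hρ : IsLift D Q ε ρ)
    (σ : ι → Γℚ) (hσ : ∀ i, ((ρT (σ i) : Matrix (Fin 2) (Fin 2) P)).trace = mk (t i)) :
    ∃ φ : T →+* ZMod (2 ^ M),
      (∀ i, φ (t i) = ((ρ (σ i) : Matrix (Fin 2) (Fin 2) (ZMod (2 ^ M)))).trace) ∧
      Nat.card (T ⧸ Ideal.span {(2 : T)}) ≤ 2 ^ D.cprime := by
  classical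
  have hM0 : NeZero M := ⟨by omega⟩
  have hM0' : M ≠ 0 := by omega
  have hzero : (2 : P) ^ M = 0 := by rw [← map_ofNat mk 2, ← map_pow, hker]
  obtain ⟨ρ'', hρ'', h1, h2⟩ := hρT.exists_prod hρ (fun q hq => (hQ q hq).1) hε
  let f2 : ZMod (2 ^ M) →+* ZMod 2 := ZMod.castHom (dvd_pow_self 2 hM0') (ZMod 2)
  have hnil : ∀ x : P × ZMod (2 ^ M), IsNilpotent (x ^ 2 - x) := fun x => by
    obtain ⟨m, hm⟩ := isNilpotent_sq_sub_self π x.1
    obtain ⟨n, hn⟩ := isNilpotent_sq_sub_self f2 x.2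
    exact ⟨m + n, Prod.ext (by simp [pow_add, hm]) (by simp [pow_add, hn])⟩
  obtain ⟨A, hA, ρA, hρA, htr, hAP⟩ :=
    exists_isLift_subring (fun p hp => natCard_quotient_eq_two hnil p) hε hQ hρ''
  let fA : A →+* P := (RingHom.fst P (ZMod (2 ^ M))).comp A.subtype
  let sA : A →+* ZMod (2 ^ M) := (RingHom.snd P (ZMod (2 ^ M))).comp A.subtype
  have hfst : ∀ g, fA ((ρA g : Matrix (Fin 2) (Fin 2) A)).trace =
      ((ρT g : Matrix (Fin 2) (Fin 2) P)).trace := fun g => by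
    rw [RingHom.comp_apply, Subring.subtype_apply, hAP g, ← h1 g, AddMonoidHom.map_trace]
    rfl
  have hsnd : ∀ g, sA ((ρA g : Matrix (Fin 2) (Fin 2) A)).trace =
      ((ρ g : Matrix (Fin 2) (Fin 2) (ZMod (2 ^ M)))).trace := fun g => by
    rw [RingHom.comp_apply, Subring.subtype_apply, hAP g, ← h2 g, AddMonoidHom.map_trace]
    rfl
  have hsurj : Function.Surjective fA := fun y => by
    have htop : fA.range = ⊤ := hgen _ fun i => ⟨_, (hfst (σ i)).trans (hσ i)⟩
    exact RingHom.mem_range.1 (by rw [htop]; exact Subring.mem_top y)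
  have hA2 : (2 : A) ^ M = 0 := by
    refine Subtype.val_injective ?_
    show A.subtype ((2 : A) ^ M) = A.subtype 0
    rw [map_pow, map_ofNat, map_zero]
    exact Prod.ext (by exact hzero) (by exact_mod_cast ZMod.natCast_self (2 ^ M))
  have hbound : Nat.card (A ⧸ Ideal.span {(2 : A)}) ≤ 2 ^ D.cprime :=
    natCard_quotient_two_le hQ hS hε (π.comp fA) hρA htr
  have hcard : Nat.card A ≤ Nat.card P := by
    refine le_trans ?_ hP
    rw [mul_comm, pow_mul]
    exact (natCard_le_pow_of_two_pow_eq_zero hA2).trans (Nat.pow_le_pow_left hbound _)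
  have hbij : Function.Bijective fA := hsurj.bijective_of_nat_card_le hcard
  let e : A ≃+* P := RingEquiv.ofBijective fA hbij
  refine ⟨(sA.comp e.symm.toRingHom).comp mk, fun i => ?_, ?_⟩
  · have : e.symm (mk (t i)) = ((ρA (σ i) : Matrix (Fin 2) (Fin 2) A)).trace := by
      rw [RingEquiv.symm_apply_eq]
      exact ((hfst (σ i)).trans (hσ i)).symm
    show sA (e.symm (mk (t i))) = _
    rw [this, hsnd]
  · let g : T →+* A ⧸ Ideal.span {(2 : A)} :=
      (Ideal.Quotient.mk _).comp (e.symm.toRingHom.comp mk)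
    have hgs : Function.Surjective g :=
      Ideal.Quotient.mk_surjective.comp (e.symm.surjective.comp hmk)
    have hk : RingHom.ker g = Ideal.span {(2 : T)} := by
      ext x
      rw [RingHom.mem_ker, Ideal.mem_span_singleton]
      show Ideal.Quotient.mk (Ideal.span {(2 : A)}) (e.symm (mk x)) = 0 ↔ _
      rw [Ideal.Quotient.eq_zero_iff_dvd]
      refine ⟨fun ⟨c, hc⟩ => ?_, fun ⟨c, hc⟩ => ?_⟩
      · obtain ⟨y, hy⟩ := hmk (e c)
        have hx : mk (x - 2 * y) = 0 := by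
          rw [map_sub, map_mul, hy, ← e.apply_symm_apply (mk x), hc, map_mul, map_ofNat,
            map_ofNat, sub_self]
        have h' := (dvd_pow_self (2 : T) hM0').trans ((hker _).1 hx)
        simpa using dvd_add h' (dvd_mul_right (2 : T) y)
      · exact ⟨e.symm (mk c), by rw [hc, map_mul, map_mul, map_ofNat, map_ofNat]⟩
    rw [← hk, Nat.card_congr (RingHom.quotientKerEquivOfSurjective hgs).toEquiv]
    exact hbound

theorem patternQuot_subring_eq_top {k : ℕ} (S : Subring (PatternQuot D Q ε k))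
    (h : ∀ (ℓ : ℕ) (hℓ : ℓ.Prime) (h : ¬ ℓ ∣ D.auxLevel Q), patternTQuot D Q ε k hℓ h ∈ S) :
    S = ⊤ := by
  refine eq_top_iff.2 fun y _ => ?_
  obtain ⟨⟨x, hx⟩, rfl⟩ := patternMk_surjective D Q ε k y
  induction hx using Algebra.adjoin_induction with
  | mem x hx =>
    obtain ⟨ℓ, ⟨hℓ, hℓL⟩, rfl⟩ := hx
    exact h ℓ hℓ hℓL
  | algebraMap r =>
    obtain ⟨n, c, hc⟩ := exists_natCast_dvd_sub k r
    have hr : r = n + 2 ^ k * c := by linear_combination hc
    have : (⟨algebraMap ℤ_[2] _ r, Subalgebra.algebraMap_mem _ r⟩ : patternAlgebra D Q ε) =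
        (n : patternAlgebra D Q ε) + 2 ^ k * algebraMap ℤ_[2] (patternAlgebra D Q ε) c := by
      rw [← map_natCast (algebraMap ℤ_[2] (patternAlgebra D Q ε)) n,
        ← map_ofNat (algebraMap ℤ_[2] (patternAlgebra D Q ε)) 2, ← map_pow, ← map_mul, ← map_add,
        ← hr]
      rfl
    rw [this, map_add, map_natCast]
    refine S.add_mem (natCast_mem S n) ?_
    rw [patternMk_eq_zero_iff.2 (dvd_mul_right _ _)]
    exact S.zero_mem
  | add x y hx hy ihx ihy =>
    have := S.add_mem (ihx trivial) (ihy trivial)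
    rw [← map_add] at this
    exact this
  | mul x y hx hy ihx ihy =>
    have := S.mul_mem (ihx trivial) (ihy trivial)
    rw [← map_mul] at this
    exact this

/-- The Hecke algebra of a pattern with enough forms maps to `ℤ/2^M` through the traces of any
lift of that pattern. -/
theorem exists_hom_patternAlgebra (hQ : IsAuxSet D Q) (hS : SelVanishes D Q) (hε : IsPattern ε)
    (hc : D.cprime ≤ Nat.card (patternForms D Q ε)) {M : ℕ} (hM : 1 ≤ M)
    {ρ : Γℚ →* GL (Fin 2) (ZMod (2 ^ M))} (hρ : IsLift D Q ε ρ) :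
    ∃ φ : patternAlgebra D Q ε →+* ZMod (2 ^ M),
      (∀ (ℓ : ℕ) (hℓ : ℓ.Prime) (h : ¬ ℓ ∣ D.auxLevel Q), ∃ A : ValuationSubring Qbar, ∃ τ : Γℚ,
        A.LiesOverPrime ℓ ∧ A.IsFrobeniusAt τ ℓ ∧ φ (patternT D Q ε hℓ h) =
          ((ρ τ : Matrix (Fin 2) (Fin 2) (ZMod (2 ^ M)))).trace) ∧
      Nat.card (patternAlgebra D Q ε ⧸ Ideal.span {(2 : patternAlgebra D Q ε)}) ≤
        2 ^ D.cprime := by
  have hcpos : 0 < Nat.card (patternForms D Q ε) := lt_of_lt_of_le (Nat.two_pow_pos _) hc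
  have hne : (patternForms D Q ε).Nonempty :=
    Set.nonempty_coe_sort.1 (Nat.card_pos_iff.1 hcpos).1
  have hloc := isLocalRing_patternAlgebra hQ hne
  obtain ⟨π⟩ := exists_residue_patternAlgebra hQ hne
  have hfin : Finite (PatternQuot D Q ε M) := finite_patternAlgebra_quotient hQ M
  obtain ⟨ρT, hρT, hρTtr⟩ := exists_patternLift hQ hε hne hM
  let f : PatternQuot D Q ε M →+* ZMod 2 :=
    (patternMk D Q ε M).liftOfSurjective (patternMk_surjective D Q ε M) ⟨π, fun x hx => by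
      obtain ⟨c, rfl⟩ := patternMk_eq_zero_iff.1 (RingHom.mem_ker.1 hx)
      rw [RingHom.mem_ker, map_mul, map_pow, map_ofNat,
        show (OfNat.ofNat 2 : ZMod 2) = 0 from rfl, zero_pow (by omega), zero_mul]⟩
  have : Nontrivial (PatternQuot D Q ε M) := f.domain_nontrivial
  have : IsLocalRing (PatternQuot D Q ε M) :=
    .of_surjective' _ (patternMk_surjective D Q ε M)
  let ι := {ℓ : ℕ // ℓ.Prime ∧ ¬ ℓ ∣ D.auxLevel Q}
  have hex : ∀ i : ι, ∃ p : ValuationSubring Qbar × Γℚ,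
      p.1.LiesOverPrime i.1 ∧ p.1.IsFrobeniusAt p.2 i.1 := fun i => by
    obtain ⟨A, τ, hA, hτ⟩ := Galois.exists_valuationSubring_isFrobeniusAt i.2.1
    exact ⟨(A, τ), hA, hτ⟩
  choose p hp hp' using hex
  obtain ⟨φ, hφ, hcard⟩ := exists_hom_of_lifts hQ hS hε f hM (patternMk D Q ε M)
    (patternMk_surjective D Q ε M) (fun _ => patternMk_eq_zero_iff)
    (le_trans (Nat.pow_le_pow_right two_pos (Nat.mul_le_mul_left M hc))
      (two_pow_le_natCard_patternAlgebra_quotient hQ hε M))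
    (fun i : ι => patternT D Q ε i.2.1 i.2.2)
    (fun S hS => patternQuot_subring_eq_top S fun ℓ hℓ h => hS ⟨ℓ, hℓ, h⟩)
    hρT hρ (fun i => (p i).2)
    (fun i => hρTtr i.1 i.2.1 i.2.2 _ (hp i) _ (hp' i))
  exact ⟨φ, fun ℓ hℓ h => ⟨_, _, hp ⟨ℓ, hℓ, h⟩, hp' ⟨ℓ, hℓ, h⟩, hφ ⟨ℓ, hℓ, h⟩⟩, hcard⟩

end Fermat.Agent.Residual

end
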