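/-
Automorphisms of the function field of `Γ \ ℍ*` given by real matrices normalising `Γ`: the action
on places in terms of points, and fixed places.
-/
import Fermat.Agent.Places.Main

set_option autoImplicit false

noncomputable section

open UpperHalfPlane AlgebraicCurve Fermat.Agent.ModFun Matrix
open scoped MatrixGroups Pointwise

namespace Fermat.Agent.Residual

open Fermat.Agent.Places

variable {Γ : Subgroup SL(2, ℤ)} [Γ.FiniteIndex] {F : Type*} [Field F] [Algebra ℂ F]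
  (M : Model Γ F) (σ : F ≃ₐ[ℂ] F) (g : GL (Fin 2) ℝ)

/-- `σ` is composition with the Möbius transformation of `g`. -/
def IsMobius : Prop :=
  0 < g.det.val ∧ ∀ f : F, EqPunct (M.ev (σ f)) (fun z => M.ev f (g • z))

variable {M σ g}

omit [Γ.FiniteIndex] in
theorem ordH_ev_apply (h : IsMobius M σ g) (f : F) (τ : ℍ) :
    ordH (M.ev (σ f)) τ = ordH (M.ev f) (g • τ) := by
  rw [(h.2 f).ordH_eq τ]
  exact UpperHalfPlane.meromorphicOrderAt_comp_smul h.1

theorem ext_of_ord_nonneg {v v' : Place ℂ F}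
    (h : ∀ f : F, f ≠ 0 → (0 ≤ v.ord f ↔ 0 ≤ v'.ord f)) : v = v' := by
  apply Place.ext
  ext f
  rcases eq_or_ne f 0 with rfl | hf
  · simp
  rw [Curve.mem_iff_ord_nonneg, Curve.mem_iff_ord_nonneg, h f hf]

/-- `σ` moves the place at `g • τ` to the place at `τ`. -/
theorem smul_placeAt (h : IsMobius M σ g) (τ : ℍ) :
    σ • M.placeAt (g • τ) = M.placeAt τ := by
  apply ext_of_ord_nonneg
  intro f hf
  obtain ⟨f', rfl⟩ := σ.surjective f
  have hf' : f' ≠ 0 := fun e => hf (by rw [e, map_zero])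
  rw [Place.ord_smul]
  show 0 ≤ (M.pointVal (g • τ)).place.ord f' ↔ 0 ≤ (M.pointVal τ).place.ord (σ f')
  rw [(M.pointVal _).place_ord_nonneg_iff hf', (M.pointVal _).place_ord_nonneg_iff hf]
  show 0 ≤ (ordH (M.ev f') (g • τ)).untop₀ ↔ 0 ≤ (ordH (M.ev (σ f')) τ).untop₀
  rw [ordH_ev_apply h]

theorem smul_placeAt' (h : IsMobius M σ g) (τ : ℍ) :
    σ • M.placeAt τ = M.placeAt (g⁻¹ • τ) := by
  conv_lhs => rw [show τ = g • (g⁻¹ • τ) from (smul_inv_smul g τ).symm]
  rw [smul_placeAt h]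

/-- The fixed places among the points. -/
theorem smul_placeAt_eq_self_iff (h : IsMobius M σ g) (τ : ℍ) :
    σ • M.placeAt τ = M.placeAt τ ↔ ∃ γ ∈ Γ, γ • τ = g • τ := by
  constructor
  · intro e
    have e2 : M.placeAt (g • τ) = M.placeAt τ := by
      apply MulAction.injective σ
      show σ • M.placeAt (g • τ) = σ • M.placeAt τ
      rw [smul_placeAt h, e]
    obtain ⟨γ, hγ, hz⟩ := M.placeAt_eq_iff.mp e2
    exact ⟨γ⁻¹, inv_mem hγ, inv_smul_eq_iff.mpr hz.symm⟩
  · rintro ⟨γ, hγ, hz⟩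
    conv_lhs => rw [← M.placeAt_smul hγ τ, hz]
    exact smul_placeAt h τ

/-- `σ` permutes the cusps. -/
theorem exists_cuspPlace_eq_smul (h : IsMobius M σ g) (γ : SL(2, ℤ)) :
    ∃ γ' : SL(2, ℤ), σ • M.cuspPlace γ = M.cuspPlace γ' := by
  rcases M.exists_placeAt_or_cuspPlace (σ • M.cuspPlace γ) with ⟨τ, hτ⟩ | ⟨γ', hγ'⟩
  · exfalso
    rw [← smul_placeAt h τ] at hτ
    exact M.placeAt_ne_cuspPlace (g • τ) γ (MulAction.injective σ hτ)
  · exact ⟨γ', hγ'.symm⟩

/-- The fixed places: fixed classes of points, or fixed cusps. -/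
theorem fixed_place_cases (h : IsMobius M σ g) {v : Place ℂ F} (hv : σ • v = v) :
    (∃ τ, M.placeAt τ = v ∧ ∃ γ ∈ Γ, γ • τ = g • τ) ∨ ∃ γ, M.cuspPlace γ = v := by
  rcases M.exists_placeAt_or_cuspPlace v with ⟨τ, rfl⟩ | hc
  · exact Or.inl ⟨τ, rfl, (smul_placeAt_eq_self_iff h τ).mp hv⟩
  · exact Or.inr hc

/-- `σ` is an involution when `g * g` acts through `Γ`. -/
theorem apply_apply_of_sq (h : IsMobius M σ g) {γ : SL(2, ℤ)} (hγ : γ ∈ Γ)
    (hsq : ∀ τ : ℍ, g • g • τ = γ • τ) (f : F) : σ (σ f) = f := by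
  apply M.eq_of_eqPunct
  refine (h.2 _).trans ?_
  intro τ
  have hfun : (fun z => M.ev f (g • g • z)) = M.ev f := by
    funext z
    rw [hsq, M.smul_eq f γ hγ]
  have h2 : EqPunct (fun z => M.ev (σ f) (g • z)) (fun z => M.ev f (g • g • z)) := by
    intro z
    have hA : ∀ u : ℍ → ℂ, (fun w => u (g • w)) ∘ ofComplex =
        (u ∘ ofComplex) ∘ fun w : ℂ => ((g • ofComplex w : ℍ) : ℂ) := fun u => by
      funext w; simp [ofComplex_apply]
    rw [hA (M.ev (σ f)), hA (fun w => M.ev f (g • w))]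
    refine ((h.2 f) (g • z)).comp_tendsto (tendsto_nhdsWithin_iff.mpr ⟨?_, ?_⟩)
    · have hc := (UpperHalfPlane.analyticAt_smul h.1 z).continuousAt.tendsto
      rw [ofComplex_apply] at hc
      exact hc.mono_left nhdsWithin_le_nhds
    · filter_upwards [self_mem_nhdsWithin,
        mem_nhdsWithin_of_mem_nhds (isOpen_upperHalfPlaneSet.mem_nhds z.im_pos)] with w hw hw'
      intro he
      rw [Set.mem_singleton_iff, UpperHalfPlane.coe_inj, smul_left_cancel_iff] at he
      apply hw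
      rw [Set.mem_singleton_iff, ← he, ofComplex_apply_of_im_pos hw']
  rw [hfun] at h2
  exact h2 τ

end Fermat.Agent.Residual
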