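/-
The fixed places of `w_d` on `X₀(D)`: points whose orbit is stabilised by an Atkin-Lehner matrix;
no cusp is fixed unless `d` is a square.
-/
import Fermat.Agent.Residual.ALInvolution
import Fermat.Agent.Residual.FixPlacesBridge
import Fermat.Agent.Places.Gamma0

set_option autoImplicit false

noncomputable section

open UpperHalfPlane CongruenceSubgroup ModularCurve AlgebraicCurve Fermat.Agent.ModFun
open scoped MatrixGroups Pointwise

namespace Fermat.Agent.Residual

open Fermat.Agent CMFix Places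

variable {D d : ℕ} [NeZero D] {W : IMat}

local instance instFiniteIndexGamma0AL : (Gamma0 D).FiniteIndex :=
  ⟨by rw [Places.index_Gamma0]; exact (Gamma0.dedekindPsi_pos D).ne'⟩

theorem isMobius_alC (hW : IsAL D d W) (hd : d ∣ D) :
    IsMobius (x0Model D) (alC hW hd) (Newform.atkinGL W) :=
  ⟨(IsAL.normalises hW hd).det_pos, toFun_alHom hW hd⟩

theorem ord_jdC_cuspPlace {e : ℕ} [NeZero e] (he : e ∣ D) (γ : SL(2, ℤ)) :
    ∃ a b : ℕ, a * b = e ∧ (b : ℤ) * ((x0Model D).cuspPlace γ).ord (jdC D e he) =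
      -((a : ℤ) * cuspWidth (Gamma0 D) γ) := by
  obtain ⟨a, c, b, _, _, hab, -, -, h⟩ := exists_jNfun_smul_eq_triPoint e γ⁻¹
  have hne : jdC D e he ≠ 0 := fun h0 =>
    (map_ne_zero (qExpand ℂ e)).2 (jqModC_ne_zero_of_nontrivial ℂ) (congrArg Subtype.val h0)
  have hx : HasQExp b (fun τ => (x0Model D).ev (jdC D e he) (γ⁻¹ • τ))
      (qExpand ℂ a (twist (zetaU b ^ c) (jqModC ℂ))) := by
    have h1 : HasQExp b (fun τ => jNfun e (γ⁻¹ • τ))
        (qExpand ℂ a (twist (zetaU b ^ c) (jqModC ℂ))) :=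
      (hasQExp_jfun.comp_triPoint a c b).congr (Filter.Eventually.of_forall fun τ => (h τ).symm)
    exact h1.congr (eventuallyEq_atImInfty_of_eqPunct h1
      ((x0Model D).hasQExp_cuspExp γ (jdC D e he))
      (Places.eqPunct_comp_smul (toFun_jdC he) γ⁻¹).symm)
  have h1 := (x0Model D).width_mul_order hne γ hx
  have hj : jqModC ℂ ≠ 0 := jqModC_ne_zero_of_nontrivial ℂ
  rw [order_qExpand a ((map_ne_zero _).2 hj)] at h1
  have h2 : (twist (zetaU b ^ c) (jqModC ℂ)).order = -1 := by
    refine le_antisymm (HahnSeries.order_le_of_coeff_ne_zero ?_) ?_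
    · rw [twist_coeff]
      exact mul_ne_zero (zpow_ne_zero _ (Units.ne_zero _))
        (by rw [coeff_jqModC_neg_one]; exact one_ne_zero)
    · by_contra hc
      push Not at hc
      have h3 := mt HahnSeries.coeff_order_eq_zero.1 ((map_ne_zero (twist (zetaU b ^ c))).2 hj)
      rw [twist_coeff, coeff_jqModC_of_lt ℂ hc, mul_zero] at h3
      exact h3 rfl
  rw [h2] at h1
  exact ⟨a, b, hab, by linear_combination -h1⟩

/-- No cusp is fixed by `w_d` when `d` is not a square. -/
theorem alC_smul_cuspPlace_ne (hW : IsAL D d W) (hd : d ∣ D) (hsq : ¬ IsSquare d)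
    (γ : SL(2, ℤ)) : alC hW hd • (x0Model D).cuspPlace γ ≠ (x0Model D).cuspPlace γ := by
  intro h
  haveI : NeZero d := ⟨(Nat.pos_of_dvd_of_pos hd (NeZero.pos D)).ne'⟩
  obtain ⟨a, b, hab, he⟩ := ord_jdC_cuspPlace hd γ
  have h1 := Place.ord_smul (alC hW hd) ((x0Model D).cuspPlace γ) (x0Model D).jF
  have h2 : alC hW hd (x0Model D).jF = jdC D d hd := alC_jq hW hd
  rw [h, h2, (x0Model D).ord_jF_cuspPlace] at h1
  rw [h1] at he
  have hw : (cuspWidth (Gamma0 D) γ : ℤ) ≠ 0 := by exact_mod_cast (cuspWidth_pos γ).ne'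
  have h3 : (b : ℤ) = a := mul_right_cancel₀ hw (by linear_combination -he)
  refine hsq ⟨a, ?_⟩
  rw [← hab, show b = a by exact_mod_cast h3]

/-- The places fixed by `w_d` are the points whose orbit is stabilised by the matrix. -/
theorem alC_smul_eq_self_iff (hW : IsAL D d W) (hd : d ∣ D) (hsq : ¬ IsSquare d)
    (v : Place ℂ (modularFunctionFieldC ℂ D)) :
    alC hW hd • v = v ↔
      ∃ τ, (x0Model D).placeAt τ = v ∧ ∃ γ ∈ Gamma0 D, γ • τ = Newform.atkinGL W • τ := by
  constructor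
  · intro h
    rcases fixed_place_cases (isMobius_alC hW hd) h with h' | ⟨γ, rfl⟩
    · exact h'
    · exact absurd h (alC_smul_cuspPlace_ne hW hd hsq γ)
  · rintro ⟨τ, rfl, hτ⟩
    exact (smul_placeAt_eq_self_iff (isMobius_alC hW hd) τ).2 hτ

omit [NeZero D] in
theorem not_isSquare_of_squarefree (hD : Squarefree D) (hd : d ∣ D) (h1 : 1 < d) :
    ¬ IsSquare d := by
  rintro ⟨r, rfl⟩
  have := hD r hd
  rw [Nat.isUnit_iff] at this
  subst this
  omega

end Fermat.Agent.Residual

end
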