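/-
The Atkin–Lehner involution `w_d` of `X₀(D)` lifts to `X₀(Dℓ)` along both degeneracy maps, so
the Hecke correspondence `T_ℓ`, `ℓ ∤ D`, commutes with it.
-/
import Fermat.Agent.Residual.AlinvHecke
import Fermat.Agent.Residual.ALBar
import Fermat.Agent.HeckeJ.Commute

set_option autoImplicit false

noncomputable section

open UpperHalfPlane CongruenceSubgroup ModularCurve Fermat.Agent.ModFun
open scoped MatrixGroups

namespace Fermat.Agent.Residual

open Fermat.Agent CMFix HeckeJ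

local notation "ℚbar" => AlgebraicClosure ℚ

variable {D d ℓ : ℕ} [NeZero D] [NeZero ℓ] {W : IMat}

omit [NeZero ℓ] in
theorem barFun_alBar (ι : ℚbar →+* ℂ) (hW : IsAL D d W) (hd : d ∣ D)
    (x : modularFunctionFieldBar D) :
    EqPunct (barFun ι (alBar hW hd x)) fun τ => barFun ι x (Newform.atkinGL W • τ) := by
  unfold barFun
  rw [barToC_alBar ι hW hd x]
  exact toFun_alHom hW hd _

omit [NeZero ℓ] in
theorem IsAL.coprime_div (hW : IsAL D d W) (hd : d ∣ D) : Nat.Coprime d (D / d) := by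
  have hd0 : 0 < d := Nat.pos_of_dvd_of_pos hd (NeZero.pos D)
  obtain ⟨a, ha⟩ := hW.dvd00
  obtain ⟨e, he⟩ := hW.dvd11
  obtain ⟨c, hc⟩ := hW.dvd10
  have hdet := hW.det_eq
  have hDz : (D : ℤ) = d * (D / d : ℕ) := by exact_mod_cast (Nat.mul_div_cancel' hd).symm
  rw [Matrix.det_fin_two, ha, he, hc, hDz] at hdet
  generalize (D / d : ℕ) = D' at hdet ⊢
  have h1 : (a * e) * (d : ℤ) + (-(W 0 1 * c)) * (D' : ℤ) = 1 := by
    apply mul_left_cancel₀ (show (d : ℤ) ≠ 0 by omega)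
    linear_combination hdet
  exact Int.isCoprime_iff_nat_coprime.1 ⟨_, _, h1⟩

omit [NeZero ℓ] in
theorem exists_isAL_mul (hW : IsAL D d W) (hd : d ∣ D) (hℓ : Nat.Coprime ℓ D) [NeZero ℓ] :
    ∃ X : IMat, IsAL (D * ℓ) d X ∧ IsAL D d X := by
  have hcop : Nat.Coprime d ((D * ℓ) / d) := by
    rw [Nat.mul_div_right_comm hd]
    exact Nat.Coprime.mul_right (IsAL.coprime_div hW hd)
      ((hℓ.coprime_dvd_right hd).symm)
  have h := isAL_alMat (D := D * ℓ) (hd.mul_right ℓ) hcop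
  exact ⟨_, h, ⟨h.det_eq, h.dvd00, h.dvd11,
    (Int.natCast_dvd_natCast.2 (dvd_mul_right D ℓ)).trans h.dvd10⟩⟩

/-- The lift of `w_d` to level `Dℓ` commutes with both degeneracy maps. -/
theorem exists_alBar_lift (hW : IsAL D d W) (hd : d ∣ D) (hℓ : Nat.Coprime ℓ D) :
    ∃ w' : modularFunctionFieldBar (D * ℓ) ≃ₐ[ℚbar] modularFunctionFieldBar (D * ℓ),
      (∀ x, w' (heckeAlphaBar ℚbar D ℓ x) = heckeAlphaBar ℚbar D ℓ (alBar hW hd x)) ∧
      ∀ x, w' (heckeBetaBar ℚbar D ℓ x) = heckeBetaBar ℚbar D ℓ (alBar hW hd x) := by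
  obtain ⟨X, hX, hXD⟩ := exists_isAL_mul hW hd hℓ
  refine ⟨alBar hX (hd.mul_right ℓ), fun x => ?_, fun x => ?_⟩
  · refine eq_of_barFun_eqPunct Torsion.qbarToC ((barFun_alBar _ hX _ _).trans ?_)
    refine (eqPunct_comp_gl (barFun_heckeAlphaBar _ ℓ x)
      (IsAL.normalises hX (hd.mul_right ℓ)).det_pos).trans ?_
    refine EqPunct.symm ((barFun_heckeAlphaBar _ ℓ _).trans ?_)
    rw [alBar_eq hW hXD hd]
    exact barFun_alBar _ hXD hd x
  · obtain ⟨c, hc⟩ := hX.dvd10
    set Y : IMat := !![X 0 0, (ℓ : ℤ) * X 0 1; (D : ℤ) * c, X 1 1] with hY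
    have hdet := hX.det_eq
    rw [Matrix.det_fin_two, hc] at hdet
    have hYAL : IsAL D d Y :=
      ⟨by rw [hY, Matrix.det_fin_two_of]; push_cast at hdet; linear_combination hdet,
        by simpa [hY] using hX.dvd00, by simpa [hY] using hX.dvd11, by simp [hY]⟩
    have hXp : 0 < X.det := (IsAL.normalises hX (hd.mul_right ℓ)).1
    have hYp : 0 < Y.det := (IsAL.normalises hYAL hd).1
    have hscale : ∀ τ : ℍ,
        scale ℓ (Newform.atkinGL X • τ) = Newform.atkinGL Y • scale ℓ τ := fun τ => by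
      apply UpperHalfPlane.ext
      rw [coe_scale, coe_atkinGL_smul hXp, coe_atkinGL_smul hYp, coe_scale, hc]
      simp only [hY, Matrix.of_apply, Matrix.cons_val', Matrix.cons_val_zero, Matrix.cons_val_one,
        Matrix.cons_val_fin_one]
      push_cast
      rw [← mul_div_assoc]
      congr 1 <;> ring
    refine eq_of_barFun_eqPunct Torsion.qbarToC ((barFun_alBar _ hX _ _).trans ?_)
    refine (eqPunct_comp_gl (barFun_heckeBetaBar _ ℓ x)
      (IsAL.normalises hX (hd.mul_right ℓ)).det_pos).trans ?_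
    refine EqPunct.symm ((barFun_heckeBetaBar _ ℓ _).trans ?_)
    rw [alBar_eq hW hYAL hd]
    refine (eqPunct_comp_scale (barFun_alBar _ hYAL hd x) ℓ).trans ?_
    exact Places.eqPunct_of_eq (funext fun τ => by rw [hscale τ])

/-- `T_ℓ` commutes with the Atkin–Lehner involutions. -/
theorem heckeCorr_commutesWith_alBar [Fact ℓ.Prime] (hW : IsAL D d W) (hd : d ∣ D)
    (hN : ¬ ℓ ∣ D) : (heckeCorr D hN).CommutesWith (alBar hW hd) := by
  obtain ⟨w', hα, hβ⟩ := exists_alBar_lift hW hd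
    ((Nat.Prime.coprime_iff_not_dvd Fact.out).2 hN)
  exact heckeCorr_commutesWith D hN hα hβ

end Fermat.Agent.Residual

end
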