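/-
Fixed places of an involution of a function field over an algebraically closed field of
characteristic not two: local parameter, parity, and the injection of fixed points.
-/
import Fermat.Agent.Genus.Expansion
import Fermat.Agent.Curve.BasicFunctionField
import Fermat.Agent.Curve.BasicPlace
import Mathlib.Algebra.Ring.Parity

set_option autoImplicit false

noncomputable section

open AlgebraicCurve

namespace Fermat.Agent.Residual

open Fermat.Agent.Genus
open scoped Pointwise

variable {K F : Type*} [Field K] [Field F] [Algebra K F]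
variable (w : F ≃ₐ[K] F) {v : Place K F}

theorem ord_apply_of_smul_eq (hv : w • v = v) (f : F) : v.ord (w f) = v.ord f := by
  conv_lhs => rw [← hv]
  exact Place.ord_smul w v f

theorem mem_of_ord_pos {f : F} (hf : f = 0 ∨ 0 < v.ord f) :
    ∃ h : f ∈ v.toValuationSubring,
      (⟨f, h⟩ : v.toValuationSubring) ∈ IsLocalRing.maximalIdeal v.toValuationSubring := by
  rcases hf with rfl | hf
  · exact ⟨zero_mem _, Submodule.zero_mem _⟩
  refine ⟨Curve.mem_of_ord_nonneg _ hf.le, ?_⟩
  rw [IsLocalRing.mem_maximalIdeal, mem_nonunits_iff]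
  intro hu
  have h := v.ord_coe_unit hu.unit
  rw [IsUnit.unit_spec] at h
  simp only at h
  omega

theorem ord_pos_of_mem_maximalIdeal {f : v.toValuationSubring}
    (hf : f ∈ IsLocalRing.maximalIdeal v.toValuationSubring) :
    (f : F) = 0 ∨ 0 < v.ord (f : F) := by
  obtain ⟨π, hπ⟩ := IsDiscreteValuationRing.exists_irreducible v.toValuationSubring
  rw [hπ.maximalIdeal_eq, Ideal.mem_span_singleton'] at hf
  obtain ⟨g, rfl⟩ := hf
  rcases eq_or_ne (g : F) 0 with hg | hg
  · left; simp [hg]
  right
  push_cast
  rw [v.ord_mul hg (by simpa using hπ.ne_zero), v.ord_coe_irreducible hπ]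
  have := Curve.ord_nonneg_of_mem _ g.2
  omega

theorem irreducible_of_ord_eq_one {f : v.toValuationSubring} (h : v.ord (f : F) = 1) :
    Irreducible f := by
  have hf0 : f ≠ 0 := fun e => by simp [e] at h
  obtain ⟨π, hπ⟩ := IsDiscreteValuationRing.exists_irreducible v.toValuationSubring
  obtain ⟨n, u, hu⟩ := IsDiscreteValuationRing.eq_unit_mul_pow_irreducible hf0 hπ
  have hn : (n : ℤ) = 1 := by
    rw [← h, hu]
    push_cast
    rw [← zpow_natCast, v.ord_unit_smul_zpow u hπ]
  have hn' : n = 1 := by exact_mod_cast hn
  rw [hn', pow_one] at hu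
  rw [hu]
  exact (irreducible_units_mul u).mpr hπ

/-- The restriction of `w` to the valuation ring of a fixed place. -/
def restrictFixed (hv : w • v = v) : v.toValuationSubring →+* v.toValuationSubring :=
  (w.toRingHom.comp v.toValuationSubring.subtype).codRestrict _ fun f =>
    Curve.mem_of_ord_nonneg _ (by
      show 0 ≤ v.ord (w (f : F))
      rw [ord_apply_of_smul_eq w hv]
      exact Curve.ord_nonneg_of_mem _ f.2)

@[simp]
theorem coe_restrictFixed (hv : w • v = v) (f : v.toValuationSubring) :
    (restrictFixed w hv f : F) = w f := rfl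

variable [IsAlgClosed K] [v.FiniteResidue]

theorem evalPlace_restrictFixed (hv : w • v = v) (f : v.toValuationSubring) :
    evalPlace v (restrictFixed w hv f) = evalPlace v f := by
  have h1 := ord_pos_of_mem_maximalIdeal (sub_evalPlace_mem v f)
  have h2 : w ((f : F) - algebraMap K F (evalPlace v f)) = 0 ∨
      0 < v.ord (w ((f : F) - algebraMap K F (evalPlace v f))) := by
    rcases h1 with h | h
    · left
      push_cast at h
      rw [Place.coe_algebraMap] at h
      rw [h, map_zero]
    · right
      rw [ord_apply_of_smul_eq w hv]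
      simpa using h
  obtain ⟨hm, hmax⟩ := mem_of_ord_pos h2
  have h3 : restrictFixed w hv f - algebraMap K v.toValuationSubring (evalPlace v f) =
      ⟨_, hm⟩ := Subtype.ext (by simp)
  rw [← h3, ← evalPlace_eq_zero_iff, map_sub, evalPlace_algebraMap, sub_eq_zero] at hmax
  exact hmax

theorem expCoeff_restrictFixed (hv : w • v = v) {t : v.toValuationSubring} (ht : Irreducible t)
    (hwt : w (t : F) = t) (n : ℕ) :
    ∀ f, expCoeff ht n (restrictFixed w hv f) = expCoeff ht n f := by
  induction n with
  | zero => exact evalPlace_restrictFixed w hv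
  | succ n ih =>
    intro f
    have h : restrictFixed w hv f =
        algebraMap K v.toValuationSubring (evalPlace v f)
          + t * restrictFixed w hv (tailFun ht f) := by
      apply Subtype.ext
      have := congrArg (fun x : v.toValuationSubring => w (x : F)) (tailFun_spec ht f)
      simp only [coe_restrictFixed] at this ⊢
      rw [this]
      simp [hwt]
    rw [expCoeff_succ, (tailFun_eq ht h).2, ih, expCoeff_succ]

/-- An automorphism fixing a place and a uniformizer there is trivial. -/
theorem eq_one_of_fixes_uniformizer (hv : w • v = v) {t : v.toValuationSubring}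
    (ht : Irreducible t) (hwt : w (t : F) = t) : w = AlgEquiv.refl := by
  apply AlgEquiv.ext
  intro f
  obtain ⟨a, b, hb, rfl⟩ := IsFractionRing.div_surjective (A := v.toValuationSubring) f
  have key : ∀ g : v.toValuationSubring, w (g : F) = g := by
    intro g
    have h : restrictFixed w hv g = g := powerExpansion_injective ht
      (PowerSeries.ext fun n => by
        simpa [powerExpansion] using expCoeff_restrictFixed w hv ht hwt n g)
    exact congrArg Subtype.val h
  have ha : w (algebraMap v.toValuationSubring F a) = algebraMap _ F a := key a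
  have hb' : w (algebraMap v.toValuationSubring F b) = algebraMap _ F b := key b
  rw [map_div₀, ha, hb']
  rfl

variable [NeZero (2 : K)]

/-- At a fixed place of an involution there is a uniformizer on which it acts as `-1`. -/
theorem exists_antiInvariant_uniformizer (hw : ∀ f, w (w f) = f) (hne : w ≠ AlgEquiv.refl)
    (hv : w • v = v) :
    ∃ t : v.toValuationSubring, Irreducible t ∧ w (t : F) = -(t : F) := by
  obtain ⟨π, hπ⟩ := IsDiscreteValuationRing.exists_irreducible v.toValuationSubring
  set p : F := (π : F)
  have hp : v.ord p = 1 := v.ord_coe_irreducible hπ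
  have hp0 : p ≠ 0 := fun h => by rw [h] at hp; simp at hp
  have hwp : v.ord (w p) = 1 := by rw [ord_apply_of_smul_eq w hv, hp]
  have h2 : algebraMap K F 2 ≠ 0 :=
    (map_ne_zero_iff _ (algebraMap K F).injective).mpr (NeZero.ne 2)
  have hge : ∀ s : F, (s = p + w p ∨ s = p - w p) → s ≠ 0 → 1 ≤ v.ord s := by
    rintro s (rfl | rfl) hs
    · exact Curve.le_ord_add v 1 hs (fun _ => hp.ge) (fun _ => hwp.ge)
    · rw [sub_eq_add_neg] at hs ⊢
      exact Curve.le_ord_add v 1 hs (fun _ => hp.ge) (fun _ => by rw [Curve.ord_neg]; exact hwp.ge)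
  by_cases hd : v.ord (p - w p) = 1
  · refine ⟨⟨p - w p, Curve.mem_of_ord_nonneg _ (by omega)⟩, irreducible_of_ord_eq_one hd, ?_⟩
    show w (p - w p) = -(p - w p)
    rw [map_sub, hw]; ring
  exfalso
  have hsum : p + w p + (p - w p) = algebraMap K F 2 * p := by rw [map_ofNat]; ring
  have hs : v.ord (p + w p) = 1 := by
    have h2p : v.ord (algebraMap K F 2 * p) = 1 := by
      rw [v.ord_mul h2 hp0, Curve.ord_algebraMap, hp, zero_add]
    by_cases hd0 : p - w p = 0
    · rw [hd0, add_zero] at hsum; rw [hsum, h2p]
    have h1 := hge _ (Or.inr rfl) hd0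
    rcases eq_or_ne (p + w p) 0 with hs0 | hs0
    · rw [hs0, zero_add] at hsum; rw [hsum] at hd; omega
    have h3 := hge _ (Or.inl rfl) hs0
    by_contra h
    have := Curve.le_ord_add v (f := p + w p) (g := p - w p) 2
      (by rw [hsum]; exact mul_ne_zero h2 hp0) (fun _ => by omega) (fun _ => by omega)
    rw [hsum, h2p] at this
    omega
  apply hne
  refine eq_one_of_fixes_uniformizer w hv (t := ⟨p + w p, Curve.mem_of_ord_nonneg _ (by omega)⟩)
    (irreducible_of_ord_eq_one hs) ?_
  show w (p + w p) = p + w p
  rw [map_add, hw]; ring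

/-- Parity of the order at a fixed place of an invariant or anti-invariant function. -/
theorem eval_sign_of_fixed (hw : ∀ f, w (w f) = f) (hne : w ≠ AlgEquiv.refl) (hv : w • v = v)
    {f : F} (hf : f ≠ 0) {ε : K} (hwf : w f = algebraMap K F ε * f) :
    ε = (-1) ^ v.ord f := by
  obtain ⟨t, ht, hwt⟩ := exists_antiInvariant_uniformizer w hw hne hv
  obtain ⟨u, hu⟩ := v.exists_unit_mul_zpow hf ht
  set e := v.ord f with he
  have htF : (t : F) ≠ 0 := by simpa using ht.ne_zero
  have h1 : w ((u : v.toValuationSubring) : F) * (-1) ^ e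
      = algebraMap K F ε * ((u : v.toValuationSubring) : F) := by
    have h := hwf
    rw [hu, map_mul, map_zpow₀, hwt, neg_eq_neg_one_mul, mul_zpow] at h
    exact mul_right_cancel₀ (zpow_ne_zero e htF)
      (by linear_combination h)
  have h2 : restrictFixed w hv (u : v.toValuationSubring)
      * algebraMap K v.toValuationSubring ((-1) ^ e)
      = algebraMap K v.toValuationSubring ε * (u : v.toValuationSubring) := by
    apply Subtype.ext
    push_cast
    rw [coe_restrictFixed, Place.coe_algebraMap, Place.coe_algebraMap, map_zpow₀, map_neg,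
      map_one]
    exact h1
  have h3 := congrArg (evalPlace v) h2
  rw [map_mul, map_mul, evalPlace_restrictFixed, evalPlace_algebraMap, evalPlace_algebraMap,
    mul_comm ε] at h3
  have hne0 : evalPlace v (u : v.toValuationSubring) ≠ 0 := by
    rw [Ne, evalPlace_eq_zero_iff, IsLocalRing.mem_maximalIdeal, mem_nonunits_iff, not_not]
    exact u.isUnit
  exact (mul_left_cancel₀ hne0 h3).symm

end Fermat.Agent.Residual
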