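/-
Fixed places of an involution are defined over the smaller algebraically closed constant field.
-/
import Fermat.Agent.Residual.FixPlaces
import Fermat.Agent.Curve.ConstExtPlace

set_option autoImplicit false

noncomputable section

open AlgebraicCurve

namespace Fermat.Agent.Residual

open Fermat.Agent.Genus
open scoped Pointwise

universe uK uF uΩ uE

variable {K : Type uK} {F : Type uF} {Ω : Type uΩ} {E : Type uE}
  [Field K] [Field F] [Field Ω] [Field E]
  [Algebra K F] [Algebra K Ω] [Algebra K E] [Algebra F E] [Algebra Ω E]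
  [IsScalarTower K F E] [IsScalarTower K Ω E]
  [IsAlgClosed K] [IsCurveOver K F] [Curve.IsConstExt K F Ω E]
  {σ : E ≃ₐ[Ω] E} {σ₀ : F ≃ₐ[K] F}

theorem smul_placeExt (hσ : ∀ f : F, σ (algebraMap F E f) = algebraMap F E (σ₀ f))
    (v : Place K F) : σ • Curve.placeExt Ω E v = Curve.placeExt Ω E (σ₀ • v) := by
  have hord : ∀ f : F, (σ • Curve.placeExt Ω E v).ord (algebraMap F E f) = (σ₀ • v).ord f := by
    intro f
    obtain ⟨f', rfl⟩ := σ₀.surjective f
    rw [← hσ, Place.ord_smul, Place.ord_smul, Curve.ord_placeExt]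
  refine Curve.eq_placeExt (σ₀ • v) (fun f hf => ?_) ?_
  · rw [Curve.mem_iff_ord_nonneg] at hf ⊢
    rwa [hord]
  · obtain ⟨f, hf, hford⟩ := Curve.exists_ord_eq (σ₀ • v) (-1)
    refine ⟨f, fun hmem => ?_⟩
    rw [Curve.mem_iff_ord_nonneg, hord, hford] at hmem
    omega

theorem placeExt_smul_eq_self_iff (hσ : ∀ f : F, σ (algebraMap F E f) = algebraMap F E (σ₀ f))
    (v : Place K F) : σ • Curve.placeExt Ω E v = Curve.placeExt Ω E v ↔ σ₀ • v = v := by
  rw [smul_placeExt hσ]
  exact Curve.placeExt_injective.eq_iff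

/-- A fixed place of a non-trivial involution comes from the smaller constant field. -/
theorem exists_eq_placeExt_of_fixed [IsAlgClosed Ω]
    (hσ : ∀ f : F, σ (algebraMap F E f) = algebraMap F E (σ₀ f))
    (hne : σ₀ ≠ AlgEquiv.refl) {w : Place Ω E} [w.FiniteResidue] (hw : σ • w = w) :
    ∃ v : Place K F, σ₀ • v = v ∧ w = Curve.placeExt Ω E v := by
  rcases Curve.exists_eq_placeExt_or (K := K) (F := F) w with ⟨v, rfl⟩ | h
  · exact ⟨v, (placeExt_smul_eq_self_iff hσ v).mp hw, rfl⟩
  exfalso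
  apply hne
  apply AlgEquiv.ext
  intro f
  by_contra hd
  have hd0 : σ₀ f - f ≠ 0 := sub_ne_zero.mpr hd
  set a : w.toValuationSubring := ⟨algebraMap F E f, h f⟩
  set b : w.toValuationSubring := ⟨algebraMap F E (σ₀ f - f), h _⟩
  have hb : b = restrictFixed σ hw a - a := Subtype.ext (by simp [a, b, hσ])
  have h0 : evalPlace w b = 0 := by rw [hb, map_sub, evalPlace_restrictFixed, sub_self]
  rw [evalPlace_eq_zero_iff, IsLocalRing.mem_maximalIdeal, mem_nonunits_iff] at h0
  apply h0
  refine isUnit_iff_exists_inv.mpr ⟨⟨algebraMap F E (σ₀ f - f)⁻¹, h _⟩, Subtype.ext ?_⟩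
  show algebraMap F E (σ₀ f - f) * algebraMap F E (σ₀ f - f)⁻¹ = 1
  rw [← map_mul, mul_inv_cancel₀ hd0, map_one]

end Fermat.Agent.Residual
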