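/-
Neighbours under the Hecke correspondence over `ℚ̄` come from points `τ`, `ℓ τ`; for inert `ℓ`
the correspondence has no coefficient between fixed places of an Atkin–Lehner involution.
-/
import Fermat.Agent.Residual.AlinvALHecke
import Fermat.Agent.Residual.ALFixed
import Fermat.Agent.Residual.CMFixOrbit
import Fermat.Agent.Residual.FixPlacesDescent
import Fermat.Agent.Torsion.Extension
import Fermat.Agent.Curve.ConstExtFunctorial

set_option autoImplicit false

noncomputable section

open UpperHalfPlane CongruenceSubgroup ModularCurve AlgebraicCurve Fermat.Agent.ModFun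
open scoped MatrixGroups Pointwise

namespace Fermat.Agent.Residual

open Fermat.Agent CMFix HeckeJ

local notation "ℚbar" => AlgebraicClosure ℚ

attribute [local instance] Torsion.algQC Torsion.algQE Torsion.algFE Torsion.isScalarTower_QCE
  Torsion.isScalarTower_QFE Torsion.isConstExt_FC

variable {D : ℕ} [NeZero D]

local instance instFiniteIndexGamma0Nb : (Gamma0 D).FiniteIndex :=
  ⟨by rw [Places.index_Gamma0]; exact (Gamma0.dedekindPsi_pos D).ne'⟩

/-- The extension to `ℂ` of a place of the function field over `ℚ̄`. -/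
def placeC (P : Place ℚbar (modularFunctionFieldBar D)) : Place ℂ (modularFunctionFieldC ℂ D) :=
  Curve.placeExt ℂ (Torsion.FC D) P

theorem mem_placeC_iff {P : Place ℚbar (modularFunctionFieldBar D)}
    {f : modularFunctionFieldBar D} :
    ModFun.barToC D Torsion.qbarToC f ∈ (placeC P).toValuationSubring ↔
      f ∈ P.toValuationSubring :=
  Curve.algebraMap_mem_placeExt (Ω := ℂ) (E := Torsion.FC D) P

/-- Membership in the ring of a point through the function. -/
theorem barToC_mem_placeAt_iff (τ : ℍ) (f : modularFunctionFieldBar D) :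
    ModFun.barToC D Torsion.qbarToC f ∈ ((Places.x0Model D).placeAt τ).toValuationSubring ↔
      f = 0 ∨ 0 ≤ (ordH (barFun Torsion.qbarToC f) τ).untop₀ := by
  rcases eq_or_ne f 0 with rfl | hf
  · simp [zero_mem]
  have hf' : ModFun.barToC D Torsion.qbarToC f ≠ 0 :=
    (map_ne_zero_iff _ (ModFun.barToC_injective D _)).2 hf
  rw [Curve.mem_iff_ord_nonneg]
  show 0 ≤ ((Places.x0Model D).pointVal τ).place.ord _ ↔ _
  rw [((Places.x0Model D).pointVal τ).place_ord_nonneg_iff hf']
  simp only [hf, false_or]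
  rfl

section Restrict

variable {ℓ : ℕ} [NeZero ℓ]

/-- A restriction of a place at a point is at the image point. -/
theorem placeC_restrictAlong_eq {φ : modularFunctionFieldBar D →ₐ[ℚbar]
      modularFunctionFieldBar (D * ℓ)} {g : GL (Fin 2) ℝ} (hg : 0 < g.val.det)
    (hφ : ∀ f, EqPunct (barFun Torsion.qbarToC (φ f)) fun z => barFun Torsion.qbarToC f (g • z))
    (hint : φ.toRingHom.IsIntegral) {R : Place ℚbar (modularFunctionFieldBar (D * ℓ))} {τ : ℍ}
    (hR : placeC R = (Places.x0Model (D * ℓ)).placeAt τ) :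
    placeC (R.restrictAlong φ hint) = (Places.x0Model D).placeAt (g • τ) := by
  have key : ∀ f : modularFunctionFieldBar D,
      ModFun.barToC D Torsion.qbarToC f ∈
          ((Places.x0Model D).placeAt (g • τ)).toValuationSubring ↔
        f ∈ (R.restrictAlong φ hint).toValuationSubring := fun f => by
    rw [barToC_mem_placeAt_iff, Curve.mem_restrictAlong_iff, ← mem_placeC_iff, hR,
      barToC_mem_placeAt_iff, map_eq_zero_iff φ φ.toRingHom.injective]
    refine or_congr_right (Eq.to_iff ?_)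
    congr 2
    rw [(hφ f).ordH_eq τ]
    exact (UpperHalfPlane.meromorphicOrderAt_comp_smul hg).symm
  refine (Curve.eq_placeExt (K := ℚbar) (Ω := ℂ) (E := Torsion.FC D) _
    (fun f hf => (key f).2 hf) ?_).symm
  by_contra hall
  push Not at hall
  exact (R.restrictAlong φ hint).ne_top' (SetLike.ext fun f =>
    ⟨fun _ => ValuationSubring.mem_top f, fun _ => (key f).1 (hall f)⟩)

/-- Above a cusp of level `Dℓ` there is no point of level `D`. -/
theorem placeC_restrictAlpha_ne_placeAt (hint : (heckeAlphaBar ℚbar D ℓ).toRingHom.IsIntegral)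
    {R : Place ℚbar (modularFunctionFieldBar (D * ℓ))} {γ : SL(2, ℤ)}
    (hR : placeC R = (Places.x0Model (D * ℓ)).cuspPlace γ) (τ : ℍ) :
    placeC (R.restrictAlong (heckeAlphaBar ℚbar D ℓ) hint) ≠
      (Places.x0Model D).placeAt τ := by
  haveI : (Gamma0 (D * ℓ)).FiniteIndex :=
    ⟨by rw [Places.index_Gamma0]; exact (Gamma0.dedekindPsi_pos (D * ℓ)).ne'⟩
  intro h
  have hj : ModFun.barToC D Torsion.qbarToC (jdQ D 1 (one_dvd D)) = (Places.x0Model D).jF := by
    rw [barToC_jdQ]; exact Subtype.ext (qExpand_one_apply _)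
  have hj' : ModFun.barToC (D * ℓ) Torsion.qbarToC
      (heckeAlphaBar ℚbar D ℓ (jdQ D 1 (one_dvd D))) = (Places.x0Model (D * ℓ)).jF := by
    refine Subtype.ext ?_
    show coeffMap Torsion.qbarToC
      ((heckeAlphaBar ℚbar D ℓ (jdQ D 1 (one_dvd D)) : modularFunctionFieldBar (D * ℓ)) :
        LaurentSeries ℚbar) = jqModC ℂ
    rw [coe_heckeAlphaBar]
    exact congrArg Subtype.val hj
  have h1 : jdQ D 1 (one_dvd D) ∈
      (R.restrictAlong (heckeAlphaBar ℚbar D ℓ) hint).toValuationSubring := by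
    rw [← mem_placeC_iff, h, hj, Curve.mem_iff_ord_nonneg]
    exact (Places.x0Model D).ord_jF_placeAt_nonneg τ
  rw [Curve.mem_restrictAlong_iff, ← mem_placeC_iff, hR, hj', Curve.mem_iff_ord_nonneg,
    (Places.x0Model (D * ℓ)).ord_jF_cuspPlace] at h1
  have := Places.cuspWidth_pos (Γ := Gamma0 (D * ℓ)) γ
  omega

end Restrict

variable {d : ℕ} {W : IMat}

/-- Fixed places over `ℚ̄` are fixed points. -/
theorem exists_point_of_fixed (hW : IsAL D d W) (hd : d ∣ D) (hsq : ¬ IsSquare d)
    {P : Place ℚbar (modularFunctionFieldBar D)} (hP : alBar hW hd • P = P) :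
    ∃ τ, placeC P = (Places.x0Model D).placeAt τ ∧ IsALFixed D d τ := by
  have hσ : ∀ f : modularFunctionFieldBar D,
      alC hW hd (algebraMap (modularFunctionFieldBar D) (Torsion.FC D) f) =
        algebraMap (modularFunctionFieldBar D) (Torsion.FC D) (alBar hW hd f) := fun f =>
    (barToC_alBar Torsion.qbarToC hW hd f).symm
  have hv : alC hW hd • placeC P = placeC P :=
    (smul_placeExt (Ω := ℂ) (E := Torsion.FC D) (σ := alC hW hd) hσ P).trans (by rw [hP]; rfl)
  obtain ⟨τ, hτ, γ, hγ, hg⟩ := (alC_smul_eq_self_iff hW hd hsq _).1 hv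
  exact ⟨τ, hτ.symm, (isALFixed_iff hW hd (Nat.pos_of_dvd_of_pos hd (NeZero.pos D)) τ).2
    ⟨γ⁻¹, inv_mem hγ, inv_smul_eq_iff.2 hg.symm⟩⟩

variable {ℓ : ℕ} [hℓ : Fact ℓ.Prime]

local instance neZero_neighbourPrime : NeZero ℓ := ⟨hℓ.out.ne_zero⟩

/-- For `ℓ` inert in all orders of the fixed points, `T_ℓ` has no coefficient between fixed
places. -/
theorem heckeCorr_toDiv_apply_eq_zero (hW : IsAL D d W) (hd : d ∣ D) (h1 : 1 < d)
    (hsq : ¬ IsSquare d) (hN : ¬ ℓ ∣ D)
    (hinert : ∀ t : ℤ, (d : ℤ) ∣ t → t ^ 2 < 4 * d → ¬ IsSquare ((t ^ 2 - 4 * d : ℤ) : ZMod ℓ))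
    {P Q : Place ℚbar (modularFunctionFieldBar D)} (hP : alBar hW hd • P = P)
    (hQ : alBar hW hd • Q = Q) :
    (heckeCorr D hN).toDiv (Finsupp.single P 1) Q = 0 := by
  haveI : (Gamma0 (D * ℓ)).FiniteIndex :=
    ⟨by rw [Places.index_Gamma0]; exact (Gamma0.dedekindPsi_pos (D * ℓ)).ne'⟩
  obtain ⟨τP, hτP, hPf⟩ := exists_point_of_fixed hW hd hsq hP
  obtain ⟨τQ, hτQ, hQf⟩ := exists_point_of_fixed hW hd hsq hQ
  -- no place of level `Dℓ` lies over both
  have hno : ∀ R : Place ℚbar (modularFunctionFieldBar (D * ℓ)),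
      R.restrictAlong (heckeBetaBar ℚbar D ℓ) (isIntegralAlong _) = P →
      R.restrictAlong (heckeAlphaBar ℚbar D ℓ) (isIntegralAlong _) ≠ Q := by
    intro R hRP hRQ
    rcases (Places.x0Model (D * ℓ)).exists_placeAt_or_cuspPlace (placeC R) with
      ⟨τ, hτ⟩ | ⟨γ, hγ⟩
    · set g : IMat := !![(ℓ : ℤ), 0; 0, 1] with hgdef
      have hgdet : g.det = ℓ := by simp [hgdef, Matrix.det_fin_two_of]
      have hgp : 0 < g.det := by rw [hgdet]; exact_mod_cast hℓ.out.pos
      have hscale : ∀ z : ℍ, scale ℓ z = Newform.atkinGL g • z := fun z => by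
        apply UpperHalfPlane.ext
        rw [coe_scale, coe_atkinGL_smul hgp]
        simp [hgdef]
      have hQ' : placeC Q = (Places.x0Model D).placeAt ((1 : GL (Fin 2) ℝ) • τ) := by
        rw [← hRQ]
        exact placeC_restrictAlong_eq (by simp)
          (fun f => by simpa using barFun_heckeAlphaBar _ ℓ f) _ hτ.symm
      have hP' : placeC P = (Places.x0Model D).placeAt (Newform.atkinGL g • τ) := by
        rw [← hRP]
        refine placeC_restrictAlong_eq (Newform.atkinGL_det_pos hgp) (fun f => ?_) _ hτ.symm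
        simpa only [← hscale] using barFun_heckeBetaBar Torsion.qbarToC ℓ f
      rw [one_smul] at hQ'
      obtain ⟨η, hη, hη'⟩ := (Places.x0Model D).placeAt_eq_iff.1 (hτQ.symm.trans hQ')
      obtain ⟨ξ, hξ, hξ'⟩ := (Places.x0Model D).placeAt_eq_iff.1 (hτP.symm.trans hP')
      have f1 : IsALFixed D d τ := hη' ▸ hQf.smul hd hη
      have f2 : IsALFixed D d (Newform.atkinGL g • τ) := hξ' ▸ hPf.smul hd hξ
      exact not_isALFixed_of_inert h1 hinert hgdet f1 f2
    · exact placeC_restrictAlpha_ne_placeAt _ hγ.symm τQ (by rw [hRQ]; exact hτQ)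
  haveI := HeckeJ.hasPrincipalDivisors_laurentBaseChange ℚbar (D * ℓ)
  rw [heckeCorr, ofDegeneracy_toDiv, Divisor.correspondence_apply]
  set E := Divisor.pullbackAlong (heckeBetaBar ℚbar D ℓ)
    (isIntegralAlong (heckeBetaBar ℚbar D ℓ)) (Finsupp.single P (1 : ℤ)) with hE
  classical
  rw [← Finsupp.sum_single E, map_finsuppSum, Finsupp.sum, Finsupp.finsetSum_apply]
  refine Finset.sum_eq_zero fun R hR => ?_
  rw [Divisor.pushforwardAlong_single, Finsupp.single_apply]
  refine if_neg fun hRQ => ?_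
  refine hno R ?_ hRQ
  by_contra hne
  apply Finsupp.mem_support_iff.1 hR
  rw [hE, Divisor.pullbackAlong_apply, Finsupp.single_eq_of_ne hne, mul_zero]

end Fermat.Agent.Residual

end
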