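/-
Abelian groups with an involution: passage to `2`-power torsion and to direct summands.
-/
import Mathlib.Algebra.Module.Basic
import Mathlib.Algebra.Group.Subgroup.Basic
import Mathlib.Tactic.Abel

set_option autoImplicit false

namespace Fermat.Agent.Residual

variable {A : Type*} [AddCommGroup A] (w : A →+ A) (hw : ∀ a, w (w a) = a)
  (hdiv : ∀ a : A, ∃ b, (2 : ℕ) • b = a)

include hw hdiv

/-- A norm can be written as a norm of one of its halves. -/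
theorem exists_half_eq_add {x y : A} (h : x = y + w y) :
    ∃ z, (2 : ℕ) • z = x ∧ x = z + w z := by
  obtain ⟨u, hu⟩ := hdiv y
  have hwu : (2 : ℕ) • w u = w y := by rw [← map_nsmul, hu]
  refine ⟨u + w u, ?_, ?_⟩
  · rw [nsmul_add, hu, hwu, h]
  · rw [map_add, hw, h, ← hu, map_nsmul, two_nsmul, two_nsmul]
    abel

/-- A difference `y - w y` can be written with a half of itself. -/
theorem exists_half_eq_sub {x y : A} (h : x = y - w y) :
    ∃ z, (2 : ℕ) • z = x ∧ x = z - w z := by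
  obtain ⟨u, hu⟩ := hdiv y
  have hwu : (2 : ℕ) • w u = w y := by rw [← map_nsmul, hu]
  refine ⟨u - w u, ?_, ?_⟩
  · rw [nsmul_sub, hu, hwu, h]
  · rw [map_sub, hw, h, ← hu, map_nsmul, two_nsmul, two_nsmul]
    abel

omit hw in
/-- An invariant element is congruent modulo norms to a `2`-torsion element. -/
theorem exists_two_nsmul_sub_eq_zero {x : A} (hx : w x = x) :
    ∃ v, (2 : ℕ) • (x - (v + w v)) = 0 := by
  obtain ⟨v, hv⟩ := hdiv x
  refine ⟨v, ?_⟩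
  rw [nsmul_sub, nsmul_add, hv, ← map_nsmul, hv, hx, two_nsmul, sub_self]

/-- If an operator maps an element of a summand of the `2`-power torsion to a norm and is
surjective on the summand and injective there, the element is a norm in the summand. -/
theorem exists_mem_eq_add_of_summand (M : AddSubgroup A) (e : A → A)
    (he_mem : ∀ a : A, (∃ n : ℕ, (2 ^ n) • a = 0) → e a ∈ M)
    (he_add : ∀ a b : A, (∃ n : ℕ, (2 ^ n) • a = 0) → (∃ n : ℕ, (2 ^ n) • b = 0) →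
      e (a + b) = e a + e b)
    (he_w : ∀ a : A, (∃ n : ℕ, (2 ^ n) • a = 0) → e (w a) = w (e a))
    (he_id : ∀ a ∈ M, e a = a) (htor : ∀ a ∈ M, ∃ n : ℕ, (2 ^ n) • a = 0)
    (hwM : ∀ a ∈ M, w a ∈ M)
    (T : A →+ A) (hTw : ∀ a, T (w a) = w (T a)) (hTM : ∀ a ∈ M, T a ∈ M)
    (hTinj : ∀ a ∈ M, T a = 0 → a = 0) (hTsurj : ∀ a ∈ M, ∃ b ∈ M, T b = a)
    {x y : A} (hx : x ∈ M) (h : T x = y + w y) :
    ∃ z ∈ M, x = z + w z := by
  obtain ⟨y', hy', h'⟩ := exists_half_eq_add w hw hdiv h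
  obtain ⟨n, hn⟩ := htor (T x) (hTM x hx)
  have hy't : ∃ n : ℕ, (2 ^ n) • y' = 0 :=
    ⟨n + 1, by rw [pow_succ, mul_nsmul', hy', hn]⟩
  have hwy't : ∃ n : ℕ, (2 ^ n) • w y' = 0 :=
    hy't.imp fun m hm => by rw [← map_nsmul, hm, map_zero]
  obtain ⟨z, hz, hTz⟩ := hTsurj (e y') (he_mem y' hy't)
  refine ⟨z, hz, sub_eq_zero.mp (hTinj _ (sub_mem hx (add_mem hz (hwM z hz))) ?_)⟩
  rw [map_sub, map_add, hTw, hTz, ← he_w y' hy't, ← he_add y' _ hy't hwy't, ← h',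
    he_id _ (hTM x hx), sub_self]

/-- The same, for differences `y - w y`. -/
theorem exists_mem_eq_sub_of_summand (M : AddSubgroup A) (e : A → A)
    (he_mem : ∀ a : A, (∃ n : ℕ, (2 ^ n) • a = 0) → e a ∈ M)
    (he_add : ∀ a b : A, (∃ n : ℕ, (2 ^ n) • a = 0) → (∃ n : ℕ, (2 ^ n) • b = 0) →
      e (a - b) = e a - e b)
    (he_w : ∀ a : A, (∃ n : ℕ, (2 ^ n) • a = 0) → e (w a) = w (e a))
    (he_id : ∀ a ∈ M, e a = a) (htor : ∀ a ∈ M, ∃ n : ℕ, (2 ^ n) • a = 0)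
    (hwM : ∀ a ∈ M, w a ∈ M)
    (T : A →+ A) (hTw : ∀ a, T (w a) = w (T a)) (hTM : ∀ a ∈ M, T a ∈ M)
    (hTinj : ∀ a ∈ M, T a = 0 → a = 0) (hTsurj : ∀ a ∈ M, ∃ b ∈ M, T b = a)
    {x y : A} (hx : x ∈ M) (h : T x = y - w y) :
    ∃ z ∈ M, x = z - w z := by
  obtain ⟨y', hy', h'⟩ := exists_half_eq_sub w hw hdiv h
  obtain ⟨n, hn⟩ := htor (T x) (hTM x hx)
  have hy't : ∃ n : ℕ, (2 ^ n) • y' = 0 :=
    ⟨n + 1, by rw [pow_succ, mul_nsmul', hy', hn]⟩
  have hwy't : ∃ n : ℕ, (2 ^ n) • w y' = 0 :=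
    hy't.imp fun m hm => by rw [← map_nsmul, hm, map_zero]
  obtain ⟨z, hz, hTz⟩ := hTsurj (e y') (he_mem y' hy't)
  refine ⟨z, hz, sub_eq_zero.mp (hTinj _ (sub_mem hx (sub_mem hz (hwM z hz))) ?_)⟩
  rw [map_sub, map_sub, hTw, hTz, ← he_w y' hy't, ← he_add y' _ hy't hwy't, ← h',
    he_id _ (hTM x hx), sub_self]

end Fermat.Agent.Residual
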