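/-
Projection to the common generalised kernel of commuting endomorphisms of a finite subgroup, by
endomorphisms that are the identity modulo the images of high powers.
-/
import Mathlib.Algebra.Module.LinearMap.End
import Mathlib.Algebra.Module.Submodule.Basic
import Mathlib.Algebra.Group.Subgroup.Lattice
import Mathlib.GroupTheory.Coset.Card
import Mathlib.Data.Fintype.Pigeonhole
import Mathlib.Tactic.Positivity
import Mathlib.SetTheory.Cardinal.NatCard
import Mathlib.Data.Fintype.EquivFin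
import Mathlib.Data.Set.Finite.Basic
import Mathlib.Data.Fintype.Pi
import Mathlib.Tactic.Ring
import Mathlib.Tactic.Abel

set_option autoImplicit false

noncomputable section

namespace Fermat.Agent.Residual

variable {A : Type*} [AddCommGroup A] {ι : Type*} (f : ι → Module.End ℤ A)

theorem pow_mem_of_mem (B : AddSubgroup A) {g : Module.End ℤ A} (hg : ∀ a ∈ B, g a ∈ B) (n : ℕ)
    {a : A} (ha : a ∈ B) : (g ^ n) a ∈ B := by
  induction n with
  | zero => simpa using ha
  | succ n ih => rw [pow_succ', Module.End.mul_apply]; exact hg _ ih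

/-- In a finite group some power of an endomorphism, of exponent as divisible as one likes, is
idempotent. -/
theorem exists_pow_idem (B : AddSubgroup A) [Finite B] {g : Module.End ℤ A}
    (hg : ∀ a ∈ B, g a ∈ B) {k₀ : ℕ} (hk₀ : 0 < k₀) :
    ∃ k, k₀ ∣ k ∧ 0 < k ∧ ∀ a ∈ B, (g ^ (2 * k)) a = (g ^ k) a := by
  let F : ℕ → B → B := fun n a => ⟨(g ^ n) a.1, pow_mem_of_mem B hg n a.2⟩
  obtain ⟨i, j, hij, he⟩ : ∃ i j, i < j ∧ F i = F j := by
    obtain ⟨i, j, hne, he⟩ := Finite.exists_ne_map_eq_of_infinite F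
    rcases lt_or_gt_of_ne hne with h | h
    exacts [⟨i, j, h, he⟩, ⟨j, i, h, he.symm⟩]
  have hstep : ∀ m, i ≤ m → ∀ a ∈ B, (g ^ (m + (j - i))) a = (g ^ m) a := by
    intro m hm a ha
    have h1 : (g ^ j) a = (g ^ i) a := (congrArg Subtype.val (congrFun he ⟨a, ha⟩)).symm
    rw [show m + (j - i) = (m - i) + j by omega, pow_add, Module.End.mul_apply, h1,
      ← Module.End.mul_apply, ← pow_add, Nat.sub_add_cancel hm]
  refine ⟨k₀ * ((i + 1) * (j - i)), dvd_mul_right _ _,
    Nat.mul_pos hk₀ (Nat.mul_pos i.succ_pos (Nat.sub_pos_of_lt hij)), fun a ha => ?_⟩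
  have hmul : ∀ c m, i ≤ m → (g ^ (m + c * (j - i))) a = (g ^ m) a := by
    intro c
    induction c with
    | zero => simp
    | succ c ih =>
      intro m hm
      rw [Nat.succ_mul, ← add_assoc, hstep _ (by omega) a ha, ih m hm]
  have hik : i ≤ k₀ * ((i + 1) * (j - i)) := by
    have h1 : 1 ≤ j - i := by omega
    calc i ≤ 1 * ((i + 1) * 1) := by omega
      _ ≤ _ := Nat.mul_le_mul hk₀ (Nat.mul_le_mul le_rfl h1)
  have := hmul (k₀ * (i + 1)) _ hik
  rw [mul_assoc] at this
  rw [two_mul]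
  exact this

/-- The projection for a finite list of the endomorphisms. -/
theorem exists_projection_list (B : AddSubgroup A) [Finite B] (hf : ∀ i, ∀ a ∈ B, f i a ∈ B)
    (hcomm : ∀ i j, ∀ a ∈ B, f i (f j a) = f j (f i a)) {k₀ : ℕ} (hk₀ : 0 < k₀) (s : List ι) :
    ∃ e : Module.End ℤ A,
      (∀ g : Module.End ℤ A, (∀ i a, g (f i a) = f i (g a)) → ∀ a, g (e a) = e (g a)) ∧
      (∀ a ∈ B, e a ∈ B ∧ (∀ i, f i (e a) = e (f i a)) ∧ ∀ i ∈ s, ∃ k, (f i ^ k) (e a) = 0) ∧
      (∀ a ∈ B, (∀ i, ∃ k, (f i ^ k) a = 0) → e a = a) ∧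
      ∀ H : AddSubgroup A, (∀ i, ∀ h ∈ H, f i h ∈ H) → (∀ h ∈ H, e h ∈ H) ∧
        ∀ a, (∀ i k, k₀ ∣ k → 0 < k → (f i ^ k) a ∈ H) → e a - a ∈ H := by
  induction s with
  | nil =>
    exact ⟨1, fun g _ a => rfl, fun a ha => ⟨ha, fun i => rfl, by simp⟩, fun a _ _ => rfl,
      fun H _ => ⟨fun h hh => hh, fun a _ => by simp [zero_mem]⟩⟩
  | cons i s ih =>
    obtain ⟨e, he1, he2, he3, he4⟩ := ih
    obtain ⟨k, hk₀k, hk, hidem⟩ := exists_pow_idem B (hf i) hk₀
    have hcp : ∀ j (n : ℕ), ∀ a ∈ B, f j ((f i ^ n) a) = (f i ^ n) (f j a) := by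
      intro j n
      induction n with
      | zero => simp
      | succ n ihn =>
        intro a ha
        rw [pow_succ', Module.End.mul_apply, Module.End.mul_apply,
          hcomm j i _ (pow_mem_of_mem B (hf i) n ha), ihn a ha]
    have hcj : ∀ j (m n : ℕ), ∀ a ∈ B, (f j ^ m) ((f i ^ n) a) = (f i ^ n) ((f j ^ m) a) := by
      intro j m n
      induction m with
      | zero => simp
      | succ m ihm =>
        intro a ha
        rw [pow_succ', Module.End.mul_apply, Module.End.mul_apply, ihm a ha,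
          hcp j n _ (pow_mem_of_mem B (hf j) m ha)]
    refine ⟨(1 - f i ^ k) * e, fun g hg a => ?_, fun a ha => ?_, fun a ha hnil => ?_,
      fun H hH => ?_⟩
    · have hgp : ∀ (n : ℕ) (b : A), g ((f i ^ n) b) = (f i ^ n) (g b) := by
        intro n
        induction n with
        | zero => simp
        | succ n ihn =>
          intro b
          rw [pow_succ', Module.End.mul_apply, Module.End.mul_apply, hg, ihn]
      simp only [Module.End.mul_apply, LinearMap.sub_apply, Module.End.one_apply, map_sub,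
        he1 g hg a, hgp]
    · obtain ⟨hea, hec, hen⟩ := he2 a ha
      simp only [Module.End.mul_apply, LinearMap.sub_apply, Module.End.one_apply]
      refine ⟨sub_mem hea (pow_mem_of_mem B (hf i) k hea), fun j => ?_, fun j hj => ?_⟩
      · rw [map_sub, hcp j k _ hea, hec j]
      · rcases List.mem_cons.1 hj with rfl | hj
        · refine ⟨k, ?_⟩
          rw [map_sub, ← Module.End.mul_apply (f j ^ k) (f j ^ k), ← pow_add, ← two_mul,
            hidem _ hea, sub_self]
        · obtain ⟨m, hm⟩ := hen j hj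
          exact ⟨m, by rw [map_sub, hcj j m k _ hea, hm, map_zero, sub_zero]⟩
    · simp only [Module.End.mul_apply, LinearMap.sub_apply, Module.End.one_apply,
        he3 a ha hnil]
      obtain ⟨m, hm⟩ := hnil i
      have hpow : ∀ c : ℕ, (f i ^ ((c + 1) * k)) a = (f i ^ k) a := by
        intro c
        induction c with
        | zero => simp
        | succ c ihc =>
          rw [show (c + 1 + 1) * k = k + (c + 1) * k by ring, pow_add, Module.End.mul_apply,
            ihc, ← Module.End.mul_apply, ← pow_add, ← two_mul, hidem a ha]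
      have h0 : (f i ^ ((m + 1) * k)) a = 0 := by
        have hle : m ≤ (m + 1) * k := le_trans (Nat.le_succ m) (Nat.le_mul_of_pos_right _ hk)
        rw [← Nat.sub_add_cancel hle, pow_add, Module.End.mul_apply, hm, map_zero]
      rw [← hpow m, h0, sub_zero]
    · obtain ⟨hst, hcl⟩ := he4 H hH
      simp only [Module.End.mul_apply, LinearMap.sub_apply, Module.End.one_apply]
      refine ⟨fun h hh => sub_mem (hst h hh) (pow_mem_of_mem H (hH i) k (hst h hh)),
        fun a ha => ?_⟩
      have h1 := hcl a ha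
      have h2 : (f i ^ k) (e a) ∈ H := by
        rw [show e a = (e a - a) + a by abel, map_add]
        exact add_mem (pow_mem_of_mem H (hH i) k h1) (ha i k hk₀k hk)
      rw [sub_right_comm]
      exact sub_mem h1 h2

/-- **The projection.** -/
theorem exists_projection (B : AddSubgroup A) [Finite B] (hf : ∀ i, ∀ a ∈ B, f i a ∈ B)
    (hcomm : ∀ i j, ∀ a ∈ B, f i (f j a) = f j (f i a)) {k₀ : ℕ} (hk₀ : 0 < k₀) :
    ∃ e : Module.End ℤ A,
      (∀ g : Module.End ℤ A, (∀ i a, g (f i a) = f i (g a)) → ∀ a, g (e a) = e (g a)) ∧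
      (∀ a ∈ B, e a ∈ B ∧ ∀ i, ∃ k, (f i ^ k) (e a) = 0) ∧
      (∀ a ∈ B, (∀ i, ∃ k, (f i ^ k) a = 0) → e a = a) ∧
      ∀ H : AddSubgroup A, (∀ i, ∀ h ∈ H, f i h ∈ H) → (∀ h ∈ H, e h ∈ H) ∧
        ∀ a, (∀ i k, k₀ ∣ k → 0 < k → (f i ^ k) a ∈ H) → e a - a ∈ H := by
  classical
  let r : ι → B → B := fun i a => ⟨f i a.1, hf i a.1 a.2⟩
  have hfin : (Set.range r).Finite := Set.toFinite _
  choose g hg using fun y : Set.range r => y.2
  obtain ⟨e, he1, he2, he3, he4⟩ :=
    exists_projection_list f B hf hcomm hk₀ ((hfin.toFinset.attach.toList).map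
      fun y : {x // x ∈ hfin.toFinset} =>
        g (⟨y.1, hfin.mem_toFinset.1 y.2⟩ : Set.range r))
  refine ⟨e, he1, fun a ha => ⟨(he2 a ha).1, fun i => ?_⟩, he3, he4⟩
  have hmem : g ⟨r i, i, rfl⟩ ∈ (hfin.toFinset.attach.toList).map
      fun y : {x // x ∈ hfin.toFinset} =>
        g (⟨y.1, hfin.mem_toFinset.1 y.2⟩ : Set.range r) :=
    List.mem_map.2 ⟨⟨r i, hfin.mem_toFinset.2 ⟨i, rfl⟩⟩, by simp, rfl⟩
  obtain ⟨k, hk⟩ := (he2 a ha).2.2 _ hmem
  have heq : ∀ b ∈ B, f (g ⟨r i, i, rfl⟩) b = f i b := fun b hb =>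
    congrArg Subtype.val (congrFun (hg ⟨r i, i, rfl⟩) ⟨b, hb⟩)
  have hpow : ∀ n : ℕ, ∀ b ∈ B, (f (g ⟨r i, i, rfl⟩) ^ n) b = (f i ^ n) b := by
    intro n
    induction n with
    | zero => simp
    | succ n ihn =>
      intro b hb
      rw [pow_succ', pow_succ', Module.End.mul_apply, Module.End.mul_apply, ihn b hb,
        heq _ (pow_mem_of_mem B (hf i) n hb)]
  exact ⟨k, by rw [← hpow k _ (he2 a ha).1]; exact hk⟩

end Fermat.Agent.Residual

end
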