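/-
Residual modularity at 3: the Atkin–Lehner involution `w_d` is balanced on a system that
has an odd eigenvalue at a prime inert in all orders of the fixed points of `w_d`.
-/
import Fermat.Agent.Residual.ALNeighbour
import Fermat.Agent.Residual.ALTorsion
import Fermat.Agent.Residual.ExcessProjection
import Fermat.Agent.Residual.AlinvGroup
import Fermat.Agent.Curve.Divisible
import Fermat.Agent.HeckeJ.Commute

set_option autoImplicit false

noncomputable section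

open ModularCurve AlgebraicCurve

namespace Fermat.Agent.Residual

open Fermat.Agent CMFix

local notation "ℚbar" => AlgebraicClosure ℚ

variable {D : ℕ} [NeZero D]

theorem pow_two_smul_apply {A : Type*} [AddCommGroup A] (k : ℕ) (x : A) :
    ((((2 : ℤ) • (1 : Module.End ℤ A)) - (0 : ℤ) • 1) ^ k) x = (2 ^ k : ℕ) • x := by
  induction k with
  | zero => simp
  | succ k ih =>
    rw [pow_succ', Module.End.mul_apply, ih]
    simp [pow_succ', mul_nsmul', two_zsmul, two_nsmul]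

/-- Membership in the part of a system. -/
theorem mem_sysPart_iff {a : ℕ → ℤ} {R : ℕ} {x : JZero D} :
    x ∈ sysPart D a R ↔
      (∀ ℓ : Nat.Primes, ¬ (ℓ : ℕ) ∣ R →
        ∃ k : ℕ, ((heckeOperatorBar D ℓ - a ℓ • 1) ^ k) x = 0) ∧
      ∃ k : ℕ, (2 ^ k : ℕ) • x = 0 := by
  simp only [sysPart, Submodule.mem_inf, Submodule.mem_iInf, Module.End.mem_maxGenEigenspace,
    pow_two_smul_apply]

theorem jzero_exists_two_nsmul (x : JZero D) : ∃ y : JZero D, (2 : ℕ) • y = x :=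
  Curve.pic0_exists_nsmul_eq (by norm_num) (Torsion.finite_jTorsion D 2) x

variable {d : ℕ} {W : IMat}

/-- On the system, the fixed classes of order two are norms and differences, given a prime with
odd eigenvalue whose correspondence is even between fixed places. -/
theorem balanced_of_even (hW : IsAL D d W) (hd : d ∣ D) (h1 : 1 < d)
    (a : ℕ → ℤ) (R : ℕ) (hDR : D ∣ R) {ℓ : ℕ} [hp : Fact ℓ.Prime] (hℓ2 : ℓ ≠ 2) (hℓR : ¬ ℓ ∣ R)
    (hℓD : ¬ ℓ ∣ D) (hodd : Odd (a ℓ))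
    (heven : ∀ P ∈ fixedPlaces (alBar hW hd), ∀ Q ∈ fixedPlaces (alBar hW hd),
      Even ((heckeCorr D hℓD).toDiv (Finsupp.single P 1) Q)) :
    Balanced D d a R := by
  have hℓ : ℓ.Prime := hp.out
  have hd0 : d ≠ 0 := by omega
  refine ⟨alJZero hW hd, isALAction_alJZero hW hd hd0, fun x hx h2 hfix => ?_⟩
  set σ := alBar hW hd with hσ
  have hw : ∀ f, σ (σ f) = f := alBar_alBar hW hd
  have hne : σ ≠ AlgEquiv.refl := alBar_ne_refl hW hd h1
  have hww : ∀ b, alJZero hW hd (alJZero hW hd b) = b := fun b => smul_smul_class hw b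
  set T := heckeCorr D hℓD with hT
  have hTw : T.CommutesWith σ := heckeCorr_commutesWith_alBar hW hd hℓD
  have hTpic : ∀ y, T.pic y = heckeOperatorBar D ⟨ℓ, hℓ⟩ y := heckeCorr_pic D hℓD
  set op := heckeOperatorBar D ⟨ℓ, hℓ⟩ with hop
  have hopw : ∀ y, op (alJZero hW hd y) = alJZero hW hd (op y) := fun y => by
    rw [alJZero_apply, alJZero_apply, ← hTpic, ← hTpic]
    exact hTw.pic_smul y
  have hwT : ∀ (ℓ' : Nat.Primes), ¬ (ℓ' : ℕ) ∣ D →
      ∀ y, heckeOperatorBar D ℓ' (alJZero hW hd y) =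
        alJZero hW hd (heckeOperatorBar D ℓ' y) := by
    rintro ⟨p, hp⟩ h' y
    haveI : Fact p.Prime := ⟨hp⟩
    rw [alJZero_apply, alJZero_apply]
    have e : ∀ z, heckeOperatorBar D ⟨p, hp⟩ z = (heckeCorr D h').pic z := fun z =>
      (heckeCorr_pic D h' z).symm
    rw [e, e]
    exact (heckeCorr_commutesWith_alBar hW hd h').pic_smul y
  -- only primes not dividing `R` and `D`
  let t : {q : Nat.Primes // ¬ (q : ℕ) ∣ R} → Module.End ℤ (JZero D) :=
    fun q => heckeOperatorBar D q.1 - a q.1 • 1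
  let B : AddSubgroup (JZero D) := Torsion.jTorsion D 4
  have hB : ∀ y, y ∈ B ↔ 4 • y = 0 := fun y => Torsion.mem_jTorsion
  haveI : Finite B := Torsion.finite_jTorsion D 4
  have htB : ∀ q, ∀ y ∈ B, t q y ∈ B := fun q y hy => by
    rw [hB] at hy ⊢
    rw [← map_nsmul, hy, map_zero]
  have hTT : ∀ p q : Nat.Primes, ∀ y, heckeOperatorBar D p (heckeOperatorBar D q y) =
      heckeOperatorBar D q (heckeOperatorBar D p y) := fun p q y =>
    LinearMap.congr_fun (HeckeJ.heckeOperatorsCommuteBar D p q) y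
  have htcomm : ∀ p q, ∀ y ∈ B, t p (t q y) = t q (t p y) := fun p q y _ => by
    simp only [t, LinearMap.sub_apply, LinearMap.smul_apply, Module.End.one_apply, map_sub,
      map_zsmul, zsmul_sub, hTT p.1 q.1 y, ← mul_zsmul]
    rw [mul_comm (a p.1) (a q.1)]
    abel
  obtain ⟨e, he1, he2, he3, -⟩ := exists_projection t B htB htcomm one_pos
  have hope : ∀ y, op (e y) = e (op y) := he1 op fun q y => by
    simp only [t, LinearMap.sub_apply, LinearMap.smul_apply, Module.End.one_apply, map_sub,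
      map_zsmul, hop, hTT ⟨ℓ, hℓ⟩ q.1 y]
  let S : AddSubgroup (JZero D) :=
    { carrier := {y | y ∈ B ∧ ∀ q, ∃ k, (t q ^ k) y = 0}
      zero_mem' := ⟨zero_mem B, fun q => ⟨0, by simp⟩⟩
      add_mem' := by
        rintro y z ⟨hy, hy'⟩ ⟨hz, hz'⟩
        refine ⟨add_mem hy hz, fun q => ?_⟩
        obtain ⟨i, hi⟩ := hy' q
        obtain ⟨j, hj⟩ := hz' q
        refine ⟨i + j, ?_⟩
        rw [map_add]
        nth_rw 1 [add_comm i j]
        rw [pow_add, pow_add, Module.End.mul_apply, Module.End.mul_apply, hi, hj, map_zero,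
          map_zero, add_zero]
      neg_mem' := by
        rintro y ⟨hy, hy'⟩
        exact ⟨neg_mem hy, fun q => (hy' q).imp fun k hk => by rw [map_neg, hk, neg_zero]⟩ }
  have hSsys : ∀ y ∈ S, y ∈ sysPart D a R := fun y hy =>
    mem_sysPart_iff.2 ⟨fun q hq => hy.2 ⟨q, hq⟩, 2, by simpa using (hB y).1 hy.1⟩
  have heS : ∀ y ∈ B, e y ∈ S := fun y hy => ⟨(he2 y hy).1, (he2 y hy).2⟩
  have hopS : ∀ y ∈ S, op y ∈ S := by
    rintro y ⟨hy, hy'⟩
    refine ⟨Torsion.map_mem_jTorsion op.toAddMonoidHom hy, fun q => (hy' q).imp fun k hk => ?_⟩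
    have hc : Commute (t q) op := LinearMap.ext fun z => by
      show t q (op z) = op (t q z)
      simp only [t, LinearMap.sub_apply, LinearMap.smul_apply, Module.End.one_apply, map_sub,
        map_zsmul, hop, hTT ⟨ℓ, hℓ⟩ q.1 z]
    rw [← Module.End.mul_apply, (hc.pow_left k).eq, Module.End.mul_apply, hk, map_zero]
  have hinj : ∀ y ∈ S, op y = 0 → y = 0 := by
    rintro y ⟨hy, hy'⟩ h0
    obtain ⟨k, hk⟩ := hy' ⟨⟨ℓ, hℓ⟩, hℓR⟩
    have h4 : (4 : ℤ) • y = 0 := by rw [← natCast_zsmul] at *; exact_mod_cast (hB y).1 hy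
    have hkey : ∀ m : ℕ, (t ⟨⟨ℓ, hℓ⟩, hℓR⟩ ^ m) y = (-(a ℓ)) ^ m • y := by
      intro m
      induction m with
      | zero => simp
      | succ m ih =>
        rw [pow_succ', Module.End.mul_apply, ih, map_zsmul]
        simp only [t, LinearMap.sub_apply, LinearMap.smul_apply, Module.End.one_apply]
        rw [show heckeOperatorBar D ⟨ℓ, hℓ⟩ y = 0 from h0, zero_sub, pow_succ, mul_zsmul,
          neg_zsmul]
    rw [hkey] at hk
    have hnd : ¬ (2 : ℤ) ∣ -(a ℓ) := fun hh =>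
      (Int.not_even_iff_odd.2 hodd) (even_iff_two_dvd.2 (dvd_neg.1 hh))
    have hcop : IsCoprime ((-(a ℓ)) ^ k) ((2 : ℤ) ^ 2) :=
      ((Int.prime_two.coprime_iff_not_dvd.2 hnd).symm).pow
    obtain ⟨u, v, huv⟩ : IsCoprime ((-(a ℓ)) ^ k) (4 : ℤ) := by simpa using hcop
    rw [← one_zsmul y, ← huv, add_zsmul, mul_zsmul, mul_zsmul, hk, h4, zsmul_zero, zsmul_zero,
      add_zero]
  haveI : Finite S := Finite.of_injective (fun s : S => (⟨s.1, s.2.1⟩ : B))
    fun s s' h => Subtype.ext (congrArg (fun b : B => (b : JZero D)) h)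
  let opS : S →+ S := (op.toAddMonoidHom.comp S.subtype).codRestrict S fun s => hopS _ s.2
  have hopSinj : Function.Injective opS := (injective_iff_map_eq_zero opS).2 fun s hs =>
    Subtype.ext (hinj _ s.2 (congrArg Subtype.val hs))
  have hsurj : ∀ y ∈ S, ∃ z ∈ S, op z = y := fun y hy => by
    obtain ⟨z, hz⟩ := Finite.surjective_of_injective hopSinj ⟨y, hy⟩
    exact ⟨z.1, z.2, congrArg Subtype.val hz⟩
  obtain ⟨hx1, -⟩ := mem_sysPart_iff.1 hx
  have hxS : x ∈ S :=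
    ⟨(hB x).2 (by rw [show 4 = 2 * 2 from rfl, mul_nsmul', h2, nsmul_zero]),
      fun q => hx1 q.1 q.2⟩
  have he_id : ∀ y ∈ S, e y = y := fun y hy => he3 y hy.1 hy.2
  have htw : ∀ (q : {q : Nat.Primes // ¬ (q : ℕ) ∣ R}) y,
      alJZero hW hd (t q y) = t q (alJZero hW hd y) := fun q y => by
    simp only [t, LinearMap.sub_apply, LinearMap.smul_apply, Module.End.one_apply, map_sub,
      map_zsmul, hwT q.1 (fun h => q.2 (h.trans hDR)) y]
  have hew : ∀ y, alJZero hW hd (e y) = e (alJZero hW hd y) :=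
    he1 (alJZero hW hd).toIntLinearMap htw
  have hwS : ∀ y ∈ S, alJZero hW hd y ∈ S := by
    rintro y ⟨hy, hy'⟩
    refine ⟨Torsion.map_mem_jTorsion (alJZero hW hd) hy, fun q => (hy' q).imp fun k hk => ?_⟩
    have hc : Commute (t q) (alJZero hW hd).toIntLinearMap :=
      LinearMap.ext fun z => (htw q z).symm
    show (t q ^ k) ((alJZero hW hd).toIntLinearMap y) = 0
    rw [← Module.End.mul_apply, (hc.pow_left k).eq, Module.End.mul_apply, hk, map_zero]
  have hfixw : σ • x = x := hfix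
  constructor
  · obtain ⟨y, hy⟩ := Correspondence.exists_pic_eq_add_smul hw hne hTw heven hfixw
    obtain ⟨y', hy', h'⟩ := exists_half_eq_add (alJZero hW hd) hww jzero_exists_two_nsmul
      (x := op x) (y := y) ((hTpic x).symm.trans hy)
    have hy4 : y' ∈ B := (hB y').2 (by
      rw [show 4 = 2 * 2 from rfl, mul_nsmul', hy', ← map_nsmul, h2, map_zero])
    obtain ⟨z, hz, hzy⟩ := hsurj (e y') (heS y' hy4)
    refine ⟨z, hSsys z hz, sub_eq_zero.1 (hinj _ (sub_mem hxS (add_mem hz (hwS z hz))) ?_)⟩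
    rw [map_sub, map_add, hopw, hzy, hew, ← map_add e, ← h', he_id _ (hopS x hxS), sub_self]
  · have hTT' : ∀ y, T.pic (T.pic y) = op (op y) := fun y => by rw [hTpic, hTpic]
    obtain ⟨y, hy⟩ := Correspondence.exists_pic_pic_eq_sub_smul hw (normSurjective hw hne) hTw
      (even_heckeCorr_deg D hℓD hℓ2) (x := x) (by rw [hfixw, ← two_nsmul, h2])
    obtain ⟨y', hy', h'⟩ := exists_half_eq_sub (alJZero hW hd) hww jzero_exists_two_nsmul
      (x := op (op x)) (y := y) ((hTT' x).symm.trans hy)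
    have hy4 : y' ∈ B := (hB y').2 (by
      rw [show 4 = 2 * 2 from rfl, mul_nsmul', hy', ← map_nsmul, ← map_nsmul, h2, map_zero,
        map_zero])
    obtain ⟨z₁, hz₁, hzy₁⟩ := hsurj (e y') (heS y' hy4)
    obtain ⟨z, hz, hzy⟩ := hsurj z₁ hz₁
    refine ⟨z, hSsys z hz, sub_eq_zero.1 (hinj _ (sub_mem hxS (sub_mem hz (hwS z hz))) ?_)⟩
    refine hinj _ (hopS _ (sub_mem hxS (sub_mem hz (hwS z hz)))) ?_
    rw [map_sub, map_sub, map_sub, map_sub, hopw, hopw, hzy, hzy₁, hew, ← map_sub e, ← h',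
      he_id _ (hopS _ (hopS x hxS)), sub_self]

/-- The case of a prime inert in all orders of the fixed points. -/
theorem balanced_of_inert (hW : IsAL D d W) (hd : d ∣ D) (h1 : 1 < d) (hsq : ¬ IsSquare d)
    (a : ℕ → ℤ) (R : ℕ) (hDR : D ∣ R) {ℓ : ℕ} (hℓ : ℓ.Prime) (hℓ2 : ℓ ≠ 2) (hℓR : ¬ ℓ ∣ R)
    (hodd : Odd (a ℓ))
    (hinert : ∀ t : ℤ, (d : ℤ) ∣ t → t ^ 2 < 4 * d → ¬ IsSquare ((t ^ 2 - 4 * d : ℤ) : ZMod ℓ)) :
    Balanced D d a R := by
  haveI : Fact ℓ.Prime := ⟨hℓ⟩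
  refine balanced_of_even hW hd h1 a R hDR hℓ2 hℓR (fun h => hℓR (h.trans hDR)) hodd
    fun P hP Q hQ => ?_
  rw [heckeCorr_toDiv_apply_eq_zero hW hd h1 hsq _ hinert hP hQ]
  exact Even.zero

/-- Without fixed points, any prime with odd eigenvalue suffices. -/
theorem balanced_of_fixedPointFree (hW : IsAL D d W) (hd : d ∣ D) (h1 : 1 < d)
    (hsq : ¬ IsSquare d) (hfree : ∀ τ, ¬ IsALFixed D d τ) (a : ℕ → ℤ) (R : ℕ) (hDR : D ∣ R)
    {ℓ : ℕ} (hℓ : ℓ.Prime) (hℓ2 : ℓ ≠ 2) (hℓR : ¬ ℓ ∣ R) (hodd : Odd (a ℓ)) :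
    Balanced D d a R := by
  haveI : Fact ℓ.Prime := ⟨hℓ⟩
  refine balanced_of_even hW hd h1 a R hDR hℓ2 hℓR (fun h => hℓR (h.trans hDR)) hodd
    fun P hP Q _ => ?_
  obtain ⟨τ, -, hτ⟩ := exists_point_of_fixed hW hd hsq hP
  exact absurd hτ (hfree τ)

/-- For squarefree levels. -/
theorem balanced_of_squarefree (hD : Squarefree D) (hd : d ∣ D) (h1 : 1 < d) (a : ℕ → ℤ)
    (R : ℕ) (hDR : D ∣ R)
    (hl : ∃ ℓ : ℕ, ℓ.Prime ∧ ℓ ≠ 2 ∧ ¬ ℓ ∣ R ∧ Odd (a ℓ) ∧
      ∀ t : ℤ, (d : ℤ) ∣ t → t ^ 2 < 4 * d → ¬ IsSquare ((t ^ 2 - 4 * d : ℤ) : ZMod ℓ)) :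
    Balanced D d a R := by
  obtain ⟨ℓ, hℓ, hℓ2, hℓR, hodd, hinert⟩ := hl
  have hcop : Nat.Coprime d (D / d) :=
    Nat.coprime_of_squarefree_mul (by rwa [Nat.mul_div_cancel' hd])
  exact balanced_of_inert (isAL_alMat hd hcop) hd h1 (not_isSquare_of_squarefree hD hd h1) a R hDR
    hℓ hℓ2 hℓR hodd hinert

end Fermat.Agent.Residual

end
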