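/-
Residual modularity at 3: the primes used for balancing. For a datum and `d ≠ N` there
are primes split in `ℚ(√-N)` with odd residual trace and inert in all orders of the fixed points
of `w_d`; when `d = N` and the level contains an inert prime there are no fixed points at all.
-/
import Fermat.Agent.Residual.Balanced
import Fermat.Agent.Residual.Defs
import Fermat.Agent.Residual.DihedralField
import Fermat.Agent.Residual.SelDatum
import Fermat.Agent.Residual.SelPairing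
import Fermat.Agent.Density.Main
import Mathlib.FieldTheory.Galois.Infinite

set_option autoImplicit false

noncomputable section

namespace Fermat.Agent.Residual

open Matrix

local notation "Qbar" => AlgebraicClosure ℚ
local notation "Γℚ" => (AlgebraicClosure ℚ ≃ₐ[ℚ] AlgebraicClosure ℚ)

/-- Elements of order three of `GL₂(𝔽₂)` have trace one. -/
theorem trace_eq_one_of_pow_three {g : GL (Fin 2) (ZMod 2)} (h3 : g ^ 3 = 1) (h1 : g ≠ 1) :
    (g : Matrix (Fin 2) (Fin 2) (ZMod 2)).trace = 1 := by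
  have key : ∀ M : Matrix (Fin 2) (Fin 2) (ZMod 2), M ^ 3 = 1 → M ≠ 1 → M.trace = 1 := by
    decide
  refine key _ ?_ fun h => h1 (Units.ext (by simpa using h))
  rw [← Units.val_pow_eq_pow_val, h3, Units.val_one]

theorem apply_eq_or_eq_neg_of_sq {σ : Γℚ} {x : Qbar} {n : ℚ} (hx : x ^ 2 = (n : Qbar)) :
    σ x = x ∨ σ x = -x := by
  apply sq_eq_sq_iff_eq_or_eq_neg.1
  rw [← map_pow, hx, map_ratCast]

theorem sq_apply_eq_self_of_sq {σ : Γℚ} {x : Qbar} {n : ℚ} (hx : x ^ 2 = (n : Qbar)) :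
    (σ * σ) x = x := by
  rw [AlgEquiv.mul_apply]
  rcases apply_eq_or_eq_neg_of_sq (σ := σ) hx with h | h
  · rw [h, h]
  · rw [h, map_neg, h, neg_neg]

namespace Datum

variable (D : Datum)

/-- `√-m` lies outside `ℚ(√-N)` unless `m` is `N`, for `m` squarefree. -/
theorem sqrt_notMem_field {m : ℕ} (hm : Squarefree m) (hne : m ≠ D.level) {x : Qbar}
    (hx : x ^ 2 = -(m : Qbar)) : x ∉ D.field := by
  intro hmem
  set S := D.sqrtNegData with hS
  have hspan := S.linearIndependent.span_eq_top_of_card_eq_finrank (by rw [S.finrank_eq]; simp)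
  have hw : (⟨x, hmem⟩ : D.field) ∈
      Submodule.span ℚ (Set.range ![(1 : D.field), algebraMap _ D.field S.θ]) := by
    rw [hspan]
    exact Submodule.mem_top
  obtain ⟨c, hc⟩ := (Submodule.mem_span_range_iff_exists_fun ℚ).1 hw
  rw [Fin.sum_univ_two] at hc
  set a := c 0
  set b := c 1
  have hlin : (a ^ 2 - D.level * b ^ 2 + m) • (1 : D.field) +
      (2 * a * b) • algebraMap _ D.field S.θ = 0 := by
    have hx' : (⟨x, hmem⟩ : D.field) ^ 2 = -(m : D.field) :=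
      Subtype.ext (by push_cast; exact hx)
    have hθ : (algebraMap _ D.field S.θ) ^ 2 = -(D.level : D.field) := by
      rw [pow_two, ← map_mul, S.sq, map_neg, map_natCast]
    rw [← hc] at hx'
    simp only [Matrix.cons_val_zero, Matrix.cons_val_one, Algebra.smul_def, eq_ratCast,
      mul_one] at hx' ⊢
    push_cast
    linear_combination hx' - (b : D.field) ^ 2 * hθ
  obtain ⟨h0, h1⟩ := LinearIndependent.pair_iff.1 S.linearIndependent _ _ hlin
  have hmpos : (0 : ℚ) < m := by exact_mod_cast Nat.pos_of_ne_zero hm.ne_zero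
  rcases mul_eq_zero.1 h1 with ha | hb
  · have ha' : a = 0 := by simpa using ha
    have hsq : IsSquare (D.level * m) := by
      rw [← Rat.isSquare_natCast_iff]
      refine ⟨D.level * b, ?_⟩
      rw [ha'] at h0
      push_cast
      linear_combination (D.level : ℚ) * h0
    obtain ⟨r, hr⟩ := hsq
    have key : ∀ u v : ℕ, Squarefree u → Squarefree v → u * v = r * r → u ∣ v := by
      intro u v hu hv huv
      obtain ⟨k, hk⟩ := (hu.dvd_pow_iff_dvd two_ne_zero).1 ⟨v, by rw [pow_two, ← huv]⟩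
      subst hk
      have hv' : v = u * (k * k) := mul_left_cancel₀ hu.ne_zero (by rw [huv]; ring)
      exact ⟨k * k, hv'⟩
    exact hne (Nat.dvd_antisymm (key m D.level hm D.level_squarefree (by rw [mul_comm, hr]))
      (key D.level m D.level_squarefree hm hr))
  · rw [hb] at h0
    nlinarith [sq_nonneg a]

/-- An element fixing `ℚ(√-N)` moves `x` outside it. -/
theorem exists_fixing_moving {x : Qbar} (hx : x ∉ D.field) :
    ∃ g ∈ D.field.fixingSubgroup, g x ≠ x := by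
  by_contra hall
  push Not at hall
  apply hx
  rw [← InfiniteGalois.fixedField_fixingSubgroup D.field, IntermediateField.mem_fixedField_iff]
  exact hall

/-- An element of residual order three moving `x` and `y`. -/
theorem exists_order_three_moving {x y : Qbar} {n n' : ℚ} (hx : x ^ 2 = (n : Qbar))
    (hy : y ^ 2 = (n' : Qbar)) (hxK : x ∉ D.field) (hyK : y ∉ D.field) :
    ∃ g : Γℚ, D.ρbar g ^ 3 = 1 ∧ D.ρbar g ≠ 1 ∧ g x ≠ x ∧ g y ≠ y := by
  obtain ⟨g₁, hg₁, hg₁x⟩ := D.exists_fixing_moving hxK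
  obtain ⟨g₂, hg₂, hg₂y⟩ := D.exists_fixing_moving hyK
  obtain ⟨g, hg, hgx, hgy⟩ : ∃ g ∈ D.field.fixingSubgroup, g x ≠ x ∧ g y ≠ y := by
    by_cases h1 : g₁ y = y
    · by_cases h2 : g₂ x = x
      · refine ⟨g₁ * g₂, mul_mem hg₁ hg₂, ?_, fun h => hg₂y ?_⟩
        · rwa [AlgEquiv.mul_apply, h2]
        · rw [AlgEquiv.mul_apply] at h
          exact g₁.injective (h.trans h1.symm)
      · exact ⟨g₂, hg₂, h2, hg₂y⟩
    · exact ⟨g₁, hg₁, hg₁x, h1⟩
  rw [D.mem_fixingSubgroup_field_iff] at hg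
  by_cases hg1 : D.ρbar g = 1
  · let u : GL (Fin 2) (ZMod 2) := ⟨!![0, 1; 1, 1], !![1, 1; 1, 0], by decide, by decide⟩
    obtain ⟨σ₀, hσ₀⟩ := D.surj u
    have hρ : D.ρbar (g * (σ₀ * σ₀)) = u * u := by rw [map_mul, map_mul, hg1, hσ₀, one_mul]
    refine ⟨g * (σ₀ * σ₀), ?_, ?_, ?_, ?_⟩
    · rw [hρ]; exact Units.ext (by decide)
    · rw [hρ]; exact fun h => absurd (congrArg Units.val h) (by decide)
    · rwa [AlgEquiv.mul_apply, sq_apply_eq_self_of_sq hx]
    · rwa [AlgEquiv.mul_apply, sq_apply_eq_self_of_sq hy]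
  · exact ⟨g, hg, hg1, hgx, hgy⟩

/-- A root of `-n` moved by a Frobenius element at an odd `ℓ ∤ n`: `-n` is not a square mod `ℓ`. -/
theorem not_isSquare_of_frobenius {ℓ : ℕ} [Fact ℓ.Prime] (hℓ2 : ℓ ≠ 2) {n : ℕ} (hn : ¬ ℓ ∣ n)
    {A : ValuationSubring Qbar} (hA : A.LiesOverPrime ℓ) {τ : Γℚ} (hτ : A.IsFrobeniusAt τ ℓ)
    {x : Qbar} (hx : x ^ 2 = -(n : Qbar)) (hmove : τ x ≠ x) :
    ¬ IsSquare (-(n : ZMod ℓ)) := by
  rintro ⟨s, hs⟩
  have hℓ : ℓ.Prime := Fact.out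
  have hxA : x ∈ A := Galois.mem_valuationSubring_of_isIntegral A
    (IsIntegral.of_pow two_pos (by rw [hx]; exact (isIntegral_algebraMap (x := (n : ℤ))).neg))
  have hint : ∀ z : ℤ, (ℓ : ℤ) ∣ z → (z : Qbar) ∈ A.nonunits := fun z hz =>
    (Galois.intCast_mem_nonunits_iff hℓ hA z).2 hz
  set s' : ℤ := (s.val : ℤ) with hs'
  have hsn : (ℓ : ℤ) ∣ s' * s' + n := by
    rw [← ZMod.intCast_zmod_eq_zero_iff_dvd]
    push_cast [hs']
    rw [ZMod.natCast_val, ZMod.cast_id, ← hs, neg_add_cancel]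
  have hprod : (x - s') * (x + s') ∈ A.nonunits := by
    have : (x - s') * (x + s') = -((s' * s' + n : ℤ) : Qbar) := by
      push_cast; linear_combination hx
    rw [this]
    exact A.nonunits.neg_mem (hint _ hsn)
  have hone : ∃ z : ℤ, x - z ∈ A.nonunits := by
    by_contra hall
    push Not at hall
    have h1 : x - (s' : Qbar) ∈ A := sub_mem hxA (intCast_mem A _)
    have h2 : x + (s' : Qbar) ∈ A := add_mem hxA (intCast_mem A _)
    have hu : x - (s' : Qbar) ∈ A.nonunits ∨ x + (s' : Qbar) ∈ A.nonunits := by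
      simp only [ValuationSubring.mem_nonunits_iff, map_mul] at hprod ⊢
      by_contra hn
      simp only [not_or, not_lt] at hn
      rw [le_antisymm ((A.valuation_le_one_iff _).2 h1) hn.1,
        le_antisymm ((A.valuation_le_one_iff _).2 h2) hn.2, one_mul] at hprod
      exact lt_irrefl _ hprod
    rcases hu with h | h
    · exact hall s' h
    · exact hall (-s') (by simpa using h)
  obtain ⟨z, hz⟩ := hone
  have hfrob := CFT.frobenius_sub_pow_mem hτ hxA
  rw [(apply_eq_or_eq_neg_of_sq (n := -(n : ℚ)) (by push_cast; exact hx)).resolve_left hmove]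
    at hfrob
  -- `x ^ ℓ ≡ z ^ ℓ ≡ z ≡ x`
  have hpow : x ^ ℓ - (z : Qbar) ^ ℓ ∈ A.nonunits := by
    obtain ⟨q, hq, hqA⟩ : ∃ q, x ^ ℓ - (z : Qbar) ^ ℓ = (x - z) * q ∧ q ∈ A :=
      ⟨∑ i ∈ Finset.range ℓ, x ^ i * (z : Qbar) ^ (ℓ - 1 - i), by rw [mul_comm, geom_sum₂_mul],
        sum_mem fun i _ => mul_mem (pow_mem hxA i) (pow_mem (intCast_mem A z) _)⟩
    rw [hq]
    exact Mult.mul_mem_nonunits hz hqA
  have hz' : ((z ^ ℓ - z : ℤ) : Qbar) ∈ A.nonunits := hint _ (by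
    rw [← ZMod.intCast_zmod_eq_zero_iff_dvd]; push_cast; rw [ZMod.pow_card, sub_self])
  have htwo : 2 * x ∈ A.nonunits := by
    have e : 2 * x = -(-x - x ^ ℓ) - (x ^ ℓ - (z : Qbar) ^ ℓ) - ((z ^ ℓ - z : ℤ) : Qbar) + (x - z) := by
      push_cast; ring
    rw [e, sub_eq_add_neg, sub_eq_add_neg]
    exact A.nonunits.add_mem (A.nonunits.add_mem (A.nonunits.add_mem (A.nonunits.neg_mem hfrob)
      (A.nonunits.neg_mem hpow)) (A.nonunits.neg_mem hz')) hz
  have h4 : (((-4) * n : ℤ) : Qbar) ∈ A.nonunits := by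
    have e : (((-4) * n : ℤ) : Qbar) = (2 * x) * (2 * x) := by
      push_cast; linear_combination -4 * hx
    rw [e]
    exact Mult.mul_mem_nonunits htwo (mul_mem (by exact_mod_cast (intCast_mem A 2)) hxA)
  have hdvd := (Galois.intCast_mem_nonunits_iff hℓ hA _).1 h4
  rw [neg_mul, dvd_neg] at hdvd
  rcases (Nat.prime_iff_prime_int.1 hℓ).dvd_or_dvd hdvd with h | h
  · have h' : ℓ ∣ 2 ^ 2 := by exact_mod_cast h
    exact hℓ2 ((Nat.prime_dvd_prime_iff_eq hℓ Nat.prime_two).1 (hℓ.dvd_of_dvd_pow h'))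
  · exact hn (Int.natCast_dvd_natCast.1 h)

/-- The Frobenius elements over `ℓ ∉ B` have the same residual trace. -/
theorem trace_frobenius_eq {ℓ : ℕ} (hℓ : ℓ.Prime) (hB : ℓ ∉ D.B) {A A' : ValuationSubring Qbar}
    (hA : A.LiesOverPrime ℓ) (hA' : A'.LiesOverPrime ℓ) {τ τ' : Γℚ} (hτ : A.IsFrobeniusAt τ ℓ)
    (hτ' : A'.IsFrobeniusAt τ' ℓ) :
    (D.ρbar τ' : Matrix (Fin 2) (Fin 2) (ZMod 2)).trace =
      (D.ρbar τ : Matrix (Fin 2) (Fin 2) (ZMod 2)).trace := by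
  obtain ⟨h, hh⟩ := Sel.exists_conj_frobenius D.ρbar hℓ
    (fun P hP σ hσ => D.unram ℓ hℓ hB P hP σ hσ) hA hA' hτ hτ'
  rw [hh, Units.val_mul, Units.val_mul, Matrix.trace_units_conj]

/-- Primes of odd residual trace inert in the orders of the fixed points of `w_d`, `d ≠ N`. -/
theorem exists_inert_prime {d : ℕ} (hd : Squarefree d) (h1 : 1 < d) (hne : d ≠ D.level)
    (S : Finset ℕ) :
    ∃ ℓ : ℕ, ℓ.Prime ∧ ℓ ∉ S ∧ ℓ ≠ 2 ∧
      (∃ A : ValuationSubring Qbar, A.LiesOverPrime ℓ ∧ ∃ τ : Γℚ, A.IsFrobeniusAt τ ℓ ∧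
        (D.ρbar τ : Matrix (Fin 2) (Fin 2) (ZMod 2)).trace = 1) ∧
      ∀ t : ℤ, (d : ℤ) ∣ t → t ^ 2 < 4 * d → ¬ IsSquare ((t ^ 2 - 4 * d : ℤ) : ZMod ℓ) := by
  classical
  obtain ⟨x, hx⟩ := IsAlgClosed.exists_pow_nat_eq (-(d : Qbar)) (n := 2) two_pos
  obtain ⟨y, hy⟩ := IsAlgClosed.exists_pow_nat_eq (-((1 : ℕ) : Qbar)) (n := 2) two_pos
  have hN2 : 2 ≤ D.level := Nat.le_of_dvd D.level_pos D.two_dvd_level
  obtain ⟨g, hg3, hg1, hgx, hgy⟩ := D.exists_order_three_moving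
    (n := -(d : ℚ)) (n' := -((1 : ℕ) : ℚ)) (by push_cast; exact hx) (by simpa using hy)
    (D.sqrt_notMem_field hd hne hx) (D.sqrt_notMem_field squarefree_one (by omega) hy)
  obtain ⟨L₀, hL₀f, hL₀⟩ := D.cont
  haveI : FiniteDimensional ℚ (IntermediateField.adjoin ℚ ({x, y} : Set Qbar)) :=
    IntermediateField.finiteDimensional_adjoin fun z _ => Algebra.IsIntegral.isIntegral z
  obtain ⟨ℓ, hℓ, hℓS, A, hA, τ, hτ, ⟨k, hk⟩, -⟩ := Density.exists_frobenius_pow g
    (L₀ ⊔ IntermediateField.adjoin ℚ ({x, y} : Set Qbar))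
    (S ∪ D.B ∪ {2} ∪ d.primeFactors)
  simp only [Finset.mem_union, Finset.mem_singleton, not_or] at hℓS
  obtain ⟨⟨⟨hS, hB⟩, h2⟩, hd'⟩ := hℓS
  have hℓd : ¬ ℓ ∣ d := fun h => hd' (Nat.mem_primeFactors.2 ⟨hℓ, h, hd.ne_zero⟩)
  haveI := Fact.mk hℓ
  have hρ : D.ρbar g = D.ρbar τ ^ k := by
    have h1 : D.ρbar (g⁻¹ * τ ^ k) = 1 := hL₀ _
      ((IntermediateField.mem_fixingSubgroup_iff _ _).2 fun z hz => by
        rw [AlgEquiv.mul_apply, ← hk z ((le_sup_left : L₀ ≤ _) hz)]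
        exact g.symm_apply_apply z)
    rw [map_mul, map_inv, map_pow, inv_mul_eq_one] at h1
    exact h1
  have hmove : ∀ z, z ∈ ({x, y} : Set Qbar) → g z ≠ z → τ z ≠ z := fun z hz hgz h => by
    refine hgz ((hk z ((le_sup_right : IntermediateField.adjoin ℚ ({x, y} : Set Qbar) ≤ _)
      (IntermediateField.subset_adjoin _ _ hz))).trans ?_)
    have hs : τ ∈ MulAction.stabilizer Γℚ z := h
    exact Subgroup.pow_mem _ hs k
  have hsqd := not_isSquare_of_frobenius h2 hℓd hA hτ hx (hmove x (Or.inl rfl) hgx)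
  have hsq1 := not_isSquare_of_frobenius h2 hℓ.not_dvd_one hA hτ hy (hmove y (Or.inr rfl) hgy)
  have htr : (D.ρbar τ : Matrix (Fin 2) (Fin 2) (ZMod 2)).trace = 1 := by
    have key : ∀ M : Matrix (Fin 2) (Fin 2) (ZMod 2), IsUnit M.det →
        M * M = 1 ∨ (M ^ 3 = 1 ∧ M ≠ 1) := by
      intro M hM
      have this : ∀ M : Matrix (Fin 2) (Fin 2) (ZMod 2), M.det = 1 →
          M * M = 1 ∨ (M ^ 3 = 1 ∧ M ≠ 1) := by decide
      have he : ∀ e : ZMod 2, e ≠ 0 → e = 1 := by decide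
      exact this M (he _ hM.ne_zero)
    rcases key _ (((Matrix.isUnit_iff_isUnit_det _).1 (D.ρbar τ).isUnit)) with h | ⟨h, h'⟩
    · exfalso
      have h2' : D.ρbar τ ^ 2 = 1 := Units.ext (by rw [pow_two]; simpa using h)
      have hg2 : D.ρbar g ^ 2 = 1 := by rw [hρ, ← pow_mul, mul_comm, pow_mul, h2', one_pow]
      exact hg1 (by rw [pow_succ, hg2, one_mul] at hg3; exact hg3)
    · exact trace_eq_one_of_pow_three (Units.ext (by simpa using h))
        fun e => h' (by rw [e]; simp)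
  refine ⟨ℓ, hℓ, hS, h2, ⟨A, hA, τ, hτ, htr⟩, fun t ht ht2 hsq => ?_⟩
  obtain ⟨j, rfl⟩ := ht
  have hd2 : (2 : ℤ) ≤ d := by exact_mod_cast h1
  have h20 : (2 : ZMod ℓ) ≠ 0 := fun h => h2 ((Nat.prime_dvd_prime_iff_eq hℓ Nat.prime_two).1
    ((ZMod.natCast_eq_zero_iff 2 ℓ).1 (by exact_mod_cast h)))
  obtain ⟨s, hs⟩ := hsq
  push_cast at hs
  rcases eq_or_ne j 0 with rfl | hj0
  · refine hsqd ⟨s / 2, ?_⟩
    push_cast at hs
    field_simp
    linear_combination hs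
  · have hj1 : 1 ≤ j ^ 2 := by rcases lt_or_gt_of_ne hj0 with h | h <;> nlinarith
    have hlt : (d : ℤ) * j ^ 2 < 4 := by nlinarith
    have hj2 : j ^ 2 = 1 := by nlinarith
    have hd4 : d < 4 := by
      have : (d : ℤ) < 4 := by nlinarith
      exact_mod_cast this
    have hj' : (j : ZMod ℓ) ^ 2 = 1 := by rw [← Int.cast_pow, hj2, Int.cast_one]
    interval_cases d
    · refine hsq1 ⟨s / 2, ?_⟩
      push_cast at hs ⊢
      field_simp
      linear_combination hs - 4 * hj'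
    · refine hsqd ⟨s, ?_⟩
      push_cast at hs ⊢
      linear_combination hs - 9 * hj'

theorem four_le_level : 4 ≤ D.level := by
  obtain ⟨p, hp, hp2⟩ := Finset.exists_mem_ne D.one_lt_card 2
  have h : 2 * p ∣ D.level :=
    (Nat.Coprime.mul_dvd_of_dvd_of_dvd
      ((Nat.coprime_primes Nat.prime_two (D.prime_mem p hp)).2 (Ne.symm hp2))
      D.two_dvd_level (Finset.dvd_prod_of_mem _ hp))
  have := Nat.le_of_dvd D.level_pos h
  have := (D.prime_mem p hp).two_le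
  omega

/-- `-N` is not a square modulo an auxiliary prime. -/
theorem not_isSquare_auxPrime {Q : Finset ℕ} (hQ : IsAuxSet D Q) {q : ℕ} [Fact q.Prime]
    (hq : q ∈ Q) : ¬ IsSquare (-(D.level : ZMod q)) := by
  obtain ⟨hqp, hqB, hτ⟩ := hQ q hq
  obtain ⟨A, τ, hA, hτA⟩ := Galois.exists_valuationSubring_isFrobeniusAt hqp
  have hN : ¬ q ∣ D.level := fun h => by
    obtain ⟨b, hb, hqb⟩ := (Nat.Prime.prime hqp).exists_mem_finset_dvd h
    exact hqB ((Nat.prime_dvd_prime_iff_eq hqp (D.prime_mem b hb)).1 hqb ▸ hb)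
  refine not_isSquare_of_frobenius (fun h => hqB (by rw [h]; exact D.two_mem)) hN hA hτA D.sqrtNeg_sq
    fun hfix => ?_
  obtain ⟨hne, h2⟩ := hτ A hA τ hτA
  have h3 := (D.sqrt D.sqrtNeg (by simpa [level] using D.sqrtNeg_sq) τ).1 hfix
  rw [pow_succ, h2, one_mul] at h3
  exact hne h3

end Datum

/-- `w_d` has no fixed points when the level has a prime modulo which `-d` is not a square. -/
theorem not_isALFixed_of_not_isSquare {D d q : ℕ} [Fact q.Prime] (hd : 4 ≤ d) (hq : d * q ∣ D)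
    (hns : ¬ IsSquare (-(d : ZMod q))) (τ : UpperHalfPlane) : ¬ CMFix.IsALFixed D d τ := by
  rintro ⟨M, hM, hfix⟩
  obtain ⟨x, hx⟩ := hM.dvd00
  obtain ⟨z, hz⟩ := (Int.natCast_dvd_natCast.2 hq).trans hM.dvd10
  have h11 : M 1 1 = -((d : ℤ) * x) := by linarith [hM.trace_eq_zero hd hfix]
  have hdet := hM.det_eq
  rw [Matrix.det_fin_two, hx, h11, hz] at hdet
  push_cast at hdet
  have h1 : -((d : ℤ) * x ^ 2) - M 0 1 * q * z = 1 :=
    mul_left_cancel₀ (show (d : ℤ) ≠ 0 by omega) (by linear_combination hdet)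
  have h2 := congrArg (fun u : ℤ => (u : ZMod q)) h1
  push_cast [ZMod.natCast_self] at h2
  exact hns ⟨-((d : ZMod q) * x), by linear_combination (d : ZMod q) * h2⟩

namespace Datum

variable (D : Datum)

/-- Every Atkin–Lehner involution at the divisors of the level `N · ∏ Q` is balanced on the
system of the residual representation, except `w_N` at level `N`. -/
theorem balanced {Q : Finset ℕ} (hQ : IsAuxSet D Q) (a : ℕ → ℤ) {R : ℕ} (hR0 : R ≠ 0)
    (hR : D.auxLevel Q ∣ R)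
    (ha : ∀ ℓ : ℕ, ℓ.Prime → ¬ ℓ ∣ R → ∀ A : ValuationSubring Qbar, A.LiesOverPrime ℓ →
      ∀ τ : Γℚ, A.IsFrobeniusAt τ ℓ →
        (D.ρbar τ : Matrix (Fin 2) (Fin 2) (ZMod 2)).trace = (a ℓ : ZMod 2))
    (L d : ℕ) [NeZero L] (hL : L ∣ D.auxLevel Q) (hd : d ∣ L) (h1 : 1 < d)
    (hne : ¬ (L = D.level ∧ d = D.level)) : Balanced L d a R := by
  have hsf : Squarefree L := by
    have hdis : Disjoint D.B Q := Finset.disjoint_right.mpr fun q hq => (hQ q hq).2.1
    have hp : ∀ x ∈ D.B ∪ Q, x.Prime := fun x hx =>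
      (Finset.mem_union.mp hx).elim (D.prime_mem x) fun h => (hQ x h).1
    refine Squarefree.squarefree_of_dvd hL ?_
    rw [Datum.auxLevel, Datum.level, ← Finset.prod_union hdis]
    exact Finset.squarefree_prod_of_pairwise_isCoprime
      (fun x hx y hy hxy =>
        Nat.coprime_iff_isRelPrime.1 ((Nat.coprime_primes (hp x hx) (hp y hy)).2 hxy))
      (fun x hx => (hp x hx).squarefree)
  have hLR : L ∣ R := hL.trans hR
  have hprime : ∀ d', Squarefree d' → 1 < d' → d' ≠ D.level →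
      ∃ ℓ : ℕ, ℓ.Prime ∧ ℓ ≠ 2 ∧ ¬ ℓ ∣ R ∧ Odd (a ℓ) ∧
        ∀ t : ℤ, (d' : ℤ) ∣ t → t ^ 2 < 4 * d' →
          ¬ IsSquare ((t ^ 2 - 4 * d' : ℤ) : ZMod ℓ) := by
    intro d' hd' h1' hne'
    obtain ⟨ℓ, hℓ, hS, h2, ⟨A, hA, τ, hτ, htr⟩, hin⟩ :=
      D.exists_inert_prime hd' h1' hne' R.primeFactors
    have hℓR : ¬ ℓ ∣ R := fun h => hS (Nat.mem_primeFactors.2 ⟨hℓ, h, hR0⟩)
    refine ⟨ℓ, hℓ, h2, hℓR, ?_, hin⟩
    rw [ha ℓ hℓ hℓR A hA τ hτ] at htr
    exact ZMod.intCast_eq_one_iff_odd.1 htr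
  by_cases hdN : d = D.level
  · subst hdN
    obtain ⟨m, rfl⟩ := hd
    have hm : m ∣ ∏ q ∈ Q, q := (Nat.mul_dvd_mul_iff_left D.level_pos).1 hL
    have hm1 : m ≠ 1 := fun h => hne ⟨by rw [h, mul_one], rfl⟩
    obtain ⟨q, hqp, hqm⟩ := Nat.exists_prime_and_dvd hm1
    obtain ⟨q', hq', hqq⟩ := hqp.prime.exists_mem_finset_dvd (hqm.trans hm)
    obtain rfl := (Nat.prime_dvd_prime_iff_eq hqp (hQ q' hq').1).1 hqq
    haveI := Fact.mk hqp
    obtain ⟨ℓ, hℓ, hℓ2, hℓR, hodd, -⟩ :=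
      hprime 2 Nat.prime_two.squarefree one_lt_two (by have := D.four_le_level; omega)
    exact balanced_of_fixedPointFree
      (isAL_alMat (Dvd.intro m rfl) (Nat.coprime_of_squarefree_mul
        (by rwa [Nat.mul_div_cancel' (Dvd.intro m rfl)])))
      (Dvd.intro m rfl) h1 (not_isSquare_of_squarefree hsf (Dvd.intro m rfl) h1)
      (not_isALFixed_of_not_isSquare D.four_le_level (mul_dvd_mul_left _ hqm)
        (D.not_isSquare_auxPrime hQ hq'))
      a R hLR hℓ hℓ2 hℓR hodd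
  · exact balanced_of_squarefree hsf hd h1 a R hLR
      (hprime d (hsf.squarefree_of_dvd hd) h1 hdN)

end Datum

end Fermat.Agent.Residual

end
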