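/-
The integral lattice of parabolic homomorphisms inside `S₂ × S₂` and its reductions, with the Hecke
and Atkin–Lehner operators.
-/
import Fermat.Agent.Residual.CountAL
import Fermat.Agent.HeckeCohom.Action
import Fermat.Agent.Torsion.Main

set_option autoImplicit false

noncomputable section

namespace Fermat.Agent.Residual

open CongruenceSubgroup ModularCurve Module
open HeckeCohom (rk gen basisHom decomp castHom heckeParEll heckeHom formOp)
open CMFix (IMat IsAL)

variable (D : ℕ) [NeZero D]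

/-- Pairs of cusp forms. -/
abbrev FormPair : Type := CuspForm (Gamma0 D) 2 × CuspForm (Gamma0 D) 2

/-- Integral parabolic homomorphisms. -/
abbrev LatticeZ : Type := ParHom.parEllHoms (Gamma0 D) ℤ ℤ

/-- Parabolic homomorphisms modulo two. -/
abbrev LatticeTwo : Type := ParHom.parEllHoms (Gamma0 D) (ZMod 2) (ZMod 2)

variable {D}

/-- The values of the period pairing on the distinguished generators. -/
def genValues : FormPair D →ₗ[ℂ] (Fin (rk D) → ℂ) where
  toFun x i := periodHomPair D x (Additive.ofMul (gen D i))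
  map_add' x y := by funext i; simp [map_add]
  map_smul' c x := by funext i; simp [map_smul]

theorem isParEllHom_periodHomPair (x : FormPair D) :
    ParHom.IsParEllHom (Gamma0 D) (periodHomPair D x) := by
  refine ParHom.isParabolicHom_iff.mp ?_
  have h : periodHomPair D x ∈ LinearMap.range (periodHomPair D) := LinearMap.mem_range_self _ x
  rw [HeckeCohom.range_periodHomPair] at h
  exact h

theorem genValues_injective : Function.Injective (genValues (D := D)) := by
  intro x y h
  refine Periods.periodHomPair_injective D ?_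
  rw [decomp (isParEllHom_periodHomPair x), decomp (isParEllHom_periodHomPair y)]
  refine Finset.sum_congr rfl fun i _ => ?_
  rw [show periodHomPair D x (Additive.ofMul (gen D i))
    = periodHomPair D y (Additive.ofMul (gen D i)) from congrFun h i]

/-- An integral homomorphism as a pair of forms. -/
def iota : LatticeZ D →+ FormPair D :=
  AddMonoidHom.mk' (fun φ => (HeckeCohom.exists_periodHomPair_eq_castHom φ).choose) fun φ ψ => by
    refine Periods.periodHomPair_injective D ?_
    rw [map_add, (HeckeCohom.exists_periodHomPair_eq_castHom (φ + ψ)).choose_spec,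
      (HeckeCohom.exists_periodHomPair_eq_castHom φ).choose_spec,
      (HeckeCohom.exists_periodHomPair_eq_castHom ψ).choose_spec]
    exact AddMonoidHom.ext fun a => Int.cast_add _ _

theorem periodHomPair_iota (φ : LatticeZ D) :
    periodHomPair D (iota φ) = castHom (φ : Additive (Gamma0 D) →+ ℤ) :=
  (HeckeCohom.exists_periodHomPair_eq_castHom φ).choose_spec

theorem iota_injective : Function.Injective (iota (D := D)) := fun φ ψ h =>
  Subtype.ext (HeckeCohom.castHom_injective
    (by rw [← periodHomPair_iota, ← periodHomPair_iota, h]))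

/-- The integral basis. -/
def basisZ : Basis (Fin (rk D)) ℤ (LatticeZ D) :=
  Basis.ofEquivFun (ParHom.parEquiv (ParHom.neg_one_mem_Gamma0 D) ℤ ℤ)

theorem basisZ_apply (i : Fin (rk D)) : basisZ i = basisHom D i := by
  simp [basisZ, basisHom, Basis.coe_ofEquivFun]

theorem genValues_iota (i : Fin (rk D)) :
    genValues (iota (basisHom D i)) = Pi.single i 1 := by
  funext j
  show periodHomPair D (iota (basisHom D i)) _ = _
  rw [periodHomPair_iota]
  show ((basisHom D i : Additive (Gamma0 D) →+ ℤ) (Additive.ofMul (gen D j)) : ℂ) = _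
  rw [HeckeCohom.basisHom_gen]
  by_cases h : j = i
  · subst h; simp
  · simp [h]

theorem genValues_surjective : Function.Surjective (genValues (D := D)) := by
  rw [← LinearMap.range_eq_top, eq_top_iff, ← (Pi.basisFun ℂ (Fin (rk D))).span_eq,
    Submodule.span_le]
  rintro _ ⟨i, rfl⟩
  exact ⟨iota (basisHom D i), by rw [genValues_iota, Pi.basisFun_apply]⟩

/-- The complex basis given by the integral one. -/
def basisC : Basis (Fin (rk D)) ℂ (FormPair D) :=
  Basis.ofEquivFun (LinearEquiv.ofBijective genValues ⟨genValues_injective, genValues_surjective⟩)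

theorem basisC_apply (i : Fin (rk D)) : basisC i = iota (basisZ i) := by
  rw [basisC, Basis.coe_ofEquivFun, basisZ_apply]
  refine genValues_injective ?_
  rw [genValues_iota]
  exact (LinearEquiv.ofBijective genValues ⟨genValues_injective, genValues_surjective⟩).apply_symm_apply _

/-- `T_ℓ` on pairs of forms. -/
def heckePair (ℓ : Nat.Primes) : Module.End ℂ (FormPair D) :=
  (formOp D ℓ).prodMap (formOp D ℓ)

theorem iota_hecke (ℓ : Nat.Primes) (φ : LatticeZ D) :
    heckePair ℓ (iota φ) = iota (heckeParEll D ℤ ℤ ℓ φ) := by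
  refine Periods.periodHomPair_injective D ?_
  rw [periodHomPair_iota]
  show periodHomPair D (formOp D ℓ (iota φ).1, formOp D ℓ (iota φ).2) = _
  rw [HeckeCohom.periodHomPair_formOp, periodHomPair_iota]
  exact (HeckeCohom.comp_heckeHom (R := ℤ) (S := ℂ) (Int.castAddHom ℂ) ℓ _).symm

variable {d : ℕ} {X : IMat}

/-- The Atkin–Lehner operator on homomorphisms with values in an `R`-module. -/
def pullLin (hX : IsAL D d X) (hd : d ∣ D) (hd0 : d ≠ 0) (R : Type*) [Semiring R] (A : Type*)
    [AddCommGroup A] [Module R A] : Module.End R (ParHom.parEllHoms (Gamma0 D) R A) where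
  toFun φ := ⟨(φ : Additive (Gamma0 D) →+ A).comp (MonoidHom.toAdditive (hX.conj hd hd0)),
    hX.isParEllHom_comp_conj hd hd0 φ.2⟩
  map_add' _ _ := rfl
  map_smul' _ _ := rfl

/-- `f ↦ f ∣ X` on pairs of forms. -/
def alPair (hX : IsAL D d X) (hd : d ∣ D) (hd0 : d ≠ 0) : Module.End ℂ (FormPair D) :=
  (alLin hX hd hd0).prodMap (alLin hX hd hd0)

theorem iota_pull (hX : IsAL D d X) (hd : d ∣ D) (hd0 : d ≠ 0) (φ : LatticeZ D) :
    alPair hX hd hd0 (iota φ) = iota (hX.pull hd hd0 ℤ φ) := by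
  refine Periods.periodHomPair_injective D ?_
  rw [periodHomPair_iota]
  show periodHomPair D (alLin hX hd hd0 (iota φ).1, alLin hX hd hd0 (iota φ).2) = _
  rw [periodHomPair_alLin, periodHomPair_iota]
  rfl

theorem pull_pull (hX : IsAL D d X) (hd : d ∣ D) (hd0 : d ≠ 0) (φ : LatticeZ D) :
    hX.pull hd hd0 ℤ (hX.pull hd hd0 ℤ φ) = φ := by
  refine iota_injective ?_
  rw [← iota_pull, ← iota_pull]
  exact Prod.ext (alLin_alLin hX hd hd0 _) (alLin_alLin hX hd hd0 _)

theorem pull_hecke (hD : Squarefree D) (hX : IsAL D d X) (hd : d ∣ D) (hd0 : d ≠ 0)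
    {ℓ : Nat.Primes} (hℓ : ¬ (ℓ : ℕ) ∣ D) (φ : LatticeZ D) :
    heckeParEll D ℤ ℤ ℓ (hX.pull hd hd0 ℤ φ) = hX.pull hd hd0 ℤ (heckeParEll D ℤ ℤ ℓ φ) := by
  refine iota_injective ?_
  rw [← iota_hecke, ← iota_pull, ← iota_pull, ← iota_hecke]
  have h : ∀ f, formOp D ℓ (alLin hX hd hd0 f) = alLin hX hd hd0 (formOp D ℓ f) := fun f => by
    rw [HeckeCohom.formOp_of_not_dvd hℓ, alLin_heckeT hD hX hd hd0 ℓ.2 hℓ f]
  exact Prod.ext (h _) (h _)

/-- Reduction of homomorphisms modulo `n`. -/
def redMod (n : ℕ) : LatticeZ D →+ Torsion.CharMod D n :=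
  AddMonoidHom.mk' (fun φ => ⟨(Int.castAddHom (ZMod n)).comp (φ : Additive (Gamma0 D) →+ ℤ),
      ParHom.mem_parEllHoms.mpr (ParHom.IsParEllHom.comp φ.2 _)⟩)
    fun φ ψ => Subtype.ext (AddMonoidHom.ext fun a => Int.cast_add _ _)

/-- Reduction modulo two. -/
def redTwo : LatticeZ D →+ LatticeTwo D :=
  AddMonoidHom.mk' (fun φ => ⟨(Int.castAddHom (ZMod 2)).comp (φ : Additive (Gamma0 D) →+ ℤ),
      ParHom.mem_parEllHoms.mpr (ParHom.IsParEllHom.comp φ.2 _)⟩)
    fun φ ψ => Subtype.ext (AddMonoidHom.ext fun a => Int.cast_add _ _)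

@[simp] theorem coe_redMod (n : ℕ) (φ : LatticeZ D) :
    ((redMod n φ : Torsion.CharMod D n) : Additive (Gamma0 D) →+ ZMod n)
      = (Int.castAddHom (ZMod n)).comp (φ : Additive (Gamma0 D) →+ ℤ) := rfl

@[simp] theorem coe_redTwo (φ : LatticeZ D) :
    ((redTwo φ : LatticeTwo D) : Additive (Gamma0 D) →+ ZMod 2)
      = (Int.castAddHom (ZMod 2)).comp (φ : Additive (Gamma0 D) →+ ℤ) := rfl

theorem redMod_eq_zero_iff (n : ℕ) [NeZero n] (φ : LatticeZ D) :
    redMod n φ = 0 ↔ ∃ ψ : LatticeZ D, φ = (n : ℤ) • ψ := by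
  refine ⟨fun h => ?_, ?_⟩
  · have hdvd : ∀ a, (n : ℤ) ∣ (φ : Additive (Gamma0 D) →+ ℤ) a := fun a =>
      (ZMod.intCast_zmod_eq_zero_iff_dvd _ _).mp
        (DFunLike.congr_fun (congrArg Subtype.val h) a)
    choose c hc using hdvd
    have hn : (n : ℤ) ≠ 0 := by exact_mod_cast NeZero.ne n
    refine ⟨⟨AddMonoidHom.mk' c fun a b => ?_, fun γ hγ => ?_⟩, Subtype.ext (AddMonoidHom.ext fun a =>
      by simpa using hc a)⟩
    · exact mul_left_cancel₀ hn (by rw [mul_add, ← hc, ← hc, ← hc, map_add])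
    · exact mul_left_cancel₀ hn (by
        show (n : ℤ) * c _ = (n : ℤ) * 0
        rw [← hc, mul_zero]; exact φ.2 γ hγ)
  · rintro ⟨ψ, rfl⟩
    exact Subtype.ext (AddMonoidHom.ext fun a => by simp)

theorem redTwo_eq_zero_iff (φ : LatticeZ D) :
    redTwo φ = 0 ↔ ∃ ψ : LatticeZ D, φ = (2 : ℤ) • ψ := by
  have h : redTwo φ = 0 ↔ redMod 2 φ = 0 :=
    ⟨fun h => Subtype.ext (congrArg Subtype.val h :), fun h => Subtype.ext (congrArg Subtype.val h :)⟩
  rw [h, redMod_eq_zero_iff]
  rfl

theorem redMod_surjective (n : ℕ) [NeZero n] : Function.Surjective (redMod (D := D) n) := by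
  intro φ
  have hsum := decomp φ.2
  refine ⟨∑ i, ((((φ : Additive (Gamma0 D) →+ ZMod n) (Additive.ofMul (gen D i))).val : ℕ) : ℤ)
    • basisHom D i, ?_⟩
  refine Subtype.ext ?_
  rw [map_sum, AddSubmonoidClass.coe_finsetSum]
  conv_rhs => rw [hsum]
  refine Finset.sum_congr rfl fun i _ => AddMonoidHom.ext fun a => ?_
  simp [mul_comm]

theorem heckeParEll_redMod (n : ℕ) (ℓ : Nat.Primes) (φ : LatticeZ D) :
    Torsion.heckeChar D n ℓ (redMod n φ) = redMod n (heckeParEll D ℤ ℤ ℓ φ) := by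
  refine Subtype.ext ?_
  rw [HeckeCohom.coe_heckeParEll_apply, coe_redMod, coe_redMod, HeckeCohom.coe_heckeParEll_apply]
  exact (HeckeCohom.comp_heckeHom (Int.castAddHom (ZMod n)) ℓ _).symm

theorem heckeParEll_redTwo (ℓ : Nat.Primes) (φ : LatticeZ D) :
    heckeParEll D (ZMod 2) (ZMod 2) ℓ (redTwo φ) = redTwo (heckeParEll D ℤ ℤ ℓ φ) := by
  refine Subtype.ext ?_
  rw [HeckeCohom.coe_heckeParEll_apply, coe_redTwo, coe_redTwo, HeckeCohom.coe_heckeParEll_apply]
  exact (HeckeCohom.comp_heckeHom (Int.castAddHom (ZMod 2)) ℓ _).symm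

theorem pull_redMod (n : ℕ) (hX : IsAL D d X) (hd : d ∣ D) (hd0 : d ≠ 0) (φ : LatticeZ D) :
    hX.pull hd hd0 (ZMod n) (redMod n φ) = redMod n (hX.pull hd hd0 ℤ φ) := rfl

theorem pullLin_redTwo (hX : IsAL D d X) (hd : d ∣ D) (hd0 : d ≠ 0) (φ : LatticeZ D) :
    pullLin hX hd hd0 (ZMod 2) (ZMod 2) (redTwo φ) = redTwo (hX.pull hd hd0 ℤ φ) := rfl

theorem redTwo_surjective : Function.Surjective (redTwo (D := D)) := by
  intro φ
  obtain ⟨ψ, hψ⟩ := redMod_surjective 2 (⟨_, φ.2⟩ : Torsion.CharMod D 2)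
  exact ⟨ψ, Subtype.ext (congrArg Subtype.val hψ :)⟩

end Fermat.Agent.Residual

end
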