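/-
Projection of a finite module onto the simultaneous generalised eigenspace of a commuting family.
-/
import Mathlib.LinearAlgebra.Eigenspace.Basic
import Mathlib.Data.Fintype.Pigeonhole
import Mathlib.Algebra.BigOperators.Group.List.Basic

set_option autoImplicit false

noncomputable section

namespace Fermat.Agent.Residual.Idem

/-- Some positive power of an element of a finite monoid is idempotent. -/
theorem exists_pow_idem {M : Type*} [Monoid M] [Finite M] (x : M) :
    ∃ E : ℕ, 0 < E ∧ x ^ E * x ^ E = x ^ E := by
  obtain ⟨i, j, hne, h⟩ := Finite.exists_ne_map_eq_of_infinite fun n : ℕ => x ^ n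
  wlog hij : i < j generalizing i j
  · exact this j i hne.symm h.symm (lt_of_le_of_ne (not_lt.mp hij) hne.symm)
  obtain ⟨p, hp, rfl⟩ : ∃ p, 0 < p ∧ j = i + p := ⟨j - i, by omega, by omega⟩
  have step : ∀ (k m : ℕ), i ≤ m → x ^ (m + k * p) = x ^ m := by
    intro k m hm
    induction k with
    | zero => simp
    | succ k ih =>
      rw [show m + (k + 1) * p = (i + p) + (m - i + k * p) by rw [add_mul, one_mul]; omega,
        pow_add, ← h, ← pow_add, show i + (m - i + k * p) = m + k * p by omega, ih]
  refine ⟨p * (i + 1), Nat.mul_pos hp (Nat.succ_pos i), ?_⟩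
  rw [← pow_add]
  have := step (i + 1) (p * (i + 1))
    (le_trans (Nat.le_succ i) (Nat.le_mul_of_pos_left (i + 1) hp))
  rwa [mul_comm (i + 1) p] at this

variable {R A : Type*} [CommRing R] [AddCommGroup A] [Module R A]

/-- The product of a list of commuting idempotents. -/
theorem prod_apply_eq_self_iff (l : List (Module.End R A))
    (hc : ∀ f ∈ l, ∀ g ∈ l, Commute f g) (hi : ∀ f ∈ l, f * f = f) :
    (l.prod * l.prod = l.prod) ∧ ∀ x : A, l.prod x = x ↔ ∀ f ∈ l, f x = x := by
  induction l with
  | nil => exact ⟨by simp, fun x => by simp⟩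
  | cons f l ih =>
    obtain ⟨hidem, hiff⟩ := ih (fun a ha b hb => hc a (List.mem_cons_of_mem _ ha) b
      (List.mem_cons_of_mem _ hb)) fun a ha => hi a (List.mem_cons_of_mem _ ha)
    have hf : f * f = f := hi f (List.mem_cons_self ..)
    have hfl : Commute f l.prod := Commute.list_prod_right _ _ fun g hg =>
      hc f (List.mem_cons_self ..) g (List.mem_cons_of_mem _ hg)
    rw [List.prod_cons]
    refine ⟨?_, fun x => ⟨fun h => ?_, fun h => ?_⟩⟩
    · calc f * l.prod * (f * l.prod) = f * (l.prod * f) * l.prod := by simp only [mul_assoc]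
        _ = f * (f * l.prod) * l.prod := by rw [hfl.eq]
        _ = f * f * (l.prod * l.prod) := by simp only [mul_assoc]
        _ = f * l.prod := by rw [hf, hidem]
    · rw [Module.End.mul_apply] at h
      have hfx : f x = x := by
        conv_lhs => rw [← h, ← Module.End.mul_apply, hf]
        exact h
      have hlx : l.prod x = x := by
        calc l.prod x = (l.prod * (f * l.prod)) x := by
              rw [Module.End.mul_apply, Module.End.mul_apply, h]
          _ = (f * (l.prod * l.prod)) x := by rw [← mul_assoc, ← hfl.eq, mul_assoc]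
          _ = x := by rw [hidem, Module.End.mul_apply, h]
      exact List.forall_mem_cons.mpr ⟨hfx, (hiff x).mp hlx⟩
    · rw [List.forall_mem_cons] at h
      rw [Module.End.mul_apply, (hiff x).mpr h.2, h.1]

variable [Finite A] {ι : Type*} (T : ι → Module.End R A) (a : ι → R)

instance finite_end : Finite (Module.End R A) := Finite.of_injective _ DFunLike.coe_injective

/-- An idempotent power of `T i - a i`. -/
def expIdem (i : ι) : ℕ := (exists_pow_idem (T i - a i • 1 : Module.End R A)).choose

theorem expIdem_pos (i : ι) : 0 < expIdem T a i :=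
  (exists_pow_idem (T i - a i • 1 : Module.End R A)).choose_spec.1

/-- The idempotent `1 - (T i - a i) ^ E`. -/
def factor (i : ι) : Module.End R A := 1 - (T i - a i • 1) ^ expIdem T a i

theorem pow_expIdem_idem (i : ι) :
    (T i - a i • 1 : Module.End R A) ^ expIdem T a i * (T i - a i • 1) ^ expIdem T a i
      = (T i - a i • 1) ^ expIdem T a i :=
  (exists_pow_idem (T i - a i • 1 : Module.End R A)).choose_spec.2

theorem factor_idem (i : ι) : factor T a i * factor T a i = factor T a i := by
  rw [factor, sub_mul, mul_sub, mul_sub, pow_expIdem_idem, one_mul, one_mul, mul_one, sub_self,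
    sub_zero]

theorem factor_apply_eq_self_iff (i : ι) (x : A) :
    factor T a i x = x ↔ x ∈ Module.End.maxGenEigenspace (T i) (a i) := by
  rw [factor, LinearMap.sub_apply, Module.End.one_apply, sub_eq_self,
    Module.End.mem_maxGenEigenspace]
  refine ⟨fun h => ⟨_, h⟩, fun ⟨k, hk⟩ => ?_⟩
  set N := (T i - a i • 1 : Module.End R A) ^ expIdem T a i with hN
  have hNk : ∀ j : ℕ, N ^ (j + 1) = N := by
    intro j
    induction j with
    | zero => rw [pow_one]
    | succ j ih => rw [pow_succ, ih]; exact pow_expIdem_idem T a i
  rw [← hNk k, hN, ← pow_mul,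
    show expIdem T a i * (k + 1) = (expIdem T a i * (k + 1) - k) + k from
      (Nat.sub_add_cancel (le_trans (Nat.le_succ k)
        (Nat.le_mul_of_pos_left _ (expIdem_pos T a i)))).symm,
    pow_add, Module.End.mul_apply, hk, map_zero]

/-- The product of the idempotents over a finite set of indices. -/
def proj (F : Finset ι) : Module.End R A := (F.toList.map (factor T a)).prod

variable {T a}

theorem commute_factor (S : Module.End R A) {i : ι} (h : Commute S (T i)) :
    Commute S (factor T a i) :=
  (Commute.one_right S).sub_right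
    ((h.sub_right ((Commute.one_right S).smul_right (a i))).pow_right _)

theorem commute_proj (S : Module.End R A) (F : Finset ι) (h : ∀ i ∈ F, Commute S (T i)) :
    Commute S (proj T a F) :=
  Commute.list_prod_right _ _ fun g hg => by
    obtain ⟨i, hi, rfl⟩ := List.mem_map.mp hg
    exact commute_factor S (h i (Finset.mem_toList.mp hi))

theorem proj_spec (hT : ∀ i j, Commute (T i) (T j)) (F : Finset ι) :
    (proj T a F * proj T a F = proj T a F) ∧
      ∀ x, proj T a F x = x ↔ ∀ i ∈ F, x ∈ Module.End.maxGenEigenspace (T i) (a i) := by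
  obtain ⟨h1, h2⟩ := prod_apply_eq_self_iff (F.toList.map (factor T a))
    (fun f hf g hg => by
      obtain ⟨i, -, rfl⟩ := List.mem_map.mp hf
      obtain ⟨j, -, rfl⟩ := List.mem_map.mp hg
      exact commute_factor _ (commute_factor _ (hT j i)).symm)
    fun f hf => by
      obtain ⟨i, -, rfl⟩ := List.mem_map.mp hf
      exact factor_idem T a i
  refine ⟨h1, fun x => (h2 x).trans ?_⟩
  simp [factor_apply_eq_self_iff]

/-- Finitely many indices cut out the whole simultaneous generalised eigenspace. -/
theorem exists_finset_cut (T : ι → Module.End R A) (a : ι → R) :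
    ∃ F : Finset ι, ∀ x : A, (∀ i ∈ F, x ∈ Module.End.maxGenEigenspace (T i) (a i)) →
      ∀ i, x ∈ Module.End.maxGenEigenspace (T i) (a i) := by
  classical
  haveI := Fintype.ofFinite A
  let bad : Finset A :=
    Finset.univ.filter fun x => ¬ ∀ i, x ∈ Module.End.maxGenEigenspace (T i) (a i)
  have hw : ∀ x ∈ bad, ∃ i, x ∉ Module.End.maxGenEigenspace (T i) (a i) := fun x hx => by
    simpa [bad] using hx
  choose w hw using hw
  refine ⟨bad.attach.image fun x => w x.1 x.2, fun x hx => ?_⟩
  by_contra hbad
  have hmem : x ∈ bad := by simpa [bad] using hbad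
  exact hw x hmem (hx _ (Finset.mem_image.mpr ⟨⟨x, hmem⟩, Finset.mem_attach _ _, rfl⟩))

/-- A projection onto the simultaneous generalised eigenspace, commuting with every operator that
commutes with the family. -/
theorem exists_projection (hT : ∀ i j, Commute (T i) (T j)) :
    ∃ π : Module.End R A,
      (∀ x, π x = x ↔ ∀ i, x ∈ Module.End.maxGenEigenspace (T i) (a i)) ∧
      (∀ x i, π x ∈ Module.End.maxGenEigenspace (T i) (a i)) ∧
      ∀ S : Module.End R A, (∀ i, Commute S (T i)) → Commute S π := by
  obtain ⟨F, hF⟩ := exists_finset_cut T a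
  obtain ⟨hidem, hiff⟩ := proj_spec (a := a) hT F
  refine ⟨proj T a F, fun x => ⟨fun h => hF x ((hiff x).mp h), fun h => (hiff x).mpr fun i _ => h i⟩,
    fun x => hF _ ((hiff _).mp ?_), fun S hS => commute_proj S F fun i _ => hS i⟩
  rw [← Module.End.mul_apply, hidem]

end Fermat.Agent.Residual.Idem

end
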