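/-
An integral operator: the complex eigenvalues which are congruent to `1` modulo a prime over `2`
are counted by the generalised eigenspace of `1` modulo `2`, also on saturated stable sublattices.
-/
import Mathlib.Analysis.Complex.Polynomial.Basic
import Mathlib.LinearAlgebra.Eigenspace.Zero
import Mathlib.LinearAlgebra.Eigenspace.Charpoly
import Mathlib.LinearAlgebra.FreeModule.PID
import Mathlib.LinearAlgebra.Dimension.OrzechProperty
import Mathlib.LinearAlgebra.Charpoly.ToMatrix
import Mathlib.RingTheory.Ideal.Quotient.Operations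
import Mathlib.RingTheory.IntegralClosure.IntegrallyClosed
import Mathlib.Algebra.Field.ZMod

set_option autoImplicit false

noncomputable section

open Polynomial Module

namespace Fermat.Agent.Residual

/-- Every eigenvalue of `T` is congruent to `c` modulo `𝔪`. -/
def EigenCongr (𝔪 : Ideal (integralClosure ℤ ℂ)) (c : integralClosure ℤ ℂ) {U : Type*}
    [AddCommGroup U] [Module ℂ U] (T : Module.End ℂ U) : Prop :=
  ∀ r : ℂ, T.HasEigenvalue r → ∃ z : integralClosure ℤ ℂ, (z : ℂ) = r ∧ z - c ∈ 𝔪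

/-- The characteristic polynomial is integral and congruent to `(X - c) ^ dim`. -/
theorem exists_charpoly_lift (𝔪 : Ideal (integralClosure ℤ ℂ)) (c : integralClosure ℤ ℂ)
    {U : Type*} [AddCommGroup U] [Module ℂ U] [FiniteDimensional ℂ U] (T : Module.End ℂ U)
    (hT : EigenCongr 𝔪 c T) :
    ∃ p : (integralClosure ℤ ℂ)[X], p.map (algebraMap (integralClosure ℤ ℂ) ℂ) = T.charpoly ∧
      p.map (Ideal.Quotient.mk 𝔪) = (X - C (Ideal.Quotient.mk 𝔪 c)) ^ finrank ℂ U := by
  have hsplit : T.charpoly = (T.charpoly.roots.map fun r => X - C r).prod :=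
    (IsAlgClosed.splits T.charpoly).eq_prod_roots_of_monic (LinearMap.charpoly_monic T)
  have hcard : T.charpoly.roots.card = finrank ℂ U := by
    rw [← (IsAlgClosed.splits T.charpoly).natDegree_eq_card_roots, LinearMap.charpoly_natDegree]
  have hroots : ∀ r ∈ T.charpoly.roots, ∃ z : integralClosure ℤ ℂ, (z : ℂ) = r ∧ z - c ∈ 𝔪 :=
    fun r hr => hT r ((T.hasEigenvalue_iff_isRoot_charpoly r).mpr
      ((mem_roots (LinearMap.charpoly_monic T).ne_zero).mp hr))
  rw [hsplit, ← hcard]
  clear hsplit hcard hT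
  generalize T.charpoly.roots = s at hroots ⊢
  induction s using Multiset.induction_on with
  | empty => exact ⟨1, by simp, by simp⟩
  | cons r s ih =>
    obtain ⟨p, hp1, hp2⟩ := ih fun x hx => hroots x (Multiset.mem_cons_of_mem hx)
    obtain ⟨z, hz, hzc⟩ := hroots r (Multiset.mem_cons_self r s)
    refine ⟨(X - C z) * p, ?_, ?_⟩
    · rw [Polynomial.map_mul, hp1, Multiset.map_cons, Multiset.prod_cons, Polynomial.map_sub,
        map_X, map_C]
      congr 3
    · rw [Polynomial.map_mul, hp2, Multiset.card_cons, pow_succ', Polynomial.map_sub, map_X, map_C,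
        Ideal.Quotient.eq.mpr hzc]

variable {n : Type*} [Fintype n] [DecidableEq n]
variable {L : Type*} [AddCommGroup L] {V : Type*} [AddCommGroup V] [Module ℂ V]
  {W : Type*} [AddCommGroup W] [Module (ZMod 2) W]

/-- The span of the image of a sublattice. -/
def spanC (ι : L →+ V) (K : Submodule ℤ L) : Submodule ℂ V := Submodule.span ℂ (ι '' K)

/-- The span of the reduction of a sublattice. -/
def spanTwo (red : L →+ W) (K : Submodule ℤ L) : Submodule (ZMod 2) W :=
  Submodule.span (ZMod 2) (red '' K)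

variable (ι : L →+ V) (b : Basis n ℤ L) (bV : Basis n ℂ V) (hb : ∀ i, bV i = ι (b i))

include hb in
/-- A basis of a sublattice spans freely over `ℂ`. -/
theorem exists_basis_sublattice (K : Submodule ℤ L) :
    ∃ (k : ℕ) (bK : Basis (Fin k) ℤ K) (vK : Basis (Fin k) ℂ (spanC ι K)),
      ∀ i, (vK i : V) = ι (bK i : L) := by
  classical
  obtain ⟨k, S⟩ := K.smithNormalForm b
  haveI : FiniteDimensional ℂ V := Module.Finite.of_basis bV
  have hspan : ⊤ ≤ Submodule.span ℂ (Set.range fun i => ι (S.bM i)) := by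
    rw [← bV.span_eq, Submodule.span_le]
    rintro _ ⟨i, rfl⟩
    rw [hb, ← S.bM.sum_repr (b i), map_sum]
    refine Submodule.sum_mem _ fun j _ => ?_
    rw [map_zsmul, ← Int.cast_smul_eq_zsmul ℂ]
    exact Submodule.smul_mem _ _ (Submodule.subset_span ⟨j, rfl⟩)
  have hind : LinearIndependent ℂ fun i => ι (S.bM i) :=
    linearIndependent_of_top_le_span_of_card_eq_finrank hspan (Module.finrank_eq_card_basis bV).symm
  have hne : ∀ i, (S.a i : ℂ) ≠ 0 := fun i h => by
    have h0 : (S.bN i : L) = 0 := by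
      rw [S.snf, Int.cast_eq_zero.mp h, zero_smul]
    exact S.bN.ne_zero i (Subtype.ext h0)
  have hval : ∀ i, ι (S.bN i : L) = (S.a i : ℂ) • ι (S.bM (S.f i)) := fun i => by
    rw [S.snf, map_zsmul, Int.cast_smul_eq_zsmul]
  have hindK : LinearIndependent ℂ fun i => ι (S.bN i : L) := by
    simp only [hval]
    exact (hind.comp _ S.f.injective).units_smul fun i => Units.mk0 _ (hne i)
  have hrange : Submodule.span ℂ (Set.range fun i => ι (S.bN i : L)) = spanC ι K := by
    refine le_antisymm (Submodule.span_le.mpr ?_) (Submodule.span_le.mpr ?_)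
    · rintro _ ⟨i, rfl⟩
      exact Submodule.subset_span ⟨_, (S.bN i).2, rfl⟩
    · rintro _ ⟨x, hx, rfl⟩
      have hx' : x = ∑ i, S.bN.repr ⟨x, hx⟩ i • (S.bN i : L) := by
        have h := congrArg (Submodule.subtype K) (S.bN.sum_repr ⟨x, hx⟩).symm
        rw [map_sum] at h
        simpa only [map_smul, Submodule.subtype_apply] using h
      rw [hx', map_sum]
      refine Submodule.sum_mem _ fun j _ => ?_
      rw [map_zsmul, ← Int.cast_smul_eq_zsmul ℂ]
      exact Submodule.smul_mem _ _ (Submodule.subset_span ⟨j, rfl⟩)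
  refine ⟨k, S.bN, (Basis.span hindK).map (LinearEquiv.ofEq _ _ hrange), fun i => ?_⟩
  simp [Basis.span_apply]

omit [Fintype n] [DecidableEq n] in
theorem spanTwo_basis (red : L →+ W) (hred : ∀ x, red x = 0 ↔ ∃ y, x = (2 : ℤ) • y)
    (K : Submodule ℤ L) (hK : ∀ x, (2 : ℤ) • x ∈ K → x ∈ K) {k : ℕ} (bK : Basis (Fin k) ℤ K) :
    ∃ wK : Basis (Fin k) (ZMod 2) (spanTwo red K), ∀ i, (wK i : W) = red (bK i : L) := by
  have hcast : ∀ (c : ℤ) (w : W), (c : ZMod 2) • w = c • w := fun c w => Int.cast_smul_eq_zsmul _ c w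
  have hind : LinearIndependent (ZMod 2) fun i => red (bK i : L) := by
    rw [Fintype.linearIndependent_iff]
    intro g hg i
    have hg' : red ((∑ j, ((g j).val : ℤ) • bK j : K) : L) = 0 := by
      rw [← hg, Submodule.coe_sum, map_sum]
      refine Finset.sum_congr rfl fun j _ => ?_
      rw [Submodule.coe_smul, map_zsmul, ← hcast, Int.cast_natCast, ZMod.natCast_zmod_val]
    obtain ⟨y, hy⟩ := (hred _).mp hg'
    have hyK : y ∈ K := hK y (hy ▸ Submodule.coe_mem _)
    have h := congrArg (fun z : K => bK.repr z i)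
      (Subtype.ext hy : (∑ j, ((g j).val : ℤ) • bK j : K) = (2 : ℤ) • ⟨y, hyK⟩)
    simp only [Basis.repr_sum_self, map_zsmul, Finsupp.smul_apply, smul_eq_mul] at h
    have h2 := congrArg (Int.cast : ℤ → ZMod 2) h
    rw [Int.cast_natCast, ZMod.natCast_zmod_val] at h2
    rw [h2, Int.cast_mul, show ((2 : ℤ) : ZMod 2) = 0 from rfl, zero_mul]
  have hrange : Submodule.span (ZMod 2) (Set.range fun i => red (bK i : L)) = spanTwo red K := by
    refine le_antisymm (Submodule.span_le.mpr ?_) (Submodule.span_le.mpr ?_)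
    · rintro _ ⟨i, rfl⟩
      exact Submodule.subset_span ⟨_, (bK i).2, rfl⟩
    · rintro _ ⟨x, hx, rfl⟩
      have hx' : x = ∑ i, bK.repr ⟨x, hx⟩ i • (bK i : L) := by
        have h := congrArg (Submodule.subtype K) (bK.sum_repr ⟨x, hx⟩).symm
        rw [map_sum] at h
        simpa only [map_smul, Submodule.subtype_apply] using h
      rw [hx', map_sum]
      refine Submodule.sum_mem _ fun j _ => ?_
      rw [map_zsmul, ← hcast]
      exact Submodule.smul_mem _ _ (Submodule.subset_span ⟨j, rfl⟩)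
  exact ⟨(Basis.span hind).map (LinearEquiv.ofEq _ _ hrange), fun i => by simp [Basis.span_apply]⟩

variable {ι b bV} (red : L →+ W) (hred : ∀ x, red x = 0 ↔ ∃ y, x = (2 : ℤ) • y)
  (P : Module.End ℤ L) (PV : Module.End ℂ V) (PW : Module.End (ZMod 2) W)
  (hPV : ∀ x, PV (ι x) = ι (P x)) (hPW : ∀ x, PW (red x) = red (P x))

include hb hred hPV hPW in
/-- The dimension of the generalised eigenspace of `1` modulo `2` on a saturated stable sublattice
`K` is the dimension of the part of its complex span where `P ≡ 1`. -/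
theorem finrank_spanTwo_inf (𝔪 : Ideal (integralClosure ℤ ℂ)) (h𝔪 : 𝔪.IsMaximal)
    (h2 : (2 : integralClosure ℤ ℂ) ∈ 𝔪)
    (K : Submodule ℤ L) (hK : ∀ x, (2 : ℤ) • x ∈ K → x ∈ K) (hPK : ∀ x ∈ K, P x ∈ K)
    (V1 V0 : Submodule ℂ V) (hsup : V1 ⊔ V0 = spanC ι K) (hdisj : Disjoint V1 V0)
    (hV1 : ∀ v ∈ V1, PV v ∈ V1) (hV0 : ∀ v ∈ V0, PV v ∈ V0)
    (he1 : EigenCongr 𝔪 1 (PV.restrict hV1)) (he0 : EigenCongr 𝔪 0 (PV.restrict hV0)) :
    finrank (ZMod 2) ↥(spanTwo red K ⊓ PW.maxGenEigenspace 1) = finrank ℂ V1 := by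
  classical
  haveI : FiniteDimensional ℂ V := Module.Finite.of_basis bV
  haveI : Fact (Nat.Prime 2) := ⟨Nat.prime_two⟩
  obtain ⟨k, bK, vK, hvK⟩ := exists_basis_sublattice ι b bV hb K
  obtain ⟨wK, hwK⟩ := spanTwo_basis red hred K hK bK
  set A : Matrix (Fin k) (Fin k) ℤ := LinearMap.toMatrix bK bK (P.restrict hPK) with hA
  have hPbK : ∀ j, P (bK j : L) = ∑ i, A i j • (bK i : L) := fun j => by
    have h := congrArg (Submodule.subtype K) (bK.sum_repr (P.restrict hPK (bK j))).symm
    rw [map_sum] at h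
    simpa [hA, LinearMap.toMatrix_apply] using h
  have hPVj : ∀ j, PV (ι (bK j : L)) = ∑ i, (A i j : ℂ) • ι (bK i : L) := fun j => by
    rw [hPV, hPbK, map_sum]
    exact Finset.sum_congr rfl fun i _ => by rw [map_zsmul, Int.cast_smul_eq_zsmul]
  have hSC : ∀ v ∈ spanC ι K, PV v ∈ spanC ι K := by
    intro v hv
    refine Submodule.span_induction ?_ ?_ ?_ ?_ hv
    · rintro _ ⟨x, hx, rfl⟩
      rw [hPV]; exact Submodule.subset_span ⟨_, hPK x hx, rfl⟩
    · simp
    · intro x y _ _ hx hy; rw [map_add]; exact add_mem hx hy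
    · intro c x _ hx; rw [map_smul]; exact Submodule.smul_mem _ c hx
  have hSW : ∀ v ∈ spanTwo red K, PW v ∈ spanTwo red K := by
    intro v hv
    refine Submodule.span_induction ?_ ?_ ?_ ?_ hv
    · rintro _ ⟨x, hx, rfl⟩
      rw [hPW]; exact Submodule.subset_span ⟨_, hPK x hx, rfl⟩
    · simp
    · intro x y _ _ hx hy; rw [map_add]; exact add_mem hx hy
    · intro c x _ hx; rw [map_smul]; exact Submodule.smul_mem _ c hx
  have hmatC : LinearMap.toMatrix vK vK (PV.restrict hSC) = A.map (Int.castRingHom ℂ) := by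
    ext i j
    have h : PV.restrict hSC (vK j) = ∑ i, (A i j : ℂ) • vK i := by
      refine Subtype.ext ?_
      simp [hvK, hPVj]
    rw [LinearMap.toMatrix_apply, h, Basis.repr_sum_self]
    simp
  have hmatW : LinearMap.toMatrix wK wK (PW.restrict hSW) = A.map (Int.castRingHom (ZMod 2)) := by
    ext i j
    have h : PW.restrict hSW (wK j) = ∑ i, (A i j : ZMod 2) • wK i := by
      refine Subtype.ext ?_
      simp [hwK, hPW, hPbK, map_sum, map_zsmul, Int.cast_smul_eq_zsmul]
    rw [LinearMap.toMatrix_apply, h, Basis.repr_sum_self]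
    simp
  -- the complex characteristic polynomial factors
  have hle1 : V1 ≤ spanC ι K := hsup ▸ le_sup_left
  have hle0 : V0 ≤ spanC ι K := hsup ▸ le_sup_right
  let i1 := Submodule.inclusion hle1
  let i0 := Submodule.inclusion hle0
  have hbij : Function.Bijective (i1.coprod i0) := by
    constructor
    · rw [injective_iff_map_eq_zero]
      rintro ⟨x, y⟩ hxy
      have h : (x : V) + y = 0 := congrArg Subtype.val hxy
      have hx : (x : V) ∈ V0 := by
        rw [eq_neg_of_add_eq_zero_left h]; exact neg_mem y.2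
      have hx0 : (x : V) = 0 := Submodule.disjoint_def.mp hdisj _ x.2 hx
      have hy0 : (y : V) = 0 := by rwa [hx0, zero_add] at h
      exact Prod.ext (Subtype.ext hx0) (Subtype.ext hy0)
    · rintro ⟨v, hv⟩
      rw [← hsup] at hv
      obtain ⟨x, hx, y, hy, rfl⟩ := Submodule.mem_sup.mp hv
      exact ⟨(⟨x, hx⟩, ⟨y, hy⟩), rfl⟩
  let e := LinearEquiv.ofBijective (i1.coprod i0) hbij
  have hconj : e.conj ((PV.restrict hV1).prodMap (PV.restrict hV0)) = PV.restrict hSC := by
    refine LinearMap.ext fun v => ?_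
    obtain ⟨⟨x, y⟩, rfl⟩ := e.surjective v
    rw [LinearEquiv.conj_apply_apply, LinearEquiv.symm_apply_apply]
    refine Subtype.ext ?_
    simp [e, i1, i0, LinearMap.coprod_apply]
  obtain ⟨p1, hp1, hp1'⟩ := exists_charpoly_lift 𝔪 1 _ he1
  obtain ⟨p0, hp0, hp0'⟩ := exists_charpoly_lift 𝔪 0 _ he0
  have hcharC : (A.charpoly).map (algebraMap ℤ (integralClosure ℤ ℂ)) = p1 * p0 := by
    refine Polynomial.map_injective (algebraMap (integralClosure ℤ ℂ) ℂ)
      (FaithfulSMul.algebraMap_injective _ _) ?_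
    rw [Polynomial.map_map, Polynomial.map_mul, hp1, hp0, ← LinearMap.charpoly_prodMap,
      ← e.charpoly_conj, hconj, ← LinearMap.charpoly_toMatrix (PV.restrict hSC) vK, hmatC,
      Matrix.charpoly_map]
    congr 1
  -- reduce modulo `𝔪`
  haveI := h𝔪
  letI := Ideal.Quotient.field 𝔪
  have h2' : (2 : integralClosure ℤ ℂ ⧸ 𝔪) = 0 := by
    rw [← map_ofNat (Ideal.Quotient.mk 𝔪) 2]; exact Ideal.Quotient.eq_zero_iff_mem.mpr h2
  haveI : CharP (integralClosure ℤ ℂ ⧸ 𝔪) 2 := CharTwo.of_one_ne_zero_of_two_eq_zero one_ne_zero h2'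
  let φ : ZMod 2 →+* integralClosure ℤ ℂ ⧸ 𝔪 := ZMod.castHom (dvd_refl 2) _
  have hW : (A.map (Int.castRingHom (ZMod 2))).charpoly
      = (X - C 1) ^ finrank ℂ V1 * X ^ finrank ℂ V0 := by
    refine Polynomial.map_injective φ φ.injective ?_
    rw [Matrix.charpoly_map, Polynomial.map_map,
      show φ.comp (Int.castRingHom (ZMod 2))
        = (Ideal.Quotient.mk 𝔪).comp (algebraMap ℤ (integralClosure ℤ ℂ)) from RingHom.ext_int _ _,
      ← Polynomial.map_map, hcharC, Polynomial.map_mul, hp1', hp0']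
    simp
  have hfin : finrank (ZMod 2) ↥(spanTwo red K ⊓ PW.maxGenEigenspace 1)
      = finrank (ZMod 2) (Module.End.maxGenEigenspace (PW.restrict hSW) 1) := by
    have h : (Module.End.maxGenEigenspace (PW.restrict hSW) 1).map (spanTwo red K).subtype
        = spanTwo red K ⊓ PW.maxGenEigenspace 1 := by
      rw [Module.End.maxGenEigenspace, Module.End.genEigenspace_restrict, Submodule.map_comap_subtype]
    rw [← h]
    exact (Submodule.equivMapOfInjective _ (spanTwo red K).subtype_injective _).finrank_eq.symm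
  haveI : FiniteDimensional (ZMod 2) (spanTwo red K) := Module.Finite.of_basis wK
  rw [hfin, LinearMap.finrank_maxGenEigenspace_eq, ← LinearMap.charpoly_toMatrix _ wK, hmatW, hW]
  have hne : ((X - C (1 : ZMod 2)) ^ finrank ℂ V1 * X ^ finrank ℂ V0) ≠ 0 :=
    mul_ne_zero (pow_ne_zero _ (X_sub_C_ne_zero 1)) (pow_ne_zero _ X_ne_zero)
  rw [rootMultiplicity_mul hne, rootMultiplicity_X_sub_C_pow,
    rootMultiplicity_eq_zero (by simp), add_zero]

end Fermat.Agent.Residual

end
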