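/-
The common eigenspace of the good Hecke operators attached to a newform, at a squarefree level:
its dimension and the action of the Atkin–Lehner involutions.
-/
import Fermat.Agent.Residual.CountSieve
import Fermat.Agent.Residual.CountAL
import Fermat.Agent.Newform.Descent
import Mathlib.LinearAlgebra.Eigenspace.Triangularizable
import Mathlib.NumberTheory.Divisors

set_option autoImplicit false

noncomputable section

open CongruenceSubgroup ModularFormClass
open Fermat.Agent.Eigen (qCoeff_sub qCoeff_smul qCoeff_add qCoeff_form_zero qCoeff_heckeULin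
  qCoeff_index_zero ext_qCoeff eq_zero_of_forall_qCoeff_eq_zero finiteDimensional_cuspForm
  qCoeffLin qCoeffLin_apply)
open Fermat.Agent.Newform (levelInclusion qCoeff_levelInclusion coe_levelInclusion
  eq_zero_of_supported_dvd)
open scoped ModularForm

namespace Fermat.Agent.Residual

open CMFix (IMat IsAL)

variable {D M R : ℕ} [NeZero D]

theorem finiteDimensional_level (D : ℕ) [NeZero D] :
    FiniteDimensional ℂ (CuspForm (Gamma0 D) 2) := finiteDimensional_cuspForm D 2

theorem coprime_div_of_squarefree (hD : Squarefree D) {d : ℕ} (hd : d ∣ D) :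
    Nat.Coprime d (D / d) :=
  Nat.coprime_of_squarefree_mul ((Nat.mul_div_cancel' hd).symm ▸ hD)

theorem exists_split_prime (hD : Squarefree D) {q : ℕ} (hq : q.Prime) (hqD : q ∣ D) :
    ∃ D' : ℕ, D = q * D' ∧ ¬ q ∣ D' := by
  obtain ⟨D', hD'⟩ := hqD
  exact ⟨D', hD', fun h => hq.ne_one
    (Nat.isUnit_iff.mp (hD q (by rw [hD']; exact mul_dvd_mul_left q h)))⟩

theorem not_sq_dvd_of_squarefree (hD : Squarefree D) (hMD : M ∣ D) {q : ℕ} (hq : q.Prime) :
    ¬ q ^ 2 ∣ M := fun h =>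
  hq.ne_one (Nat.isUnit_iff.mp (hD q (by rw [← sq]; exact h.trans hMD)))

theorem sysSpace_congr {N : ℕ} [NeZero N] (hND : N ∣ R) {χ χ' : ℕ → ℂ}
    (h : ∀ ℓ : ℕ, ℓ.Prime → ¬ ℓ ∣ R → χ ℓ = χ' ℓ) : sysSpace N R hND χ = sysSpace N R hND χ' := by
  ext f
  simp only [mem_sysSpace_iff]
  refine forall_congr' fun ℓ => forall_congr' fun hℓ => forall_congr' fun hℓR => ?_
  rw [h ℓ hℓ hℓR]

/-- A newform's level divides the level of any eigenform with the same system. -/
theorem level_dvd_of_agree [NeZero R] (hR : Squarefree R) {M' : ℕ}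
    {g : CuspForm (Gamma0 M) 2} (hg : g.IsNewform) (hMR : M ∣ R)
    {g' : CuspForm (Gamma0 M') 2} (hg' : g'.IsNormalizedEigenform) (hM'R : M' ∣ R)
    (S : Finset ℕ) (heq : ∀ ℓ : ℕ, ℓ.Prime → ℓ ∉ S → ¬ ℓ ∣ R → qCoeff g' ℓ = qCoeff g ℓ) :
    M ∣ M' := by
  classical
  haveI : NeZero M := ⟨fun h => NeZero.ne R (zero_dvd_iff.mp (h ▸ hMR))⟩
  haveI : NeZero M' := ⟨fun h => NeZero.ne R (zero_dvd_iff.mp (h ▸ hM'R))⟩
  have hMsq : Squarefree M := hR.squarefree_of_dvd hMR
  suffices h : ∀ q : ℕ, q.Prime → q ∣ M → q ∣ M' by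
    rw [← Nat.prod_primeFactors_of_squarefree hMsq]
    exact Finset.prod_primes_dvd _ (fun q hq => (Nat.mem_primeFactors.mp hq).1.prime)
      fun q hq => h q (Nat.mem_primeFactors.mp hq).1 (Nat.mem_primeFactors.mp hq).2.1
  intro q hq hqM
  by_contra hqM'
  obtain ⟨L, hL⟩ : ∃ L, L = Nat.lcm M M' := ⟨_, rfl⟩
  have hML : M ∣ L := hL ▸ Nat.dvd_lcm_left M M'
  have hM'L : M' ∣ L := hL ▸ Nat.dvd_lcm_right M M'
  have hLR : L ∣ R := hL ▸ Nat.lcm_dvd hMR hM'R
  haveI : NeZero L := ⟨fun h => NeZero.ne R (zero_dvd_iff.mp (h ▸ hLR))⟩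
  obtain ⟨L', hLq, hqL'⟩ := exists_split_prime (hR.squarefree_of_dvd hLR) hq (hqM.trans hML)
  have hagree : ∀ ℓ : ℕ, ℓ.Prime → ¬ ℓ ∣ L → qCoeff g' ℓ = qCoeff g ℓ := fun ℓ hℓ hℓL =>
    Fermat.Agent.Newform.qCoeff_eq_of_agree_cofinite hg.1 hg' (S ∪ R.primeFactors)
      (fun r hr hrS _ _ => by
        rw [Finset.mem_union, not_or] at hrS
        exact heq r hr hrS.1 fun h => hrS.2 (Nat.mem_primeFactors.mpr ⟨hr, h, NeZero.ne R⟩))
      hℓ (fun h => hℓL (h.trans hML)) fun h => hℓL (h.trans hM'L)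
  have hε : qCoeff g q ^ 2 = 1 := Fermat.Agent.Newform.qCoeff_sq_eq_one_of_not_sq_dvd hg hq hqM
    (not_sq_dvd_of_squarefree hR hMR hq)
  have hmem : levelInclusion 2 hM'L g' ∈ sysSpace L L dvd_rfl (qCoeff g) := by
    rw [← sysSpace_congr dvd_rfl hagree]
    exact levelInclusion_mem_sysSpace hM'L hg'
  have key : ∀ n, qCoeff g' (n * q) = qCoeff g q * qCoeff g' n := fun n => by
    simpa [qCoeff_levelInclusion] using
      qCoeff_mul_prime_of_new hq hLq hqL' hML hqM hg.1 hε hmem n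
  have h1 := key 1
  rw [one_mul, hg'.qCoeff_one, mul_one] at h1
  have h2 := key q
  have h3 := Fermat.Agent.Newform.atkin_rel_T hq hqM'
    (Fermat.Agent.Newform.atkin_heckeT_eigen hg' hq hqM') q
  rw [if_pos dvd_rfl, Nat.div_self hq.pos, hg'.qCoeff_one, mul_one, h2, h1] at h3
  have : (q : ℂ) = 0 := by linear_combination h3
  exact hq.ne_zero (by exact_mod_cast this)

/-- A nonzero vector of a common eigenspace gives a newform with the same system. -/
theorem exists_newform_of_mem [NeZero R] {N : ℕ} [NeZero N] (hNR : N ∣ R) {χ : ℕ → ℂ}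
    {f : CuspForm (Gamma0 N) 2} (hf : f ∈ sysSpace N R hNR χ) (hf0 : f ≠ 0) :
    ∃ M : ℕ, M ∣ N ∧ ∃ g : CuspForm (Gamma0 M) 2, g.IsNewform ∧
      ∀ ℓ : ℕ, ℓ.Prime → ¬ ℓ ∣ R → qCoeff g ℓ = χ ℓ := by
  obtain ⟨F, hF, hFχ⟩ := Fermat.Agent.Newform.exists_eigenform_of_eigenvector hf0 χ hNR
    ((mem_sysSpace_iff hNR χ f).mp hf)
  obtain ⟨M, hMN, -, g, hg, hgF⟩ := Fermat.Agent.Newform.exists_newform_of_eigenform hF
  exact ⟨M, hMN, g, hg, fun ℓ hℓ hℓR =>
    (hgF ℓ hℓ fun h => hℓR (h.trans hNR)).trans (hFχ ℓ hℓ hℓR)⟩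

/-- For an eigenform `g`, only the primes outside the level matter. -/
theorem sysSpace_eq [NeZero R] (hDR : D ∣ R) (hMD : M ∣ D) {g : CuspForm (Gamma0 M) 2}
    (hg : g.IsNormalizedEigenform) :
    sysSpace D R hDR (qCoeff g) = sysSpace D D dvd_rfl (qCoeff g) := by
  classical
  haveI : NeZero M := ⟨fun h => NeZero.ne D (zero_dvd_iff.mp (h ▸ hMD))⟩
  haveI := finiteDimensional_level D
  refine le_antisymm (fun f hf => ?_) fun f hf => ?_
  swap
  · rw [mem_sysSpace_iff] at hf ⊢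
    exact fun ℓ hℓ hℓR => hf ℓ hℓ fun h => hℓR (h.trans hDR)
  rw [mem_sysSpace_iff]
  intro ℓ hℓ hℓD
  set S := sysSpace D R hDR (qCoeff g) with hS
  set T : Module.End ℂ (CuspForm (Gamma0 D) 2) := CuspForm.heckeTLin 2 hℓ hℓD with hT
  have hTS : ∀ v ∈ S, T v ∈ S := by
    intro v hv
    rw [hS, mem_sysSpace_iff] at hv ⊢
    intro r hr hrR
    have hc := congrArg (fun U : Module.End ℂ _ => U v)
      (CuspForm.commute_of_mem_heckeGenerators
        (CuspForm.heckeTLin_mem_heckeGenerators (S := ∅) hr (fun h => hrR (h.trans hDR))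
          (Set.notMem_empty r))
        (CuspForm.heckeTLin_mem_heckeGenerators (S := ∅) hℓ hℓD (Set.notMem_empty ℓ))).eq
    simp only [Module.End.mul_apply] at hc
    rw [hT, hc, hv r hr hrR, map_smul]
  have hev : ∀ μ : ℂ, ∀ v ∈ S, T v = μ • v → v ≠ 0 → μ = qCoeff g ℓ := by
    intro μ v hv hTv hv0
    let χ : ℕ → ℂ := fun r => if r = ℓ then μ else qCoeff g r
    have hvχ : ∀ (r : ℕ) (hr : r.Prime) (hrR : ¬ (r ∣ R ∧ r ≠ ℓ) ∧ ¬ r ∣ D),
        CuspForm.heckeTLin 2 hr hrR.2 v = χ r • v := by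
      intro r hr hrR
      by_cases h : r = ℓ
      · subst h; simp [χ]; exact hTv
      · simp only [χ, if_neg h]
        exact (mem_sysSpace_iff hDR _ v).mp (hS ▸ hv) r hr fun h' => hrR.1 ⟨h', h⟩
    -- a common eigenform
    let U : Submodule ℂ (CuspForm (Gamma0 D) 2) := S ⊓ Module.End.eigenspace T μ
    have hvU : v ∈ U := ⟨hv, Module.End.mem_eigenspace_iff.mpr hTv⟩
    obtain ⟨w, hwU, hw0, hw⟩ := Fermat.Agent.Newform.atkin_exists_common_eigenvector
      (CuspForm.heckeGenerators D 2 ∅)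
      (fun x hx y hy => CuspForm.commute_of_mem_heckeGenerators hx hy) U
      (fun x hx z hz => by
        have hcomm : ∀ (r : ℕ) (hr : r.Prime) (hrD : ¬ r ∣ D),
            CuspForm.heckeTLin 2 hr hrD (x z) = x (CuspForm.heckeTLin 2 hr hrD z) := fun r hr hrD => by
          have hc := congrArg (fun U : Module.End ℂ _ => U z)
            (CuspForm.commute_of_mem_heckeGenerators
              (CuspForm.heckeTLin_mem_heckeGenerators (S := ∅) hr hrD (Set.notMem_empty r)) hx).eq
          simpa [Module.End.mul_apply] using hc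
        refine ⟨?_, ?_⟩
        · refine (hS ▸ (mem_sysSpace_iff hDR _ _).mpr fun r hr hrR => ?_ : x z ∈ S)
          rw [hcomm r hr _, (mem_sysSpace_iff hDR _ z).mp (hS ▸ hz.1) r hr hrR, map_smul]
        · exact Module.End.mem_eigenspace_iff.mpr
            ((hcomm ℓ hℓ hℓD).trans (by rw [Module.End.mem_eigenspace_iff.mp hz.2, map_smul])))
      (fun h => hv0 ((Submodule.mem_bot ℂ).mp (h ▸ hvU)))
    obtain ⟨F, hF, hFc⟩ := Fermat.Agent.Newform.exists_eigenform_of_eigenvector (g := w) hw0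
      (fun r => if hr : r.Prime ∧ ¬ r ∣ D then
        (hw _ (CuspForm.heckeTLin_mem_heckeGenerators (S := ∅) hr.1 hr.2 (Set.notMem_empty r))).choose
        else 0) dvd_rfl
      (fun r hr hrD => by
        rw [dif_pos ⟨hr, hrD⟩]
        exact (hw _ (CuspForm.heckeTLin_mem_heckeGenerators (S := ∅) hr hrD
          (Set.notMem_empty r))).choose_spec)
    have hval : ∀ (r : ℕ) (hr : r.Prime) (hrD : ¬ r ∣ D) (c : ℂ),
        CuspForm.heckeTLin 2 hr hrD w = c • w → qCoeff F r = c := by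
      intro r hr hrD c hc
      rw [hFc r hr hrD, dif_pos ⟨hr, hrD⟩]
      have h := (hw _ (CuspForm.heckeTLin_mem_heckeGenerators (S := ∅) hr hrD
        (Set.notMem_empty r))).choose_spec
      exact smul_left_injective ℂ hw0 (h.symm.trans hc)
    rw [← hval ℓ hℓ hℓD μ (Module.End.mem_eigenspace_iff.mp hwU.2)]
    refine Fermat.Agent.Newform.qCoeff_eq_of_agree_cofinite hg hF R.primeFactors ?_ hℓ
      (fun h => hℓD (h.trans hMD)) hℓD
    intro r hr hrR _ hrD
    exact hval r hr hrD _ ((mem_sysSpace_iff hDR _ w).mp (hS ▸ hwU.1) r hr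
      fun h => hrR (Nat.mem_primeFactors.mpr ⟨hr, h, NeZero.ne R⟩))
  set c := qCoeff g ℓ with hc
  set T' : Module.End ℂ S := T.restrict hTS with hT'
  have hbot : ∀ μ, μ ≠ c → Module.End.maxGenEigenspace T' μ = ⊥ := by
    intro μ hμ
    by_contra hne
    have hu : T'.HasUnifEigenvalue μ ⊤ := hne
    have he : T'.HasEigenvalue μ :=
      (Module.End.hasUnifEigenvalue_iff_hasUnifEigenvalue_one (by simp)).mp hu
    obtain ⟨v, hv, hv0⟩ := he.exists_hasEigenvector
    refine hμ (hev μ v v.2 ?_ fun h => hv0 (Subtype.ext h))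
    exact congrArg Subtype.val (Module.End.mem_eigenspace_iff.mp hv)
  have htop : Module.End.maxGenEigenspace T' c = ⊤ := by
    refine le_antisymm le_top ?_
    rw [← Module.End.iSup_maxGenEigenspace_eq_top T']
    refine iSup_le fun μ => ?_
    by_cases hμ : μ = c
    · rw [hμ]
    · rw [hbot μ hμ]; exact bot_le
  obtain ⟨k, hk⟩ : ∃ k : ℕ, ((T - c • 1 : Module.End ℂ (CuspForm (Gamma0 D) 2)) ^ k) f = 0 := by
    have h : (⟨f, hf⟩ : S) ∈ Module.End.maxGenEigenspace T' c := htop ▸ trivial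
    obtain ⟨k, hk⟩ := Module.End.mem_maxGenEigenspace _ _ _ |>.mp h
    refine ⟨k, ?_⟩
    have hcomp : ∀ (j : ℕ) (x : S),
        ((((T' - c • 1 : Module.End ℂ S) ^ j) x : S) : CuspForm (Gamma0 D) 2)
          = ((T - c • 1 : Module.End ℂ (CuspForm (Gamma0 D) 2)) ^ j) x := by
      intro j
      induction j with
      | zero => simp
      | succ j ih =>
        intro x
        rw [pow_succ, pow_succ, Module.End.mul_apply, Module.End.mul_apply, ih]
        simp [hT']
    rw [← hcomp k ⟨f, hf⟩, hk]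
    rfl
  clear hf htop hbot hev
  induction k generalizing f with
  | zero =>
    simp only [pow_zero, Module.End.one_apply] at hk
    rw [hk, map_zero, smul_zero]
  | succ k ih =>
    rw [pow_succ, Module.End.mul_apply] at hk
    have h1 := ih _ hk
    exact heckeT_eigen_of_sq_eq_zero hℓ hℓD c f (by simpa [hT] using h1)

variable {g : CuspForm (Gamma0 M) 2}

/-- The primes of `D` not dividing `M`. -/
def oldPart (D M : ℕ) : ℕ := D / M

/-- An element of the eigenspace is determined by the coefficients at the divisors of `D / M`. -/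
theorem eq_zero_of_qCoeff_divisors (hD : Squarefree D) (hMD : M ∣ D) (hg : g.IsNewform)
    {f : CuspForm (Gamma0 D) 2} (hf : f ∈ sysSpace D D dvd_rfl (qCoeff g))
    (h0 : ∀ e ∈ (oldPart D M).divisors, qCoeff f e = 0) : f = 0 := by
  haveI : NeZero M := ⟨fun h => NeZero.ne D (zero_dvd_iff.mp (h ▸ hMD))⟩
  refine eq_zero_of_forall_qCoeff_eq_zero f fun n => ?_
  induction n using Nat.strong_induction_on with
  | _ n ih =>
    rcases eq_or_ne n 0 with rfl | hn0
    · exact qCoeff_index_zero f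
    by_cases hA : ∃ q : ℕ, q.Prime ∧ q ∣ n ∧ q ∣ M
    · obtain ⟨q, hq, hqn, hqM⟩ := hA
      obtain ⟨D', hD', hqD'⟩ := exists_split_prime hD hq (hqM.trans hMD)
      rw [← Nat.div_mul_cancel hqn, qCoeff_mul_prime_of_new hq hD' hqD' hMD hqM hg.1
        (Fermat.Agent.Newform.qCoeff_sq_eq_one_of_not_sq_dvd hg hq hqM
          (not_sq_dvd_of_squarefree hD hMD hq)) hf,
        ih _ (Nat.div_lt_self (Nat.pos_of_ne_zero hn0) hq.one_lt), mul_zero]
    push Not at hA
    by_cases hB : ∃ q : ℕ, q.Prime ∧ q ∣ D ∧ q * q ∣ n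
    · obtain ⟨q, hq, hqD, hqn⟩ := hB
      obtain ⟨m, rfl⟩ := hqn
      have hqM : ¬ q ∣ M := hA q hq ((dvd_mul_right q q).trans (dvd_mul_right _ m))
      obtain ⟨D', hD', hqD'⟩ := exists_split_prime hD hq hqD
      have hMD' : M ∣ D' := (Nat.Coprime.dvd_of_dvd_mul_left
        (Nat.Coprime.symm (hq.coprime_iff_not_dvd.mpr hqM)) (hD' ▸ hMD))
      have hm0 : m ≠ 0 := fun h => hn0 (by simp [h])
      have h := qCoeff_quad_of_old hq hD' hqD' hMD' hg.1 hf m
      have hq2 := hq.two_le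
      rw [ih (m * q) (by
          calc m * q < m * q * q := lt_mul_right (by positivity) hq.one_lt
            _ = q * q * m := by ring),
        ih m (by
          calc m < m * (q * q) := lt_mul_right (Nat.pos_of_ne_zero hm0) (Nat.one_lt_mul_iff.mpr
                ⟨hq.pos, hq.pos, Or.inl hq.one_lt⟩)
            _ = q * q * m := by ring), mul_zero, mul_zero, add_zero, sub_zero] at h
      rwa [show q * q * m = m * q * q by ring]
    push Not at hB
    set e := Nat.gcd n D with he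
    obtain ⟨m, hm⟩ : e ∣ n := Nat.gcd_dvd_left n D
    have he0 : e ≠ 0 := fun h => hn0 (by rw [hm, h, zero_mul])
    have hmD : m.Coprime D := Nat.coprime_of_dvd fun q hq hqm hqD => by
      have hqe : q ∣ e := Nat.dvd_gcd (hm ▸ hqm.mul_left e) hqD
      exact hB q hq hqD (hm ▸ mul_dvd_mul hqe hqm)
    have heold : e ∈ (oldPart D M).divisors := by
      have hc : Nat.Coprime e M := Nat.coprime_of_dvd fun q hq hqe hqM =>
        hA q hq (hqe.trans (Nat.gcd_dvd_left n D)) hqM
      obtain ⟨c, hcD⟩ := hMD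
      have hc0 : c ≠ 0 := fun h => NeZero.ne D (by rw [hcD, h, mul_zero])
      rw [oldPart, hcD, Nat.mul_div_cancel_left _ (NeZero.pos M), Nat.mem_divisors]
      exact ⟨hc.dvd_of_dvd_mul_left (hcD ▸ Nat.gcd_dvd_right n D), hc0⟩
    rw [hm, mul_comm, qCoeff_mul_of_mem hMD hg.1 hf m e (fun h => hn0 (by rw [hm, h, mul_zero]))
      hmD (hmD.of_dvd_right (Nat.gcd_dvd_right n D)), h0 e heold, mul_zero]

theorem finrank_sysSpace_le (hD : Squarefree D) (hMD : M ∣ D) (hg : g.IsNewform) :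
    Module.finrank ℂ (sysSpace D D dvd_rfl (qCoeff g)) ≤ (oldPart D M).divisors.card := by
  let L : sysSpace D D dvd_rfl (qCoeff g) →ₗ[ℂ] ((oldPart D M).divisors → ℂ) :=
    LinearMap.pi fun e => qCoeffLin D 2 (e : ℕ) ∘ₗ (sysSpace D D dvd_rfl (qCoeff g)).subtype
  have hL : Function.Injective L := by
    rw [injective_iff_map_eq_zero]
    intro f hf
    exact Subtype.ext (eq_zero_of_qCoeff_divisors hD hMD hg f.2 fun e he =>
      congrFun hf ⟨e, he⟩)
  simpa using LinearMap.finrank_le_finrank_of_injective hL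

/-- The Atkin–Lehner involution attached to `d`. -/
def alOp (D d : ℕ) [NeZero D] : Module.End ℂ (CuspForm (Gamma0 D) 2) :=
  open scoped Classical in
  if h : d ∣ D ∧ ∃ X, IsAL D d X then
    alLin h.2.choose_spec h.1 (fun h0 => NeZero.ne D (zero_dvd_iff.mp (h0 ▸ h.1))) else 1

theorem alOp_eq {d : ℕ} {X : IMat} (hX : IsAL D d X) (hd : d ∣ D) (hd0 : d ≠ 0) :
    alOp D d = alLin hX hd hd0 := by
  rw [alOp, dif_pos ⟨hd, X, hX⟩]
  exact alLin_eq _ hX hd hd0

theorem alOp_mul (hD : Squarefree D) {d e : ℕ} (hde : d * e ∣ D) :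
    alOp D (d * e) = alOp D e * alOp D d := by
  have hd : d ∣ D := dvd_of_mul_right_dvd hde
  have he : e ∣ D := dvd_of_mul_left_dvd hde
  have hd0 : d ≠ 0 := fun h => NeZero.ne D (zero_dvd_iff.mp (h ▸ hd))
  have he0 : e ≠ 0 := fun h => NeZero.ne D (zero_dvd_iff.mp (h ▸ he))
  obtain ⟨X, hX⟩ := exists_isAL hd (coprime_div_of_squarefree hD hd)
  obtain ⟨Y, hY⟩ := exists_isAL he (coprime_div_of_squarefree hD he)
  rw [alOp_eq hX hd hd0, alOp_eq hY he he0, alLin_comp hX hY hd hd0 he he0 hde,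
    alOp_eq (hX.mul hY hde) hde]

theorem alOp_one : alOp D 1 = 1 := by
  have hX : IsAL D 1 1 := ⟨by simp, by simp, by simp, by simp⟩
  rw [alOp_eq hX (one_dvd D) one_ne_zero, alLin_one]

theorem alOp_alOp (hD : Squarefree D) {d : ℕ} (hd : d ∣ D) (f : CuspForm (Gamma0 D) 2) :
    alOp D d (alOp D d f) = f := by
  have hd0 : d ≠ 0 := fun h => NeZero.ne D (zero_dvd_iff.mp (h ▸ hd))
  obtain ⟨X, hX⟩ := exists_isAL hd (coprime_div_of_squarefree hD hd)
  rw [alOp_eq hX hd hd0, alLin_alLin]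

theorem alOp_mem_sysSpace (hD : Squarefree D) {d : ℕ} (hd : d ∣ D) (hDR : D ∣ R) {χ : ℕ → ℂ}
    {f : CuspForm (Gamma0 D) 2} (hf : f ∈ sysSpace D R hDR χ) :
    alOp D d f ∈ sysSpace D R hDR χ := by
  have hd0 : d ≠ 0 := fun h => NeZero.ne D (zero_dvd_iff.mp (h ▸ hd))
  obtain ⟨X, hX⟩ := exists_isAL hd (coprime_div_of_squarefree hD hd)
  rw [mem_sysSpace_iff] at hf ⊢
  intro ℓ hℓ hℓR
  rw [alOp_eq hX hd hd0, alLin_heckeT hD hX hd hd0 hℓ, hf ℓ hℓ hℓR, map_smul]

/-- The eigenvalue `∏_{q ∣ d} (- a_q(g))` of an Atkin–Lehner involution on a newform. -/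
def alSign (g : CuspForm (Gamma0 M) 2) (d : ℕ) : ℂ := ∏ q ∈ d.primeFactors, -qCoeff g q

/-- At primes of `M` the involution is scalar. -/
theorem alOp_new (hD : Squarefree D) (hMD : M ∣ D) (hg : g.IsNewform) {q : ℕ} (hq : q.Prime)
    (hqM : q ∣ M) {f : CuspForm (Gamma0 D) 2} (hf : f ∈ sysSpace D D dvd_rfl (qCoeff g)) :
    alOp D q f = -qCoeff g q • f := by
  haveI : NeZero M := ⟨fun h => NeZero.ne D (zero_dvd_iff.mp (h ▸ hMD))⟩
  have hqD := hqM.trans hMD
  obtain ⟨D', hD', hqD'⟩ := exists_split_prime hD hq hqD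
  haveI : NeZero D' := ⟨fun h => NeZero.ne D (by rw [hD', h, mul_zero])⟩
  have hD'D : D' ∣ D := hD' ▸ dvd_mul_left D' q
  obtain ⟨A⟩ := Fermat.Agent.Newform.exists_atkinData hq hqD'
  obtain ⟨X, hX⟩ := exists_isAL hqD (coprime_div_of_squarefree hD hqD)
  rw [alOp_eq hX hqD hq.ne_zero, alLin_eq_wLin A hD' hX hqD hq.ne_zero]
  have hU : CuspForm.heckeULin 2 (hD' ▸ Dvd.intro D' rfl : q ∣ D) f = qCoeff g q • f := by
    refine ext_qCoeff fun n => ?_
    rw [qCoeff_heckeULin hq.ne_zero, qCoeff_smul, qCoeff_mul_prime_of_new hq hD' hqD' hMD hqM hg.1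
      (Fermat.Agent.Newform.qCoeff_sq_eq_one_of_not_sq_dvd hg hq hqM
        (not_sq_dvd_of_squarefree hD hMD hq)) hf]
  have htr : A.traceW 2 hD' f = 0 := by
    by_contra hne
    have hmem : A.traceW 2 hD' f ∈ sysSpace D' D hD'D (qCoeff g) := by
      rw [mem_sysSpace_iff]
      intro ℓ hℓ hℓD
      refine DFunLike.coe_injective ?_
      have hF : CuspForm.heckeTLin 2 hℓ hℓD
          (CuspForm.heckeULin 2 (hD' ▸ Dvd.intro D' rfl : q ∣ D) f + A.wLin 2 hD' f)
            = qCoeff g ℓ • (CuspForm.heckeULin 2 (hD' ▸ Dvd.intro D' rfl : q ∣ D) f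
              + A.wLin 2 hD' f) := by
        rw [hU, map_add, map_smul, A.wLin_heckeT, (mem_sysSpace_iff dvd_rfl _ f).mp hf ℓ hℓ hℓD,
          map_smul, smul_add, smul_comm]
      exact congrArg (fun x : CuspForm (Gamma0 D) 2 => ⇑x) hF
    obtain ⟨M', hM'D', g', hg', hgg'⟩ := exists_newform_of_mem hD'D hmem hne
    have h := level_dvd_of_agree hD hg hMD hg'.1 (hM'D'.trans hD'D) ∅
      fun ℓ hℓ _ hℓD => hgg' ℓ hℓ hℓD
    exact hqD' (hqM.trans (h.trans hM'D'))
  have h1 : CuspForm.heckeULin 2 (hD' ▸ Dvd.intro D' rfl : q ∣ D) f + A.wLin 2 hD' f = 0 :=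
    DFunLike.coe_injective ((A.coe_traceW 2 hD' f).symm.trans
      (congrArg (fun x : CuspForm (Gamma0 D') 2 => ⇑x) htr))
  rw [hU] at h1
  rw [eq_neg_of_add_eq_zero_right h1, neg_smul]

/-- For `d ∣ M` the involution is the scalar `alSign g d`. -/
theorem alOp_of_dvd (hD : Squarefree D) (hMD : M ∣ D) (hg : g.IsNewform) {d : ℕ} (hd : d ∣ M)
    {f : CuspForm (Gamma0 D) 2} (hf : f ∈ sysSpace D D dvd_rfl (qCoeff g)) :
    alOp D d f = alSign g d • f := by
  induction d using Nat.strong_induction_on generalizing f with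
  | _ d ih =>
    rcases eq_or_ne d 1 with rfl | hd1
    · simp [alOp_one, alSign]
    obtain ⟨q, hq, hqd⟩ := Nat.exists_prime_and_dvd hd1
    obtain ⟨c, rfl⟩ := hqd
    have hdD := hd.trans hMD
    have hc0 : c ≠ 0 := fun h => NeZero.ne D (zero_dvd_iff.mp (by simpa [h] using hdD))
    have hqc : Nat.Coprime q c := Nat.coprime_of_squarefree_mul (hD.squarefree_of_dvd hdD)
    have hpf : (q * c).primeFactors = insert q c.primeFactors := by
      rw [Nat.primeFactors_mul hq.ne_zero hc0, hq.primeFactors]; rfl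
    have hqnot : q ∉ c.primeFactors := fun h =>
      (hq.coprime_iff_not_dvd.mp hqc) (Nat.mem_primeFactors.mp h).2.1
    rw [alOp_mul hD hdD, Module.End.mul_apply, alOp_new hD hMD hg hq (dvd_of_mul_right_dvd hd) hf,
      map_smul, ih c (lt_mul_left (Nat.pos_of_ne_zero hc0) hq.one_lt) (dvd_of_mul_left_dvd hd) hf,
      smul_smul, alSign, alSign, hpf, Finset.prod_insert hqnot]

section old

variable {q D' : ℕ} [NeZero D']

/-- `f ∣ W_q` of a form of level prime to `q` is supported on the multiples of `q`. -/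
theorem qCoeff_alOp_incl (hD : Squarefree D) (hq : q.Prime) (hD' : D = q * D')
    (v : CuspForm (Gamma0 D') 2) (n : ℕ) (hn : ¬ q ∣ n) :
    qCoeff (alOp D q (levelInclusion 2 (hD' ▸ dvd_mul_left D' q) v)) n = 0 := by
  have hqD : q ∣ D := hD' ▸ dvd_mul_right q D'
  have hqD' : ¬ q ∣ D' := fun h => hq.ne_one
    (Nat.isUnit_iff.mp (hD q (by rw [hD']; exact mul_dvd_mul_left q h)))
  obtain ⟨A⟩ := Fermat.Agent.Newform.exists_atkinData hq hqD'
  obtain ⟨X, hX⟩ := exists_isAL hqD (coprime_div_of_squarefree hD hqD)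
  rw [alOp_eq hX hqD hq.ne_zero, alLin_eq_wLin A hD' hX hqD hq.ne_zero]
  set u := levelInclusion 2 (hD' ▸ dvd_mul_left D' q : D' ∣ D) v
  have hq0 : (q : ℂ) ≠ 0 := by exact_mod_cast hq.ne_zero
  have key : A.wLin 2 hD' u
      = (q : ℂ) • Fermat.Agent.Newform.degeneracy 2 (d := q)
          (hD' ▸ dvd_of_eq (mul_comm D' q)) v := by
    refine DFunLike.coe_injective ?_
    set γ : IMat := !![1, -A.v; (D' : ℤ), (q : ℤ) * A.u] with hγ
    have hfac : A.W = γ * Fermat.Agent.Newform.atkinDiag q := by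
      ext i j
      fin_cases i <;> fin_cases j <;>
        simp [Fermat.Agent.Newform.AtkinData.W, hγ, Fermat.Agent.Newform.atkinDiag,
          Matrix.mul_apply, Fin.sum_univ_two, mul_comm]
    have hγdet : γ.det = 1 := by
      rw [hγ, Matrix.det_fin_two_of]; linear_combination A.bezout
    rw [A.coe_wLin, coe_levelInclusion, FunLike.coe_smul, Fermat.Agent.Newform.coe_degeneracy,
      Fermat.Agent.Newform.dilate_eq_smul_slash 2 hq.ne_zero, hfac,
      (Fermat.Agent.Newform.atkinInvariant_coe v).slash_atkinGL_mul hγdet (by simp [hγ])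
        (by rw [Fermat.Agent.Newform.det_atkinDiag]; exact_mod_cast hq.ne_zero),
      Fermat.Agent.Newform.atkinGL_diag hq.ne_zero, smul_smul]
    norm_num
    rw [mul_inv_cancel₀ hq0, one_smul]
  rw [key, qCoeff_smul, Fermat.Agent.Newform.qCoeff_degeneracy, if_neg hn, mul_zero]

/-- The pairs from the lower level. -/
def oldMap (D q : ℕ) [NeZero D] {D' : ℕ} [NeZero D'] (h : D' ∣ D) :
    (CuspForm (Gamma0 D') 2 × CuspForm (Gamma0 D') 2) →ₗ[ℂ] CuspForm (Gamma0 D) 2 :=
  LinearMap.coprod (levelInclusion 2 h) (alOp D q ∘ₗ levelInclusion 2 h)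

theorem oldMap_injective (hD : Squarefree D) (hq : q.Prime) (hD' : D = q * D') :
    Function.Injective (oldMap D q (hD' ▸ dvd_mul_left D' q : D' ∣ D)) := by
  have hqD' : ¬ q ∣ D' := fun h => hq.ne_one
    (Nat.isUnit_iff.mp (hD q (by rw [hD']; exact mul_dvd_mul_left q h)))
  rw [injective_iff_map_eq_zero]
  rintro ⟨u, v⟩ huv
  simp only [oldMap, LinearMap.coprod_apply, LinearMap.comp_apply] at huv
  have hu : u = 0 := eq_zero_of_supported_dvd hq hqD' fun n hn => by
    have h := congrArg (fun x : CuspForm (Gamma0 D) 2 => qCoeff x n) huv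
    simp only [qCoeff_add, qCoeff_levelInclusion, qCoeff_form_zero,
      qCoeff_alOp_incl hD hq hD' v n hn, add_zero] at h
    exact h
  subst hu
  rw [map_zero, zero_add] at huv
  have h := alOp_alOp hD (hD' ▸ dvd_mul_right q D' : q ∣ D) (levelInclusion 2 (hD' ▸ dvd_mul_left D' q) v)
  rw [huv, map_zero] at h
  have hv : v = 0 := Fermat.Agent.Newform.degeneracy_injective 2 _ (h.symm.trans (map_zero _).symm)
  rw [hv]; rfl

end old

omit [NeZero D] in
theorem finrank_sysSpace_aux (hg : g.IsNewform) (D : ℕ) : ∀ [NeZero D], Squarefree D → M ∣ D →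
    Module.finrank ℂ (sysSpace D D dvd_rfl (qCoeff g)) = (oldPart D M).divisors.card := by
  induction D using Nat.strong_induction_on with
  | _ D ih =>
    intro _ hD hMD
    haveI : NeZero M := ⟨fun h => NeZero.ne D (zero_dvd_iff.mp (h ▸ hMD))⟩
    haveI := finiteDimensional_level D
    refine le_antisymm (finrank_sysSpace_le hD hMD hg) ?_
    rcases eq_or_ne M D with rfl | hne
    · rw [oldPart, Nat.div_self (NeZero.pos M), Nat.divisors_one, Finset.card_singleton]
      refine Submodule.one_le_finrank_iff.mpr ((Submodule.ne_bot_iff _).mpr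
        ⟨g, ?_, hg.ne_zero⟩)
      exact (mem_sysSpace_iff dvd_rfl _ g).mpr fun ℓ hℓ h =>
        Fermat.Agent.Newform.atkin_heckeT_eigen hg.1 hℓ h
    obtain ⟨c, hc⟩ := hMD
    have hc1 : c ≠ 1 := fun h => hne (by rw [hc, h, mul_one])
    obtain ⟨q, hq, c', hc'⟩ := Nat.exists_prime_and_dvd hc1
    obtain ⟨D', hD'def⟩ : ∃ D', D' = M * c' := ⟨_, rfl⟩
    have hD' : D = q * D' := by rw [hc, hc', hD'def]; ring
    haveI : NeZero D' := ⟨fun h => NeZero.ne D (by rw [hD', h, mul_zero])⟩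
    have hlt : D' < D := hD' ▸ lt_mul_left (NeZero.pos D') hq.one_lt
    have hD'D : D' ∣ D := hD' ▸ dvd_mul_left D' q
    have hMD' : M ∣ D' := hD'def ▸ dvd_mul_right M c'
    have hMD : M ∣ D := hMD'.trans hD'D
    have hqD : q ∣ D := hD' ▸ dvd_mul_right q D'
    set E' := sysSpace D' D' dvd_rfl (qCoeff g) with hE'
    set E := sysSpace D D dvd_rfl (qCoeff g) with hE
    have hmap : ∀ x ∈ E'.prod E', oldMap D q hD'D x ∈ E := by
      rintro ⟨u, v⟩ ⟨hu, hv⟩
      have hincl : ∀ w ∈ E', levelInclusion 2 hD'D w ∈ E := fun w hw => by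
        rw [hE, mem_sysSpace_iff]
        intro ℓ hℓ hℓD
        rw [levelInclusion, Fermat.Agent.Newform.heckeTLin_degeneracy 2 _ hℓ hℓD,
          (mem_sysSpace_iff dvd_rfl _ w).mp hw ℓ hℓ (fun h => hℓD (h.trans hD'D)), map_smul]
      exact add_mem (hincl u hu) (alOp_mem_sysSpace hD hqD dvd_rfl (hincl v hv))
    let ψ : E' × E' →ₗ[ℂ] E :=
      (oldMap D q hD'D ∘ₗ E'.subtype.prodMap E'.subtype).codRestrict E
        fun x => hmap _ ⟨x.1.2, x.2.2⟩
    have hinj : Function.Injective ψ := fun x y h => by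
      have h' := oldMap_injective hD hq hD' (congrArg Subtype.val h)
      exact Prod.ext (Subtype.ext (congrArg Prod.fst h')) (Subtype.ext (congrArg Prod.snd h'))
    haveI := finiteDimensional_level D'
    have hle := LinearMap.finrank_le_finrank_of_injective hinj
    rw [Module.finrank_prod, hE',
      ih D' hlt (hD.squarefree_of_dvd hD'D) hMD'] at hle
    refine le_trans (le_of_eq ?_) hle
    have hc'0 : c' ≠ 0 := fun h => NeZero.ne D' (by rw [hD'def, h, mul_zero])
    have hcop : Nat.Coprime q c' := Nat.coprime_of_squarefree_mul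
      (hD.squarefree_of_dvd (hc' ▸ hc ▸ dvd_mul_left c M))
    rw [oldPart, oldPart, hc, hc', hD'def, Nat.mul_div_cancel_left _ (NeZero.pos M),
      Nat.mul_div_cancel_left _ (NeZero.pos M), hcop.card_divisors_mul, hq.divisors,
      Finset.card_pair hq.one_lt.ne]
    ring

/-- The eigenspace of a newform has dimension the number of divisors of `D / M`. -/
theorem finrank_sysSpace (hD : Squarefree D) (hMD : M ∣ D) (hg : g.IsNewform) :
    Module.finrank ℂ (sysSpace D D dvd_rfl (qCoeff g)) = (oldPart D M).divisors.card :=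
  finrank_sysSpace_aux hg D hD hMD

/-- An involution attached to a `d` with a prime not in `M` has equal `±` parts. -/
theorem finrank_alOp_old (hD : Squarefree D) (hMD : M ∣ D) (hg : g.IsNewform) {d : ℕ}
    (hd : d ∣ D) (hdM : ¬ d ∣ M) :
    Module.finrank ℂ ↥(sysSpace D D dvd_rfl (qCoeff g) ⊓ Module.End.eigenspace (alOp D d) 1)
      = Module.finrank ℂ
        ↥(sysSpace D D dvd_rfl (qCoeff g) ⊓ Module.End.eigenspace (alOp D d) (-1)) := by
  haveI : NeZero M := ⟨fun h => NeZero.ne D (zero_dvd_iff.mp (h ▸ hMD))⟩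
  haveI := finiteDimensional_level D
  have hdsq : Squarefree d := hD.squarefree_of_dvd hd
  obtain ⟨q, hq, hqd, hqM⟩ : ∃ q : ℕ, q.Prime ∧ q ∣ d ∧ ¬ q ∣ M := by
    by_contra hno
    push Not at hno
    refine hdM ?_
    rw [← Nat.prod_primeFactors_of_squarefree hdsq]
    exact Finset.prod_primes_dvd _ (fun q hq => (Nat.mem_primeFactors.mp hq).1.prime)
      fun q hq => hno q (Nat.mem_primeFactors.mp hq).1 (Nat.mem_primeFactors.mp hq).2.1
  obtain ⟨e, rfl⟩ := hqd
  have hqD : q ∣ D := dvd_of_mul_right_dvd hd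
  obtain ⟨D', hD', hqD'⟩ := exists_split_prime hD hq hqD
  haveI : NeZero D' := ⟨fun h => NeZero.ne D (by rw [hD', h, mul_zero])⟩
  haveI := finiteDimensional_level D'
  have hD'D : D' ∣ D := hD' ▸ dvd_mul_left D' q
  have hMD' : M ∣ D' := Nat.Coprime.dvd_of_dvd_mul_left
    (Nat.Coprime.symm (hq.coprime_iff_not_dvd.mpr hqM)) (hD' ▸ hMD)
  have heD' : e ∣ D' := by
    have h : q * e ∣ q * D' := hD' ▸ hd
    exact Nat.dvd_of_mul_dvd_mul_left hq.pos h
  have hD'sq : Squarefree D' := hD.squarefree_of_dvd hD'D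
  set E' := sysSpace D' D' dvd_rfl (qCoeff g) with hE'
  set E := sysSpace D D dvd_rfl (qCoeff g) with hE
  set w := alOp D (q * e) with hw
  set incl := levelInclusion 2 hD'D with hincl
  set j : E' →ₗ[ℂ] CuspForm (Gamma0 D) 2 := incl ∘ₗ E'.subtype with hj
  have hjE : ∀ x : E', incl x ∈ E := fun x => by
    rw [hE, mem_sysSpace_iff]
    intro ℓ hℓ hℓD
    rw [hincl, levelInclusion, Fermat.Agent.Newform.heckeTLin_degeneracy 2 _ hℓ hℓD,
      (mem_sysSpace_iff dvd_rfl _ (x : CuspForm (Gamma0 D') 2)).mp x.2 ℓ hℓ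
        (fun h => hℓD (h.trans hD'D)), map_smul]
  have hinj := oldMap_injective hD hq hD'
  have hwe : ∀ x : E', ∃ y : E', w (incl x) = alOp D q (incl y) := by
    intro x
    obtain ⟨X, hX⟩ := exists_isAL (heD'.trans hD'D)
      (coprime_div_of_squarefree hD (heD'.trans hD'D))
    have he0 : e ≠ 0 := fun h => NeZero.ne D' (zero_dvd_iff.mp (h ▸ heD'))
    refine ⟨⟨alOp D' e x, alOp_mem_sysSpace hD'sq heD' dvd_rfl x.2⟩, ?_⟩
    show w (incl x) = alOp D q (incl (alOp D' e x))
    rw [hw, mul_comm q e, alOp_mul hD (by rwa [mul_comm]), Module.End.mul_apply, hincl,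
      alOp_eq hX (heD'.trans hD'D) he0,
      alLin_levelInclusion hX hD'D (heD'.trans hD'D) heD' he0,
      alOp_eq (hX.of_dvd hD'D) heD' he0]
  have key : ∀ c : ℂ, c ^ 2 = 1 → Module.finrank ℂ E'
      ≤ Module.finrank ℂ ↥(E ⊓ Module.End.eigenspace w c) := by
    intro c hc
    let φ : E' →ₗ[ℂ] ↥(E ⊓ Module.End.eigenspace w c) :=
      (j + c • (w ∘ₗ j)).codRestrict _ fun x => by
        refine ⟨?_, Module.End.mem_eigenspace_iff.mpr ?_⟩
        · exact add_mem (hjE x) (Submodule.smul_mem _ _ (alOp_mem_sysSpace hD hd dvd_rfl (hjE x)))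
        · simp only [hj, LinearMap.add_apply, LinearMap.smul_apply, LinearMap.comp_apply,
            map_add, map_smul, hw, alOp_alOp hD hd, smul_add, smul_smul, ← sq, hc, one_smul]
          abel
    refine LinearMap.finrank_le_finrank_of_injective (f := φ) ?_
    rw [injective_iff_map_eq_zero]
    intro x hx
    have h : incl x + c • w (incl x) = 0 := congrArg Subtype.val hx
    obtain ⟨y, hy⟩ := hwe x
    rw [hy, ← map_smul, ← map_smul] at h
    have hz := hinj (a₁ := ((x : CuspForm (Gamma0 D') 2), c • (y : CuspForm (Gamma0 D') 2))) (a₂ := 0)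
      (by rw [map_zero]; exact h)
    exact Subtype.ext (congrArg Prod.fst hz)
  have hsum : Module.finrank ℂ ↥(E ⊓ Module.End.eigenspace w 1)
      + Module.finrank ℂ ↥(E ⊓ Module.End.eigenspace w (-1)) ≤ Module.finrank ℂ E := by
    rw [← Submodule.finrank_sup_add_finrank_inf_eq,
      show (E ⊓ Module.End.eigenspace w 1) ⊓ (E ⊓ Module.End.eigenspace w (-1)) = ⊥ from
        eq_bot_iff.mpr fun x hx => by
          have h1 := Module.End.mem_eigenspace_iff.mp hx.1.2
          have h2 := Module.End.mem_eigenspace_iff.mp hx.2.2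
          rw [h1, one_smul, neg_one_smul] at h2
          have h3 : (2 : ℂ) • x = 0 := by rw [two_smul]; nth_rewrite 1 [h2]; exact neg_add_cancel x
          exact (Submodule.mem_bot ℂ).mpr ((smul_eq_zero.mp h3).resolve_left two_ne_zero),
      finrank_bot, add_zero]
    exact Submodule.finrank_mono (sup_le inf_le_left inf_le_left)
  have hdim : Module.finrank ℂ E = 2 * Module.finrank ℂ E' := by
    obtain ⟨c, hc⟩ := hMD'
    have hc0 : c ≠ 0 := fun h => NeZero.ne D' (by rw [hc, h, mul_zero])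
    have hcop : Nat.Coprime q c :=
      hq.coprime_iff_not_dvd.mpr fun h => hqD' (hc ▸ h.mul_left M)
    rw [hE, hE', finrank_sysSpace hD hMD hg, finrank_sysSpace hD'sq (hc ▸ dvd_mul_right M c) hg,
      oldPart, oldPart, hD', hc, show q * (M * c) = M * (q * c) by ring,
      Nat.mul_div_cancel_left _ (NeZero.pos M), Nat.mul_div_cancel_left _ (NeZero.pos M),
      hcop.card_divisors_mul, hq.divisors, Finset.card_pair hq.one_lt.ne]
  have h1 := key 1 (by norm_num)
  have h2 := key (-1) (by norm_num)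
  omega

end Fermat.Agent.Residual

end
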