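/-
The trace of the Atkin–Lehner involutions on the part of `S₂(Γ₀(D))` congruent to a system.
-/
import Fermat.Agent.Residual.CountEigen
import Fermat.Agent.Residual.CountDefs

set_option autoImplicit false

noncomputable section

namespace Fermat.Agent.Residual

open CongruenceSubgroup

/-- The system `χ` is congruent to `a` modulo `𝔪` at the primes not dividing `R`. -/
def IsCongr (𝔪 : Ideal (integralClosure ℤ ℂ)) (a : ℕ → ℤ) (R : ℕ) (χ : ℕ → ℂ) : Prop :=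
  ∀ ℓ : ℕ, ℓ.Prime → ¬ ℓ ∣ R →
    ∃ z : integralClosure ℤ ℂ, (z : ℂ) = χ ℓ ∧ z - (a ℓ : integralClosure ℤ ℂ) ∈ 𝔪

/-- The part of `S₂(Γ₀(D))` at the systems congruent to `a`. -/
def congPart (D : ℕ) [NeZero D] {R : ℕ} (hDR : D ∣ R) (𝔪 : Ideal (integralClosure ℤ ℂ))
    (a : ℕ → ℤ) : Submodule ℂ (CuspForm (Gamma0 D) 2) :=
  ⨆ (χ : ℕ → ℂ) (_ : IsCongr 𝔪 a R χ), sysSpace D R hDR χ

/-- The trace of the involution attached to `d` on the congruent part. -/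
def levelTrace (D d : ℕ) [NeZero D] {R : ℕ} (hDR : D ∣ R) (𝔪 : Ideal (integralClosure ℤ ℂ))
    (a : ℕ → ℤ) : ℤ :=
  (Module.finrank ℂ ↥(congPart D hDR 𝔪 a ⊓ Module.End.eigenspace (alOp D d) 1) : ℤ)
    - Module.finrank ℂ ↥(congPart D hDR 𝔪 a ⊓ Module.End.eigenspace (alOp D d) (-1))

end Fermat.Agent.Residual

end
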