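/-
The part of `H¹_par(Γ₀(D), 𝔽₂)` at the system `a`: its intersection with the reductions of the
`± 1` parts of an Atkin–Lehner involution has dimension twice that of the congruent forms with this sign.
-/
import Fermat.Agent.Residual.CountBase
import Fermat.Agent.Residual.CountIdem
import Fermat.Agent.Residual.CountLattice
import Fermat.Agent.Residual.CountTrace

set_option autoImplicit false

noncomputable section

namespace Fermat.Agent.Residual

open CongruenceSubgroup Module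
open CMFix (IMat IsAL)
open HeckeCohom (heckeParEll formOp)

variable {D : ℕ} [NeZero D]

instance finite_latticeTwo : Finite (LatticeTwo D) :=
  Finite.of_equiv _ (ParHom.parEquiv (ParHom.neg_one_mem_Gamma0 D) (ZMod 2) (ZMod 2)).toEquiv.symm

/-- The primes not dividing `R`. -/
abbrev GoodPrime (R : ℕ) : Type := {ℓ : Nat.Primes // ¬ (ℓ : ℕ) ∣ R}

/-- The part of `H¹_par(Γ₀(D), 𝔽₂)` at the system `a`. -/
def sysTwo (D : ℕ) [NeZero D] (a : ℕ → ℤ) (R : ℕ) : Submodule (ZMod 2) (LatticeTwo D) :=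
  ⨅ i : GoodPrime R, Module.End.maxGenEigenspace (heckeParEll D (ZMod 2) (ZMod 2) i.1)
    (a (i.1 : ℕ) : ZMod 2)

theorem mem_sysTwo {a : ℕ → ℤ} {R : ℕ} {v : LatticeTwo D} :
    v ∈ sysTwo D a R ↔ ∀ i : GoodPrime R, v ∈ Module.End.maxGenEigenspace
      (heckeParEll D (ZMod 2) (ZMod 2) i.1) (a (i.1 : ℕ) : ZMod 2) := Submodule.mem_iInf _

/-- An element of the span of a reduction is a reduction. -/
theorem exists_of_mem_spanTwo {K : Submodule ℤ (LatticeZ D)} {v : LatticeTwo D}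
    (hv : v ∈ spanTwo redTwo K) : ∃ φ ∈ K, redTwo φ = v := by
  refine Submodule.span_induction ?_ ?_ ?_ ?_ hv
  · rintro _ ⟨φ, hφ, rfl⟩; exact ⟨φ, hφ, rfl⟩
  · exact ⟨0, K.zero_mem, map_zero _⟩
  · rintro _ _ _ _ ⟨φ, hφ, rfl⟩ ⟨ψ, hψ, rfl⟩; exact ⟨φ + ψ, K.add_mem hφ hψ, map_add _ _ _⟩
  · rintro c _ _ ⟨φ, hφ, rfl⟩
    fin_cases c
    · exact ⟨0, K.zero_mem, by rw [map_zero]; exact (zero_smul (ZMod 2) _).symm⟩
    · exact ⟨φ, hφ, (one_smul (ZMod 2) _).symm⟩

/-- Compatible endomorphisms compose to compatible endomorphisms. -/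
theorem listProd_comp {ι A B S S' : Type*} [Semiring S] [Semiring S'] [AddCommGroup A]
    [AddCommGroup B] [Module S A] [Module S' B] (g : A → B) (P : ι → Module.End S A)
    (P' : ι → Module.End S' B) (h : ∀ i x, P' i (g x) = g (P i x)) (l : List ι) (x : A) :
    (l.map P').prod (g x) = g ((l.map P).prod x) := by
  induction l with
  | nil => simp
  | cons i l ih => simp [ih, h]

/-- An endomorphism of the lattice has integral eigenvalues. -/
theorem isIntegral_of_comm (S : Module.End ℤ (LatticeZ D)) (S' : Module.End ℂ (FormPair D))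
    (h : ∀ φ, S' (iota φ) = iota (S φ)) {r : ℂ} (hr : S'.HasEigenvalue r) : IsIntegral ℤ r := by
  classical
  haveI := finiteDimensional_level D
  have hm : LinearMap.toMatrix basisC basisC S'
      = (LinearMap.toMatrix basisZ basisZ S).map (Int.castRingHom ℂ) := by
    ext i j
    rw [LinearMap.toMatrix_apply, basisC_apply, h, ← basisZ.sum_repr (S (basisZ j)), map_sum]
    simp only [map_zsmul, ← basisC_apply, ← Int.cast_smul_eq_zsmul ℂ, Basis.repr_sum_self,
      Matrix.map_apply, LinearMap.toMatrix_apply, Int.coe_castRingHom]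
  refine ⟨(LinearMap.toMatrix basisZ basisZ S).charpoly, Matrix.charpoly_monic _, ?_⟩
  have hroot := (Module.End.hasEigenvalue_iff_isRoot_charpoly S' r).mp hr
  rw [← LinearMap.charpoly_toMatrix S' basisC, hm, Matrix.charpoly_map, Polynomial.IsRoot,
    Polynomial.eval_map] at hroot
  exact hroot

/-- The eigenvalue `1 - (χ - a) ^ E` of a factor of the projection. -/
def factorVal (a : ℕ → ℤ) {R : ℕ} (E : GoodPrime R → ℕ) (χ : ℕ → ℂ) (i : GoodPrime R) : ℂ :=
  1 - (χ (i.1 : ℕ) - (a (i.1 : ℕ) : ℂ)) ^ E i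

/-- The operator `1 - (T - a) ^ E`. -/
def factorOp {R : ℕ} (a : ℕ → ℤ) (E : GoodPrime R → ℕ) {S A : Type*} [CommRing S] [AddCommGroup A]
    [Module S A] (T : GoodPrime R → Module.End S A) (i : GoodPrime R) : Module.End S A :=
  1 - (T i - (a (i.1 : ℕ) : S) • 1) ^ E i

/-- Intertwining of the shifted powers. -/
theorem shiftPow_comp {A B S S' : Type*} [CommRing S] [CommRing S'] [AddCommGroup A]
    [AddCommGroup B] [Module S A] [Module S' B] (g : A →+ B) (T : Module.End S A)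
    (T' : Module.End S' B) (h : ∀ x, T' (g x) = g (T x)) (c : ℤ) (n : ℕ) (x : A) :
    ((T' - (c : S') • 1) ^ n : Module.End S' B) (g x)
      = g (((T - (c : S) • 1) ^ n : Module.End S A) x) := by
  induction n generalizing x with
  | zero => simp
  | succ n ih =>
    rw [pow_succ, pow_succ, Module.End.mul_apply, Module.End.mul_apply, ← ih]
    congr 1
    simp [h, Int.cast_smul_eq_zsmul, map_zsmul]

theorem factorOp_comp {R : ℕ} (a : ℕ → ℤ) (E : GoodPrime R → ℕ) {A B S S' : Type*} [CommRing S]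
    [CommRing S'] [AddCommGroup A] [AddCommGroup B] [Module S A] [Module S' B] (g : A →+ B)
    (T : GoodPrime R → Module.End S A) (T' : GoodPrime R → Module.End S' B)
    (h : ∀ i x, T' i (g x) = g (T i x)) (i : GoodPrime R) (x : A) :
    factorOp a E T' i (g x) = g (factorOp a E T i x) := by
  simp only [factorOp, LinearMap.sub_apply, Module.End.one_apply, map_sub,
    shiftPow_comp g (T i) (T' i) (h i)]

/-- The values on an eigenvector. -/
theorem factorOp_eigen {R : ℕ} (a : ℕ → ℤ) (E : GoodPrime R → ℕ) {A : Type*} [AddCommGroup A]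
    [Module ℂ A] (T : GoodPrime R → Module.End ℂ A) (χ : ℕ → ℂ) {v : A}
    (hv : ∀ i, T i v = χ (i.1 : ℕ) • v) (i : GoodPrime R) :
    factorOp a E T i v = factorVal a E χ i • v := by
  have h : ∀ n : ℕ, ((T i - (a (i.1 : ℕ) : ℂ) • 1) ^ n : Module.End ℂ A) v
      = (χ (i.1 : ℕ) - (a (i.1 : ℕ) : ℂ)) ^ n • v := by
    intro n
    induction n with
    | zero => simp
    | succ n ih =>
      rw [pow_succ, Module.End.mul_apply, LinearMap.sub_apply, LinearMap.smul_apply,
        Module.End.one_apply, hv i, ← sub_smul, map_smul, ih, smul_smul, pow_succ']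
  rw [factorOp, LinearMap.sub_apply, Module.End.one_apply, h, factorVal, sub_smul, one_smul]

theorem listProd_eigen {ι A : Type*} [AddCommGroup A] [Module ℂ A] (P : ι → Module.End ℂ A)
    (c : ι → ℂ) {v : A} (h : ∀ i, P i v = c i • v) (l : List ι) :
    (l.map P).prod v = (l.map c).prod • v := by
  induction l with
  | nil => simp
  | cons i l ih =>
    rw [List.map_cons, List.prod_cons, Module.End.mul_apply, ih, map_smul, h, smul_smul,
      List.map_cons, List.prod_cons, mul_comm]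

variable {d : ℕ} {X : IMat}

/-- The `c`-part of the lattice. -/
def signZ (hX : IsAL D d X) (hd : d ∣ D) (hd0 : d ≠ 0) (c : ℤ) : Submodule ℤ (LatticeZ D) :=
  Module.End.eigenspace (hX.pull hd hd0 ℤ) c

theorem signZ_saturated (hX : IsAL D d X) (hd : d ∣ D) (hd0 : d ≠ 0) (c : ℤ) (φ : LatticeZ D)
    (h : (2 : ℤ) • φ ∈ signZ hX hd hd0 c) : φ ∈ signZ hX hd hd0 c := by
  rw [signZ, Module.End.mem_eigenspace_iff] at h ⊢
  rw [map_zsmul, smul_comm] at h
  refine Subtype.ext (AddMonoidHom.ext fun x => ?_)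
  have h1 := DFunLike.congr_fun (congrArg Subtype.val h) x
  simpa using h1

variable (hD : Squarefree D) {R : ℕ} (hDR : D ∣ R)
  {𝔪 : Ideal (integralClosure ℤ ℂ)} (h𝔪 : 𝔪.IsMaximal) (h2 : (2 : integralClosure ℤ ℂ) ∈ 𝔪)
  (a : ℕ → ℤ)

include hD h𝔪 h2 in
/-- The system part of `H¹_par(Γ₀(D), 𝔽₂)` meets the reduction of the `c`-part of the lattice in
dimension twice the number of congruent forms with sign `c`. -/
theorem finrank_signPart [NeZero R] (hX : IsAL D d X) (hd : d ∣ D) (hd0 : d ≠ 0) (c : ℤ)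
    (hc : c = 1 ∨ c = -1) :
    finrank (ZMod 2) ↥(spanTwo redTwo (signZ hX hd hd0 c) ⊓ sysTwo D a R)
      = 2 * finrank ℂ ↥(congPart D hDR 𝔪 a ⊓ Module.End.eigenspace (alOp D d) (c : ℂ)) := by
  classical
  haveI := h𝔪
  haveI := finiteDimensional_level D
  have hnD : ∀ i : GoodPrime R, ¬ ((i.1 : Nat.Primes) : ℕ) ∣ D := fun i h => i.2 (h.trans hDR)
  let TW : GoodPrime R → Module.End (ZMod 2) (LatticeTwo D) :=
    fun i => heckeParEll D (ZMod 2) (ZMod 2) i.1
  let TL : GoodPrime R → Module.End ℤ (LatticeZ D) := fun i => heckeParEll D ℤ ℤ i.1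
  let TV : GoodPrime R → Module.End ℂ (FormPair D) := fun i => heckePair i.1
  let TF : GoodPrime R → Module.End ℂ (CuspForm (Gamma0 D) 2) := fun i => formOp D i.1
  let a2 : GoodPrime R → ZMod 2 := fun i => (a (i.1 : ℕ) : ZMod 2)
  let E : GoodPrime R → ℕ := Idem.expIdem TW a2
  have hTcomm : ∀ i j, Commute (TW i) (TW j) := fun i j => HeckeCohom.heckeParEll_commute D _ _ _ _
  have hred : ∀ i φ, TW i (redTwo φ) = redTwo (TL i φ) := fun i φ => heckeParEll_redTwo i.1 φ
  have hiota : ∀ i φ, TV i (iota φ) = iota (TL i φ) := fun i φ => iota_hecke i.1 φ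
  -- congruences of the eigenvalues
  have hval : ∀ (χ : ℕ → ℂ), sysSpace D R hDR χ ≠ ⊥ → ∀ i : GoodPrime R,
      ∃ z : integralClosure ℤ ℂ, (z : ℂ) = χ (i.1 : ℕ) ∧
        ((z - (a (i.1 : ℕ) : integralClosure ℤ ℂ)) ^ E i ∈ 𝔪 ∨
          (z - (a (i.1 : ℕ) : integralClosure ℤ ℂ)) ^ E i - 1 ∈ 𝔪) := by
    intro χ hne i
    obtain ⟨f, hf, hf0⟩ := (Submodule.ne_bot_iff _).mp hne
    have hfi : TF i f = χ (i.1 : ℕ) • f := by
      show formOp D i.1 f = _
      rw [HeckeCohom.formOp_of_not_dvd (hnD i)]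
      exact (mem_sysSpace_iff hDR χ f).mp hf _ i.1.2 i.2
    have hvec : TV i (f, 0) = χ (i.1 : ℕ) • ((f, 0) : FormPair D) := by
      show (formOp D i.1 f, formOp D i.1 0) = _
      rw [map_zero, show formOp D i.1 f = χ (i.1 : ℕ) • f from hfi, Prod.smul_mk, smul_zero]
    have hne0 : ((f, 0) : FormPair D) ≠ 0 := fun h => hf0 (congrArg Prod.fst h)
    have hint := isIntegral_of_comm (TL i) (TV i) (hiota i)
      (Module.End.hasEigenvalue_of_hasEigenvector ⟨Module.End.mem_eigenspace_iff.mpr hvec, hne0⟩)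
    set x : ℂ := χ (i.1 : ℕ) - (a (i.1 : ℕ) : ℂ) with hx
    -- half of `N² - N`
    let NL : Module.End ℤ (LatticeZ D) := (TL i - (a (i.1 : ℕ) : ℤ) • 1) ^ E i
    let NV : Module.End ℂ (FormPair D) := (TV i - (a (i.1 : ℕ) : ℂ) • 1) ^ E i
    have hNred : ∀ φ, ((TW i - a2 i • 1) ^ E i : Module.End (ZMod 2) _) (redTwo φ) = redTwo (NL φ) :=
      fun φ => shiftPow_comp redTwo (TL i) (TW i) (hred i) _ _ φ
    have hhalf : ∀ φ, ∃ ψ, NL (NL φ) - NL φ = (2 : ℤ) • ψ := fun φ => by
      refine (redTwo_eq_zero_iff _).mp ?_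
      rw [map_sub, ← hNred, ← hNred, ← Module.End.mul_apply, Idem.pow_expIdem_idem, sub_self]
    choose half hhalf using hhalf
    have h2inj : Function.Injective fun ψ : LatticeZ D => (2 : ℤ) • ψ := fun u v h =>
      Subtype.ext (AddMonoidHom.ext fun y => by
        simpa using DFunLike.congr_fun (congrArg Subtype.val h) y)
    let S : Module.End ℤ (LatticeZ D) :=
      (AddMonoidHom.mk' half fun u v => h2inj (by
        show (2 : ℤ) • half (u + v) = (2 : ℤ) • (half u + half v)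
        rw [smul_add, ← hhalf, ← hhalf, ← hhalf, map_add, map_add]; abel)).toIntLinearMap
    let S' : Module.End ℂ (FormPair D) := (2 : ℂ)⁻¹ • (NV * NV - NV)
    have hNiota : ∀ φ, NV (iota φ) = iota (NL φ) := fun φ =>
      shiftPow_comp iota (TL i) (TV i) (hiota i) _ _ φ
    have hS : ∀ φ, S' (iota φ) = iota (S φ) := fun φ => by
      have hS2 : (2 : ℤ) • S φ = NL (NL φ) - NL φ := (hhalf φ).symm
      simp only [S', LinearMap.smul_apply, LinearMap.sub_apply, Module.End.mul_apply, hNiota,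
        ← map_sub, ← hS2, map_zsmul]
      rw [← Int.cast_smul_eq_zsmul ℂ, smul_smul]
      norm_num
    have hpow : ∀ n : ℕ, ((TV i - (a (i.1 : ℕ) : ℂ) • 1) ^ n : Module.End ℂ _)
        ((f, 0) : FormPair D) = x ^ n • ((f, 0) : FormPair D) := by
      intro n
      induction n with
      | zero => simp
      | succ n ih =>
        rw [pow_succ, Module.End.mul_apply, LinearMap.sub_apply, LinearMap.smul_apply,
          Module.End.one_apply, hvec, ← sub_smul, map_smul, ih, smul_smul, pow_succ']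
    have hS'v : S' ((f, 0) : FormPair D)
        = ((2 : ℂ)⁻¹ * (x ^ E i * x ^ E i - x ^ E i)) • ((f, 0) : FormPair D) := by
      simp only [S', NV, LinearMap.smul_apply, LinearMap.sub_apply, Module.End.mul_apply, hpow,
        map_smul, smul_smul, ← sub_smul]
    have hint' := isIntegral_of_comm S S' hS
      (Module.End.hasEigenvalue_of_hasEigenvector ⟨Module.End.mem_eigenspace_iff.mpr hS'v, hne0⟩)
    refine ⟨⟨χ (i.1 : ℕ), hint⟩, rfl, ?_⟩
    set w : integralClosure ℤ ℂ := ⟨χ (i.1 : ℕ), hint⟩ - (a (i.1 : ℕ) : integralClosure ℤ ℂ) with hw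
    have hprod : w ^ E i * (w ^ E i - 1) = 2 * ⟨_, hint'⟩ := by
      refine Subtype.ext ?_
      simp only [hw, Subalgebra.coe_mul, SubmonoidClass.coe_pow, AddSubgroupClass.coe_sub,
        OneMemClass.coe_one, SubringClass.coe_intCast, hx]
      push_cast
      rw [show ((2 : integralClosure ℤ ℂ) : ℂ) = 2 from map_ofNat (integralClosure ℤ ℂ).val 2]
      ring
    exact h𝔪.isPrime.mem_or_mem (hprod ▸ 𝔪.mul_mem_right _ h2)
  -- finitely many primes separate the systems
  let noncong : Finset (GoodPrime R) → Submodule ℂ (CuspForm (Gamma0 D) 2) := fun F =>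
    ⨆ (χ : ℕ → ℂ) (_ : ∃ i ∈ F, ∀ z : integralClosure ℤ ℂ, (z : ℂ) = χ (i.1 : ℕ) →
      z - (a (i.1 : ℕ) : integralClosure ℤ ℂ) ∉ 𝔪), sysSpace D R hDR χ
  obtain ⟨F0, hF0⟩ : ∃ F0, ∀ F, ¬ noncong F0 < noncong F := by
    obtain ⟨_, ⟨F0, rfl⟩, hmax⟩ :=
      (wellFounded_gt (α := Submodule ℂ (CuspForm (Gamma0 D) 2))).has_min (Set.range noncong)
        ⟨_, ⟨∅, rfl⟩⟩
    exact ⟨F0, fun F => hmax _ ⟨F, rfl⟩⟩
  obtain ⟨Fc, hFc⟩ := Idem.exists_finset_cut TW a2
  let F := F0 ∪ Fc
  obtain ⟨hidem, hiff⟩ := Idem.proj_spec (a := a2) hTcomm F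
  -- the sublattice spans
  set C := congPart D hDR 𝔪 a with hC
  set w := alOp D d with hwdef
  have hwal : w = alLin hX hd hd0 := alOp_eq hX hd hd0
  -- operators
  let PL : Module.End ℤ (LatticeZ D) := (F.toList.map (factorOp a E TL)).prod
  let PF : Module.End ℂ (CuspForm (Gamma0 D) 2) := (F.toList.map (factorOp a E TF)).prod
  let PV : Module.End ℂ (FormPair D) := (F.toList.map (factorOp a E TV)).prod
  have hPV : ∀ φ, PV (iota φ) = iota (PL φ) :=
    listProd_comp iota _ _ (factorOp_comp a E iota TL TV hiota) _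
  have hPW : ∀ φ, Idem.proj TW a2 F (redTwo φ) = redTwo (PL φ) :=
    listProd_comp redTwo _ _ (factorOp_comp a E redTwo TL TW hred) _
  have hfst : ∀ v : FormPair D, (PV v).1 = PF v.1 ∧ (PV v).2 = PF v.2 := by
    intro v
    exact ⟨(listProd_comp (LinearMap.fst ℂ _ _) _ _ (fun i x => factorOp_comp a E
      (LinearMap.fst ℂ (CuspForm (Gamma0 D) 2) (CuspForm (Gamma0 D) 2)).toAddMonoidHom TV TF
        (fun _ _ => rfl) i x) _ v).symm,
      (listProd_comp (LinearMap.snd ℂ _ _) _ _ (fun i x => factorOp_comp a E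
      (LinearMap.snd ℂ (CuspForm (Gamma0 D) 2) (CuspForm (Gamma0 D) 2)).toAddMonoidHom TV TF
        (fun _ _ => rfl) i x) _ v).symm⟩
  have hPχ : ∀ χ, ∀ f ∈ sysSpace D R hDR χ,
      PF f = (F.toList.map (factorVal a E χ)).prod • f := by
    intro χ f hf
    refine listProd_eigen _ _ (factorOp_eigen a E TF χ fun i => ?_) _
    show formOp D i.1 f = _
    rw [HeckeCohom.formOp_of_not_dvd (hnD i)]
    exact (mem_sysSpace_iff hDR χ f).mp hf _ i.1.2 i.2
  -- the two eigen classes of `PF`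
  let Sc : integralClosure ℤ ℂ → Set ℂ := fun e => {r | ∃ z : integralClosure ℤ ℂ, (z : ℂ) = r ∧ z - e ∈ 𝔪}
  have hdisjS : Disjoint (Sc 1) (Sc 0) := Set.disjoint_left.mpr fun r ⟨z, hz, hz1⟩ ⟨z', hz', hz0⟩ => by
    have : z = z' := Subtype.ext (hz.trans hz'.symm)
    subst this
    exact h𝔪.ne_top ((Ideal.eq_top_iff_one _).mpr (by
      have := 𝔪.sub_mem hz0 hz1
      simpa using this))
  have hindep := Module.End.eigenspaces_iSupIndep PF
  have hCle : C ≤ ⨆ r ∈ Sc 1, Module.End.eigenspace PF r := by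
    refine iSup₂_le fun χ hχ => ?_
    rcases eq_or_ne (sysSpace D R hDR χ) ⊥ with h | hne
    · rw [h]; exact bot_le
    refine le_trans (fun f hf => Module.End.mem_eigenspace_iff.mpr (hPχ χ f hf))
      (le_iSup₂_of_le (F.toList.map (factorVal a E χ)).prod ?_ le_rfl)
    suffices h : ∀ l : List (GoodPrime R), ∃ z : integralClosure ℤ ℂ,
        (z : ℂ) = (l.map (factorVal a E χ)).prod ∧ z - 1 ∈ 𝔪 from h _
    intro l
    induction l with
    | nil => exact ⟨1, by simp, by simp⟩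
    | cons i l ih =>
      obtain ⟨z, hz, hz1⟩ := ih
      obtain ⟨y, hy, hy1⟩ := hχ _ i.1.2 i.2
      refine ⟨(1 - (y - (a (i.1 : ℕ) : integralClosure ℤ ℂ)) ^ E i) * z, ?_, ?_⟩
      · simp [factorVal, hz, hy]
      · have hpow := 𝔪.pow_mem_of_mem hy1 (E i) (Idem.expIdem_pos TW a2 i)
        have : (1 - (y - (a (i.1 : ℕ) : integralClosure ℤ ℂ)) ^ E i) * z - 1
            = (z - 1) - (y - (a (i.1 : ℕ) : integralClosure ℤ ℂ)) ^ E i * z := by ring
        rw [this]
        exact 𝔪.sub_mem hz1 (𝔪.mul_mem_right _ hpow)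
  set N := noncong F0 with hN
  have hNle : N ≤ ⨆ r ∈ Sc 0, Module.End.eigenspace PF r := by
    refine iSup₂_le fun χ hχ => ?_
    rcases eq_or_ne (sysSpace D R hDR χ) ⊥ with h | hne
    · rw [h]; exact bot_le
    refine le_trans (fun f hf => Module.End.mem_eigenspace_iff.mpr (hPχ χ f hf))
      (le_iSup₂_of_le (F.toList.map (factorVal a E χ)).prod ?_ le_rfl)
    obtain ⟨i, hiF, hi⟩ := hχ
    suffices h : ∀ l : List (GoodPrime R), ∃ z : integralClosure ℤ ℂ,
        (z : ℂ) = (l.map (factorVal a E χ)).prod ∧ (i ∈ l → z ∈ 𝔪) by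
      obtain ⟨z, hz, hzi⟩ := h F.toList
      exact ⟨z, hz, by rw [sub_zero]; exact hzi (Finset.mem_toList.mpr (Finset.mem_union_left _ hiF))⟩
    intro l
    induction l with
    | nil => exact ⟨1, by simp, fun h => absurd h List.not_mem_nil⟩
    | cons j l ih =>
      obtain ⟨z, hz, hzi⟩ := ih
      obtain ⟨y, hy, hyE⟩ := hval χ hne j
      refine ⟨(1 - (y - (a (j.1 : ℕ) : integralClosure ℤ ℂ)) ^ E j) * z, ?_, fun hmem => ?_⟩
      · simp [factorVal, hz, hy]
      · rcases List.mem_cons.mp hmem with rfl | hmem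
        · rcases hyE with hyE | hyE
          · exact absurd (h𝔪.isPrime.mem_of_pow_mem _ hyE) (hi y hy)
          · refine 𝔪.mul_mem_right _ ?_
            rw [← neg_sub]; exact 𝔪.neg_mem hyE
        · exact 𝔪.mul_mem_left _ (hzi hmem)
  have hsupCN : C ⊔ N = ⊤ := by
    rw [eq_top_iff, ← iSup_sysSpace_eq_top R hDR]
    refine iSup_le fun χ => ?_
    by_cases hχ : IsCongr 𝔪 a R χ
    · exact le_trans (le_iSup₂_of_le χ hχ le_rfl) le_sup_left
    refine le_trans ?_ le_sup_right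
    rcases eq_or_ne (sysSpace D R hDR χ) ⊥ with h | hne
    · rw [h]; exact bot_le
    rw [IsCongr] at hχ
    push Not at hχ
    obtain ⟨ℓ, hℓ, hℓR, hbad⟩ := hχ
    let i : GoodPrime R := ⟨⟨ℓ, hℓ⟩, hℓR⟩
    have h1 : sysSpace D R hDR χ ≤ noncong (insert i F0) :=
      le_iSup₂_of_le χ ⟨i, Finset.mem_insert_self _ _, fun z hz hmem => hbad z hz hmem⟩ le_rfl
    have h2 : N ≤ noncong (insert i F0) := iSup₂_le fun χ' hχ' =>
      le_iSup₂_of_le χ' (by obtain ⟨j, hj, hj'⟩ := hχ'; exact ⟨j, Finset.mem_insert_of_mem hj, hj'⟩)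
        le_rfl
    exact h1.trans (le_of_eq (eq_of_le_of_not_lt h2 (hF0 _)).symm)
  have hdisjCN : Disjoint C N := by
    refine Disjoint.mono hCle hNle ?_
    exact hindep.disjoint_biSup_biSup hdisjS
  -- stability
  have hPC : ∀ (P : (ℕ → ℂ) → Prop),
      ∀ v ∈ (⨆ (χ : ℕ → ℂ) (_ : P χ), sysSpace D R hDR χ),
        PF v ∈ (⨆ (χ : ℕ → ℂ) (_ : P χ), sysSpace D R hDR χ) ∧
        w v ∈ (⨆ (χ : ℕ → ℂ) (_ : P χ), sysSpace D R hDR χ) := by
    intro P
    set U := ⨆ (χ : ℕ → ℂ) (_ : P χ), sysSpace D R hDR χ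
    suffices h : U ≤ Submodule.comap PF U ⊓ Submodule.comap w U from fun v hv => h hv
    refine iSup₂_le fun χ hχ f hf => ⟨?_, ?_⟩
    · show PF f ∈ U
      rw [hPχ χ f hf]
      exact U.smul_mem _ ((le_iSup₂_of_le χ hχ le_rfl : sysSpace D R hDR χ ≤ U) hf)
    · exact (le_iSup₂_of_le χ hχ le_rfl : sysSpace D R hDR χ ≤ U)
        (alOp_mem_sysSpace hD hd hDR hf)
  have hww : ∀ f, w (w f) = f := alOp_alOp hD hd
  have hcc : (c : ℂ) * c = 1 := by rcases hc with rfl | rfl <;> simp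
  have hwP : ∀ f, w (PF f) = PF (w f) := by
    intro f
    have hf : f ∈ (⨆ χ : ℕ → ℂ, sysSpace D R hDR χ) := by
      rw [iSup_sysSpace_eq_top R hDR]; trivial
    induction hf using Submodule.iSup_induction' with
    | mem χ x hx => rw [hPχ χ x hx, hPχ χ _ (alOp_mem_sysSpace hD hd hDR hx), map_smul]
    | zero => simp
    | add x y _ _ hx hy => simp [hx, hy]
  let Ec := Module.End.eigenspace w (c : ℂ)
  have hPFEc : ∀ f ∈ Ec, PF f ∈ Ec := fun f hf => by
    rw [Module.End.mem_eigenspace_iff] at hf ⊢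
    rw [hwP, hf, map_smul]
  set V1 : Submodule ℂ (FormPair D) := (C ⊓ Ec).prod (C ⊓ Ec) with hV1def
  set V0 : Submodule ℂ (FormPair D) := (N ⊓ Ec).prod (N ⊓ Ec) with hV0def
  have hV1 : ∀ v ∈ V1, PV v ∈ V1 := fun v ⟨⟨h1, h1'⟩, h3, h3'⟩ => by
    refine ⟨?_, ?_⟩
    · rw [(hfst v).1]; exact ⟨(hPC _ _ h1).1, hPFEc _ h1'⟩
    · rw [(hfst v).2]; exact ⟨(hPC _ _ h3).1, hPFEc _ h3'⟩
  have hV0 : ∀ v ∈ V0, PV v ∈ V0 := fun v ⟨⟨h1, h1'⟩, h3, h3'⟩ => by
    refine ⟨?_, ?_⟩
    · rw [(hfst v).1]; exact ⟨(hPC _ _ h1).1, hPFEc _ h1'⟩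
    · rw [(hfst v).2]; exact ⟨(hPC _ _ h3).1, hPFEc _ h3'⟩
  have hEc : spanC iota (signZ hX hd hd0 c) = Ec.prod Ec := by
    refine le_antisymm (Submodule.span_le.mpr ?_) fun v hv => ?_
    · rintro _ ⟨φ, hφ, rfl⟩
      have h := iota_pull hX hd hd0 φ
      rw [Module.End.mem_eigenspace_iff.mp hφ, map_zsmul, ← Int.cast_smul_eq_zsmul ℂ] at h
      refine ⟨?_, ?_⟩
      · show (iota φ).1 ∈ Ec
        rw [Module.End.mem_eigenspace_iff, hwal]; exact congrArg Prod.fst h
      · show (iota φ).2 ∈ Ec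
        rw [Module.End.mem_eigenspace_iff, hwal]; exact congrArg Prod.snd h
    · have hv' : alPair hX hd hd0 v = (c : ℂ) • v := by
        refine Prod.ext ?_ ?_
        · show alLin hX hd hd0 v.1 = (c : ℂ) • v.1
          rw [← hwal]; exact Module.End.mem_eigenspace_iff.mp hv.1
        · show alLin hX hd hd0 v.2 = (c : ℂ) • v.2
          rw [← hwal]; exact Module.End.mem_eigenspace_iff.mp hv.2
      let K := signZ hX hd hd0 c
      suffices h : ∀ u : FormPair D, u + (c : ℂ) • alPair hX hd hd0 u ∈ spanC iota K by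
        have := Submodule.smul_mem _ (2 : ℂ)⁻¹ (h v)
        rw [hv', smul_smul, hcc, one_smul, ← two_smul ℂ v, smul_smul] at this
        simpa using this
      intro u
      have hu : u ∈ Submodule.span ℂ (Set.range basisC) := by rw [basisC.span_eq]; trivial
      induction hu using Submodule.span_induction with
      | mem x hx =>
        obtain ⟨j, rfl⟩ := hx
        rw [basisC_apply, iota_pull, Int.cast_smul_eq_zsmul, ← map_zsmul, ← map_add]
        refine Submodule.subset_span ⟨_, ?_, rfl⟩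
        show _ ∈ Module.End.eigenspace (hX.pull hd hd0 ℤ) c
        rw [Module.End.mem_eigenspace_iff, map_add, map_zsmul, pull_pull,
          smul_add, smul_smul, show c * c = 1 from by rcases hc with rfl | rfl <;> norm_num,
          one_smul, add_comm]
      | zero => simp
      | add x y _ _ hx hy =>
        rw [map_add, smul_add, show x + y + ((c : ℂ) • alPair hX hd hd0 x + (c : ℂ) • alPair hX hd hd0 y)
          = (x + (c : ℂ) • alPair hX hd hd0 x) + (y + (c : ℂ) • alPair hX hd hd0 y) by abel]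
        exact add_mem hx hy
      | smul r x _ hx =>
        rw [map_smul, smul_comm (c : ℂ) r, ← smul_add]
        exact Submodule.smul_mem _ r hx
  have hsplit : ∀ f ∈ Ec, ∃ p ∈ C ⊓ Ec, ∃ n ∈ N ⊓ Ec, p + n = f := by
    intro f hf
    have : f ∈ C ⊔ N := hsupCN ▸ trivial
    obtain ⟨p, hp, n, hn, rfl⟩ := Submodule.mem_sup.mp this
    have h := Module.End.mem_eigenspace_iff.mp hf
    rw [map_add, smul_add] at h
    have hz : w p - (c : ℂ) • p = 0 := by
      refine Submodule.disjoint_def.mp hdisjCN _ (C.sub_mem (hPC _ _ hp).2 (C.smul_mem _ hp)) ?_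
      rw [show w p - (c : ℂ) • p = (c : ℂ) • n - w n from
        sub_eq_sub_iff_add_eq_add.mpr (by rw [h, add_comm])]
      exact N.sub_mem (N.smul_mem _ hn) (hPC _ _ hn).2
    refine ⟨p, ⟨hp, Module.End.mem_eigenspace_iff.mpr (sub_eq_zero.mp hz)⟩, n, ⟨hn, ?_⟩, rfl⟩
    rw [sub_eq_zero.mp hz] at h
    exact Module.End.mem_eigenspace_iff.mpr (add_left_cancel h)
  have hsup : V1 ⊔ V0 = spanC iota (signZ hX hd hd0 c) := by
    rw [hEc, hV1def, hV0def]
    refine le_antisymm (sup_le (Submodule.prod_mono inf_le_right inf_le_right)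
      (Submodule.prod_mono inf_le_right inf_le_right)) fun v hv => ?_
    obtain ⟨p, hp, n, hn, hpn⟩ := hsplit v.1 hv.1
    obtain ⟨p', hp', n', hn', hpn'⟩ := hsplit v.2 hv.2
    exact Submodule.mem_sup.mpr ⟨(p, p'), ⟨hp, hp'⟩, (n, n'), ⟨hn, hn'⟩, Prod.ext hpn hpn'⟩
  have hdisj : Disjoint V1 V0 := Submodule.disjoint_def.mpr fun v hv hv' => Prod.ext
    (Submodule.disjoint_def.mp hdisjCN _ hv.1.1 hv'.1.1)
    (Submodule.disjoint_def.mp hdisjCN _ hv.2.1 hv'.2.1)
  have hcong : ∀ (e : integralClosure ℤ ℂ) (U : Submodule ℂ (CuspForm (Gamma0 D) 2))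
      (_ : U ≤ ⨆ r ∈ Sc e, Module.End.eigenspace PF r) (W' : Submodule ℂ (FormPair D))
      (_ : ∀ v ∈ W', v.1 ∈ U ∧ v.2 ∈ U) (hW : ∀ v ∈ W', PV v ∈ W'),
      EigenCongr 𝔪 e (PV.restrict hW) := by
    intro e U hU W' hW' hW r hr
    obtain ⟨v, hv, hv0⟩ := hr.exists_hasEigenvector
    have he : PV (v : FormPair D) = r • (v : FormPair D) :=
      congrArg Subtype.val (Module.End.mem_eigenspace_iff.mp hv)
    by_contra hno
    have key : ∀ u ∈ U, PF u = r • u → u = 0 := fun u hu hPu => by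
      have hnot : r ∉ Sc e := hno
      exact Submodule.disjoint_def.mp (hindep.disjoint_biSup hnot) u
        (Module.End.mem_eigenspace_iff.mpr hPu) (hU hu)
    refine hv0 (Subtype.ext (Prod.ext (key _ (hW' _ v.2).1 ?_) (key _ (hW' _ v.2).2 ?_)))
    · rw [← (hfst _).1, he]; rfl
    · rw [← (hfst _).2, he]; rfl
  have hmain := finrank_spanTwo_inf (ι := iota) (b := basisZ) (bV := basisC) basisC_apply redTwo
    redTwo_eq_zero_iff PL PV (Idem.proj TW a2 F) hPV hPW 𝔪 h𝔪 h2 (signZ hX hd hd0 c)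
    (signZ_saturated hX hd hd0 c)
    (fun φ hφ => by
      have hcommL : ∀ i : GoodPrime R, Commute (hX.pull hd hd0 ℤ) (TL i) := fun i =>
        LinearMap.ext fun ψ => (pull_hecke hD hX hd hd0 (hnD i) ψ).symm
      have hPc : Commute (hX.pull hd hd0 ℤ) PL := Commute.list_prod_right _ _ fun g hg => by
        obtain ⟨i, -, rfl⟩ := List.mem_map.mp hg
        exact (Commute.one_right _).sub_right
          (((hcommL i).sub_right ((Commute.one_right _).smul_right _)).pow_right _)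
      rw [signZ, Module.End.mem_eigenspace_iff] at hφ ⊢
      have := LinearMap.congr_fun hPc.eq φ
      simp only [Module.End.mul_apply] at this
      rw [this, hφ, map_zsmul])
    V1 V0 hsup hdisj hV1 hV0
    (hcong 1 C hCle V1 (fun v hv => ⟨hv.1.1, hv.2.1⟩) hV1)
    (hcong 0 N hNle V0 (fun v hv => ⟨hv.1.1, hv.2.1⟩) hV0)
  have hmax : Module.End.maxGenEigenspace (Idem.proj TW a2 F) 1 = sysTwo D a R := by
    ext v
    rw [mem_sysTwo]
    refine ⟨fun hv => hFc v fun i hi => (hiff v).mp ?_ i (Finset.mem_union_right _ hi), fun hv => ?_⟩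
    · obtain ⟨k, hk⟩ := (Module.End.mem_maxGenEigenspace _ _ _).mp hv
      set P := Idem.proj TW a2 F with hP
      have h1 : ∀ n : ℕ, (P - (1 : ZMod 2) • 1) ^ (n + 1) = (-1 : Module.End (ZMod 2) _) ^ n * (P - (1 : ZMod 2) • 1) := by
        intro n
        induction n with
        | zero => simp
        | succ n ih =>
          rw [pow_succ, ih, pow_succ, mul_assoc, mul_assoc]
          congr 1
          rw [one_smul, sub_mul, mul_sub, one_mul, mul_one, hidem]
          noncomm_ring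
      have h2' : ((P - (1 : ZMod 2) • 1) ^ (k + 1)) v = 0 := by
        rw [pow_succ', Module.End.mul_apply, hk, map_zero]
      rw [h1, Module.End.mul_apply] at h2'
      have h3 : (P - (1 : ZMod 2) • 1) v = 0 := by
        have h4 := congrArg (((-1 : Module.End (ZMod 2) (LatticeTwo D)) ^ k) ·) h2'
        simp only [map_zero] at h4
        rwa [← Module.End.mul_apply, ← pow_add, ← two_mul, pow_mul, neg_one_sq, one_pow,
          Module.End.one_apply] at h4
      simpa [sub_eq_zero] using h3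
    · exact (Module.End.mem_maxGenEigenspace _ _ _).mpr ⟨1, by simp [(hiff v).mpr fun i _ => hv i]⟩
  rw [hmax] at hmain
  rw [hmain, hV1def]
  let e : ↥((C ⊓ Ec).prod (C ⊓ Ec)) ≃ₗ[ℂ] ↥(C ⊓ Ec) × ↥(C ⊓ Ec) :=
    { toFun := fun v => (⟨v.1.1, v.2.1⟩, ⟨v.1.2, v.2.2⟩)
      invFun := fun v => ⟨(v.1.1, v.2.1), v.1.2, v.2.2⟩
      map_add' := fun _ _ => rfl
      map_smul' := fun _ _ => rfl
      left_inv := fun _ => rfl
      right_inv := fun _ => rfl }
  rw [e.finrank_eq, Module.finrank_prod, two_mul]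

end Fermat.Agent.Residual

end
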