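/-
From the Atkin–Lehner involution on `J₀(D)[2^∞]` at a system to its trace on congruent forms.
-/
import Fermat.Agent.Residual.CountModTwo

set_option autoImplicit false

noncomputable section

namespace Fermat.Agent.Residual

open CongruenceSubgroup Module ModularCurve
open CMFix (IMat IsAL)
open HeckeCohom (heckeParEll)

variable {D : ℕ} [NeZero D]

instance finite_charMod (n : ℕ) [NeZero n] : Finite (Torsion.CharMod D n) :=
  Finite.of_equiv _ (ParHom.parEquiv (ParHom.neg_one_mem_Gamma0 D) ℤ (ZMod n)).toEquiv.symm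

/-- A character, as a torsion point. -/
def torsPt (n : ℕ) [NeZero n] : Torsion.CharMod D n →+ JZero D :=
  (Torsion.jTorsion D n).subtype.comp (Torsion.torsionEquiv D n).toAddMonoidHom

theorem torsPt_injective (n : ℕ) [NeZero n] : Function.Injective (torsPt (D := D) n) :=
  Subtype.val_injective.comp (Torsion.torsionEquiv D n).injective

/-- An integral homomorphism, as a point of order dividing `2 ^ k`. -/
def latPt (k : ℕ) : LatticeZ D →+ JZero D := (torsPt (2 ^ k)).comp (redMod (2 ^ k))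

theorem latPt_eq_zero_iff (k : ℕ) (φ : LatticeZ D) :
    latPt k φ = 0 ↔ ∃ ψ : LatticeZ D, φ = ((2 ^ k : ℕ) : ℤ) • ψ := by
  rw [← redMod_eq_zero_iff]
  exact ⟨fun h => torsPt_injective _ (h.trans (map_zero _).symm), fun h => by
    show torsPt _ (redMod _ φ) = 0
    rw [h, map_zero]⟩

theorem exists_latPt {k : ℕ} {y : JZero D} (hy : 2 ^ k • y = 0) : ∃ φ, latPt k φ = y := by
  obtain ⟨c, hc⟩ := (Torsion.torsionEquiv D (2 ^ k)).surjective ⟨y, Torsion.mem_jTorsion.mpr hy⟩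
  obtain ⟨φ, rfl⟩ := redMod_surjective (2 ^ k) c
  exact ⟨φ, congrArg Subtype.val hc⟩

theorem two_nsmul_latPt (k : ℕ) (φ : LatticeZ D) : 2 • latPt (k + 1) φ = latPt k φ := by
  haveI : NeZero (2 ^ k * 2) := ⟨by positivity⟩
  refine Torsion.nsmul_torsionEquiv D (2 ^ k) 2 (redMod (2 ^ (k + 1)) φ) (redMod (2 ^ k) φ) ?_
  refine AddMonoidHom.ext fun a => ?_
  show (((φ : Additive (Gamma0 D) →+ ℤ) a : ℤ) : ZMod (2 ^ k))
    = ZMod.castHom (dvd_mul_right (2 ^ k) 2) (ZMod (2 ^ k))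
        (((φ : Additive (Gamma0 D) →+ ℤ) a : ℤ) : ZMod (2 ^ k * 2))
  rw [map_intCast]

theorem pow_nsmul_latPt (j k : ℕ) (φ : LatticeZ D) : 2 ^ k • latPt (j + k) φ = latPt j φ := by
  induction k with
  | zero => simp
  | succ k ih => rw [pow_succ, mul_nsmul', ← add_assoc, two_nsmul_latPt, ih]

theorem pow_nsmul_torsPt (k : ℕ) (c : Torsion.CharMod D (2 ^ k)) :
    2 ^ k • torsPt (2 ^ k) c = 0 :=
  Torsion.mem_jTorsion.mp (Torsion.torsionEquiv D (2 ^ k) c).2

theorem pow_nsmul_latPt_self (k : ℕ) (φ : LatticeZ D) : 2 ^ k • latPt k φ = 0 :=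
  pow_nsmul_torsPt k _

theorem two_nsmul_latPt_one (φ : LatticeZ D) : 2 • latPt 1 φ = 0 := by
  have h := pow_nsmul_latPt_self 1 φ
  rwa [pow_one] at h

/-- Congruent homomorphisms give the same point of order two. -/
theorem latPt_one_eq_iff (φ ψ : LatticeZ D) : latPt 1 φ = latPt 1 ψ ↔ redTwo φ = redTwo ψ := by
  rw [← sub_eq_zero, ← map_sub, latPt_eq_zero_iff, ← sub_eq_zero (a := redTwo φ), ← map_sub,
    redTwo_eq_zero_iff, pow_one]
  rfl

theorem apply_latPt {d : ℕ} {X : IMat} (hX : IsAL D d X) (hd : d ∣ D) (hd0 : d ≠ 0)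
    {w : JZero D →+ JZero D}
    (hw : ∀ (n : ℕ) [NeZero n] (φ : Torsion.CharMod D n),
      w (Torsion.torsionEquiv D n φ : JZero D)
        = (Torsion.torsionEquiv D n (hX.pull hd hd0 (ZMod n) φ) : JZero D))
    (k : ℕ) (φ : LatticeZ D) : w (latPt k φ) = latPt k (hX.pull hd hd0 ℤ φ) :=
  hw (2 ^ k) (redMod (2 ^ k) φ)

theorem torsPt_hecke (n : ℕ) [NeZero n] (ℓ : Nat.Primes) (c : Torsion.CharMod D n) :
    heckeOperatorBar D ℓ (torsPt n c) = torsPt n (Torsion.heckeChar D n ℓ c) :=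
  Torsion.heckeOperatorBar_torsionEquiv D n ℓ c

theorem latPt_hecke (k : ℕ) (ℓ : Nat.Primes) (φ : LatticeZ D) :
    heckeOperatorBar D ℓ (latPt k φ) = latPt k (heckeParEll D ℤ ℤ ℓ φ) := by
  show heckeOperatorBar D ℓ (torsPt _ (redMod _ φ)) = torsPt _ (redMod _ _)
  rw [torsPt_hecke, heckeParEll_redMod]

variable {a : ℕ → ℤ} {R : ℕ}

theorem mem_sysPart {x : JZero D} :
    x ∈ sysPart D a R ↔
      (∀ i : GoodPrime R, x ∈ Module.End.maxGenEigenspace (heckeOperatorBar D i.1) (a (i.1 : ℕ))) ∧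
        ∃ k : ℕ, 2 ^ k • x = 0 := by
  have hpow : ∀ (n : ℕ) (y : JZero D),
      (((2 : ℤ) • (1 : Module.End ℤ (JZero D))) ^ n) y = 2 ^ n • y := by
    intro n
    induction n with
    | zero => simp
    | succ n ih =>
      intro y
      rw [pow_succ, Module.End.mul_apply, ih, pow_succ, mul_nsmul', LinearMap.smul_apply,
        Module.End.one_apply, two_zsmul, two_nsmul]
  simp only [sysPart, Submodule.mem_inf, Submodule.mem_iInf, Module.End.mem_maxGenEigenspace,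
    zero_smul, sub_zero, hpow]
  exact and_congr ⟨fun h i => h i.1 i.2, fun h ℓ hℓ => h ⟨ℓ, hℓ⟩⟩ Iff.rfl

theorem torsPt_mem_sysPart (k : ℕ) (c : Torsion.CharMod D (2 ^ k)) :
    torsPt (2 ^ k) c ∈ sysPart D a R ↔ ∀ i : GoodPrime R,
      c ∈ Module.End.maxGenEigenspace (Torsion.heckeChar D (2 ^ k) i.1) (a (i.1 : ℕ)) := by
  have h : ∀ (i : GoodPrime R) (n : ℕ),
      ((heckeOperatorBar D i.1 - (a (i.1 : ℕ) : ℤ) • 1) ^ n : Module.End ℤ (JZero D))
          (torsPt (2 ^ k) c)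
        = torsPt (2 ^ k)
          (((Torsion.heckeChar D (2 ^ k) i.1 - (a (i.1 : ℕ) : ℤ) • 1) ^ n :
            Module.End ℤ (Torsion.CharMod D (2 ^ k))) c) := fun i n =>
    shiftPow_comp (torsPt (2 ^ k)) (Torsion.heckeChar D (2 ^ k) i.1) (heckeOperatorBar D i.1)
      (torsPt_hecke _ i.1) (a (i.1 : ℕ)) n c
  have htor : 2 ^ k • torsPt (2 ^ k) c = 0 :=
    pow_nsmul_torsPt k c
  simp only [mem_sysPart, Module.End.mem_maxGenEigenspace, h,
    map_eq_zero_iff _ (torsPt_injective (D := D) (2 ^ k))]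
  exact ⟨fun h => h.1, fun h => ⟨h, k, htor⟩⟩

theorem latPt_one_mem_sysPart (φ : LatticeZ D) :
    latPt 1 φ ∈ sysPart D a R ↔ redTwo φ ∈ sysTwo D a R := by
  simp only [latPt, AddMonoidHom.comp_apply, torsPt_mem_sysPart, mem_sysTwo,
    Module.End.mem_maxGenEigenspace]
  refine forall_congr' fun i => exists_congr fun n => ?_
  have h1 := shiftPow_comp (redMod (2 ^ 1)) (heckeParEll D ℤ ℤ i.1)
    (Torsion.heckeChar D (2 ^ 1) i.1) (heckeParEll_redMod _ i.1) (a (i.1 : ℕ)) n φ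
  have h2 := shiftPow_comp redTwo (heckeParEll D ℤ ℤ i.1) (heckeParEll D (ZMod 2) (ZMod 2) i.1)
    (heckeParEll_redTwo i.1) (a (i.1 : ℕ)) n φ
  simp only [Int.cast_id] at h1 h2
  exact ⟨fun h => h2.trans ((redTwo_eq_zero_iff _).mpr
      ((redMod_eq_zero_iff (2 ^ 1) _).mp (h1.symm.trans h))),
    fun h => h1.trans ((redMod_eq_zero_iff (2 ^ 1) _).mpr
      ((redTwo_eq_zero_iff _).mp (h2.symm.trans h)))⟩

variable {d : ℕ} {X : IMat}

theorem heckeChar_pull (hD : Squarefree D) (hX : IsAL D d X) (hd : d ∣ D) (hd0 : d ≠ 0) (n : ℕ)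
    [NeZero n] {ℓ : Nat.Primes} (hℓ : ¬ (ℓ : ℕ) ∣ D) :
    Commute (hX.pull hd hd0 (ZMod n)) (Torsion.heckeChar D n ℓ) := by
  refine LinearMap.ext fun c => ?_
  obtain ⟨φ, rfl⟩ := redMod_surjective n c
  rw [Module.End.mul_apply, Module.End.mul_apply, heckeParEll_redMod, pull_redMod, pull_redMod,
    heckeParEll_redMod, pull_hecke hD hX hd hd0 hℓ]

/-- The fixed part of the system modulo two. -/
def fixTwo (hX : IsAL D d X) (hd : d ∣ D) (hd0 : d ≠ 0) (a : ℕ → ℤ) (R : ℕ) :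
    Submodule (ZMod 2) (LatticeTwo D) :=
  sysTwo D a R ⊓ Module.End.eigenspace (pullLin hX hd hd0 (ZMod 2) (ZMod 2)) 1

theorem signPart_le_fixTwo (hX : IsAL D d X) (hd : d ∣ D) (hd0 : d ≠ 0) (c : ℤ)
    (hc : c = 1 ∨ c = -1) :
    spanTwo redTwo (signZ hX hd hd0 c) ⊓ sysTwo D a R ≤ fixTwo hX hd hd0 a R := by
  rintro v ⟨hv, hv'⟩
  obtain ⟨φ, hφ, rfl⟩ := exists_of_mem_spanTwo hv
  refine ⟨hv', Module.End.mem_eigenspace_iff.mpr ?_⟩
  rw [pullLin_redTwo, Module.End.mem_eigenspace_iff.mp hφ, one_smul]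
  rcases hc with rfl | rfl
  · rw [one_smul]
  · rw [← sub_eq_zero, ← map_sub, redTwo_eq_zero_iff]
    exact ⟨-φ, by simp [sub_eq_add_neg, two_zsmul]⟩

theorem mem_signPart_of_halved (hX : IsAL D d X) (hd : d ∣ D) (hd0 : d ≠ 0)
    (w : JZero D →+ JZero D)
    (hw : ∀ (n : ℕ) [NeZero n] (φ : Torsion.CharMod D n),
      w (Torsion.torsionEquiv D n φ : JZero D)
        = (Torsion.torsionEquiv D n (hX.pull hd hd0 (ZMod n) φ) : JZero D))
    (c : ℤ) (hc : c = 1 ∨ c = -1) (φ : LatticeZ D) (y : JZero D) (hy : ∃ k, 2 ^ k • y = 0)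
    (hxy : latPt 1 φ = y + c • w y) :
    redTwo φ ∈ spanTwo redTwo (signZ hX hd hd0 c) := by
  obtain ⟨k, hk⟩ := hy
  obtain ⟨ψ, rfl⟩ := exists_latPt (k := 1 + k) (y := y) (by rw [pow_add, mul_nsmul', hk, smul_zero])
  have hwψ : w (latPt (1 + k) ψ) = latPt (1 + k) (hX.pull hd hd0 ℤ ψ) :=
    apply_latPt hX hd hd0 hw _ ψ
  have h0 : latPt (1 + k) (ψ + c • hX.pull hd hd0 ℤ ψ - ((2 ^ k : ℕ) : ℤ) • φ) = 0 := by
    rw [map_sub, map_add, map_zsmul, map_zsmul, ← hwψ, ← hxy, natCast_zsmul, pow_nsmul_latPt,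
      sub_self]
  obtain ⟨θ, hθ⟩ := (latPt_eq_zero_iff _ _).mp h0
  refine Submodule.subset_span ⟨φ + (2 : ℤ) • θ, ?_, ?_⟩
  · show φ + (2 : ℤ) • θ ∈ Module.End.eigenspace (hX.pull hd hd0 ℤ) c
    rw [Module.End.mem_eigenspace_iff]
    have h2k : ((2 ^ k : ℕ) : ℤ) ≠ 0 := by positivity
    have e : ((2 ^ k : ℕ) : ℤ) • (φ + (2 : ℤ) • θ) = ψ + c • hX.pull hd hd0 ℤ ψ := by
      rw [smul_add, smul_smul, show ((2 ^ k : ℕ) : ℤ) * 2 = ((2 ^ (1 + k) : ℕ) : ℤ) by
        push_cast; ring, ← hθ, add_sub_cancel]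
    have hinj : Function.Injective fun u : LatticeZ D => ((2 ^ k : ℕ) : ℤ) • u := fun u v h =>
      Subtype.ext (AddMonoidHom.ext fun z => by
        have := DFunLike.congr_fun (congrArg Subtype.val h) z
        simpa [h2k] using this)
    refine hinj ?_
    show ((2 ^ k : ℕ) : ℤ) • hX.pull hd hd0 ℤ _ = ((2 ^ k : ℕ) : ℤ) • c • (φ + (2 : ℤ) • θ)
    rw [← map_zsmul, smul_comm _ c, e, map_add, map_zsmul, pull_pull, smul_add, smul_smul,
      show c * c = 1 from by rcases hc with rfl | rfl <;> norm_num, one_smul, add_comm]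
  · rw [← sub_eq_zero, ← map_sub, redTwo_eq_zero_iff]
    exact ⟨θ, by abel⟩

section trace

variable (hD : Squarefree D) (hDR : D ∣ R) [NeZero R] {𝔪 : Ideal (integralClosure ℤ ℂ)}
  (h𝔪 : 𝔪.IsMaximal) (h2 : (2 : integralClosure ℤ ℂ) ∈ 𝔪)

include hD h𝔪 h2

theorem levelTrace_eq (hX : IsAL D d X) (hd : d ∣ D) (hd0 : d ≠ 0) :
    2 * levelTrace D d hDR 𝔪 a
      = (finrank (ZMod 2) ↥(spanTwo redTwo (signZ hX hd hd0 1) ⊓ sysTwo D a R) : ℤ)
        - finrank (ZMod 2) ↥(spanTwo redTwo (signZ hX hd hd0 (-1)) ⊓ sysTwo D a R) := by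
  rw [finrank_signPart hD hDR h𝔪 h2 a hX hd hd0 1 (Or.inl rfl),
    finrank_signPart hD hDR h𝔪 h2 a hX hd hd0 (-1) (Or.inr rfl), levelTrace]
  have h1c : ((1 : ℤ) : ℂ) = 1 := Int.cast_one
  have h2c : ((-1 : ℤ) : ℂ) = -1 := by norm_num
  rw [h1c, h2c]
  push_cast
  ring

/-- Balanced involutions have trace zero on congruent forms. -/
theorem levelTrace_eq_zero (h : Balanced D d a R) : levelTrace D d hDR 𝔪 a = 0 := by
  obtain ⟨w, ⟨X, hX, hd, hd0, hw⟩, hall⟩ := h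
  have key : ∀ c : ℤ, c = 1 ∨ c = -1 →
      spanTwo redTwo (signZ hX hd hd0 c) ⊓ sysTwo D a R = fixTwo hX hd hd0 a R := by
    intro c hc
    refine le_antisymm (signPart_le_fixTwo hX hd hd0 c hc) fun v hv => ⟨?_, hv.1⟩
    obtain ⟨φ, rfl⟩ := redTwo_surjective v
    have hfix := Module.End.mem_eigenspace_iff.mp hv.2
    rw [one_smul, pullLin_redTwo] at hfix
    have hwx : w (latPt 1 φ) = latPt 1 φ := by
      rw [apply_latPt hX hd hd0 hw, latPt_one_eq_iff]
      exact hfix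
    have h2x : 2 • latPt 1 φ = 0 := two_nsmul_latPt_one φ
    obtain ⟨⟨y, hy, hxy⟩, y', hy', hxy'⟩ :=
      hall _ ((latPt_one_mem_sysPart φ).mpr hv.1) h2x hwx
    rcases hc with rfl | rfl
    · exact mem_signPart_of_halved hX hd hd0 w hw 1 (Or.inl rfl) φ y (mem_sysPart.mp hy).2
        (by rw [one_smul]; exact hxy)
    · exact mem_signPart_of_halved hX hd hd0 w hw (-1) (Or.inr rfl) φ y' (mem_sysPart.mp hy').2
        (by rw [neg_one_zsmul, ← sub_eq_add_neg]; exact hxy')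
  have h := levelTrace_eq (a := a) hD hDR h𝔪 h2 hX hd hd0
  rw [key 1 (Or.inl rfl), key (-1) (Or.inr rfl), sub_self] at h
  omega

/-- The excess bounds the trace. -/
theorem levelTrace_le {n : ℕ} (h : Excess D d a R n) : levelTrace D d hDR 𝔪 a ≤ -(n : ℤ) := by
  classical
  obtain ⟨w, ⟨X, hX, hd, hd0, hw⟩, hminus, G, hG, hGinj⟩ := h
  have hnD : ∀ i : GoodPrime R, ¬ ((i.1 : Nat.Primes) : ℕ) ∣ D := fun i h => i.2 (h.trans hDR)
  have hwt : ∀ (k : ℕ) (c : Torsion.CharMod D (2 ^ k)),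
      w (torsPt (2 ^ k) c) = torsPt (2 ^ k) (hX.pull hd hd0 (ZMod (2 ^ k)) c) := fun k c =>
    hw _ c
  have hwl : ∀ (k : ℕ) (φ : LatticeZ D), w (latPt k φ) = latPt k (hX.pull hd hd0 ℤ φ) :=
    apply_latPt hX hd hd0 hw
  have hwsys : ∀ y ∈ sysPart D a R, w y ∈ sysPart D a R := by
    intro y hy
    obtain ⟨k, hk⟩ := (mem_sysPart.mp hy).2
    obtain ⟨φ, rfl⟩ := exists_latPt hk
    have h := (torsPt_mem_sysPart k _).mp hy
    show w (torsPt (2 ^ k) (redMod _ φ)) ∈ _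
    rw [hwt, torsPt_mem_sysPart]
    exact fun i => Module.End.mapsTo_maxGenEigenspace_of_comm
      (heckeChar_pull hD hX hd hd0 _ (hnD i)).symm _ (h i)
  -- halving inside the system part
  have halve : ∀ (k : ℕ) (φ : LatticeZ D), latPt k φ ∈ sysPart D a R →
      ∃ y ∈ sysPart D a R, 2 • y = latPt k φ ∧ (hX.pull hd hd0 ℤ φ = φ → w y = y) := by
    intro k φ hmem
    obtain ⟨π, hπ1, hπ2, hπ3⟩ := Idem.exists_projection (R := ℤ)
      (T := fun i : GoodPrime R => Torsion.heckeChar D (2 ^ (k + 1)) i.1)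
      (a := fun i => a (i.1 : ℕ))
      (fun i j => HeckeCohom.heckeParEll_commute D _ _ _ _)
    refine ⟨torsPt (2 ^ (k + 1)) (π (redMod _ φ)), (torsPt_mem_sysPart _ _).mpr (hπ2 _), ?_, ?_⟩
    · have h2c : (2 • torsPt (2 ^ (k + 1)) (redMod _ φ)) ∈ sysPart D a R := by
        show 2 • latPt (k + 1) φ ∈ _
        rw [two_nsmul_latPt]; exact hmem
      rw [← map_nsmul, torsPt_mem_sysPart] at h2c
      rw [← map_nsmul, ← map_nsmul, (hπ1 _).mpr h2c, map_nsmul]
      exact two_nsmul_latPt k φ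
    · intro hφ
      rw [hwt]
      have hc : Commute (hX.pull hd hd0 (ZMod (2 ^ (k + 1)))) π :=
        hπ3 _ fun i => heckeChar_pull hD hX hd hd0 _ (hnD i)
      have := LinearMap.congr_fun hc.eq (redMod _ φ)
      simp only [Module.End.mul_apply] at this
      rw [this, pull_redMod, hφ]
  -- two-torsion representatives of the classes
  have hrep : ∀ i, ∃ φ : LatticeZ D, redTwo φ ∈ fixTwo hX hd hd0 a R ∧
      ∃ y ∈ sysPart D a R, latPt 1 φ = G i - (y + w y) := by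
    intro i
    obtain ⟨hGs, hGw⟩ := hG i
    obtain ⟨k, hk⟩ := (mem_sysPart.mp hGs).2
    obtain ⟨φ, hφ⟩ := exists_latPt hk
    obtain ⟨y, hy, h2y, -⟩ := halve k φ (hφ ▸ hGs)
    rw [hφ] at h2y
    have hx2 : 2 • (G i - (y + w y)) = 0 := by
      rw [nsmul_sub, nsmul_add, ← map_nsmul, h2y, hGw, two_nsmul, sub_self]
    obtain ⟨ψ, hψ⟩ := exists_latPt (k := 1) (y := G i - (y + w y)) (by rw [pow_one]; exact hx2)
    refine ⟨ψ, ⟨(latPt_one_mem_sysPart ψ).mp (hψ ▸ Submodule.sub_mem _ hGs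
      (Submodule.add_mem _ hy (hwsys y hy))), Module.End.mem_eigenspace_iff.mpr ?_⟩, y, hy, hψ⟩
    have hww : w (w y) = y := by
      obtain ⟨k', hk'⟩ := (mem_sysPart.mp hy).2
      obtain ⟨θ, rfl⟩ := exists_latPt hk'
      rw [hwl, hwl, pull_pull]
    have hfix : w (latPt 1 ψ) = latPt 1 ψ := by
      rw [hψ, map_sub, map_add, hGw, hww, add_comm (w y)]
    rw [hwl, latPt_one_eq_iff] at hfix
    rw [one_smul, pullLin_redTwo]
    exact hfix
  choose rep hrep1 ry hry hrep2 using hrep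
  set P := spanTwo redTwo (signZ hX hd hd0 1) ⊓ sysTwo D a R with hP
  set F := fixTwo hX hd hd0 a R with hF
  have hPF : P ≤ F := signPart_le_fixTwo hX hd hd0 1 (Or.inl rfl)
  let Φ : Fin (2 ^ (2 * n)) × P → F := fun p =>
    ⟨redTwo (rep p.1) + p.2.1, F.add_mem (hrep1 p.1) (hPF p.2.2)⟩
  have hΦ : Function.Injective Φ := by
    rintro ⟨i, u⟩ ⟨j, u'⟩ h
    have h' : redTwo (rep i) + u.1 = redTwo (rep j) + u'.1 := congrArg Subtype.val h
    have hdiff : redTwo (rep i - rep j) ∈ P := by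
      rw [map_sub, show redTwo (rep i) - redTwo (rep j) = u'.1 - u.1 from
        sub_eq_sub_iff_add_eq_add.mpr (by rw [h', add_comm])]
      exact P.sub_mem u'.2 u.2
    obtain ⟨φp, hφp, hred⟩ := exists_of_mem_spanTwo hdiff.1
    have hlat : latPt 1 (rep i - rep j) = latPt 1 φp := (latPt_one_eq_iff _ _).mpr hred.symm
    have hmemp : latPt 1 φp ∈ sysPart D a R := by
      rw [latPt_one_mem_sysPart, hred]; exact hdiff.2
    obtain ⟨y, hy, h2y, hwy⟩ := halve 1 φp hmemp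
    have hwy' : w y = y := hwy (by
      have := Module.End.mem_eigenspace_iff.mp hφp
      rwa [one_smul] at this)
    have hij : i = j := by
      refine hGinj i j (ry i - ry j + y) (Submodule.add_mem _ (Submodule.sub_mem _ (hry i) (hry j)) hy) ?_
      rw [map_sub, hrep2, hrep2, ← h2y, two_nsmul] at hlat
      rw [map_add, map_sub, hwy']
      rw [sub_eq_iff_eq_add] at hlat
      have e1 : G i - G j = (G i - (ry i + w (ry i))) - (G j - (ry j + w (ry j)))
          + ((ry i + w (ry i)) - (ry j + w (ry j))) := by abel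
      rw [e1, hlat]
      abel
    subst hij
    exact Prod.ext rfl (Subtype.ext (add_left_cancel h'))
  have hcard := Nat.card_le_card_of_injective Φ hΦ
  have hminus' : spanTwo redTwo (signZ hX hd hd0 (-1)) ⊓ sysTwo D a R = F := by
    refine le_antisymm (signPart_le_fixTwo hX hd hd0 (-1) (Or.inr rfl)) fun v hv => ⟨?_, hv.1⟩
    obtain ⟨φ, rfl⟩ := redTwo_surjective v
    have hfix := Module.End.mem_eigenspace_iff.mp hv.2
    rw [one_smul, pullLin_redTwo] at hfix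
    have hwx : w (latPt 1 φ) = latPt 1 φ := by
      rw [hwl, latPt_one_eq_iff]
      exact hfix
    obtain ⟨y, hy, hxy⟩ := hminus _ ((latPt_one_mem_sysPart φ).mpr hv.1)
      (two_nsmul_latPt_one φ) hwx
    exact mem_signPart_of_halved hX hd hd0 w hw (-1) (Or.inr rfl) φ y (mem_sysPart.mp hy).2
      (by rw [neg_one_zsmul, ← sub_eq_add_neg]; exact hxy)
  rw [Nat.card_prod, Nat.card_fin, Module.natCard_eq_pow_finrank (K := ZMod 2) (V := P),
    Module.natCard_eq_pow_finrank (K := ZMod 2) (V := F), Nat.card_zmod, ← pow_add,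
    Nat.pow_le_pow_iff_right (by norm_num : 1 < 2)] at hcard
  have h := levelTrace_eq (a := a) hD hDR h𝔪 h2 hX hd hd0
  rw [hminus', ← hP] at h
  omega

end trace

end Fermat.Agent.Residual

end
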