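/-
Residual modularity at 3, counting step: the number of newforms of level
`N * ∏ Q` in the system with given Atkin–Lehner signs.

If every Atkin–Lehner involution is balanced on the system except `w_N` at level `N = ∏ B`, whose
excess is `h`, then for every sign pattern of the major class (`∏_B s = (-1) ^ (#Q + 1)`) there
are at least `h / 2 ^ (#B - 1)` newforms of level `N * ∏ Q` with these signs in the system.
-/
import Fermat.Agent.Residual.CountDefs
import Fermat.Agent.Residual.CountSum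
import Fermat.Agent.Residual.CountBridge

set_option autoImplicit false

noncomputable section

namespace Fermat.Agent.Residual

open CongruenceSubgroup

/-- Lower bound for the number of newforms of the major sign patterns. -/
theorem le_card_newformsIn (B Q : Finset ℕ) (hB : ∀ b ∈ B, b.Prime) (hQ : ∀ q ∈ Q, q.Prime)
    (hBQ : Disjoint B Q) (hBne : B.Nonempty)
    (𝔪 : Ideal (integralClosure ℤ ℂ)) (h𝔪 : 𝔪.IsMaximal) (h2 : (2 : integralClosure ℤ ℂ) ∈ 𝔪)
    (a : ℕ → ℤ) (R : ℕ) (hR0 : R ≠ 0) (hR : (∏ p ∈ B, p) * ∏ q ∈ Q, q ∣ R)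
    (h : ℕ)
    (hbal : ∀ (D d : ℕ) [NeZero D], D ∣ (∏ p ∈ B, p) * ∏ q ∈ Q, q → d ∣ D → 1 < d →
      ¬ (D = ∏ p ∈ B, p ∧ d = ∏ p ∈ B, p) → Balanced D d a R)
    (hexc : ∀ [NeZero (∏ p ∈ B, p)], Excess (∏ p ∈ B, p) (∏ p ∈ B, p) a R h)
    (s : ℕ → ℤ) (hs : ∀ q ∈ B ∪ Q, s q = 1 ∨ s q = -1)
    (hmajor : ∏ b ∈ B, s b = (-1) ^ (Q.card + 1)) :
    h ≤ 2 ^ (B.card - 1) *
      (newformsIn ((∏ p ∈ B, p) * ∏ q ∈ Q, q) 𝔪 a R s).ncard := by
  classical
  haveI : NeZero R := ⟨hR0⟩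
  have hsq : Squarefree ((∏ p ∈ B, p) * ∏ q ∈ Q, q) := by
    rw [← Finset.prod_union hBQ]
    refine Finset.squarefree_prod_of_pairwise_isCoprime ?_ fun p hp => ?_
    · intro p hp q hq hne
      have hp' : p.Prime := (Finset.mem_union.mp hp).elim (hB p) (hQ p)
      have hq' : q.Prime := (Finset.mem_union.mp hq).elim (hB q) (hQ q)
      exact Nat.coprime_iff_isRelPrime.mp ((Nat.coprime_primes hp' hq').mpr hne)
    · exact ((Finset.mem_union.mp hp).elim (hB p) (hQ p)).squarefree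
  refine le_card_of_levelTrace B Q hB hQ hBQ hBne 𝔪 h𝔪 a R hR0 hR h
    (fun D d _ hD hd hd1 hne => levelTrace_eq_zero (hsq.squarefree_of_dvd hD) (hD.trans hR) h𝔪 h2
      (hbal D d hD hd hd1 hne))
    (fun {_} => levelTrace_le (hsq.squarefree_of_dvd (dvd_mul_right _ _))
      ((dvd_mul_right _ _).trans hR) h𝔪 h2 hexc)
    s hs hmajor

end Fermat.Agent.Residual

end
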