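/-
The part of `𝔽₂[G]`, `G` a finite abelian group with a cubic character `χ`, on which every
`[L] + [L⁻¹]` is congruent to `χ(L) + χ(L)⁻¹`: it has dimension twice the `2`-part of `#G`.
-/
import Mathlib.Algebra.Module.LinearMap.End
import Mathlib.Algebra.Algebra.Basic
import Mathlib.Algebra.CharP.Basic
import Mathlib.Algebra.CharP.Lemmas
import Mathlib.Algebra.Module.Submodule.Ker
import Mathlib.Data.ZMod.Basic
import Mathlib.GroupTheory.Index
import Mathlib.GroupTheory.Sylow
import Mathlib.LinearAlgebra.Pi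
import Mathlib.Algebra.Field.ZMod
import Mathlib.Data.Fintype.BigOperators
import Mathlib.Tactic.LinearCombination
import Mathlib.Tactic.FieldSimp

set_option autoImplicit false

noncomputable section

namespace Fermat.Agent.Residual.CMFix

variable {G : Type*} [CommGroup G]

/-- Translation of functions. -/
def shiftFun (L : G) : Module.End (ZMod 2) (G → ZMod 2) :=
  LinearMap.funLeft (ZMod 2) (ZMod 2) fun g => g * L

@[simp]
theorem shiftFun_apply (L : G) (x : G → ZMod 2) (g : G) : shiftFun L x g = x (g * L) := rfl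

theorem shiftFun_mul (L M : G) : shiftFun L * shiftFun M = shiftFun (L * M) := by
  refine LinearMap.ext fun x => funext fun g => ?_
  simp [mul_assoc]

theorem shiftFun_pow (L : G) (n : ℕ) : shiftFun L ^ n = shiftFun (L ^ n) := by
  induction n with
  | zero =>
    refine LinearMap.ext fun x => funext fun g => ?_
    simp
  | succ n ih => rw [pow_succ, ih, shiftFun_mul, pow_succ]

/-- The operator of `[L] + [L⁻¹]` minus its expected eigenvalue. -/
def eigenDiff (L : G) (a : ZMod 2) : Module.End (ZMod 2) (G → ZMod 2) :=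
  shiftFun L + shiftFun L⁻¹ - a • 1

theorem eigenDiff_pow (L : G) (a : ZMod 2) (k : ℕ) :
    eigenDiff L a ^ 2 ^ k = eigenDiff (L ^ 2 ^ k) a := by
  induction k with
  | zero => simp
  | succ k ih =>
    rw [pow_succ 2 k, pow_mul, ih, pow_mul]
    set M := L ^ 2 ^ k
    refine LinearMap.ext fun x => funext fun g => ?_
    simp only [sq, eigenDiff, Module.End.mul_apply, LinearMap.sub_apply, LinearMap.add_apply,
      LinearMap.smul_apply, Module.End.one_apply, Pi.sub_apply, Pi.add_apply, Pi.smul_apply,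
      shiftFun_apply, smul_eq_mul, mul_inv, mul_assoc, mul_inv_cancel, inv_mul_cancel, mul_one]
    exact (by decide : ∀ a p q r s u : ZMod 2,
      p + u - a * r + (u + q - a * s) - a * (r + s - a * u) = p + q - a * u) a _ _ _ _ _

variable [Finite G]

/-- The `2`-part of the order. -/
def twoPart (G : Type*) : ℕ := 2 ^ (Nat.card G).factorization 2

/-- The elements of odd order. -/
def oddPart (G : Type*) [CommGroup G] : Subgroup G := (powMonoidHom (α := G) (twoPart G)).range

theorem index_oddPart : (oddPart G).index = twoPart G := by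
  have hG : Nat.card G ≠ 0 := Nat.card_pos.ne'
  set k := (Nat.card G).factorization 2 with hk
  set m := Nat.card G / 2 ^ k with hmdef
  have htp : twoPart G = 2 ^ k := rfl
  have hodd : ¬ 2 ∣ m := Nat.not_dvd_ordCompl Nat.prime_two hG
  have hm : 2 ^ k * m = Nat.card G := Nat.mul_div_cancel' (Nat.ordProj_dvd _ _)
  have : Fact (Nat.Prime 2) := ⟨Nat.prime_two⟩
  have hker : ∃ e, Nat.card (powMonoidHom (α := G) (twoPart G)).ker = 2 ^ e := by
    refine IsPGroup.iff_card.mp fun x => ⟨k, Subtype.ext ?_⟩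
    exact (Subgroup.coe_pow _ x _).trans x.2
  obtain ⟨e, he⟩ := hker
  have hprod := (powMonoidHom (α := G) (twoPart G)).ker.card_mul_index
  rw [Subgroup.index_ker, he] at hprod
  have hle : e ≤ k := by
    by_contra hlt
    push Not at hlt
    apply hodd
    have : 2 ^ (k + 1) ∣ 2 ^ k * m :=
      (pow_dvd_pow 2 hlt).trans ⟨_, hm.trans hprod.symm⟩
    rw [pow_succ] at this
    exact Nat.dvd_of_mul_dvd_mul_left (pow_pos two_pos _) this
  have hge : k ≤ e := by
    by_contra hlt
    push Not at hlt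
    have hr : 2 ∣ Nat.card (oddPart G) := by
      have h3 : 2 ^ (e + 1) ∣ 2 ^ e * Nat.card (oddPart G) :=
        (pow_dvd_pow 2 hlt).trans ⟨m, hprod.trans hm.symm⟩
      rw [pow_succ] at h3
      exact Nat.dvd_of_mul_dvd_mul_left (pow_pos two_pos _) h3
    obtain ⟨⟨y, g, rfl⟩, hy⟩ := exists_prime_orderOf_dvd_card' 2 hr
    rw [← Subgroup.orderOf_coe] at hy
    change orderOf (g ^ twoPart G) = 2 at hy
    have h4 : (g ^ twoPart G) ^ m = 1 := by rw [htp, ← pow_mul, hm, pow_card_eq_one']
    exact hodd (hy ▸ orderOf_dvd_of_pow_eq_one h4)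
  have h1 := (oddPart G).card_mul_index
  have hpos : 0 < Nat.card (oddPart G) := Nat.card_pos
  apply Nat.eq_of_mul_eq_mul_left hpos
  rw [h1, ← hprod, mul_comm]
  congr 1
  rw [htp, le_antisymm hle hge]

omit [Finite G] in
theorem twoPart_pow_mem (L : G) : L ^ twoPart G ∈ oddPart G := ⟨L, rfl⟩

variable (χ : G →* Multiplicative (ZMod 3))

/-- The expected eigenvalue `χ(L) + χ(L)⁻¹` modulo `2`. -/
def cubicValue (L : G) : ZMod 2 := if χ L = 1 then 0 else 1

/-- Functions invariant under the odd part of `ker χ`, summing to zero on `χ`-triples. -/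
def eigenSpace : Submodule (ZMod 2) (G → ZMod 2) where
  carrier := {x | (∀ g, ∀ h ∈ oddPart G, χ h = 1 → x (g * h) = x g) ∧
    ∀ g, ∀ t ∈ oddPart G, χ t ≠ 1 → x g + x (g * t) + x (g * t⁻¹) = 0}
  add_mem' := fun {x y} hx hy => ⟨fun g h hh hc => by simp [hx.1 g h hh hc, hy.1 g h hh hc],
    fun g t ht hc => by
      simp only [Pi.add_apply]
      linear_combination hx.2 g t ht hc + hy.2 g t ht hc⟩
  zero_mem' := ⟨by simp, by simp⟩
  smul_mem' := fun c x hx => ⟨fun g h hh hc => by simp [hx.1 g h hh hc],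
    fun g t ht hc => by
      simp only [Pi.smul_apply, smul_eq_mul]
      linear_combination c * hx.2 g t ht hc⟩

omit [Finite G] in
/-- Every `[L] + [L⁻¹] - χ(L) - χ(L)⁻¹` is nilpotent on the space. -/
theorem eigenDiff_pow_eq_zero (L : G) {x : G → ZMod 2} (hx : x ∈ eigenSpace χ) :
    (eigenDiff L (cubicValue χ L) ^ twoPart G) x = 0 := by
  rw [twoPart, eigenDiff_pow]
  rw [show (2 : ℕ) ^ (Nat.card G).factorization 2 = twoPart G from rfl]
  set M := L ^ twoPart G with hM
  have hMmem : M ∈ oddPart G := twoPart_pow_mem L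
  have hiff : χ M = 1 ↔ χ L = 1 := by
    rw [hM, map_pow]
    refine ⟨fun h => ?_, fun h => by rw [h, one_pow]⟩
    have h3 : χ L ^ 3 = 1 := by
      have : ∀ z : Multiplicative (ZMod 3), z ^ 3 = 1 := by decide
      exact this _
    have hcop : Nat.Coprime (twoPart G) 3 := Nat.Coprime.pow_left _ (by norm_num)
    have := pow_gcd_eq_one.2 ⟨h, h3⟩
    rwa [hcop, pow_one] at this
  funext g
  simp only [eigenDiff, LinearMap.sub_apply, LinearMap.add_apply, LinearMap.smul_apply,
    Module.End.one_apply, Pi.sub_apply, Pi.add_apply, Pi.smul_apply, shiftFun_apply, smul_eq_mul,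
    Pi.zero_apply, cubicValue]
  by_cases h : χ L = 1
  · rw [if_pos h, zero_mul, sub_zero, hx.1 g M hMmem (hiff.2 h),
      hx.1 g M⁻¹ (inv_mem hMmem) (by rw [map_inv, hiff.2 h, inv_one]), CharTwo.add_self_eq_zero]
  · rw [if_neg h, one_mul, sub_eq_add_neg, CharTwo.neg_eq]
    linear_combination hx.2 g M hMmem (fun e => h (hiff.1 e))

variable (hχ : χ ≠ 1)
include hχ

omit [Finite G] in
theorem exists_oddPart_eq : ∀ z, ∃ t ∈ oddPart G, χ t = z := by
  intro z
  obtain ⟨g, hg⟩ : ∃ g, χ g ≠ 1 := by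
    by_contra h
    push Not at h
    exact hχ (MonoidHom.ext h)
  have two3 : (2 : ZMod 3) ≠ 0 := by decide
  have : Fact (Nat.Prime 3) := ⟨Nat.prime_three⟩
  have h2 : (2 : ZMod 3) ^ (Nat.card G).factorization 2 ≠ 0 := pow_ne_zero _ two3
  set c := (χ g).toAdd
  have hc : c ≠ 0 := fun h => hg (Multiplicative.toAdd.injective (h.trans toAdd_one.symm))
  obtain ⟨n, hn⟩ : ∃ n : ℕ, (n : ZMod 3) = z.toAdd * ((twoPart G : ZMod 3) * c)⁻¹ :=
    ⟨_, ZMod.natCast_zmod_val _⟩
  refine ⟨(g ^ n) ^ twoPart G, twoPart_pow_mem _, Multiplicative.toAdd.injective ?_⟩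
  rw [map_pow χ, map_pow χ, toAdd_pow, toAdd_pow, nsmul_eq_mul, nsmul_eq_mul, hn]
  have : (twoPart G : ZMod 3) ≠ 0 := by simpa [twoPart] using h2
  field_simp
  rfl

omit [Finite G] in
theorem const_notMem_eigenSpace : (fun _ => 1 : G → ZMod 2) ∉ eigenSpace χ := by
  obtain ⟨t, ht, hc⟩ := exists_oddPart_eq χ hχ (Multiplicative.ofAdd 1)
  intro h
  have := h.2 1 t ht (by rw [hc]; decide)
  simp at this
  exact absurd this (by decide)

omit [Finite G] in
theorem sum_eq_zero [Fintype G] {x : G → ZMod 2} (hx : x ∈ eigenSpace χ) : ∑ g, x g = 0 := by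
  obtain ⟨t, ht, hc⟩ := exists_oddPart_eq χ hχ (Multiplicative.ofAdd 1)
  have key : ∑ g, x g + ∑ g, x (g * t) + ∑ g, x (g * t⁻¹) = 0 := by
    rw [← Finset.sum_add_distrib, ← Finset.sum_add_distrib]
    exact Finset.sum_eq_zero fun g _ => hx.2 g t ht (by rw [hc]; decide)
  have e1 : ∑ g, x (g * t) = ∑ g, x g := Equiv.sum_comp (Equiv.mulRight t) x
  have e2 : ∑ g, x (g * t⁻¹) = ∑ g, x g := Equiv.sum_comp (Equiv.mulRight t⁻¹) x
  simp only [e1, e2] at key
  rwa [CharTwo.add_self_eq_zero, zero_add] at key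

/-- The dimension is twice the `2`-part of `#G`. -/
theorem card_eigenSpace : Nat.card (eigenSpace χ) = 2 ^ (2 * twoPart G) := by
  classical
  obtain ⟨t, ht, htc⟩ := exists_oddPart_eq χ hχ (Multiplicative.ofAdd 1)
  let Q := G ⧸ oddPart G
  let out : Q → G := Quotient.out
  have hout : ∀ q, QuotientGroup.mk (out q) = q := fun q => QuotientGroup.out_eq' q
  have hdec : ∀ g : G, ∃ s ∈ oddPart G, g = out (QuotientGroup.mk g) * s := fun g =>
    ⟨_, QuotientGroup.eq.1 (hout (QuotientGroup.mk g)), (mul_inv_cancel_left _ _).symm⟩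
  choose s hs hs' using hdec
  let Φ : (eigenSpace χ) → (Q → ZMod 2 × ZMod 2) := fun x q => (x.1 (out q), x.1 (out q * t))
  let val : ZMod 2 × ZMod 2 → Multiplicative (ZMod 3) → ZMod 2 := fun v z =>
    if z = 1 then v.1 else if z = Multiplicative.ofAdd 1 then v.2 else v.1 + v.2
  have hval : ∀ (v : ZMod 2 × ZMod 2) (z c : Multiplicative (ZMod 3)), c ≠ 1 →
      val v z + val v (z * c) + val v (z * c⁻¹) = 0 := by decide
  let Ψ : (Q → ZMod 2 × ZMod 2) → (eigenSpace χ) := fun y =>
    ⟨fun g => val (y (QuotientGroup.mk g)) (χ (s g)), by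
      have hmove : ∀ g, ∀ r ∈ oddPart G,
          (QuotientGroup.mk (g * r) : Q) = QuotientGroup.mk g ∧ χ (s (g * r)) = χ (s g) * χ r := by
        intro g r hr
        have e : (QuotientGroup.mk (g * r) : Q) = QuotientGroup.mk g :=
          QuotientGroup.eq.2 (by simpa using inv_mem hr)
        refine ⟨e, ?_⟩
        have := hs' (g * r)
        rw [e] at this
        rw [← map_mul]
        refine congrArg χ (mul_left_cancel (a := out (QuotientGroup.mk g)) ?_)
        rw [← this, ← mul_assoc, ← hs' g]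
      refine ⟨fun g h hh hc => ?_, fun g r hr hc => ?_⟩
      · obtain ⟨e1, e2⟩ := hmove g h hh
        simp only [e1, e2, hc, mul_one]
      · obtain ⟨e1, e2⟩ := hmove g r hr
        obtain ⟨e3, e4⟩ := hmove g r⁻¹ (inv_mem hr)
        simp only [e1, e2, e3, e4, map_inv]
        exact hval _ _ _ hc⟩
  have hchar : ∀ (x : eigenSpace χ) (g : G),
      x.1 g = val (Φ x (QuotientGroup.mk g)) (χ (s g)) := by
    intro x g
    set q : Q := QuotientGroup.mk g
    have h3 : ∀ z : Multiplicative (ZMod 3),
        z = 1 ∨ z = Multiplicative.ofAdd 1 ∨ z = (Multiplicative.ofAdd 1)⁻¹ := by decide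
    have hinv : ∀ a ∈ oddPart G, ∀ b ∈ oddPart G, χ a = χ b →
        x.1 (out q * a) = x.1 (out q * b) := by
      intro a ha b hb hab
      have := x.2.1 (out q * b) (b⁻¹ * a) (mul_mem (inv_mem hb) ha)
        (by rw [map_mul, map_inv, hab, inv_mul_cancel])
      rwa [mul_assoc, mul_inv_cancel_left] at this
    rw [show x.1 g = x.1 (out q * s g) from congrArg x.1 (hs' g)]
    rcases h3 (χ (s g)) with h | h | h
    · rw [hinv _ (hs g) 1 (one_mem _) (by rw [h, map_one]), mul_one]
      simp [val, Φ, h]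
    · rw [hinv _ (hs g) t ht (by rw [h, htc])]
      simp [val, Φ, h]
    · rw [hinv _ (hs g) t⁻¹ (inv_mem ht) (by rw [h, map_inv, htc])]
      have hx2 := x.2.2 (out q) t ht (by rw [htc]; decide)
      simp only [val, Φ, h]
      rw [if_neg (by decide), if_neg (by decide)]
      linear_combination hx2 - (x.1 (out q) + x.1 (out q * t)) * (CharTwo.two_eq_zero (R := ZMod 2))
  have e : eigenSpace χ ≃ (Q → ZMod 2 × ZMod 2) :=
    { toFun := Φ
      invFun := Ψ
      left_inv := fun x => Subtype.ext (funext fun g => (hchar x g).symm)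
      right_inv := fun y => funext fun q => by
        have hq := hs' (out q)
        rw [hout] at hq
        have h1 : s (out q) = 1 := mul_left_cancel (a := out q) (by rw [← hq, mul_one])
        have h2 : χ (s (out q * t)) = χ t := by
          have e : (QuotientGroup.mk (out q * t) : Q) = q :=
            (QuotientGroup.eq.2 (by simpa using inv_mem ht)).trans (hout q)
          have := hs' (out q * t)
          rw [e] at this
          rw [← mul_left_cancel this]
        have e3 : (QuotientGroup.mk (out q * t) : Q) = q :=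
          (QuotientGroup.eq.2 (by simpa using inv_mem ht)).trans (hout q)
        simp only [Φ, Ψ, hout, e3, h1, h2, htc, map_one]
        simp [val] }
  rw [Nat.card_congr e, Nat.card_fun, Nat.card_prod, Nat.card_zmod, show Nat.card Q = twoPart G from
    index_oddPart]
  rw [pow_mul]
  norm_num

end Fermat.Agent.Residual.CMFix

end
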