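/-
Residual modularity at three: the cubic character of the class group of `ℚ(√-N)` cut out by a
datum, and the traces of Frobenius elements modulo two.
-/
import Fermat.Agent.Residual.DihedralField
import Fermat.Agent.Residual.CMFixModule
import Fermat.Agent.CFT.ArtinMap
import Fermat.Agent.Density.Main

set_option autoImplicit false

noncomputable section

open NumberField
open scoped nonZeroDivisors Pointwise

namespace Fermat.Agent.Residual

local notation "Qbar" => AlgebraicClosure ℚ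
local notation "Γℚ" => (AlgebraicClosure ℚ ≃ₐ[ℚ] AlgebraicClosure ℚ)

/-- An element of order three of `GL₂(𝔽₂)`, the other one and the identity, as residues mod `3`. -/
def cubicLog (m : Matrix (Fin 2) (Fin 2) (ZMod 2)) : ZMod 3 :=
  if m = 1 then 0 else if m = !![0, 1; 1, 1] then 1 else 2

theorem exists_eq_entries (m : Matrix (Fin 2) (Fin 2) (ZMod 2)) :
    ∃ a b c d, m = !![a, b; c, d] :=
  ⟨m 0 0, m 0 1, m 1 0, m 1 1, Matrix.eta_fin_two m⟩

theorem cubicLog_one : cubicLog 1 = 0 := if_pos rfl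

theorem cubicLog_mul {m n : Matrix (Fin 2) (Fin 2) (ZMod 2)} (hm : m ^ 3 = 1) (hn : n ^ 3 = 1) :
    cubicLog (m * n) = cubicLog m + cubicLog n := by
  have key : ∀ a b c d a' b' c' d' : ZMod 2,
      (!![a, b; c, d] : Matrix (Fin 2) (Fin 2) (ZMod 2)) ^ 3 = 1 →
      (!![a', b'; c', d'] : Matrix (Fin 2) (Fin 2) (ZMod 2)) ^ 3 = 1 →
      cubicLog (!![a, b; c, d] * !![a', b'; c', d']) =
        cubicLog !![a, b; c, d] + cubicLog !![a', b'; c', d'] := by decide +kernel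
  obtain ⟨a, b, c, d, rfl⟩ := exists_eq_entries m
  obtain ⟨a', b', c', d', rfl⟩ := exists_eq_entries n
  exact key _ _ _ _ _ _ _ _ hm hn

theorem trace_of_pow_three {m : Matrix (Fin 2) (Fin 2) (ZMod 2)} (hm : m ^ 3 = 1) :
    m.trace = if cubicLog m = 0 then 0 else 1 := by
  have key : ∀ a b c d : ZMod 2,
      (!![a, b; c, d] : Matrix (Fin 2) (Fin 2) (ZMod 2)) ^ 3 = 1 →
      (!![a, b; c, d] : Matrix (Fin 2) (Fin 2) (ZMod 2)).trace =
        if cubicLog !![a, b; c, d] = 0 then 0 else 1 := by decide +kernel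
  obtain ⟨a, b, c, d, rfl⟩ := exists_eq_entries m
  exact key _ _ _ _ hm

theorem trace_of_pow_three_ne {m : Matrix (Fin 2) (Fin 2) (ZMod 2)} (hdet : m.det ≠ 0)
    (hm : m ^ 3 ≠ 1) : m.trace = 0 := by
  have key : ∀ a b c d : ZMod 2,
      (!![a, b; c, d] : Matrix (Fin 2) (Fin 2) (ZMod 2)).det ≠ 0 →
      (!![a, b; c, d] : Matrix (Fin 2) (Fin 2) (ZMod 2)) ^ 3 ≠ 1 →
      (!![a, b; c, d] : Matrix (Fin 2) (Fin 2) (ZMod 2)).trace = 0 := by decide +kernel
  obtain ⟨a, b, c, d, rfl⟩ := exists_eq_entries m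
  exact key _ _ _ _ hdet hm

theorem eq_one_of_cubicLog_eq_zero' : ∀ a b c d : ZMod 2,
    (!![a, b; c, d] : Matrix (Fin 2) (Fin 2) (ZMod 2)) ^ 3 = 1 →
    cubicLog !![a, b; c, d] = 0 → (!![a, b; c, d] : Matrix (Fin 2) (Fin 2) (ZMod 2)) = 1 := by
  decide +kernel

/-- Two Frobenius elements over a prime where a representation is unramified have the same
trace. -/
theorem Datum.trace_eq_of_frobenius (D : Datum) {ℓ : ℕ} (hℓ : ℓ.Prime) (hB : ℓ ∉ D.B)
    {A A' : ValuationSubring Qbar} (hA : A.LiesOverPrime ℓ) (hA' : A'.LiesOverPrime ℓ)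
    {τ τ' : Γℚ} (hτ : A.IsFrobeniusAt τ ℓ) (hτ' : A'.IsFrobeniusAt τ' ℓ) :
    ((D.ρbar τ' : Matrix (Fin 2) (Fin 2) (ZMod 2))).trace =
      ((D.ρbar τ : Matrix (Fin 2) (Fin 2) (ZMod 2))).trace := by
  obtain ⟨h, rfl⟩ := Galois.exists_smul_eq_of_liesOverPrime hℓ hA hA'
  obtain ⟨h₁, hx⟩ := Density.isFrobeniusAt_conj hτ h
  obtain ⟨h₂, hx'⟩ := hτ'
  have hk : (⟨h * τ * h⁻¹, h₁⟩ : (h • A).decompositionSubgroup ℚ)⁻¹ * ⟨τ', h₂⟩ ∈
      (h • A).inertiaSubgroup ℚ := by
    rw [ValuationSubring.inertiaSubgroup, MonoidHom.mem_ker]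
    refine RingEquiv.ext fun y => ?_
    show ((⟨h * τ * h⁻¹, h₁⟩ : (h • A).decompositionSubgroup ℚ)⁻¹ * ⟨τ', h₂⟩) • y = y
    rw [mul_smul, inv_smul_eq_iff, hx, hx']
  have h3 := D.unram ℓ hℓ hB _ hA' _
    (Subgroup.mem_map_of_mem ((h • A).decompositionSubgroup ℚ).subtype hk)
  rw [Subgroup.coe_subtype, Subgroup.coe_mul, Subgroup.coe_inv, map_mul, map_inv,
    inv_mul_eq_one] at h3
  rw [← h3, map_mul, map_mul, map_inv, Units.val_mul, Units.val_mul, Matrix.trace_units_conj]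

/-- A prime ideal of degree one lies below a place. -/
theorem exists_placeIdeal_eq_of_absNorm {E : IntermediateField ℚ Qbar} [NumberField E] {ℓ : ℕ}
    (hℓ : ℓ.Prime) {L : Ideal (𝓞 E)} (hL : Ideal.absNorm L = ℓ) :
    ∃ A : ValuationSubring Qbar, A.LiesOverPrime ℓ ∧ CFT.placeIdeal E A = L := by
  have hLp : L.IsPrime := Ideal.isPrime_of_irreducible_absNorm (hL ▸ hℓ)
  have hL0 : L ≠ ⊥ := by
    intro h
    rw [h, Ideal.absNorm_bot] at hL
    exact hℓ.ne_zero hL.symm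
  let φ : 𝓞 E →+* Qbar := E.val.toRingHom.comp (algebraMap (𝓞 E) E)
  have hφ : Function.Injective φ := fun a b h =>
    FaithfulSMul.algebraMap_injective (𝓞 E) E (Subtype.ext h)
  let e : 𝓞 E ≃+* φ.range := RingEquiv.ofBijective φ.rangeRestrict
    ⟨fun a b (h : φ.rangeRestrict a = φ.rangeRestrict b) =>
      hφ (congrArg (fun u : φ.range => (u : Qbar)) h), φ.rangeRestrict_surjective⟩
  let I : Ideal φ.range := Ideal.comap (e.symm : φ.range →+* 𝓞 E) L
  have hI : I ≠ ⊤ := fun h => hLp.ne_top (Ideal.comap_eq_top_iff.mp h)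
  obtain ⟨A, -, hA⟩ := Ideal.image_subset_nonunits_valuationSubring I hI
  have hPA : ∀ c ∈ L, φ c ∈ A.nonunits := fun c hc =>
    hA ⟨e c, by
      show e.symm (e c) ∈ L
      rwa [RingEquiv.symm_apply_apply], rfl⟩
  refine ⟨A, ?_, ((hLp.isMaximal hL0).eq_of_le (CFT.placeIdeal_isPrime E A).ne_top fun c hc =>
      (CFT.mem_placeIdeal E).2 (hPA c hc)).symm⟩
  have h := hPA _ (Ideal.absNorm_mem L)
  rwa [map_natCast, hL] at h

namespace Datum

variable (D : Datum)

/-- A Frobenius element at a place of degree one of `ℚ(√-N)` fixes the field, away from `2 N`. -/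
theorem mem_fixingSubgroup_of_absNorm {ℓ : ℕ} (hℓ : ℓ.Prime) (hN : ¬ ℓ ∣ 2 * D.level)
    {A : ValuationSubring Qbar} (hA : A.LiesOverPrime ℓ) {τ : Γℚ} (hτ : A.IsFrobeniusAt τ ℓ)
    (hnorm : Ideal.absNorm (CFT.placeIdeal D.field A) = ℓ) : τ ∈ D.field.fixingSubgroup := by
  have hmax := CFT.placeIdeal_isMaximal D.field hℓ hA
  set P := CFT.placeIdeal D.field A with hP
  let _ := Ideal.Quotient.field P
  have hfin : Finite (𝓞 D.field ⧸ P) := (Ideal.absNorm_ne_zero_iff _).1 (by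
    rw [hnorm]; exact hℓ.ne_zero)
  have := Fintype.ofFinite (𝓞 D.field ⧸ P)
  have hcard : Fintype.card (𝓞 D.field ⧸ P) = ℓ := by
    rw [← Nat.card_eq_fintype_card, ← Submodule.cardQuot_apply, ← Ideal.absNorm_apply, hnorm]
  have h1 : D.sqrtInt ^ ℓ - D.sqrtInt ∈ P := by
    rw [← Ideal.Quotient.eq_zero_iff_mem, map_sub, map_pow, sub_eq_zero]
    conv_lhs => rw [← hcard]
    exact FiniteField.pow_card _
  rw [hP, CFT.mem_placeIdeal] at h1
  have hθA : D.sqrtNeg ∈ A :=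
    Galois.mem_valuationSubring_of_isIntegral A (CFT.isIntegral_coe_int D.field D.sqrtInt)
  have h2 := CFT.frobenius_sub_pow_mem hτ hθA
  have h3 : τ D.sqrtNeg - D.sqrtNeg ∈ A.nonunits := by
    have h := add_mem h2 (show D.sqrtNeg ^ ℓ - D.sqrtNeg ∈ A.nonunits by simpa [sqrtInt, sqrtElt]
      using h1)
    simpa using h
  rw [IntermediateField.mem_fixingSubgroup_iff]
  have hfix : τ D.sqrtNeg = D.sqrtNeg := by
    by_contra hne
    have hsq : τ D.sqrtNeg ^ 2 = D.sqrtNeg ^ 2 := by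
      rw [← map_pow, D.sqrtNeg_sq, map_neg, map_natCast]
    rcases sq_eq_sq_iff_eq_or_eq_neg.1 hsq with h | h
    · exact hne h
    · rw [h] at h3
      have h4 : ((((-4 : ℤ) * D.level : ℤ)) : Qbar) ∈ A.nonunits := by
        have h5 := Mult.mul_mem_nonunits h3
          (show (-D.sqrtNeg - D.sqrtNeg) ∈ A from sub_mem (neg_mem hθA) hθA)
        have e : (-D.sqrtNeg - D.sqrtNeg) * (-D.sqrtNeg - D.sqrtNeg) =
            ((((-4 : ℤ) * D.level : ℤ)) : Qbar) := by
          push_cast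
          linear_combination (4 : Qbar) * D.sqrtNeg_sq
        rwa [e] at h5
      have h6 := (Galois.intCast_mem_nonunits_iff hℓ hA _).1 h4
      rw [neg_mul, dvd_neg] at h6
      have h7 : ℓ ∣ 4 * D.level := by exact_mod_cast h6
      refine hN ?_
      rcases hℓ.dvd_mul.1 h7 with h8 | h8
      · exact Dvd.dvd.mul_right (hℓ.dvd_of_dvd_pow (n := 2) (by norm_num; exact h8)) _
      · exact Dvd.dvd.mul_left h8 _
  have hle : D.field ≤ IntermediateField.fixedField (Subgroup.zpowers τ) := by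
    rw [field, IntermediateField.adjoin_simple_le_iff, IntermediateField.mem_fixedField_iff]
    intro g hg
    obtain ⟨k, rfl⟩ := Subgroup.mem_zpowers_iff.1 hg
    have hs : τ ∈ MulAction.stabilizer Γℚ D.sqrtNeg := hfix
    exact Subgroup.zpow_mem _ hs k
  exact fun x hx =>
    (IntermediateField.mem_fixedField_iff _ _).1 (hle hx) τ (Subgroup.mem_zpowers τ)

theorem det_ne_zero (σ : Γℚ) : ((D.ρbar σ : Matrix (Fin 2) (Fin 2) (ZMod 2))).det ≠ 0 :=
  ((Matrix.isUnit_iff_isUnit_det _).1 (D.ρbar σ).isUnit).ne_zero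

theorem coe_pow_three {σ : Γℚ} (hσ : σ ∈ D.field.fixingSubgroup) :
    (D.ρbar σ : Matrix (Fin 2) (Fin 2) (ZMod 2)) ^ 3 = 1 := by
  rw [← Units.val_pow_eq_pow_val, (D.mem_fixingSubgroup_field_iff σ).1 hσ, Units.val_one]

/-- The cubic character of the absolute Galois group of `ℚ(√-N)`. -/
def cubicFun (σ : Γℚ) : ZMod 3 := cubicLog (D.ρbar σ : Matrix (Fin 2) (Fin 2) (ZMod 2))

theorem cubicFun_eq_zero {σ : Γℚ} (h : D.ρbar σ = 1) : D.cubicFun σ = 0 := by
  rw [cubicFun, h, Units.val_one, cubicLog_one]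

theorem unramifiedChar_cubicFun : CFT.UnramifiedChar 3 D.field D.cubicFun := by
  refine ⟨fun σ τ hσ hτ => ?_, ?_, fun ℓ hℓ A hA σ hσ hσK => D.cubicFun_eq_zero ?_⟩
  · rw [cubicFun, map_mul, Units.val_mul]
    exact cubicLog_mul (D.coe_pow_three hσ) (D.coe_pow_three hτ)
  · obtain ⟨L, hL, h⟩ := D.cont
    exact ⟨L, hL, fun σ _ hfix =>
      D.cubicFun_eq_zero (h σ ((IntermediateField.mem_fixingSubgroup_iff _ _).2 hfix))⟩
  · by_cases hB : ℓ ∈ D.B
    · obtain ⟨σ₀, hσ₀, hne, hall⟩ := D.transp ℓ hB A hA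
      have hy : σ ∈ A.decompositionSubgroup ℚ := by
        obtain ⟨y, -, rfl⟩ := Subgroup.mem_map.mp hσ
        exact y.2
      have hz : σ₀ ∈ A.decompositionSubgroup ℚ := by
        obtain ⟨z, -, rfl⟩ := Subgroup.mem_map.mp hσ₀
        exact z.2
      have h3 := (D.mem_fixingSubgroup_field_iff _).1 hσK
      rcases hall _ hy with h | h
      · exact h
      · have h2 : D.ρbar σ₀ ^ 2 = 1 := by
          rcases hall _ (mul_mem hz hz) with h' | h'
          · rwa [pow_two, ← map_mul]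
          · rw [map_mul] at h'
            exact absurd (mul_eq_left.1 h') hne
        rw [h] at h3
        exact absurd (by simpa [pow_succ, h2] using h3) hne
    · exact D.unram ℓ hℓ hB A hA σ hσ

/-- **The cubic class character of a datum.**  It is nontrivial, and the traces of Frobenius
modulo two away from `2 N` are its values at the primes of degree one. -/
theorem exists_cubicClassChar :
    ∃ χ : ClassGroup (𝓞 D.field) →* Multiplicative (ZMod 3), χ ≠ 1 ∧
      ∀ ℓ : ℕ, ℓ.Prime → ¬ ℓ ∣ 2 * D.level → ∀ A : ValuationSubring Qbar, A.LiesOverPrime ℓ →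
        ∀ τ : Γℚ, A.IsFrobeniusAt τ ℓ →
          (∀ L : (Ideal (𝓞 D.field))⁰, Ideal.absNorm (L : Ideal (𝓞 D.field)) = ℓ →
            ((D.ρbar τ : Matrix (Fin 2) (Fin 2) (ZMod 2))).trace =
              CMFix.cubicValue χ (ClassGroup.mk0 L)) ∧
          ((∀ L : (Ideal (𝓞 D.field))⁰, Ideal.absNorm (L : Ideal (𝓞 D.field)) ≠ ℓ) →
            ((D.ρbar τ : Matrix (Fin 2) (Fin 2) (ZMod 2))).trace = 0) := by
  have : Fact (Nat.Prime 3) := ⟨Nat.prime_three⟩
  obtain ⟨f, hf⟩ := CFT.exists_artinMap_prime (Or.inl (by norm_num)) D.unramifiedChar_cubicFun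
  refine ⟨f, fun h1 => ?_, fun ℓ hℓ hN A hA τ hτ => ?_⟩
  · -- nontrivial, by density
    obtain ⟨σ, hσ⟩ := D.surj (Matrix.GeneralLinearGroup.mkOfDetNeZero !![0, 1; 1, 1] (by decide))
    have hσm : (D.ρbar σ : Matrix (Fin 2) (Fin 2) (ZMod 2)) = !![0, 1; 1, 1] := by
      rw [hσ]; rfl
    have hσK : σ ∈ D.field.fixingSubgroup := by
      rw [D.mem_fixingSubgroup_field_iff]
      refine Units.ext ?_
      rw [Units.val_pow_eq_pow_val, Units.val_one, hσm]
      decide +kernel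
    obtain ⟨L, hLf, hL⟩ := D.cont
    obtain ⟨ℓ, hℓ, -, B, hB, τ, hτ, hτK, -, ⟨j, hj⟩, -⟩ :=
      Density.exists_frobenius_pow_over D.field L σ
        ((IntermediateField.mem_fixingSubgroup_iff _ σ).1 hσK) ∅
    have hτK' : τ ∈ D.field.fixingSubgroup :=
      (IntermediateField.mem_fixingSubgroup_iff _ τ).2 hτK
    have h0 := hf ℓ hℓ B hB τ hτ hτK'
    rw [h1, CFT.addVal, MonoidHom.one_apply, toAdd_one] at h0
    have hρ : D.ρbar ((τ ^ j)⁻¹ * σ) = 1 := by
      refine hL _ ((IntermediateField.mem_fixingSubgroup_iff _ _).2 fun x hx => ?_)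
      rw [AlgEquiv.mul_apply, hj x hx]
      exact (τ ^ j).symm_apply_apply x
    rw [map_mul, map_inv, map_pow, inv_mul_eq_one] at hρ
    have hτ1 : D.ρbar τ = 1 := by
      refine Units.ext ?_
      have h3 := D.coe_pow_three hτK'
      have key : ∀ a b c d : ZMod 2,
          (!![a, b; c, d] : Matrix (Fin 2) (Fin 2) (ZMod 2)) ^ 3 = 1 →
          cubicLog !![a, b; c, d] = 0 → (!![a, b; c, d] : Matrix (Fin 2) (Fin 2) (ZMod 2)) = 1 :=
        eq_one_of_cubicLog_eq_zero'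
      have h0' : cubicLog (D.ρbar τ : Matrix (Fin 2) (Fin 2) (ZMod 2)) = 0 := h0.symm
      rw [Units.val_one]
      obtain ⟨a, b, c, d, e⟩ := exists_eq_entries (D.ρbar τ : Matrix (Fin 2) (Fin 2) (ZMod 2))
      rw [e] at h3 h0' ⊢
      exact key _ _ _ _ h3 h0'
    rw [hτ1, one_pow] at hρ
    rw [← hρ, Units.val_one] at hσm
    revert hσm
    decide
  · have hℓN : ¬ ℓ ∣ D.level := fun h => hN (Dvd.dvd.mul_left h 2)
    have hℓB : ℓ ∉ D.B := fun h => hℓN (Finset.dvd_prod_of_mem _ h)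
    have hval : ∀ (B : ValuationSubring Qbar) (hB : B.LiesOverPrime ℓ) (σ : Γℚ),
        B.IsFrobeniusAt σ ℓ → σ ∈ D.field.fixingSubgroup →
          ((D.ρbar σ : Matrix (Fin 2) (Fin 2) (ZMod 2))).trace =
            CMFix.cubicValue f (ClassGroup.mk0 (CFT.placeNZ D.field hℓ hB)) := by
      intro B hB σ hσ hσK
      rw [trace_of_pow_three (D.coe_pow_three hσK), CMFix.cubicValue]
      have h0 := hf ℓ hℓ B hB σ hσ hσK
      rw [CFT.addVal, cubicFun] at h0
      rw [← h0]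
      simp only [toAdd_eq_zero]
    refine ⟨fun L hL => ?_, fun hnone => ?_⟩
    · obtain ⟨B, hB, hBL⟩ := exists_placeIdeal_eq_of_absNorm hℓ hL
      obtain ⟨σ, hσ⟩ := Galois.exists_isFrobeniusAt hℓ hB
      have hσK := D.mem_fixingSubgroup_of_absNorm hℓ hN hB hσ (by rw [hBL, hL])
      rw [trace_eq_of_frobenius D hℓ hℓB hB hA hσ hτ, hval B hB σ hσ hσK]
      congr 2
      exact Subtype.ext hBL
    · refine trace_of_pow_three_ne (D.det_ne_zero τ) fun h3 => ?_
      have hτK : τ ∈ D.field.fixingSubgroup := by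
        rw [D.mem_fixingSubgroup_field_iff]
        exact Units.ext (by rw [Units.val_pow_eq_pow_val, Units.val_one, h3])
      exact hnone (CFT.placeNZ D.field hℓ hA) (CFT.absNorm_placeIdeal D.field hℓ hA hτ
        ((IntermediateField.mem_fixingSubgroup_iff _ τ).1 hτK))

end Datum

end Fermat.Agent.Residual

end
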