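/-
The fixed places of an involution inject, modulo their total, into classes modulo `1 + w`.
-/
import Fermat.Agent.Residual.FixPlaces
import Fermat.Agent.Curve.BasicInstances

set_option autoImplicit false

noncomputable section

open AlgebraicCurve

namespace Fermat.Agent.Residual

open scoped Pointwise

variable {K F : Type*} [Field K] [Field F] [Algebra K F] [IsAlgClosed K]
  [Curve.IsFunctionFieldOne K F] (w : F ≃ₐ[K] F)

theorem smul_smul_of_involutive (hw : ∀ f, w (w f) = f) (v : Place K F) : w • w • v = v := by
  rw [← mul_smul, show w * w = 1 from AlgEquiv.ext hw, one_smul]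

theorem divisor_smul_apply_of_involutive (hw : ∀ f, w (w f) = f) (E : Divisor K F)
    (v : Place K F) : (w • E) v = E (w • v) := by
  rw [Divisor.smul_apply, inv_eq_of_mul_eq_one_right (show w * w = 1 from AlgEquiv.ext hw)]

theorem exists_eq_algebraMap_of_ord_eq_zero {h : F} (hord : ∀ v : Place K F, v.ord h = 0) :
    ∃ c : K, h = algebraMap K F c := by
  have halg := Curve.isAlgebraic_of_forall_ord_nonneg (K := K) fun v => (hord v).ge
  have hdeg := IsAlgClosed.degree_eq_one_of_irreducible K (minpoly.irreducible halg.isIntegral)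
  obtain ⟨c, hc⟩ := minpoly.mem_range_of_degree_eq_one K h hdeg
  exact ⟨c, hc.symm⟩

/-- If a function has a divisor invariant under an involution it is invariant or anti-invariant. -/
theorem exists_sign_of_invariant_divisor (hw : ∀ f, w (w f) = f) {f : F} (hf : f ≠ 0)
    (h : ∀ v : Place K F, (w • v).ord f = v.ord f) :
    ∃ ε : K, (ε = 1 ∨ ε = -1) ∧ w f = algebraMap K F ε * f := by
  have hwf : w f ≠ 0 := (map_ne_zero_iff _ w.injective).mpr hf
  have hord : ∀ v : Place K F, v.ord (w f * f⁻¹) = 0 := by
    intro v
    rw [v.ord_mul hwf (inv_ne_zero hf), v.ord_inv]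
    have h1 := Place.ord_smul w (w • v) f
    rw [smul_smul_of_involutive w hw, h] at h1
    omega
  obtain ⟨c, hc⟩ := exists_eq_algebraMap_of_ord_eq_zero hord
  have hwc : w f = algebraMap K F c * f := by rw [← hc, inv_mul_cancel_right₀ hf]
  refine ⟨c, ?_, hwc⟩
  have h2 := hw f
  rw [hwc, map_mul, AlgEquiv.commutes, hwc, ← mul_assoc, ← map_mul, ← sq] at h2
  have h3 : algebraMap K F (c ^ 2) * f = algebraMap K F 1 * f := by rw [h2, map_one, one_mul]
  exact sq_eq_one_iff.mp ((algebraMap K F).injective (mul_right_cancel₀ hf h3))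

variable [NeZero (2 : K)]

/-- A divisor supported on fixed places which is principal modulo `E + w E` has coefficients of
one parity on the fixed places. -/
theorem parity_of_principal_add_norm (hw : ∀ f, w (w f) = f) (hne : w ≠ AlgEquiv.refl)
    {D E : Divisor K F} (hD : ∀ v, w • v ≠ v → D v = 0) {f : F} (hf : f ≠ 0)
    (h : ∀ v : Place K F, D v = v.ord f + (E v + (w • E) v)) :
    (∀ v : Place K F, w • v = v → Even (D v)) ∨ (∀ v : Place K F, w • v = v → Odd (D v)) := by
  simp only [divisor_smul_apply_of_involutive w hw] at h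
  have hDw : ∀ v, D (w • v) = D v := by
    intro v
    by_cases hv : w • v = v
    · rw [hv]
    · rw [hD v hv, hD (w • v) (fun e => hv (by rw [smul_smul_of_involutive w hw] at e; exact e.symm))]
  obtain ⟨ε, hε, hwf⟩ := exists_sign_of_invariant_divisor w hw hf fun v => by
    have h1 := h (w • v)
    have h2 := h v
    rw [smul_smul_of_involutive w hw, hDw] at h1
    omega
  have hpar : ∀ v : Place K F, w • v = v → ε = (-1) ^ v.ord f := by
    intro v hv
    haveI : v.FiniteResidue := ⟨Curve.finite_residueField v⟩
    exact eval_sign_of_fixed w hw hne hv hf hwf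
  have hDv : ∀ v : Place K F, w • v = v → D v = v.ord f + 2 * E v := fun v hv => by
    rw [h v, hv]; ring
  have hneg : (-1 : K) ≠ 1 := fun e => NeZero.ne (2 : K) (by linear_combination -e)
  rcases hε with rfl | rfl
  · left
    intro v hv
    rw [hDv v hv]
    refine Even.add ?_ ⟨E v, by ring⟩
    by_contra hodd
    rw [Int.not_even_iff_odd] at hodd
    have := hpar v hv
    rw [hodd.neg_one_zpow] at this
    exact hneg this.symm
  · right
    intro v hv
    rw [hDv v hv]
    refine Odd.add_even ?_ ⟨E v, by ring⟩
    by_contra heven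
    rw [Int.not_odd_iff_even] at heven
    have := hpar v hv
    rw [heven.neg_one_zpow] at this
    exact hneg this

end Fermat.Agent.Residual
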