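/-
Residual modularity at 3, excess at `w_N`: the parities of an invariant divisor at the
fixed places of an involution, and how correspondences act on them.
-/
import Fermat.Agent.Residual.AlinvCorr
import Fermat.Agent.Residual.FixPlacesInj
import Mathlib.Data.ZMod.Basic
import Mathlib.Algebra.Field.ZMod
import Mathlib.Data.Fintype.BigOperators
import Mathlib.LinearAlgebra.Pi

set_option autoImplicit false

noncomputable section

open AlgebraicCurve

namespace Fermat.Agent.Residual

variable {K F : Type*} [Field K] [Field F] [Algebra K F] [Curve.IsFunctionFieldOne K F]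
  {w : F ≃ₐ[K] F} {G : Type*}

omit [Curve.IsFunctionFieldOne K F] in
/-- The parities of a divisor at the fixed places, indexed by `G`. -/
def parityVec (ε : G ≃ fixedPlaces w) (D : Divisor K F) : G → ZMod 2 :=
  fun g => (D (ε g).1 : ZMod 2)

omit [Curve.IsFunctionFieldOne K F] in
theorem parityVec_apply (ε : G ≃ fixedPlaces w) (D : Divisor K F) (g : G) :
    parityVec ε D g = (D (ε g).1 : ZMod 2) := rfl

variable (hw : ∀ f, w (w f) = f)
include hw

omit [Curve.IsFunctionFieldOne K F] in
theorem parityVec_add_smul (ε : G ≃ fixedPlaces w) (E : Divisor K F) :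
    parityVec ε (E + w • E) = 0 := by
  funext g
  rw [parityVec_apply, Finsupp.add_apply, smul_divisor_apply hw, (ε g).2, Int.cast_add,
    Pi.zero_apply, CharTwo.add_self_eq_zero]

omit [Curve.IsFunctionFieldOne K F] in
/-- An invariant divisor of degree zero with even coefficients at the fixed places gives a norm. -/
theorem exists_mk_eq_add_smul_of_parity [IsAlgClosed K] (ε : G ≃ fixedPlaces w)
    {D : Divisor.degZero (K := K) (F := F)} (hD : w • (D : Divisor K F) = (D : Divisor K F))
    (h0 : parityVec ε (D : Divisor K F) = 0) : ∃ y : Pic0 K F, Pic0.mk D = y + w • y := by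
  classical
  obtain ⟨E, S, hS, hDE⟩ := exists_eq_add_smul_add hw hD
  have hev : ∀ Q, Even (S Q) := by
    intro Q
    by_cases hQ : Q ∈ S.support
    · have hQf : w • Q = Q := hS Q hQ
      have h1 := congrFun h0 (ε.symm ⟨Q, hS Q hQ⟩)
      rw [parityVec_apply, Equiv.apply_symm_apply, hDE, Finsupp.add_apply, Finsupp.add_apply,
        smul_divisor_apply hw, hQf, Pi.zero_apply] at h1
      have h2 := (ZMod.intCast_zmod_eq_zero_iff_dvd _ 2).1 h1
      rw [Nat.cast_two] at h2
      obtain ⟨k, hk⟩ := h2
      simp only at hk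
      exact ⟨k - E Q, by omega⟩
    · rw [Finsupp.notMem_support_iff.mp hQ]
      exact Even.zero
  let H : Divisor K F := S.mapRange (fun n => n / 2) (by norm_num)
  have hH : S = H + H := by
    ext Q
    obtain ⟨k, hk⟩ := hev Q
    simp [H, hk, ← two_mul]
  have hwH : w • H = H := smul_eq_self_of_fixed hw fun v hv =>
    hS v (Finsupp.support_mapRange hv)
  have hdeg : E + H ∈ Divisor.degZero (K := K) (F := F) := by
    have h := Divisor.mem_degZero.mp D.2
    rw [hDE, map_add, map_add, Divisor.degree_smul, hH, map_add] at h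
    rw [Divisor.mem_degZero, map_add]
    omega
  refine ⟨Pic0.mk ⟨_, hdeg⟩, ?_⟩
  rw [smul_mk_degZero, ← Pic0.mk_add]
  refine mk_eq_of_eq ?_
  show (D : Divisor K F) = E + H + w • (E + H)
  rw [hDE, smul_add, hwH, hH]
  abel

variable [Fintype G]

/-- The action of a correspondence on parities is given by its matrix at the fixed places. -/
theorem parityVec_toDiv (ε : G ≃ fixedPlaces w) {T : Correspondence K F} (hT : T.CommutesWith w)
    {D : Divisor K F} (hD : w • D = D) (g : G) :
    parityVec ε (T.toDiv D) g = ∑ g', parityVec ε D g' *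
      (T.toDiv (Finsupp.single (ε g').1 1) (ε g).1 : ZMod 2) := by
  classical
  obtain ⟨E, S, hS, hDE⟩ := exists_eq_add_smul_add hw hD
  have hpar : ∀ g', parityVec ε D g' = (S (ε g').1 : ZMod 2) := by
    intro g'
    rw [parityVec_apply, hDE, Finsupp.add_apply, Int.cast_add,
      show ((E + w • E) (ε g').1 : ZMod 2) = 0 from congrFun (parityVec_add_smul hw ε E) g',
      zero_add]
  have hS' : S = ∑ g', S (ε g').1 • Finsupp.single (ε g').1 (1 : ℤ) := by
    ext Q
    rw [Finsupp.finsetSum_apply]
    by_cases hQ : w • Q = Q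
    · rw [Finset.sum_eq_single (ε.symm ⟨Q, hQ⟩)
        (fun g' _ hne => ?_) (fun h => absurd (Finset.mem_univ _) h)]
      · simp
      · have : (ε g').1 ≠ Q := fun e => hne (ε.injective (Subtype.ext (by simp [e])))
        simp [this]
    · rw [Finset.sum_eq_zero fun g' _ => ?_]
      · exact Finsupp.notMem_support_iff.mp fun h => hQ (hS Q h)
      · have : (ε g').1 ≠ Q := fun e => hQ (e ▸ (ε g').2)
        simp [this]
  have h1 : parityVec ε (T.toDiv D) g = (T.toDiv S (ε g).1 : ZMod 2) := by
    rw [parityVec_apply, hDE, map_add T.toDiv, map_add T.toDiv, hT.smul_toDiv, Finsupp.add_apply,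
      Int.cast_add, show ((T.toDiv E + w • T.toDiv E) (ε g).1 : ZMod 2) = 0 from
        congrFun (parityVec_add_smul hw ε (T.toDiv E)) g, zero_add]
  rw [h1, hS', map_sum, Finsupp.finsetSum_apply, Int.cast_sum]
  refine Finset.sum_congr rfl fun g' _ => ?_
  rw [map_zsmul, Finsupp.smul_apply, smul_eq_mul, Int.cast_mul, hpar g']

/-- Iterates of `T - a` on parities. -/
theorem parityVec_iterate (ε : G ≃ fixedPlaces w) {T : Correspondence K F} (hT : T.CommutesWith w)
    (a : ℤ) (op : Module.End (ZMod 2) (G → ZMod 2))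
    (hop : ∀ (x : G → ZMod 2) (g : G),
      ∑ g', x g' * (T.toDiv (Finsupp.single (ε g').1 1) (ε g).1 : ZMod 2) = op x g)
    (k : ℕ) {D : Divisor.degZero (K := K) (F := F)}
    (hD : w • (D : Divisor K F) = (D : Divisor K F)) :
    ∃ D' : Divisor.degZero (K := K) (F := F), w • (D' : Divisor K F) = (D' : Divisor K F) ∧
      ((T.pic.toIntLinearMap - a • 1 : Module.End ℤ (Pic0 K F)) ^ k) (Pic0.mk D) = Pic0.mk D' ∧
      parityVec ε (D' : Divisor K F) =
        ((op - (a : ZMod 2) • 1) ^ k) (parityVec ε (D : Divisor K F)) := by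
  induction k with
  | zero => exact ⟨D, hD, by simp, by simp⟩
  | succ k ih =>
    obtain ⟨D', hD', hmk, hp⟩ := ih
    refine ⟨⟨T.toDiv D', T.toDiv_mem_degZero D'.2⟩ - a • D', ?_, ?_, ?_⟩
    · show w • (T.toDiv (D' : Divisor K F) - a • (D' : Divisor K F)) = _
      rw [smul_sub, ← hT.smul_toDiv, smul_comm w a, hD']
      rfl
    · rw [pow_succ', Module.End.mul_apply, hmk, LinearMap.sub_apply, LinearMap.smul_apply,
        Module.End.one_apply, AddMonoidHom.coe_toIntLinearMap, Correspondence.pic_mk]
      rfl
    · rw [pow_succ', Module.End.mul_apply, ← hp]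
      funext g
      simp only [LinearMap.sub_apply, LinearMap.smul_apply, Module.End.one_apply, Pi.sub_apply,
        Pi.smul_apply, smul_eq_mul]
      rw [← hop, ← parityVec_toDiv hw ε hT hD', parityVec_apply, parityVec_apply, parityVec_apply]
      show ((T.toDiv (D' : Divisor K F) - a • (D' : Divisor K F)) (ε g).1 : ZMod 2) = _
      rw [Finsupp.sub_apply, Finsupp.smul_apply, smul_eq_mul, Int.cast_sub, Int.cast_mul]

end Fermat.Agent.Residual

end
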