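/-
Residual modularity at 3, excess at `w_N`: an involution with fixed places and commuting
correspondences. On the common generalised eigenspace in the `2`-power torsion the fixed elements
of order two are differences, and every parity vector killed by the correspondences gives a fixed
element, distinct vectors staying distinct modulo norms.
-/
import Fermat.Agent.Residual.ExcessParity
import Fermat.Agent.Residual.ExcessProjection
import Fermat.Agent.Residual.AlinvGroup

set_option autoImplicit false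

noncomputable section

open AlgebraicCurve

namespace Fermat.Agent.Residual

variable {K F : Type*} [Field K] [Field F] [Algebra K F] [Curve.IsFunctionFieldOne K F]

/-- Killed by powers of every `T i - a i`. -/
def LocallyNilpotent {ι : Type*} (T : ι → Correspondence K F) (a : ι → ℤ) (x : Pic0 K F) : Prop :=
  ∀ i, ∃ k, (((T i).pic.toIntLinearMap - a i • 1 : Module.End ℤ (Pic0 K F)) ^ k) x = 0

variable [IsAlgClosed K] [CharZero K] {w : F ≃ₐ[K] F}

omit [CharZero K] in
/-- An invariant divisor of degree zero with given parities at the fixed places and no other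
support. -/
theorem exists_fixedDivisor (hw : ∀ f, w (w f) = f) {G : Type*} [Fintype G] [One G]
    (ε : G ≃ fixedPlaces w) {u : G → ZMod 2} (hu : ∑ g, u g = 0) :
    ∃ D : Divisor.degZero (K := K) (F := F), w • (D : Divisor K F) = (D : Divisor K F) ∧
      (∀ v, w • v ≠ v → (D : Divisor K F) v = 0) ∧ parityVec ε (D : Divisor K F) = u := by
  classical
  have h2 : (2 : ℤ) ∣ ∑ g, ((u g).val : ℤ) := by
    have h := (ZMod.intCast_zmod_eq_zero_iff_dvd (∑ g, ((u g).val : ℤ)) 2).1 (by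
      rw [Int.cast_sum]
      simpa using hu)
    exact_mod_cast h
  obtain ⟨m, hm⟩ := h2
  set S : Divisor K F := (∑ g, Finsupp.single (ε g).1 ((u g).val : ℤ)) -
    Finsupp.single (ε 1).1 (2 * m) with hS
  have hdeg : S ∈ Divisor.degZero (K := K) (F := F) := by
    rw [Divisor.mem_degZero, hS, map_sub, map_sum]
    simp only [Divisor.degree_single, Curve.deg_eq_one, Nat.cast_one, mul_one]
    rw [hm, sub_self]
  have hoff : ∀ v, w • v ≠ v → S v = 0 := by
    intro v hv
    have h : ∀ g, (ε g).1 ≠ v := fun g e => hv (e ▸ (ε g).2)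
    simp [hS, h]
  refine ⟨⟨S, hdeg⟩, smul_eq_self_of_fixed hw (S := S) fun v hv => ?_, hoff, ?_⟩
  · by_contra hc
    exact (Finsupp.mem_support_iff.mp hv) (hoff v hc)
  · funext g
    show (S (ε g).1 : ZMod 2) = u g
    rw [hS, Finsupp.sub_apply, Finsupp.finsetSum_apply, Int.cast_sub,
      Finset.sum_eq_single g (fun g' _ hne => ?_) (fun h => absurd (Finset.mem_univ _) h)]
    · rw [Finsupp.single_eq_same, Int.cast_natCast, ZMod.natCast_zmod_val, Finsupp.single_apply]
      split <;> simp [show (2 : ZMod 2) = 0 from rfl]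
    · exact Finsupp.single_eq_of_ne fun e => hne (ε.injective (Subtype.ext e.symm))

/-- **Excess**, for an abstract involution. -/
theorem excess_of_parityData (hw : ∀ f, w (w f) = f) (hne : w ≠ AlgEquiv.refl)
    {G ι : Type*} [Fintype G] [One G] (ε : G ≃ fixedPlaces w)
    (T : ι → Correspondence K F) (hT : ∀ i, (T i).CommutesWith w) (a : ι → ℤ)
    (hcomm : ∀ i j, ∀ x : Pic0 K F, 4 • x = 0 → (T i).pic ((T j).pic x) = (T j).pic ((T i).pic x))
    (hdiv : ∀ x : Pic0 K F, ∃ y, (2 : ℕ) • y = x) (hfin : {x : Pic0 K F | 4 • x = 0}.Finite)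
    (op : ι → Module.End (ZMod 2) (G → ZMod 2))
    (hop : ∀ i (x : G → ZMod 2) (g : G),
      ∑ g', x g' * ((T i).toDiv (Finsupp.single (ε g').1 1) (ε g).1 : ZMod 2) = op i x g)
    (U : Submodule (ZMod 2) (G → ZMod 2)) (hsum : ∀ u ∈ U, ∑ g, u g = 0)
    (hconst : (fun _ => 1 : G → ZMod 2) ∉ U) {k₀ : ℕ} (hk₀ : 0 < k₀)
    (hnil : ∀ i, ∀ u ∈ U, ((op i - (a i : ZMod 2) • 1) ^ k₀) u = 0) :
    (∀ x : Pic0 K F, 2 • x = 0 → w • x = x → LocallyNilpotent T a x →
      ∃ y, 4 • y = 0 ∧ LocallyNilpotent T a y ∧ x = y - w • y) ∧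
    ∃ f : U → Pic0 K F, (∀ u, 4 • f u = 0 ∧ LocallyNilpotent T a (f u) ∧ w • f u = f u) ∧
      ∀ u v y, f u - f v = y + w • y → u = v := by
  classical
  let t : ι → Module.End ℤ (Pic0 K F) := fun i => (T i).pic.toIntLinearMap - a i • 1
  have ht : ∀ i x, t i x = (T i).pic x - a i • x := fun i x => rfl
  let B : AddSubgroup (Pic0 K F) := (nsmulAddMonoidHom 4).ker
  have hBfin : Finite B := hfin.to_subtype
  have hB : ∀ x, x ∈ B ↔ 4 • x = 0 := fun x => Iff.rfl
  have htB : ∀ i, ∀ x ∈ B, t i x ∈ B := fun i x hx => by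
    rw [hB] at hx ⊢
    rw [← map_nsmul, hx, map_zero]
  have htcomm : ∀ i j, ∀ x ∈ B, t i (t j x) = t j (t i x) := fun i j x hx => by
    simp only [ht, map_sub, map_zsmul, zsmul_sub]
    rw [hcomm i j x ((hB x).1 hx), ← mul_zsmul, ← mul_zsmul, mul_comm (a i) (a j)]
    abel
  obtain ⟨e, he1, he2, he3, he4⟩ := exists_projection t B htB htcomm hk₀
  have hwt : ∀ i (x : Pic0 K F), w • t i x = t i (w • x) := fun i x => by
    rw [ht, ht, smul_sub, (hT i).pic_smul, smul_comm w (a i)]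
  have hew : ∀ x : Pic0 K F, w • e x = e (w • x) :=
    he1 (DistribSMul.toAddMonoidHom _ w).toIntLinearMap hwt
  let H : AddSubgroup (Pic0 K F) :=
    (AddMonoidHom.id _ + DistribSMul.toAddMonoidHom (Pic0 K F) w).range
  have hHmem : ∀ x, x ∈ H ↔ ∃ y, x = y + w • y := fun x =>
    ⟨fun ⟨y, hy⟩ => ⟨y, hy.symm⟩, fun ⟨y, hy⟩ => ⟨y, hy.symm⟩⟩
  have htH : ∀ i, ∀ x ∈ H, t i x ∈ H := fun i x hx => by
    obtain ⟨y, rfl⟩ := (hHmem x).1 hx
    exact (hHmem _).2 ⟨t i y, by rw [map_add, hwt]⟩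
  obtain ⟨heH, hclose⟩ := he4 H htH
  refine ⟨fun x h2 hfix hx => ?_, ?_⟩
  · obtain ⟨P, hP⟩ : ∃ P, P ∈ fixedPlaces w := ⟨(ε 1).1, (ε 1).2⟩
    obtain ⟨y, hy⟩ := exists_sub_smul_of_fixedPlaces_nonempty hw (normSurjective hw hne) hP
      (x := x) (by rw [hfix, ← two_nsmul, h2])
    obtain ⟨z, hz2, hz⟩ := exists_half_eq_sub (DistribSMul.toAddMonoidHom (Pic0 K F) w)
      (fun b => smul_smul_class hw b) hdiv (x := x) (y := y) hy
    have hz4 : z ∈ B := (hB z).2 (by rw [show 4 = 2 * 2 from rfl, mul_nsmul', hz2, h2])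
    refine ⟨e z, (hB _).1 (he2 z hz4).1, (he2 z hz4).2, ?_⟩
    have hx4 : x ∈ B := (hB x).2 (by rw [show 4 = 2 * 2 from rfl, mul_nsmul', h2, nsmul_zero])
    calc x = e x := (he3 x hx4 hx).symm
      _ = e (z - w • z) := congrArg e hz
      _ = e z - w • e z := by rw [map_sub, hew]
  have hchoice : ∀ u : U, ∃ (D : Divisor.degZero (K := K) (F := F)) (c : Pic0 K F),
      (w • (D : Divisor K F) = (D : Divisor K F) ∧ (∀ v, w • v ≠ v → (D : Divisor K F) v = 0) ∧
        parityVec ε (D : Divisor K F) = u.1) ∧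
      4 • c = 0 ∧ LocallyNilpotent T a c ∧ w • c = c ∧ c - Pic0.mk D ∈ H := by
    intro u
    obtain ⟨D, hD, hoff, hpar⟩ := exists_fixedDivisor hw ε (hsum u.1 u.2)
    have hdfix : w • Pic0.mk D = Pic0.mk D := by
      rw [smul_mk_degZero]
      exact mk_eq_of_eq hD
    obtain ⟨v, hv⟩ := exists_two_nsmul_sub_eq_zero (DistribSMul.toAddMonoidHom (Pic0 K F) w)
      hdiv (x := Pic0.mk D) hdfix
    set c := Pic0.mk D - (v + w • v) with hc
    have hc2 : 2 • c = 0 := hv
    have hc4 : c ∈ B := (hB c).2 (by rw [show 4 = 2 * 2 from rfl, mul_nsmul', hc2, nsmul_zero])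
    have hcfix : w • c = c := by
      rw [hc, smul_sub, smul_add, smul_smul_class hw, hdfix, add_comm (w • v) v]
    have hcH : c - Pic0.mk D ∈ H := by
      rw [hc, show Pic0.mk D - (v + w • v) - Pic0.mk D = -(v + w • v) by abel]
      exact neg_mem ((hHmem _).2 ⟨v, rfl⟩)
    have hpow : ∀ i k, k₀ ∣ k → 0 < k → (t i ^ k) c ∈ H := by
      intro i k hdvd hk
      obtain ⟨D', hD', hmk, hp⟩ := parityVec_iterate hw ε (hT i) (a i) (op i) (hop i) k hD
      have hzero : parityVec ε (D' : Divisor K F) = 0 := by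
        rw [hp, hpar, ← Nat.sub_add_cancel (Nat.le_of_dvd hk hdvd), pow_add,
          Module.End.mul_apply, hnil i u.1 u.2, map_zero]
      obtain ⟨y, hy⟩ := exists_mk_eq_add_smul_of_parity hw ε hD' hzero
      have h1 : (t i ^ k) (Pic0.mk D) ∈ H := (hHmem _).2 ⟨y, hmk.trans hy⟩
      rw [show c = (c - Pic0.mk D) + Pic0.mk D by abel, map_add]
      exact add_mem (pow_mem_of_mem H (htH i) k hcH) h1
    refine ⟨D, e c, ⟨hD, hoff, hpar⟩, (hB _).1 (he2 c hc4).1, (he2 c hc4).2, ?_, ?_⟩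
    · rw [hew, hcfix]
    · rw [show e c - Pic0.mk D = (e c - c) + (c - Pic0.mk D) by abel]
      exact add_mem (hclose c hpow) hcH
  choose D c hD hc using hchoice
  refine ⟨c, fun u => ⟨(hc u).1, (hc u).2.1, (hc u).2.2.1⟩, fun u v y hy => ?_⟩
  obtain ⟨hDu, hoffu, hparu⟩ := hD u
  obtain ⟨hDv, hoffv, hparv⟩ := hD v
  have hmemH : Pic0.mk (D u - D v) ∈ H := by
    have e1 : Pic0.mk (D u) - Pic0.mk (D v) =
        (c u - c v) - (c u - Pic0.mk (D u)) + (c v - Pic0.mk (D v)) := by abel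
    rw [show Pic0.mk (D u - D v) = Pic0.mk (D u) - Pic0.mk (D v) from map_sub
      (QuotientAddGroup.mk' _) _ _, e1]
    exact add_mem (sub_mem ((hHmem _).2 ⟨y, hy⟩) (hc u).2.2.2) (hc v).2.2.2
  obtain ⟨z, hz⟩ := (hHmem _).1 hmemH
  obtain ⟨E, rfl⟩ := Pic0.mk_surjective z
  rw [smul_mk_degZero, ← Pic0.mk_add, mk_eq_mk_iff] at hz
  obtain ⟨φ, hφ, hdivφ⟩ := exists_divisorOf_of_mem_principal hz
  simp only [AddSubgroup.coe_add, AddSubgroup.coe_sub] at hdivφ
  have hpr : ∀ Q : Place K F, ((D u : Divisor K F) - (D v : Divisor K F)) Q =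
      Q.ord φ + ((E : Divisor K F) Q + (w • (E : Divisor K F)) Q) := by
    intro Q
    have h := congrArg (fun d : Divisor K F => d Q) hdivφ
    simp only [Finsupp.sub_apply, Finsupp.add_apply, Curve.divisorOf_apply] at h ⊢
    omega
  have hoff : ∀ Q, w • Q ≠ Q → ((D u : Divisor K F) - (D v : Divisor K F)) Q = 0 := fun Q hQ => by
    rw [Finsupp.sub_apply, hoffu Q hQ, hoffv Q hQ, sub_zero]
  have h2K : NeZero (2 : K) := ⟨two_ne_zero⟩
  have hdiff : ∀ g, u.1 g - v.1 g =
      (((D u : Divisor K F) - (D v : Divisor K F)) (ε g).1 : ZMod 2) := fun g => by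
    rw [Finsupp.sub_apply, Int.cast_sub, ← hparu, ← hparv]
    rfl
  rcases parity_of_principal_add_norm w hw hne hoff hφ hpr with heven | hodd
  · refine Subtype.ext (funext fun g => sub_eq_zero.1 ?_)
    rw [hdiff, ZMod.intCast_eq_zero_iff_even.2 (heven _ (ε g).2)]
  · refine absurd ?_ hconst
    have : (fun _ => 1 : G → ZMod 2) = u.1 - v.1 := funext fun g => by
      rw [Pi.sub_apply, hdiff, ZMod.intCast_eq_one_iff_odd.2 (hodd _ (ε g).2)]
    rw [this]
    exact sub_mem u.2 v.2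

end Fermat.Agent.Residual

end
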