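/-
The fixed points of the Fricke involution of `X₀(N)` are the ideal classes of `ℚ(√-N)`.
-/
import Fermat.Agent.Residual.CMFixField
import Mathlib.NumberTheory.NumberField.ClassNumber
import Mathlib.LinearAlgebra.FreeModule.PID

set_option autoImplicit false

noncomputable section

open Matrix NumberField UpperHalfPlane CongruenceSubgroup
open scoped MatrixGroups nonZeroDivisors

namespace Fermat.Agent.Residual.CMFix

/-- The ideal `J` is the group generated by `w₀, w₁`. -/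
def Rep {R : Type*} [CommRing R] (J : Ideal R) (w0 w1 : R) : Prop :=
  ∀ w, w ∈ J ↔ ∃ u v : ℤ, w = u * w0 + v * w1

theorem Rep.mem_left {R : Type*} [CommRing R] {J : Ideal R} {w0 w1 : R} (h : Rep J w0 w1) :
    w0 ∈ J := (h w0).2 ⟨1, 0, by simp⟩

theorem Rep.mem_right {R : Type*} [CommRing R] {J : Ideal R} {w0 w1 : R} (h : Rep J w0 w1) :
    w1 ∈ J := (h w1).2 ⟨0, 1, by simp⟩

namespace SqrtNeg

variable {N : ℕ} [NeZero N] {K : Type*} [Field K] [NumberField K] (S : SqrtNeg N K)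

/-- `N z`. -/
def genA (P : CMData N) : 𝓞 K := ((N : ℤ) * P.z : ℤ)

/-- `N x + √-N`. -/
def genB (P : CMData N) : 𝓞 K := ((N : ℤ) * P.x : ℤ) + S.θ

/-- The ideal attached to a fixed point: `N z (ℤ τ + ℤ)`. -/
def idl (P : CMData N) : Ideal (𝓞 K) := Ideal.span {genA P, S.genB P}

omit [NeZero N] in
theorem genA_ne_zero [NeZero N] (P : CMData N) : genA (K := K) P ≠ 0 := by
  simp [genA, NeZero.ne N, P.z_pos.ne']

theorem emb_genA (P : CMData N) : S.emb (genA P) = (N : ℂ) * P.z := by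
  simp [genA]

theorem emb_genB (P : CMData N) : S.emb (S.genB P) = (N : ℂ) * P.z * (P.pt : ℂ) := by
  rw [genB, map_add, emb_θ, P.nz_mul_pt]
  simp

theorem idl_ne_bot (P : CMData N) : S.idl P ≠ ⊥ := fun h =>
  genA_ne_zero (K := K) P (Ideal.mem_bot.1 (h ▸ Ideal.subset_span (Set.mem_insert _ _)))

/-- The class attached to a fixed point. -/
def cls (P : CMData N) : ClassGroup (𝓞 K) :=
  ClassGroup.mk0 ⟨S.idl P, mem_nonZeroDivisors_iff_ne_zero.2 (S.idl_ne_bot P)⟩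

variable (hN : Squarefree N) (h4 : N % 4 ≠ 3)
include hN h4

theorem rep_idl (P : CMData N) : Rep (S.idl P) (S.genB P) (genA P) := by
  intro w
  rw [idl, Ideal.mem_span_pair]
  constructor
  · rintro ⟨p, q, rfl⟩
    obtain ⟨a, b, rfl⟩ := S.exists_coord hN h4 p
    obtain ⟨c, e, rfl⟩ := S.exists_coord hN h4 q
    refine ⟨c + b * N * P.z + e * N * P.x, a - b * N * P.x + e * P.y, ?_⟩
    have hy : (P.y : 𝓞 K) * P.z = -((N : 𝓞 K) * (P.x : 𝓞 K) ^ 2 + 1) := by
      exact_mod_cast congrArg (fun t : ℤ => (t : 𝓞 K)) P.y_mul_z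
    have hsq := S.sq
    simp only [genA, genB]
    push_cast
    linear_combination (e : 𝓞 K) * hsq - (e : 𝓞 K) * (N : 𝓞 K) * hy
  · rintro ⟨u, v, rfl⟩
    exact ⟨v, u, by ring⟩

/-- An ideal whose lattice is homothetic to that of a fixed point has the same class. -/
theorem mk0_eq_cls_of_rep {J : (Ideal (𝓞 K))⁰} {w0 w1 : 𝓞 K} (hJ : Rep (J : Ideal (𝓞 K)) w0 w1)
    (hw1 : w1 ≠ 0) (P : CMData N) (γ : SL(2, ℤ))
    (h : S.emb w0 * den (γ : IMat) P.pt =
      S.emb w1 * (((γ : IMat) 0 0 : ℂ) * P.pt + (γ : IMat) 0 1)) :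
    ClassGroup.mk0 J = S.cls P := by
  set p : 𝓞 K := ((γ : IMat) 1 0 : 𝓞 K) * S.genB P + ((γ : IMat) 1 1 : 𝓞 K) * genA P with hp
  have hrep := S.rep_idl hN h4 P
  have hdet : (γ : IMat) 0 0 * (γ : IMat) 1 1 - (γ : IMat) 0 1 * (γ : IMat) 1 0 = 1 := by
    rw [← det_fin_two]
    exact γ.det_coe
  have hdet' : ((γ : IMat) 0 0 : 𝓞 K) * ((γ : IMat) 1 1 : 𝓞 K) -
      ((γ : IMat) 0 1 : 𝓞 K) * ((γ : IMat) 1 0 : 𝓞 K) = 1 := by
    exact_mod_cast congrArg (fun t : ℤ => (t : 𝓞 K)) hdet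
  have hep : S.emb p = (N : ℂ) * P.z * den (γ : IMat) P.pt := by
    rw [hp, map_add, map_mul, map_mul, emb_genA, emb_genB, map_intCast, map_intCast, den]
    ring
  have hp0 : p ≠ 0 := by
    intro h0
    rw [h0, map_zero] at hep
    refine (mulVec_smul_vec (det_coe_pos γ) P.pt).2 ?_
    simpa [NeZero.ne N, P.z_pos.ne'] using hep.symm
  have e0 : p * w0 = w1 * (((γ : IMat) 0 0 : 𝓞 K) * S.genB P + ((γ : IMat) 0 1 : 𝓞 K) * genA P) := by
    apply S.emb_injective
    rw [map_mul S.emb p, hep, map_mul S.emb w1, map_add, map_mul, map_mul, emb_genA, emb_genB,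
      map_intCast,
      map_intCast]
    linear_combination (N : ℂ) * P.z * h
  rw [cls, ClassGroup.mk0_eq_mk0_iff]
  refine ⟨p, w1, hp0, hw1, ?_⟩
  ext e
  rw [Ideal.mem_span_singleton_mul, Ideal.mem_span_singleton_mul]
  constructor
  · rintro ⟨z, hz, rfl⟩
    obtain ⟨u, v, rfl⟩ := (hJ z).1 hz
    refine ⟨_, (hrep _).2 ⟨u * (γ : IMat) 0 0 + v * (γ : IMat) 1 0,
      u * (γ : IMat) 0 1 + v * (γ : IMat) 1 1, rfl⟩, ?_⟩
    push_cast
    rw [hp]
    rw [hp] at e0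
    linear_combination -(u : 𝓞 K) * e0
  · rintro ⟨z, hz, rfl⟩
    obtain ⟨t, s, rfl⟩ := (hrep z).1 hz
    refine ⟨_, (hJ _).2 ⟨(γ : IMat) 1 1 * t - (γ : IMat) 1 0 * s,
      (γ : IMat) 0 0 * s - (γ : IMat) 0 1 * t, rfl⟩, ?_⟩
    push_cast
    rw [hp]
    rw [hp] at e0
    linear_combination (((γ : IMat) 1 1 : 𝓞 K) * t - ((γ : IMat) 1 0 : 𝓞 K) * s) * e0 +
      w1 * ((t : 𝓞 K) * S.genB P + (s : 𝓞 K) * genA P) * hdet'

theorem cls_eq_iff (P Q : CMData N) :
    S.cls P = S.cls Q ↔ ∃ γ ∈ Gamma0 N, γ • P.pt = Q.pt := by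
  constructor
  · intro h
    rw [cls, cls, ClassGroup.mk0_eq_mk0_iff] at h
    obtain ⟨p, q, hp, hq, h⟩ := h
    have hP := S.rep_idl hN h4 P
    have hQ := S.rep_idl hN h4 Q
    have key : ∀ (R R' : CMData N) (r r' : 𝓞 K),
        Ideal.span {r} * S.idl R = Ideal.span {r'} * S.idl R' → ∀ w ∈ S.idl R',
        ∃ u v : ℤ, r * ((u : 𝓞 K) * S.genB R + (v : 𝓞 K) * genA R) = r' * w := by
      intro R R' r r' hr w hw
      have : r' * w ∈ Ideal.span {r} * S.idl R := by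
        rw [hr]
        exact Ideal.mul_mem_mul (Ideal.mem_span_singleton_self r') hw
      obtain ⟨z, hz, hzw⟩ := Ideal.mem_span_singleton_mul.1 this
      obtain ⟨u, v, rfl⟩ := (S.rep_idl hN h4 R z).1 hz
      exact ⟨u, v, hzw⟩
    obtain ⟨a, b, hab⟩ := key P Q p q h _ hQ.mem_left
    obtain ⟨c, e, hce⟩ := key P Q p q h _ hQ.mem_right
    obtain ⟨a', b', hab'⟩ := key Q P q p h.symm _ hP.mem_left
    obtain ⟨c', e', hce'⟩ := key Q P q p h.symm _ hP.mem_right
    let G : IMat := !![a, b; c, e]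
    let G' : IMat := !![a', b'; c', e']
    set s : ℂ := S.emb p * ((N : ℂ) * P.z) with hs
    set s' : ℂ := S.emb q * ((N : ℂ) * Q.z) with hs'
    have hs0 : s ≠ 0 := mul_ne_zero ((map_ne_zero_iff _ S.emb_injective).2 hp)
      (mul_ne_zero (Nat.cast_ne_zero.2 (NeZero.ne N)) (Int.cast_ne_zero.2 P.z_pos.ne'))
    have hs'0 : s' ≠ 0 := mul_ne_zero ((map_ne_zero_iff _ S.emb_injective).2 hq)
      (mul_ne_zero (Nat.cast_ne_zero.2 (NeZero.ne N)) (Int.cast_ne_zero.2 Q.z_pos.ne'))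
    have hG : s • cmat G *ᵥ vec P.pt = s' • vec Q.pt := by
      rw [cmat_mulVec]
      have e1 := congrArg S.emb hab
      have e2 := congrArg S.emb hce
      simp only [map_mul, map_add, map_intCast, emb_genA, emb_genB] at e1 e2
      ext i
      fin_cases i <;> simp [G, vec, hs, hs']
      · linear_combination e1
      · linear_combination e2
    have hG' : s' • cmat G' *ᵥ vec Q.pt = s • vec P.pt := by
      rw [cmat_mulVec]
      have e1 := congrArg S.emb hab'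
      have e2 := congrArg S.emb hce'
      simp only [map_mul, map_add, map_intCast, emb_genA, emb_genB] at e1 e2
      ext i
      fin_cases i <;> simp [G', vec, hs, hs']
      · linear_combination e1
      · linear_combination e2
    have hone : G' * G = 1 := by
      apply eq_of_mulVec_eq (τ := P.pt)
      have h1 : cmat G *ᵥ vec P.pt = (s' / s) • vec Q.pt := by
        rw [div_eq_inv_mul, ← smul_smul, ← hG, smul_smul, inv_mul_cancel₀ hs0, one_smul]
      have h2 : cmat G' *ᵥ vec Q.pt = (s / s') • vec P.pt := by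
        rw [div_eq_inv_mul, ← smul_smul, ← hG', smul_smul, inv_mul_cancel₀ hs'0, one_smul]
      rw [cmat_mul, ← mulVec_mulVec, h1, mulVec_smul, h2, smul_smul,
        show s' / s * (s / s') = 1 by field_simp, one_smul, show cmat 1 = 1 from map_one _,
        one_mulVec]
    have hdet : G.det = 1 := by
      have hd : G'.det * G.det = 1 := by rw [← det_mul, hone, det_one]
      rcases Int.eq_one_or_neg_one_of_mul_eq_one' hd with ⟨-, h1⟩ | ⟨-, h1⟩
      · exact h1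
      exfalso
      have h0 := congrFun hG 0
      have h1' := congrFun hG 1
      rw [cmat_mulVec] at h0 h1'
      simp [G, vec] at h0 h1'
      rw [det_fin_two_of] at h1
      set num : ℂ := (a : ℂ) * P.pt + b with hnum
      set de : ℂ := (c : ℂ) * P.pt + e with hde
      have hde0 : de ≠ 0 := fun h => hs'0 (by rw [← h1', h, mul_zero])
      have hq' : num = de * (Q.pt : ℂ) := by
        apply mul_left_cancel₀ hs0
        rw [h0, ← mul_assoc, h1']
      have him : (num * starRingEnd ℂ de).im = ((a * e - b * c : ℤ) : ℝ) * P.pt.im := by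
        simp [hnum, hde, Complex.mul_im]
        ring
      rw [h1, hq', mul_right_comm, Complex.mul_conj, Complex.im_ofReal_mul] at him
      have hpos : 0 < Complex.normSq de * (Q.pt : ℂ).im :=
        mul_pos (Complex.normSq_pos.2 hde0) Q.pt.im_pos
      have := P.pt.im_pos
      simp at him
      simp only [UpperHalfPlane.coe_im] at hpos
      linarith
    let γ : SL(2, ℤ) := ⟨G, hdet⟩
    have hγ : γ • P.pt = Q.pt := by
      obtain ⟨hv, hne⟩ := mulVec_smul_vec (det_coe_pos γ) P.pt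
      rw [atkinGL_SL_smul] at hv
      change cmat G *ᵥ vec P.pt = _ at hv
      rw [hv, smul_smul] at hG
      have h1 := congrFun hG 1
      simp [vec] at h1
      have h0 := congrFun hG 0
      simp [vec, h1, hs'0] at h0
      exact h0
    exact ⟨γ, P.mem_Gamma0 Q hγ, hγ⟩
  · rintro ⟨γ, -, h⟩
    symm
    obtain ⟨hv, -⟩ := mulVec_smul_vec (det_coe_pos γ) P.pt
    rw [atkinGL_SL_smul, h, cmat_mulVec] at hv
    have h0 := congrFun hv 0
    simp [vec] at h0
    refine S.mk0_eq_cls_of_rep hN h4 (S.rep_idl hN h4 Q) (genA_ne_zero Q) P γ ?_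
    rw [emb_genB, emb_genA]
    linear_combination -((N : ℂ) * Q.z) * h0

/-- Every ideal has a pair of generators whose quotient is in the upper half plane and is fixed
by an integer matrix of eigenvalue `i √N`. -/
theorem exists_rep_fixed {J : Ideal (𝓞 K)} (hJ : J ≠ ⊥) :
    ∃ (w0 w1 : 𝓞 K) (τ : ℍ) (M : IMat), Rep J w0 w1 ∧ w1 ≠ 0 ∧ (τ : ℂ) = S.emb w0 / S.emb w1 ∧
      Fixes M τ ∧ den M τ = rtN N := by
  have hrank : Module.finrank ℤ (𝓞 K) = 2 := by rw [RingOfIntegers.rank, S.finrank_eq]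
  let b := (Module.finBasisOfFinrankEq ℤ (𝓞 K) hrank)
  let bJ := J.selfBasis b hJ
  have hb : Rep J (bJ 0 : 𝓞 K) (bJ 1) := by
    intro w
    constructor
    · intro hw
      refine ⟨bJ.repr ⟨w, hw⟩ 0, bJ.repr ⟨w, hw⟩ 1, ?_⟩
      have e := congrArg Subtype.val (bJ.sum_repr ⟨w, hw⟩)
      rw [Fin.sum_univ_two] at e
      simpa [zsmul_eq_mul] using e.symm
    · rintro ⟨u, v, rfl⟩
      exact J.add_mem (J.mul_mem_left _ (bJ 0).2) (J.mul_mem_left _ (bJ 1).2)
  have hb1 : (bJ 1 : 𝓞 K) ≠ 0 := fun h => bJ.ne_zero 1 (Subtype.ext h)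
  have him : (S.emb (bJ 0) / S.emb (bJ 1)).im ≠ 0 := by
    intro h0
    set r := S.emb (bJ 0) / S.emb (bJ 1) with hr
    obtain ⟨c, e, hce⟩ := (hb _).1 (J.mul_mem_left S.θ (bJ 1).2)
    have h1 := congrArg S.emb hce
    rw [map_mul, emb_θ, map_add, map_mul, map_mul, map_intCast, map_intCast] at h1
    have hne : S.emb (bJ 1) ≠ 0 := (map_ne_zero_iff _ S.emb_injective).2 hb1
    have h2 : rtN N = (c : ℂ) * r + e := by
      rw [hr]
      field_simp
      linear_combination h1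
    have h3 := congrArg Complex.im h2
    simp [h0, NeZero.ne N] at h3
  obtain ⟨w0, w1, hrep, hw1, hpos⟩ : ∃ w0 w1 : 𝓞 K, Rep J w0 w1 ∧ w1 ≠ 0 ∧
      0 < (S.emb w0 / S.emb w1).im := by
    rcases lt_or_gt_of_ne him with h | h
    · refine ⟨-(bJ 0 : 𝓞 K), bJ 1, fun w => ?_, hb1, ?_⟩
      · rw [hb w]
        constructor
        · rintro ⟨u, v, rfl⟩
          exact ⟨-u, v, by push_cast; ring⟩
        · rintro ⟨u, v, rfl⟩
          exact ⟨-u, v, by push_cast; ring⟩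
      · rw [map_neg, neg_div, Complex.neg_im]
        linarith
    · exact ⟨bJ 0, bJ 1, hb, hb1, h⟩
  obtain ⟨a, b', hab⟩ := (hrep _).1 (J.mul_mem_left S.θ hrep.mem_left)
  obtain ⟨c, e, hce⟩ := (hrep _).1 (J.mul_mem_left S.θ hrep.mem_right)
  refine ⟨w0, w1, UpperHalfPlane.mk _ hpos, !![a, b'; c, e], hrep, hw1, rfl,
    fixes_of_mulVec ?_⟩
  have hne : S.emb w1 ≠ 0 := (map_ne_zero_iff _ S.emb_injective).2 hw1
  have e0 := congrArg S.emb hab
  have e1 := congrArg S.emb hce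
  simp only [map_mul, map_add, map_intCast, emb_θ] at e0 e1
  rw [cmat_mulVec]
  ext i
  fin_cases i <;> simp [vec] <;> field_simp
  · linear_combination -e0
  · linear_combination -e1

theorem cls_surjective : Function.Surjective S.cls := by
  intro C
  obtain ⟨⟨J, hJ⟩, rfl⟩ := ClassGroup.mk0_surjective C
  obtain ⟨w0, w1, τ, M, hrep, hw1, hτ, hf, hd⟩ :=
    S.exists_rep_fixed hN h4 (mem_nonZeroDivisors_iff_ne_zero.1 hJ)
  obtain ⟨P, γ, hγ⟩ := exists_data_smul hN hf hd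
  refine ⟨P, (S.mk0_eq_cls_of_rep hN h4 (J := ⟨J, hJ⟩) hrep hw1 P γ ?_).symm⟩
  obtain ⟨hv, -⟩ := mulVec_smul_vec (det_coe_pos γ) P.pt
  rw [atkinGL_SL_smul, hγ, cmat_mulVec] at hv
  have h0 := congrFun hv 0
  simp [vec, hτ] at h0
  rw [h0]
  have hne : S.emb w1 ≠ 0 := (map_ne_zero_iff _ S.emb_injective).2 hw1
  field_simp

end SqrtNeg

/-- The orbits of `Γ₀(N)` fixed by the Fricke involution. -/
abbrev FixOrbit (N : ℕ) : Type :=
  {x : MulAction.orbitRel.Quotient (Gamma0 N) ℍ //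
    ∃ τ : ℍ, Quotient.mk'' τ = x ∧ IsALFixed N N τ}

/-- The class of a fixed point in the orbit set. -/
def CMData.orbit {N : ℕ} [NeZero N] (P : CMData N) : FixOrbit N :=
  ⟨Quotient.mk'' P.pt, P.pt, rfl, P.isALFixed⟩

theorem orbit_surjective {N : ℕ} [NeZero N] (hN4 : 4 ≤ N) :
    Function.Surjective (CMData.orbit (N := N)) := by
  rintro ⟨x, τ, rfl, hf⟩
  obtain ⟨P, rfl⟩ := hf.exists_data hN4
  exact ⟨P, rfl⟩

theorem orbit_eq_iff {N : ℕ} [NeZero N] (P Q : CMData N) :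
    P.orbit = Q.orbit ↔ ∃ γ ∈ Gamma0 N, γ • P.pt = Q.pt := by
  rw [Subtype.ext_iff]
  show (Quotient.mk'' P.pt : MulAction.orbitRel.Quotient (Gamma0 N) ℍ) = Quotient.mk'' Q.pt ↔ _
  rw [Quotient.eq'']
  constructor
  · rintro ⟨⟨γ, hγ⟩, h⟩
    refine ⟨γ⁻¹, (Gamma0 N).inv_mem hγ, ?_⟩
    rw [← h]
    exact inv_smul_smul γ Q.pt
  · rintro ⟨γ, hγ, h⟩
    refine ⟨⟨γ⁻¹, (Gamma0 N).inv_mem hγ⟩, ?_⟩
    rw [← h]
    exact inv_smul_smul γ P.pt

namespace SqrtNeg

variable {N : ℕ} [NeZero N] {K : Type*} [Field K] [NumberField K] (S : SqrtNeg N K)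

/-- **The fixed points of the Fricke involution are the ideal classes of `ℚ(√-N)`.** -/
theorem exists_fixEquiv (hN : Squarefree N) (h4 : N % 4 ≠ 3) (hN4 : 4 ≤ N) :
    ∃ e : FixOrbit N ≃ ClassGroup (𝓞 K), ∀ P : CMData N, e P.orbit = S.cls P := by
  have h : ∀ x, ∃ C, ∀ P : CMData N, P.orbit = x → S.cls P = C := fun x => by
    obtain ⟨P, rfl⟩ := orbit_surjective hN4 x
    exact ⟨S.cls P, fun Q hQ => (S.cls_eq_iff hN h4 Q P).2 ((orbit_eq_iff Q P).1 hQ)⟩
  choose f hf using h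
  refine ⟨Equiv.ofBijective f ⟨fun x y hxy => ?_, fun C => ?_⟩, fun P => (hf _ P rfl).symm⟩
  · obtain ⟨P, rfl⟩ := orbit_surjective hN4 x
    obtain ⟨Q, rfl⟩ := orbit_surjective hN4 y
    rw [← hf _ P rfl, ← hf _ Q rfl] at hxy
    exact (orbit_eq_iff P Q).2 ((S.cls_eq_iff hN h4 P Q).1 hxy)
  · obtain ⟨P, rfl⟩ := S.cls_surjective hN h4 C
    exact ⟨P.orbit, (hf _ P rfl).symm⟩

/-- The bijection between fixed points and ideal classes. -/
def fixEquiv (hN : Squarefree N) (h4 : N % 4 ≠ 3) (hN4 : 4 ≤ N) :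
    FixOrbit N ≃ ClassGroup (𝓞 K) :=
  (S.exists_fixEquiv hN h4 hN4).choose

theorem fixEquiv_orbit (hN : Squarefree N) (h4 : N % 4 ≠ 3) (hN4 : 4 ≤ N) (P : CMData N) :
    S.fixEquiv hN h4 hN4 P.orbit = S.cls P :=
  (S.exists_fixEquiv hN h4 hN4).choose_spec P

end SqrtNeg

end Fermat.Agent.Residual.CMFix

end
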