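/-
The fixed places of the Atkin-Lehner involution `w_d` of `ℂ(j, j_D)`: no cusp is fixed, the fixed
places are the fixed points, and for `d = D = N` they are the ideal classes of `ℚ(√-N)`.
-/
import Fermat.Agent.Residual.ALFixed
import Fermat.Agent.Residual.CMFixClass

set_option autoImplicit false

noncomputable section

open UpperHalfPlane CongruenceSubgroup ModularCurve AlgebraicCurve Fermat.Agent.ModFun
  NumberField
open scoped MatrixGroups Pointwise

namespace Fermat.Agent.Residual.CMFix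

open Fermat.Agent.Places

variable {D d : ℕ} [NeZero D] {W : IMat}

/-- The fixed places of `w_d` are the fixed points. -/
theorem alC_smul_eq_self_iff_isALFixed (hW : IsAL D d W) (hd : d ∣ D) (h1 : 1 < d)
    (hsq : Squarefree d) (v : Place ℂ (modularFunctionFieldC ℂ D)) :
    alC hW hd • v = v ↔ ∃ τ, (x0Model D).placeAt τ = v ∧ IsALFixed D d τ := by
  have hnsq : ¬ IsSquare d := not_isSquare_of_squarefree hsq dvd_rfl h1
  rw [alC_smul_eq_self_iff hW hd hnsq]
  refine exists_congr fun τ => and_congr_right fun _ => ?_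
  rw [isALFixed_iff hW hd (by omega)]
  constructor <;>
  · rintro ⟨γ, hγ, h⟩
    exact ⟨γ⁻¹, inv_mem hγ, inv_smul_eq_iff.2 h.symm⟩

namespace SqrtNeg

variable {N : ℕ} [NeZero N] {W : IMat} {K : Type*} [Field K] [NumberField K] (S : SqrtNeg N K)

/-- The fixed places of the Fricke involution of `ℂ(j, j_N)` are the ideal classes. -/
theorem exists_placesEquiv (hW : IsAL N N W) (hN : Squarefree N) (h4 : N % 4 ≠ 3) (hN4 : 4 ≤ N) :
    ∃ e : ClassGroup (𝓞 K) ≃ {v : Place ℂ (modularFunctionFieldC ℂ N) //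
        alC hW dvd_rfl • v = v},
      ∀ P : CMData N, (e (S.cls P)).1 = (x0Model N).placeAt P.pt := by
  have h1 : 1 < N := by omega
  choose f hf using S.cls_surjective hN h4
  have key : ∀ P Q : CMData N,
      (x0Model N).placeAt P.pt = (x0Model N).placeAt Q.pt ↔ S.cls P = S.cls Q := fun P Q => by
    rw [(x0Model N).placeAt_eq_iff, S.cls_eq_iff hN h4]
  let φ : ClassGroup (𝓞 K) → {v : Place ℂ (modularFunctionFieldC ℂ N) //
      alC hW dvd_rfl • v = v} := fun C =>
    ⟨(x0Model N).placeAt (f C).pt,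
      (alC_smul_eq_self_iff_isALFixed hW dvd_rfl h1 hN _).2 ⟨_, rfl, (f C).isALFixed⟩⟩
  refine ⟨Equiv.ofBijective φ ⟨fun C C' h => ?_, ?_⟩, fun P => (key _ _).2 (hf _)⟩
  · rw [← hf C, ← hf C']
    exact (key _ _).1 (congrArg Subtype.val h)
  · rintro ⟨v, hv⟩
    obtain ⟨τ, rfl, hτ⟩ := (alC_smul_eq_self_iff_isALFixed hW dvd_rfl h1 hN v).1 hv
    obtain ⟨P, rfl⟩ := hτ.exists_data hN4
    exact ⟨S.cls P, Subtype.ext ((key _ _).2 (hf _))⟩

end SqrtNeg

end Fermat.Agent.Residual.CMFix

end
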