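/-
The ideals of norm an odd prime `ℓ ∤ N` of `ℚ(√-N)`: none, or two conjugate ones with inverse
classes.
-/
import Fermat.Agent.Residual.CMFixClass
import Fermat.Agent.Residual.CMFixModule
import Mathlib.RingTheory.Ideal.Norm.AbsNorm

set_option autoImplicit false

noncomputable section

open NumberField
open scoped nonZeroDivisors

namespace Fermat.Agent.Residual.CMFix.SqrtNeg

variable {N : ℕ} [NeZero N] {K : Type*} [Field K] [NumberField K] (S : SqrtNeg N K) {ℓ : ℕ}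

/-- The ideal `(ℓ, √-N - r)`. -/
def rootIdl (ℓ : ℕ) (r : ℤ) : Ideal (𝓞 K) := Ideal.span {(ℓ : 𝓞 K), S.θ - (r : 𝓞 K)}

variable [hℓ : Fact ℓ.Prime]

omit [NeZero N] hℓ in
theorem absNorm_span_natCast :
    Ideal.absNorm (Ideal.span {(ℓ : 𝓞 K)}) = ℓ ^ Module.finrank ℚ K := by
  rw [Ideal.absNorm_span_singleton, ← map_natCast (algebraMap ℤ (𝓞 K)), Algebra.norm_algebraMap,
    RingOfIntegers.rank, Int.natAbs_pow, Int.natAbs_natCast]

omit [NeZero N] in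
/-- In a quotient of order `ℓ` every element is an integer. -/
theorem exists_int_sub_mem {L : Ideal (𝓞 K)} (hL : Ideal.absNorm L = ℓ) (x : 𝓞 K) :
    ∃ r : ℤ, x - (r : 𝓞 K) ∈ L := by
  have hcard : Nat.card (𝓞 K ⧸ L) = ℓ := by rw [← hL]; rfl
  have : Finite (𝓞 K ⧸ L) := Nat.finite_of_card_ne_zero (by rw [hcard]; exact hℓ.out.ne_zero)
  have : Fintype (𝓞 K ⧸ L) := Fintype.ofFinite _
  obtain ⟨r, hr⟩ := (ZMod.ringEquivOfPrime (𝓞 K ⧸ L) hℓ.out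
    (by rw [← Nat.card_eq_fintype_card]; exact hcard)).surjective (Ideal.Quotient.mk L x)
  refine ⟨(r.val : ℤ), Ideal.Quotient.eq.1 ?_⟩
  rw [← hr]
  simp only [Int.cast_natCast, map_natCast]
  conv_lhs => rw [← ZMod.natCast_zmod_val r, map_natCast]

omit [NeZero N] in
/-- A prime of norm `ℓ` is one of the `(ℓ, √-N - r)`, `r² ≡ -N`. -/
theorem exists_root_of_absNorm {L : Ideal (𝓞 K)} (hL : Ideal.absNorm L = ℓ) :
    ∃ r : ℤ, (ℓ : ℤ) ∣ r ^ 2 + N ∧ S.rootIdl ℓ r ≤ L := by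
  obtain ⟨r, hr⟩ := exists_int_sub_mem hL S.θ
  have hℓL : (ℓ : 𝓞 K) ∈ L := hL ▸ Ideal.absNorm_mem L
  refine ⟨r, ?_, ?_⟩
  · by_contra hnd
    have hmem : ((r ^ 2 + N : ℤ) : 𝓞 K) ∈ L := by
      have h1 : -(S.θ + (r : 𝓞 K)) * (S.θ - (r : 𝓞 K)) ∈ L := L.mul_mem_left _ hr
      convert h1 using 1
      push_cast
      linear_combination S.sq
    obtain ⟨u, v, huv⟩ :=
      ((Nat.prime_iff_prime_int.mp hℓ.out).coprime_iff_not_dvd.2 hnd)
    have h1 : (1 : 𝓞 K) ∈ L := by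
      have e : ((u * (ℓ : ℤ) + v * (r ^ 2 + N) : ℤ) : 𝓞 K) = 1 := by rw [huv, Int.cast_one]
      rw [← e, Int.cast_add, Int.cast_mul, Int.cast_mul, Int.cast_natCast]
      exact L.add_mem (L.mul_mem_left _ hℓL) (L.mul_mem_left _ hmem)
    rw [(Ideal.eq_top_iff_one L).2 h1, Ideal.absNorm_top] at hL
    exact hℓ.out.one_lt.ne hL
  · rw [rootIdl, Ideal.span_le]
    rintro w (rfl | rfl) <;> assumption

variable (hℓ2 : ℓ ≠ 2) (hℓN : ¬ ℓ ∣ N)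

omit [NeZero N] in
include hℓ2 hℓN in
theorem not_dvd_two_mul {r : ℤ} (h : (ℓ : ℤ) ∣ r ^ 2 + N) : ¬ (ℓ : ℤ) ∣ 2 * r := by
  intro hd
  rcases (Nat.prime_iff_prime_int.mp hℓ.out).dvd_or_dvd hd with h2 | hr
  · exact hℓ2 ((Nat.prime_dvd_prime_iff_eq hℓ.out Nat.prime_two).1 (by exact_mod_cast h2))
  · apply hℓN
    have : (ℓ : ℤ) ∣ (N : ℤ) := (dvd_add_right (dvd_pow hr two_ne_zero)).1 h
    exact_mod_cast this

omit [NeZero N] in
include hℓ2 hℓN in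
/-- The product of conjugate ideals is `(ℓ)`. -/
theorem rootIdl_mul {r : ℤ} (h : (ℓ : ℤ) ∣ r ^ 2 + N) :
    S.rootIdl ℓ r * S.rootIdl ℓ (-r) = Ideal.span {(ℓ : 𝓞 K)} := by
  obtain ⟨k, hk⟩ := h
  apply le_antisymm
  · rw [rootIdl, rootIdl, Ideal.span_mul_span', Ideal.span_le]
    rintro w ⟨a, ha, b, hb, rfl⟩
    rw [SetLike.mem_coe, Ideal.mem_span_singleton]
    rcases ha with rfl | rfl
    · exact dvd_mul_right _ _
    · rcases hb with rfl | rfl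
      · exact dvd_mul_left _ _
      · refine ⟨-(k : 𝓞 K), ?_⟩
        have hk' : (r : 𝓞 K) ^ 2 + (N : 𝓞 K) = (ℓ : 𝓞 K) * (k : 𝓞 K) := by
          exact_mod_cast congrArg (fun t : ℤ => (t : 𝓞 K)) hk
        push_cast
        linear_combination S.sq - hk'
  · rw [Ideal.span_le, Set.singleton_subset_iff]
    obtain ⟨u, v, huv⟩ := (Nat.prime_iff_prime_int.mp hℓ.out).coprime_iff_not_dvd.2
      (not_dvd_two_mul hℓ2 hℓN ⟨k, hk⟩)
    have hℓr : (ℓ : 𝓞 K) ∈ S.rootIdl ℓ r := Ideal.subset_span (Set.mem_insert _ _)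
    have hℓr' : (ℓ : 𝓞 K) ∈ S.rootIdl ℓ (-r) := Ideal.subset_span (Set.mem_insert _ _)
    have hθ : S.θ - (r : 𝓞 K) ∈ S.rootIdl ℓ r :=
      Ideal.subset_span (Set.mem_insert_of_mem _ rfl)
    have hθ' : S.θ - ((-r : ℤ) : 𝓞 K) ∈ S.rootIdl ℓ (-r) :=
      Ideal.subset_span (Set.mem_insert_of_mem _ rfl)
    have h1 := Ideal.add_mem _
      (Ideal.mul_mem_left _ (u : 𝓞 K) (Ideal.mul_mem_mul hℓr hℓr'))
      (Ideal.mul_mem_left _ (v : 𝓞 K)
        (Ideal.sub_mem _ (Ideal.mul_mem_mul hℓr hθ') (Ideal.mul_mem_mul hθ hℓr')))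
    have e : (u : 𝓞 K) * (ℓ : 𝓞 K) + (v : 𝓞 K) * (2 * (r : 𝓞 K)) = 1 := by
      exact_mod_cast congrArg (fun t : ℤ => (t : 𝓞 K)) huv
    rw [SetLike.mem_coe]
    convert h1 using 1
    push_cast
    linear_combination -(ℓ : 𝓞 K) * e

variable (hN : Squarefree N) (h4 : N % 4 ≠ 3)
include hN h4 hℓ2 hℓN

theorem absNorm_rootIdl {r : ℤ} (h : (ℓ : ℤ) ∣ r ^ 2 + N) :
    Ideal.absNorm (S.rootIdl ℓ r) = ℓ := by
  have hne : ∀ s : ℤ, (ℓ : ℤ) ∣ s ^ 2 + N → Ideal.absNorm (S.rootIdl ℓ s) ≠ 1 := by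
    intro s hs h1
    have h2 := S.rootIdl_mul hℓ2 hℓN hs
    rw [Ideal.absNorm_eq_one_iff.1 h1, Ideal.top_mul] at h2
    have hm : S.θ - ((-s : ℤ) : 𝓞 K) ∈ Ideal.span {(ℓ : 𝓞 K)} :=
      h2 ▸ Ideal.subset_span (Set.mem_insert_of_mem _ rfl)
    obtain ⟨q, hq⟩ := Ideal.mem_span_singleton.1 hm
    obtain ⟨a, b, rfl⟩ := S.exists_coord hN h4 q
    have e := congrArg (fun x => (S.emb x).im) hq
    simp [S.emb_θ] at e
    have hb : (1 : ℝ) = (ℓ : ℝ) * b := mul_right_cancel₀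
      (Real.sqrt_ne_zero'.2 (Nat.cast_pos.2 (Nat.pos_of_neZero N)))
      (by rw [one_mul]; linear_combination e)
    have hb' : (ℓ : ℤ) * b = 1 := by exact_mod_cast hb.symm
    have := Int.eq_one_of_mul_eq_one_right (Int.natCast_nonneg ℓ) hb'
    exact hℓ.out.one_lt.ne' (by exact_mod_cast this)
  have h' : (ℓ : ℤ) ∣ (-r) ^ 2 + N := by rwa [neg_sq]
  have hprod := congrArg Ideal.absNorm (S.rootIdl_mul hℓ2 hℓN h)
  rw [map_mul, absNorm_span_natCast, S.finrank_eq] at hprod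
  rcases (Nat.dvd_prime_pow hℓ.out).1 (Dvd.intro _ hprod) with ⟨k, hk2, hk⟩
  interval_cases k
  · exact absurd (by simpa using hk) (hne r h)
  · simpa using hk
  · rw [hk] at hprod
    exact absurd (mul_left_cancel₀ (pow_ne_zero 2 hℓ.out.ne_zero)
      (hprod.trans (mul_one _).symm)) (hne (-r) h')

include S in
/-- No ideal of norm `ℓ`, or exactly two, with inverse classes. -/
theorem absNorm_prime_cases :
    (∀ L : (Ideal (𝓞 K))⁰, Ideal.absNorm (L : Ideal (𝓞 K)) ≠ ℓ) ∨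
      ∃ L L' : (Ideal (𝓞 K))⁰, Ideal.absNorm (L : Ideal (𝓞 K)) = ℓ ∧
        Ideal.absNorm (L' : Ideal (𝓞 K)) = ℓ ∧ L ≠ L' ∧
        ClassGroup.mk0 L' = (ClassGroup.mk0 L)⁻¹ ∧
        ∀ M : (Ideal (𝓞 K))⁰, Ideal.absNorm (M : Ideal (𝓞 K)) = ℓ → M = L ∨ M = L' := by
  classical
  by_cases hex : ∃ L : (Ideal (𝓞 K))⁰, Ideal.absNorm (L : Ideal (𝓞 K)) = ℓ
  swap
  · exact Or.inl fun L hL => hex ⟨L, hL⟩
  right
  obtain ⟨L₀, hL₀⟩ := hex
  obtain ⟨r, hr, -⟩ := S.exists_root_of_absNorm hL₀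
  have hr' : (ℓ : ℤ) ∣ (-r) ^ 2 + N := by rwa [neg_sq]
  have hnorm : ∀ {s : ℤ}, (ℓ : ℤ) ∣ s ^ 2 + N → Ideal.absNorm (S.rootIdl ℓ s) = ℓ :=
    fun hs => S.absNorm_rootIdl hℓ2 hℓN hN h4 hs
  have hnz : ∀ s : ℤ, (ℓ : ℤ) ∣ s ^ 2 + N → S.rootIdl ℓ s ∈ (Ideal (𝓞 K))⁰ := fun s hs =>
    mem_nonZeroDivisors_iff_ne_zero.2 fun h0 => hℓ.out.ne_zero
      (by rw [← hnorm hs, h0, Ideal.zero_eq_bot, Ideal.absNorm_bot])
  have hprod := S.rootIdl_mul hℓ2 hℓN hr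
  refine ⟨⟨_, hnz r hr⟩, ⟨_, hnz _ hr'⟩, hnorm hr, hnorm hr', fun e => ?_, ?_, fun M hM => ?_⟩
  · have e' : S.rootIdl ℓ r = S.rootIdl ℓ (-r) := congrArg Subtype.val e
    have h1 : S.θ - (r : 𝓞 K) ∈ S.rootIdl ℓ r := Ideal.subset_span (Set.mem_insert_of_mem _ rfl)
    have h2 : S.θ - ((-r : ℤ) : 𝓞 K) ∈ S.rootIdl ℓ r :=
      e' ▸ Ideal.subset_span (Set.mem_insert_of_mem _ rfl)
    have h3 : ((2 * r : ℤ) : 𝓞 K) ∈ S.rootIdl ℓ r := by
      convert Ideal.sub_mem _ h2 h1 using 1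
      push_cast
      ring
    obtain ⟨u, v, huv⟩ := (Nat.prime_iff_prime_int.mp hℓ.out).coprime_iff_not_dvd.2
      (not_dvd_two_mul hℓ2 hℓN hr)
    have h4' : (1 : 𝓞 K) ∈ S.rootIdl ℓ r := by
      have e'' : ((u * (ℓ : ℤ) + v * (2 * r) : ℤ) : 𝓞 K) = 1 := by rw [huv, Int.cast_one]
      rw [← e'', Int.cast_add, Int.cast_mul u, Int.cast_mul v, Int.cast_natCast]
      exact Ideal.add_mem _ (Ideal.mul_mem_left _ _ (Ideal.subset_span (Set.mem_insert _ _)))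
        (Ideal.mul_mem_left _ _ h3)
    have h5 := hnorm hr
    rw [(Ideal.eq_top_iff_one _).2 h4', Ideal.absNorm_top] at h5
    exact hℓ.out.one_lt.ne h5
  · rw [eq_inv_iff_mul_eq_one, mul_comm, ← map_mul, ClassGroup.mk0_eq_one_iff]
    simp only [Submonoid.coe_mul, hprod]
    exact ⟨⟨_, rfl⟩⟩
  · obtain ⟨s, hs, hle⟩ := S.exists_root_of_absNorm hM
    have hMeq : S.rootIdl ℓ s = (M : Ideal (𝓞 K)) := by
      obtain ⟨C, hC⟩ := Ideal.dvd_iff_le.2 hle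
      have := congrArg Ideal.absNorm hC
      rw [map_mul, hnorm hs, hM] at this
      have hC1 : Ideal.absNorm C = 1 :=
        mul_left_cancel₀ hℓ.out.ne_zero (this.symm.trans (mul_one _).symm)
      rw [hC, Ideal.absNorm_eq_one_iff.1 hC1, Ideal.mul_top]
    have hdiv : (ℓ : ℤ) ∣ (s - r) * (s + r) := by
      have := dvd_sub hs hr
      ring_nf at this ⊢
      exact this
    have hcongr : ∀ t : ℤ, (ℓ : ℤ) ∣ s - t → S.rootIdl ℓ s = S.rootIdl ℓ t := by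
      rintro t ⟨q, hq⟩
      have hs' : s = t + (ℓ : ℤ) * q := by linarith
      apply le_antisymm <;>
      · rw [rootIdl, rootIdl, Ideal.span_le]
        rintro w (rfl | rfl)
        · exact Ideal.subset_span (Set.mem_insert _ _)
        · rw [SetLike.mem_coe, Ideal.mem_span_pair]
          first
            | exact ⟨-(q : 𝓞 K), 1, by rw [hs']; push_cast; linear_combination (0 : 𝓞 K)⟩
            | exact ⟨(q : 𝓞 K), 1, by rw [hs']; push_cast; linear_combination (0 : 𝓞 K)⟩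
    rcases (Nat.prime_iff_prime_int.mp hℓ.out).dvd_or_dvd hdiv with h | h
    · exact Or.inl (Subtype.ext (hMeq.symm.trans (hcongr r h)))
    · exact Or.inr (Subtype.ext (hMeq.symm.trans (hcongr (-r) (by rwa [sub_neg_eq_add]))))

include S in
/-- The operator on functions on the class group counting the ideals of norm `ℓ`. -/
theorem exists_shift_form :
    (∀ L : (Ideal (𝓞 K))⁰, Ideal.absNorm (L : Ideal (𝓞 K)) ≠ ℓ) ∨
      ∃ L : (Ideal (𝓞 K))⁰, Ideal.absNorm (L : Ideal (𝓞 K)) = ℓ ∧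
        ∀ (x : ClassGroup (𝓞 K) → ZMod 2) (C : ClassGroup (𝓞 K))
          [Fintype {M : (Ideal (𝓞 K))⁰ // Ideal.absNorm (M : Ideal (𝓞 K)) = ℓ}],
          ∑ M : {M : (Ideal (𝓞 K))⁰ // Ideal.absNorm (M : Ideal (𝓞 K)) = ℓ},
              x (C * ClassGroup.mk0 M.1) =
            (shiftFun (ClassGroup.mk0 L) + shiftFun (ClassGroup.mk0 L)⁻¹) x C := by
  classical
  refine (S.absNorm_prime_cases hℓ2 hℓN hN h4).imp_right ?_
  rintro ⟨L, L', hL, hL', hne, hinv, hall⟩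
  refine ⟨L, hL, fun x C _ => ?_⟩
  rw [Finset.sum_eq_add
    (⟨L, hL⟩ : {M : (Ideal (𝓞 K))⁰ // Ideal.absNorm (M : Ideal (𝓞 K)) = ℓ}) ⟨L', hL'⟩
    (fun e => hne (congrArg Subtype.val e))
    (fun M _ hM => absurd (hall M.1 M.2) (fun h => h.elim (fun e => hM.1 (Subtype.ext e))
      (fun e => hM.2 (Subtype.ext e))))
    (fun h => absurd (Finset.mem_univ _) h) (fun h => absurd (Finset.mem_univ _) h)]
  simp [hinv]

end Fermat.Agent.Residual.CMFix.SqrtNeg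

end
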