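/-
The Hecke correspondence `T_ℓ` on the fixed points of the Fricke involution of `X₀(N)`:
the fixed neighbours of the point of class `C` are the points of class `C [𝔩]`, `N 𝔩 = ℓ`.
-/
import Fermat.Agent.Residual.CMFixClass
import Mathlib.RingTheory.Ideal.Norm.AbsNorm

set_option autoImplicit false

noncomputable section

open Matrix NumberField UpperHalfPlane
open scoped MatrixGroups nonZeroDivisors

namespace Fermat.Agent.Residual.CMFix

/-- The representatives `τ ↦ (τ + j)/ℓ`, `τ ↦ ℓ τ` of the Hecke correspondence. -/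
def heckeMat (ℓ : ℕ) : Option (ZMod ℓ) → IMat
  | some j => !![1, (j.val : ℤ); 0, (ℓ : ℤ)]
  | none => !![(ℓ : ℤ), 0; 0, 1]

theorem det_heckeMat (ℓ : ℕ) (i : Option (ZMod ℓ)) : (heckeMat ℓ i).det = ℓ := by
  cases i <;> simp [heckeMat, det_fin_two_of]

theorem heckeMat_ten (ℓ : ℕ) (i : Option (ZMod ℓ)) : heckeMat ℓ i 1 0 = 0 := by
  cases i <;> simp [heckeMat]

/-- `u ω₀ + v ω₁` is in the `i`-th sublattice of index `ℓ`. -/
def InLat (ℓ : ℕ) : Option (ZMod ℓ) → ℤ → ℤ → Prop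
  | some j, u, v => (v : ZMod ℓ) = j * u
  | none, u, _ => (u : ZMod ℓ) = 0

theorem inLat_iff (ℓ : ℕ) [NeZero ℓ] (i : Option (ZMod ℓ)) (u v : ℤ) :
    InLat ℓ i u v ↔ ∃ s t : ℤ, u = s * heckeMat ℓ i 0 0 + t * heckeMat ℓ i 1 0 ∧
      v = s * heckeMat ℓ i 0 1 + t * heckeMat ℓ i 1 1 := by
  cases i with
  | some j =>
    simp only [InLat, heckeMat, of_apply, cons_val', cons_val_zero, cons_val_one, empty_val',
      cons_val_fin_one, mul_one, mul_zero, add_zero]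
    constructor
    · intro h
      obtain ⟨t, ht⟩ := (ZMod.intCast_zmod_eq_zero_iff_dvd (v - u * (j.val : ℤ)) ℓ).1
        (by push_cast; rw [h, ZMod.natCast_val, ZMod.cast_id]; ring)
      exact ⟨u, t, rfl, by linear_combination ht⟩
    · rintro ⟨s, t, rfl, rfl⟩
      push_cast
      rw [ZMod.natCast_val, ZMod.cast_id, ZMod.natCast_self]
      ring
  | none =>
    simp only [InLat, heckeMat, of_apply, cons_val', cons_val_zero, cons_val_one, empty_val',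
      cons_val_fin_one, mul_one, mul_zero, add_zero, zero_add]
    constructor
    · intro h
      obtain ⟨t, ht⟩ := (ZMod.intCast_zmod_eq_zero_iff_dvd u ℓ).1 h
      exact ⟨t, v, by rw [ht, mul_comm], rfl⟩
    · rintro ⟨s, t, rfl, -⟩
      simp

/-- Independence of the sublattices. -/
theorem inLat_injective {ℓ : ℕ} [Fact ℓ.Prime] {i i' : Option (ZMod ℓ)}
    (h : ∀ u v, InLat ℓ i u v → InLat ℓ i' u v) : i = i' := by
  rcases i with _ | j <;> rcases i' with _ | j'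
  · rfl
  · simpa [InLat] using h 0 1 (by simp [InLat])
  · simpa [InLat] using h 1 (j.val : ℤ) (by simp [InLat, ZMod.natCast_val, ZMod.cast_id])
  · have := h 1 (j.val : ℤ) (by simp [InLat, ZMod.natCast_val, ZMod.cast_id])
    simpa [InLat, ZMod.natCast_val, ZMod.cast_id] using this

/-- Membership in a sublattice is dependence on any one vector of it. -/
theorem inLat_iff_dependent {ℓ : ℕ} [Fact ℓ.Prime] {i : Option (ZMod ℓ)} {u v a b : ℤ}
    (h : InLat ℓ i u v) (hne : ¬ ((u : ZMod ℓ) = 0 ∧ (v : ZMod ℓ) = 0)) :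
    InLat ℓ i a b ↔ (a : ZMod ℓ) * v = b * u := by
  cases i with
  | none =>
    simp only [InLat] at h ⊢
    rw [h, mul_zero, mul_eq_zero]
    exact ⟨Or.inl, fun e => e.resolve_right fun hv => hne ⟨h, hv⟩⟩
  | some j =>
    simp only [InLat] at h ⊢
    have hu : (u : ZMod ℓ) ≠ 0 := fun hu => hne ⟨hu, by rw [h, hu, mul_zero]⟩
    rw [h]
    constructor
    · intro e
      rw [e]
      ring
    · intro e
      apply mul_right_cancel₀ hu
      linear_combination -e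

namespace CMData

variable {N : ℕ} [NeZero N] (P : CMData N) (ℓ : ℕ)

/-- The sublattice is stable under `√-N`. -/
def Stable (i : Option (ZMod ℓ)) : Prop := ∃ G : IMat, G * heckeMat ℓ i = heckeMat ℓ i * P.mat

variable {ℓ} [Fact ℓ.Prime]

theorem mat_mul_of_pt {Q : CMData N} {i : Option (ZMod ℓ)}
    (h : Q.pt = Newform.atkinGL (heckeMat ℓ i) • P.pt) :
    Q.mat * heckeMat ℓ i = heckeMat ℓ i * P.mat := by
  have hℓ : 0 < (heckeMat ℓ i).det := by
    rw [det_heckeMat]; exact_mod_cast (Fact.out : ℓ.Prime).pos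
  obtain ⟨hv, -⟩ := mulVec_smul_vec hℓ P.pt
  rw [← h] at hv
  apply eq_of_mulVec_eq (τ := P.pt)
  rw [cmat_mul, cmat_mul, ← mulVec_mulVec, ← mulVec_mulVec, fixes_iff_mulVec.1 P.fixes,
    mulVec_smul, hv, mulVec_smul, fixes_iff_mulVec.1 Q.fixes, P.den_mat, Q.den_mat, smul_smul,
    smul_smul, mul_comm]

theorem exists_data_of_stable (hℓN : ¬ ℓ ∣ N) {i : Option (ZMod ℓ)} (h : P.Stable ℓ i) :
    ∃ Q : CMData N, Q.pt = Newform.atkinGL (heckeMat ℓ i) • P.pt := by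
  obtain ⟨G, hG⟩ := h
  set g := heckeMat ℓ i with hg
  have hdet : g.det = (ℓ : ℤ) := det_heckeMat ℓ i
  have hℓ : (0 : ℤ) < ℓ := by exact_mod_cast (Fact.out : ℓ.Prime).pos
  obtain ⟨hv, hne⟩ := mulVec_smul_vec (hdet ▸ hℓ) P.pt
  have hfix : Fixes G (Newform.atkinGL g • P.pt) ∧
      den G (Newform.atkinGL g • P.pt) = rtN N := by
    refine fixes_of_mulVec ?_
    have e := congrArg (fun M => cmat M *ᵥ vec P.pt) hG
    simp only [cmat_mul, ← mulVec_mulVec] at e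
    rw [fixes_iff_mulVec.1 P.fixes, mulVec_smul, hv, mulVec_smul, P.den_mat, smul_smul,
      mul_comm, ← smul_smul] at e
    exact smul_right_injective (Fin 2 → ℂ) hne e
  have hcop : IsCoprime (N : ℤ) (ℓ : ℤ) := by
    rw [Int.isCoprime_iff_gcd_eq_one, Int.gcd_natCast_natCast]
    exact ((Nat.Prime.coprime_iff_not_dvd Fact.out).2 hℓN).symm
  have hsm : (ℓ : ℤ) • G = g * P.mat * g.adjugate := by
    rw [← hG, Matrix.mul_assoc, mul_adjugate, hdet, Matrix.mul_smul, Matrix.mul_one]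
  have hAL : IsAL N N G := by
    have h10 : g 1 0 = 0 := heckeMat_ten ℓ i
    have e : ∀ a b, (ℓ : ℤ) * G a b = (g * P.mat * g.adjugate) a b := fun a b => by
      rw [← hsm, Matrix.smul_apply, smul_eq_mul]
    have hd : ∀ a b, (N : ℤ) ∣ (g * P.mat * g.adjugate) a b → (N : ℤ) ∣ G a b := fun a b h =>
      hcop.dvd_of_dvd_mul_left (e a b ▸ h)
    refine ⟨?_, hd 0 0 ?_, hd 1 1 ?_, hd 1 0 ?_⟩
    · have := congrArg Matrix.det hG
      rw [det_mul, det_mul, P.det_mat, hdet, mul_comm (ℓ : ℤ)] at this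
      exact mul_right_cancel₀ hℓ.ne' this
    all_goals
      rw [adjugate_fin_two]
      simp [Matrix.mul_apply, Fin.sum_univ_two, h10, CMData.mat]
      ring_nf
      simp only [mul_comm _ (N : ℤ), mul_assoc, ← mul_sub, ← mul_add, ← mul_neg, dvd_mul_right]
  obtain ⟨Q, hQ, -⟩ := exists_data_of_den hAL hfix.1 hfix.2
  exact ⟨Q, hQ⟩

theorem isALFixed_heckeMat_iff (hN4 : 4 ≤ N) (hℓN : ¬ ℓ ∣ N) (i : Option (ZMod ℓ)) :
    IsALFixed N N (Newform.atkinGL (heckeMat ℓ i) • P.pt) ↔ P.Stable ℓ i := by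
  constructor
  · intro h
    obtain ⟨Q, hQ⟩ := h.exists_data hN4
    exact ⟨Q.mat, P.mat_mul_of_pt hQ⟩
  · intro h
    obtain ⟨Q, hQ⟩ := P.exists_data_of_stable hℓN h
    exact hQ ▸ Q.isALFixed

end CMData

namespace SqrtNeg

variable {N : ℕ} [NeZero N] {K : Type*} [Field K] [NumberField K] (S : SqrtNeg N K)
  (P : CMData N) {ℓ : ℕ}

/-- The first generator of the `i`-th sublattice. -/
def hw0 (i : Option (ZMod ℓ)) : 𝓞 K :=
  (heckeMat ℓ i 0 0 : 𝓞 K) * S.genB P + (heckeMat ℓ i 0 1 : 𝓞 K) * genA P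

/-- The second generator of the `i`-th sublattice. -/
def hw1 (i : Option (ZMod ℓ)) : 𝓞 K :=
  (heckeMat ℓ i 1 0 : 𝓞 K) * S.genB P + (heckeMat ℓ i 1 1 : 𝓞 K) * genA P

/-- The ideal generated by the `i`-th sublattice. -/
def latIdl (i : Option (ZMod ℓ)) : Ideal (𝓞 K) := Ideal.span {S.hw0 P i, S.hw1 P i}

theorem coord_injective {u v u' v' : ℤ}
    (h : (u : 𝓞 K) * S.genB P + (v : 𝓞 K) * genA P = (u' : 𝓞 K) * S.genB P + (v' : 𝓞 K) * genA P) :
    u = u' ∧ v = v' := by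
  have e := congrArg S.emb h
  rw [map_add, map_add, map_mul, map_mul, map_mul, map_mul, emb_genA, emb_genB, map_intCast,
    map_intCast, map_intCast, map_intCast] at e
  have h0 := eq_zero_of_cast (u := u - u') (v := v - v') (τ := P.pt) (by
    push_cast
    apply mul_left_cancel₀ (mul_ne_zero (Nat.cast_ne_zero.2 (NeZero.ne N) : (N : ℂ) ≠ 0)
      (Int.cast_ne_zero.2 P.z_pos.ne' : (P.z : ℂ) ≠ 0))
    linear_combination e)
  omega

theorem θ_mul_genB : S.θ * S.genB P =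
    ((P.mat 0 0 : ℤ) : 𝓞 K) * S.genB P + ((P.mat 0 1 : ℤ) : 𝓞 K) * genA P := by
  apply S.emb_injective
  rw [map_mul, map_add, map_mul, map_mul, emb_θ, emb_genA, emb_genB, map_intCast, map_intCast]
  have h := P.fixes
  rw [Fixes, P.den_mat] at h
  linear_combination -((N : ℂ) * P.z) * h

theorem θ_mul_genA : S.θ * genA P =
    ((P.mat 1 0 : ℤ) : 𝓞 K) * S.genB P + ((P.mat 1 1 : ℤ) : 𝓞 K) * genA P := by
  apply S.emb_injective
  rw [map_mul, map_add, map_mul, map_mul, emb_θ, emb_genA, emb_genB, map_intCast, map_intCast]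
  have h := P.den_mat
  rw [den] at h
  linear_combination -((N : ℂ) * P.z) * h

theorem θ_mul_coord (u v : ℤ) :
    S.θ * ((u : 𝓞 K) * S.genB P + (v : 𝓞 K) * genA P) =
      ((u * P.mat 0 0 + v * P.mat 1 0 : ℤ) : 𝓞 K) * S.genB P +
        ((u * P.mat 0 1 + v * P.mat 1 1 : ℤ) : 𝓞 K) * genA P := by
  rw [mul_add, mul_left_comm, mul_left_comm S.θ (v : 𝓞 K), θ_mul_genB, θ_mul_genA]
  push_cast
  ring

theorem latIdl_le (i : Option (ZMod ℓ)) : S.latIdl P i ≤ S.idl P := by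
  rw [latIdl, Ideal.span_le]
  have hA : genA P ∈ S.idl P := Ideal.subset_span (Set.mem_insert _ _)
  have hB : S.genB P ∈ S.idl P := Ideal.subset_span (Set.mem_insert_of_mem _ rfl)
  rintro w (rfl | rfl) <;>
    exact Ideal.add_mem _ (Ideal.mul_mem_left _ _ hB) (Ideal.mul_mem_left _ _ hA)

variable (hN : Squarefree N) (h4 : N % 4 ≠ 3)
include hN h4

theorem rep_latIdl {i : Option (ZMod ℓ)} (h : P.Stable ℓ i) :
    Rep (S.latIdl P i) (S.hw0 P i) (S.hw1 P i) := by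
  obtain ⟨G, hG⟩ := h
  have hc : ∀ r s, G r 0 * heckeMat ℓ i 0 s + G r 1 * heckeMat ℓ i 1 s =
      heckeMat ℓ i r 0 * P.mat 0 s + heckeMat ℓ i r 1 * P.mat 1 s := fun r s => by
    have := congrFun (congrFun hG r) s
    simpa [Matrix.mul_apply, Fin.sum_univ_two] using this
  have hθ0 : S.θ * S.hw0 P i = (G 0 0 : 𝓞 K) * S.hw0 P i + (G 0 1 : 𝓞 K) * S.hw1 P i := by
    rw [hw0, θ_mul_coord, ← hc, ← hc]
    simp only [hw1]
    push_cast
    ring
  have hθ1 : S.θ * S.hw1 P i = (G 1 0 : 𝓞 K) * S.hw0 P i + (G 1 1 : 𝓞 K) * S.hw1 P i := by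
    rw [hw1, θ_mul_coord, ← hc, ← hc]
    simp only [hw0]
    push_cast
    ring
  intro w
  rw [latIdl, Ideal.mem_span_pair]
  constructor
  · rintro ⟨p, q, rfl⟩
    obtain ⟨a, b, rfl⟩ := S.exists_coord hN h4 p
    obtain ⟨c, e, rfl⟩ := S.exists_coord hN h4 q
    refine ⟨a + b * G 0 0 + e * G 1 0, c + b * G 0 1 + e * G 1 1, ?_⟩
    push_cast
    linear_combination (b : 𝓞 K) * hθ0 + (e : 𝓞 K) * hθ1
  · rintro ⟨u, v, rfl⟩
    exact ⟨u, v, rfl⟩

variable [Fact ℓ.Prime]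

theorem mem_latIdl_iff {i : Option (ZMod ℓ)} (h : P.Stable ℓ i) (u v : ℤ) :
    (u : 𝓞 K) * S.genB P + (v : 𝓞 K) * genA P ∈ S.latIdl P i ↔ InLat ℓ i u v := by
  rw [S.rep_latIdl P hN h4 h, inLat_iff]
  refine exists_congr fun s => exists_congr fun t => ⟨fun e => ?_, fun e => ?_⟩
  · refine S.coord_injective P ?_
    rw [e, hw0, hw1]
    push_cast
    ring
  · rw [e.1, e.2, hw0, hw1]
    push_cast
    ring

theorem exists_prime_of_stable {i : Option (ZMod ℓ)} (h : P.Stable ℓ i) :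
    ∃ L : Ideal (𝓞 K), Ideal.absNorm L = ℓ ∧ S.idl P * L = S.latIdl P i := by
  obtain ⟨L, hL⟩ := Ideal.dvd_iff_le.2 (S.latIdl_le P i)
  refine ⟨L, ?_, hL.symm⟩
  have hI := S.idl_ne_bot P
  have hℓ : ((ℓ : ℤ) : ZMod ℓ) = 0 := by simp
  have hle : Ideal.span {(ℓ : 𝓞 K)} * S.idl P ≤ S.latIdl P i := by
    intro w hw
    obtain ⟨z, hz, rfl⟩ := Ideal.mem_span_singleton_mul.1 hw
    obtain ⟨u, v, rfl⟩ := (S.rep_idl hN h4 P z).1 hz
    have := (S.mem_latIdl_iff P hN h4 h (ℓ * u) (ℓ * v)).2 (by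
      cases i <;> simp [InLat])
    push_cast at this
    convert this using 1
    ring
  have hdvd : L ∣ Ideal.span {(ℓ : 𝓞 K)} := by
    have h' : S.idl P * L ∣ S.idl P * Ideal.span {(ℓ : 𝓞 K)} := by
      rw [← hL, mul_comm]
      exact Ideal.dvd_iff_le.2 hle
    exact (mul_dvd_mul_iff_left (by rwa [Ideal.zero_eq_bot])).1 h'
  have hn : Ideal.absNorm (Ideal.span {(ℓ : 𝓞 K)}) = ℓ ^ 2 := by
    rw [Ideal.absNorm_span_singleton, ← map_natCast (algebraMap ℤ (𝓞 K)), Algebra.norm_algebraMap,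
      RingOfIntegers.rank, S.finrank_eq, Int.natAbs_pow, Int.natAbs_natCast]
  obtain ⟨k, hk2, hk⟩ := (Nat.dvd_prime_pow (Fact.out : ℓ.Prime)).1
    (hn ▸ Ideal.absNorm_dvd_absNorm_of_le (Ideal.dvd_iff_le.1 hdvd))
  interval_cases k
  · exfalso
    rw [pow_zero, Ideal.absNorm_eq_one_iff] at hk
    rw [hk, Ideal.mul_top] at hL
    have h1 := (S.mem_latIdl_iff P hN h4 h 1 0).1 (by
      rw [hL]; exact (S.rep_idl hN h4 P _).2 ⟨1, 0, rfl⟩)
    have h2 := (S.mem_latIdl_iff P hN h4 h 0 1).1 (by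
      rw [hL]; exact (S.rep_idl hN h4 P _).2 ⟨0, 1, rfl⟩)
    cases i <;> simp [InLat] at h1 h2
  · rw [hk, pow_one]
  · exfalso
    obtain ⟨M, hM⟩ := hdvd
    rw [hM, map_mul, hk] at hn
    have hM1 : Ideal.absNorm M = 1 :=
      mul_left_cancel₀ (pow_ne_zero 2 (Fact.out : ℓ.Prime).ne_zero) (hn.trans (mul_one _).symm)
    rw [Ideal.absNorm_eq_one_iff.1 hM1, Ideal.mul_top] at hM
    obtain ⟨u, v, huv, hndvd⟩ : ∃ u v : ℤ, InLat ℓ i u v ∧ ¬ ((ℓ : ℤ) ∣ u ∧ (ℓ : ℤ) ∣ v) := by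
      have h1 : ¬ (ℓ : ℤ) ∣ 1 := fun hd => by
        have := Int.eq_one_of_dvd_one (Int.natCast_nonneg ℓ) hd
        exact (Fact.out : ℓ.Prime).one_lt.ne' (by exact_mod_cast this)
      cases i with
      | none => exact ⟨0, 1, by simp [InLat], fun h => h1 h.2⟩
      | some j => exact ⟨1, (j.val : ℤ), by simp [InLat], fun h => h1 h.1⟩
    have hmem := (S.mem_latIdl_iff P hN h4 h u v).2 huv
    rw [hL, ← hM, mul_comm, Ideal.mem_span_singleton_mul] at hmem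
    obtain ⟨z, hz, e⟩ := hmem
    obtain ⟨a, b, rfl⟩ := (S.rep_idl hN h4 P z).1 hz
    obtain ⟨ha, hb⟩ := S.coord_injective P (u := ℓ * a) (v := ℓ * b) (u' := u) (v' := v) (by
      rw [← e]; push_cast; ring)
    exact hndvd ⟨⟨a, ha.symm⟩, ⟨b, hb.symm⟩⟩

omit hN h4 in
/-- A subgroup between `ℓ I` and `I`, different from both, is one of the sublattices. -/
theorem exists_lat_of_ideal {J : Ideal (𝓞 K)}
    (hℓmem : ∀ a b : ℤ,
      ((ℓ * a : ℤ) : 𝓞 K) * S.genB P + ((ℓ * b : ℤ) : 𝓞 K) * genA P ∈ J)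
    (hJI : ¬ (S.genB P ∈ J ∧ genA P ∈ J)) {u v : ℤ}
    (huv : (u : 𝓞 K) * S.genB P + (v : 𝓞 K) * genA P ∈ J)
    (hndvd : ¬ ((u : ZMod ℓ) = 0 ∧ (v : ZMod ℓ) = 0)) :
    ∃ i, ∀ a b : ℤ, (a : 𝓞 K) * S.genB P + (b : 𝓞 K) * genA P ∈ J ↔ InLat ℓ i a b := by
  obtain ⟨i, hi⟩ : ∃ i, InLat ℓ i u v := by
    by_cases h0 : (u : ZMod ℓ) = 0
    · exact ⟨none, h0⟩
    · exact ⟨some ((v : ZMod ℓ) / (u : ZMod ℓ)), by simp only [InLat]; field_simp⟩
  refine ⟨i, fun a b => ?_⟩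
  rw [inLat_iff_dependent hi hndvd]
  have key : ∀ c e c' e' s t : ℤ, (c : ZMod ℓ) = s * c' + t * u → (e : ZMod ℓ) = s * e' + t * v →
      (c' : 𝓞 K) * S.genB P + (e' : 𝓞 K) * genA P ∈ J →
      (c : 𝓞 K) * S.genB P + (e : 𝓞 K) * genA P ∈ J := by
    intro c e c' e' s t hc he hm
    obtain ⟨p, hp⟩ := (ZMod.intCast_zmod_eq_zero_iff_dvd (c - (s * c' + t * u)) ℓ).1
      (by push_cast; rw [hc, sub_self])
    obtain ⟨q, hq⟩ := (ZMod.intCast_zmod_eq_zero_iff_dvd (e - (s * e' + t * v)) ℓ).1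
      (by push_cast; rw [he, sub_self])
    have h := J.add_mem (J.add_mem (J.mul_mem_left (s : 𝓞 K) hm) (J.mul_mem_left (t : 𝓞 K) huv))
      (hℓmem p q)
    rw [← hp, ← hq] at h
    push_cast at h
    convert h using 1
    ring
  constructor
  · intro hab
    by_contra hD
    have hD' : (a : ZMod ℓ) * v - b * u ≠ 0 := sub_ne_zero.2 hD
    have hgen : ∀ c e : ℤ, (c : 𝓞 K) * S.genB P + (e : 𝓞 K) * genA P ∈ J := fun c e => by
      obtain ⟨s, hs⟩ := ZMod.intCast_surjective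
        (((a : ZMod ℓ) * (v : ZMod ℓ) - (b : ZMod ℓ) * (u : ZMod ℓ))⁻¹ *
          ((c : ZMod ℓ) * (v : ZMod ℓ) - (e : ZMod ℓ) * (u : ZMod ℓ)))
      obtain ⟨t, ht⟩ := ZMod.intCast_surjective
        (((a : ZMod ℓ) * (v : ZMod ℓ) - (b : ZMod ℓ) * (u : ZMod ℓ))⁻¹ *
          ((a : ZMod ℓ) * (e : ZMod ℓ) - (b : ZMod ℓ) * (c : ZMod ℓ)))
      refine key c e a b s t ?_ ?_ hab
      · rw [hs, ht]
        linear_combination -(c : ZMod ℓ) * inv_mul_cancel₀ hD'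
      · rw [hs, ht]
        linear_combination -(e : ZMod ℓ) * inv_mul_cancel₀ hD'
    exact hJI ⟨by simpa using hgen 1 0, by simpa using hgen 0 1⟩
  · intro hD
    obtain ⟨t, ht⟩ : ∃ t : ZMod ℓ, (a : ZMod ℓ) = t * u ∧ (b : ZMod ℓ) = t * v := by
      by_cases hu : (u : ZMod ℓ) = 0
      · have hv : (v : ZMod ℓ) ≠ 0 := fun h => hndvd ⟨hu, h⟩
        refine ⟨(b : ZMod ℓ) / v, ?_, by field_simp⟩
        rw [hu, mul_zero] at hD ⊢
        exact (mul_eq_zero.1 hD).resolve_right hv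
      · refine ⟨(a : ZMod ℓ) / u, by field_simp, ?_⟩
        field_simp
        linear_combination -hD
    obtain ⟨t', rfl⟩ := ZMod.intCast_surjective t
    exact key a b u v 0 t' (by simpa using ht.1) (by simpa using ht.2) huv

theorem exists_nondvd_of_prime {L : Ideal (𝓞 K)} (hL : Ideal.absNorm L = ℓ) :
    ∃ u v : ℤ, (u : 𝓞 K) * S.genB P + (v : 𝓞 K) * genA P ∈ S.idl P * L ∧
      ¬ ((u : ZMod ℓ) = 0 ∧ (v : ZMod ℓ) = 0) := by
  by_contra hcon
  push Not at hcon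
  have hrep := S.rep_idl hN h4 P
  have hle : S.idl P * L ≤ Ideal.span {(ℓ : 𝓞 K)} * S.idl P := by
    intro w hw
    obtain ⟨u, v, rfl⟩ := (hrep w).1 (Ideal.mul_le_left hw)
    obtain ⟨hu, hv⟩ := hcon u v hw
    obtain ⟨a, rfl⟩ := (ZMod.intCast_zmod_eq_zero_iff_dvd _ _).1 hu
    obtain ⟨b, rfl⟩ := (ZMod.intCast_zmod_eq_zero_iff_dvd _ _).1 hv
    rw [Ideal.mem_span_singleton_mul]
    refine ⟨_, (hrep _).2 ⟨a, b, rfl⟩, ?_⟩
    push_cast
    ring
  have h := Ideal.absNorm_dvd_absNorm_of_le hle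
  rw [map_mul, map_mul, hL, Ideal.absNorm_span_singleton,
    ← map_natCast (algebraMap ℤ (𝓞 K)), Algebra.norm_algebraMap, RingOfIntegers.rank,
    S.finrank_eq, Int.natAbs_pow, Int.natAbs_natCast, mul_comm (ℓ ^ 2)] at h
  have h0 : Ideal.absNorm (S.idl P) ≠ 0 := by
    rw [Ne, Ideal.absNorm_eq_zero_iff]
    exact S.idl_ne_bot P
  have h2 := Nat.le_of_dvd (Fact.out : ℓ.Prime).pos
    (Nat.dvd_of_mul_dvd_mul_left (Nat.pos_of_ne_zero h0) h)
  have h3 := (Fact.out : ℓ.Prime).two_le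
  nlinarith

theorem exists_stable_of_prime {L : Ideal (𝓞 K)} (hL : Ideal.absNorm L = ℓ) :
    ∃ i : Option (ZMod ℓ), P.Stable ℓ i ∧ S.idl P * L = S.latIdl P i := by
  have hI : S.idl P ≠ 0 := S.idl_ne_bot P
  have hrep := S.rep_idl hN h4 P
  have hℓmem : ∀ a b : ℤ,
      ((ℓ * a : ℤ) : 𝓞 K) * S.genB P + ((ℓ * b : ℤ) : 𝓞 K) * genA P ∈ S.idl P * L := by
    intro a b
    have h1 : ((a : 𝓞 K) * S.genB P + (b : 𝓞 K) * genA P) * (ℓ : 𝓞 K) ∈ S.idl P * L :=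
      Ideal.mul_mem_mul ((hrep _).2 ⟨a, b, rfl⟩) (hL ▸ Ideal.absNorm_mem L)
    convert h1 using 1
    push_cast
    ring
  have hLne : L ≠ ⊤ := fun h => by
    rw [h, Ideal.absNorm_top] at hL
    exact (Fact.out : ℓ.Prime).one_lt.ne hL
  have hJI : ¬ (S.genB P ∈ S.idl P * L ∧ genA P ∈ S.idl P * L) := by
    rintro ⟨hB, hA⟩
    have hle : S.idl P ≤ S.idl P * L := fun w hw => by
      obtain ⟨a, b, rfl⟩ := (hrep w).1 hw
      exact Ideal.add_mem _ (Ideal.mul_mem_left _ _ hB) (Ideal.mul_mem_left _ _ hA)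
    have h1 : S.idl P * L = S.idl P * ⊤ := by
      rw [Ideal.mul_top]
      exact le_antisymm Ideal.mul_le_left hle
    exact hLne (mul_left_cancel₀ hI h1)
  obtain ⟨u, v, huv, hndvd⟩ := S.exists_nondvd_of_prime P hN h4 hL
  obtain ⟨i, hmem⟩ := S.exists_lat_of_ideal P hℓmem hJI huv hndvd
  have hrow : ∀ r, InLat ℓ i (heckeMat ℓ i r 0) (heckeMat ℓ i r 1) := fun r => by
    rw [inLat_iff]
    fin_cases r
    · exact ⟨1, 0, by simp, by simp⟩
    · exact ⟨0, 1, by simp, by simp⟩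
  have hθ : ∀ r, InLat ℓ i (heckeMat ℓ i r 0 * P.mat 0 0 + heckeMat ℓ i r 1 * P.mat 1 0)
      (heckeMat ℓ i r 0 * P.mat 0 1 + heckeMat ℓ i r 1 * P.mat 1 1) := fun r => by
    rw [← hmem, ← S.θ_mul_coord]
    exact Ideal.mul_mem_left _ _ ((hmem _ _).2 (hrow r))
  choose s t hst using fun r => (inLat_iff ℓ i _ _).1 (hθ r)
  have hstab : P.Stable ℓ i := by
    refine ⟨!![s 0, t 0; s 1, t 1], ?_⟩
    ext r c
    fin_cases r <;> fin_cases c <;> simp [Matrix.mul_apply, Fin.sum_univ_two]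
    · exact (hst 0).1.symm
    · exact (hst 0).2.symm
    · exact (hst 1).1.symm
    · exact (hst 1).2.symm
  refine ⟨i, hstab, le_antisymm (fun w hw => ?_) (fun w hw => ?_)⟩
  · obtain ⟨a, b, rfl⟩ := (hrep w).1 (Ideal.mul_le_left hw)
    exact (S.mem_latIdl_iff P hN h4 hstab a b).2 ((hmem a b).1 hw)
  · obtain ⟨a, b, rfl⟩ := (hrep w).1 (S.latIdl_le P i hw)
    exact (hmem a b).2 ((S.mem_latIdl_iff P hN h4 hstab a b).1 hw)

theorem cls_eq_mul {i : Option (ZMod ℓ)} (h : P.Stable ℓ i) {L : Ideal (𝓞 K)}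
    (hL0 : L ∈ (Ideal (𝓞 K))⁰) (hL : S.idl P * L = S.latIdl P i) {Q : CMData N}
    (hQ : Q.pt = Newform.atkinGL (heckeMat ℓ i) • P.pt) :
    S.cls Q = S.cls P * ClassGroup.mk0 ⟨L, hL0⟩ := by
  rw [show S.cls P = ClassGroup.mk0
    ⟨S.idl P, mem_nonZeroDivisors_iff_ne_zero.2 (S.idl_ne_bot P)⟩ from rfl, ← map_mul]
  symm
  have hdet : 0 < (heckeMat ℓ i).det := by
    rw [det_heckeMat]; exact_mod_cast (Fact.out : ℓ.Prime).pos
  obtain ⟨hv, hne⟩ := mulVec_smul_vec hdet P.pt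
  rw [← hQ, cmat_mulVec] at hv
  have hew1 : S.emb (S.hw1 P i) = (N : ℂ) * P.z * den (heckeMat ℓ i) P.pt := by
    rw [hw1, map_add, map_mul, map_mul, emb_genA, emb_genB, map_intCast, map_intCast, den]
    ring
  refine S.mk0_eq_cls_of_rep hN h4 (w0 := S.hw0 P i) (w1 := S.hw1 P i) ?_ ?_ Q 1 ?_
  · simpa only [Submonoid.coe_mul, hL] using S.rep_latIdl P hN h4 h
  · intro h0
    rw [h0, map_zero] at hew1
    exact hne (by simpa [NeZero.ne N, P.z_pos.ne'] using hew1.symm)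
  · rw [hew1, hw0, map_add, map_mul, map_mul, emb_genA, emb_genB, map_intCast, map_intCast]
    have h0 := congrFun hv 0
    simp [vec] at h0
    simp [den] at h0 ⊢
    linear_combination (N : ℂ) * P.z * h0

/-- **The Hecke correspondence on the fixed points**: the fixed neighbours of a fixed point
correspond to the ideals of norm `ℓ`, and the class is multiplied by that of the ideal. -/
theorem exists_heckeEquiv (hN4 : 4 ≤ N) (hℓN : ¬ ℓ ∣ N) :
    ∃ e : {i : Option (ZMod ℓ) // IsALFixed N N (Newform.atkinGL (heckeMat ℓ i) • P.pt)} ≃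
        {L : (Ideal (𝓞 K))⁰ // Ideal.absNorm (L : Ideal (𝓞 K)) = ℓ},
      ∀ i (Q : CMData N), Q.pt = Newform.atkinGL (heckeMat ℓ i.1) • P.pt →
        S.cls Q = S.cls P * ClassGroup.mk0 (e i).1 := by
  have hnz : ∀ L : Ideal (𝓞 K), Ideal.absNorm L = ℓ → L ∈ (Ideal (𝓞 K))⁰ := fun L hL =>
    mem_nonZeroDivisors_iff_ne_zero.2 fun h0 => (Fact.out : ℓ.Prime).ne_zero
      (by rw [← hL, h0, Ideal.zero_eq_bot, Ideal.absNorm_bot])
  have hI : S.idl P ≠ 0 := S.idl_ne_bot P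
  let f : {i : Option (ZMod ℓ) // IsALFixed N N (Newform.atkinGL (heckeMat ℓ i) • P.pt)} →
      {L : (Ideal (𝓞 K))⁰ // Ideal.absNorm (L : Ideal (𝓞 K)) = ℓ} := fun i =>
    let h := S.exists_prime_of_stable P hN h4 ((P.isALFixed_heckeMat_iff hN4 hℓN i.1).1 i.2)
    ⟨⟨h.choose, hnz _ h.choose_spec.1⟩, h.choose_spec.1⟩
  have hf : ∀ i, S.idl P * ((f i).1 : Ideal (𝓞 K)) = S.latIdl P i.1 := fun i =>
    (S.exists_prime_of_stable P hN h4
      ((P.isALFixed_heckeMat_iff hN4 hℓN i.1).1 i.2)).choose_spec.2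
  refine ⟨Equiv.ofBijective f ⟨fun a b hab => ?_, fun L => ?_⟩, fun i Q hQ => ?_⟩
  · have e : S.latIdl P a.1 = S.latIdl P b.1 := by rw [← hf, ← hf, hab]
    have ha := (P.isALFixed_heckeMat_iff hN4 hℓN a.1).1 a.2
    have hb := (P.isALFixed_heckeMat_iff hN4 hℓN b.1).1 b.2
    exact Subtype.ext (inLat_injective fun u v huv =>
      (S.mem_latIdl_iff P hN h4 hb u v).1 (e ▸ (S.mem_latIdl_iff P hN h4 ha u v).2 huv))
  · obtain ⟨i, hi, he⟩ := S.exists_stable_of_prime P hN h4 L.2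
    refine ⟨⟨i, (P.isALFixed_heckeMat_iff hN4 hℓN i).2 hi⟩, Subtype.ext (Subtype.ext ?_)⟩
    exact mul_left_cancel₀ hI ((hf _).trans he.symm)
  · exact S.cls_eq_mul P hN h4 ((P.isALFixed_heckeMat_iff hN4 hℓN i.1).1 i.2) _ (hf i) hQ

end SqrtNeg

end Fermat.Agent.Residual.CMFix

end
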