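/-
The integer matrices of determinant `ℓ` with lower left entry divisible by `N`: the representatives
modulo `Γ₀(N)`, and the symmetry of the count of neighbours of two points.
-/
import Fermat.Agent.Residual.CMFixHecke
import Fermat.Agent.Residual.MobiusModular
import Fermat.Agent.Places.Local

set_option autoImplicit false

noncomputable section

open Matrix UpperHalfPlane CongruenceSubgroup
open scoped MatrixGroups

namespace Fermat.Agent.Residual.HeckePts

open Fermat.Agent CMFix Places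

variable (N ℓ : ℕ) [hℓ : Fact ℓ.Prime]

/-- Membership in the set of matrices of the Hecke correspondence `T_ℓ`. -/
def InDelta (X : IMat) : Prop := X.det = ℓ ∧ (N : ℤ) ∣ X 1 0

variable {N ℓ}

theorem heckeMat_inDelta (i : Option (ZMod ℓ)) : InDelta N ℓ (CMFix.heckeMat ℓ i) :=
  ⟨CMFix.det_heckeMat ℓ i, by rw [CMFix.heckeMat_ten]; exact dvd_zero _⟩

omit hℓ in
theorem InDelta.adjugate {X : IMat} (h : InDelta N ℓ X) : InDelta N ℓ X.adjugate := by
  refine ⟨?_, ?_⟩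
  · rw [det_adjugate, h.1]; simp
  · simpa [adjugate_fin_two] using h.2.neg_right

theorem InDelta.det_pos {X : IMat} (h : InDelta N ℓ X) : 0 < X.det := by
  rw [h.1]; exact_mod_cast hℓ.out.pos

theorem det_heckeMat_pos (i : Option (ZMod ℓ)) : 0 < (CMFix.heckeMat ℓ i).det :=
  (heckeMat_inDelta (N := 1) i).det_pos

omit hℓ in
theorem mul_right_cancel_det {A B g : IMat} (hg : g.det ≠ 0) (h : A * g = B * g) : A = B := by
  have h1 : g.det • A = g.det • B := by
    calc g.det • A = A * g * g.adjugate := by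
          rw [Matrix.mul_assoc, mul_adjugate, Matrix.mul_smul, Matrix.mul_one]
      _ = B * g * g.adjugate := by rw [h]
      _ = g.det • B := by rw [Matrix.mul_assoc, mul_adjugate, Matrix.mul_smul, Matrix.mul_one]
  exact smul_right_injective _ hg h1

theorem exists_rep (hN : ¬ ℓ ∣ N) {X : IMat} (hX : InDelta N ℓ X) :
    ∃ i, ∃ γ : SL(2, ℤ), γ ∈ Gamma0 N ∧ X = (γ : IMat) * CMFix.heckeMat ℓ i := by
  have hp : (ℓ : ℤ) ≠ 0 := by exact_mod_cast hℓ.out.ne_zero
  have hdet := hX.1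
  rw [det_fin_two] at hdet
  have hdet' : (X 0 0 : ZMod ℓ) * X 1 1 - X 0 1 * X 1 0 = 0 := by
    have := congrArg (fun z : ℤ => (z : ZMod ℓ)) hdet
    simpa using this
  have hcop : IsCoprime (N : ℤ) (ℓ : ℤ) := by
    rw [Int.isCoprime_iff_gcd_eq_one, Int.gcd_natCast_natCast]
    exact ((Nat.Prime.coprime_iff_not_dvd hℓ.out).2 hN).symm
  obtain ⟨i, hi⟩ : ∃ i, ∀ r, CMFix.InLat ℓ i (X r 0) (X r 1) := by
    by_cases h : (X 0 0 : ZMod ℓ) = 0 ∧ (X 1 0 : ZMod ℓ) = 0
    · exact ⟨none, fun r => by fin_cases r <;> simp [CMFix.InLat, h.1, h.2]⟩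
    · by_cases h0 : (X 0 0 : ZMod ℓ) = 0
      · have h1 : (X 1 0 : ZMod ℓ) ≠ 0 := fun e => h ⟨h0, e⟩
        refine ⟨some ((X 1 1 : ZMod ℓ) / X 1 0), fun r => ?_⟩
        rw [h0, zero_mul, zero_sub, neg_eq_zero, mul_eq_zero] at hdet'
        have h01 := hdet'.resolve_right h1
        fin_cases r <;> simp [CMFix.InLat, h0, h01, div_mul_cancel₀ _ h1]
      · refine ⟨some ((X 0 1 : ZMod ℓ) / X 0 0), fun r => ?_⟩
        fin_cases r <;> simp [CMFix.InLat] <;> field_simp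
        linear_combination hdet'
  choose s t hst using fun r => (CMFix.inLat_iff ℓ i _ _).1 (hi r)
  have e : X = !![s 0, t 0; s 1, t 1] * CMFix.heckeMat ℓ i := by
    ext r c
    fin_cases r <;> fin_cases c <;> simp [Matrix.mul_apply, Fin.sum_univ_two]
    · exact (hst 0).1
    · exact (hst 0).2
    · exact (hst 1).1
    · exact (hst 1).2
  have hd : (!![s 0, t 0; s 1, t 1] : IMat).det = 1 := by
    have h1 := congrArg Matrix.det e
    rw [det_mul, CMFix.det_heckeMat, hX.1] at h1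
    exact mul_right_cancel₀ hp (by linear_combination -h1)
  refine ⟨i, ⟨_, hd⟩, ?_, e⟩
  rw [Gamma0_mem, ZMod.intCast_zmod_eq_zero_iff_dvd]
  show (N : ℤ) ∣ s 1
  have h2 := hX.2
  rw [(hst 1).1, CMFix.heckeMat_ten, mul_zero, add_zero] at h2
  cases i with
  | none => exact hcop.dvd_of_dvd_mul_right (by simpa [CMFix.heckeMat] using h2)
  | some j => simpa [CMFix.heckeMat] using h2

theorem rep_unique {γ γ' : SL(2, ℤ)} {i i' : Option (ZMod ℓ)}
    (h : (γ : IMat) * CMFix.heckeMat ℓ i = (γ' : IMat) * CMFix.heckeMat ℓ i') : i = i' := by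
  refine CMFix.inLat_injective fun u v huv => ?_
  obtain ⟨s, t, hu, hv⟩ := (CMFix.inLat_iff ℓ i u v).1 huv
  have hg : CMFix.heckeMat ℓ i = ((γ⁻¹ * γ' : SL(2, ℤ)) : IMat) * CMFix.heckeMat ℓ i' := by
    rw [Matrix.SpecialLinearGroup.coe_mul, Matrix.mul_assoc, ← h, ← Matrix.mul_assoc,
      ← Matrix.SpecialLinearGroup.coe_mul, inv_mul_cancel]
    simp
  generalize (γ⁻¹ * γ' : SL(2, ℤ)) = η at hg
  refine (CMFix.inLat_iff ℓ i' u v).2
    ⟨s * (η : IMat) 0 0 + t * (η : IMat) 1 0, s * (η : IMat) 0 1 + t * (η : IMat) 1 1, ?_, ?_⟩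
  · rw [hu, hg]; simp [Matrix.mul_apply, Fin.sum_univ_two]; ring
  · rw [hv, hg]; simp [Matrix.mul_apply, Fin.sum_univ_two]; ring

variable (N ℓ)

/-- The matrices of `T_ℓ` carrying `σ` to `τ`. -/
def Carriers (σ τ : ℍ) : Type :=
  {X : IMat // InDelta N ℓ X ∧ Newform.atkinGL X • σ = τ}

/-- The representatives carrying `σ` to the orbit of `τ`. -/
def Nbrs (σ τ : ℍ) : Type :=
  {i : Option (ZMod ℓ) // ∃ γ ∈ Gamma0 N,
    γ • Newform.atkinGL (CMFix.heckeMat ℓ i) • σ = τ}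

instance instFiniteNbrs (σ τ : ℍ) : Finite (Nbrs N ℓ σ τ) := by
  haveI : NeZero ℓ := ⟨hℓ.out.ne_zero⟩
  exact Subtype.finite

variable {N ℓ}

theorem natCard_carriers (hN : ¬ ℓ ∣ N) (σ τ : ℍ) :
    Nat.card (Carriers N ℓ σ τ) =
      Nat.card (Nbrs N ℓ σ τ) * Nat.card (MulAction.stabilizer (Gamma0 N) τ) := by
  choose γ hγ hγτ using fun i : Nbrs N ℓ σ τ => i.2
  rw [← Nat.card_prod]
  refine (Nat.card_eq_of_bijective (α := Nbrs N ℓ σ τ × MulAction.stabilizer (Gamma0 N) τ)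
    (fun p => (⟨(((p.2.1 : SL(2, ℤ)) * γ p.1 : SL(2, ℤ)) : IMat) * CMFix.heckeMat ℓ p.1.1,
      ⟨?_, ?_⟩⟩ : Carriers N ℓ σ τ)) ⟨?_, ?_⟩).symm
  · refine ⟨by rw [det_mul, CMFix.det_heckeMat]; simp, ?_⟩
    have hm := mul_mem p.2.1.2 (hγ p.1)
    rw [Gamma0_mem, ZMod.intCast_zmod_eq_zero_iff_dvd] at hm
    simpa [Matrix.mul_apply, Fin.sum_univ_two, CMFix.heckeMat_ten] using hm.mul_right _
  · rw [atkinGL_smul_SL_eq (det_heckeMat_pos _).ne' rfl, mul_smul, hγτ]
    exact p.2.2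
  · rintro ⟨i, s⟩ ⟨i', s'⟩ h
    have h1 := congrArg Subtype.val h
    simp only at h1
    have hi : i = i' := Subtype.ext (rep_unique h1)
    subst hi
    refine Prod.ext rfl ?_
    have h2 := Subtype.ext (mul_right_cancel_det (det_heckeMat_pos _).ne' h1)
    exact Subtype.ext (Subtype.ext (mul_right_cancel h2))
  · rintro ⟨X, hX, hXσ⟩
    obtain ⟨i, η, hη, rfl⟩ := exists_rep hN hX
    rw [atkinGL_smul_SL_eq (det_heckeMat_pos _).ne' rfl] at hXσ
    set k : Nbrs N ℓ σ τ := ⟨i, η, hη, hXσ⟩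
    have hk : (η * (γ k)⁻¹) • τ = τ := by
      conv_lhs => rw [← hγτ k]
      rw [mul_smul, inv_smul_smul]
      exact hXσ
    refine ⟨(k, ⟨⟨η * (γ k)⁻¹, mul_mem hη (inv_mem (hγ k))⟩, hk⟩), Subtype.ext ?_⟩
    show ((η * (γ k)⁻¹ * γ k : SL(2, ℤ)) : IMat) * _ = _
    rw [inv_mul_cancel_right]

theorem atkinGL_adjugate_smul {X : IMat} (hX : 0 < X.det) (τ : ℍ) :
    Newform.atkinGL X.adjugate • Newform.atkinGL X • τ = τ := by
  have hadj : 0 < X.adjugate.det := by rw [det_adjugate]; simpa using hX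
  rw [← mul_smul, ← Newform.atkinGL_mul hadj.ne' hX.ne', adjugate_mul]
  apply UpperHalfPlane.ext
  rw [coe_atkinGL_smul (by rw [Matrix.det_smul, det_one, mul_one, Fintype.card_fin]; exact pow_pos hX 2)]
  simp only [Matrix.smul_apply, one_apply_eq, ne_eq, Fin.reduceEq, not_false_eq_true,
    one_apply_ne, smul_eq_mul, mul_one, mul_zero, Int.cast_zero, zero_mul, zero_add, add_zero]
  have : (X.det : ℂ) ≠ 0 := Int.cast_ne_zero.2 hX.ne'
  field_simp

omit hℓ in
theorem adjugate_adjugate_two (X : IMat) : X.adjugate.adjugate = X := by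
  simp [adjugate_fin_two]
  ext i j
  fin_cases i <;> fin_cases j <;> rfl

/-- The adjugate exchanges the carriers. -/
def carriersSwap (σ τ : ℍ) : Carriers N ℓ σ τ ≃ Carriers N ℓ τ σ where
  toFun X := ⟨X.1.adjugate, X.2.1.adjugate,
    (congrArg (Newform.atkinGL X.1.adjugate • ·) X.2.2).symm.trans
      (atkinGL_adjugate_smul X.2.1.det_pos σ)⟩
  invFun X := ⟨X.1.adjugate, X.2.1.adjugate,
    (congrArg (Newform.atkinGL X.1.adjugate • ·) X.2.2).symm.trans
      (atkinGL_adjugate_smul X.2.1.det_pos τ)⟩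
  left_inv X := Subtype.ext (adjugate_adjugate_two X.1)
  right_inv X := Subtype.ext (adjugate_adjugate_two X.1)

theorem natCard_nbrs_symm (hN : ¬ ℓ ∣ N) (σ τ : ℍ) :
    Nat.card (Nbrs N ℓ σ τ) * ellPeriod (Gamma0 N) τ =
      Nat.card (Nbrs N ℓ τ σ) * ellPeriod (Gamma0 N) σ := by
  have h := Nat.card_congr (carriersSwap (N := N) (ℓ := ℓ) σ τ)
  rw [natCard_carriers hN, natCard_carriers hN, natCard_stabilizer_eq, natCard_stabilizer_eq,
    ← two_mul_ellPeriod (by simp [Gamma0_mem]), ← two_mul_ellPeriod (by simp [Gamma0_mem])] at h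
  exact Nat.eq_of_mul_eq_mul_left two_pos (by linear_combination h)

end Fermat.Agent.Residual.HeckePts

end
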