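/-
The Hecke correspondence `T_ℓ` of `X₀(N)`, `ℓ ∤ N`, on the points of the upper half plane:
the divisor of a point `τ` is sent to the sum of the points `(τ + j)/ℓ` and `ℓ τ`.
-/
import Fermat.Agent.Residual.HeckePoints
import Fermat.Agent.Residual.AlinvHecke
import Fermat.Agent.Torsion.Extension
import Fermat.Agent.Places.Gamma0

set_option autoImplicit false
set_option linter.style.haveILetI false

noncomputable section

open UpperHalfPlane CongruenceSubgroup ModularCurve AlgebraicCurve Fermat.Agent.ModFun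
open scoped MatrixGroups

namespace Fermat.Agent.Residual.HeckePts

open Fermat.Agent Places

attribute [local instance] Torsion.algQC Torsion.algQE Torsion.algFE Torsion.isScalarTower_QCE
  Torsion.isScalarTower_QFE Torsion.isConstExt_FC

local notation "ℚbar" => AlgebraicClosure ℚ

section Generic

variable {K F F' : Type*} [Field K] [Field F] [Field F'] [Algebra K F] [Algebra K F']
  [HasPrincipalDivisors K F']

/-- Only finitely many places contribute to a given coefficient of a correspondence. -/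
theorem finite_setOf_correspondence_ne_zero (φ ψ : F →ₐ[K] F') (hφ : φ.toRingHom.IsIntegral)
    (hψ : ψ.toRingHom.IsIntegral) (u : Place K F) :
    {w : Place K F | Divisor.correspondence φ ψ hφ hψ (Finsupp.single w 1) u ≠ 0}.Finite := by
  classical
  have hfib : {p : Place K F' | p.restrictAlong ψ hψ = u}.Finite := by
    letI := algebraAlong ψ
    haveI := isScalarTower_along ψ
    haveI := isIntegral_along ψ hψ
    exact Place.restrict_fiber_finite u
  refine (hfib.image fun p => p.restrictAlong φ hφ).subset fun w hw => ?_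
  by_contra hc
  apply hw
  rw [Divisor.correspondence_apply]
  conv_lhs => rw [← Finsupp.sum_single (Divisor.pullbackAlong φ hφ (Finsupp.single w 1))]
  rw [map_finsuppSum, Finsupp.sum_apply]
  refine Finset.sum_eq_zero fun p hp => ?_
  simp only
  rw [Divisor.pushforwardAlong_single, Finsupp.single_apply, if_neg]
  intro hpu
  rw [Finsupp.mem_support_iff, Divisor.pullbackAlong_apply, Finsupp.single_apply] at hp
  split_ifs at hp with hpw
  · exact hc ⟨p, hpu, hpw.symm⟩
  · simp at hp

/-- A function with a simple zero at a place and of order zero at finitely many others. -/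
theorem exists_ord_one (v : Place K F) (s : Finset (Place K F)) (hv : v ∉ s) :
    ∃ f : F, f ≠ 0 ∧ v.ord f = 1 ∧ ∀ w ∈ s, w.ord f = 0 := by
  classical
  obtain ⟨π, hπ0, hπ⟩ := Curve.exists_ord_eq v 1
  obtain ⟨f, hf⟩ := Curve.exists_approx (insert v s) (fun w => if w = v then π else 1) 2
  have key : ∀ (w : Place K F) (a : F), a ≠ 0 → w.ord a < 2 →
      (f - a = 0 ∨ 2 ≤ w.ord (f - a)) → f ≠ 0 ∧ w.ord f = w.ord a := by
    intro w a ha hlt h
    rcases h with h | h
    · rw [sub_eq_zero.1 h]; exact ⟨ha, rfl⟩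
    · refine ⟨?_, ?_⟩
      · rintro rfl
        rw [zero_sub, Curve.ord_neg] at h
        omega
      · have := Curve.ord_add_eq_left w (f := a) (g := f - a) ha fun _ => by omega
        rwa [add_sub_cancel] at this
  have hv' := hf v (Finset.mem_insert_self v s)
  rw [if_pos rfl] at hv'
  obtain ⟨hf0, hfv⟩ := key v π hπ0 (by omega) hv'
  refine ⟨f, hf0, hfv.trans hπ, fun w hw => ?_⟩
  have hw' := hf w (Finset.mem_insert_of_mem hw)
  rw [if_neg (ne_of_mem_of_not_mem hw hv)] at hw'
  rw [(key w 1 one_ne_zero (by rw [Place.ord_one]; omega) hw').2, Place.ord_one]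

end Generic

variable {N ℓ : ℕ} [NeZero N] [hℓ : Fact ℓ.Prime]

local instance neZero_heckePoint : NeZero ℓ := ⟨hℓ.out.ne_zero⟩

local instance instFiniteIndexGamma0Hecke : (Gamma0 N).FiniteIndex :=
  ⟨by rw [Places.index_Gamma0]; exact (Gamma0.dedekindPsi_pos N).ne'⟩

theorem scale_eq_heckeMat (τ : ℍ) :
    HeckeJ.scale ℓ τ = Newform.atkinGL (CMFix.heckeMat ℓ none) • τ := by
  apply UpperHalfPlane.ext
  rw [HeckeJ.coe_scale, coe_atkinGL_smul (det_heckeMat_pos _)]
  simp [CMFix.heckeMat]

/-- `Norm_α (β f)` is the product over the representatives. -/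
theorem eqPunct_heckeFun (hN : ¬ ℓ ∣ N) (ι : ℚbar →+* ℂ) (f : modularFunctionFieldBar N) :
    EqPunct (toFun (barToC N ι (HeckeJ.heckeFun ℚbar N ℓ f)))
      (∏ i : Option (ZMod ℓ),
        fun τ => toFun (barToC N ι f) (Newform.atkinGL (CMFix.heckeMat ℓ i) • τ)) := by
  have hrep : ∀ q : HeckeJ.RelCoset N (N * ℓ), ∃ i, ∃ γ : SL(2, ℤ), γ ∈ Gamma0 N ∧
      CMFix.heckeMat ℓ none * (((Quotient.out q : Gamma0 N) : SL(2, ℤ))⁻¹ : SL(2, ℤ)) =
        (γ : CMFix.IMat) * CMFix.heckeMat ℓ i := fun q => by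
    refine exists_rep hN ⟨?_, ?_⟩
    · rw [Matrix.det_mul, CMFix.det_heckeMat]; simp [Matrix.det_adjugate]
    · have h := inv_mem (Quotient.out q : Gamma0 N).2
      rw [Gamma0_mem, ZMod.intCast_zmod_eq_zero_iff_dvd] at h
      simpa [CMFix.heckeMat, Matrix.mul_apply, Fin.sum_univ_two] using h
  choose π γ hγ he using hrep
  have hinj : Function.Injective π := by
    intro a b hab
    rw [← QuotientGroup.out_eq' a, ← QuotientGroup.out_eq' b, HeckeJ.relCoset_mk_eq_iff]
    set A : SL(2, ℤ) := ((Quotient.out a : Gamma0 N) : SL(2, ℤ))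
    set B : SL(2, ℤ) := ((Quotient.out b : Gamma0 N) : SL(2, ℤ))
    have hB := he b
    rw [← hab] at hB
    have h1 : CMFix.heckeMat ℓ none * ((A⁻¹ * B : SL(2, ℤ)) : CMFix.IMat) =
        ((γ a * (γ b)⁻¹ : SL(2, ℤ)) : CMFix.IMat) * CMFix.heckeMat ℓ none := by
      have h2 : CMFix.heckeMat ℓ (π a) =
          (((γ b)⁻¹ : SL(2, ℤ)) : CMFix.IMat) * (CMFix.heckeMat ℓ none * ((B⁻¹ : SL(2, ℤ)) : CMFix.IMat)) := by
        rw [hB, ← Matrix.mul_assoc, ← Matrix.SpecialLinearGroup.coe_mul, inv_mul_cancel]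
        simp
      rw [Matrix.SpecialLinearGroup.coe_mul, ← Matrix.mul_assoc, he a, h2,
        Matrix.SpecialLinearGroup.coe_mul]
      simp only [Matrix.mul_assoc]
      rw [← Matrix.SpecialLinearGroup.coe_mul, inv_mul_cancel]
      simp
    have hm : γ a * (γ b)⁻¹ ∈ Gamma0 N := mul_mem (hγ a) (inv_mem (hγ b))
    rw [Gamma0_mem, ZMod.intCast_zmod_eq_zero_iff_dvd] at hm ⊢
    have h10 := congrArg (fun M : CMFix.IMat => M 1 0) h1
    simp only [CMFix.heckeMat, Matrix.mul_apply, Fin.sum_univ_two, Matrix.of_apply,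
      Matrix.cons_val', Matrix.cons_val_zero, Matrix.cons_val_one, Matrix.cons_val_fin_one,
      zero_mul, one_mul, zero_add, mul_zero, add_zero] at h10
    rw [h10, Nat.cast_mul]
    exact mul_dvd_mul hm dvd_rfl
  have hbij : Function.Bijective π := (Fintype.bijective_iff_injective_and_card π).2 ⟨hinj, by
    rw [HeckeJ.card_relCoset hℓ.out, HeckeJ.levelIndex, if_neg hN, Fintype.card_option,
      ZMod.card]⟩
  refine (HeckeJ.barFun_heckeFun ι hℓ.out f).trans (Places.eqPunct_of_eq (funext fun τ => ?_))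
  rw [Finset.prod_apply]
  refine Fintype.prod_bijective π hbij _ _ fun q => ?_
  show HeckeJ.barFun ι f (HeckeJ.scale ℓ _) = _
  rw [scale_eq_heckeMat, atkinGL_smul_smul (det_heckeMat_pos _).ne',
    atkinGL_smul_SL_eq (det_heckeMat_pos _).ne' (he q), HeckeJ.barFun_smul ι f (hγ q)]
  rfl

/-- The orders of `Norm_α (β f)` at the points. -/
theorem ord_heckeFun (hN : ¬ ℓ ∣ N) {f : modularFunctionFieldBar N} (hf : f ≠ 0) (σ : ℍ) :
    (ellPeriod (Gamma0 N) σ : ℤ) * ((x0Model N).placeAt σ).ord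
        (algebraMap (modularFunctionFieldBar N) (modularFunctionFieldC ℂ N)
          (HeckeJ.heckeFun ℚbar N ℓ f)) =
      ∑ i : Option (ZMod ℓ),
        (ellPeriod (Gamma0 N) (Newform.atkinGL (CMFix.heckeMat ℓ i) • σ) : ℤ) *
          ((x0Model N).placeAt (Newform.atkinGL (CMFix.heckeMat ℓ i) • σ)).ord
            (algebraMap (modularFunctionFieldBar N) (modularFunctionFieldC ℂ N) f) := by
  have hne : ∀ x : modularFunctionFieldBar N, x ≠ 0 →
      algebraMap (modularFunctionFieldBar N) (modularFunctionFieldC ℂ N) x ≠ 0 :=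
    fun x hx => (map_ne_zero _).2 hx
  have h1 := (x0Model N).ordH_ev (hne _ (HeckeJ.heckeFun_ne_zero ℚbar N ℓ hf)) σ
  have h2 : ∀ i : Option (ZMod ℓ),
      meromorphicOrderAt ((fun τ => toFun (barToC N Torsion.qbarToC f)
        (Newform.atkinGL (CMFix.heckeMat ℓ i) • τ)) ∘ ofComplex) (σ : ℂ) =
      ((_ * _ : ℤ) : WithTop ℤ) := fun i =>
    (UpperHalfPlane.meromorphicOrderAt_comp_smul
      (Newform.atkinGL_det_pos (det_heckeMat_pos i))).trans
      ((x0Model N).ordH_ev (hne f hf) (Newform.atkinGL (CMFix.heckeMat ℓ i) • σ))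
  apply WithTop.coe_injective
  rw [← h1, WithTop.coe_sum]
  show ordH (toFun (barToC N Torsion.qbarToC (HeckeJ.heckeFun ℚbar N ℓ f))) σ = _
  rw [(eqPunct_heckeFun hN Torsion.qbarToC f).ordH_eq σ, ordH]
  rw [show ((∏ i : Option (ZMod ℓ), fun τ => toFun (barToC N Torsion.qbarToC f)
        (Newform.atkinGL (CMFix.heckeMat ℓ i) • τ)) ∘ ofComplex) =
      ∏ i : Option (ZMod ℓ), ((fun τ => toFun (barToC N Torsion.qbarToC f)
        (Newform.atkinGL (CMFix.heckeMat ℓ i) • τ)) ∘ ofComplex) from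
    funext fun z => by simp [Finset.prod_apply]]
  rw [meromorphicOrderAt_prod fun i _ =>
    meroH_comp_gl (isModularFun_toFun _).mero (Newform.atkinGL_det_pos (det_heckeMat_pos i))
      _ σ.im_pos]
  exact Finset.sum_congr rfl fun i _ => h2 i

/-- The coefficient of the image of a point at a point. -/
theorem divExt_heckeDiv_apply_placeAt (hN : ¬ ℓ ∣ N)
    {v : Place ℚbar (modularFunctionFieldBar N)} {τ : ℍ}
    (hv : Curve.placeExt ℂ (modularFunctionFieldC ℂ N) v = (x0Model N).placeAt τ) (σ : ℍ) :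
    Curve.divExt ℂ (modularFunctionFieldC ℂ N) (HeckeJ.heckeDiv ℚbar N ℓ (Finsupp.single v 1))
        ((x0Model N).placeAt σ) =
      (Nat.card (Nbrs N ℓ τ σ) : ℤ) := by
  classical
  haveI := HeckeJ.hasPrincipalDivisors_laurentBaseChange ℚbar (N * ℓ)
  set T := HeckeJ.heckeDiv ℚbar N ℓ
  set g : Option (ZMod ℓ) → ℍ := fun i => Newform.atkinGL (CMFix.heckeMat ℓ i) • σ with hg
  set P := (x0Model N).placeAt σ with hP
  -- the finitely many places to avoid
  have hfinA : {w : Place ℚbar (modularFunctionFieldBar N) |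
      ∃ i, Curve.placeExt ℂ (modularFunctionFieldC ℂ N) w = (x0Model N).placeAt (g i)}.Finite := by
    refine ((Set.finite_range fun i => (x0Model N).placeAt (g i)).preimage
      Curve.placeExt_injective.injOn).subset ?_
    rintro w ⟨i, hi⟩
    exact ⟨i, hi.symm⟩
  have hfinB : {w : Place ℚbar (modularFunctionFieldBar N) |
      Curve.divExt ℂ (modularFunctionFieldC ℂ N) (T (Finsupp.single w 1)) P ≠ 0}.Finite := by
    rcases Curve.exists_eq_placeExt_or (K := ℚbar) (F := modularFunctionFieldBar N) P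
      with ⟨u, hu⟩ | h
    · refine (finite_setOf_correspondence_ne_zero (heckeBetaBar ℚbar N ℓ) (heckeAlphaBar ℚbar N ℓ)
        (HeckeJ.heckeBetaBarIntegral ℚbar N ℓ) (HeckeJ.heckeAlphaBarIntegral ℚbar N ℓ) u).subset ?_
      intro w hw
      simp only [Set.mem_setOf_eq] at hw ⊢
      rw [hu, Curve.divExt_apply_placeExt] at hw
      exact hw
    · refine Set.finite_empty.subset fun w hw => ?_
      exact hw (Curve.divExt_apply_of_forall_mem _ h)
  set W := ((hfinA.union hfinB).toFinset).erase v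
  obtain ⟨f, hf, hfv, hfW⟩ := exists_ord_one v W (Finset.notMem_erase v _)
  set D := Curve.divisorOf ℚbar f
  have hD : ∀ w, D w = w.ord f := Curve.divisorOf_apply f
  have hHD : ∀ w, T D w = w.ord (HeckeJ.heckeFun ℚbar N ℓ f) :=
    HeckeJ.heckeDiv_apply_of_ord ℚbar N ℓ hf hD
  have hL : Curve.divExt ℂ (modularFunctionFieldC ℂ N) (T D) P =
      Curve.divExt ℂ (modularFunctionFieldC ℂ N) (T (Finsupp.single v 1)) P := by
    conv_lhs => rw [← Finsupp.sum_single D, map_finsuppSum, map_finsuppSum, Finsupp.sum_apply]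
    rw [Finsupp.sum, Finset.sum_eq_single v]
    · rw [hD, hfv]
    · intro w hw hwv
      have hs : Finsupp.single w (D w) = D w • Finsupp.single w 1 := by simp
      rw [hs, map_zsmul, map_zsmul, Finsupp.smul_apply]
      by_contra hne
      have : w ∈ W := Finset.mem_erase.2 ⟨hwv, (hfinA.union hfinB).mem_toFinset.2
        (Or.inr fun h0 => hne (by rw [h0, smul_zero]))⟩
      exact Finsupp.mem_support_iff.1 hw (by rw [hD, hfW w this])
    · intro h
      exact absurd (by rw [hD, hfv]; exact one_ne_zero) (mt Finsupp.mem_support_iff.2 h)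
  have hkey := ord_heckeFun hN hf σ
  rw [← Curve.ord_algebraMap_eq_divExt hHD, hL] at hkey
  have hterm : ∀ i, (ellPeriod (Gamma0 N) (g i) : ℤ) * ((x0Model N).placeAt (g i)).ord
      (algebraMap (modularFunctionFieldBar N) (modularFunctionFieldC ℂ N) f) =
      if ∃ γ ∈ Gamma0 N, γ • g i = τ then (ellPeriod (Gamma0 N) τ : ℤ) else 0 := by
    intro i
    split_ifs with h
    · obtain ⟨γ, hγ, hh⟩ := h
      rw [← hh, ellPeriod_smul hγ, show (x0Model N).placeAt (g i) =
        Curve.placeExt ℂ (modularFunctionFieldC ℂ N) v by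
          rw [hv, ← hh, (x0Model N).placeAt_smul hγ],
        Curve.ord_placeExt, hfv, mul_one]
    · rcases Curve.exists_eq_placeExt_or (K := ℚbar) (F := modularFunctionFieldBar N)
        ((x0Model N).placeAt (g i)) with ⟨w, hw⟩ | h'
      · have hwv : w ≠ v := by
          rintro rfl
          exact h ((x0Model N).placeAt_eq_iff.1 (hw.trans hv))
        have : w ∈ W := Finset.mem_erase.2 ⟨hwv, (hfinA.union hfinB).mem_toFinset.2
          (Or.inl ⟨i, hw.symm⟩)⟩
        rw [hw, Curve.ord_placeExt, hfW w this, mul_zero]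
      · rw [Curve.ord_algebraMap_eq_zero_of_forall_mem h', mul_zero]
  rw [Finset.sum_congr rfl fun i _ => hterm i, ← Finset.sum_filter, Finset.sum_const,
    nsmul_eq_mul] at hkey
  have hcard : (Finset.univ.filter fun i => ∃ γ ∈ Gamma0 N, γ • g i = τ).card =
      Nat.card (Nbrs N ℓ σ τ) := by
    rw [← Fintype.card_subtype, ← Nat.card_eq_fintype_card]
    rfl
  rw [hcard] at hkey
  have hsym : (Nat.card (Nbrs N ℓ σ τ) : ℤ) * ellPeriod (Gamma0 N) τ =
      Nat.card (Nbrs N ℓ τ σ) * ellPeriod (Gamma0 N) σ := by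
    exact_mod_cast natCard_nbrs_symm hN σ τ
  rw [hsym, mul_comm (Nat.card (Nbrs N ℓ τ σ) : ℤ)] at hkey
  exact mul_left_cancel₀ (by exact_mod_cast
    (ellPeriod_pos (by simp [Gamma0_mem]) σ).ne') hkey

/-- **The Hecke correspondence on points.** -/
theorem divExt_heckeDiv_single (hN : ¬ ℓ ∣ N)
    {v : Place ℚbar (modularFunctionFieldBar N)} {τ : ℍ}
    (hv : Curve.placeExt ℂ (modularFunctionFieldC ℂ N) v = (x0Model N).placeAt τ) :
    Curve.divExt ℂ (modularFunctionFieldC ℂ N) (HeckeJ.heckeDiv ℚbar N ℓ (Finsupp.single v 1)) =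
      ∑ i : Option (ZMod ℓ),
        Finsupp.single ((x0Model N).placeAt (Newform.atkinGL (CMFix.heckeMat ℓ i) • τ)) 1 := by
  classical
  haveI := HeckeJ.hasPrincipalDivisors_laurentBaseChange ℚbar (N * ℓ)
  set L := Curve.divExt ℂ (modularFunctionFieldC ℂ N)
    (HeckeJ.heckeDiv ℚbar N ℓ (Finsupp.single v 1)) with hL
  set R : Divisor ℂ (modularFunctionFieldC ℂ N) := ∑ i : Option (ZMod ℓ),
    Finsupp.single ((x0Model N).placeAt (Newform.atkinGL (CMFix.heckeMat ℓ i) • τ)) 1 with hR
  have hR' : ∀ P, R P = ((Finset.univ.filter fun i : Option (ZMod ℓ) =>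
      (x0Model N).placeAt (Newform.atkinGL (CMFix.heckeMat ℓ i) • τ) = P).card : ℤ) := by
    intro P
    rw [hR, Finsupp.finsetSum_apply, Finset.card_filter, Nat.cast_sum]
    refine Finset.sum_congr rfl fun i _ => ?_
    rw [Finsupp.single_apply]
    split_ifs <;> simp
  have hpt : ∀ σ, L ((x0Model N).placeAt σ) = R ((x0Model N).placeAt σ) := by
    intro σ
    rw [divExt_heckeDiv_apply_placeAt hN hv σ, hR']
    congr 1
    rw [← Fintype.card_subtype, ← Nat.card_eq_fintype_card]
    exact Nat.card_congr (Equiv.subtypeEquivRight fun i => (x0Model N).placeAt_eq_iff.symm)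
  have hnn : 0 ≤ L - R := by
    intro P
    rw [Finsupp.zero_apply, Finsupp.sub_apply]
    rcases (x0Model N).exists_placeAt_or_cuspPlace P with ⟨σ, rfl⟩ | ⟨γ, rfl⟩
    · rw [hpt, sub_self]
    · rw [hR', Finset.filter_eq_empty_iff.2 fun i _ => (x0Model N).placeAt_ne_cuspPlace _ γ,
        Finset.card_empty, Nat.cast_zero, sub_zero]
      have hsingle : (0 : Divisor ℚbar (modularFunctionFieldBar N)) ≤ Finsupp.single v 1 := by
        intro w
        rw [Finsupp.zero_apply, Finsupp.single_apply]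
        split_ifs <;> simp
      have h0 : 0 ≤ HeckeJ.heckeDiv ℚbar N ℓ (Finsupp.single v 1) :=
        ES.correspondence_nonneg _ _ _ _ hsingle
      rcases Curve.exists_eq_placeExt_or (K := ℚbar) (F := modularFunctionFieldBar N)
        ((x0Model N).cuspPlace γ) with ⟨u, hu⟩ | h
      · rw [hL, hu, Curve.divExt_apply_placeExt]; exact h0 u
      · rw [hL, Curve.divExt_apply_of_forall_mem _ h]
  have hdeg : Divisor.degree (L - R) = 0 := by
    rw [map_sub, hL, Curve.degree_divExt, ← heckeCorr_toDiv N hN,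
      (heckeCorr N hN).degree_toDiv, heckeCorr_deg, hR, map_sum, Divisor.degree_single,
      IsCurveOver.deg_eq_one_of_isAlgClosed]
    simp only [Divisor.degree_single, (x0Model N).deg_eq_one, Finset.sum_const, Finset.card_univ,
      Fintype.card_option, ZMod.card]
    simp
  refine sub_eq_zero.1 (Finsupp.ext fun P => ?_)
  rcases (x0Model N).exists_placeAt_or_cuspPlace P with ⟨σ, rfl⟩ | ⟨γ, rfl⟩
  · rw [Finsupp.sub_apply, hpt, sub_self, Finsupp.zero_apply]
  rw [Finsupp.zero_apply]
  by_contra hne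
  have hsum : Divisor.degree (L - R) = (L - R).sum fun P n => n := by
    conv_lhs => rw [← Finsupp.sum_single (L - R), map_finsuppSum]
    exact Finsupp.sum_congr fun P _ => by
      rw [Divisor.degree_single, (x0Model N).deg_eq_one]; simp
  have h1 := (Finset.sum_eq_zero_iff_of_nonneg (fun P _ => hnn P)).1
    (hsum.symm.trans hdeg) _ (Finsupp.mem_support_iff.2 hne)
  exact hne h1

end Fermat.Agent.Residual.HeckePts

end
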