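/-
Residual modularity at 3, excess at `w_N`: the Fricke involution of `X₀(N)` over `ℚ̄`,
its fixed places indexed by the class group of `ℚ(√-N)`, and `T_ℓ` on them: the operator
`[L] + [L⁻¹]` for `L` of norm `ℓ`, or zero.
-/
import Fermat.Agent.Residual.HeckeBridge
import Fermat.Agent.Residual.FixPlacesDescent
import Fermat.Agent.Residual.CMFixPlaces
import Fermat.Agent.Residual.CMFixPrimes
import Fermat.Agent.Residual.ALBar
import Fermat.Agent.Residual.AlinvALHecke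
import Fermat.Agent.Residual.AlinvInvolution

set_option autoImplicit false

noncomputable section

open UpperHalfPlane CongruenceSubgroup ModularCurve AlgebraicCurve NumberField
open scoped MatrixGroups Pointwise nonZeroDivisors

namespace Fermat.Agent.Residual

open Fermat.Agent CMFix Places

attribute [local instance] Torsion.algQC Torsion.algQE Torsion.algFE Torsion.isScalarTower_QCE
  Torsion.isScalarTower_QFE Torsion.isConstExt_FC

local notation "ℚbar" => AlgebraicClosure ℚ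

variable {N : ℕ} [NeZero N] {W : IMat} {K : Type*} [Field K] [NumberField K]

local instance instFiniteIndexGamma0Excess : (Gamma0 N).FiniteIndex :=
  ⟨by rw [Places.index_Gamma0]; exact (Gamma0.dedekindPsi_pos N).ne'⟩

/-- The fixed places of the Fricke involution over `ℚ̄` are the ideal classes. -/
theorem exists_barPlacesEquiv (S : SqrtNeg N K) (hW : IsAL N N W) (hN : Squarefree N)
    (h4 : N % 4 ≠ 3) (hN4 : 4 ≤ N) :
    ∃ ε : ClassGroup (𝓞 K) ≃ fixedPlaces (alBar hW dvd_rfl),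
      ∀ P : CMData N, Curve.placeExt ℂ (modularFunctionFieldC ℂ N) (ε (S.cls P)).1 =
        (x0Model N).placeAt P.pt := by
  classical
  obtain ⟨e, he⟩ := S.exists_placesEquiv hW hN h4 hN4
  have hσ : ∀ f : modularFunctionFieldBar N,
      alC hW dvd_rfl (algebraMap (modularFunctionFieldBar N) (modularFunctionFieldC ℂ N) f) =
        algebraMap (modularFunctionFieldBar N) (modularFunctionFieldC ℂ N) (alBar hW dvd_rfl f) :=
    fun f => (barToC_alBar Torsion.qbarToC hW dvd_rfl f).symm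
  let φ : fixedPlaces (alBar hW dvd_rfl) →
      {v : Place ℂ (modularFunctionFieldC ℂ N) // alC hW dvd_rfl • v = v} := fun v =>
    ⟨Curve.placeExt ℂ (modularFunctionFieldC ℂ N) v.1, (placeExt_smul_eq_self_iff hσ v.1).2 v.2⟩
  have hφ : Function.Bijective φ := by
    refine ⟨fun v v' h => Subtype.ext (Curve.placeExt_injective (congrArg Subtype.val h)), ?_⟩
    rintro ⟨w, hw⟩
    have : w.FiniteResidue := ⟨Curve.finite_residueField w⟩
    obtain ⟨v, hv, rfl⟩ :=
      exists_eq_placeExt_of_fixed hσ (alBar_ne_refl hW dvd_rfl (by omega)) hw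
    exact ⟨⟨v, hv⟩, rfl⟩
  refine ⟨e.trans (Equiv.ofBijective φ hφ).symm, fun P => ?_⟩
  rw [← he P]
  exact congrArg Subtype.val ((Equiv.ofBijective φ hφ).apply_symm_apply (e (S.cls P)))

/-- `T_ℓ` at the fixed places: the ideals of norm `ℓ`. -/
theorem sum_heckeCorr_fixed (S : SqrtNeg N K) (hW : IsAL N N W) (hN : Squarefree N)
    (h4 : N % 4 ≠ 3) (hN4 : 4 ≤ N) (ε : ClassGroup (𝓞 K) ≃ fixedPlaces (alBar hW dvd_rfl))
    (hε : ∀ P : CMData N, Curve.placeExt ℂ (modularFunctionFieldC ℂ N) (ε (S.cls P)).1 =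
        (x0Model N).placeAt P.pt)
    [Fintype (ClassGroup (𝓞 K))] (ℓ : ℕ) [Fact ℓ.Prime] (hℓN : ¬ ℓ ∣ N)
    [Fintype {L : (Ideal (𝓞 K))⁰ // Ideal.absNorm (L : Ideal (𝓞 K)) = ℓ}]
    (x : ClassGroup (𝓞 K) → ZMod 2) (g : ClassGroup (𝓞 K)) :
    ∑ g', x g' *
        ((heckeCorr N hℓN).toDiv (Finsupp.single (ε g').1 1) (ε g).1 : ZMod 2) =
      ∑ L : {L : (Ideal (𝓞 K))⁰ // Ideal.absNorm (L : Ideal (𝓞 K)) = ℓ},
        x (g * (ClassGroup.mk0 L.1)⁻¹) := by
  classical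
  have : NeZero ℓ := ⟨(Fact.out : ℓ.Prime).ne_zero⟩
  have key : ∀ g', (heckeCorr N hℓN).toDiv (Finsupp.single (ε g').1 1) (ε g).1 =
      ∑ L : {L : (Ideal (𝓞 K))⁰ // Ideal.absNorm (L : Ideal (𝓞 K)) = ℓ},
        if g * (ClassGroup.mk0 L.1)⁻¹ = g' then (1 : ℤ) else 0 := by
    intro g'
    obtain ⟨P, rfl⟩ := S.cls_surjective hN h4 g'
    obtain ⟨Q, rfl⟩ := S.cls_surjective hN h4 g
    obtain ⟨f, hf⟩ := S.exists_heckeEquiv P hN h4 hN4 hℓN
    rw [← Curve.divExt_apply_placeExt (Ω := ℂ) (E := modularFunctionFieldC ℂ N)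
        ((heckeCorr N hℓN).toDiv _) (ε (S.cls Q)).1, hε Q, heckeCorr_toDiv,
      HeckePts.divExt_heckeDiv_single hℓN (hε P), Finsupp.finsetSum_apply]
    simp only [Finsupp.single_apply]
    have hiff : ∀ i : Option (ZMod ℓ),
        (x0Model N).placeAt (Newform.atkinGL (heckeMat ℓ i) • P.pt) = (x0Model N).placeAt Q.pt ↔
          ∃ h : IsALFixed N N (Newform.atkinGL (heckeMat ℓ i) • P.pt),
            S.cls Q * (ClassGroup.mk0 (f ⟨i, h⟩).1)⁻¹ = S.cls P := by
      intro i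
      constructor
      · intro hi
        have hfix : IsALFixed N N (Newform.atkinGL (heckeMat ℓ i) • P.pt) := by
          obtain ⟨γ, hγ, hh⟩ := (x0Model N).placeAt_eq_iff.1 hi.symm
          rw [← hh]
          exact IsALFixed.smul dvd_rfl hγ Q.isALFixed
        obtain ⟨R, hR⟩ := hfix.exists_data hN4
        refine ⟨hfix, ?_⟩
        have hcls : S.cls R = S.cls Q :=
          (S.cls_eq_iff hN h4 (P := R) (Q := Q)).2 ((x0Model N).placeAt_eq_iff.1 (by rw [hR, hi]))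
        rw [← hcls, hf ⟨i, hfix⟩ R hR, mul_inv_cancel_right]
      · rintro ⟨hfix, hcls⟩
        obtain ⟨R, hR⟩ := hfix.exists_data hN4
        rw [← hR, (x0Model N).placeAt_eq_iff]
        refine (S.cls_eq_iff hN h4 (P := R) (Q := Q)).1 ?_
        rw [hf ⟨i, hfix⟩ R hR, ← hcls, inv_mul_cancel_right]
    rw [Finset.sum_boole, Finset.sum_boole]
    congr 1
    rw [← Fintype.card_subtype, ← Fintype.card_subtype]
    refine Fintype.card_congr ?_
    exact ((Equiv.subtypeEquivRight hiff).trans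
      (Equiv.subtypeSubtypeEquivSubtypeExists
        (fun i => IsALFixed N N (Newform.atkinGL (heckeMat ℓ i) • P.pt))
        (fun i => S.cls Q * (ClassGroup.mk0 (f i).1)⁻¹ = S.cls P)).symm).trans
      (f.subtypeEquiv fun i => Iff.rfl)
  simp only [key, Int.cast_sum, Int.cast_ite, Int.cast_one, Int.cast_zero, Finset.mul_sum,
    mul_ite, mul_one, mul_zero]
  rw [Finset.sum_comm]
  simp

/-- `T_ℓ` at the fixed places as an operator on functions on the class group, with the eigenvalue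
of a cubic character. -/
theorem exists_heckeOp_fixed (S : SqrtNeg N K) (hW : IsAL N N W) (hN : Squarefree N)
    (h4 : N % 4 ≠ 3) (hN4 : 4 ≤ N) (ε : ClassGroup (𝓞 K) ≃ fixedPlaces (alBar hW dvd_rfl))
    (hε : ∀ P : CMData N, Curve.placeExt ℂ (modularFunctionFieldC ℂ N) (ε (S.cls P)).1 =
        (x0Model N).placeAt P.pt)
    [Fintype (ClassGroup (𝓞 K))] (ℓ : ℕ) [Fact ℓ.Prime] (hℓN : ¬ ℓ ∣ N) (hℓ2 : ℓ ≠ 2)
    (χ : ClassGroup (𝓞 K) →* Multiplicative (ZMod 3)) (a : ℤ)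
    (ha : ∀ L : (Ideal (𝓞 K))⁰, Ideal.absNorm (L : Ideal (𝓞 K)) = ℓ →
      (a : ZMod 2) = cubicValue χ (ClassGroup.mk0 L))
    (ha0 : (∀ L : (Ideal (𝓞 K))⁰, Ideal.absNorm (L : Ideal (𝓞 K)) ≠ ℓ) → (a : ZMod 2) = 0) :
    ∃ op : Module.End (ZMod 2) (ClassGroup (𝓞 K) → ZMod 2),
      (∀ (x : ClassGroup (𝓞 K) → ZMod 2) (g : ClassGroup (𝓞 K)),
        ∑ g', x g' * ((heckeCorr N hℓN).toDiv (Finsupp.single (ε g').1 1) (ε g).1 : ZMod 2)
          = op x g) ∧
      ∀ u ∈ CMFix.eigenSpace χ,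
        ((op - (a : ZMod 2) • 1) ^ twoPart (ClassGroup (𝓞 K))) u = 0 := by
  classical
  have hfin : {L : (Ideal (𝓞 K))⁰ | Ideal.absNorm (L : Ideal (𝓞 K)) = ℓ}.Finite :=
    (Ideal.finite_setOfPred_absNorm_eq ℓ).preimage Subtype.val_injective.injOn
  let _ : Fintype {L : (Ideal (𝓞 K))⁰ // Ideal.absNorm (L : Ideal (𝓞 K)) = ℓ} :=
    hfin.fintype
  rcases S.exists_shift_form hℓ2 hℓN hN h4 with hnone | ⟨L, hL, hform⟩
  · have : IsEmpty {L : (Ideal (𝓞 K))⁰ // Ideal.absNorm (L : Ideal (𝓞 K)) = ℓ} :=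
      ⟨fun L => hnone L.1 L.2⟩
    refine ⟨0, fun x g => by rw [sum_heckeCorr_fixed S hW hN h4 hN4 ε hε ℓ hℓN]; simp, ?_⟩
    intro u _
    rw [ha0 hnone, zero_smul, sub_zero, zero_pow (show twoPart (ClassGroup (𝓞 K)) ≠ 0 from pow_ne_zero _ two_ne_zero),
      LinearMap.zero_apply]
  · refine ⟨shiftFun (ClassGroup.mk0 L) + shiftFun (ClassGroup.mk0 L)⁻¹, fun x g => ?_,
      fun u hu => ?_⟩
    · rw [sum_heckeCorr_fixed S hW hN h4 hN4 ε hε ℓ hℓN]
      have h := hform (fun c => x c⁻¹) g⁻¹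
      simp only [mul_inv, inv_inv, LinearMap.add_apply, Pi.add_apply, shiftFun_apply] at h ⊢
      rw [h, add_comm]
    · rw [ha L hL]
      exact eigenDiff_pow_eq_zero χ _ hu

end Fermat.Agent.Residual

end
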