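/-
Residual modularity at 3, excess at `w_N`: for a system of eigenvalues modulo two given
by a non-trivial cubic character of the class group of `ℚ(√-N)`, the `- 1` part of the Fricke
involution on `J₀(N)[2^∞]` at the system exceeds the `+ 1` part by twice the `2`-part of the class
number.
-/
import Fermat.Agent.Residual.ExcessCore
import Fermat.Agent.Residual.ExcessX0
import Fermat.Agent.Residual.CMFixModule
import Fermat.Agent.Residual.ALTorsion
import Fermat.Agent.Residual.DihedralField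
import Fermat.Agent.MW.WeakJZero
import Mathlib.NumberTheory.NumberField.ClassNumber

set_option autoImplicit false

noncomputable section

open ModularCurve AlgebraicCurve NumberField
open scoped nonZeroDivisors

namespace Fermat.Agent.Residual

open Fermat.Agent CMFix

local notation "ℚbar" => AlgebraicClosure ℚ

/-- Membership in the part of a system, for a point killed by four. -/
theorem mem_sysPart_of_four {D : ℕ} [NeZero D] {a : ℕ → ℤ} {R : ℕ} {x : JZero D} (h4 : 4 • x = 0)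
    (h : ∀ ℓ : Nat.Primes, ¬ (ℓ : ℕ) ∣ R →
      ∃ k, ((heckeOperatorBar D ℓ - a ℓ • 1 : Module.End ℤ (JZero D)) ^ k) x = 0) : x ∈ sysPart D a R := by
  refine ⟨?_, ?_⟩
  · simp only [SetLike.mem_coe, Submodule.mem_iInf, Module.End.mem_maxGenEigenspace]
    exact h
  · rw [SetLike.mem_coe, Module.End.mem_maxGenEigenspace]
    refine ⟨2, ?_⟩
    simp only [zero_smul, sub_zero, pow_two, Module.End.mul_apply, LinearMap.smul_apply,
      Module.End.one_apply, smul_smul]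
    rw [show (2 : ℤ) * 2 = ((4 : ℕ) : ℤ) from rfl, natCast_zsmul, h4]

/-- **Excess at the Fricke involution.** -/
theorem excess_of_sqrtNeg {N : ℕ} [NeZero N] {K : Type*} [Field K] [NumberField K]
    (S : SqrtNeg N K) (hN : Squarefree N) (h4 : N % 4 ≠ 3) (hN4 : 4 ≤ N)
    (χ : ClassGroup (𝓞 K) →* Multiplicative (ZMod 3)) (hχ : χ ≠ 1) (a : ℕ → ℤ) (R : ℕ)
    (hR : 2 * N ∣ R)
    (ha : ∀ ℓ : ℕ, ℓ.Prime → ¬ ℓ ∣ R → ∀ L : (Ideal (𝓞 K))⁰,
      Ideal.absNorm (L : Ideal (𝓞 K)) = ℓ → (a ℓ : ZMod 2) = cubicValue χ (ClassGroup.mk0 L))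
    (ha0 : ∀ ℓ : ℕ, ℓ.Prime → ¬ ℓ ∣ R →
      (∀ L : (Ideal (𝓞 K))⁰, Ideal.absNorm (L : Ideal (𝓞 K)) ≠ ℓ) → (a ℓ : ZMod 2) = 0) :
    Excess N N a R (twoPart (ClassGroup (𝓞 K))) := by
  classical
  let _ : Fintype (ClassGroup (𝓞 K)) := Fintype.ofFinite _
  set W := alMat N N with hWdef
  have hW : IsAL N N W := isAL_alMat dvd_rfl (by
    rw [Nat.div_self (NeZero.pos N)]; exact Nat.coprime_one_right N)
  obtain ⟨ε, hε⟩ := exists_barPlacesEquiv S hW hN h4 hN4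
  let ι : Type := {ℓ : Nat.Primes // ¬ (ℓ : ℕ) ∣ R}
  have hℓN : ∀ i : ι, ¬ (i.1 : ℕ) ∣ N := fun i h => i.2 ((dvd_mul_of_dvd_right h 2).trans hR)
  have hℓ2 : ∀ i : ι, (i.1 : ℕ) ≠ 2 := fun i h =>
    i.2 (h ▸ (dvd_mul_right 2 N).trans hR)
  let T : ι → Correspondence ℚbar (modularFunctionFieldBar N) := fun i =>
    have : Fact (Nat.Prime (i.1 : ℕ)) := ⟨i.1.2⟩
    heckeCorr N (hℓN i)
  have hpic : ∀ (i : ι) (x : JZero N), (T i).pic x = heckeOperatorBar N i.1 x := fun i x => by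
    have : Fact (Nat.Prime (i.1 : ℕ)) := ⟨i.1.2⟩
    exact heckeCorr_pic N (hℓN i) x
  have hend : ∀ i : ι, ((T i).pic.toIntLinearMap - a i.1 • 1 : Module.End ℤ (JZero N)) =
      heckeOperatorBar N i.1 - a i.1 • 1 := fun i =>
    congrArg (fun f => f - a i.1 • 1) (LinearMap.ext (hpic i))
  have hop : ∀ i : ι, ∃ op : Module.End (ZMod 2) (ClassGroup (𝓞 K) → ZMod 2),
      (∀ (x : ClassGroup (𝓞 K) → ZMod 2) (g : ClassGroup (𝓞 K)),
        ∑ g', x g' * ((T i).toDiv (Finsupp.single (ε g').1 1) (ε g).1 : ZMod 2) = op x g) ∧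
      ∀ u ∈ CMFix.eigenSpace χ,
        ((op - (a i.1 : ZMod 2) • 1) ^ twoPart (ClassGroup (𝓞 K))) u = 0 := fun i => by
    have : Fact (Nat.Prime (i.1 : ℕ)) := ⟨i.1.2⟩
    exact exists_heckeOp_fixed S hW hN h4 hN4 ε hε _ (hℓN i) (hℓ2 i) χ _
      (ha _ i.1.2 i.2) (ha0 _ i.1.2 i.2)
  choose op hop hnil using hop
  obtain ⟨hA, f, hf, hinj⟩ := excess_of_parityData (alBar_alBar hW dvd_rfl)
    (alBar_ne_refl hW dvd_rfl (by omega)) ε T
    (fun i => by
      have : Fact (Nat.Prime (i.1 : ℕ)) := ⟨i.1.2⟩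
      have : NeZero (i.1 : ℕ) := ⟨i.1.2.ne_zero⟩
      exact heckeCorr_commutesWith_alBar hW dvd_rfl (hℓN i))
    (fun i => a i.1)
    (fun i j x hx => by
      rw [hpic, hpic, hpic, hpic]
      exact Torsion.heckeOperatorBar_comm_torsion N 4 i.1 j.1 hx)
    (fun x => MW.exists_nsmul_eq_jZero N two_ne_zero x)
    (MW.finite_nsmul_eq_zero N (by norm_num)) op hop (CMFix.eigenSpace χ)
    (fun u hu => sum_eq_zero χ hχ hu) (const_notMem_eigenSpace χ hχ)
    (pow_pos two_pos _) hnil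
  have hmem : ∀ x : JZero N, 4 • x = 0 → LocallyNilpotent T (fun i => a i.1) x →
      x ∈ sysPart N a R := fun x hx h => mem_sysPart_of_four hx fun ℓ hℓ => by
    obtain ⟨k, hk⟩ := h ⟨ℓ, hℓ⟩
    exact ⟨k, by rw [← hend ⟨ℓ, hℓ⟩]; exact hk⟩
  refine ⟨alJZero hW dvd_rfl, isALAction_alJZero hW dvd_rfl (NeZero.ne N), fun x hx h2 hfix => ?_,
    ?_⟩
  · have hnilx : LocallyNilpotent T (fun i => a i.1) x := fun i => by
      have h := hx.1
      simp only [SetLike.mem_coe, Submodule.mem_iInf, Module.End.mem_maxGenEigenspace] at h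
      obtain ⟨k, hk⟩ := h i.1 i.2
      exact ⟨k, by rw [hend i]; exact hk⟩
    obtain ⟨y, hy4, hynil, hy⟩ := hA x h2 hfix hnilx
    exact ⟨y, hmem y hy4 hynil, hy⟩
  · let e := (Finite.equivFinOfCardEq (card_eigenSpace χ hχ)).symm
    exact ⟨f ∘ e, fun i => ⟨hmem _ (hf _).1 (hf _).2.1, (hf _).2.2⟩,
      fun i j y _ h => e.injective (hinj _ _ y h)⟩

/-- Excess for a datum. -/
theorem excess_datum (D : Datum) [NeZero D.level]
    (χ : ClassGroup (𝓞 D.field) →* Multiplicative (ZMod 3)) (hχ : χ ≠ 1) (a : ℕ → ℤ) (R : ℕ)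
    (hR : 2 * D.level ∣ R)
    (ha : ∀ ℓ : ℕ, ℓ.Prime → ¬ ℓ ∣ R → ∀ L : (Ideal (𝓞 D.field))⁰,
      Ideal.absNorm (L : Ideal (𝓞 D.field)) = ℓ → (a ℓ : ZMod 2) = cubicValue χ (ClassGroup.mk0 L))
    (ha0 : ∀ ℓ : ℕ, ℓ.Prime → ¬ ℓ ∣ R →
      (∀ L : (Ideal (𝓞 D.field))⁰, Ideal.absNorm (L : Ideal (𝓞 D.field)) ≠ ℓ) →
        (a ℓ : ZMod 2) = 0) :
    Excess D.level D.level a R (2 ^ padicValNat 2 (classNumber D.field)) := by
  have h4 : 4 ≤ D.level := by
    obtain ⟨q, hq, hq2⟩ := Finset.exists_mem_ne D.one_lt_card 2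
    have hdvd : 2 * q ∣ D.level :=
      (((Nat.coprime_primes Nat.prime_two (D.prime_mem q hq)).2 hq2.symm)).mul_dvd_of_dvd_of_dvd
        D.two_dvd_level (Finset.dvd_prod_of_mem _ hq)
    have := Nat.le_of_dvd D.level_pos hdvd
    have := (D.prime_mem q hq).two_le
    omega
  have h := excess_of_sqrtNeg D.sqrtNegData D.level_squarefree D.level_mod_four h4 χ hχ a R hR ha
    ha0
  have e : twoPart (ClassGroup (𝓞 D.field)) = 2 ^ padicValNat 2 (classNumber D.field) := by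
    rw [twoPart, Nat.card_eq_fintype_card, Nat.factorization_def _ Nat.prime_two]
    rfl
  rwa [e] at h

end Fermat.Agent.Residual

end
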