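/-
Residual modularity at three: the system of a datum modulo two and the newforms of a pattern.
-/
import Fermat.Agent.Residual.Count
import Fermat.Agent.Residual.Excess
import Fermat.Agent.Residual.CubicClassChar
import Fermat.Agent.Residual.EigenTwoAdic

set_option autoImplicit false

noncomputable section

open NumberField
open scoped nonZeroDivisors

namespace Fermat.Agent.Residual

open Eigen2 ModularFormClass CongruenceSubgroup

local notation "Qbar" => AlgebraicClosure ℚ
local notation "Γℚ" => (AlgebraicClosure ℚ ≃ₐ[ℚ] AlgebraicClosure ℚ)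

variable {D : Datum} {Q : Finset ℕ} {ε : ℕ → ℤ}

theorem twoPrime_isMaximal : twoPrime.IsMaximal := by
  have hp := twoPrime_isPrime
  refine Ideal.isMaximal_of_isIntegral_of_isMaximal_comap (R := ℤ) twoPrime ?_
  have hmax : (Ideal.span {(2 : ℤ)}).IsMaximal :=
    PrincipalIdealRing.isMaximal_of_irreducible Int.prime_two.irreducible
  rw [← hmax.eq_of_le (Ideal.IsPrime.comap _).ne_top (fun x hx => ?_)]
  · exact hmax
  · obtain ⟨c, rfl⟩ := Ideal.mem_span_singleton.1 hx
    rw [Ideal.mem_comap, map_mul, map_ofNat]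
    exact Ideal.mul_mem_right _ _ two_mem_twoPrime

namespace Datum

variable (D)

/-- The trace of the datum at a Frobenius element of `ℓ`, as an integer. -/
def sysValue (ℓ : ℕ) : ℤ := by
  classical
  exact if hℓ : ℓ.Prime then
    ((((D.ρbar (Galois.exists_valuationSubring_isFrobeniusAt hℓ).choose_spec.choose :
      GL (Fin 2) (ZMod 2)) : Matrix (Fin 2) (Fin 2) (ZMod 2)).trace).val : ℤ)
  else 0

theorem sysValue_eq {ℓ : ℕ} (hℓ : ℓ.Prime) (hB : ℓ ∉ D.B) {A : ValuationSubring Qbar}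
    (hA : A.LiesOverPrime ℓ) {τ : Γℚ} (hτ : A.IsFrobeniusAt τ ℓ) :
    D.sysValue ℓ = (((D.ρbar τ : Matrix (Fin 2) (Fin 2) (ZMod 2)).trace).val : ℤ) := by
  have h := (Galois.exists_valuationSubring_isFrobeniusAt hℓ).choose_spec.choose_spec
  rw [sysValue, dif_pos hℓ, trace_eq_of_frobenius D hℓ hB hA h.1 hτ h.2]

theorem sysValue_cast {ℓ : ℕ} (hℓ : ℓ.Prime) (hB : ℓ ∉ D.B) {A : ValuationSubring Qbar}
    (hA : A.LiesOverPrime ℓ) {τ : Γℚ} (hτ : A.IsFrobeniusAt τ ℓ) :
    (D.sysValue ℓ : ZMod 2) = (D.ρbar τ : Matrix (Fin 2) (Fin 2) (ZMod 2)).trace := by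
  rw [D.sysValue_eq hℓ hB hA hτ, Int.cast_natCast, ZMod.natCast_zmod_val]

theorem notMem_of_not_dvd {ℓ : ℕ} (h : ¬ ℓ ∣ 2 * D.auxLevel Q) : ℓ ∉ D.B := fun hB =>
  h (Dvd.dvd.mul_left (Dvd.dvd.mul_right (Finset.dvd_prod_of_mem _ hB) _) 2)

end Datum

theorem IsAuxSet.disjoint (hQ : IsAuxSet D Q) : Disjoint D.B Q :=
  Finset.disjoint_right.2 fun q hq => (hQ q hq).2.1

theorem IsAuxSet.neZero_auxLevel (hQ : IsAuxSet D Q) : NeZero (D.auxLevel Q) :=
  ⟨Nat.mul_ne_zero D.level_pos.ne' (Finset.prod_ne_zero_iff.2 fun q hq => (hQ q hq).1.ne_zero)⟩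

theorem IsAuxSet.primeFactors_auxLevel (hQ : IsAuxSet D Q) :
    (D.auxLevel Q).primeFactors = D.B ∪ Q := by
  rw [Datum.auxLevel, Nat.primeFactors_mul D.level_pos.ne'
      (Finset.prod_ne_zero_iff.2 fun q hq => (hQ q hq).1.ne_zero), Datum.level,
    Nat.primeFactors_prod D.prime_mem, Nat.primeFactors_prod fun q hq => (hQ q hq).1]

/-- The pattern forms are the newforms of the system with the opposite signs. -/
theorem patternForms_eq_newformsIn (hQ : IsAuxSet D Q) :
    patternForms D Q ε =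
      newformsIn (D.auxLevel Q) twoPrime D.sysValue (2 * D.auxLevel Q) fun q => -ε q := by
  ext f
  simp only [patternForms, newformsIn, Set.mem_ofPred_eq, hQ.primeFactors_auxLevel, InClass,
    InSys, Int.cast_neg, neg_neg, and_assoc]
  refine and_congr_right fun _ => and_congr_left fun _ => forall₃_congr fun ℓ hℓ hℓN => ?_
  have hB := D.notMem_of_not_dvd hℓN
  constructor
  · rintro ⟨hint, h⟩
    obtain ⟨A, τ, hA, hτ⟩ := Galois.exists_valuationSubring_isFrobeniusAt hℓ
    refine ⟨⟨_, hint⟩, rfl, ?_⟩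
    have h1 := h A hA τ hτ
    rw [coeffInt, dif_pos hint] at h1
    rw [twoPrime, Ideal.mem_comap, map_sub, map_intCast, D.sysValue_eq hℓ hB hA hτ,
      Int.cast_natCast]
    exact h1
  · rintro ⟨z, hz, hmem⟩
    have hint : IsIntegral ℤ (qCoeff f ℓ) := hz ▸ z.2
    refine ⟨hint, fun A hA τ hτ => ?_⟩
    rw [coeffInt, dif_pos hint]
    have e : (⟨qCoeff f ℓ, hint⟩ : integralClosure ℤ ℂ) = z := Subtype.ext hz.symm
    rw [e]
    rw [twoPrime, Ideal.mem_comap, map_sub, map_intCast, D.sysValue_eq hℓ hB hA hτ,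
      Int.cast_natCast] at hmem
    exact hmem

theorem finite_patternForms_set (hQ : IsAuxSet D Q) (ε : ℕ → ℤ) :
    (patternForms D Q ε).Finite := by
  have := hQ.neZero_auxLevel
  rw [patternForms_eq_newformsIn hQ]
  exact finite_newformsIn _ _ _ _ _

theorem excess_sys (D : Datum) (Q : Finset ℕ) [NeZero D.level] :
    Excess D.level D.level D.sysValue (2 * D.auxLevel Q)
      (2 ^ padicValNat 2 (classNumber D.field)) := by
  obtain ⟨χ, hχ, hval⟩ := D.exists_cubicClassChar
  have hdvd : 2 * D.level ∣ 2 * D.auxLevel Q := mul_dvd_mul_left 2 (dvd_mul_right _ _)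
  refine excess_datum D χ hχ _ _ hdvd (fun ℓ hℓ hℓR => ?_) fun ℓ hℓ hℓR => ?_
  all_goals
    obtain ⟨A, τ, hA, hτ⟩ := Galois.exists_valuationSubring_isFrobeniusAt hℓ
    have h := hval ℓ hℓ (fun h => hℓR (h.trans hdvd)) A hA τ hτ
    rw [D.sysValue_cast hℓ (D.notMem_of_not_dvd hℓR) hA hτ]
  · exact h.1
  · exact h.2

/-- The count of newforms, given that the other involutions are balanced. -/
theorem cprime_le_natCard_patternForms (hQ : IsAuxSet D Q)
    (hbal : ∀ (D' d : ℕ) [NeZero D'], D' ∣ D.auxLevel Q → d ∣ D' → 1 < d →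
      ¬ (D' = D.level ∧ d = D.level) → Balanced D' d D.sysValue (2 * D.auxLevel Q))
    (hε : IsPattern ε) (hprod : ∏ b ∈ D.B, ε b = (-1) ^ (D.B.card + Q.card + 1)) :
    D.cprime ≤ Nat.card (patternForms D Q ε) := by
  haveI := hQ.neZero_auxLevel
  haveI : NeZero ((∏ p ∈ D.B, p) * ∏ q ∈ Q, q) := hQ.neZero_auxLevel
  set v := padicValNat 2 (classNumber D.field) with hv
  set k := D.B.card with hk
  have hmajor : ∏ b ∈ D.B, -ε b = (-1) ^ (Q.card + 1) := by
    rw [Finset.prod_neg, hprod, ← pow_add, ← hk]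
    rw [show k + (k + Q.card + 1) = 2 * k + (Q.card + 1) by ring, pow_add, pow_mul]
    norm_num
  have hcount : 2 ^ v ≤ 2 ^ (k - 1) * (patternForms D Q ε).ncard := by
    rw [patternForms_eq_newformsIn hQ]
    refine le_card_newformsIn D.B Q D.prime_mem (fun q hq => (hQ q hq).1) hQ.disjoint
      (Finset.card_pos.1 (by have := D.one_lt_card; omega)) twoPrime twoPrime_isMaximal
      two_mem_twoPrime D.sysValue _ (Nat.mul_ne_zero two_ne_zero (NeZero.ne _))
      (Dvd.intro_left 2 rfl) (2 ^ v) hbal ?_ _ (fun q _ => ?_) hmajor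
    · exact fun {_} => excess_sys D Q
    · rcases hε q with h | h <;> simp [h]
  rw [Nat.card_coe_set_eq, Datum.cprime, ← hv, ← hk]
  have hk2 : 1 ≤ k := by have := D.one_lt_card; omega
  rcases Nat.lt_or_ge v (k - 1) with h | h
  · rw [show v + 1 - k = 0 by omega, pow_zero]
    rcases Nat.eq_zero_or_pos (patternForms D Q ε).ncard with h0 | h0
    · rw [h0, mul_zero] at hcount
      exact absurd hcount (by have := Nat.two_pow_pos v; omega)
    · exact h0
  · refine Nat.le_of_mul_le_mul_left ?_ (Nat.two_pow_pos (k - 1))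
    rw [← pow_add, show k - 1 + (v + 1 - k) = v by omega]
    exact hcount

end Fermat.Agent.Residual

end
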