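/-
Residual modularity at three: counting the newforms of a pattern.
-/
import Fermat.Agent.Residual.PatternCountAux
import Fermat.Agent.Residual.BalancedPrime

set_option autoImplicit false

noncomputable section

namespace Fermat.Agent.Residual

variable {D : Datum} {Q : Finset ℕ} {ε : ℕ → ℤ}

theorem finite_patternForms (hQ : IsAuxSet D Q) (ε : ℕ → ℤ) : (patternForms D Q ε).Finite :=
  finite_patternForms_set hQ ε

/-- One of the two parities of signs carries at least `c'` newforms in each of its patterns. -/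
theorem exists_major_sign (hQ : IsAuxSet D Q) (hne : Q.Nonempty) (h4 : ∀ q ∈ Q, q % 4 = 1) :
    ∃ s : ℤ, (s = 1 ∨ s = -1) ∧ ∀ ε : ℕ → ℤ, IsPattern ε → (∀ q ∈ Q, ε q = 1) →
      ∏ b ∈ D.B, ε b = s → D.cprime ≤ Nat.card (patternForms D Q ε) := by
  have := hQ.neZero_auxLevel
  refine ⟨(-1) ^ (D.B.card + Q.card + 1), neg_one_pow_eq_or ℤ _, fun ε hε _ hprod =>
    cprime_le_natCard_patternForms hQ (fun L d _ hL hd h1 hLd => ?_) hε hprod⟩
  refine D.balanced hQ _ (Nat.mul_ne_zero two_ne_zero (NeZero.ne _)) (dvd_mul_left _ 2)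
    (fun ℓ hℓ hℓR A hA τ hτ => ?_) L d hL hd h1 hLd
  exact (D.sysValue_cast hℓ (D.notMem_of_not_dvd hℓR) hA hτ).symm

end Fermat.Agent.Residual

end
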