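/-
Residual modularity at three: assembly.
-/
import Fermat.Agent.Residual.AuxCurve
import Fermat.Agent.Residual.CurveDatum
import Fermat.Agent.Residual.AuxPrimes
import Fermat.Agent.Residual.MainHecke
import Fermat.Agent.Residual.PatternCount
import Fermat.Agent.Residual.EigenTorsion
import Fermat.Agent.Residual.Lower
import Fermat.Agent.Residual.LimitModular
import Fermat.Agent.Wiring.Modularity

/-!
# Residual modularity at three

A semistable curve, multiplicative at two, with irreducible three-torsion is residually modular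
at three of squarefree level: it shares its three-torsion with a curve to which the two-adic
dihedral argument applies, and that curve is modular of its conductor level.
-/

set_option autoImplicit false

noncomputable section

open Matrix

namespace Fermat.Agent.Residual

local notation "Qbar" => AlgebraicClosure ℚ
local notation "Γℚ" => (AlgebraicClosure ℚ ≃ₐ[ℚ] AlgebraicClosure ℚ)

variable {W : WeierstrassCurve ℤ} {D : Datum}

theorem IsDatumOf.level_eq (hD : IsDatumOf W D) :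
    D.level = W.conductorLevel := by
  rw [Datum.level, hD.primes, WeierstrassCurve.conductorLevel, Nat.radical_eq_prod_primeFactors]

theorem IsDatumOf.isGoodPrimeFor (hD : IsDatumOf W D) (hΔ : W.Δ ≠ 0) {ℓ : ℕ} (hℓ : ℓ.Prime)
    (hB : ℓ ∉ D.B) : W.IsGoodPrimeFor ℓ := fun h => hB (by
  rw [hD.primes, Nat.mem_primeFactors]
  exact ⟨hℓ, Int.natCast_dvd.1 h, Int.natAbs_ne_zero.2 hΔ⟩)

theorem dvd_auxLevel_of_mem_B (D : Datum) (Q : Finset ℕ) {b : ℕ} (hb : b ∈ D.B) :
    b ∣ D.auxLevel Q :=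
  dvd_mul_of_dvd_left (Finset.dvd_prod_of_mem _ hb) _

/-- Congruences of a given precision at the conductor level. -/
theorem hasSystem_of_datum (hW : IsDihedralCurve W) (hD : IsDatumOf W D) {ε : ℕ → ℤ}
    (hε : IsPattern ε)
    (hρ : ∀ M : ℕ, 1 ≤ M → ∃ ρ : Γℚ →* GL (Fin 2) (ZMod (2 ^ M)),
        Function.Surjective ρ ∧ IsLift D ∅ ε ρ ∧
        ∀ ℓ : ℕ, ℓ.Prime → ℓ ≠ 2 → W.IsGoodPrimeFor ℓ →
          ∀ A : ValuationSubring Qbar, A.LiesOverPrime ℓ → ∀ τ : Γℚ, A.IsFrobeniusAt τ ℓ →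
            ((ρ τ : Matrix (Fin 2) (Fin 2) (ZMod (2 ^ M)))).trace =
              (W.apOfModel ℓ : ZMod (2 ^ M)))
    {m : ℕ} (hm : 1 ≤ m) : HasSystem W D.level m := by
  classical
  obtain ⟨C, hC⟩ := exists_auxSet D
  have hc : 1 ≤ D.cprime := Nat.one_le_two_pow
  set E := m + 8 * C + 3 with hE
  set M := E * (2 * D.cprime) with hMdef
  have hM3 : 3 ≤ M := le_trans (by omega) (Nat.le_mul_of_pos_right E (by omega : 0 < 2 * D.cprime))
  have hM0 : NeZero M := ⟨by omega⟩
  obtain ⟨ρ, hsurj, hlift, htrace⟩ := hρ M (by omega)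
  obtain ⟨Q, hQ, hQne, hQC, hS, hQprop⟩ := hC M hM3 ε ρ hlift hsurj
  -- the pattern of the curve, one at the auxiliary primes
  set ε' : ℕ → ℤ := fun p => if p ∈ Q then 1 else ε p with hε'def
  have hε' : IsPattern ε' := fun p => by
    simp only [hε'def]
    split
    · exact Or.inl rfl
    · exact hε p
  have hq2 : ∀ q ∈ Q, q ≠ 2 := fun q hq h => (hQ q hq).2.1 (h ▸ D.two_mem)
  have hqgood : ∀ q ∈ Q, W.IsGoodPrimeFor q := fun q hq =>
    hD.isGoodPrimeFor hW.Δ_ne_zero (hQ q hq).1 (hQ q hq).2.1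
  have hlift' : IsLift D Q ε' ρ :=
    hlift.extend (ZMod.castHom (dvd_pow_self 2 (by omega : M ≠ 0)) (ZMod 2)) hQ
      fun q hq A hA τ hτ => (hQprop q hq).2 A hA τ hτ
  -- it is a pattern of the major parity
  have h4 : ∀ q ∈ Q, q % 4 = 1 := fun q hq => by
    have h1 : q % 2 ^ M % 4 = 1 := by rw [(hQprop q hq).1]
    rwa [Nat.mod_mod_of_dvd _ (Nat.pow_dvd_pow 2 (by omega : 2 ≤ M))] at h1
  obtain ⟨s, hs, hmajor⟩ := exists_major_sign hQ hQne h4
  set ε₀ : ℕ → ℤ := fun p => if p = 2 then s else 1 with hε₀def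
  have hε₀ : IsPattern ε₀ := fun p => by
    simp only [hε₀def]
    split
    · exact hs
    · exact Or.inl rfl
  have hprod₀ : ∏ b ∈ D.B, ε₀ b = s := by
    simp [hε₀def, Finset.prod_ite_eq', D.two_mem]
  have hcard₀ := hmajor ε₀ hε₀ (fun q hq => by simp [hε₀def, hq2 q hq]) hprod₀
  have hne₀ : (patternForms D Q ε₀).Nonempty :=
    Set.nonempty_coe_sort.1 (Nat.card_pos_iff.1 (lt_of_lt_of_le (Nat.two_pow_pos _) hcard₀)).1
  have hcard := hmajor ε' hε' (fun q hq => by simp [hε'def, hq])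
    ((prod_sign_eq_of_forms hQ hS hε' hε₀ hne₀ (by omega) hlift').trans hprod₀)
  -- the homomorphism and the torsion point
  obtain ⟨φ, hφ, hr⟩ := exists_hom_patternAlgebra hQ hS hε' hcard (by omega : 1 ≤ M) hlift'
  have hval : ∀ (ℓ : ℕ) (hℓ : ℓ.Prime) (h : ¬ ℓ ∣ D.auxLevel Q),
      φ (patternT D Q ε' hℓ h) = (W.apOfModel ℓ : ZMod (2 ^ M)) := by
    intro ℓ hℓ h
    obtain ⟨A, τ, hA, hτ, e⟩ := hφ ℓ hℓ h
    have hB : ℓ ∉ D.B := fun hb => h (dvd_auxLevel_of_mem_B D Q hb)
    rw [e]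
    exact htrace ℓ hℓ (fun h2 => hB (h2 ▸ D.two_mem)) (hD.isGoodPrimeFor hW.Δ_ne_zero hℓ hB)
      A hA τ hτ
  obtain ⟨e, heM, hMe, hx⟩ := exists_eigenTorsion hQ hε' (by omega : 1 ≤ M) φ hr _ hval
  have hEe : E ≤ e := Nat.le_of_mul_le_mul_right hMe (by omega)
  have htop : HasSystem W (D.auxLevel Q) e := hx.of_imp fun _ _ => trivial
  -- remove the auxiliary primes
  have step : ∀ S : Finset ℕ, S ⊆ Q → ∀ n : ℕ, m + 8 * S.card ≤ n → n ≤ M →
      HasSystem W (D.auxLevel S) n → HasSystem W D.level m := by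
    intro S
    induction S using Finset.induction with
    | empty =>
      intro _ n hn _ h
      rw [D.auxLevel_empty] at h
      exact h.mono hm (by simpa using hn)
    | insert q S hqS ih =>
      intro hsub n hn hnM h
      rw [Finset.card_insert_of_notMem hqS] at hn
      have hqQ : q ∈ Q := hsub (Finset.mem_insert_self q S)
      have hS' : IsAuxSet D (insert q S) := fun p hp => hQ p (hsub hp)
      have hq1 : q % 2 ^ n = 1 := by
        rw [← Nat.mod_mod_of_dvd q (Nat.pow_dvd_pow 2 hnM), (hQprop q hqQ).1,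
          Nat.one_mod_eq_one.2 (by have := Nat.one_lt_two_pow (n := n) (by omega); omega)]
      have hdvd : (2 ^ n : ℤ) ∣ W.apOfModel q - (1 + q) := by
        obtain ⟨A, τ, hA, hτ⟩ := Galois.exists_valuationSubring_isFrobeniusAt (hQ q hqQ).1
        have h1 := ((hQprop q hqQ).2 A hA τ hτ).symm.trans
          (htrace q (hQ q hqQ).1 (hq2 q hqQ) (hqgood q hqQ) A hA τ hτ)
        have h2 : ((2 ^ M : ℕ) : ℤ) ∣ W.apOfModel q - (1 + q) := by
          rw [← ZMod.intCast_eq_intCast_iff_dvd_sub]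
          push_cast
          exact h1
        exact dvd_trans (by push_cast; exact pow_dvd_pow 2 hnM) h2
      exact ih (fun p hp => hsub (Finset.mem_insert_of_mem hp)) (n - 8) (by omega) (by omega)
        (hasSystem_lower hW hD hS' hqS (by omega) hq1 hdvd h)
  exact step Q subset_rfl e (by omega) heM htop

/-- A dihedral curve is modular of its conductor level. -/
theorem IsDihedralCurve.isModularModelOfLevel (hW : IsDihedralCurve W) :
    W.IsModularModelOfLevel W.conductorLevel := by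
  obtain ⟨D, hD, ε, hε, hρ⟩ := exists_datum W hW
  refine isModularModelOfLevel_of_hasSystem hW fun m hm => ?_
  rw [← hD.level_eq]
  exact hasSystem_of_datum hW hD hε hρ hm

/-- Residual modularity at three of squarefree level, for semistable curves that are
multiplicative at two. -/
theorem residual_modular_three (W : WeierstrassCurve ℤ) (hΔ : W.Δ ≠ 0) (hW : W.IsSemistableModel)
    (h2 : (2 : ℤ) ∣ W.Δ) (h3 : W.ModRepIsIrreducible 3) :
    ∃ M₀ : ℕ, 0 < M₀ ∧ W.IsResiduallyModularOfLevel 3 M₀ ∧ ¬ 3 ^ 2 ∣ M₀ ∧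
      ∀ q : ℕ, q.Prime → q ≠ 3 → ¬ q ^ 3 ∣ M₀ := by
  obtain ⟨W', hW', hcong⟩ := exists_auxCurve W hΔ hW h2 h3
  have hgood : ∀ ℓ : ℕ, ℓ.Prime → ¬ ℓ ∣ W'.conductorLevel → W'.IsGoodPrimeFor ℓ :=
    fun ℓ hℓ h hd => h ((W'.prime_dvd_conductorLevel_iff hW'.Δ_ne_zero hℓ).2 hd)
  have hsq : ∀ q : ℕ, q.Prime → ¬ q ^ 2 ∣ W'.conductorLevel := fun q hq h =>
    hq.ne_one (Nat.isUnit_iff.1 (W'.squarefree_conductorLevel q (sq q ▸ h)))
  exact ⟨W'.conductorLevel, W'.conductorLevel_pos,
    Wiring.isResiduallyModularOfLevel_of_congr Nat.prime_three hW'.isModularModelOfLevel hgood hcong,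
    hsq 3 Nat.prime_three,
    fun q hq _ h => hsq q hq ((pow_dvd_pow q (by norm_num : 2 ≤ 3)).trans h)⟩

end Fermat.Agent.Residual

end
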