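/-
Residual modularity at three at a squarefree level which is prime to three for curves good at three.
-/
import Fermat.Agent.Residual.FamilyAuxThree
import Fermat.Agent.Residual.Main

set_option autoImplicit false

noncomputable section

namespace Fermat.Agent.Residual

/-- A semistable curve, multiplicative at two, with irreducible three-torsion is residually modular
at three of squarefree level, prime to three if the curve is good at three. -/
theorem residual_modular_three_squarefree (W : WeierstrassCurve ℤ) (hΔ : W.Δ ≠ 0)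
    (hW : W.IsSemistableModel) (h2 : (2 : ℤ) ∣ W.Δ) (h3 : W.ModRepIsIrreducible 3) :
    ∃ M₀ : ℕ, 0 < M₀ ∧ W.IsResiduallyModularOfLevel 3 M₀ ∧ Squarefree M₀ ∧
      (¬ (3 : ℤ) ∣ W.Δ → ¬ 3 ∣ M₀) := by
  obtain ⟨W', h33, hneg, hs, h2', hodd, hq, hno, -, -, hcong⟩ :=
    exists_auxiliary_curve_good_three W hΔ hW h2 h3
  have hW' : IsDihedralCurve W' :=
    ⟨hneg, hs, h2', hq, hodd, modRepIsIrreducible_two W' hneg.ne hno⟩
  refine ⟨W'.conductorLevel, W'.conductorLevel_pos,
    Wiring.isResiduallyModularOfLevel_of_congr Nat.prime_three hW'.isModularModelOfLevel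
      (fun ℓ hℓ h hd => h ((W'.prime_dvd_conductorLevel_iff hW'.Δ_ne_zero hℓ).2 hd)) hcong,
    W'.squarefree_conductorLevel, fun h hd => h33 h ?_⟩
  simpa using (W'.prime_dvd_conductorLevel_iff hW'.Δ_ne_zero Nat.prime_three).1 hd

end Fermat.Agent.Residual

end
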