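/-
A prime congruent to 3 or 5 mod 8 modulo which the quartic of the Hesse pencil has a root.

Inertia at a multiplicative place over `2` fixes the Tate line of `E[3]`, so some root of the
quartic, and moves `√2`; a Frobenius element in the same class gives the prime.
-/
import Fermat.Agent.Residual.FamilyTorsion
import Fermat.Agent.Switch.Model
import Fermat.Agent.Mult.Main
import Fermat.Agent.Density.Main
import Fermat.Agent.ECRed.Good
import Mathlib.NumberTheory.LegendreSymbol.QuadraticReciprocity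

set_option autoImplicit false
set_option linter.style.haveILetI false

namespace Fermat.Agent.Residual

open WeierstrassCurve WeierstrassCurve.Affine Fermat.Agent.Switch

local notation "Qbar" => AlgebraicClosure ℚ

/-- An element of inertia at `2` fixes a root of the quartic of the pencil and moves `√2`. -/
theorem exists_root_fixed_sqrt_two_moved (W : WeierstrassCurve ℤ) (hΔ : W.Δ ≠ 0)
    (hs : W.IsSemistableModel) (h2 : (2 : ℤ) ∣ W.Δ) :
    ∃ (σ : Qbar ≃ₐ[ℚ] Qbar) (w t : Qbar), t ^ 2 = 2 ∧ σ t ≠ t ∧ σ w = w ∧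
      hesseD (W.c₄ : Qbar) (W.c₆ : Qbar) w 1 = 0 := by
  obtain ⟨A, hA⟩ := Galois.exists_liesOverPrime Nat.prime_two
  have hM := Mult.IsMultPlace.of_semistable hΔ hs Nat.prime_two (by exact_mod_cast h2) hA
  obtain ⟨t, ht⟩ := IsAlgClosed.exists_pow_nat_eq (2 : Qbar) two_pos
  obtain ⟨σ, hσ, hσt⟩ := Mult.exists_inertia_apply_ne Nat.prime_two hA two_ne_zero
    (t := t) (r := (2 : ℚ)) two_ne_zero (by rw [ht]; norm_num)
    (by
      haveI := Fact.mk Nat.prime_two
      have h1 : padicValRat 2 (2 : ℚ) = 1 := by exact_mod_cast padicValRat.self (p := 2) one_lt_two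
      rw [h1]; decide)
  haveI : Fact (Nat.Prime 3) := ⟨Nat.prime_three⟩
  obtain ⟨P, hP, hP0⟩ := Submodule.exists_mem_ne_zero_of_ne_bot
    (Mult.tateLine_ne_bot_and_ne_top hM Nat.prime_three).1
  have hfix := Mult.inertia_smul_of_mem hM (by norm_num) (by decide) hσ hP
  obtain ⟨P, hP3⟩ := P
  rcases P with _ | ⟨x, y, hxy⟩
  · exact absurd rfl hP0
  refine ⟨σ, 12 * x + (W.b₂ : Qbar), t, ht, hσt, ?_, ?_⟩
  · have h := congrArg Subtype.val hfix
    change σ • Point.some x y hxy = Point.some x y hxy at h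
    rw [Point.algEquiv_smul_def, Point.map_some] at h
    have hx : σ x = x := (Point.some.inj h).1
    rw [map_add, map_mul, hx, map_ofNat, map_intCast]
  · let E : WeierstrassCurve.Affine ℚ := W.map (Int.castRingHom ℚ)
    let S : WeierstrassCurve.Affine ℚ := short (-27 * E.c₄) (-54 * E.c₆)
    have hm : IsModel E S 1 := ⟨rfl, rfl, rfl,
      show -27 * E.c₄ = _ by rw [one_pow, mul_one], show -54 * E.c₆ = _ by rw [one_pow, mul_one]⟩
    have hEΔ : E.Δ ≠ 0 := by
      rw [show E.Δ = ((W.Δ : ℤ) : ℚ) from WeierstrassCurve.map_Δ ..]; exact_mod_cast hΔ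
    have h1 : algebraMap ℚ Qbar 1 ≠ 0 := by simp
    haveI : (S⁄Qbar).IsShortNF := ⟨hm.baseChange.a₁, hm.baseChange.a₂, hm.baseChange.a₃⟩
    have h3 : (3 : ℕ) • Point.some x y hxy = 0 := by
      rw [← natCast_zsmul]
      exact (Submodule.mem_torsionBy_iff _ _).1 hP3
    have h3' := congrArg (hm.baseChange.pointEquiv h1 (baseChange_Δ_ne_zero hEΔ)) h3
    rw [map_nsmul, map_zero] at h3'
    have h3'' : (3 : ℕ) • (hm.baseChange (L := Qbar)).pointMap h1 (baseChange_Δ_ne_zero hEΔ)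
        (Point.some x y hxy) = 0 := h3'
    rw [IsModel.pointMap_some, three_nsmul_some_eq_zero_iff] at h3''
    have e4 : (S⁄Qbar).a₄ = -27 * (W.c₄ : Qbar) := by
      change algebraMap ℚ Qbar (-27 * E.c₄) = _
      rw [show E.c₄ = (W.c₄ : ℚ) from WeierstrassCurve.map_c₄ ..]
      simp
    have e6 : (S⁄Qbar).a₆ = -54 * (W.c₆ : Qbar) := by
      change algebraMap ℚ Qbar (-54 * E.c₆) = _
      rw [show E.c₆ = (W.c₆ : ℚ) from WeierstrassCurve.map_c₆ ..]
      simp
    have eb : (E⁄Qbar).b₂ = (W.b₂ : Qbar) := by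
      change ((W.map (Int.castRingHom ℚ)).map (algebraMap ℚ Qbar)).b₂ = _
      rw [WeierstrassCurve.map_b₂, WeierstrassCurve.map_b₂]
      simp
    rw [e4, e6, show modelX (E⁄Qbar) (algebraMap ℚ Qbar 1) x = 3 * (12 * x + (W.b₂ : Qbar)) by
      simp [modelX, eb]; ring, triplePoly_short] at h3''
    exact (mul_eq_zero.1 h3'').resolve_left (by norm_num)

/-- A prime `ℓ ≡ 3, 5 (mod 8)` prime to `6 Δ` modulo which the quartic has a root. -/
theorem exists_prime_dvd_hesseD (W : WeierstrassCurve ℤ) (hΔ : W.Δ ≠ 0)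
    (hs : W.IsSemistableModel) (h2 : (2 : ℤ) ∣ W.Δ) :
    ∃ (ℓ : ℕ) (r : ℤ), ℓ.Prime ∧ ¬ (ℓ : ℤ) ∣ 6 * W.Δ ∧ (ℓ % 8 = 3 ∨ ℓ % 8 = 5) ∧
      (ℓ : ℤ) ∣ hesseD W.c₄ W.c₆ r 1 := by
  obtain ⟨σ, w, t, ht, hσt, hσw, hw⟩ := exists_root_fixed_sqrt_two_moved W hΔ hs h2
  have htint : IsIntegral ℤ t := by
    refine IsIntegral.of_pow two_pos ?_
    rw [ht, show (2 : Qbar) = algebraMap ℤ Qbar 2 by simp]
    exact isIntegral_algebraMap
  have hwint : IsIntegral ℤ w := by
    refine ⟨Polynomial.X ^ 4 + Polynomial.C (-6 * W.c₄) * Polynomial.X ^ 2 +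
      Polynomial.C (-8 * W.c₆) * Polynomial.X + Polynomial.C (-3 * W.c₄ ^ 2), by monicity!, ?_⟩
    simp only [Polynomial.eval₂_add, Polynomial.eval₂_mul, Polynomial.eval₂_pow,
      Polynomial.eval₂_X, Polynomial.eval₂_C]
    rw [← hw]
    simp [hesseD]
    ring
  haveI : Algebra.IsAlgebraic ℚ Qbar := AlgebraicClosure.isAlgebraic ℚ
  let L : IntermediateField ℚ Qbar := IntermediateField.adjoin ℚ {w, t}
  haveI : FiniteDimensional ℚ L :=
    IntermediateField.finiteDimensional_adjoin fun x _ => Algebra.IsIntegral.isIntegral x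
  obtain ⟨ℓ, hℓ, hℓS, A, hA, τ, hτ, ⟨k, hk⟩, ⟨k', hk'⟩⟩ :=
    Density.exists_frobenius_pow σ L (6 * W.Δ).natAbs.primeFactors
  have hwL : w ∈ L := IntermediateField.subset_adjoin _ _ (by simp)
  have htL : t ∈ L := IntermediateField.subset_adjoin _ _ (by simp)
  have h6 : ¬ (ℓ : ℤ) ∣ 6 * W.Δ := fun h => hℓS (Nat.mem_primeFactors.2
    ⟨hℓ, Int.natCast_dvd.1 h, Int.natAbs_ne_zero.2 (mul_ne_zero (by norm_num) hΔ)⟩)
  have hℓ2 : ℓ ≠ 2 := fun h => h6 (h ▸ dvd_mul_of_dvd_left (by norm_num) _)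
  have hτw : τ w = w := by
    rw [hk' w hwL]
    clear hk'
    induction k' with
    | zero => simp
    | succ j ih => rw [pow_succ, AlgEquiv.mul_apply, hσw, ih]
  have hτt : τ t = -t := by
    have hsq : τ t ^ 2 = t ^ 2 := by rw [← map_pow, ht, map_ofNat]
    refine (sq_eq_sq_iff_eq_or_eq_neg.1 hsq).resolve_left fun h => hσt ?_
    rw [hk t htL]
    clear hk
    induction k with
    | zero => simp
    | succ j ih => rw [pow_succ, AlgEquiv.mul_apply, h, ih]
  -- pass to the residue field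
  haveI := ECRed.charP_residueField (A := A) hℓ hA
  haveI := Fact.mk hℓ
  have hfrob : ∀ (x : Qbar) (hx : x ∈ A) (y : Qbar) (hy : y ∈ A), τ x = y →
      IsLocalRing.residue A ⟨x, hx⟩ ^ ℓ = IsLocalRing.residue A ⟨y, hy⟩ := by
    intro x hx y hy hxy
    rw [eq_comm, ← map_pow, ← sub_eq_zero, ← map_sub, IsLocalRing.residue_eq_zero_iff,
      ← A.coe_mem_nonunits_iff]
    have := Density.sub_pow_mem_nonunits hτ hx
    rw [hxy] at this
    exact this
  have hwA := Galois.mem_valuationSubring_of_isIntegral A hwint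
  have htA := Galois.mem_valuationSubring_of_isIntegral A htint
  obtain ⟨r, hr⟩ : ∃ r : ℤ, (r : IsLocalRing.ResidueField A) = IsLocalRing.residue A ⟨w, hwA⟩ := by
    have h := (Subfield.mem_bot_iff_pow_eq_self _ ℓ).2 (hfrob w hwA w hwA hτw)
    rw [← ZMod.fieldRange_castHom_eq_bot ℓ] at h
    obtain ⟨z, hz⟩ := h
    obtain ⟨r, rfl⟩ := ZMod.intCast_surjective z
    exact ⟨r, by rw [← hz, map_intCast]⟩
  refine ⟨ℓ, r, hℓ, h6, ?_, ?_⟩
  · have hodd : ℓ % 2 = 1 := (hℓ.eq_two_or_odd).resolve_left hℓ2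
    suffices ¬ (ℓ % 8 = 1 ∨ ℓ % 8 = 7) by omega
    rw [← ZMod.exists_sq_eq_two_iff hℓ2]
    rintro ⟨c, hc⟩
    obtain ⟨T, hT⟩ : ∃ T, T = IsLocalRing.residue A ⟨t, htA⟩ := ⟨_, rfl⟩
    have hT2 : T ^ 2 = 2 := by
      rw [hT, ← map_pow, show (⟨t, htA⟩ : A) ^ 2 = 2 from Subtype.ext (by push_cast; exact ht),
        map_ofNat]
    have hTneg : T ^ ℓ = -T := by
      rw [hT, hfrob t htA (-t) (neg_mem htA) hτt, ← map_neg]
      rfl
    let φ := ZMod.castHom (m := ℓ) dvd_rfl (IsLocalRing.ResidueField A)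
    have hc' : φ c ^ 2 = T ^ 2 := by rw [hT2, sq, ← map_mul, ← hc, map_ofNat]
    have hfix : T ^ ℓ = T := by
      have hcℓ : φ c ^ ℓ = φ c := by rw [← map_pow, ZMod.pow_card]
      rcases sq_eq_sq_iff_eq_or_eq_neg.1 hc' with h | h
      · rw [← h, hcℓ]
      · rw [← neg_eq_iff_eq_neg.2 h, Odd.neg_pow (Nat.odd_iff.2 hodd), hcℓ]
    have hT0 : (2 : IsLocalRing.ResidueField A) * T = 0 := by
      linear_combination hfix.symm.trans hTneg
    have h2' : (2 : IsLocalRing.ResidueField A) ≠ 0 := by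
      simpa using ECRed.intCast_residueField_ne_zero (n := 2) hℓ hA (fun h => hℓ2
        ((Nat.prime_dvd_prime_iff_eq hℓ Nat.prime_two).1 (by exact_mod_cast h)))
    rcases mul_eq_zero.1 hT0 with h | h
    · exact h2' h
    · rw [h] at hT2; exact h2' (by simpa using hT2.symm)
  · rw [← CharP.intCast_eq_zero_iff (IsLocalRing.ResidueField A) ℓ,
      ← eq_intCast (Int.castRingHom (IsLocalRing.ResidueField A)), map_hesseD]
    simp only [eq_intCast, hr, map_one]
    rw [← map_intCast (IsLocalRing.residue A) W.c₄, ← map_intCast (IsLocalRing.residue A) W.c₆,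
      ← map_one (IsLocalRing.residue A), ← map_hesseD]
    convert map_zero (IsLocalRing.residue A)
    apply Subtype.ext
    have := map_hesseD A.subtype ((W.c₄ : ℤ) : A) ((W.c₆ : ℤ) : A) ⟨w, hwA⟩ 1
    simp only [map_intCast, map_one] at this
    exact this.trans hw

end Fermat.Agent.Residual
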