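/-
Residual modularity at 3, counting step: the normalised eigenforms of a level form a finite set.
-/
import Fermat.Agent.Residual.CountEigen
import Fermat.Agent.Residual.CountDefs
import Mathlib.RingTheory.Finiteness.Basic

set_option autoImplicit false

noncomputable section

namespace Fermat.Agent.Residual

open CongruenceSubgroup

/-- Normalised eigenforms of a given level form a finite set. -/
theorem finite_eigenforms (M : ℕ) [NeZero M] :
    {f : CuspForm (Gamma0 M) 2 | f.IsNormalizedEigenform}.Finite := by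
  classical
  haveI := finiteDimensional_level M
  let gens := CuspForm.heckeGenerators M 2 ∅
  let T := Algebra.adjoin ℂ gens
  have heig : ∀ f : {f : CuspForm (Gamma0 M) 2 // f.IsNormalizedEigenform}, ∀ t : T,
      ∃ c : ℂ, (t : Module.End ℂ _) f.1 = c • f.1 := by
    intro f t
    obtain ⟨t, ht⟩ := t
    induction ht using Algebra.adjoin_induction with
    | mem x hx =>
      rcases hx with ⟨ℓ, hℓ, hℓN, -, rfl⟩ | ⟨q, hqN, hq, -, rfl⟩
      · exact ⟨_, Fermat.Agent.Newform.atkin_heckeT_eigen f.2 hℓ hℓN⟩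
      · exact ⟨_, Fermat.Agent.Newform.atkin_heckeU_eigen f.2 hq hqN⟩
    | algebraMap r => exact ⟨r, rfl⟩
    | add x y _ _ hx hy =>
      obtain ⟨c, hc⟩ := hx; obtain ⟨c', hc'⟩ := hy
      exact ⟨c + c', by rw [LinearMap.add_apply, hc, hc', add_smul]⟩
    | mul x y _ _ hx hy =>
      obtain ⟨c, hc⟩ := hx; obtain ⟨c', hc'⟩ := hy
      exact ⟨c' * c, by rw [Module.End.mul_apply, hc', map_smul, hc, smul_smul]⟩
  choose χ hχ using heig
  have hne : ∀ f : {f : CuspForm (Gamma0 M) 2 // f.IsNormalizedEigenform}, f.1 ≠ 0 :=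
    fun f => f.2.ne_zero
  have hu : ∀ f (t : T) (c : ℂ), (t : Module.End ℂ _) f.1 = c • f.1 → χ f t = c := fun f t c h =>
    smul_left_injective ℂ (hne f) ((hχ f t).symm.trans h)
  let Φ : {f : CuspForm (Gamma0 M) 2 // f.IsNormalizedEigenform} → (T →ₐ[ℂ] ℂ) := fun f =>
    { toFun := χ f
      map_one' := hu f 1 1 (by simp)
      map_mul' := fun s t => hu f _ _ (by
        show (s : Module.End ℂ _) ((t : Module.End ℂ _) f.1) = _
        rw [hχ f t, map_smul, hχ f s, smul_smul, mul_comm])
      map_zero' := hu f 0 0 (by simp)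
      map_add' := fun s t => hu f _ _ (by
        show (s : Module.End ℂ _) f.1 + (t : Module.End ℂ _) f.1 = _
        rw [hχ f s, hχ f t, add_smul])
      commutes' := fun r => hu f _ _ rfl }
  have hΦ : Function.Injective Φ := by
    rintro ⟨f, hf⟩ ⟨g, hg⟩ h
    have hval : ∀ t : T, χ ⟨f, hf⟩ t = χ ⟨g, hg⟩ t := fun t => AlgHom.congr_fun h t
    have key : ∀ (x : Module.End ℂ (CuspForm (Gamma0 M) 2)) (hx : x ∈ gens) (c : ℂ),
        x f = c • f → x g = c • g := fun x hx c hc => by
      let t : T := ⟨x, Algebra.subset_adjoin hx⟩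
      have h1 := hu ⟨f, hf⟩ t c hc
      rw [hval t] at h1
      exact h1 ▸ hχ ⟨g, hg⟩ t
    refine Subtype.ext (sub_eq_zero.mp (Fermat.Agent.Newform.atkin_eq_zero_of_qCoeff_one
      (f := f - g) ?_ (fun p => ModularFormClass.qCoeff f p) ?_ ?_))
    · rw [Fermat.Agent.Eigen.qCoeff_sub, hf.qCoeff_one, hg.qCoeff_one, sub_self]
    · intro p hp hpM
      have e := Fermat.Agent.Newform.atkin_heckeT_eigen hf hp hpM
      rw [map_sub, e, key _ (CuspForm.heckeTLin_mem_heckeGenerators hp hpM (Set.notMem_empty p)) _ e,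
        smul_sub]
    · intro p hp hpM
      have e := Fermat.Agent.Newform.atkin_heckeU_eigen hf hp hpM
      rw [map_sub, e, key _ (CuspForm.heckeULin_mem_heckeGenerators hp hpM (Set.notMem_empty p)) _ e,
        smul_sub]
  haveI : FiniteDimensional ℂ T := Module.Finite.of_injective (Subalgebra.val T).toLinearMap
    Subtype.val_injective
  exact Set.finite_coe_iff.mp (Finite.of_injective Φ hΦ)

/-- Newforms of a given level form a finite set. -/
theorem finite_newformsIn (M : ℕ) [NeZero M] (𝔪 : Ideal (integralClosure ℤ ℂ)) (a : ℕ → ℤ)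
    (R : ℕ) (s : ℕ → ℤ) : (newformsIn M 𝔪 a R s).Finite :=
  (finite_eigenforms M).subset fun _ hf => hf.1.1

end Fermat.Agent.Residual

end
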