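/-
Residual modularity at 3, counting step: the congruent part of `S₂(Γ₀(D))` is the direct sum of the
eigenspaces of the newforms in the system, and the traces of the involutions on it.
-/
import Fermat.Agent.Residual.CountTrace
import Fermat.Agent.Residual.CountFinite
import Mathlib.LinearAlgebra.Eigenspace.Pi
import Mathlib.LinearAlgebra.DFinsupp
import Mathlib.LinearAlgebra.Dimension.Constructions

set_option autoImplicit false

noncomputable section

namespace Fermat.Agent.Residual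

open CongruenceSubgroup ModularFormClass Module
open scoped Classical

variable {D M R : ℕ} [NeZero D] {𝔪 : Ideal (integralClosure ℤ ℂ)} {a : ℕ → ℤ}

/-- The newforms of level `M` in the system. -/
def sysNewforms (M : ℕ) (𝔪 : Ideal (integralClosure ℤ ℂ)) (a : ℕ → ℤ) (R : ℕ) :
    Set (CuspForm (Gamma0 M) 2) :=
  {g | g.IsNewform ∧ InSys 𝔪 a R g}

theorem finite_sysNewforms (M : ℕ) [NeZero M] (𝔪 : Ideal (integralClosure ℤ ℂ)) (a : ℕ → ℤ)
    (R : ℕ) : (sysNewforms M 𝔪 a R).Finite :=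
  (finite_eigenforms M).subset fun _ hf => hf.1.1

/-- The newforms of the levels dividing `D` in the system. -/
abbrev SysIdx (D : ℕ) (𝔪 : Ideal (integralClosure ℤ ℂ)) (a : ℕ → ℤ) (R : ℕ) : Type :=
  Σ M : {M : ℕ // M ∈ D.divisors}, sysNewforms M.1 𝔪 a R

instance finite_sysIdx : Finite (SysIdx D 𝔪 a R) := by
  haveI : ∀ M : {M : ℕ // M ∈ D.divisors}, Finite (sysNewforms M.1 𝔪 a R) := fun M => by
    haveI : NeZero M.1 :=
      ⟨fun h => Nat.pos_iff_ne_zero.mp (Nat.pos_of_mem_divisors M.2) h⟩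
    exact (finite_sysNewforms M.1 𝔪 a R).to_subtype
  infer_instance

/-- Two newforms at the same squarefree level with the same system are equal. -/
theorem newform_eq_of_agree [NeZero R] (hD : Squarefree D) (hDR : D ∣ R)
    {g g' : CuspForm (Gamma0 D) 2} (hg : g.IsNewform) (hg' : g'.IsNewform)
    (heq : ∀ ℓ : ℕ, ℓ.Prime → ¬ ℓ ∣ R → qCoeff g ℓ = qCoeff g' ℓ) : g = g' := by
  have hall : ∀ ℓ : ℕ, ℓ.Prime → ¬ ℓ ∣ D → qCoeff g ℓ = qCoeff g' ℓ := fun ℓ hℓ hℓD =>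
    Fermat.Agent.Newform.qCoeff_eq_of_agree_cofinite hg'.1 hg.1 R.primeFactors
      (fun r hr hrR _ _ => heq r hr fun h => hrR (Nat.mem_primeFactors.mpr ⟨hr, h, NeZero.ne R⟩))
      hℓ hℓD hℓD
  refine sub_eq_zero.mp (eq_zero_of_qCoeff_divisors hD dvd_rfl hg' (f := g - g') ?_ ?_)
  · refine sub_mem ?_ ?_
    · rw [← sysSpace_congr dvd_rfl hall]
      exact (mem_sysSpace_iff dvd_rfl _ g).mpr fun ℓ hℓ h =>
        Fermat.Agent.Newform.atkin_heckeT_eigen hg.1 hℓ h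
    · exact (mem_sysSpace_iff dvd_rfl _ g').mpr fun ℓ hℓ h =>
        Fermat.Agent.Newform.atkin_heckeT_eigen hg'.1 hℓ h
  · intro e he
    rw [oldPart, Nat.div_self (NeZero.pos D), Nat.divisors_one, Finset.mem_singleton] at he
    rw [he, Fermat.Agent.Eigen.qCoeff_sub, hg.1.qCoeff_one, hg'.1.qCoeff_one, sub_self]

/-- A newform in the system is determined by its eigenvalues outside `R`. -/
theorem sysIdx_injective [NeZero R] (hD : Squarefree D) (hDR : D ∣ R) :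
    Function.Injective fun (i : SysIdx D 𝔪 a R) (ℓ : {ℓ : ℕ // ℓ.Prime ∧ ¬ ℓ ∣ R}) =>
      qCoeff i.2.1 ℓ.1 := by
  rintro ⟨⟨M, hM⟩, g, hg⟩ ⟨⟨M', hM'⟩, g', hg'⟩ h
  have heq : ∀ ℓ : ℕ, ℓ.Prime → ¬ ℓ ∣ R → qCoeff g ℓ = qCoeff g' ℓ := fun ℓ hℓ hℓR =>
    congrFun h ⟨ℓ, hℓ, hℓR⟩
  have hMD := Nat.dvd_of_mem_divisors hM
  have hM'D := Nat.dvd_of_mem_divisors hM'
  have hout : ∀ ℓ : ℕ, ℓ.Prime → ℓ ∉ R.primeFactors → ¬ ℓ ∣ R := fun ℓ hℓ hℓS h =>
    hℓS (Nat.mem_primeFactors.mpr ⟨hℓ, h, NeZero.ne R⟩)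
  obtain rfl : M = M' := Nat.dvd_antisymm
    (level_dvd_of_agree hD hg.1 hMD hg'.1.1 hM'D R.primeFactors
      fun ℓ hℓ hℓS _ => (heq ℓ hℓ (hout ℓ hℓ hℓS)).symm)
    (level_dvd_of_agree hD hg'.1 hM'D hg.1.1 hMD R.primeFactors
      fun ℓ hℓ hℓS _ => heq ℓ hℓ (hout ℓ hℓ hℓS))
  haveI : NeZero M := ⟨fun h => NeZero.ne D (zero_dvd_iff.mp (h ▸ hMD))⟩
  obtain rfl := newform_eq_of_agree (hD.squarefree_of_dvd hMD) (hMD.trans hDR) hg.1 hg'.1 heq
  rfl

/-- The eigenspaces of the newforms in the system are independent. -/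
theorem iSupIndep_sysSpace [NeZero R] (hD : Squarefree D) (hDR : D ∣ R) :
    iSupIndep fun i : SysIdx D 𝔪 a R => sysSpace D R hDR (qCoeff i.2.1) := by
  let T : {ℓ : ℕ // ℓ.Prime ∧ ¬ ℓ ∣ R} → Module.End ℂ (CuspForm (Gamma0 D) 2) := fun ℓ =>
    CuspForm.heckeTLin 2 ℓ.2.1 fun h => ℓ.2.2 (h.trans hDR)
  have hind := Module.End.independent_iInf_maxGenEigenspace_of_forall_mapsTo T fun i j φ =>
    Module.End.mapsTo_maxGenEigenspace_of_comm
      (CuspForm.heckeTLin_comm 2 j.2.1 _ i.2.1 _) φ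
  refine (hind.comp (sysIdx_injective hD hDR)).mono fun i => le_iInf fun ℓ => ?_
  refine le_trans ?_ (Module.End.eigenspace_le_maxGenEigenspace)
  intro f hf
  exact Module.End.mem_eigenspace_iff.mpr ((mem_sysSpace_iff hDR _ f).mp hf ℓ.1 ℓ.2.1 ℓ.2.2)

/-- The congruent part is the sum of these eigenspaces. -/
theorem congPart_eq_iSup [NeZero R] (hDR : D ∣ R) :
    congPart D hDR 𝔪 a = ⨆ i : SysIdx D 𝔪 a R, sysSpace D R hDR (qCoeff i.2.1) := by
  refine le_antisymm (iSup₂_le fun χ hχ f hf => ?_) (iSup_le fun i => ?_)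
  · rcases eq_or_ne f 0 with rfl | hf0
    · exact zero_mem _
    obtain ⟨M, hMD, g, hg, hgχ⟩ := exists_newform_of_mem hDR hf hf0
    have hin : InSys 𝔪 a R g := fun ℓ hℓ hℓR => by rw [hgχ ℓ hℓ hℓR]; exact hχ ℓ hℓ hℓR
    refine Submodule.mem_iSup_of_mem (⟨⟨M, Nat.mem_divisors.mpr ⟨hMD, NeZero.ne D⟩⟩, g, hg, hin⟩ :
      SysIdx D 𝔪 a R) ?_
    rwa [sysSpace_congr hDR hgχ]
  · exact le_iSup₂ (f := fun χ (_ : IsCongr 𝔪 a R χ) => sysSpace D R hDR χ)
      (qCoeff i.2.1) i.2.2.2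

theorem finrank_iSup_of_indep {ι V : Type} [Fintype ι] [AddCommGroup V] [Module ℂ V]
    [FiniteDimensional ℂ V] {p : ι → Submodule ℂ V} (hp : iSupIndep p) :
    finrank ℂ ↥(⨆ i, p i) = ∑ i, finrank ℂ (p i) := by
  rw [Submodule.iSup_eq_range_dfinsupp_lsum,
    LinearMap.finrank_range_of_inj hp.dfinsupp_lsum_injective]
  exact Module.finrank_directSum ℂ fun i => p i

/-- An involution preserving the summands: its eigenspaces decompose. -/
theorem iSup_inf_eigenspace {ι V : Type} [AddCommGroup V] [Module ℂ V] {p : ι → Submodule ℂ V}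
    {w : Module.End ℂ V} (hwp : ∀ i, ∀ x ∈ p i, w x ∈ p i) (hw : ∀ x, w (w x) = x) {c : ℂ}
    (hc : c * c = 1) :
    (⨆ i, p i) ⊓ End.eigenspace w c = ⨆ i, p i ⊓ End.eigenspace w c := by
  refine le_antisymm ?_ (iSup_le fun i => inf_le_inf_right _ (le_iSup p i))
  rintro x ⟨hx, hxc⟩
  have hfix : ((2 : ℂ)⁻¹ • (1 + c • w) : Module.End ℂ V) x = x := by
    rw [LinearMap.smul_apply, LinearMap.add_apply, LinearMap.smul_apply, Module.End.one_apply,
      End.mem_eigenspace_iff.mp hxc, smul_smul, hc, one_smul, ← two_smul ℂ x, smul_smul,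
      inv_mul_cancel₀ two_ne_zero, one_smul]
  rw [← hfix]
  have hmem := Submodule.mem_map_of_mem (f := ((2 : ℂ)⁻¹ • (1 + c • w) : Module.End ℂ V)) hx
  rw [Submodule.map_iSup] at hmem
  refine SetLike.le_def.mp (iSup_mono fun i => ?_) hmem
  rintro _ ⟨y, hy, rfl⟩
  refine ⟨Submodule.smul_mem _ _ (add_mem hy (Submodule.smul_mem _ _ (hwp i y hy))), ?_⟩
  show ((2 : ℂ)⁻¹ • (1 + c • w) : Module.End ℂ V) y ∈ End.eigenspace w c
  rw [End.mem_eigenspace_iff]
  simp only [LinearMap.smul_apply, LinearMap.add_apply, Module.End.one_apply, map_smul, map_add,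
    hw, smul_add, smul_smul]
  rw [show c * ((2 : ℂ)⁻¹ * c) = (2 : ℂ)⁻¹ by linear_combination (2 : ℂ)⁻¹ * hc,
    mul_comm c (2 : ℂ)⁻¹, add_comm]

theorem alOp_alOp' (hD : Squarefree D) {d : ℕ} (hd : d ∣ D) (x : CuspForm (Gamma0 D) 2) :
    alOp D d (alOp D d x) = x := alOp_alOp hD hd x

/-- The integral Atkin–Lehner sign of a newform. -/
def alSgn (g : CuspForm (Gamma0 M) 2) (d : ℕ) : ℤ :=
  ∏ q ∈ d.primeFactors, if qCoeff g q = -1 then 1 else -1

theorem alSgn_eq_one_or (g : CuspForm (Gamma0 M) 2) (d : ℕ) :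
    alSgn g d = 1 ∨ alSgn g d = -1 := by
  refine Finset.prod_induction _ (fun x : ℤ => x = 1 ∨ x = -1) ?_ (Or.inl rfl) fun q _ => ?_
  · rintro x y (rfl | rfl) (rfl | rfl) <;> simp
  · split <;> simp

theorem alSgn_cast (hD : Squarefree D) (hMD : M ∣ D) {g : CuspForm (Gamma0 M) 2}
    (hg : g.IsNewform) {d : ℕ} (hd : d ∣ M) : (alSgn g d : ℂ) = alSign g d := by
  haveI : NeZero M := ⟨fun h => NeZero.ne D (zero_dvd_iff.mp (h ▸ hMD))⟩
  rw [alSgn, alSign, Int.cast_prod]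
  refine Finset.prod_congr rfl fun q hq => ?_
  have hq' := Nat.mem_primeFactors.mp hq
  rcases sq_eq_one_iff.mp (Fermat.Agent.Newform.qCoeff_sq_eq_one_of_not_sq_dvd hg hq'.1
      (hq'.2.1.trans hd) (not_sq_dvd_of_squarefree hD hMD hq'.1)) with h | h
  · rw [h, if_neg (by norm_num)]; simp
  · rw [h, if_pos rfl]; simp

/-- Sum of the signs at `d` over the newforms of level `M` in the system. -/
def signSum (M d : ℕ) (𝔪 : Ideal (integralClosure ℤ ℂ)) (a : ℕ → ℤ) (R : ℕ) : ℤ :=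
  ∑ᶠ g : sysNewforms M 𝔪 a R, alSgn g.1 d

theorem finrank_diff_sysSpace [NeZero R] (hD : Squarefree D) (hDR : D ∣ R) (hMD : M ∣ D)
    {g : CuspForm (Gamma0 M) 2} (hg : g.IsNewform) {d : ℕ} (hd : d ∣ D) :
    (finrank ℂ ↥(sysSpace D R hDR (qCoeff g) ⊓ End.eigenspace (alOp D d) 1) : ℤ)
      - finrank ℂ ↥(sysSpace D R hDR (qCoeff g) ⊓ End.eigenspace (alOp D d) (-1))
      = if d ∣ M then ((D / M).divisors.card : ℤ) * alSgn g d else 0 := by
  haveI := finiteDimensional_level D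
  rw [sysSpace_eq hDR hMD hg.1]
  by_cases hdM : d ∣ M
  swap
  · rw [if_neg hdM, finrank_alOp_old hD hMD hg hd hdM, sub_self]
  set E := sysSpace D D dvd_rfl (qCoeff g) with hE
  have hdim : finrank ℂ E = (D / M).divisors.card := finrank_sysSpace hD hMD hg
  have hscal : ∀ f ∈ E, alOp D d f = (alSgn g d : ℂ) • f := fun f hf => by
    rw [alSgn_cast hD hMD hg hdM]; exact alOp_of_dvd hD hMD hg hdM hf
  have hall : ∀ c : ℂ, (alSgn g d : ℂ) = c → E ⊓ End.eigenspace (alOp D d) c = E := by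
    rintro c rfl
    exact inf_eq_left.mpr fun f hf => End.mem_eigenspace_iff.mpr (hscal f hf)
  have hnone : ∀ c : ℂ, (alSgn g d : ℂ) ≠ c → E ⊓ End.eigenspace (alOp D d) c = ⊥ := by
    intro c hc
    refine eq_bot_iff.mpr fun f hf => (Submodule.mem_bot ℂ).mpr ?_
    have h := (hscal f hf.1).symm.trans (End.mem_eigenspace_iff.mp hf.2)
    exact (smul_eq_zero.mp (by rw [sub_smul, h, sub_self] :
      ((alSgn g d : ℂ) - c) • f = 0)).resolve_left (sub_ne_zero.mpr hc)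
  rw [if_pos hdM]
  rcases alSgn_eq_one_or g d with h | h
  · rw [hall 1 (by simp [h]), hnone (-1) (by rw [h]; norm_num), finrank_bot, hdim, h]; simp
  · rw [hnone 1 (by rw [h]; norm_num), hall (-1) (by simp [h]), finrank_bot, hdim, h]; simp

/-- The trace on the congruent part, in terms of the newforms. -/
theorem levelTrace_eq_sum [NeZero R] (hD : Squarefree D) (hDR : D ∣ R) {d : ℕ} (hd : d ∣ D) :
    levelTrace D d hDR 𝔪 a = ∑ M ∈ D.divisors,
      if d ∣ M then ((D / M).divisors.card : ℤ) * signSum M d 𝔪 a R else 0 := by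
  haveI := finiteDimensional_level D
  haveI : ∀ M : {M : ℕ // M ∈ D.divisors}, Fintype (sysNewforms M.1 𝔪 a R) := fun M => by
    haveI : NeZero M.1 :=
      ⟨fun h => Nat.pos_iff_ne_zero.mp (Nat.pos_of_mem_divisors M.2) h⟩
    exact (finite_sysNewforms M.1 𝔪 a R).fintype
  have hwp : ∀ i : SysIdx D 𝔪 a R, ∀ x ∈ sysSpace D R hDR (qCoeff i.2.1),
      alOp D d x ∈ sysSpace D R hDR (qCoeff i.2.1) := fun i x hx => alOp_mem_sysSpace hD hd hDR hx
  have hsplit : ∀ c : ℂ, c * c = 1 →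
      (finrank ℂ ↥(congPart D hDR 𝔪 a ⊓ End.eigenspace (alOp D d) c) : ℤ)
        = ∑ i : SysIdx D 𝔪 a R,
            (finrank ℂ ↥(sysSpace D R hDR (qCoeff i.2.1) ⊓ End.eigenspace (alOp D d) c) : ℤ) := by
    intro c hc
    rw [congPart_eq_iSup, iSup_inf_eigenspace hwp (alOp_alOp' hD hd) hc,
      finrank_iSup_of_indep ((iSupIndep_sysSpace hD hDR).mono fun i => inf_le_left), Nat.cast_sum]
  rw [levelTrace, hsplit 1 (by norm_num), hsplit (-1) (by norm_num), ← Finset.sum_sub_distrib]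
  rw [Finset.sum_congr rfl fun (i : SysIdx D 𝔪 a R) _ =>
    finrank_diff_sysSpace hD hDR (Nat.dvd_of_mem_divisors i.1.2) i.2.2.1 hd]
  rw [Fintype.sum_sigma, ← Finset.sum_coe_sort D.divisors]
  refine Finset.sum_congr rfl fun M _ => ?_
  split_ifs with h
  · rw [signSum, finsum_eq_sum_of_fintype, Finset.mul_sum]
  · exact Finset.sum_const_zero

end Fermat.Agent.Residual

end
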