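/-
Residual modularity at 3, counting step: newforms of the major patterns from the traces of the
Atkin–Lehner involutions at all levels (inclusion–exclusion).

With `signSum M d` the sum of the signs at `d` over the newforms of level `M` in the system, the
traces give `signSum M d = 0` unless `d = 1` or `d = N = ∏ B`, and
`signSum (N * ∏ S) N = (-2) ^ #S * levelTrace N N`; a Fourier inversion over the signs and
positivity of the count for a minor pattern then give the bound.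
-/
import Fermat.Agent.Residual.CountDecomp
import Mathlib.Data.Nat.Squarefree
import Mathlib.Data.Nat.Choose.Sum
import Mathlib.Algebra.BigOperators.Ring.Finset
import Mathlib.NumberTheory.ArithmeticFunction.Misc

set_option autoImplicit false

noncomputable section

namespace Fermat.Agent.Residual

open CongruenceSubgroup ModularFormClass
open scoped Classical

theorem squarefree_prod_primes {S : Finset ℕ} (hS : ∀ p ∈ S, p.Prime) :
    Squarefree (∏ p ∈ S, p) :=
  Finset.squarefree_prod_of_pairwise_isCoprime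
    (fun p hp q hq hne =>
      Nat.coprime_iff_isRelPrime.mp ((Nat.coprime_primes (hS p hp) (hS q hq)).mpr hne))
    fun p hp => (hS p hp).squarefree

theorem card_divisors_prod {S : Finset ℕ} (hS : ∀ p ∈ S, p.Prime) :
    (∏ p ∈ S, p).divisors.card = 2 ^ S.card := by
  have h0 : (∏ p ∈ S, p) ≠ 0 := Finset.prod_ne_zero_iff.mpr fun p hp => (hS p hp).ne_zero
  rw [Nat.card_divisors h0, Nat.primeFactors_prod hS]
  refine Finset.prod_eq_pow_card fun p hp => ?_
  rw [Nat.factorization_eq_one_of_squarefree (squarefree_prod_primes hS) (hS p hp)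
    (Finset.dvd_prod_of_mem _ hp)]

variable {L R : ℕ} [NeZero L] [NeZero R] {𝔪 : Ideal (integralClosure ℤ ℂ)} {a : ℕ → ℤ} {P : ℕ}

/-- The sign sums vanish off `1` and `P`. -/
theorem signSum_eq_zero (hL : Squarefree L) (hLR : L ∣ R)
    (hbal : ∀ (D d : ℕ) [NeZero D] (hD : D ∣ L), d ∣ D → 1 < d → ¬ (D = P ∧ d = P) →
      levelTrace D d (hD.trans hLR) 𝔪 a = 0)
    {d : ℕ} (hd1 : 1 < d) (hdP : d ≠ P) :
    ∀ M : ℕ, M ∣ L → d ∣ M → signSum M d 𝔪 a R = 0 := by
  intro M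
  induction M using Nat.strong_induction_on with
  | _ M ih =>
    intro hML hdM
    haveI : NeZero M := ⟨fun h => NeZero.ne L (zero_dvd_iff.mp (h ▸ hML))⟩
    have h := hbal M d hML hdM hd1 fun h => hdP h.2
    rw [levelTrace_eq_sum (hL.squarefree_of_dvd hML) _ hdM,
      Finset.sum_eq_single_of_mem M (Nat.mem_divisors.mpr ⟨dvd_rfl, NeZero.ne M⟩) ?_,
      if_pos hdM, Nat.div_self (NeZero.pos M), Nat.divisors_one, Finset.card_singleton,
      Nat.cast_one, one_mul] at h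
    · exact h
    intro M' hM' hne
    split_ifs with hdM'
    swap
    · rfl
    rw [ih M' (lt_of_le_of_ne (Nat.divisor_le hM') hne)
      ((Nat.dvd_of_mem_divisors hM').trans hML) hdM', mul_zero]

omit [NeZero L] [NeZero R] in
/-- The divisors of `P * ∏ S` that are multiples of `P`. -/
theorem filter_divisors_mul_prod {S : Finset ℕ} (hP : P ≠ 0) (hS : ∀ p ∈ S, p.Prime) :
    (P * ∏ p ∈ S, p).divisors.filter (P ∣ ·) = S.powerset.image fun T => P * ∏ p ∈ T, p := by
  ext M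
  simp only [Finset.mem_filter, Finset.mem_image, Finset.mem_powerset, Nat.mem_divisors]
  constructor
  · rintro ⟨⟨hM, hne⟩, c, rfl⟩
    have hc : c ∣ ∏ p ∈ S, p := Nat.dvd_of_mul_dvd_mul_left (Nat.pos_of_ne_zero hP) hM
    refine ⟨c.primeFactors, ?_, ?_⟩
    · rw [← Nat.primeFactors_prod hS]
      exact Nat.primeFactors_mono hc (right_ne_zero_of_mul hne)
    · rw [Nat.prod_primeFactors_of_squarefree ((squarefree_prod_primes hS).squarefree_of_dvd hc)]
  · rintro ⟨T, hT, rfl⟩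
    exact ⟨⟨mul_dvd_mul_left P (Finset.prod_dvd_prod_of_subset _ _ _ hT),
      mul_ne_zero hP (Finset.prod_ne_zero_iff.mpr fun p hp => (hS p hp).ne_zero)⟩,
      dvd_mul_right _ _⟩

omit [NeZero L] [NeZero R] in
theorem injOn_mul_prod {S : Finset ℕ} (hP : P ≠ 0) (hS : ∀ p ∈ S, p.Prime) :
    Set.InjOn (fun T : Finset ℕ => P * ∏ p ∈ T, p) S.powerset := fun T hT T' hT' h => by
  have h' : (∏ p ∈ T, p) = ∏ p ∈ T', p := Nat.eq_of_mul_eq_mul_left (Nat.pos_of_ne_zero hP) h
  rw [← Nat.primeFactors_prod fun p hp => hS p (Finset.mem_powerset.mp hT hp),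
    ← Nat.primeFactors_prod fun p hp => hS p (Finset.mem_powerset.mp hT' hp), h']

/-- The sign sums at `P` in terms of the trace at level `P`. -/
theorem signSum_pow (hL : Squarefree L) (hLR : L ∣ R) (hP : P ≠ 0) (hP1 : 1 < P) (t : ℤ)
    (ht : signSum P P 𝔪 a R = t)
    (hbal : ∀ (D d : ℕ) [NeZero D] (hD : D ∣ L), d ∣ D → 1 < d → ¬ (D = P ∧ d = P) →
      levelTrace D d (hD.trans hLR) 𝔪 a = 0) :
    ∀ S : Finset ℕ, (∀ p ∈ S, p.Prime) → (P * ∏ p ∈ S, p) ∣ L →
      signSum (P * ∏ p ∈ S, p) P 𝔪 a R = (-2) ^ S.card * t := by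
  intro S
  induction S using Finset.strongInduction with
  | _ S ih =>
    intro hS hSL
    rcases S.eq_empty_or_nonempty with rfl | hne
    · simp [ht]
    set D := P * ∏ p ∈ S, p with hD
    haveI : NeZero D := ⟨fun h => NeZero.ne L (zero_dvd_iff.mp (h ▸ hSL))⟩
    have hDne : D ≠ P := fun h => by
      obtain ⟨p, hp⟩ := hne
      have h1 : (∏ p ∈ S, p) = 1 := by
        refine Nat.eq_of_mul_eq_mul_left (Nat.pos_of_ne_zero hP) ?_
        rw [mul_one, ← hD, h]
      exact (hS p hp).ne_one (Nat.eq_one_of_dvd_one (h1 ▸ Finset.dvd_prod_of_mem _ hp))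
    have h := hbal D P hSL (dvd_mul_right _ _) hP1 fun h => hDne h.1
    rw [levelTrace_eq_sum (hL.squarefree_of_dvd hSL) _ (dvd_mul_right _ _), ← Finset.sum_filter,
      filter_divisors_mul_prod hP hS, Finset.sum_image (injOn_mul_prod hP hS)] at h
    have hterm : ∀ T ∈ S.powerset,
        (((D / (P * ∏ p ∈ T, p)).divisors.card : ℕ) : ℤ) * signSum (P * ∏ p ∈ T, p) P 𝔪 a R
          = (2 : ℤ) ^ S.card * ((-1) ^ T.card * t)
            + if T = S then signSum D P 𝔪 a R - (-2) ^ S.card * t else 0 := by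
      intro T hT
      rw [Finset.mem_powerset] at hT
      have hdiv : D / (P * ∏ p ∈ T, p) = ∏ p ∈ S \ T, p := by
        rw [hD, ← Finset.prod_sdiff hT, mul_comm (∏ p ∈ S \ T, p), ← mul_assoc,
          Nat.mul_div_cancel_left _ (Nat.pos_of_ne_zero (mul_ne_zero hP
            (Finset.prod_ne_zero_iff.mpr fun p hp => (hS p (hT hp)).ne_zero)))]
      rw [hdiv, card_divisors_prod fun p hp => hS p (Finset.sdiff_subset hp)]
      split_ifs with hTS
      · subst hTS
        rw [Finset.sdiff_self, Finset.card_empty, neg_pow (2 : ℤ), hD]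
        push_cast
        ring
      · rw [ih T (hT.ssubset_of_ne hTS) (fun p hp => hS p (hT hp))
          (dvd_trans (mul_dvd_mul_left P (Finset.prod_dvd_prod_of_subset _ _ _ hT)) hSL),
          ← Finset.card_sdiff_add_card_eq_card hT, pow_add, neg_pow (2 : ℤ), add_zero]
        push_cast
        ring
    rw [Finset.sum_congr rfl hterm, Finset.sum_add_distrib, Finset.sum_ite_eq',
      if_pos (Finset.mem_powerset.mpr subset_rfl), ← Finset.mul_sum, ← Finset.sum_mul,
      Finset.sum_powerset_neg_one_pow_card_of_nonempty hne, zero_mul, mul_zero, zero_add] at h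
    exact sub_eq_zero.mp h

/-- The count of a sign pattern as a Fourier sum of sign sums. -/
theorem card_pattern_eq (I : Finset ℕ) (hI : ∀ q ∈ I, q.Prime) (hIL : ∏ q ∈ I, q = L)
    (s : ℕ → ℤ) (hs : ∀ q ∈ I, s q = 1 ∨ s q = -1) :
    (2 : ℤ) ^ I.card * (newformsIn L 𝔪 a R s).ncard
      = ∑ T ∈ I.powerset, (∏ q ∈ T, s q) * signSum L (∏ q ∈ T, q) 𝔪 a R := by
  have hL : Squarefree L := hIL ▸ squarefree_prod_primes hI
  have hLpf : L.primeFactors = I := hIL ▸ Nat.primeFactors_prod hI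
  haveI : Fintype (sysNewforms L 𝔪 a R) := (finite_sysNewforms L 𝔪 a R).fintype
  have hkey : ∀ g : sysNewforms L 𝔪 a R,
      ∑ T ∈ I.powerset, (∏ q ∈ T, s q) * alSgn g.1 (∏ q ∈ T, q)
        = if g.1 ∈ newformsIn L 𝔪 a R s then (2 : ℤ) ^ I.card else 0 := by
    intro g
    set σ : ℕ → ℤ := fun q => if qCoeff g.1 q = -1 then 1 else -1 with hσ
    have h1 : ∀ T ∈ I.powerset, (∏ q ∈ T, s q) * alSgn g.1 (∏ q ∈ T, q)
        = ∏ q ∈ T, s q * σ q := fun T hT => by
      rw [alSgn, Nat.primeFactors_prod fun q hq => hI q (Finset.mem_powerset.mp hT hq),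
        Finset.prod_mul_distrib]
    rw [Finset.sum_congr rfl h1, ← Finset.prod_one_add]
    have hiff : ∀ q ∈ I, (qCoeff g.1 q = -(s q : ℂ) ↔ s q * σ q = 1) := fun q hq => by
      have hqL : q ∣ L := hIL ▸ Finset.dvd_prod_of_mem _ hq
      rcases sq_eq_one_iff.mp (Fermat.Agent.Newform.qCoeff_sq_eq_one_of_not_sq_dvd g.2.1 (hI q hq)
          hqL (not_sq_dvd_of_squarefree hL dvd_rfl (hI q hq))) with h | h <;>
        rcases hs q hq with h' | h' <;> simp [hσ, h, h'] <;> norm_num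
    split_ifs with hmem
    · refine Finset.prod_eq_pow_card fun q hq => ?_
      rw [(hiff q hq).mp (hmem.2.2 q (hLpf.symm ▸ hq))]; norm_num
    · obtain ⟨q, hq, hne⟩ : ∃ q ∈ I, qCoeff g.1 q ≠ -(s q : ℂ) := by
        by_contra hno
        push Not at hno
        exact hmem ⟨g.2.1, g.2.2, fun q hq => hno q (hLpf ▸ hq)⟩
      refine Finset.prod_eq_zero hq ?_
      rw [Ne, hiff q hq] at hne
      rcases hs q hq with h' | h' <;>
        · simp only [h', hσ] at hne ⊢
          split_ifs at hne ⊢ <;> simp_all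
  simp only [signSum, finsum_eq_sum_of_fintype, Finset.mul_sum]
  rw [Finset.sum_comm, Finset.sum_congr rfl fun g _ => hkey g, ← Finset.sum_filter,
    Finset.sum_const, nsmul_eq_mul, mul_comm ((2 : ℤ) ^ I.card)]
  congr 2
  rw [← Set.ncard_coe_finset, Set.ncard_image_of_injective _ Subtype.val_injective |>.symm]
  congr 1
  ext f
  simp only [Finset.coe_filter, Finset.mem_univ, true_and, Set.mem_image, Set.mem_setOf_eq]
  exact ⟨fun hf => ⟨⟨f, hf.1, hf.2.1⟩, hf, rfl⟩, fun ⟨_, hg, h⟩ => h ▸ hg⟩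

/-- Lower bound for the number of newforms of the major patterns from the traces. -/
theorem le_card_of_levelTrace (B Q : Finset ℕ) (hB : ∀ b ∈ B, b.Prime) (hQ : ∀ q ∈ Q, q.Prime)
    (hBQ : Disjoint B Q) (hBne : B.Nonempty)
    (𝔪 : Ideal (integralClosure ℤ ℂ)) (h𝔪 : 𝔪.IsMaximal)
    (a : ℕ → ℤ) (R : ℕ) (hR0 : R ≠ 0) (hR : (∏ p ∈ B, p) * ∏ q ∈ Q, q ∣ R)
    (h : ℕ)
    (hbal : ∀ (D d : ℕ) [NeZero D] (hD : D ∣ (∏ p ∈ B, p) * ∏ q ∈ Q, q), d ∣ D → 1 < d →
      ¬ (D = ∏ p ∈ B, p ∧ d = ∏ p ∈ B, p) → levelTrace D d (hD.trans hR) 𝔪 a = 0)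
    (hexc : ∀ [NeZero (∏ p ∈ B, p)],
      levelTrace (∏ p ∈ B, p) (∏ p ∈ B, p) ((dvd_mul_right _ _).trans hR) 𝔪 a ≤ -(h : ℤ))
    (s : ℕ → ℤ) (hs : ∀ q ∈ B ∪ Q, s q = 1 ∨ s q = -1)
    (hmajor : ∏ b ∈ B, s b = (-1) ^ (Q.card + 1)) :
    h ≤ 2 ^ (B.card - 1) *
      (newformsIn ((∏ p ∈ B, p) * ∏ q ∈ Q, q) 𝔪 a R s).ncard := by
  classical
  set P := ∏ p ∈ B, p with hPdef
  set L := P * ∏ q ∈ Q, q with hLdef
  have hI : ∀ q ∈ B ∪ Q, q.Prime := fun q hq => (Finset.mem_union.mp hq).elim (hB q) (hQ q)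
  have hIL : ∏ q ∈ B ∪ Q, q = L := Finset.prod_union hBQ
  have hP0 : P ≠ 0 := Finset.prod_ne_zero_iff.mpr fun p hp => (hB p hp).ne_zero
  haveI : NeZero P := ⟨hP0⟩
  haveI : NeZero R := ⟨hR0⟩
  haveI : NeZero L := ⟨fun h0 => hR0 (zero_dvd_iff.mp (h0 ▸ hR))⟩
  have hL : Squarefree L := hIL ▸ squarefree_prod_primes hI
  have hPL : P ∣ L := dvd_mul_right _ _
  have hP1 : 1 < P := by
    obtain ⟨b, hb⟩ := hBne
    exact (hB b hb).one_lt.trans_le
      (Nat.le_of_dvd (Nat.pos_of_ne_zero hP0) (Finset.dvd_prod_of_mem _ hb))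
  set t := signSum P P 𝔪 a R with ht
  have hth : t ≤ -(h : ℤ) := by
    refine le_trans (le_of_eq ?_) hexc
    rw [levelTrace_eq_sum (hL.squarefree_of_dvd hPL) _ dvd_rfl,
      Finset.sum_eq_single_of_mem P (Nat.mem_divisors.mpr ⟨dvd_rfl, hP0⟩), if_pos dvd_rfl,
      Nat.div_self (NeZero.pos P), Nat.divisors_one, Finset.card_singleton, Nat.cast_one, one_mul]
    intro M hM hne
    exact if_neg fun hPM => hne (Nat.dvd_antisymm (Nat.dvd_of_mem_divisors hM) hPM)
  have hpow := signSum_pow (𝔪 := 𝔪) (a := a) hL hR hP0 hP1 t ht.symm hbal Q hQ dvd_rfl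
  set n₀ := signSum L 1 𝔪 a R with hn₀
  have hcount : ∀ u : ℕ → ℤ, (∀ q ∈ B ∪ Q, u q = 1 ∨ u q = -1) →
      (2 : ℤ) ^ (B.card + Q.card) * (newformsIn L 𝔪 a R u).ncard
        = n₀ + (∏ b ∈ B, u b) * ((-2) ^ Q.card * t) := by
    intro u hu
    rw [← Finset.card_union_of_disjoint hBQ, card_pattern_eq (B ∪ Q) hI hIL u hu,
      Finset.sum_eq_add_of_mem (∅ : Finset ℕ) B (Finset.empty_mem_powerset _)
        (Finset.mem_powerset.mpr Finset.subset_union_left) hBne.ne_empty.symm]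
    · rw [Finset.prod_empty, Finset.prod_empty, one_mul, ← hn₀, ← hPdef, hpow]
    intro T hT hne
    rw [Finset.mem_powerset] at hT
    have hTp : ∀ p ∈ T, p.Prime := fun p hp => hI p (hT hp)
    rw [signSum_eq_zero (d := ∏ q ∈ T, q) hL hR hbal ?_ ?_ L dvd_rfl
      (hIL ▸ Finset.prod_dvd_prod_of_subset _ _ _ hT), mul_zero]
    · obtain ⟨p, hp⟩ := Finset.nonempty_iff_ne_empty.mpr hne.1
      exact (hTp p hp).one_lt.trans_le (Nat.le_of_dvd
        (Nat.pos_of_ne_zero (Finset.prod_ne_zero_iff.mpr fun q hq => (hTp q hq).ne_zero))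
        (Finset.dvd_prod_of_mem _ hp))
    · intro heq
      refine hne.2 ?_
      rw [← Nat.primeFactors_prod hTp, heq, Nat.primeFactors_prod hB]
  obtain ⟨b₀, hb₀⟩ := hBne
  have hminor := hcount (Function.update s b₀ (-s b₀)) fun q hq => by
    rcases eq_or_ne q b₀ with rfl | hqb
    · rw [Function.update_self]; rcases hs q hq with h' | h' <;> simp [h']
    · rw [Function.update_of_ne hqb]; exact hs q hq
  have hmaj := hcount s hs
  have hprod : ∏ b ∈ B, Function.update s b₀ (-s b₀) b = -∏ b ∈ B, s b := by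
    rw [Finset.prod_update_of_mem hb₀, ← Finset.mul_prod_erase B s hb₀, Finset.sdiff_singleton_eq_erase,
      neg_mul]
  have hsign : ∀ k : ℕ, (-1 : ℤ) ^ (k + 1) * (-2) ^ k = -(2 ^ k) := fun k => by
    rw [neg_pow (2 : ℤ), pow_succ, ← mul_assoc, mul_right_comm _ _ ((-1 : ℤ) ^ k), ← mul_pow]
    norm_num
  rw [hprod, hmajor, neg_mul, ← mul_assoc, hsign, neg_mul, neg_neg] at hminor
  rw [hmajor, ← mul_assoc, hsign, neg_mul] at hmaj
  have hnn : (0 : ℤ) ≤ n₀ + 2 ^ Q.card * t := by rw [← hminor]; positivity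
  have hBc : B.card = B.card - 1 + 1 := (Nat.succ_pred_eq_of_pos (Finset.card_pos.mpr ⟨b₀, hb₀⟩)).symm
  have hkey : (2 : ℤ) ^ Q.card * (2 * h)
      ≤ 2 ^ Q.card * (2 * (2 ^ (B.card - 1) * (newformsIn L 𝔪 a R s).ncard)) := by
    calc (2 : ℤ) ^ Q.card * (2 * h) ≤ 2 ^ Q.card * (2 * -t) := by
          have := pow_pos (two_pos : (0 : ℤ) < 2) Q.card
          nlinarith
      _ ≤ n₀ + -(2 ^ Q.card * t) := by linarith
      _ = _ := by rw [← hmaj, hBc, pow_add, pow_add, Nat.add_sub_cancel, pow_one]; ring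
  have := le_of_mul_le_mul_left (le_of_mul_le_mul_left hkey (pow_pos two_pos _)) two_pos
  exact_mod_cast this

end Fermat.Agent.Residual

end
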