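/-
The Hesse pencil near its rational cusp `(3 c₆ : c₄)` at a prime of multiplicative reduction:
exact divisibility of the quartic and of the invariants.
-/
import Fermat.Agent.Residual.LocalForms
import Mathlib.Data.ZMod.Basic
import Mathlib.Data.Int.ModEq
import Mathlib.Algebra.Ring.Int.Parity
import Mathlib.RingTheory.Coprime.Lemmas
import Mathlib.Tactic

set_option autoImplicit false

namespace Fermat.Agent.Residual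

theorem hesseD_congr {n : ℕ} {A B l m l' m' : ℤ} (hl : (n : ℤ) ∣ l - l') (hm : (n : ℤ) ∣ m - m') :
    (n : ℤ) ∣ hesseD A B l m - hesseD A B l' m' := by
  rw [← ZMod.intCast_zmod_eq_zero_iff_dvd, Int.cast_sub, sub_eq_zero] at hl hm ⊢
  simp only [← eq_intCast (Int.castRingHom (ZMod n)), map_hesseD] at hl hm ⊢
  rw [hl, hm]

theorem hesseC4_congr {n : ℕ} {A B l m l' m' : ℤ} (hl : (n : ℤ) ∣ l - l') (hm : (n : ℤ) ∣ m - m') :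
    (n : ℤ) ∣ hesseC4 A B l m - hesseC4 A B l' m' := by
  rw [← ZMod.intCast_zmod_eq_zero_iff_dvd, Int.cast_sub, sub_eq_zero] at hl hm ⊢
  simp only [← eq_intCast (Int.castRingHom (ZMod n)), map_hesseC4] at hl hm ⊢
  rw [hl, hm]

theorem hesseC6_congr {n : ℕ} {A B l m l' m' : ℤ} (hl : (n : ℤ) ∣ l - l') (hm : (n : ℤ) ∣ m - m') :
    (n : ℤ) ∣ hesseC6 A B l m - hesseC6 A B l' m' := by
  rw [← ZMod.intCast_zmod_eq_zero_iff_dvd, Int.cast_sub, sub_eq_zero] at hl hm ⊢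
  simp only [← eq_intCast (Int.castRingHom (ZMod n)), map_hesseC6] at hl hm ⊢
  rw [hl, hm]

section expansions

variable {A B e : ℤ}

theorem hesseD_cusp (h : A ^ 3 = B ^ 2 + e) (z : ℤ) :
    hesseD A B (3 * B + z) A =
      -84 * B ^ 2 * e - 3 * e ^ 2 + z * (64 * B ^ 3 - 44 * B * e) + z ^ 2 * (48 * B ^ 2 - 6 * e)
        + 12 * B * z ^ 3 + z ^ 4 := by
  unfold hesseD; grind

theorem hesseC4_cusp (h : A ^ 3 = B ^ 2 + e) (z : ℤ) :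
    hesseC4 A B (3 * B + z) A =
      A * (256 * B ^ 4 + 64 * B ^ 2 * e - 3 * e ^ 2 + z * (256 * B ^ 3 + 40 * B * e)
        + z ^ 2 * (96 * B ^ 2 + 6 * e) + 16 * B * z ^ 3 + z ^ 4) := by
  unfold hesseC4; grind

theorem hesseC6_cusp (h : A ^ 3 = B ^ 2 + e) (z : ℤ) :
    hesseC6 A B (3 * B + z) A =
      4096 * B ^ 7 + 3584 * B ^ 5 * e + 280 * B ^ 3 * e ^ 2 + 63 * B * e ^ 3
        + z * (6144 * B ^ 6 + 4800 * B ^ 4 * e + 132 * B ^ 2 * e ^ 2 + 18 * e ^ 3)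
        + z ^ 2 * (3840 * B ^ 5 + 2640 * B ^ 3 * e + 15 * B * e ^ 2)
        + z ^ 3 * (1280 * B ^ 4 + 740 * B ^ 2 * e)
        + z ^ 4 * (240 * B ^ 3 + 105 * B * e)
        + z ^ 5 * (24 * B ^ 2 + 6 * e) + z ^ 6 * B := by
  unfold hesseC6; grind

end expansions

/-- The cusp at an odd prime: `q` divides the quartic exactly once and neither invariant. -/
theorem cusp_odd {q : ℕ} (hq : q.Prime) (hq2 : q ≠ 2) {A B a b : ℤ}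
    (he : (q : ℤ) ^ 2 ∣ A ^ 3 - B ^ 2) (hA : ¬ (q : ℤ) ∣ A) (hB : ¬ (q : ℤ) ∣ B) {N : ℕ} (hN : 2 ≤ N)
    (ha : (q : ℤ) ^ N ∣ a - (3 * B + q)) (hb : (q : ℤ) ^ N ∣ b - A) :
    (q : ℤ) ∣ hesseD A B a b ∧ ¬ (q : ℤ) ^ 2 ∣ hesseD A B a b ∧
      ¬ (q : ℤ) ∣ hesseC4 A B a b ∧ ¬ (q : ℤ) ∣ hesseC6 A B a b := by
  have hp : Prime (q : ℤ) := Nat.prime_iff_prime_int.1 hq
  obtain ⟨k, hk⟩ := he
  have hA3 : A ^ 3 = B ^ 2 + (q : ℤ) ^ 2 * k := by linear_combination hk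
  have h2 : ¬ (q : ℤ) ∣ 2 := fun hd => hq2 <| (Nat.prime_dvd_prime_iff_eq hq Nat.prime_two).1
    (Int.natCast_dvd_natCast.1 (by simpa using hd))
  have hpow : ∀ j, ¬ (q : ℤ) ∣ 2 ^ j := fun j hd => h2 (hp.dvd_of_dvd_pow hd)
  have ha2 : ((q ^ 2 : ℕ) : ℤ) ∣ a - (3 * B + q) := by
    push_cast; exact dvd_trans (pow_dvd_pow _ hN) ha
  have hb2 : ((q ^ 2 : ℕ) : ℤ) ∣ b - A := by
    push_cast; exact dvd_trans (pow_dvd_pow _ hN) hb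
  have hq1 : (q : ℤ) ∣ ((q ^ 2 : ℕ) : ℤ) := by push_cast; exact dvd_pow_self _ two_ne_zero
  obtain ⟨u, hu⟩ := hesseD_congr (A := A) (B := B) ha2 hb2
  obtain ⟨v, hv⟩ := dvd_trans hq1 (hesseC4_congr (A := A) (B := B) ha2 hb2)
  obtain ⟨w, hw⟩ := dvd_trans hq1 (hesseC6_congr (A := A) (B := B) ha2 hb2)
  push_cast at hu
  rw [hesseD_cusp hA3] at hu
  rw [hesseC4_cusp hA3] at hv
  rw [hesseC6_cusp hA3] at hw
  obtain ⟨r, hr⟩ : ∃ r, hesseD A B a b = (q : ℤ) * (2 ^ 6 * B ^ 3 + (q : ℤ) * r) := by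
    refine ⟨u - 84 * B ^ 2 * k - 3 * (q : ℤ) ^ 2 * k ^ 2 - 44 * B * q * k + (48 * B ^ 2 - 6 *
      (q : ℤ) ^ 2 * k) + 12 * B * q + (q : ℤ) ^ 2, ?_⟩
    linear_combination hu
  obtain ⟨r4, hr4⟩ : ∃ r, hesseC4 A B a b = A * (2 ^ 8 * B ^ 4) + (q : ℤ) * r := by
    refine ⟨v + A * (64 * B ^ 2 * q * k - 3 * (q : ℤ) ^ 3 * k ^ 2 + (256 * B ^ 3 + 40 * B *
      ((q : ℤ) ^ 2 * k)) + q * (96 * B ^ 2 + 6 * ((q : ℤ) ^ 2 * k)) + 16 * B * (q : ℤ) ^ 2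
      + (q : ℤ) ^ 3), ?_⟩
    linear_combination hv
  obtain ⟨r6, hr6⟩ : ∃ r, hesseC6 A B a b = 2 ^ 12 * B ^ 7 + (q : ℤ) * r := by
    refine ⟨w + (3584 * B ^ 5 * (q * k) + 280 * B ^ 3 * ((q : ℤ) ^ 3 * k ^ 2) + 63 * B *
      ((q : ℤ) ^ 5 * k ^ 3)
      + (6144 * B ^ 6 + 4800 * B ^ 4 * ((q : ℤ) ^ 2 * k) + 132 * B ^ 2 * ((q : ℤ) ^ 2 * k) ^ 2
        + 18 * ((q : ℤ) ^ 2 * k) ^ 3)
      + q * (3840 * B ^ 5 + 2640 * B ^ 3 * ((q : ℤ) ^ 2 * k) + 15 * B * ((q : ℤ) ^ 2 * k) ^ 2)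
      + (q : ℤ) ^ 2 * (1280 * B ^ 4 + 740 * B ^ 2 * ((q : ℤ) ^ 2 * k))
      + (q : ℤ) ^ 3 * (240 * B ^ 3 + 105 * B * ((q : ℤ) ^ 2 * k))
      + (q : ℤ) ^ 4 * (24 * B ^ 2 + 6 * ((q : ℤ) ^ 2 * k)) + (q : ℤ) ^ 5 * B), ?_⟩
    linear_combination hw
  refine ⟨⟨_, hr⟩, fun hd => ?_, fun hd => ?_, fun hd => ?_⟩
  · rw [hr, pow_two] at hd
    have h := (Int.mul_dvd_mul_iff_left hp.ne_zero).1 hd
    have h' := (dvd_add_left (dvd_mul_right _ r)).1 h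
    exact (hp.dvd_or_dvd h').elim (hpow 6) (fun h => hB (hp.dvd_of_dvd_pow h))
  · rw [hr4, dvd_add_left (dvd_mul_right _ _)] at hd
    rcases hp.dvd_or_dvd hd with h | h
    · exact hA h
    · exact (hp.dvd_or_dvd h).elim (hpow 8) (fun h => hB (hp.dvd_of_dvd_pow h))
  · rw [hr6, dvd_add_left (dvd_mul_right _ _)] at hd
    exact (hp.dvd_or_dvd hd).elim (hpow 12) (fun h => hB (hp.dvd_of_dvd_pow h))

/-- The cusp at `2`: `2⁹ ∥ D`, `2⁸ ∥ c₄` and `c₆ = 2¹² k` with `k ≡ 3 (mod 4)`. -/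
theorem cusp_two {A B a b : ℤ} (he : (2 : ℤ) ^ 8 ∣ A ^ 3 - B ^ 2) (hA : Odd A) (hB : B % 4 = 3)
    {N : ℕ} (hN : 14 ≤ N)
    (ha : (2 : ℤ) ^ N ∣ a - (3 * B + 8)) (hb : (2 : ℤ) ^ N ∣ b - A) :
    ((2 : ℤ) ^ 9 ∣ hesseD A B a b ∧ ¬ (2 : ℤ) ^ 10 ∣ hesseD A B a b) ∧
      (∃ k, hesseC4 A B a b = 2 ^ 8 * k ∧ Odd k) ∧
      ∃ k, hesseC6 A B a b = 2 ^ 12 * k ∧ k % 4 = 3 := by
  obtain ⟨k, hk⟩ := he
  have hA3 : A ^ 3 = B ^ 2 + 2 ^ 8 * k := by linear_combination hk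
  have ha2 : ((2 ^ 14 : ℕ) : ℤ) ∣ a - (3 * B + 8) := by
    push_cast; exact dvd_trans (pow_dvd_pow _ hN) ha
  have hb2 : ((2 ^ 14 : ℕ) : ℤ) ∣ b - A := by
    push_cast; exact dvd_trans (pow_dvd_pow _ hN) hb
  obtain ⟨u, hu⟩ := hesseD_congr (A := A) (B := B) ha2 hb2
  obtain ⟨v, hv⟩ := hesseC4_congr (A := A) (B := B) ha2 hb2
  obtain ⟨w, hw⟩ := hesseC6_congr (A := A) (B := B) ha2 hb2
  rw [hesseD_cusp hA3] at hu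
  rw [hesseC4_cusp hA3] at hv
  rw [hesseC6_cusp hA3] at hw
  push_cast at hu hv hw
  have hBo : Odd B := Int.odd_iff.2 (by omega)
  obtain ⟨r, hr⟩ : ∃ r, hesseD A B a b = 2 ^ 9 * (B ^ 3 + 2 * r) := by
    refine ⟨16 * u - 21 * B ^ 2 * k - 3 * 64 * k ^ 2 - 88 * B * k + (3 * B ^ 2 - 96 * k)
      + 6 * B + 4, ?_⟩
    linear_combination hu
  obtain ⟨r4, hr4⟩ : ∃ r, hesseC4 A B a b = 2 ^ 8 * (A * B ^ 4 + 2 * r) := by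
    refine ⟨32 * v + A * (32 * B ^ 2 * k - 384 * k ^ 2 + (4 * B ^ 3 + 160 * B * k)
      + (12 * B ^ 2 + 192 * k) + 16 * B + 8), ?_⟩
    linear_combination hv
  obtain ⟨r6, hr6⟩ : ∃ r, hesseC6 A B a b = 2 ^ 12 * (B ^ 7 + 4 * r) := by
    refine ⟨w + (56 * B ^ 5 * k + 1120 * B ^ 3 * k ^ 2 + 64512 * B * k ^ 3
      + (3 * B ^ 6 + 600 * B ^ 4 * k + 4224 * B ^ 2 * k ^ 2 + 147456 * k ^ 3)
      + (15 * B ^ 5 + 2640 * B ^ 3 * k + 3840 * B * k ^ 2)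
      + (40 * B ^ 4 + 5920 * B ^ 2 * k)
      + (60 * B ^ 3 + 6720 * B * k)
      + (48 * B ^ 2 + 3072 * k) + 16 * B), ?_⟩
    linear_combination hw
  refine ⟨⟨⟨_, hr⟩, fun hd => ?_⟩, ⟨_, hr4, ?_⟩, _, hr6, ?_⟩
  · rw [hr, pow_succ (2 : ℤ) 9] at hd
    exact Int.not_even_iff_odd.2 ((hBo.pow (n := 3)).add_even (even_two_mul r))
      (even_iff_two_dvd.2 ((Int.mul_dvd_mul_iff_left (by norm_num)).1 hd))
  · exact (hA.mul hBo.pow).add_even (even_two_mul r4)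
  · rw [Int.add_mul_emod_self_left]
    obtain ⟨j, rfl⟩ : ∃ j, B = 4 * j - 1 := ⟨(B + 1) / 4, by omega⟩
    have : ((4 * j - 1) ^ 7 : ℤ) ≡ (-1) ^ 7 [ZMOD 4] :=
      (Int.modEq_iff_dvd.2 ⟨-j, by ring⟩).pow 7
    rw [this]; rfl

end Fermat.Agent.Residual
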