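import Fermat.Agent.Residual.SelDefs
import Mathlib.Tactic.FinCases
import Mathlib.Tactic.Group
import Mathlib.Tactic.LinearCombination

/-!
# Elementary properties of cocycles in the plane of even vectors

Facts about the permutation action on three letters, the coordinate of a cocycle at a fixed
root, and the criterion: a cocycle vanishing on the kernel of the permutation action is a
coboundary.
-/

set_option autoImplicit false

namespace Fermat.Agent.Residual.Sel

local notation "ℚbar" => AlgebraicClosure ℚ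
local notation "Γℚ" => AlgebraicClosure ℚ ≃ₐ[ℚ] AlgebraicClosure ℚ

theorem vec_add_self (v : RootVec) : v + v = 0 := funext fun i => CharTwo.add_self_eq_zero (v i)

@[simp] theorem permVec_one (v : RootVec) : permVec 1 v = v := rfl

theorem permVec_mul (σ τ : Equiv.Perm (Fin 3)) (v : RootVec) :
    permVec (σ * τ) v = permVec σ (permVec τ v) := rfl

theorem permVec_add (σ : Equiv.Perm (Fin 3)) (v w : RootVec) :
    permVec σ (v + w) = permVec σ v + permVec σ w := rfl

@[simp] theorem permVec_zero (σ : Equiv.Perm (Fin 3)) : permVec σ 0 = 0 := rfl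

theorem sum_permVec (σ : Equiv.Perm (Fin 3)) (v : RootVec) :
    ∑ i, permVec σ v i = ∑ i, v i :=
  Equiv.sum_comp σ⁻¹ v

theorem permVec_apply_fixed {σ : Equiv.Perm (Fin 3)} {i : Fin 3} (h : σ i = i) (v : RootVec) :
    permVec σ v i = v i := by
  show v (σ⁻¹ i) = v i
  rw [Equiv.Perm.inv_eq_iff_eq.2 h.symm]

theorem exists_fixed_of_involution : ∀ σ : Equiv.Perm (Fin 3), σ * σ = 1 → σ ≠ 1 →
    ∃ i, σ i = i ∧ ∀ j, σ j = j → j = i := by
  decide

theorem fixed_unique_of_ne_one : ∀ σ : Equiv.Perm (Fin 3), σ ≠ 1 → ∀ i j : Fin 3, σ i = i →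
    σ j = j → i = j := by
  decide

theorem involution_of_fixed : ∀ σ : Equiv.Perm (Fin 3), ∀ i : Fin 3, σ i = i → σ * σ = 1 := by
  decide

theorem fixed_of_commute : ∀ σ τ : Equiv.Perm (Fin 3), ∀ i : Fin 3, σ ≠ 1 → σ i = i →
    σ * τ = τ * σ → τ i = i := by
  decide

theorem eq_zero_of_two_fixed : ∀ σ τ : Equiv.Perm (Fin 3), ∀ v : RootVec, (∑ i, v i = 0) →
    σ * σ = 1 → τ * τ = 1 → σ ≠ 1 → τ ≠ 1 → σ ≠ τ →
    permVec σ v = v → permVec τ v = v → v = 0 := by
  decide

theorem permVec_eq_self_of_fixed : ∀ σ : Equiv.Perm (Fin 3), ∀ v : RootVec, ∀ i : Fin 3,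
    (∑ j, v j = 0) → σ i = i → v i = 0 → permVec σ v = v := by
  decide

theorem finRotate_normal : ∀ σ : Equiv.Perm (Fin 3),
    (σ * finRotate 3 = finRotate 3 * σ ∧
      σ * (finRotate 3 * finRotate 3) = finRotate 3 * finRotate 3 * σ) ∨
    (σ * finRotate 3 = finRotate 3 * finRotate 3 * σ ∧
      σ * (finRotate 3 * finRotate 3) = finRotate 3 * σ) := by
  decide

theorem sum_rotations : ∀ v : RootVec, (∑ i, v i = 0) →
    v + permVec (finRotate 3) v + permVec (finRotate 3 * finRotate 3) v = 0 := by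
  decide

set_option synthInstance.maxSize 1000 in
theorem eq_zero_of_two_coords : ∀ (v : RootVec) (i j : Fin 3), (∑ k, v k = 0) → j ≠ i → v i = 0 →
    v j = 0 → v = 0 := by
  decide

variable {π : Γℚ →* Equiv.Perm (Fin 3)} {x : Γℚ → RootVec}

theorem IsCocycle.map_one (hx : IsCocycle π x) : x 1 = 0 := by
  have h := hx.map_mul 1 1
  rw [one_mul, _root_.map_one, permVec_one, vec_add_self] at h
  exact h

theorem IsCocycle.map_mul_of_ker (hx : IsCocycle π x) {g : Γℚ} (hg : π g = 1) (h : Γℚ) :
    x (g * h) = x g + x h := by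
  rw [hx.map_mul, hg, permVec_one]

/-- On the kernel of the permutation action a cocycle commutes with conjugation. -/
theorem IsCocycle.map_conj (hx : IsCocycle π x) {k : Γℚ} (hk : π k = 1) (g : Γℚ) :
    x (g * k * g⁻¹) = permVec (π g) (x k) := by
  have hk' : π (g * k * g⁻¹) = 1 := by rw [_root_.map_mul, _root_.map_mul, hk, mul_one, ← _root_.map_mul,
    mul_inv_cancel, _root_.map_one]
  have h := hx.map_mul_of_ker hk' g
  rw [inv_mul_cancel_right, hx.map_mul] at h
  calc x (g * k * g⁻¹) = x (g * k * g⁻¹) + x g + x g := by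
        rw [add_assoc, vec_add_self, add_zero]
    _ = permVec (π g) (x k) := by rw [← h, add_comm (x g), add_assoc, vec_add_self, add_zero]

theorem IsCocycle.apply_mul_of_fixed (hx : IsCocycle π x) {g : Γℚ} {i : Fin 3} (hg : π g i = i)
    (h : Γℚ) : x (g * h) i = x g i + x h i := by
  rw [hx.map_mul, Pi.add_apply, permVec_apply_fixed hg]

theorem IsCocycle.apply_pow_of_fixed (hx : IsCocycle π x) {g : Γℚ} {i : Fin 3} (hg : π g i = i) :
    ∀ n : ℕ, x (g ^ n) i = (n : ZMod 2) * x g i
  | 0 => by simp [hx.map_one]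
  | n + 1 => by
    rw [pow_succ', hx.apply_mul_of_fixed hg, hx.apply_pow_of_fixed hg n]
    push_cast
    ring

/-- A cocycle vanishing on `g⁻¹ * h` takes the same value at `g` and `h`. -/
theorem IsCocycle.eq_of_inv_mul (hx : IsCocycle π x) {g h : Γℚ} (hgh : x (g⁻¹ * h) = 0) :
    x g = x h := by
  conv_rhs => rw [← mul_inv_cancel_left g h, hx.map_mul, hgh, permVec_zero, add_zero]

/-- Coboundaries are cocycles vanishing on the kernel of the permutation action. -/
theorem IsCoboundary.eq_zero_of_ker (hx : IsCoboundary π x) {g : Γℚ} (hg : π g = 1) : x g = 0 := by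
  obtain ⟨v, -, hv⟩ := hx
  rw [hv, hg, permVec_one, vec_add_self]

/-- A cocycle vanishing on the kernel of a surjective permutation action is a coboundary. -/
theorem IsCocycle.isCoboundary_of_ker (hπ : Function.Surjective π) (hx : IsCocycle π x)
    (h0 : ∀ g, π g = 1 → x g = 0) : IsCoboundary π x := by
  obtain ⟨c, hc⟩ := hπ (finRotate 3)
  have heq : ∀ g h, π g = π h → x g = x h := fun g h hgh =>
    hx.eq_of_inv_mul (h0 _ (by rw [_root_.map_mul, map_inv, hgh, inv_mul_cancel]))
  refine ⟨x c + x (c * c), ?_, fun g => ?_⟩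
  · simp [Finset.sum_add_distrib, hx.sum_eq]
  have hrot := sum_rotations (x g) (hx.sum_eq g)
  have hcg := hx.map_mul c g
  have hccg := hx.map_mul (c * c) g
  rw [_root_.map_mul, hc] at hccg
  rw [hc] at hcg
  have hgc := hx.map_mul g c
  have hgcc := hx.map_mul g (c * c)
  -- the two orders of multiplication give the same pair of values
  have hpair : x (g * c) + x (g * (c * c)) = x (c * g) + x (c * c * g) := by
    rcases finRotate_normal (π g) with ⟨h1, h2⟩ | ⟨h1, h2⟩
    · rw [heq (g * c) (c * g) (by simp only [_root_.map_mul, hc]; exact h1),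
        heq (g * (c * c)) (c * c * g) (by simp only [_root_.map_mul, hc]; exact h2)]
    · rw [heq (g * c) (c * c * g) (by simp only [_root_.map_mul, hc]; exact h1),
        heq (g * (c * c)) (c * g) (by simp only [_root_.map_mul, hc]; exact h2), add_comm]
  rw [hgc, hgcc, hcg, hccg] at hpair
  rw [permVec_add]
  funext i
  have hp := congrFun hpair i
  have hr := congrFun hrot i
  simp only [Pi.add_apply, Pi.zero_apply] at hp hr ⊢
  have h2 : ∀ a : ZMod 2, a + a = 0 := CharTwo.add_self_eq_zero
  linear_combination hp + hr - (h2 (x g i)) - h2 (permVec (π g) (x c) i) -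
    h2 (permVec (π g) (x (c * c)) i)

end Fermat.Agent.Residual.Sel
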