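import Fermat.Prelude.Def_EllipticCurve_FrobeniusTrace
import Fermat.Agent.Galois.QbarInstances
import Mathlib.Data.ZMod.Basic
import Mathlib.GroupTheory.Perm.Fin
import Mathlib.FieldTheory.Galois.Basic

/-!
# Selmer cocycles for the plane of even vectors on three roots

`π : Γℚ →* Perm (Fin 3)` is the action on the roots of the cubic of a curve, and the module is
the plane of vectors `v : Fin 3 → ZMod 2` with `∑ v i = 0` (the points of order dividing `2`).
A cocycle has line type at `ℓ` if, at every place over `ℓ`, its coordinate at each root fixed by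
the decomposition group vanishes there (it then comes from the line fixed by that group).
-/

set_option autoImplicit false

namespace Fermat.Agent.Residual.Sel

local notation "ℚbar" => AlgebraicClosure ℚ
local notation "Γℚ" => AlgebraicClosure ℚ ≃ₐ[ℚ] AlgebraicClosure ℚ

/-- Vectors indexed by the three roots. -/
abbrev RootVec : Type := Fin 3 → ZMod 2

/-- The action of a permutation of the roots on vectors. -/
def permVec (σ : Equiv.Perm (Fin 3)) (v : RootVec) : RootVec := fun i => v (σ⁻¹ i)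

/-- A continuous cocycle with values in the even vectors. -/
structure IsCocycle (π : Γℚ →* Equiv.Perm (Fin 3)) (x : Γℚ → RootVec) : Prop where
  sum_eq : ∀ g, ∑ i, x g i = 0
  map_mul : ∀ g h, x (g * h) = x g + permVec (π g) (x h)
  level : ∃ L : IntermediateField ℚ ℚbar, FiniteDimensional ℚ L ∧
    ∀ g, ∀ h ∈ L.fixingSubgroup, x (g * h) = x g

/-- A cocycle is a coboundary. -/
def IsCoboundary (π : Γℚ →* Equiv.Perm (Fin 3)) (x : Γℚ → RootVec) : Prop :=
  ∃ v : RootVec, (∑ i, v i = 0) ∧ ∀ g, x g = permVec (π g) v + v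

/-- A cocycle vanishes on the inertia groups over `ℓ`. -/
def UnramifiedAt (x : Γℚ → RootVec) (ℓ : ℕ) : Prop :=
  ∀ A : ValuationSubring ℚbar, A.LiesOverPrime ℓ → ∀ g ∈ A.inertiaSubgroupIn ℚ, x g = 0

/-- A cocycle comes locally from the line fixed by the decomposition group. -/
def LineTypeAt (π : Γℚ →* Equiv.Perm (Fin 3)) (x : Γℚ → RootVec) (ℓ : ℕ) : Prop :=
  ∀ A : ValuationSubring ℚbar, A.LiesOverPrime ℓ → ∀ i : Fin 3,
    (∀ g ∈ A.decompositionSubgroup ℚ, π g i = i) →
    ∀ g ∈ A.decompositionSubgroup ℚ, x g i = 0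

/-- The Selmer cocycles: unramified outside `B ∪ Q`, of line type on `B ∪ Q`. -/
structure IsSel (π : Γℚ →* Equiv.Perm (Fin 3)) (B Q : Finset ℕ) (x : Γℚ → RootVec) : Prop where
  cocycle : IsCocycle π x
  unramified : ∀ ℓ : ℕ, ℓ.Prime → ℓ ∉ B → ℓ ∉ Q → UnramifiedAt x ℓ
  lineType : ∀ ℓ : ℕ, ℓ.Prime → ℓ ∈ B ∨ ℓ ∈ Q → LineTypeAt π x ℓ

/-- Every Selmer cocycle is a coboundary. -/
def SelTrivial (π : Γℚ →* Equiv.Perm (Fin 3)) (B Q : Finset ℕ) : Prop :=
  ∀ x, IsSel π B Q x → IsCoboundary π x

end Fermat.Agent.Residual.Sel
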