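import Fermat.Agent.Residual.SelCocycle
import Fermat.Agent.MW.WeakUnramified

/-!
# Finiteness of the Selmer cocycles, and the decomposition group at an unramified prime

There are only finitely many cocycles unramified outside a finite set; at a prime where `π` is
unramified and a Frobenius element acts as a transposition, the whole decomposition group fixes
the root fixed by that transposition.
-/

set_option autoImplicit false

namespace Fermat.Agent.Residual.Sel

local notation "ℚbar" => AlgebraicClosure ℚ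
local notation "Γℚ" => AlgebraicClosure ℚ ≃ₐ[ℚ] AlgebraicClosure ℚ

variable {π : Γℚ →* Equiv.Perm (Fin 3)}

/-- There are only finitely many cocycles for `π` unramified outside `B`. -/
theorem finite_unramified_cocycles (B : Finset ℕ)
    (hlev : ∃ L : IntermediateField ℚ ℚbar, FiniteDimensional ℚ L ∧
      ∀ g ∈ L.fixingSubgroup, π g = 1)
    (hunr : ∀ ℓ : ℕ, ℓ.Prime → ℓ ∉ B → ∀ A : ValuationSubring ℚbar, A.LiesOverPrime ℓ →
      ∀ g ∈ A.inertiaSubgroupIn ℚ, π g = 1) :
    {x : Γℚ → RootVec | IsCocycle π x ∧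
      ∀ ℓ : ℕ, ℓ.Prime → ℓ ∉ B → UnramifiedAt x ℓ}.Finite := by
  obtain ⟨U, hUo, hU⟩ := MW.exists_isOpen_le_of_isUnramifiedOutside B
    (Nat.card (Equiv.Perm (Fin 3) × RootVec))
  obtain ⟨Lπ, hLπ, hπL⟩ := hlev
  have : Finite (Γℚ ⧸ U) := U.quotient_finite_of_isOpen hUo
  refine Set.Finite.of_finite_image (f := fun x (q : Γℚ ⧸ U) => x q.out) (Set.toFinite _) ?_
  -- every cocycle of the set is constant on the cosets of `U`
  have key : ∀ x : Γℚ → RootVec, (IsCocycle π x ∧
      ∀ ℓ : ℕ, ℓ.Prime → ℓ ∉ B → UnramifiedAt x ℓ) → ∀ g, ∀ u ∈ U, x (g * u) = x g := by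
    rintro x ⟨hx, hxu⟩ g u hu
    let H : Subgroup Γℚ :=
      { carrier := {k | π k = 1 ∧ x k = 0}
        one_mem' := ⟨map_one _, hx.map_one⟩
        mul_mem' := fun {a b} ha hb => ⟨by rw [map_mul, ha.1, hb.1, mul_one],
          by rw [hx.map_mul_of_ker ha.1, ha.2, hb.2, add_zero]⟩
        inv_mem' := fun {a} ha => ⟨by rw [map_inv, ha.1, inv_one], by
          have h := hx.map_mul_of_ker ha.1 a⁻¹
          rwa [mul_inv_cancel, hx.map_one, ha.2, zero_add, eq_comm] at h⟩ }
    have hn : H.Normal := ⟨fun k hk g =>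
      ⟨by rw [map_mul, map_mul, hk.1, mul_one, ← map_mul, mul_inv_cancel, map_one],
       by rw [hx.map_conj hk.1, hk.2, permVec_zero]⟩⟩
    obtain ⟨L, hL, hxL⟩ := hx.level
    have ho : IsOpen (H : Set Γℚ) := by
      have : FiniteDimensional ℚ (Lπ ⊔ L : IntermediateField ℚ ℚbar) :=
        IntermediateField.finiteDimensional_sup Lπ L
      refine Subgroup.isOpen_mono (H₁ := (Lπ ⊔ L : IntermediateField ℚ ℚbar).fixingSubgroup)
        (fun k hk => ⟨hπL k (IntermediateField.fixingSubgroup_antitone le_sup_left hk), ?_⟩)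
        (IntermediateField.fixingSubgroup_isOpen _)
      have := hxL 1 k (IntermediateField.fixingSubgroup_antitone le_sup_right hk)
      rwa [one_mul, hx.map_one] at this
    have hi : H.index ≤ Nat.card (Equiv.Perm (Fin 3) × RootVec) := by
      rw [Subgroup.index_eq_card]
      refine Nat.card_le_card_of_injective (fun q : Γℚ ⧸ H => (π q.out, x q.out)) fun p q h => ?_
      rw [Prod.mk.injEq] at h
      rw [← QuotientGroup.out_eq' p, ← QuotientGroup.out_eq' q, QuotientGroup.eq]
      refine ⟨by rw [map_mul, map_inv, h.1, inv_mul_cancel], ?_⟩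
      have h1 := hx.map_mul p.out (p.out⁻¹ * q.out)
      rw [mul_inv_cancel_left, ← h.2, left_eq_add] at h1
      have := congrArg (permVec (π p.out)⁻¹) h1
      rwa [← permVec_mul, inv_mul_cancel, permVec_one, permVec_zero] at this
    have hUH := hU H hn ho hi fun ℓ hℓ hℓB A hA k hk =>
      ⟨hunr ℓ hℓ hℓB A hA k hk, hxu ℓ hℓ hℓB A hA k hk⟩
    rw [hx.map_mul, (hUH hu).2, permVec_zero, add_zero]
  intro x hx y hy hxy
  funext g
  have h := QuotientGroup.mk_out_eq_mul U g
  obtain ⟨u, hu⟩ := h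
  have := congrFun hxy (g : Γℚ ⧸ U)
  simp only at this
  rw [hu, key x hx g u u.2, key y hy g u u.2] at this
  exact this

/-- At a prime where `π` is unramified and a Frobenius element acts as a transposition fixing
`i`, the decomposition group fixes `i`. -/
theorem decomposition_fix {A : ValuationSubring ℚbar} {ℓ : ℕ} {τ : Γℚ}
    (hτ : A.IsFrobeniusAt τ ℓ) (hunr : ∀ g ∈ A.inertiaSubgroupIn ℚ, π g = 1) (h1 : π τ ≠ 1)
    {i : Fin 3} (hi : π τ i = i) {g : Γℚ} (hg : g ∈ A.decompositionSubgroup ℚ) : π g i = i := by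
  let t : A.decompositionSubgroup ℚ := ⟨τ, hτ.mem_decompositionSubgroup⟩
  let s : A.decompositionSubgroup ℚ := ⟨g, hg⟩
  have ht : ∀ y : IsLocalRing.ResidueField A, t • y = y ^ ℓ := hτ.smul_residue_eq
  -- the commutator acts trivially on the residue field
  have hk : t * s * t⁻¹ * s⁻¹ ∈ A.inertiaSubgroup ℚ := by
    rw [ValuationSubring.inertiaSubgroup, MonoidHom.mem_ker]
    refine RingEquiv.ext fun y => ?_
    show (t * s * t⁻¹ * s⁻¹) • y = y
    rw [mul_smul, mul_smul, mul_smul, ht, ← smul_pow', ← ht, smul_inv_smul, smul_inv_smul]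
  have h := hunr _ (Subgroup.mem_map_of_mem (A.decompositionSubgroup ℚ).subtype hk)
  refine fixed_of_commute (π τ) (π g) i h1 hi ?_
  simp only [map_mul, map_inv, Subgroup.coe_subtype, s, t] at h
  calc π τ * π g = π τ * π g * (π τ)⁻¹ * (π g)⁻¹ * (π g * π τ) := by group
    _ = π g * π τ := by rw [h, one_mul]

end Fermat.Agent.Residual.Sel
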