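import Fermat.Agent.Residual.SelMain
import Fermat.Agent.Residual.ConicForm
import Fermat.Agent.TW.LocalGlobal
import Fermat.Agent.PoitouTate.GlobalPrincipalize

/-!
# From the Selmer cocycles to sign vectors

Translation of the local conditions into the form used by the reciprocity argument: sign vectors,
the fixed places `padicPlace v` and the local Galois groups.
-/

set_option autoImplicit false

open scoped Pointwise

namespace Fermat.Agent.Residual.Sel

local notation "ℚbar" => AlgebraicClosure ℚ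
local notation "Γℚ" => AlgebraicClosure ℚ ≃ₐ[ℚ] AlgebraicClosure ℚ

/-- The sign attached to an element of `ℤ/2`. -/
def sgn (a : ZMod 2) : ℤˣ := if a = 0 then 1 else -1

theorem sgn_add : ∀ a b : ZMod 2, sgn (a + b) = sgn a * sgn b := by decide

theorem sgn_eq_one : ∀ a : ZMod 2, sgn a = 1 ↔ a = 0 := by decide

theorem prod_sgn : ∀ v : RootVec, (∑ i, v i = 0) → ∏ i, sgn (v i) = 1 := by decide

variable {π : Γℚ →* Equiv.Perm (Fin 3)} {x : Γℚ → RootVec}

theorem IsCocycle.isTwist (hx : IsCocycle π x) : Conic.IsTwist π fun g i => sgn (x g i) :=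
  fun g h i => by
    show sgn (x (g * h) i) = sgn (x g i) * sgn (x h ((π g)⁻¹ i))
    rw [hx.map_mul, Pi.add_apply, sgn_add]
    rfl

theorem IsCocycle.hasLevel (hx : IsCocycle π x) :
    Conic.HasLevel fun g i => sgn (x g i) := by
  obtain ⟨L, hL, h⟩ := hx.level
  exact ⟨L, hL, fun g s hs =>
    funext fun i => congrArg sgn (congrFun
      (h g s ((IntermediateField.mem_fixingSubgroup_iff _ _).2 hs)) i)⟩

/-- The coordinate at the fixed root of a Frobenius element is the same at all places. -/
theorem apply_conj_fixed (hx : IsCocycle π x) {τ : Γℚ} {i : Fin 3} (hi : π τ i = i) (h : Γℚ) :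
    π (h * τ * h⁻¹) (π h i) = π h i ∧ x (h * τ * h⁻¹) (π h i) = x τ i := by
  have hfix : π (h * τ * h⁻¹) (π h i) = π h i := by simp [hi]
  refine ⟨hfix, ?_⟩
  have h1 := hx.apply_mul_of_fixed hfix h
  rw [inv_mul_cancel_right, hx.map_mul, Pi.add_apply] at h1
  have h2 : permVec (π h) (x τ) (π h i) = x τ i := by simp [permVec]
  rw [h2, add_comm (x (h * τ * h⁻¹) (π h i))] at h1
  exact (add_left_cancel h1).symm

/-- A Selmer cocycle with non-zero coordinate at a Frobenius element of `q` is not of line type at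
the fixed place over `q`: some element of the local Galois group has non-zero coordinate at the
root fixed by it. -/
theorem exists_local_ne_zero {q : ℕ} [hq : Fact q.Prime]
    (hunr : ∀ A : ValuationSubring ℚbar, A.LiesOverPrime q →
      ∀ g ∈ A.inertiaSubgroupIn ℚ, π g = 1)
    {A : ValuationSubring ℚbar} (hA : A.LiesOverPrime q) {τ : Γℚ} (hτ : A.IsFrobeniusAt τ q)
    {i : Fin 3} (h1 : π τ ≠ 1) (hi : π τ i = i) (hx : IsCocycle π x) (hxτ : x τ i = 1) :
    ∃ j, (∀ g ∈ (padicPlace q).decompositionSubgroup ℚ, π g j = j) ∧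
      ∃ g, x (localGaloisToGlobal q g) j ≠ 0 := by
  obtain ⟨h, hh⟩ := Galois.exists_smul_eq_of_liesOverPrime hq.out hA (PoitouTate.liesOverPrime_padicPlace ⟨q, hq.out⟩)
  have hτ' := Density.isFrobeniusAt_conj hτ h
  rw [hh] at hτ'
  obtain ⟨hfix, hval⟩ := apply_conj_fixed hx hi h
  have h1' : π (h * τ * h⁻¹) ≠ 1 := by
    rw [map_mul, map_mul, map_inv, Ne, conj_eq_one_iff]
    exact h1
  refine ⟨π h i, fun g hg =>
    decomposition_fix hτ' (hunr _ (PoitouTate.liesOverPrime_padicPlace ⟨q, hq.out⟩)) h1' hfix hg, ?_⟩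
  obtain ⟨g, hg⟩ := TW.exists_localGaloisToGlobal_eq q hτ'.mem_decompositionSubgroup
  exact ⟨g, by rw [hg, hval, hxτ]; exact one_ne_zero⟩

end Fermat.Agent.Residual.Sel
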